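import Fermat.Agent.CFT.PT.SmoothQuot
import Fermat.Agent.CFT.Bridge.GlobalLevelInst
import Fermat.Agent.CFT.Bridge.LocalFinite

/-!
# S55 BRIDGE: the prelude's `continuousH1S / continuousH2S / continuousH1 r / continuousH2 r`
are the level-constant cohomology groups `Hlc` of the engine

* `famS S : LevelFamily Γℚ` : fixing subgroups of the finite `K/ℚ` unramified outside `S` with
  normal fixing subgroup.  For `M` with a level `L₀ : SLevel S M`:
  `levelCochainsS₁_eq`, `levelCochainsS₂_eq`, `smooth_of_sLevel`,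
  `continuousH2SEquiv : continuousH2S S M ≃ₗ Hlc (famS S) M 2`,
  `continuousH1SEquiv : Hlc (famS S) M 1 ≃ₗ continuousH1S S M`.
* `famR r : LevelFamily H` for `r : H →* Γℚ` (pulled back finite levels).  For `N : Rep k H` with a
  level `L₀ : RLevel r N`: `levelCochains₁_eq`, `levelCochains₂_eq`, `smooth_of_rLevel`,
  `continuousH2Equiv : continuousH2 r N ≃ₗ Hlc (famR r) N 2`,
  `continuousH1Equiv : Hlc (famR r) N 1 ≃ₗ continuousH1 r N`.
* `famR_compat_famS`, `SLevel.toRLevel`, and the compatibility of `locRes₂S` with `HlcMap`.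
-/

namespace Fermat.Agent.PT

open CategoryTheory groupCohomology Rep Fermat.Agent.CFT

local notation "Γℚ" => (AlgebraicClosure ℚ ≃ₐ[ℚ] AlgebraicClosure ℚ)

section Global

/-- The family of fixing subgroups of finite extensions of `ℚ` unramified outside `S` with normal
fixing subgroup. -/
def famS (S : Finset Nat.Primes) : LevelFamily Γℚ where
  sets := {U | ∃ K : IntermediateField ℚ (AlgebraicClosure ℚ),
    K.IsUnramifiedOutside S ∧ K.fixingSubgroup.Normal ∧ K.fixingSubgroup = U}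
  normal := by
    rintro U ⟨K, -, hn, rfl⟩
    exact hn
  nonempty := ⟨(⊥ : IntermediateField ℚ (AlgebraicClosure ℚ)).fixingSubgroup, ⊥,
    IntermediateField.isUnramifiedOutside_bot S, by
      rw [IntermediateField.fixingSubgroup_bot]; infer_instance, rfl⟩
  directed := by
    rintro U ⟨K, hK, -, rfl⟩ V ⟨K', hK', -, rfl⟩
    obtain ⟨F', hle, hF', hn⟩ := hasNormalEnlargement S (K ⊔ K') (hK.sup hK')
    exact ⟨F'.fixingSubgroup, ⟨F', hF', hn, rfl⟩,
      le_inf (IntermediateField.fixingSubgroup_antitone (le_sup_left.trans hle))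
        (IntermediateField.fixingSubgroup_antitone (le_sup_right.trans hle))⟩

variable {k : Type} [CommRing k] {S : Finset Nat.Primes} (M : Rep k Γℚ) (L₀ : SLevel S M)

include L₀ in
theorem levelCochainsS₁_eq : levelCochainsS₁ S M = lcCochains₁ (famS S) M := by
  ext x
  rw [mem_levelCochainsS₁_iff, mem_lcCochains₁]
  constructor
  · rintro ⟨F, hF, hx⟩
    obtain ⟨L, -, hFL⟩ := SLevel.exists_ge (hasNormalEnlargement S) L₀ F hF
    refine ⟨L.N, ⟨L.K, L.unram, L.normal, rfl⟩, fun g s hs =>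
      hx g s (IntermediateField.fixingSubgroup_antitone hFL hs), fun g u hu => ?_⟩
    exact LinearMap.congr_fun (Representation.isTrivial_def (M.ρ.comp L.N.subtype) ⟨u, hu⟩) (x g)
  · rintro ⟨U, ⟨K, hK, -, rfl⟩, hx⟩
    exact ⟨K, hK, fun g s hs => hx.1 g s hs⟩

include L₀ in
theorem levelCochainsS₂_eq : levelCochainsS₂ S M = lcCochains₂ (famS S) M := by
  ext x
  rw [mem_levelCochainsS₂_iff, mem_lcCochains₂]
  constructor
  · rintro ⟨F, hF, hx⟩
    obtain ⟨L, -, hFL⟩ := SLevel.exists_ge (hasNormalEnlargement S) L₀ F hF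
    refine ⟨L.N, ⟨L.K, L.unram, L.normal, rfl⟩, fun g g' s hs s' hs' =>
      hx g g' s s' (IntermediateField.fixingSubgroup_antitone hFL hs)
        (IntermediateField.fixingSubgroup_antitone hFL hs'), fun y u hu => ?_⟩
    exact LinearMap.congr_fun (Representation.isTrivial_def (M.ρ.comp L.N.subtype) ⟨u, hu⟩) (x y)
  · rintro ⟨U, ⟨K, hK, -, rfl⟩, hx⟩
    exact ⟨K, hK, fun g g' s s' hs hs' => hx.1 g g' s hs s' hs'⟩

include L₀ in
theorem smooth_of_sLevel (a : M) : a ∈ lcCochains₀ (famS S) M :=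
  mem_lcCochains₀.2 ⟨L₀.N, ⟨L₀.K, L₀.unram, L₀.normal, rfl⟩, fun u hu =>
    LinearMap.congr_fun (Representation.isTrivial_def (M.ρ.comp L₀.N.subtype) ⟨u, hu⟩) a⟩

/-- **Bridge, global `H²`.** -/
noncomputable def continuousH2SEquiv : continuousH2S S M ≃ₗ[k] Hlc (famS S) M 2 :=
  quotEquivHlc₂ (famS S) M (levelCochainsS₁ S M) (levelCochainsS₂ S M)
    (levelCochainsS₁_eq M L₀) (levelCochainsS₂_eq M L₀)

lemma continuousH2SEquiv_mk (c : ↥(levelCocyclesS₂ S M)) :
    continuousH2SEquiv M L₀ (continuousH2Sπ S M c) =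
      lcπ₂ (famS S) M ⟨c.1, ⟨c.2.1, levelCochainsS₂_eq M L₀ ▸ c.2.2⟩⟩ := rfl

/-- **Bridge, global `H¹`.** -/
noncomputable def continuousH1SEquiv : Hlc (famS S) M 1 ≃ₗ[k] ↥(continuousH1S S M) :=
  hlcEquivH1 (famS S) M (levelCochainsS₁ S M) (levelCochainsS₁_eq M L₀) (smooth_of_sLevel M L₀)

lemma coe_continuousH1SEquiv (y : Hlc (famS S) M 1) :
    (continuousH1SEquiv M L₀ y : H1 M) = (lcToH (famS S) M 1).hom y := rfl

end Global

section Local

variable {H : Type} [Group H] (r : H →* Γℚ)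

/-- The family of pulled-back finite levels on `H` along `r : H →* Γℚ`. -/
def famR : LevelFamily H where
  sets := {V | ∃ K : IntermediateField ℚ (AlgebraicClosure ℚ),
    FiniteDimensional ℚ K ∧ (K.fixingSubgroup.comap r).Normal ∧ K.fixingSubgroup.comap r = V}
  normal := by
    rintro V ⟨K, -, hn, rfl⟩
    exact hn
  nonempty := ⟨(⊥ : IntermediateField ℚ (AlgebraicClosure ℚ)).fixingSubgroup.comap r, ⊥,
    inferInstance, by
      rw [IntermediateField.fixingSubgroup_bot, Subgroup.comap_top]; infer_instance, rfl⟩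
  directed := by
    rintro U ⟨K, hK, -, rfl⟩ V ⟨K', hK', -, rfl⟩
    have := hK
    have := hK'
    have hfd : FiniteDimensional ℚ ↥(K ⊔ K') := IntermediateField.finiteDimensional_sup K K'
    refine ⟨(galClosure (K ⊔ K')).fixingSubgroup.comap r,
      ⟨galClosure (K ⊔ K'), galClosure_finiteDimensional _,
        (galClosure_fixingSubgroup_normal _).comap r, rfl⟩, le_inf ?_ ?_⟩
    · exact Subgroup.comap_mono (IntermediateField.fixingSubgroup_antitone
        (le_sup_left.trans (le_galClosure _)))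
    · exact Subgroup.comap_mono (IntermediateField.fixingSubgroup_antitone
        (le_sup_right.trans (le_galClosure _)))

variable {k : Type} [CommRing k] {r} (N : Rep k H) (L₀ : RLevel r N)

include L₀ in
theorem levelCochains₁_eq : levelCochains₁ r N = lcCochains₁ (famR r) N := by
  ext x
  rw [mem_levelCochains₁_iff, mem_lcCochains₁]
  constructor
  · rintro ⟨F, hF, hx⟩
    obtain ⟨L, -, hFL⟩ := RLevel.exists_ge L₀ F hF
    refine ⟨L.N, ⟨L.K, L.fin, L.normal, rfl⟩, fun g s hs =>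
      hx g s (IntermediateField.fixingSubgroup_antitone hFL hs), fun g u hu => ?_⟩
    exact LinearMap.congr_fun (Representation.isTrivial_def (N.ρ.comp L.N.subtype) ⟨u, hu⟩) (x g)
  · rintro ⟨U, ⟨K, hK, -, rfl⟩, hx⟩
    exact ⟨K, hK, fun g s hs => hx.1 g s hs⟩

include L₀ in
theorem levelCochains₂_eq : levelCochains₂ r N = lcCochains₂ (famR r) N := by
  ext x
  rw [mem_levelCochains₂_iff, mem_lcCochains₂]
  constructor
  · rintro ⟨F, hF, hx⟩
    obtain ⟨L, -, hFL⟩ := RLevel.exists_ge L₀ F hF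
    refine ⟨L.N, ⟨L.K, L.fin, L.normal, rfl⟩, fun g g' s hs s' hs' =>
      hx g g' s s' (IntermediateField.fixingSubgroup_antitone hFL hs)
        (IntermediateField.fixingSubgroup_antitone hFL hs'), fun y u hu => ?_⟩
    exact LinearMap.congr_fun (Representation.isTrivial_def (N.ρ.comp L.N.subtype) ⟨u, hu⟩) (x y)
  · rintro ⟨U, ⟨K, hK, -, rfl⟩, hx⟩
    exact ⟨K, hK, fun g g' s s' hs hs' => hx.1 g g' s hs s' hs'⟩

include L₀ in
theorem smooth_of_rLevel (a : N) : a ∈ lcCochains₀ (famR r) N :=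
  mem_lcCochains₀.2 ⟨L₀.N, ⟨L₀.K, L₀.fin, L₀.normal, rfl⟩, fun u hu =>
    LinearMap.congr_fun (Representation.isTrivial_def (N.ρ.comp L₀.N.subtype) ⟨u, hu⟩) a⟩

/-- **Bridge, local `H²`.** -/
noncomputable def continuousH2Equiv : continuousH2 r N ≃ₗ[k] Hlc (famR r) N 2 :=
  quotEquivHlc₂ (famR r) N (levelCochains₁ r N) (levelCochains₂ r N)
    (levelCochains₁_eq N L₀) (levelCochains₂_eq N L₀)

lemma continuousH2Equiv_mk (c : ↥(levelCocycles₂ r N)) :
    continuousH2Equiv N L₀ (continuousH2π r N c) =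
      lcπ₂ (famR r) N ⟨c.1, ⟨c.2.1, levelCochains₂_eq N L₀ ▸ c.2.2⟩⟩ := rfl

/-- **Bridge, local `H¹`.** -/
noncomputable def continuousH1Equiv : Hlc (famR r) N 1 ≃ₗ[k] ↥(continuousH1 r N) :=
  hlcEquivH1 (famR r) N (levelCochains₁ r N) (levelCochains₁_eq N L₀) (smooth_of_rLevel N L₀)

lemma coe_continuousH1Equiv (y : Hlc (famR r) N 1) :
    (continuousH1Equiv N L₀ y : H1 N) = (lcToH (famR r) N 1).hom y := rfl

end Local

section Compat

variable {H : Type} [Group H] (r : H →* Γℚ) (S : Finset Nat.Primes)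

/-- `r : H → Γℚ` is "continuous" for the pulled-back family. -/
theorem famR_compat_famS : (famR r).Compat r (famS S) := by
  rintro U ⟨K, hK, hn, rfl⟩
  exact ⟨K.fixingSubgroup.comap r, ⟨K, hK.1, hn.comap r, rfl⟩, le_rfl⟩

variable {k : Type} [CommRing k] {S} {M : Rep k Γℚ}

/-- A global level restricts to a level of the restricted representation. -/
def _root_.Fermat.Agent.CFT.SLevel.toRLevel (L : SLevel S M) : RLevel r (Rep.res r M) where
  K := L.K
  fin := L.unram.1
  normal := L.normal.comap r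
  triv := ⟨fun s => by
    have hs : r s.1 ∈ L.K.fixingSubgroup := s.2
    exact Representation.isTrivial_def (M.ρ.comp L.N.subtype) ⟨r s.1, hs⟩⟩

/-- **Bridge, localisation in degree 2**: `locRes₂S` is `HlcMap`. -/
theorem continuousH2Equiv_locRes₂S (L₀ : SLevel S M) (x : continuousH2S S M) :
    continuousH2Equiv (Rep.res r M) (L₀.toRLevel r) (locRes₂S S M r x) =
      (HlcMap r (𝟙 (Rep.res r M)) (famR_compat_famS r S) 2).hom (continuousH2SEquiv M L₀ x) := by
  obtain ⟨c, rfl⟩ := Submodule.Quotient.mk_surjective _ x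
  change continuousH2Equiv (Rep.res r M) (L₀.toRLevel r) (continuousH2π r (Rep.res r M) _) =
    (HlcMap r (𝟙 (Rep.res r M)) (famR_compat_famS r S) 2).hom
      (continuousH2SEquiv M L₀ (continuousH2Sπ S M c))
  rw [continuousH2Equiv_mk, continuousH2SEquiv_mk, HlcMap_lcπ₂]
  rfl

/-- **Bridge, localisation in degree 1**: `locRes` is `HlcMap` (through `lcToH`). -/
theorem lcToH_HlcMap_one (y : Hlc (famS S) M 1) :
    (lcToH (famR r) (Rep.res r M) 1).hom
        ((HlcMap r (𝟙 (Rep.res r M)) (famR_compat_famS r S) 1).hom y) =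
      (groupCohomology.map r (𝟙 (Rep.res r M)) 1).hom ((lcToH (famS S) M 1).hom y) :=
  congr($(HlcMap_comp_lcToH r (𝟙 (Rep.res r M)) (famR_compat_famS r S) 1) y)

end Compat

section Sha

variable (S : Finset Nat.Primes) {k : Type} [CommRing k] (M : Rep k Γℚ)

/-- The engine-side Tate–Shafarevich group: classes in `Hlc^n(G_S, M)` that die in every
`Hlc^n(G_v, M)`, `v ∈ S ∪ {∞}`. -/
noncomputable def lcSha (n : ℕ) : Submodule k (Hlc (famS S) M n) :=
  ⨅ v : ExtCitation.extArithIndex S, LinearMap.ker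
    (HlcMap (ExtCitation.extArithLoc S v) (𝟙 (Rep.res (ExtCitation.extArithLoc S v) M))
      (famR_compat_famS (ExtCitation.extArithLoc S v) S) n).hom

variable {S M}

lemma mem_lcSha {n : ℕ} {y : Hlc (famS S) M n} :
    y ∈ lcSha S M n ↔ ∀ v : ExtCitation.extArithIndex S,
      (HlcMap (ExtCitation.extArithLoc S v) (𝟙 (Rep.res (ExtCitation.extArithLoc S v) M))
        (famR_compat_famS (ExtCitation.extArithLoc S v) S) n).hom y = 0 := by
  simp [lcSha, Submodule.mem_iInf]

/-- **Bridge for `Ш²`.** -/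
theorem mem_sha₂_iff_mem_lcSha (L₀ : SLevel S M) (x : continuousH2S S M) :
    x ∈ sha₂ S M ↔ continuousH2SEquiv M L₀ x ∈ lcSha S M 2 := by
  rw [mem_lcSha]
  change locTotal₂S S M x = 0 ↔ _
  rw [funext_iff]
  refine forall_congr' fun v => ?_
  rw [← continuousH2Equiv_locRes₂S (ExtCitation.extArithLoc S v) L₀ x]
  simp

/-- `Ш²` of the prelude is the engine's `Ш²`. -/
noncomputable def sha₂Equiv (L₀ : SLevel S M) : ↥(sha₂ S M) ≃ₗ[k] ↥(lcSha S M 2) :=
  (continuousH2SEquiv M L₀).submoduleMap (sha₂ S M) |>.trans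
    (LinearEquiv.ofEq _ _ (by
      ext y
      constructor
      · rintro ⟨x, hx, rfl⟩
        exact (mem_sha₂_iff_mem_lcSha L₀ x).1 hx
      · intro hy
        refine ⟨(continuousH2SEquiv M L₀).symm y, ?_, by simp⟩
        rw [SetLike.mem_coe, mem_sha₂_iff_mem_lcSha L₀]
        simpa using hy))

end Sha

section Sha1

variable {S : Finset Nat.Primes} {K : Type} [Field K] {A : Rep K Γℚ}

/-- **Bridge for `Ш¹`.** -/
theorem lcToH_mem_sha₁_iff (L₀ : SLevel S A) (y : Hlc (famS S) A 1) :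
    (lcToH (famS S) A 1).hom y ∈ sha₁ S A ↔ y ∈ lcSha S A 1 := by
  rw [mem_lcSha]
  change _ ∈ continuousH1S S A ⊓ LinearMap.ker (locTotal (ExtCitation.extArithLoc S) A) ↔ _
  rw [Submodule.mem_inf, LinearMap.mem_ker, funext_iff]
  have h1 : (lcToH (famS S) A 1).hom y ∈ continuousH1S S A :=
    (continuousH1SEquiv A L₀ y).2
  simp only [h1, true_and]
  refine forall_congr' fun v => ?_
  change (groupCohomology.map (ExtCitation.extArithLoc S v)
    (𝟙 (Rep.res (ExtCitation.extArithLoc S v) A)) 1).hom ((lcToH (famS S) A 1).hom y) = 0 ↔ _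
  rw [← lcToH_HlcMap_one (ExtCitation.extArithLoc S v) y]
  constructor
  · intro h
    exact lcToH_one_injective _ _ (smooth_of_rLevel _ (L₀.toRLevel _)) (h.trans (map_zero _).symm)
  · intro h
    rw [h, map_zero]

/-- `Ш¹` of the prelude is the engine's `Ш¹`. -/
noncomputable def sha₁Equiv (L₀ : SLevel S A) : ↥(lcSha S A 1) ≃ₗ[K] ↥(sha₁ S A) :=
  LinearEquiv.ofBijective
    ((((lcToH (famS S) A 1).hom).domRestrict (lcSha S A 1)).codRestrict (sha₁ S A)
      fun y => (lcToH_mem_sha₁_iff L₀ y.1).2 y.2)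
    ⟨by
      intro y y' h
      have h' : (lcToH (famS S) A 1).hom y.1 = (lcToH (famS S) A 1).hom y'.1 :=
        congrArg Subtype.val h
      exact Subtype.ext (lcToH_one_injective _ _ (smooth_of_sLevel A L₀) h'),
     by
      rintro ⟨x, hx⟩
      have hx1 : x ∈ continuousH1S S A := hx.1
      obtain ⟨y, hy⟩ := (continuousH1SEquiv A L₀).surjective ⟨x, hx1⟩
      have hy' : (lcToH (famS S) A 1).hom y = x := congrArg Subtype.val hy
      refine ⟨⟨y, (lcToH_mem_sha₁_iff L₀ y).1 (hy' ▸ hx)⟩, Subtype.ext hy'⟩⟩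

end Sha1

end Fermat.Agent.PT
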