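import Mathlib

/-!
# S55 engine (E1): level-constant ("smooth") cochains

For a group `G` with a directed family `𝔉` of normal subgroups (the "open normal subgroups") and
`A : Rep k G`, the level-constant cochains `lcCochains 𝔉 A n` are the inhomogeneous `n`-cochains
`f : (Fin n → G) → A` for which there is `U ∈ 𝔉` such that `f` factors through `(G ⧸ U)^n` and
takes values in the `U`-invariants.  They form a subcomplex `lcComplex 𝔉 A` of Mathlib's
`groupCohomology.inhomogeneousCochains A`; its cohomology is `Hlc 𝔉 A n`.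

Main declarations (namespace `Fermat.Agent.PT`):
* `LevelFamily G`, `IsLevel A n U f`, `lcCochains 𝔉 A n : Submodule k ((Fin n → G) → A)`
* `d_mem_lcCochains`, `lcComplex 𝔉 A`, `lcι 𝔉 A : lcComplex 𝔉 A ⟶ inhomogeneousCochains A`
* `Hlc 𝔉 A n`, `lcToH 𝔉 A n : Hlc 𝔉 A n ⟶ groupCohomology A n`
* `LevelFamily.Compat ψ 𝔉H 𝔉G`, `lcMap`, `HlcMap`
-/

namespace Fermat.Agent.PT

open CategoryTheory groupCohomology Rep

universe u

variable {k G : Type u} [CommRing k] [Group G]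

/-- A nonempty directed family of normal subgroups of `G`. -/
structure LevelFamily (G : Type u) [Group G] where
  /-- the members of the family -/
  sets : Set (Subgroup G)
  normal : ∀ U ∈ sets, U.Normal
  nonempty : sets.Nonempty
  directed : ∀ U ∈ sets, ∀ V ∈ sets, ∃ W ∈ sets, W ≤ U ⊓ V

/-- `f : (Fin n → G) → A` has level `U`: it is constant on `U`-cosets in each variable and takes
`U`-fixed values. -/
def IsLevel (A : Rep.{u} k G) (n : ℕ) (U : Subgroup G) (f : (Fin n → G) → A) : Prop :=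
  (∀ g h : Fin n → G, (∀ i, (g i)⁻¹ * h i ∈ U) → f g = f h) ∧ ∀ g, ∀ u ∈ U, A.ρ u (f g) = f g

namespace IsLevel

variable {A : Rep.{u} k G} {n : ℕ} {U V : Subgroup G} {f f' : (Fin n → G) → A}

lemma mono (hf : IsLevel A n U f) (hVU : V ≤ U) : IsLevel A n V f :=
  ⟨fun g h hgh => hf.1 g h fun i => hVU (hgh i), fun g u hu => hf.2 g u (hVU hu)⟩

lemma zero : IsLevel A n U (0 : (Fin n → G) → A) :=
  ⟨fun _ _ _ => rfl, fun _ _ _ => by simp⟩

lemma add (hf : IsLevel A n U f) (hf' : IsLevel A n U f') : IsLevel A n U (f + f') :=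
  ⟨fun g h hgh => by simp [hf.1 g h hgh, hf'.1 g h hgh],
    fun g u hu => by simp [hf.2 g u hu, hf'.2 g u hu]⟩

lemma smul (c : k) (hf : IsLevel A n U f) : IsLevel A n U (c • f) :=
  ⟨fun g h hgh => by simp [hf.1 g h hgh], fun g u hu => by simp [hf.2 g u hu]⟩

end IsLevel

/-- The level-constant `n`-cochains. -/
def lcCochains (𝔉 : LevelFamily G) (A : Rep.{u} k G) (n : ℕ) : Submodule k ((Fin n → G) → A) where
  carrier := {f | ∃ U ∈ 𝔉.sets, IsLevel A n U f}
  zero_mem' := by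
    obtain ⟨U, hU⟩ := 𝔉.nonempty
    exact ⟨U, hU, IsLevel.zero⟩
  add_mem' := by
    rintro f f' ⟨U, hU, hf⟩ ⟨V, hV, hf'⟩
    obtain ⟨W, hW, hle⟩ := 𝔉.directed U hU V hV
    exact ⟨W, hW, (hf.mono (hle.trans inf_le_left)).add (hf'.mono (hle.trans inf_le_right))⟩
  smul_mem' := by
    rintro c f ⟨U, hU, hf⟩
    exact ⟨U, hU, hf.smul c⟩

lemma mem_lcCochains {𝔉 : LevelFamily G} {A : Rep.{u} k G} {n : ℕ} {f : (Fin n → G) → A} :
    f ∈ lcCochains 𝔉 A n ↔ ∃ U ∈ 𝔉.sets, IsLevel A n U f := Iff.rfl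

section Differential

variable {A : Rep.{u} k G} {n : ℕ} {U : Subgroup G}

lemma contractNth_inv_mul_mem [U.Normal] (j : Fin (n + 1)) {g h : Fin (n + 1) → G}
    (hgh : ∀ i, (g i)⁻¹ * h i ∈ U) (i : Fin n) :
    (Fin.contractNth j (· * ·) g i)⁻¹ * Fin.contractNth j (· * ·) h i ∈ U := by
  rcases lt_trichotomy (i : ℕ) j with hlt | heq | hgt
  · rw [Fin.contractNth_apply_of_lt _ _ _ _ hlt, Fin.contractNth_apply_of_lt _ _ _ _ hlt]
    exact hgh _
  · rw [Fin.contractNth_apply_of_eq _ _ _ _ heq, Fin.contractNth_apply_of_eq _ _ _ _ heq]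
    have h1 := hgh (Fin.castSucc i)
    have h2 := hgh i.succ
    have : (g (Fin.castSucc i) * g i.succ)⁻¹ * (h (Fin.castSucc i) * h i.succ) =
        ((g i.succ)⁻¹ * ((g (Fin.castSucc i))⁻¹ * h (Fin.castSucc i)) * (g i.succ)⁻¹⁻¹) *
          ((g i.succ)⁻¹ * h i.succ) := by
      group
    rw [this]
    exact U.mul_mem (Subgroup.Normal.conj_mem inferInstance _ h1 _) h2
  · rw [Fin.contractNth_apply_of_gt _ _ _ _ hgt, Fin.contractNth_apply_of_gt _ _ _ _ hgt]
    exact hgh _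

/-- The Mathlib differential preserves the level (for a normal `U`). -/
lemma IsLevel.d [U.Normal] {f : (Fin n → G) → A} (hf : IsLevel A n U f) :
    IsLevel A (n + 1) U ((inhomogeneousCochains.d A n).hom f) := by
  constructor
  · intro g h hgh
    rw [inhomogeneousCochains.d_hom_apply, inhomogeneousCochains.d_hom_apply]
    congr 1
    · have h1 : (f fun i => g i.succ) = f fun i => h i.succ := hf.1 _ _ fun i => hgh i.succ
      rw [h1]
      have h2 : h 0 = g 0 * ((g 0)⁻¹ * h 0) := by group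
      rw [h2, map_mul]
      change A.ρ (g 0) (f fun i => h i.succ) = A.ρ (g 0) (A.ρ ((g 0)⁻¹ * h 0) (f fun i => h i.succ))
      rw [hf.2 _ _ (hgh 0)]
    · refine Finset.sum_congr rfl fun j _ => ?_
      rw [hf.1 _ _ (contractNth_inv_mul_mem j hgh)]
  · intro g u hu
    rw [inhomogeneousCochains.d_hom_apply, map_add, map_sum]
    congr 1
    · have h1 : u * g 0 = g 0 * ((g 0)⁻¹ * u * (g 0)⁻¹⁻¹) := by group
      change A.ρ u (A.ρ (g 0) (f fun i => g i.succ)) = _
      rw [← Module.End.mul_apply, ← map_mul, h1, map_mul, Module.End.mul_apply,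
        hf.2 _ _ (Subgroup.Normal.conj_mem inferInstance _ hu _)]
    · refine Finset.sum_congr rfl fun j _ => ?_
      rw [map_smul, hf.2 _ _ hu]

lemma d_mem_lcCochains (𝔉 : LevelFamily G) {f : (Fin n → G) → A} (hf : f ∈ lcCochains 𝔉 A n) :
    (inhomogeneousCochains.d A n).hom f ∈ lcCochains 𝔉 A (n + 1) := by
  obtain ⟨U, hU, hfU⟩ := hf
  have := 𝔉.normal U hU
  exact ⟨U, hU, hfU.d⟩

end Differential

section Complex

variable (𝔉 : LevelFamily G) (A : Rep.{u} k G)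

/-- The differential restricted to level-constant cochains. -/
noncomputable def lcD (n : ℕ) :
    ModuleCat.of k (lcCochains 𝔉 A n) ⟶ ModuleCat.of k (lcCochains 𝔉 A (n + 1)) :=
  ModuleCat.ofHom ((inhomogeneousCochains.d A n).hom.restrict fun _ hf => d_mem_lcCochains 𝔉 hf)

lemma lcD_apply_coe (n : ℕ) (f : lcCochains 𝔉 A n) :
    Subtype.val (p := fun x => x ∈ lcCochains 𝔉 A (n + 1)) ((lcD 𝔉 A n).hom f) =
      (inhomogeneousCochains.d A n).hom f.1 := rfl

lemma lcD_comp_lcD (n : ℕ) : lcD 𝔉 A n ≫ lcD 𝔉 A (n + 1) = 0 := by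
  ext f : 2
  apply Subtype.ext
  have h := inhomogeneousCochains.d_comp_d (A := A) (n := n)
  exact congr($h f.1)

/-- The complex of level-constant cochains. -/
noncomputable def lcComplex : CochainComplex (ModuleCat k) ℕ :=
  CochainComplex.of (fun n => ModuleCat.of k (lcCochains 𝔉 A n)) (lcD 𝔉 A) (lcD_comp_lcD 𝔉 A)

@[simp] lemma lcComplex_d (n : ℕ) : (lcComplex 𝔉 A).d n (n + 1) = lcD 𝔉 A n := by
  simp [lcComplex]

variable {𝔉 A} in
lemma lcX_ext {n : ℕ} {x y : (lcComplex 𝔉 A).X n}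
    (h : Subtype.val (p := fun f => f ∈ lcCochains 𝔉 A n) x =
      Subtype.val (p := fun f => f ∈ lcCochains 𝔉 A n) y) : x = y :=
  Subtype.ext h

/-- The inclusion of the level-constant cochains into all inhomogeneous cochains. -/
noncomputable def lcι : lcComplex 𝔉 A ⟶ inhomogeneousCochains A :=
  CochainComplex.ofHom (fun n => ModuleCat.ofHom (lcCochains 𝔉 A n).subtype)
    (fun n => by
      rw [lcComplex_d, inhomogeneousCochains.d_def]
      rfl)

/-- Level-constant ("smooth") cohomology. -/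
noncomputable def Hlc (n : ℕ) : ModuleCat k := (lcComplex 𝔉 A).homology n

/-- The comparison map to abstract group cohomology. -/
noncomputable def lcToH (n : ℕ) : Hlc 𝔉 A n ⟶ groupCohomology A n :=
  HomologicalComplex.homologyMap (lcι 𝔉 A) n

end Complex

section Functoriality

variable {H : Type u} [Group H]

/-- `ψ : H →* G` is compatible with the families `𝔉H` on `H` and `𝔉G` on `G` ("continuous"):
every member of `𝔉G` contains the image of a member of `𝔉H`. -/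
def LevelFamily.Compat (ψ : H →* G) (𝔉H : LevelFamily H) (𝔉G : LevelFamily G) : Prop :=
  ∀ U ∈ 𝔉G.sets, ∃ V ∈ 𝔉H.sets, V ≤ U.comap ψ

lemma LevelFamily.compat_id (𝔉 : LevelFamily G) : 𝔉.Compat (MonoidHom.id G) 𝔉 :=
  fun U hU => ⟨U, hU, le_rfl⟩

variable {A : Rep.{u} k G} {B : Rep.{u} k H} (ψ : H →* G) (φ : res ψ A ⟶ B)

lemma IsLevel.cochainsMap {U : Subgroup G} {V : Subgroup H} (hVU : V ≤ U.comap ψ) {n : ℕ}
    {f : (Fin n → G) → A} (hf : IsLevel A n U f) :
    IsLevel B n V (((cochainsMap ψ φ).f n).hom f) := by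
  constructor
  · intro g h hgh
    change φ.hom (f (ψ ∘ g)) = φ.hom (f (ψ ∘ h))
    rw [hf.1 (ψ ∘ g) (ψ ∘ h) fun i => by
      have := hVU (hgh i)
      simpa using this]
  · intro g v hv
    change B.ρ v (φ.hom (f (ψ ∘ g))) = φ.hom (f (ψ ∘ g))
    rw [← Rep.hom_comm_apply φ v]
    change φ.hom (A.ρ (ψ v) (f (ψ ∘ g))) = _
    rw [hf.2 _ _ (hVU hv)]

variable {𝔉H : LevelFamily H} {𝔉G : LevelFamily G}

lemma cochainsMap_mem_lcCochains (hψ : 𝔉H.Compat ψ 𝔉G) {n : ℕ} {f : (Fin n → G) → A}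
    (hf : f ∈ lcCochains 𝔉G A n) : ((cochainsMap ψ φ).f n).hom f ∈ lcCochains 𝔉H B n := by
  obtain ⟨U, hU, hfU⟩ := hf
  obtain ⟨V, hV, hVU⟩ := hψ U hU
  exact ⟨V, hV, hfU.cochainsMap ψ φ hVU⟩

/-- Functoriality of the level-constant complex. -/
noncomputable def lcMap (hψ : 𝔉H.Compat ψ 𝔉G) : lcComplex 𝔉G A ⟶ lcComplex 𝔉H B :=
  CochainComplex.ofHom
    (fun n => ModuleCat.ofHom (((cochainsMap ψ φ).f n).hom.restrict
      fun _ hf => cochainsMap_mem_lcCochains ψ φ hψ hf))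
    (fun n => by
      rw [lcComplex_d, lcComplex_d]
      ext f : 2
      apply Subtype.ext
      have h := (cochainsMap ψ φ).comm n (n + 1)
      rw [inhomogeneousCochains.d_def, inhomogeneousCochains.d_def] at h
      exact congr($h f.1))

lemma lcMap_f_apply_coe (hψ : 𝔉H.Compat ψ 𝔉G) (n : ℕ) (f : lcCochains 𝔉G A n) :
    Subtype.val (p := fun x => x ∈ lcCochains 𝔉H B n) (((lcMap ψ φ hψ).f n).hom f) =
      ((cochainsMap ψ φ).f n).hom f.1 := rfl

@[reassoc]
lemma lcMap_comp_lcι (hψ : 𝔉H.Compat ψ 𝔉G) :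
    lcMap ψ φ hψ ≫ lcι 𝔉H B = lcι 𝔉G A ≫ cochainsMap ψ φ := by
  ext n f : 3
  rfl

/-- Functoriality of level-constant cohomology. -/
noncomputable def HlcMap (hψ : 𝔉H.Compat ψ 𝔉G) (n : ℕ) : Hlc 𝔉G A n ⟶ Hlc 𝔉H B n :=
  HomologicalComplex.homologyMap (lcMap ψ φ hψ) n

@[reassoc]
lemma HlcMap_comp_lcToH (hψ : 𝔉H.Compat ψ 𝔉G) (n : ℕ) :
    HlcMap ψ φ hψ n ≫ lcToH 𝔉H B n = lcToH 𝔉G A n ≫ groupCohomology.map ψ φ n := by
  exact (HomologicalComplex.homologyMap_comp _ _ n).symm.trans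
    ((congrArg (fun f => HomologicalComplex.homologyMap f n) (lcMap_comp_lcι ψ φ hψ)).trans
      (HomologicalComplex.homologyMap_comp _ _ n))

end Functoriality

/-! ### Element-level API -/

section General

open CategoryTheory.Limits

variable {R : Type u} [CommRing R]

/-- In a cochain complex of modules, the class of a cycle vanishes iff it is a boundary. -/
theorem homologyπ_eq_zero_iff (K : CochainComplex (ModuleCat.{u} R) ℕ) (n : ℕ)
    (z : K.cycles (n + 1)) :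
    K.homologyπ (n + 1) z = 0 ↔ ∃ y : K.X n, K.d n (n + 1) y = K.iCycles (n + 1) z := by
  have hex : (ShortComplex.mk (K.toCycles n (n + 1)) (K.homologyπ (n + 1))
      (K.toCycles_comp_homologyπ n (n + 1))).Exact :=
    ShortComplex.exact_of_g_is_cokernel _ (K.homologyIsCokernel n (n + 1) (by simp))
  have h := hex.moduleCat_range_eq_ker
  constructor
  · intro hz
    have hz' : z ∈ LinearMap.ker (K.homologyπ (n + 1)).hom := hz
    rw [← h] at hz'
    obtain ⟨y, hy⟩ := hz'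
    refine ⟨y, ?_⟩
    have := congrArg (K.iCycles (n + 1)) hy
    rw [← this]
    exact (congr($(K.toCycles_i n (n + 1)) y)).symm
  · rintro ⟨y, hy⟩
    have hz' : z ∈ LinearMap.range (K.toCycles n (n + 1)).hom := by
      refine ⟨y, ?_⟩
      apply (ModuleCat.mono_iff_injective (K.iCycles (n + 1))).1 inferInstance
      rw [← hy]
      exact congr($(K.toCycles_i n (n + 1)) y)
    rw [h] at hz'
    exact hz'

end General

section Elements

variable (𝔉 : LevelFamily G) (A : Rep.{u} k G)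

/-- The level-constant cocycles, as a submodule of all cochains. -/
def lcCocycles (n : ℕ) : Submodule k ((Fin n → G) → A) :=
  lcCochains 𝔉 A n ⊓ LinearMap.ker (inhomogeneousCochains.d A n).hom

variable {𝔉 A} in
lemma mem_lcCocycles {n : ℕ} {f : (Fin n → G) → A} :
    f ∈ lcCocycles 𝔉 A n ↔ f ∈ lcCochains 𝔉 A n ∧ (inhomogeneousCochains.d A n).hom f = 0 :=
  Iff.rfl

/-- The inclusion of the level-constant cocycles into the degree `n` term of `lcComplex`. -/
noncomputable def lcCocyclesIncl (n : ℕ) :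
    ModuleCat.of k (lcCocycles 𝔉 A n) ⟶ (lcComplex 𝔉 A).X n :=
  ModuleCat.ofHom (Submodule.inclusion (inf_le_left : lcCocycles 𝔉 A n ≤ lcCochains 𝔉 A n))

lemma lcCocyclesIncl_comp_d (n : ℕ) :
    lcCocyclesIncl 𝔉 A n ≫ (lcComplex 𝔉 A).d n (n + 1) = 0 := by
  rw [lcComplex_d]
  ext c : 2
  apply Subtype.ext
  exact c.2.2

/-- The canonical map from level-constant cocycles to the cycles of `lcComplex`. -/
noncomputable def lcToCycles (n : ℕ) :
    ModuleCat.of k (lcCocycles 𝔉 A n) ⟶ (lcComplex 𝔉 A).cycles n :=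
  (lcComplex 𝔉 A).liftCycles (lcCocyclesIncl 𝔉 A n) (n + 1) (by simp) (lcCocyclesIncl_comp_d 𝔉 A n)

/-- The class of a level-constant cocycle in `Hlc`. -/
noncomputable def lcπ (n : ℕ) : lcCocycles 𝔉 A n →ₗ[k] Hlc 𝔉 A n :=
  (lcToCycles 𝔉 A n ≫ (lcComplex 𝔉 A).homologyπ n).hom

lemma iCycles_lcToCycles (n : ℕ) (c : lcCocycles 𝔉 A n) :
    Subtype.val (p := fun x => x ∈ lcCochains 𝔉 A n)
      ((lcComplex 𝔉 A).iCycles n ((lcToCycles 𝔉 A n).hom c)) = c.1 := by
  have h := (lcComplex 𝔉 A).liftCycles_i (lcCocyclesIncl 𝔉 A n) (n + 1) (by simp)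
    (lcCocyclesIncl_comp_d 𝔉 A n)
  exact congrArg Subtype.val (congr($h c))

lemma lcToCycles_surjective (n : ℕ) : Function.Surjective (lcToCycles 𝔉 A n).hom := by
  intro z
  have hd : (lcComplex 𝔉 A).d n (n + 1) ((lcComplex 𝔉 A).iCycles n z) = 0 :=
    congr($((lcComplex 𝔉 A).iCycles_d n (n + 1)) z)
  rw [lcComplex_d] at hd
  set f : lcCochains 𝔉 A n := (lcComplex 𝔉 A).iCycles n z with hf
  have hd' : (inhomogeneousCochains.d A n).hom f.1 = 0 := congrArg Subtype.val hd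
  refine ⟨⟨f.1, f.2, hd'⟩, ?_⟩
  apply (ModuleCat.mono_iff_injective ((lcComplex 𝔉 A).iCycles n)).1 inferInstance
  apply Subtype.ext
  rw [iCycles_lcToCycles]

/-- Every class in `Hlc` is represented by a level-constant cocycle. -/
theorem lcπ_surjective (n : ℕ) : Function.Surjective (lcπ 𝔉 A n) := by
  intro x
  obtain ⟨z, rfl⟩ := (ModuleCat.epi_iff_surjective ((lcComplex 𝔉 A).homologyπ n)).1
    inferInstance x
  obtain ⟨c, rfl⟩ := lcToCycles_surjective 𝔉 A n z
  exact ⟨c, rfl⟩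

/-- The class of a level-constant cocycle vanishes iff it is the coboundary of a level-constant
cochain. -/
theorem lcπ_eq_zero_iff (n : ℕ) (c : lcCocycles 𝔉 A (n + 1)) :
    lcπ 𝔉 A (n + 1) c = 0 ↔
      ∃ g ∈ lcCochains 𝔉 A n, (inhomogeneousCochains.d A n).hom g = c.1 := by
  change (lcComplex 𝔉 A).homologyπ (n + 1) ((lcToCycles 𝔉 A (n + 1)).hom c) = 0 ↔ _
  rw [homologyπ_eq_zero_iff]
  constructor
  · rintro ⟨y, hy⟩
    rw [lcComplex_d] at hy
    refine ⟨(y : lcCochains 𝔉 A n).1, (y : lcCochains 𝔉 A n).2, ?_⟩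
    rw [← iCycles_lcToCycles 𝔉 A (n + 1) c, ← hy]
    rfl
  · rintro ⟨g, hg, hgc⟩
    refine ⟨(⟨g, hg⟩ : lcCochains 𝔉 A n), ?_⟩
    rw [lcComplex_d]
    apply Subtype.ext
    rw [iCycles_lcToCycles]
    exact hgc

theorem lcπ_eq_iff (n : ℕ) (c c' : lcCocycles 𝔉 A (n + 1)) :
    lcπ 𝔉 A (n + 1) c = lcπ 𝔉 A (n + 1) c' ↔
      ∃ g ∈ lcCochains 𝔉 A n, (inhomogeneousCochains.d A n).hom g = c.1 - c'.1 := by
  rw [← sub_eq_zero, ← map_sub, lcπ_eq_zero_iff]
  rfl

/-- The comparison map `Hlc → H` on classes of cocycles. -/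
theorem lcToH_lcπ (n : ℕ) (c : lcCocycles 𝔉 A n) :
    (lcToH 𝔉 A n).hom (lcπ 𝔉 A n c) =
      groupCohomology.π A n (cocyclesMk c.1 (LinearMap.mem_ker.1 c.2.2)) := by
  change ((lcComplex 𝔉 A).homologyπ n ≫ HomologicalComplex.homologyMap (lcι 𝔉 A) n)
    ((lcToCycles 𝔉 A n).hom c) = _
  rw [HomologicalComplex.homologyπ_naturality]
  change (inhomogeneousCochains A).homologyπ n (HomologicalComplex.cyclesMap (lcι 𝔉 A) n
    ((lcToCycles 𝔉 A n).hom c)) = (inhomogeneousCochains A).homologyπ n _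
  congr 1
  apply (ModuleCat.mono_iff_injective ((inhomogeneousCochains A).iCycles n)).1 inferInstance
  refine Eq.trans ?_ (iCocycles_mk c.1 (LinearMap.mem_ker.1 c.2.2)).symm
  have h := HomologicalComplex.cyclesMap_i (lcι 𝔉 A) n
  have h2 := congr($h ((lcToCycles 𝔉 A n).hom c))
  exact h2.trans (iCycles_lcToCycles 𝔉 A n c)

end Elements

section ElementsFunctoriality

variable {H : Type u} [Group H] {A : Rep.{u} k G} {B : Rep.{u} k H} (ψ : H →* G)
  (φ : res ψ A ⟶ B) {𝔉H : LevelFamily H} {𝔉G : LevelFamily G}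

lemma cochainsMap_mem_lcCocycles (hψ : 𝔉H.Compat ψ 𝔉G) {n : ℕ} {f : (Fin n → G) → A}
    (hf : f ∈ lcCocycles 𝔉G A n) : ((cochainsMap ψ φ).f n).hom f ∈ lcCocycles 𝔉H B n := by
  refine ⟨cochainsMap_mem_lcCochains ψ φ hψ hf.1, ?_⟩
  have h := (cochainsMap ψ φ).comm n (n + 1)
  rw [inhomogeneousCochains.d_def, inhomogeneousCochains.d_def] at h
  have h2 : (inhomogeneousCochains.d B n).hom (((cochainsMap ψ φ).f n).hom f) =
      ((cochainsMap ψ φ).f (n + 1)).hom ((inhomogeneousCochains.d A n).hom f) := congr($h f)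
  change (inhomogeneousCochains.d B n).hom (((cochainsMap ψ φ).f n).hom f) = 0
  rw [h2, LinearMap.mem_ker.1 hf.2, map_zero]

/-- `HlcMap` on classes of cocycles. -/
theorem HlcMap_lcπ (hψ : 𝔉H.Compat ψ 𝔉G) (n : ℕ) (c : lcCocycles 𝔉G A n) :
    (HlcMap ψ φ hψ n).hom (lcπ 𝔉G A n c) =
      lcπ 𝔉H B n ⟨((cochainsMap ψ φ).f n).hom c.1, cochainsMap_mem_lcCocycles ψ φ hψ c.2⟩ := by
  change ((lcComplex 𝔉G A).homologyπ n ≫ HomologicalComplex.homologyMap (lcMap ψ φ hψ) n)
    ((lcToCycles 𝔉G A n).hom c) = _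
  rw [HomologicalComplex.homologyπ_naturality]
  change (lcComplex 𝔉H B).homologyπ n (HomologicalComplex.cyclesMap (lcMap ψ φ hψ) n
    ((lcToCycles 𝔉G A n).hom c)) = (lcComplex 𝔉H B).homologyπ n _
  congr 1
  apply (ModuleCat.mono_iff_injective ((lcComplex 𝔉H B).iCycles n)).1 inferInstance
  apply lcX_ext
  refine Eq.trans ?_ (iCycles_lcToCycles 𝔉H B n _).symm
  have h := HomologicalComplex.cyclesMap_i (lcMap ψ φ hψ) n
  have h2 := congr($h ((lcToCycles 𝔉G A n).hom c))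
  refine (congrArg (Subtype.val (p := fun x => x ∈ lcCochains 𝔉H B n)) h2).trans ?_
  exact (lcMap_f_apply_coe ψ φ hψ n _).trans
    (congrArg _ (iCycles_lcToCycles 𝔉G A n c))

end ElementsFunctoriality

end Fermat.Agent.PT
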