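/-
S55 engine, preparation for (E2): lifting level-constant cochains along a surjection.

For a family `𝔉` of subgroups of `G` (nonempty, directed downwards, all of finite index), a
function `f : (Fin n → G) → A` is *level-constant* (`IsLCFun 𝔉 ρ f`) if for some `U ∈ 𝔉` it is
constant on `U`-cosets in every argument and all its values are fixed by `U`.  If `p : A → B` is
surjective and `A` is smooth (every element is fixed by some `U ∈ 𝔉`), then every level-constant
`B`-valued function lifts to a level-constant `A`-valued function.  Mathlib only.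
-/
import Mathlib

set_option autoImplicit false

namespace Fermat.Agent.PT

variable {k G : Type*} [CommRing k] [Group G]

/-- level-constant functions `(Fin n → G) → A` for a family `𝔉` of subgroups. -/
def IsLCFun (𝔉 : Set (Subgroup G)) {A : Type*} [AddCommGroup A] [Module k A]
    (ρ : Representation k G A) {n : ℕ} (f : (Fin n → G) → A) : Prop :=
  ∃ U ∈ 𝔉, (∀ g h : Fin n → G, (∀ i, (g i)⁻¹ * h i ∈ U) → f g = f h) ∧
    ∀ g, ∀ u ∈ U, ρ u (f g) = f g

/-- smooth representations: every vector is fixed by some member of `𝔉`. -/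
def IsSmoothRep (𝔉 : Set (Subgroup G)) {A : Type*} [AddCommGroup A] [Module k A]
    (ρ : Representation k G A) : Prop :=
  ∀ a : A, ∃ U ∈ 𝔉, ∀ u ∈ U, ρ u a = a

section Family

variable {𝔉 : Set (Subgroup G)}

/-- finite intersections in a directed family. -/
theorem exists_le_of_finset (hne : 𝔉.Nonempty)
    (hdir : ∀ U ∈ 𝔉, ∀ V ∈ 𝔉, ∃ W ∈ 𝔉, W ≤ U ⊓ V) {ι : Type*} (s : Finset ι)
    (U : ι → Subgroup G) (hU : ∀ i ∈ s, U i ∈ 𝔉) : ∃ W ∈ 𝔉, ∀ i ∈ s, W ≤ U i := by
  classical
  induction s using Finset.induction_on with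
  | empty =>
    obtain ⟨W, hW⟩ := hne
    exact ⟨W, hW, fun i hi => absurd hi (Finset.notMem_empty i)⟩
  | insert a s ha ih =>
    obtain ⟨W, hW, hWs⟩ := ih fun i hi => hU i (Finset.mem_insert_of_mem hi)
    obtain ⟨W', hW', hle⟩ := hdir W hW (U a) (hU a (Finset.mem_insert_self a s))
    refine ⟨W', hW', fun i hi => ?_⟩
    rcases Finset.mem_insert.mp hi with rfl | hi
    · exact hle.trans inf_le_right
    · exact (hle.trans inf_le_left).trans (hWs i hi)

end Family

section Lift

variable {𝔉 : Set (Subgroup G)} {A B : Type*} [AddCommGroup A] [Module k A] [AddCommGroup B]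
  [Module k B] (ρA : Representation k G A) (ρB : Representation k G B)

/-- **lifting level-constant cochains** along a surjection out of a smooth module. -/
theorem exists_lift_isLCFun (hne : 𝔉.Nonempty)
    (hdir : ∀ U ∈ 𝔉, ∀ V ∈ 𝔉, ∃ W ∈ 𝔉, W ≤ U ⊓ V) (hfin : ∀ U ∈ 𝔉, U.FiniteIndex)
    (p : A → B) (hp : Function.Surjective p) (hsm : IsSmoothRep 𝔉 ρA) {n : ℕ}
    (f : (Fin n → G) → B) (hf : IsLCFun 𝔉 ρB f) :
    ∃ f' : (Fin n → G) → A, IsLCFun 𝔉 ρA f' ∧ ∀ g, p (f' g) = f g := by
  classical
  obtain ⟨U, hU, hconst, -⟩ := hf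
  haveI : U.FiniteIndex := hfin U hU
  haveI : Finite (G ⧸ U) := Subgroup.finite_quotient_of_finiteIndex
  haveI : Fintype (Fin n → G ⧸ U) := Fintype.ofFinite _
  -- the class of an argument
  let cls : (Fin n → G) → (Fin n → G ⧸ U) := fun g i => (g i : G ⧸ U)
  have hcls : ∀ g h : Fin n → G, cls g = cls h → f g = f h := by
    intro g h hgh
    apply hconst
    intro i
    have := congrFun hgh i
    exact QuotientGroup.eq.mp this
  -- representatives
  let rep : (Fin n → G ⧸ U) → (Fin n → G) := fun c i => Quotient.out (c i)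
  have hrep : ∀ c, cls (rep c) = c := by
    intro c
    funext i
    exact Quotient.out_eq (c i)
  -- lifts of the finitely many values
  choose a ha using fun c : Fin n → G ⧸ U => hp (f (rep c))
  choose V hV hVfix using fun c : Fin n → G ⧸ U => hsm (a c)
  obtain ⟨W₀, hW₀, hW₀le⟩ := exists_le_of_finset hne hdir (Finset.univ) V (fun c _ => hV c)
  obtain ⟨W, hW, hWle⟩ := hdir W₀ hW₀ U hU
  refine ⟨fun g => a (cls g), ⟨W, hW, ?_, ?_⟩, ?_⟩
  · intro g h hgh
    have : cls g = cls h := by
      funext i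
      exact QuotientGroup.eq.mpr ((hWle.trans inf_le_right) (hgh i))
    show a (cls g) = a (cls h)
    rw [this]
  · intro g u hu
    exact hVfix (cls g) u (hW₀le (cls g) (Finset.mem_univ _) ((hWle.trans inf_le_left) hu))
  · intro g
    show p (a (cls g)) = f g
    rw [ha]
    exact hcls _ _ (hrep (cls g))

/-- level-constant cochains with values in the image of an injective equivariant map come from
level-constant cochains. -/
theorem exists_factor_isLCFun (i : A → B) (hi : Function.Injective i)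
    (hequiv : ∀ (u : G) (a : A), i (ρA u a) = ρB u (i a)) {n : ℕ}
    (f : (Fin n → G) → B) (hf : IsLCFun 𝔉 ρB f) (hrange : ∀ g, f g ∈ Set.range i) :
    ∃ f' : (Fin n → G) → A, IsLCFun 𝔉 ρA f' ∧ ∀ g, i (f' g) = f g := by
  choose f' hf' using hrange
  obtain ⟨U, hU, hconst, hfix⟩ := hf
  refine ⟨f', ⟨U, hU, ?_, ?_⟩, hf'⟩
  · intro g h hgh
    apply hi
    rw [hf', hf']
    exact hconst g h hgh
  · intro g u hu
    apply hi
    rw [hequiv, hf']
    exact hfix g u hu

/-- equivariant maps preserve level-constancy. -/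
theorem IsLCFun.comp_of_equivariant (φ : A → B)
    (hequiv : ∀ (u : G) (a : A), φ (ρA u a) = ρB u (φ a)) {n : ℕ}
    {f : (Fin n → G) → A} (hf : IsLCFun 𝔉 ρA f) : IsLCFun 𝔉 ρB (fun g => φ (f g)) := by
  obtain ⟨U, hU, hconst, hfix⟩ := hf
  refine ⟨U, hU, fun g h hgh => ?_, fun g u hu => ?_⟩
  · show φ (f g) = φ (f h)
    rw [hconst g h hgh]
  · show ρB u (φ (f g)) = φ (f g)
    rw [← hequiv, hfix g u hu]

end Lift

end Fermat.Agent.PT
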