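/-
S55 engine (E2): the long exact sequence of level-constant ("smooth") cohomology.

For a level family `𝔉` all of whose members have finite index, and a short exact sequence
`0 ⟶ X₁ ⟶ X₂ ⟶ X₃ ⟶ 0` of `Rep k G` with `X₂` smooth, the level-constant complexes form a short
exact sequence of complexes; hence connecting homomorphisms `lcδ` and a long exact sequence.
-/
import Fermat.Agent.CFT.PT.Smooth
import Fermat.Agent.CFT.PT.SmoothLift

set_option autoImplicit false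

namespace Fermat.Agent.PT

open CategoryTheory groupCohomology Rep ShortComplex

universe u

variable {k G : Type u} [CommRing k] [Group G] (𝔉 : LevelFamily G)

/-- `A` is smooth for `𝔉`: every vector is fixed by a member of `𝔉`. -/
def IsSmooth (A : Rep.{u} k G) : Prop := IsSmoothRep 𝔉.sets A.ρ

/-- all members of the family have finite index. -/
def LevelFamily.FiniteIndex : Prop := ∀ U ∈ 𝔉.sets, U.FiniteIndex

theorem mem_lcCochains_iff_isLCFun {A : Rep.{u} k G} {n : ℕ} {f : (Fin n → G) → A} :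
    f ∈ lcCochains 𝔉 A n ↔ IsLCFun 𝔉.sets A.ρ f := Iff.rfl

/-- the short complex of level-constant cochain complexes attached to a short complex of
representations. -/
noncomputable def lcShortComplex (X : ShortComplex (Rep.{u} k G)) :
    ShortComplex (CochainComplex (ModuleCat.{u} k) ℕ) :=
  ShortComplex.mk (lcMap (MonoidHom.id G) X.f 𝔉.compat_id)
    (lcMap (MonoidHom.id G) X.g 𝔉.compat_id) (by
      ext n f : 3
      apply lcX_ext
      funext g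
      have h2 : (X.f ≫ X.g).hom (f.1 g) = 0 := by
        rw [X.zero]
        rfl
      exact h2)

section ShortExact

variable {𝔉} {X : ShortComplex (Rep.{u} k G)}

theorem lcShortComplex_f_apply_coe (n : ℕ) (f : lcCochains 𝔉 X.X₁ n) (g : Fin n → G) :
    (Subtype.val (p := fun x => x ∈ lcCochains 𝔉 X.X₂ n)
      (((lcShortComplex 𝔉 X).f.f n).hom f)) g = X.f.hom (f.1 g) := rfl

theorem lcShortComplex_g_apply_coe (n : ℕ) (f : lcCochains 𝔉 X.X₂ n) (g : Fin n → G) :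
    (Subtype.val (p := fun x => x ∈ lcCochains 𝔉 X.X₃ n)
      (((lcShortComplex 𝔉 X).g.f n).hom f)) g = X.g.hom (f.1 g) := rfl

theorem exists_of_shortExact_of_g_eq_zero (hX : X.ShortExact) (a : X.X₂) (ha : X.g.hom a = 0) :
    ∃ a' : X.X₁, X.f.hom a' = a := by
  have h : LinearMap.range X.f.hom.toLinearMap = LinearMap.ker X.g.hom.toLinearMap :=
    (hX.exact.map (forget₂ (Rep k G) (ModuleCat k))).moduleCat_range_eq_ker
  have h2 : a ∈ LinearMap.ker X.g.hom.toLinearMap := ha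
  rw [← h] at h2
  exact h2

/-- **(E2), short exactness**: the level-constant complexes of a short exact sequence of
representations with smooth middle term form a short exact sequence of complexes. -/
theorem lcShortComplex_shortExact (hfin : 𝔉.FiniteIndex) (hX : X.ShortExact)
    (hsm : IsSmooth 𝔉 X.X₂) : (lcShortComplex 𝔉 X).ShortExact :=
  HomologicalComplex.shortExact_of_degreewise_shortExact _ fun n => {
    exact := by
      rw [ShortComplex.moduleCat_exact_iff]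
      intro (x₂ : lcCochains 𝔉 X.X₂ n) hx₂
      have hx₂' : ∀ g, X.g.hom (x₂.1 g) = 0 := by
        intro g
        have := congrArg (fun y => (Subtype.val (p := fun x => x ∈ lcCochains 𝔉 X.X₃ n) y) g) hx₂
        exact this
      obtain ⟨f', hf', hff'⟩ := exists_factor_isLCFun (𝔉 := 𝔉.sets) X.X₁.ρ X.X₂.ρ X.f.hom
        ((Rep.mono_iff_injective X.f).1 hX.mono_f) (fun u a => Rep.hom_comm_apply X.f u a)
        x₂.1 x₂.2 (fun g => exists_of_shortExact_of_g_eq_zero hX _ (hx₂' g))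
      refine ⟨(⟨f', hf'⟩ : lcCochains 𝔉 X.X₁ n), ?_⟩
      apply lcX_ext
      funext g
      exact hff' g
    mono_f := by
      rw [ModuleCat.mono_iff_injective]
      intro (f : lcCochains 𝔉 X.X₁ n) (f' : lcCochains 𝔉 X.X₁ n) hff'
      apply Subtype.ext
      funext g
      apply (Rep.mono_iff_injective X.f).1 hX.mono_f
      have := congrArg (fun y => (Subtype.val (p := fun x => x ∈ lcCochains 𝔉 X.X₂ n) y) g) hff'
      exact this
    epi_g := by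
      rw [ModuleCat.epi_iff_surjective]
      intro (f : lcCochains 𝔉 X.X₃ n)
      obtain ⟨f', hf', hff'⟩ := exists_lift_isLCFun (𝔉 := 𝔉.sets) X.X₂.ρ X.X₃.ρ 𝔉.nonempty
        𝔉.directed hfin X.g.hom ((Rep.epi_iff_surjective X.g).1 hX.epi_g) hsm f.1 f.2
      refine ⟨(⟨f', hf'⟩ : lcCochains 𝔉 X.X₂ n), ?_⟩
      apply lcX_ext
      funext g
      exact hff' g }

end ShortExact

section LES

variable {𝔉} {X : ShortComplex (Rep.{u} k G)} (hfin : 𝔉.FiniteIndex) (hX : X.ShortExact)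
  (hsm : IsSmooth 𝔉 X.X₂)

/-- the map `Hlc n X₁ ⟶ Hlc n X₂`. -/
noncomputable abbrev lcH₁₂ (𝔉 : LevelFamily G) (X : ShortComplex (Rep.{u} k G)) (n : ℕ) :
    Hlc 𝔉 X.X₁ n ⟶ Hlc 𝔉 X.X₂ n :=
  HlcMap (MonoidHom.id G) X.f 𝔉.compat_id n

/-- the map `Hlc n X₂ ⟶ Hlc n X₃`. -/
noncomputable abbrev lcH₂₃ (𝔉 : LevelFamily G) (X : ShortComplex (Rep.{u} k G)) (n : ℕ) :
    Hlc 𝔉 X.X₂ n ⟶ Hlc 𝔉 X.X₃ n :=
  HlcMap (MonoidHom.id G) X.g 𝔉.compat_id n

/-- **the connecting homomorphism** `Hlcⁱ(X₃) ⟶ Hlcʲ(X₁)`, `j = i + 1`. -/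
noncomputable def lcδ (i j : ℕ) (hij : i + 1 = j) : Hlc 𝔉 X.X₃ i ⟶ Hlc 𝔉 X.X₁ j :=
  (lcShortComplex_shortExact hfin hX hsm).δ i j hij

theorem lcδ_comp (i j : ℕ) (hij : i + 1 = j) :
    lcδ hfin hX hsm i j hij ≫ lcH₁₂ 𝔉 X j = 0 :=
  (lcShortComplex_shortExact hfin hX hsm).δ_comp i j hij

theorem comp_lcδ (i j : ℕ) (hij : i + 1 = j) :
    lcH₂₃ 𝔉 X i ≫ lcδ hfin hX hsm i j hij = 0 :=
  (lcShortComplex_shortExact hfin hX hsm).comp_δ i j hij

theorem lcH₁₂_comp_lcH₂₃ (n : ℕ) : lcH₁₂ 𝔉 X n ≫ lcH₂₃ 𝔉 X n = 0 := by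
  show HomologicalComplex.homologyMap (lcShortComplex 𝔉 X).f n ≫
    HomologicalComplex.homologyMap (lcShortComplex 𝔉 X).g n = 0
  rw [← HomologicalComplex.homologyMap_comp, (lcShortComplex 𝔉 X).zero,
    HomologicalComplex.homologyMap_zero]

/-- exactness of `Hlcⁱ(X₃) ⟶ Hlcʲ(X₁) ⟶ Hlcʲ(X₂)`. -/
theorem lc_exact₁ (i j : ℕ) (hij : i + 1 = j) :
    (ShortComplex.mk _ _ (lcδ_comp hfin hX hsm i j hij)).Exact :=
  (lcShortComplex_shortExact hfin hX hsm).homology_exact₁ i j hij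

include hfin hX hsm in
/-- exactness of `Hlcⁱ(X₁) ⟶ Hlcⁱ(X₂) ⟶ Hlcⁱ(X₃)`. -/
theorem lc_exact₂ (n : ℕ) : (ShortComplex.mk _ _ (lcH₁₂_comp_lcH₂₃ (𝔉 := 𝔉) (X := X) n)).Exact :=
  (lcShortComplex_shortExact hfin hX hsm).homology_exact₂ n

/-- exactness of `Hlcⁱ(X₂) ⟶ Hlcⁱ(X₃) ⟶ Hlcʲ(X₁)`. -/
theorem lc_exact₃ (i j : ℕ) (hij : i + 1 = j) :
    (ShortComplex.mk _ _ (comp_lcδ hfin hX hsm i j hij)).Exact :=
  (lcShortComplex_shortExact hfin hX hsm).homology_exact₃ i j hij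

/-! element-level forms -/

theorem lcδ_lcH₁₂_apply (i j : ℕ) (hij : i + 1 = j) (x : Hlc 𝔉 X.X₃ i) :
    (lcH₁₂ 𝔉 X j).hom ((lcδ hfin hX hsm i j hij).hom x) = 0 :=
  congr($(lcδ_comp hfin hX hsm i j hij) x)

theorem lcH₂₃_lcδ_apply (i j : ℕ) (hij : i + 1 = j) (x : Hlc 𝔉 X.X₂ i) :
    (lcδ hfin hX hsm i j hij).hom ((lcH₂₃ 𝔉 X i).hom x) = 0 :=
  congr($(comp_lcδ hfin hX hsm i j hij) x)

theorem lcH₁₂_lcH₂₃_apply (n : ℕ) (x : Hlc 𝔉 X.X₁ n) :
    (lcH₂₃ 𝔉 X n).hom ((lcH₁₂ 𝔉 X n).hom x) = 0 :=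
  congr($(lcH₁₂_comp_lcH₂₃ (𝔉 := 𝔉) (X := X) n) x)

/-- exactness at `Hlcʲ(X₁)`. -/
theorem exists_lcδ_eq (i j : ℕ) (hij : i + 1 = j) (x : Hlc 𝔉 X.X₁ j)
    (hx : (lcH₁₂ 𝔉 X j).hom x = 0) : ∃ y : Hlc 𝔉 X.X₃ i, (lcδ hfin hX hsm i j hij).hom y = x :=
  (ShortComplex.moduleCat_exact_iff _).1 (lc_exact₁ hfin hX hsm i j hij) x hx

include hfin hX hsm in
/-- exactness at `Hlcⁿ(X₂)`. -/
theorem exists_lcH₁₂_eq (n : ℕ) (x : Hlc 𝔉 X.X₂ n) (hx : (lcH₂₃ 𝔉 X n).hom x = 0) :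
    ∃ y : Hlc 𝔉 X.X₁ n, (lcH₁₂ 𝔉 X n).hom y = x :=
  (ShortComplex.moduleCat_exact_iff _).1 (lc_exact₂ hfin hX hsm n) x hx

/-- exactness at `Hlcⁱ(X₃)`. -/
theorem exists_lcH₂₃_eq (i j : ℕ) (hij : i + 1 = j) (x : Hlc 𝔉 X.X₃ i)
    (hx : (lcδ hfin hX hsm i j hij).hom x = 0) : ∃ y : Hlc 𝔉 X.X₂ i, (lcH₂₃ 𝔉 X i).hom y = x :=
  (ShortComplex.moduleCat_exact_iff _).1 (lc_exact₃ hfin hX hsm i j hij) x hx

end LES

end Fermat.Agent.PT
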