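import Mathlib
import Fermat.Agent.CFT.PT.SmoothBridge
import Fermat.Agent.CFT.PT.SmoothLES
import Fermat.Agent.CFT.Local.KummerSeq
import Fermat.Agent.CFT.Bridge.SplitField

set_option autoImplicit false

/-!
# S55 GLOBAL -> ENGINE bridge (GB1): the `S`-units of `ℚ_S` as a smooth `Γℚ`-module

(helper21)  Everything is phrased in the prelude's valuation-subring language, so that it matches
`famS S` verbatim.

* `QS S : IntermediateField ℚ Qb` : the maximal extension of `ℚ` unramified outside `S`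
  (`mem_QS_iff`, `le_QS_iff`, `smul_mem_QS`);
* `ES S : Subgroup Qbˣ` : the `S`-units of `ℚ_S`; `ESRep S : Rep ℤ Γℚ`; `isSmooth_ESRep`;
* `sUR_mem_ES_of_pow_mem` : `p ∈ S`, `y ^ p ∈ ES S` ⟹ `y ∈ ES S` (`E_S` is `p`-divisible and
  contains `μ_p`);
* `kummerSeqS p S hpS : ShortComplex (Rep ℤ Γℚ)`, `kummerSeqS_shortExact`.
-/

namespace Fermat.Agent.PT

open CategoryTheory Fermat.Agent.CFT IntermediateField ExtCitation
open scoped Pointwise

local notation "Qb" => AlgebraicClosure ℚ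
local notation "Γℚ" => (AlgebraicClosure ℚ ≃ₐ[ℚ] AlgebraicClosure ℚ)

local instance sUR_isAlgebraicQbar : Algebra.IsAlgebraic ℚ (AlgebraicClosure ℚ) :=
  AlgebraicClosure.isAlgebraic ℚ
local instance sUR_isAlgClosureQbar : IsAlgClosure ℚ (AlgebraicClosure ℚ) :=
  ⟨inferInstance, inferInstance⟩
local instance sUR_isGaloisQbar : IsGalois ℚ (AlgebraicClosure ℚ) where

section QS

variable (S : Finset Nat.Primes)

/-- the set of all inertia elements at primes outside `S`. -/
def sUR_inertiaSet : Set Γℚ :=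
  {g | ∃ q : Nat.Primes, q ∉ S ∧ ∃ A : ValuationSubring Qb,
    A.LiesOverPrime (q : ℕ) ∧ g ∈ A.inertiaSubgroupIn ℚ}

/-- the maximal extension of `ℚ` (inside `Qb`) unramified outside `S`. -/
noncomputable def QS : IntermediateField ℚ Qb :=
  IntermediateField.fixedField (Subgroup.closure (sUR_inertiaSet S))

theorem mem_QS_iff {x : Qb} : x ∈ QS S ↔ ∀ q : Nat.Primes, q ∉ S → ∀ A : ValuationSubring Qb,
    A.LiesOverPrime (q : ℕ) → ∀ g ∈ A.inertiaSubgroupIn ℚ, g x = x := by
  rw [QS, IntermediateField.mem_fixedField_iff]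
  constructor
  · intro h q hq A hA g hg
    exact h g (Subgroup.subset_closure ⟨q, hq, A, hA, hg⟩)
  · intro h g hg
    have hle : Subgroup.closure (sUR_inertiaSet S) ≤ MulAction.stabilizer Γℚ x := by
      rw [Subgroup.closure_le]
      rintro s ⟨q, hq, A, hA, hs⟩
      exact MulAction.mem_stabilizer_iff.mpr (h q hq A hA s hs)
    exact MulAction.mem_stabilizer_iff.mp (hle hg)

theorem le_QS_iff (F : IntermediateField ℚ Qb) [FiniteDimensional ℚ F] :
    F ≤ QS S ↔ F.IsUnramifiedOutside S := by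
  constructor
  · intro h
    refine ⟨inferInstance, fun q hq A hA g hg => ?_⟩
    rw [IntermediateField.mem_fixingSubgroup_iff]
    exact fun x hx => (mem_QS_iff S).1 (h hx) q hq A hA g hg
  · intro h x hx
    rw [mem_QS_iff]
    intro q hq A hA g hg
    exact (IntermediateField.mem_fixingSubgroup_iff _ _).1 (h.2 q hq A hA hg) x hx

theorem le_QS_of_isUnramifiedOutside {F : IntermediateField ℚ Qb} (h : F.IsUnramifiedOutside S) :
    F ≤ QS S := by
  have := h.1
  exact (le_QS_iff S F).2 h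

theorem isUnramifiedOutside_adjoin_of_mem_QS {x : Qb} (hx : x ∈ QS S) :
    (ℚ⟮x⟯).IsUnramifiedOutside S := by
  have : FiniteDimensional ℚ ℚ⟮x⟯ :=
    adjoin.finiteDimensional (Algebra.IsIntegral.isIntegral x)
  rw [← le_QS_iff, adjoin_simple_le_iff]
  exact hx

theorem smul_mem_QS (g : Γℚ) {x : Qb} (hx : x ∈ QS S) : g x ∈ QS S := by
  rw [mem_QS_iff] at hx ⊢
  intro q hq A hA h hh
  have h1 := conj_mem_inertiaSubgroupIn hh g
  have h2 := hx q hq (g⁻¹ • A) (liesOverPrime_smul hA g⁻¹) _ h1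
  simp only [AlgEquiv.mul_apply] at h2
  have h3 := congrArg g h2
  rwa [show g (g⁻¹ (h (g x))) = h (g x) from AlgEquiv.apply_symm_apply g _] at h3

end QS

section ES

variable (S : Finset Nat.Primes)

/-- the `S`-units of `ℚ_S`: elements of `ℚ_S` which are units at every valuation subring of `Qb`
lying over a prime outside `S`. -/
def ES : Subgroup Qbˣ where
  carrier := {x | (x : Qb) ∈ QS S ∧ ∀ q : Nat.Primes, q ∉ S → ∀ A : ValuationSubring Qb,
    A.LiesOverPrime (q : ℕ) → (x : Qb) ∈ A ∧ ((x⁻¹ : Qbˣ) : Qb) ∈ A}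
  mul_mem' := by
    rintro x y ⟨hx, hx'⟩ ⟨hy, hy'⟩
    refine ⟨by rw [Units.val_mul]; exact mul_mem hx hy, fun q hq A hA => ?_⟩
    rw [mul_inv, Units.val_mul, Units.val_mul]
    exact ⟨mul_mem (hx' q hq A hA).1 (hy' q hq A hA).1, mul_mem (hx' q hq A hA).2 (hy' q hq A hA).2⟩
  one_mem' := by
    refine ⟨by rw [Units.val_one]; exact one_mem _, fun q hq A hA => ?_⟩
    rw [inv_one, Units.val_one]
    exact ⟨one_mem _, one_mem _⟩
  inv_mem' := by
    rintro x ⟨hx, hx'⟩
    refine ⟨by rw [Units.val_inv_eq_inv_val]; exact inv_mem hx, fun q hq A hA => ?_⟩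
    rw [inv_inv]
    exact ⟨(hx' q hq A hA).2, (hx' q hq A hA).1⟩

theorem mem_ES_iff {x : Qbˣ} : x ∈ ES S ↔ (x : Qb) ∈ QS S ∧ ∀ q : Nat.Primes, q ∉ S →
    ∀ A : ValuationSubring Qb, A.LiesOverPrime (q : ℕ) → (x : Qb) ∈ A ∧ ((x⁻¹ : Qbˣ) : Qb) ∈ A :=
  Iff.rfl

theorem smul_mem_ES (g : Γℚ) {x : Qbˣ} (hx : x ∈ ES S) : g • x ∈ ES S := by
  obtain ⟨hx1, hx2⟩ := hx
  refine ⟨smul_mem_QS S g hx1, fun q hq A hA => ?_⟩
  have h := hx2 q hq (g⁻¹ • A) (liesOverPrime_smul hA g⁻¹)
  rw [ValuationSubring.mem_pointwise_smul_iff_inv_smul_mem,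
    ValuationSubring.mem_pointwise_smul_iff_inv_smul_mem, inv_inv] at h
  rw [← smul_inv']
  exact h

/-- the Galois action on the `S`-units of `ℚ_S`. -/
@[reducible] noncomputable def sUR_mulDistribMulAction : MulDistribMulAction Γℚ (ES S) where
  smul g x := ⟨g • (x : Qbˣ), smul_mem_ES S g x.2⟩
  one_smul x := Subtype.ext (one_smul _ (x : Qbˣ))
  mul_smul g h x := Subtype.ext (mul_smul g h (x : Qbˣ))
  smul_mul g x y := Subtype.ext (smul_mul' g (x : Qbˣ) (y : Qbˣ))
  smul_one g := Subtype.ext (smul_one g)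

attribute [local instance] sUR_mulDistribMulAction

theorem coe_ES_smul (g : Γℚ) (x : ES S) : ((g • x : ES S) : Qbˣ) = g • (x : Qbˣ) := rfl

/-- the `S`-units of `ℚ_S` as a representation of `Γℚ` over `ℤ`. -/
noncomputable def ESRep : Rep ℤ Γℚ := Rep.ofMulDistribMulAction Γℚ (ES S)

theorem ESRep_ρ_apply (g : Γℚ) (a : Additive (ES S)) :
    (ESRep S).ρ g a = Additive.ofMul (g • a.toMul) := rfl

theorem isSmooth_ESRep : IsSmooth (famS S) (ESRep S) := by
  intro a
  change Additive (ES S) at a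
  set x : ES S := a.toMul with hx
  have hxQ : ((x : Qbˣ) : Qb) ∈ QS S := x.2.1
  have hF := isUnramifiedOutside_adjoin_of_mem_QS S hxQ
  refine ⟨(galClosure ℚ⟮((x : Qbˣ) : Qb)⟯).fixingSubgroup,
    ⟨_, IsUnramifiedOutside.galClosure hF, galClosure_fixingSubgroup_normal _, rfl⟩, fun u hu => ?_⟩
  have h1 : u ((x : Qbˣ) : Qb) = ((x : Qbˣ) : Qb) :=
    (IntermediateField.mem_fixingSubgroup_iff _ _).1 hu _
      (le_galClosure _ (mem_adjoin_simple_self ℚ _))
  rw [ESRep_ρ_apply]
  refine congrArg Additive.ofMul (Subtype.ext (Units.ext ?_))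
  exact h1

end ES

section Divisible

/-- valuation subrings are closed under extraction of roots. -/
theorem sUR_mem_of_pow_mem (A : ValuationSubring Qb) {y : Qb} {n : ℕ} (hn : n ≠ 0)
    (h : y ^ n ∈ A) : y ∈ A := by
  rcases A.mem_or_inv_mem y with h1 | h1
  · exact h1
  · by_cases hy : y = 0
    · rw [hy]; exact zero_mem _
    have e : y = y ^ n * (y⁻¹) ^ (n - 1) := by
      obtain ⟨m, rfl⟩ := Nat.exists_eq_succ_of_ne_zero hn
      rw [Nat.succ_sub_one, pow_succ, inv_pow]
      field_simp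
    rw [e]
    exact mul_mem h (pow_mem h1 _)

theorem sUR_mul_mem_nonunits (A : ValuationSubring Qb) {a b : Qb} (ha : a ∈ A.nonunits)
    (hb : b ∈ A) : a * b ∈ A.nonunits := by
  rw [ValuationSubring.mem_nonunits_iff] at ha ⊢
  have hb' : A.valuation b ≤ 1 := (A.valuation_le_one_iff b).2 hb
  calc A.valuation (a * b) = A.valuation a * A.valuation b := map_mul _ _ _
    _ ≤ A.valuation a * 1 := mul_le_mul' le_rfl hb'
    _ = A.valuation a := mul_one _
    _ < 1 := ha

/-- a `p`-th root of unity congruent to `1` modulo the maximal ideal of a valuation subring of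
residue characteristic prime to `p` is `1`. -/
theorem sUR_eq_one_of_sub_one_mem_nonunits (A : ValuationSubring Qb) {p q : ℕ}
    (hA : A.LiesOverPrime q) (hpq : Nat.Coprime p q) {ζ : Qb} (hζ : ζ ^ p = 1)
    (h : ζ - 1 ∈ A.nonunits) : ζ = 1 := by
  by_contra hne
  have hp0 : p ≠ 0 := by
    rintro rfl
    rw [Nat.coprime_zero_left] at hpq
    subst hpq
    have h1 : ((1 : ℕ) : Qb) ∈ A.nonunits := hA
    rw [Nat.cast_one, ValuationSubring.mem_nonunits_iff, map_one] at h1
    exact lt_irrefl _ h1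
  have hζA : ζ ∈ A := sUR_mem_of_pow_mem A hp0 (by rw [hζ]; exact one_mem _)
  set z : A := ⟨ζ, hζA⟩ with hz
  have hz1 : z - 1 ∈ IsLocalRing.maximalIdeal A := by
    rw [← ValuationSubring.coe_mem_nonunits_iff]
    exact h
  have hsum : ∑ i ∈ Finset.range p, ζ ^ i = 0 := by
    have h1 : (∑ i ∈ Finset.range p, ζ ^ i) * (ζ - 1) = 0 := by
      rw [geom_sum_mul, hζ, sub_self]
    rcases mul_eq_zero.1 h1 with h2 | h2
    · exact h2
    · exact absurd (sub_eq_zero.1 h2) hne
  have hsumz : ∑ i ∈ Finset.range p, z ^ i = 0 := by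
    apply Subtype.ext
    rw [← A.subtype_apply, map_sum]
    simpa using hsum
  have hdvd : z - 1 ∣ ∑ i ∈ Finset.range p, (z ^ i - 1 ^ i) :=
    Finset.dvd_sum fun i _ => sub_dvd_pow_sub_pow z 1 i
  rw [Finset.sum_sub_distrib, hsumz] at hdvd
  simp only [one_pow, Finset.sum_const, Finset.card_range, nsmul_eq_mul, mul_one, zero_sub,
    dvd_neg] at hdvd
  have hpm : (p : A) ∈ IsLocalRing.maximalIdeal A := by
    obtain ⟨c, hc⟩ := hdvd
    rw [hc]
    exact Ideal.mul_mem_right _ _ hz1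
  have hqm : (q : A) ∈ IsLocalRing.maximalIdeal A := by
    rw [← ValuationSubring.coe_mem_nonunits_iff]
    have : ((q : A) : Qb) = (q : Qb) := by
      rw [← A.subtype_apply, map_natCast]
    rw [this]
    exact hA
  obtain ⟨a, b, hab⟩ := Nat.isCoprime_iff_coprime.2 hpq
  have h1 : (1 : A) ∈ IsLocalRing.maximalIdeal A := by
    have e : (1 : A) = (a : A) * (p : A) + (b : A) * (q : A) := by
      have := congrArg (Int.cast : ℤ → A) hab
      push_cast at this
      exact this.symm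
    rw [e]
    exact add_mem (Ideal.mul_mem_left _ _ hpm) (Ideal.mul_mem_left _ _ hqm)
  exact (Ideal.ne_top_iff_one _).1 (IsLocalRing.maximalIdeal.isMaximal A).ne_top h1

variable (S : Finset Nat.Primes) {p : ℕ} [Fact p.Prime]

/-- **`E_S` is `p`-divisible inside `Qbˣ` for `p ∈ S`**: a `p`-th root of an `S`-unit of `ℚ_S`
is again an `S`-unit of `ℚ_S`. -/
theorem sUR_mem_ES_of_pow_mem (hpS : pPrime p ∈ S) (y : Qbˣ) (hy : y ^ p ∈ ES S) : y ∈ ES S := by
  have hp : p.Prime := Fact.out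
  have hp0 : p ≠ 0 := hp.ne_zero
  obtain ⟨hQ, hU⟩ := hy
  rw [Units.val_pow_eq_pow_val] at hQ
  have hunit : ∀ q : Nat.Primes, q ∉ S → ∀ A : ValuationSubring Qb, A.LiesOverPrime (q : ℕ) →
      (y : Qb) ∈ A ∧ ((y⁻¹ : Qbˣ) : Qb) ∈ A := by
    intro q hq A hA
    obtain ⟨h1, h2⟩ := hU q hq A hA
    rw [Units.val_pow_eq_pow_val] at h1
    rw [← inv_pow, Units.val_pow_eq_pow_val] at h2
    exact ⟨sUR_mem_of_pow_mem A hp0 h1, sUR_mem_of_pow_mem A hp0 h2⟩
  refine ⟨?_, hunit⟩
  rw [mem_QS_iff]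
  intro q hq A hA g hg
  obtain ⟨-, hgm⟩ := mem_inertiaSubgroupIn_iff_forall.1 hg
  obtain ⟨hyA, hyinvA⟩ := hunit q hq A hA
  rw [Units.val_inv_eq_inv_val] at hyinvA
  have hy0 : (y : Qb) ≠ 0 := y.ne_zero
  have hgy : g ((y : Qb) ^ p) = (y : Qb) ^ p := (mem_QS_iff S).1 hQ q hq A hA g hg
  have hζ : (g (y : Qb) * (y : Qb)⁻¹) ^ p = 1 := by
    rw [mul_pow, ← map_pow, hgy, inv_pow]
    exact mul_inv_cancel₀ (pow_ne_zero _ hy0)
  have hm : g (y : Qb) * (y : Qb)⁻¹ - 1 ∈ A.nonunits := by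
    have e : g (y : Qb) * (y : Qb)⁻¹ - 1 = (g (y : Qb) - y) * (y : Qb)⁻¹ := by
      field_simp
    rw [e]
    exact sUR_mul_mem_nonunits A (hgm _ hyA) hyinvA
  have hpq : Nat.Coprime p (q : ℕ) := by
    rw [Nat.coprime_primes hp q.2]
    intro hpq
    apply hq
    have : pPrime p = q := Subtype.ext hpq
    rwa [← this]
  have h1 := sUR_eq_one_of_sub_one_mem_nonunits A hA hpq hζ hm
  have h2 := congrArg (· * (y : Qb)) h1
  simp only [one_mul] at h2
  rwa [mul_assoc, inv_mul_cancel₀ hy0, mul_one] at h2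

/-- the `p`-th roots of unity are `S`-units of `ℚ_S` for `p ∈ S`. -/
theorem sUR_rootsOfUnity_le_ES (hpS : pPrime p ∈ S) : rootsOfUnity p Qb ≤ ES S := by
  intro ζ hζ
  refine sUR_mem_ES_of_pow_mem S hpS ζ ?_
  rw [(mem_rootsOfUnity _ _).mp hζ]
  exact one_mem _

end Divisible

section Kummer

variable (p : ℕ) [Fact p.Prime] (S : Finset Nat.Primes) (hpS : pPrime p ∈ S)

attribute [local instance] sUR_mulDistribMulAction muMulDistribMulAction

/-- the inclusion `μ_p → E_S` as a group homomorphism. -/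
noncomputable def sUR_muInclHom : rootsOfUnity p Qb →* ES S :=
  Subgroup.inclusion (sUR_rootsOfUnity_le_ES S hpS)

theorem coe_sUR_muInclHom (ζ : rootsOfUnity p Qb) :
    ((sUR_muInclHom p S hpS ζ : ES S) : Qbˣ) = (ζ : Qbˣ) := rfl

/-- the inclusion `μ_p ⟶ E_S`. -/
noncomputable def sUR_muIncl : muRep ℚ Qb p ⟶ ESRep S :=
  Rep.ofHom
    { toLinearMap := (MonoidHom.toAdditive (sUR_muInclHom p S hpS)).toIntLinearMap
      isIntertwining' := fun g => by
        ext a
        rfl }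

theorem sUR_muIncl_apply (a : Additive (rootsOfUnity p Qb)) :
    (sUR_muIncl p S hpS).hom a = Additive.ofMul (sUR_muInclHom p S hpS a.toMul) := rfl

/-- the `p`-th power map `E_S ⟶ E_S`. -/
noncomputable def sUR_powHom : ESRep S ⟶ ESRep S :=
  Rep.ofHom
    { toLinearMap := (MonoidHom.toAdditive (powMonoidHom p : ES S →* ES S)).toIntLinearMap
      isIntertwining' := fun g => by
        refine LinearMap.ext fun a => ?_
        change Additive.ofMul ((g • Additive.toMul a) ^ p) =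
          Additive.ofMul (g • (Additive.toMul a) ^ p)
        rw [smul_pow'] }

omit [Fact p.Prime] in
theorem sUR_powHom_apply (a : Additive (ES S)) :
    (sUR_powHom p S).hom a = Additive.ofMul ((a.toMul : ES S) ^ p) := rfl

theorem sUR_muIncl_comp_powHom : sUR_muIncl p S hpS ≫ sUR_powHom p S = 0 := by
  ext a
  change Additive (rootsOfUnity p Qb) at a
  change Additive.ofMul ((sUR_muInclHom p S hpS a.toMul) ^ p) = Additive.ofMul (1 : ES S)
  refine congrArg Additive.ofMul (Subtype.ext ?_)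
  rw [Subgroup.coe_pow, coe_sUR_muInclHom, (mem_rootsOfUnity _ _).mp (a.toMul).2]
  rfl

/-- **the Kummer sequence `μ_p ⟶ E_S ⟶ E_S` of `Γℚ`-modules** (`p ∈ S`). -/
noncomputable def kummerSeqS : ShortComplex (Rep ℤ Γℚ) :=
  ShortComplex.mk (sUR_muIncl p S hpS) (sUR_powHom p S) (sUR_muIncl_comp_powHom p S hpS)

theorem kummerSeqS_shortExact : (kummerSeqS p S hpS).ShortExact := by
  have hp0 : p ≠ 0 := (Fact.out : p.Prime).ne_zero
  have hM : Mono (kummerSeqS p S hpS).f := by
    rw [Rep.mono_iff_injective]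
    intro a b hab
    change Additive (rootsOfUnity p Qb) at a b
    have h : ((sUR_muInclHom p S hpS a.toMul : ES S) : Qbˣ) =
        ((sUR_muInclHom p S hpS b.toMul : ES S) : Qbˣ) :=
      congrArg (fun t : Additive (ES S) => ((t.toMul : ES S) : Qbˣ)) hab
    rw [coe_sUR_muInclHom, coe_sUR_muInclHom] at h
    exact congrArg Additive.ofMul (Subtype.ext h)
  have hP : Epi (kummerSeqS p S hpS).g := by
    rw [Rep.epi_iff_surjective]
    intro c
    change Additive (ES S) at c
    obtain ⟨y, hy⟩ := IsAlgClosed.exists_pow_nat_eq (((c.toMul : ES S) : Qbˣ) : Qb)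
      (Nat.pos_of_ne_zero hp0)
    have hy0 : y ≠ 0 := by
      rintro rfl
      rw [zero_pow hp0] at hy
      exact ((c.toMul : ES S) : Qbˣ).ne_zero hy.symm
    have h : (Units.mk0 y hy0) ^ p = ((c.toMul : ES S) : Qbˣ) :=
      Units.ext (by rw [Units.val_pow_eq_pow_val, Units.val_mk0, hy])
    have hmem : Units.mk0 y hy0 ∈ ES S :=
      sUR_mem_ES_of_pow_mem S hpS _ (by rw [h]; exact (c.toMul : ES S).2)
    refine ⟨Additive.ofMul (⟨Units.mk0 y hy0, hmem⟩ : ES S), ?_⟩
    change Additive.ofMul ((⟨Units.mk0 y hy0, hmem⟩ : ES S) ^ p) = c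
    have h' : (⟨Units.mk0 y hy0, hmem⟩ : ES S) ^ p = c.toMul := Subtype.ext (by
      rw [Subgroup.coe_pow]; exact h)
    rw [h']
    rfl
  have hE : (kummerSeqS p S hpS).Exact := by
    rw [rep_shortComplex_exact_iff]
    intro x hx
    change Additive (ES S) at x
    have hx' : (x.toMul : ES S) ^ p = 1 := congrArg Additive.toMul hx
    have hx'' : ((x.toMul : ES S) : Qbˣ) ^ p = 1 := by
      rw [← Subgroup.coe_pow, hx']; rfl
    refine ⟨Additive.ofMul (⟨(x.toMul : ES S), (mem_rootsOfUnity _ _).mpr hx''⟩ :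
      rootsOfUnity p Qb), ?_⟩
    have : sUR_muInclHom p S hpS ⟨(x.toMul : ES S), (mem_rootsOfUnity _ _).mpr hx''⟩ = x.toMul :=
      Subtype.ext rfl
    exact congrArg Additive.ofMul this
  exact { exact := hE, mono_f := hM, epi_g := hP }

/-- the Kummer sequence restricted to any subgroup `V` of `Γℚ` is still short exact. -/
theorem kummerSeqS_res_shortExact (V : Subgroup Γℚ) :
    ((kummerSeqS p S hpS).map (Rep.resFunctor V.subtype)).ShortExact :=
  (Rep.shortExact_res V.subtype).2 (kummerSeqS_shortExact p S hpS)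

end Kummer

section Invariants

variable (S : Finset Nat.Primes)

attribute [local instance] sUR_mulDistribMulAction

/-- Galois correspondence in `Qb/ℚ`, elementwise. -/
theorem sUR_mem_of_forall_fixingSubgroup (F : IntermediateField ℚ Qb) {x : Qb}
    (h : ∀ g ∈ F.fixingSubgroup, g x = x) : x ∈ F := by
  have := InfiniteGalois.fixedField_fixingSubgroup F
  rw [← this, IntermediateField.mem_fixedField_iff]
  exact h

/-- `E_S^{Gal(Qb/F)} = E_S ∩ F`: the invariants of `E_S` under the fixing subgroup of `F` are the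
`S`-units lying in `F`. -/
theorem sUR_ES_smul_eq_iff (F : IntermediateField ℚ Qb) (x : ES S) :
    (∀ g ∈ F.fixingSubgroup, g • x = x) ↔ (((x : Qbˣ)) : Qb) ∈ F := by
  constructor
  · intro h
    refine sUR_mem_of_forall_fixingSubgroup F fun g hg => ?_
    exact congrArg (fun t : ES S => (((t : Qbˣ)) : Qb)) (h g hg)
  · intro h g hg
    refine Subtype.ext (Units.ext ?_)
    exact (IntermediateField.mem_fixingSubgroup_iff _ _).1 hg _ h

/-- the same in terms of the representation `ESRep S`. -/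
theorem sUR_ESRep_ρ_eq_iff (F : IntermediateField ℚ Qb) (a : Additive (ES S)) :
    (∀ g ∈ F.fixingSubgroup, (ESRep S).ρ g a = a) ↔ (((a.toMul : ES S) : Qbˣ) : Qb) ∈ F := by
  rw [← sUR_ES_smul_eq_iff]
  constructor
  · intro h g hg
    exact congrArg Additive.toMul (h g hg)
  · intro h g hg
    exact congrArg Additive.ofMul (h g hg)

/-- an element of `F` which is a unit at every valuation subring over a prime outside `S`, for `F`
unramified outside `S`, defines an element of `E_S`. -/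
theorem sUR_mem_ES_of_mem {F : IntermediateField ℚ Qb} (hF : F.IsUnramifiedOutside S) {x : Qbˣ}
    (hx : (x : Qb) ∈ F) (hu : ∀ q : Nat.Primes, q ∉ S → ∀ A : ValuationSubring Qb,
      A.LiesOverPrime (q : ℕ) → (x : Qb) ∈ A ∧ ((x⁻¹ : Qbˣ) : Qb) ∈ A) : x ∈ ES S :=
  ⟨le_QS_of_isUnramifiedOutside S hF hx, hu⟩

end Invariants

end Fermat.Agent.PT
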