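/-
S55 engine (E2'): the connecting homomorphism of level-constant cohomology on representatives.
-/
import Fermat.Agent.CFT.PT.SmoothLES

set_option autoImplicit false

namespace Fermat.Agent.PT

open CategoryTheory groupCohomology Rep ShortComplex

universe u

variable {k G : Type u} [CommRing k] [Group G] {𝔉 : LevelFamily G}
  {X : ShortComplex (Rep.{u} k G)} (hfin : 𝔉.FiniteIndex) (hX : X.ShortExact)
  (hsm : IsSmooth 𝔉 X.X₂)

include hX in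
/-- if `f ∘ x = d y` then `x` is a cocycle. -/
theorem d_eq_zero_of_comp_eq_d {i : ℕ} (y : (Fin i → G) → X.X₂) (x : (Fin (i + 1) → G) → X.X₁)
    (hx : ∀ g, X.f.hom (x g) = (inhomogeneousCochains.d X.X₂ i).hom y g) :
    (inhomogeneousCochains.d X.X₁ (i + 1)).hom x = 0 := by
  have hinj : Function.Injective X.f.hom := (Rep.mono_iff_injective X.f).1 hX.mono_f
  have h1 := (cochainsMap (MonoidHom.id G) X.f).comm (i + 1) (i + 2)
  rw [inhomogeneousCochains.d_def, inhomogeneousCochains.d_def] at h1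
  have h2 : ((cochainsMap (MonoidHom.id G) X.f).f (i + 2)).hom
      ((inhomogeneousCochains.d X.X₁ (i + 1)).hom x) =
      (inhomogeneousCochains.d X.X₂ (i + 1)).hom
        (((cochainsMap (MonoidHom.id G) X.f).f (i + 1)).hom x) := (congr($h1 x)).symm
  have h3 : ((cochainsMap (MonoidHom.id G) X.f).f (i + 1)).hom x =
      (inhomogeneousCochains.d X.X₂ i).hom y := by
    funext g
    exact hx g
  have h4 : (inhomogeneousCochains.d X.X₂ (i + 1)).hom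
      ((inhomogeneousCochains.d X.X₂ i).hom y) = 0 := by
    have h := inhomogeneousCochains.d_comp_d (A := X.X₂) (n := i)
    exact congr($h y)
  rw [h3, h4] at h2
  funext g
  apply hinj
  have h5 := congrFun h2 g
  show X.f.hom ((inhomogeneousCochains.d X.X₁ (i + 1)).hom x g) = X.f.hom 0
  rw [map_zero]
  exact h5

/-- the cycle of `lcComplex` built by Mathlib's concrete `cyclesMk` is the one of `lcToCycles`. -/
theorem cyclesMk_eq_lcToCycles (A : Rep.{u} k G) (i : ℕ) (c : lcCocycles 𝔉 A i)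
    (hc : ((forget₂ (ModuleCat k) Ab).map ((lcComplex 𝔉 A).d i (i + 1)))
      (⟨c.1, c.2.1⟩ : lcCochains 𝔉 A i) = 0) :
    (lcComplex 𝔉 A).cyclesMk (⟨c.1, c.2.1⟩ : lcCochains 𝔉 A i) (i + 1) (by simp) hc =
      (lcToCycles 𝔉 A i).hom c := by
  apply (ModuleCat.mono_iff_injective ((lcComplex 𝔉 A).iCycles i)).1 inferInstance
  apply lcX_ext
  rw [iCycles_lcToCycles]
  have h := (lcComplex 𝔉 A).i_cyclesMk (⟨c.1, c.2.1⟩ : lcCochains 𝔉 A i) (i + 1) (by simp) hc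
  exact congrArg (Subtype.val (p := fun x => x ∈ lcCochains 𝔉 A i)) h

/-- **the connecting homomorphism on representatives.** -/
theorem lcδ_lcπ (i : ℕ) (z : lcCocycles 𝔉 X.X₃ i)
    (y : (Fin i → G) → X.X₂) (hy : y ∈ lcCochains 𝔉 X.X₂ i) (hyz : ∀ g, X.g.hom (y g) = z.1 g)
    (x : (Fin (i + 1) → G) → X.X₁) (hxl : x ∈ lcCochains 𝔉 X.X₁ (i + 1))
    (hx : ∀ g, X.f.hom (x g) = (inhomogeneousCochains.d X.X₂ i).hom y g) :
    (lcδ hfin hX hsm i (i + 1) rfl).hom (lcπ 𝔉 X.X₃ i z) =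
      lcπ 𝔉 X.X₁ (i + 1)
        ⟨x, hxl, LinearMap.mem_ker.2 (d_eq_zero_of_comp_eq_d hX y x hx)⟩ := by
  have hS := lcShortComplex_shortExact hfin hX hsm
  have hz3 : ((forget₂ (ModuleCat k) Ab).map ((lcShortComplex 𝔉 X).X₃.d i (i + 1)))
      (⟨z.1, z.2.1⟩ : lcCochains 𝔉 X.X₃ i) = 0 := by
    show ((lcComplex 𝔉 X.X₃).d i (i + 1)).hom (⟨z.1, z.2.1⟩ : lcCochains 𝔉 X.X₃ i) = 0
    rw [lcComplex_d]
    apply Subtype.ext
    exact z.2.2
  have hy2 : ((forget₂ (ModuleCat k) Ab).map ((lcShortComplex 𝔉 X).g.f i))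
      (⟨y, hy⟩ : lcCochains 𝔉 X.X₂ i) = (⟨z.1, z.2.1⟩ : lcCochains 𝔉 X.X₃ i) := by
    apply Subtype.ext
    funext g
    exact hyz g
  have hx1 : ((forget₂ (ModuleCat k) Ab).map ((lcShortComplex 𝔉 X).f.f (i + 1)))
      (⟨x, hxl⟩ : lcCochains 𝔉 X.X₁ (i + 1)) =
      ((forget₂ (ModuleCat k) Ab).map ((lcShortComplex 𝔉 X).X₂.d i (i + 1)))
        (⟨y, hy⟩ : lcCochains 𝔉 X.X₂ i) := by
    show _ = ((lcComplex 𝔉 X.X₂).d i (i + 1)).hom (⟨y, hy⟩ : lcCochains 𝔉 X.X₂ i)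
    rw [lcComplex_d]
    apply Subtype.ext
    funext g
    exact hx g
  have key := hS.δ_apply i (i + 1) rfl (⟨z.1, z.2.1⟩ : lcCochains 𝔉 X.X₃ i) hz3
    (⟨y, hy⟩ : lcCochains 𝔉 X.X₂ i) hy2 (⟨x, hxl⟩ : lcCochains 𝔉 X.X₁ (i + 1)) hx1 (i + 2)
    (by simp)
  have e3 : (lcShortComplex 𝔉 X).X₃.cyclesMk (⟨z.1, z.2.1⟩ : lcCochains 𝔉 X.X₃ i) (i + 1)
      (by simp) hz3 = (lcToCycles 𝔉 X.X₃ i).hom z :=
    cyclesMk_eq_lcToCycles X.X₃ i z hz3
  have e1 : (lcShortComplex 𝔉 X).X₁.cyclesMk (⟨x, hxl⟩ : lcCochains 𝔉 X.X₁ (i + 1)) (i + 2)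
      (by simp) (hS.d_eq_zero_of_f_eq_d_apply i (i + 1) (⟨y, hy⟩ : lcCochains 𝔉 X.X₂ i)
        (⟨x, hxl⟩ : lcCochains 𝔉 X.X₁ (i + 1)) hx1 (i + 2)) =
      (lcToCycles 𝔉 X.X₁ (i + 1)).hom
        ⟨x, hxl, LinearMap.mem_ker.2 (d_eq_zero_of_comp_eq_d hX y x hx)⟩ :=
    cyclesMk_eq_lcToCycles X.X₁ (i + 1)
      ⟨x, hxl, LinearMap.mem_ker.2 (d_eq_zero_of_comp_eq_d hX y x hx)⟩ _
  rw [e3, e1] at key
  exact key

/-! ### naturality of the connecting homomorphism -/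

section Naturality

variable {H : Type u} [Group H] {𝔉H : LevelFamily H} {Y : ShortComplex (Rep.{u} k H)}
  (hfinH : 𝔉H.FiniteIndex) (hY : Y.ShortExact) (hsmY : IsSmooth 𝔉H Y.X₂)
  (ψ : H →* G) (hψ : 𝔉H.Compat ψ 𝔉)
  (φ₁ : res ψ X.X₁ ⟶ Y.X₁) (φ₂ : res ψ X.X₂ ⟶ Y.X₂) (φ₃ : res ψ X.X₃ ⟶ Y.X₃)

/-- the morphism of short complexes of level-constant complexes induced by a change of groups. -/
noncomputable def lcShortComplexMap
    (h₁₂ : ∀ a : X.X₁, φ₂.hom (X.f.hom a) = Y.f.hom (φ₁.hom a))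
    (h₂₃ : ∀ a : X.X₂, φ₃.hom (X.g.hom a) = Y.g.hom (φ₂.hom a)) :
    lcShortComplex 𝔉 X ⟶ lcShortComplex 𝔉H Y where
  τ₁ := lcMap ψ φ₁ hψ
  τ₂ := lcMap ψ φ₂ hψ
  τ₃ := lcMap ψ φ₃ hψ
  comm₁₂ := by
    ext n f : 3
    apply lcX_ext
    funext g
    exact (h₁₂ _).symm
  comm₂₃ := by
    ext n f : 3
    apply lcX_ext
    funext g
    exact (h₂₃ _).symm

/-- **naturality of `lcδ`** with respect to change of groups and coefficients. -/
theorem lcδ_naturality_map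
    (h₁₂ : ∀ a : X.X₁, φ₂.hom (X.f.hom a) = Y.f.hom (φ₁.hom a))
    (h₂₃ : ∀ a : X.X₂, φ₃.hom (X.g.hom a) = Y.g.hom (φ₂.hom a)) (i j : ℕ) (hij : i + 1 = j) :
    lcδ hfin hX hsm i j hij ≫ HlcMap ψ φ₁ hψ j =
      HlcMap ψ φ₃ hψ i ≫ lcδ hfinH hY hsmY i j hij :=
  HomologicalComplex.HomologySequence.δ_naturality
    (lcShortComplexMap ψ hψ φ₁ φ₂ φ₃ h₁₂ h₂₃)
    (lcShortComplex_shortExact hfin hX hsm) (lcShortComplex_shortExact hfinH hY hsmY) i j hij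

end Naturality

/-- naturality of `lcδ` for a morphism of short exact sequences of `Rep k G`. -/
theorem lcδ_naturality {X' : ShortComplex (Rep.{u} k G)} (hX' : X'.ShortExact)
    (hsm' : IsSmooth 𝔉 X'.X₂) (F : X ⟶ X') (i j : ℕ) (hij : i + 1 = j) :
    lcδ hfin hX hsm i j hij ≫ HlcMap (MonoidHom.id G) F.τ₁ 𝔉.compat_id j =
      HlcMap (MonoidHom.id G) F.τ₃ 𝔉.compat_id i ≫ lcδ hfin hX' hsm' i j hij :=
  lcδ_naturality_map hfin hX hsm hfin hX' hsm' (MonoidHom.id G) 𝔉.compat_id F.τ₁ F.τ₂ F.τ₃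
    (fun a => by
      have h := F.comm₁₂
      exact (congrArg (fun φ => φ.hom a) h).symm)
    (fun a => by
      have h := F.comm₂₃
      exact (congrArg (fun φ => φ.hom a) h).symm) i j hij

end Fermat.Agent.PT
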