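import Mathlib
import Fermat.Agent.CFT.PT.Smooth

/-!
# S55 engine (E4): cup products of inhomogeneous cochains

For a `k`-bilinear `G`-equivariant pairing `β : A × B → C` of representations, the cup product
`cup β m n f g (x₁..x_{m+n}) = β (f (x₁..x_m)) (ρ(x₁⋯x_m) (g (x_{m+1}..x_{m+n})))` of Mathlib's
inhomogeneous cochains satisfies the Leibniz rule `d (f ∪ g) = df ∪ g + (-1)^m f ∪ dg`
(`d_cup`, `d_cupN`, ALL degrees), is bilinear, and preserves level-constant cochains
(`IsLevel.cup`, `cupN_mem_lcCochains`).
-/

set_option autoImplicit false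
set_option linter.unusedSectionVars false

namespace Fermat.Agent.PT

open CategoryTheory groupCohomology Rep

universe u

section Tuples

variable {G : Type u} [Group G]

/-- the first `m` entries of an `(m + n)`-tuple -/
def tupFst (m n : ℕ) (x : Fin (m + n) → G) : Fin m → G := fun i => x (Fin.castAdd n i)

/-- the last `n` entries of an `(m + n)`-tuple -/
def tupSnd (m n : ℕ) (x : Fin (m + n) → G) : Fin n → G := fun j => x (Fin.natAdd m j)

/-- the ordered product of the entries of a tuple -/
def tupProd {m : ℕ} (y : Fin m → G) : G := (List.ofFn y).prod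

theorem tupProd_zero (y : Fin 0 → G) : tupProd y = 1 := by
  simp [tupProd]

theorem tupProd_succ {m : ℕ} (y : Fin (m + 1) → G) :
    tupProd y = y 0 * tupProd (fun i => y i.succ) := by
  simp [tupProd, List.ofFn_succ]

theorem tupProd_succ_last {m : ℕ} (y : Fin (m + 1) → G) :
    tupProd y = tupProd (fun i => y (Fin.castSucc i)) * y (Fin.last m) := by
  rw [tupProd, tupProd, List.ofFn_succ', List.concat_eq_append, List.prod_append,
    List.prod_singleton]

theorem contractNth_zero_zero {m : ℕ} (y : Fin (m + 2) → G) :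
    Fin.contractNth 0 (· * ·) y 0 = y 0 * y 1 := by
  simp [Fin.contractNth]

theorem contractNth_zero_succ {m : ℕ} (y : Fin (m + 2) → G) (i : Fin m) :
    Fin.contractNth 0 (· * ·) y i.succ = y i.succ.succ := by
  simp [Fin.contractNth]

theorem contractNth_succ_zero {m : ℕ} (y : Fin (m + 2) → G) (j : Fin (m + 1)) :
    Fin.contractNth j.succ (· * ·) y 0 = y 0 := by
  simp [Fin.contractNth]

theorem contractNth_succ_succ {m : ℕ} (y : Fin (m + 2) → G) (j : Fin (m + 1)) (i : Fin m) :
    Fin.contractNth j.succ (· * ·) y i.succ = Fin.contractNth j (· * ·) (fun l => y l.succ) i := by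
  simp only [Fin.contractNth, Fin.val_succ, add_lt_add_iff_right, add_left_inj, Fin.castSucc_succ]
  
/-- contracting two adjacent entries does not change the product -/
theorem tupProd_contractNth {m : ℕ} (y : Fin (m + 1) → G) (j : Fin (m + 1)) (hj : (j : ℕ) < m) :
    tupProd (Fin.contractNth j (· * ·) y) = tupProd y := by
  induction m with
  | zero => omega
  | succ m ih =>
    rw [tupProd_succ, tupProd_succ y]
    induction j using Fin.cases with
    | zero =>
      rw [contractNth_zero_zero]
      simp only [contractNth_zero_succ]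
      rw [tupProd_succ (fun i => y i.succ), mul_assoc]
      rfl
    | succ j' =>
      rw [contractNth_succ_zero]
      simp only [contractNth_succ_succ]
      rw [ih (fun l => y l.succ) j' (by simpa using hj)]


/-! ### splitting an `(m + n + 1)`-tuple -/

theorem cup_add_one_add (m n : ℕ) : m + 1 + n = m + n + 1 := by omega

variable {m n : ℕ} (x : Fin (m + n + 1) → G)

/-- the first `m + 1` entries -/
def tupA (m n : ℕ) (x : Fin (m + n + 1) → G) : Fin (m + 1) → G :=
  tupFst (m + 1) n (fun i => x (Fin.cast (cup_add_one_add m n) i))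

/-- the last `n` entries -/
def tupB (m n : ℕ) (x : Fin (m + n + 1) → G) : Fin n → G :=
  tupSnd (m + 1) n (fun i => x (Fin.cast (cup_add_one_add m n) i))

/-- the first `m` entries -/
def tupC (m n : ℕ) (x : Fin (m + n + 1) → G) : Fin m → G := tupFst m (n + 1) x

/-- the last `n + 1` entries -/
def tupD (m n : ℕ) (x : Fin (m + n + 1) → G) : Fin (n + 1) → G := tupSnd m (n + 1) x

theorem tupFst_succ : tupFst m n (fun i => x i.succ) = fun i => tupA m n x i.succ := by
  funext i
  simp only [tupFst, tupA]
  congr 1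

theorem tupSnd_succ : tupSnd m n (fun i => x i.succ) = tupB m n x := by
  funext i
  simp only [tupSnd, tupB]
  congr 1
  ext
  simp
  omega

theorem tupA_zero : tupA m n x 0 = x 0 := by
  simp only [tupA, tupFst]
  congr 1

theorem tupA_castSucc : (fun i : Fin m => tupA m n x (Fin.castSucc i)) = tupC m n x := by
  funext i
  simp only [tupA, tupC, tupFst]
  congr 1

theorem tupA_last : tupA m n x (Fin.last m) = tupD m n x 0 := by
  simp only [tupA, tupD, tupFst, tupSnd]
  congr 1

theorem tupD_succ : (fun i : Fin n => tupD m n x i.succ) = tupB m n x := by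
  funext i
  simp only [tupD, tupB, tupSnd]
  congr 1
  ext
  simp
  omega

theorem tupFst_contractNth_castAdd (j : Fin m) :
    tupFst m n (Fin.contractNth (Fin.castAdd (n + 1) j) (· * ·) x) =
      Fin.contractNth (Fin.castSucc j) (· * ·) (tupA m n x) := by
  funext i
  simp only [tupFst, tupA, Fin.contractNth, Fin.val_castAdd, Fin.val_castSucc]
  split_ifs <;> rfl

theorem tupSnd_contractNth_castAdd (j : Fin m) :
    tupSnd m n (Fin.contractNth (Fin.castAdd (n + 1) j) (· * ·) x) = tupB m n x := by
  funext i
  simp only [tupSnd, tupB, Fin.contractNth, Fin.val_castAdd, Fin.val_natAdd]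
  have h1 : ¬ (m + (i : ℕ) < (j : ℕ)) := by omega
  have h2 : ¬ (m + (i : ℕ) = (j : ℕ)) := by omega
  rw [if_neg h1, if_neg h2]
  congr 1
  ext
  simp
  omega

theorem tupFst_contractNth_natAdd (i : Fin (n + 1)) :
    tupFst m n (Fin.contractNth (Fin.natAdd m i) (· * ·) x) = tupC m n x := by
  funext l
  simp only [tupFst, tupC, Fin.contractNth, Fin.val_castAdd, Fin.val_natAdd]
  have h1 : ((l : ℕ) < m + (i : ℕ)) := by omega
  rw [if_pos h1]
  rfl

theorem tupSnd_contractNth_natAdd (i : Fin (n + 1)) :
    tupSnd m n (Fin.contractNth (Fin.natAdd m i) (· * ·) x) =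
      Fin.contractNth i (· * ·) (tupD m n x) := by
  funext l
  simp only [tupSnd, tupD, Fin.contractNth, Fin.val_natAdd, add_lt_add_iff_left, add_right_inj]
  split_ifs <;> rfl


theorem contractNth_last {m : ℕ} (y : Fin (m + 1) → G) :
    Fin.contractNth (Fin.last m) (· * ·) y = fun i => y (Fin.castSucc i) := by
  funext i
  exact Fin.contractNth_apply_of_lt _ _ _ _ (by simp)

theorem cup_sum_univ_split {M : Type*} [AddCommMonoid M] (m n : ℕ) (F : Fin (m + n + 1) → M) :
    ∑ j, F j = ∑ j : Fin m, F (Fin.castAdd (n + 1) j) + ∑ i : Fin (n + 1), F (Fin.natAdd m i) :=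
  Fin.sum_univ_add (a := m) (b := n + 1) F

end Tuples

/-! ### the cup product -/

section Cup

variable {k G : Type u} [CommRing k] [Group G] {A B C : Rep.{u} k G}

/-- a `k`-bilinear `G`-equivariant pairing `A × B → C` -/
structure RepPairing (A B C : Rep.{u} k G) where
  /-- the underlying bilinear map -/
  toLin : A →ₗ[k] B →ₗ[k] C
  map_ρ : ∀ (g : G) (a : A) (b : B), toLin (A.ρ g a) (B.ρ g b) = C.ρ g (toLin a b)

/-- the cup product of inhomogeneous cochains -/
def cup (β : RepPairing A B C) (m n : ℕ) (f : (Fin m → G) → A) (g : (Fin n → G) → B) :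
    (Fin (m + n) → G) → C :=
  fun x => β.toLin (f (tupFst m n x)) (B.ρ (tupProd (tupFst m n x)) (g (tupSnd m n x)))

theorem cup_apply (β : RepPairing A B C) (m n : ℕ) (f : (Fin m → G) → A) (g : (Fin n → G) → B)
    (x : Fin (m + n) → G) :
    cup β m n f g x =
      β.toLin (f (tupFst m n x)) (B.ρ (tupProd (tupFst m n x)) (g (tupSnd m n x))) := rfl

/-- **Leibniz rule** for the cup product of inhomogeneous cochains. -/
theorem d_cup (β : RepPairing A B C) (m n : ℕ) (f : (Fin m → G) → A) (g : (Fin n → G) → B)
    (x : Fin (m + n + 1) → G) :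
    (inhomogeneousCochains.d C (m + n)).hom (cup β m n f g) x =
      cup β (m + 1) n ((inhomogeneousCochains.d A m).hom f) g
          (fun i => x (Fin.cast (cup_add_one_add m n) i)) +
        (-1 : k) ^ m • cup β m (n + 1) f ((inhomogeneousCochains.d B n).hom g) x := by
  have hR1 : cup β (m + 1) n ((inhomogeneousCochains.d A m).hom f) g
      (fun i => x (Fin.cast (cup_add_one_add m n) i)) =
      β.toLin ((inhomogeneousCochains.d A m).hom f (tupA m n x))
        (B.ρ (tupProd (tupA m n x)) (g (tupB m n x))) := rfl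
  have hR2 : cup β m (n + 1) f ((inhomogeneousCochains.d B n).hom g) x =
      β.toLin (f (tupC m n x))
        (B.ρ (tupProd (tupC m n x)) ((inhomogeneousCochains.d B n).hom g (tupD m n x))) := rfl
  -- products
  have hP1 : ∀ j : Fin m, tupProd (Fin.contractNth (Fin.castSucc j) (· * ·) (tupA m n x)) =
      tupProd (tupA m n x) := fun j => tupProd_contractNth _ _ (by simp)
  have hP2 : tupProd (tupA m n x) = tupA m n x 0 * tupProd (fun i => tupA m n x i.succ) :=
    tupProd_succ _
  have hP3 : tupProd (tupA m n x) = tupProd (tupC m n x) * tupD m n x 0 := by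
    rw [tupProd_succ_last, tupA_castSucc, tupA_last]
  set P := tupProd (tupA m n x) with hP
  set gB := g (tupB m n x) with hgB
  set a0 := A.ρ (tupA m n x 0) (f fun i => tupA m n x i.succ) with ha0
  -- the three differentials
  have hdf : (inhomogeneousCochains.d A m).hom f (tupA m n x) =
      a0 + (∑ j : Fin m, (-1 : k) ^ ((j : ℕ) + 1) •
          f (Fin.contractNth (Fin.castSucc j) (· * ·) (tupA m n x)) +
        (-1 : k) ^ (m + 1) • f (tupC m n x)) := by
    rw [inhomogeneousCochains.d_hom_apply, Fin.sum_univ_castSucc]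
    simp only [contractNth_last, tupA_castSucc, Fin.val_castSucc, Fin.val_last]
    rfl
  have hdg : (inhomogeneousCochains.d B n).hom g (tupD m n x) =
      B.ρ (tupD m n x 0) gB + ∑ i : Fin (n + 1), (-1 : k) ^ ((i : ℕ) + 1) •
          g (Fin.contractNth i (· * ·) (tupD m n x)) := by
    rw [inhomogeneousCochains.d_hom_apply, tupD_succ]
  have hL : (inhomogeneousCochains.d C (m + n)).hom (cup β m n f g) x =
      β.toLin a0 (B.ρ P gB) +
        (∑ j : Fin m, (-1 : k) ^ ((j : ℕ) + 1) •
            β.toLin (f (Fin.contractNth (Fin.castSucc j) (· * ·) (tupA m n x))) (B.ρ P gB) +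
          ∑ i : Fin (n + 1), ((-1 : k) ^ m * (-1 : k) ^ ((i : ℕ) + 1)) •
            β.toLin (f (tupC m n x))
              (B.ρ (tupProd (tupC m n x)) (g (Fin.contractNth i (· * ·) (tupD m n x))))) := by
    rw [inhomogeneousCochains.d_hom_apply, cup_sum_univ_split]
    simp only [cup_apply, tupFst_succ, tupSnd_succ, tupFst_contractNth_castAdd,
      tupSnd_contractNth_castAdd, tupFst_contractNth_natAdd, tupSnd_contractNth_natAdd,
      Fin.val_castAdd, Fin.val_natAdd, hP1]
    rw [← tupA_zero x, ← β.map_ρ, ← Module.End.mul_apply, ← map_mul, ← hP2]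
    congr 2
    refine Finset.sum_congr rfl fun i _ => ?_
    rw [← pow_add, add_assoc]
  have hE : B.ρ (tupProd (tupC m n x)) (B.ρ (tupD m n x 0) gB) = B.ρ P gB := by
    rw [← Module.End.mul_apply, ← map_mul, ← hP3]
  rw [hR1, hR2, hL, hdf, hdg]
  simp only [map_add, map_sum, map_smul, LinearMap.add_apply, LinearMap.sum_apply,
    LinearMap.smul_apply, smul_add, Finset.smul_sum, smul_smul, hE]
  rw [pow_succ, mul_neg_one, neg_smul]
  abel


/-! ### bilinearity -/

theorem cup_add_left (β : RepPairing A B C) (m n : ℕ) (f f' : (Fin m → G) → A)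
    (g : (Fin n → G) → B) : cup β m n (f + f') g = cup β m n f g + cup β m n f' g := by
  funext x
  simp [cup_apply]

theorem cup_add_right (β : RepPairing A B C) (m n : ℕ) (f : (Fin m → G) → A)
    (g g' : (Fin n → G) → B) : cup β m n f (g + g') = cup β m n f g + cup β m n f g' := by
  funext x
  simp [cup_apply]

theorem cup_smul_left (β : RepPairing A B C) (m n : ℕ) (c : k) (f : (Fin m → G) → A)
    (g : (Fin n → G) → B) : cup β m n (c • f) g = c • cup β m n f g := by
  funext x
  simp [cup_apply]

theorem cup_smul_right (β : RepPairing A B C) (m n : ℕ) (c : k) (f : (Fin m → G) → A)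
    (g : (Fin n → G) → B) : cup β m n f (c • g) = c • cup β m n f g := by
  funext x
  simp [cup_apply]

/-- the cup product as a bilinear map -/
def cupLin (β : RepPairing A B C) (m n : ℕ) :
    ((Fin m → G) → A) →ₗ[k] ((Fin n → G) → B) →ₗ[k] ((Fin (m + n) → G) → C) :=
  LinearMap.mk₂ k (cup β m n) (cup_add_left β m n) (cup_smul_left β m n) (cup_add_right β m n)
    (cup_smul_right β m n)

@[simp] theorem cupLin_apply (β : RepPairing A B C) (m n : ℕ) (f : (Fin m → G) → A)
    (g : (Fin n → G) → B) : cupLin β m n f g = cup β m n f g := rfl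

theorem cup_zero_left (β : RepPairing A B C) (m n : ℕ) (g : (Fin n → G) → B) :
    cup β m n (0 : (Fin m → G) → A) g = 0 := by
  rw [← cupLin_apply, map_zero, LinearMap.zero_apply]

theorem cup_zero_right (β : RepPairing A B C) (m n : ℕ) (f : (Fin m → G) → A) :
    cup β m n f (0 : (Fin n → G) → B) = 0 := by
  rw [← cupLin_apply, map_zero]

/-! ### reindexing the degree -/

/-- transport of a cochain along an equality of degrees -/
def castCochain {X : Type*} {a b : ℕ} (h : a = b) (f : (Fin a → G) → X) : (Fin b → G) → X :=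
  fun x => f fun i => x (Fin.cast h i)

theorem castCochain_rfl {X : Type*} {a : ℕ} (f : (Fin a → G) → X) : castCochain rfl f = f := rfl

/-- the cup product with values in a prescribed degree `N = m + n` -/
def cupN (β : RepPairing A B C) {m n N : ℕ} (h : m + n = N) (f : (Fin m → G) → A)
    (g : (Fin n → G) → B) : (Fin N → G) → C :=
  castCochain h (cup β m n f g)

theorem cupN_rfl (β : RepPairing A B C) {m n : ℕ} (f : (Fin m → G) → A) (g : (Fin n → G) → B) :
    cupN β (rfl : m + n = m + n) f g = cup β m n f g := rfl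

/-- **Leibniz rule**, as an identity of cochains of degree `N + 1`. -/
theorem d_cupN (β : RepPairing A B C) {m n N : ℕ} (h : m + n = N) (f : (Fin m → G) → A)
    (g : (Fin n → G) → B) :
    (inhomogeneousCochains.d C N).hom (cupN β h f g) =
      cupN β (show m + 1 + n = N + 1 by omega) ((inhomogeneousCochains.d A m).hom f) g +
        (-1 : k) ^ m • cupN β (show m + (n + 1) = N + 1 by omega) f
          ((inhomogeneousCochains.d B n).hom g) := by
  subst h
  funext x
  exact d_cup β m n f g x

theorem cupN_add_left (β : RepPairing A B C) {m n N : ℕ} (h : m + n = N)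
    (f f' : (Fin m → G) → A) (g : (Fin n → G) → B) :
    cupN β h (f + f') g = cupN β h f g + cupN β h f' g := by
  subst h; exact cup_add_left β m n f f' g

theorem cupN_add_right (β : RepPairing A B C) {m n N : ℕ} (h : m + n = N)
    (f : (Fin m → G) → A) (g g' : (Fin n → G) → B) :
    cupN β h f (g + g') = cupN β h f g + cupN β h f g' := by
  subst h; exact cup_add_right β m n f g g'

theorem cupN_smul_left (β : RepPairing A B C) {m n N : ℕ} (h : m + n = N) (c : k)
    (f : (Fin m → G) → A) (g : (Fin n → G) → B) :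
    cupN β h (c • f) g = c • cupN β h f g := by
  subst h; exact cup_smul_left β m n c f g

theorem cupN_smul_right (β : RepPairing A B C) {m n N : ℕ} (h : m + n = N) (c : k)
    (f : (Fin m → G) → A) (g : (Fin n → G) → B) :
    cupN β h f (c • g) = c • cupN β h f g := by
  subst h; exact cup_smul_right β m n c f g

theorem cupN_zero_left (β : RepPairing A B C) {m n N : ℕ} (h : m + n = N)
    (g : (Fin n → G) → B) : cupN β h (0 : (Fin m → G) → A) g = 0 := by
  subst h; exact cup_zero_left β m n g

theorem cupN_zero_right (β : RepPairing A B C) {m n N : ℕ} (h : m + n = N)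
    (f : (Fin m → G) → A) : cupN β h f (0 : (Fin n → G) → B) = 0 := by
  subst h; exact cup_zero_right β m n f

/-! ### level-constant cochains -/

theorem tupProd_inv_mul_mem {U : Subgroup G} [U.Normal] {m : ℕ} {y y' : Fin m → G}
    (h : ∀ i, (y i)⁻¹ * y' i ∈ U) : (tupProd y)⁻¹ * tupProd y' ∈ U := by
  induction m with
  | zero => simp [tupProd_zero]
  | succ m ih =>
    rw [tupProd_succ y, tupProd_succ y']
    have h1 := ih (y := fun i => y i.succ) (y' := fun i => y' i.succ) fun i => h i.succ
    have h0 := h 0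
    set P := tupProd fun i => y i.succ
    set P' := tupProd fun i => y' i.succ
    have : (y 0 * P)⁻¹ * (y' 0 * P') = (P⁻¹ * ((y 0)⁻¹ * y' 0) * P⁻¹⁻¹) * (P⁻¹ * P') := by group
    rw [this]
    exact U.mul_mem (Subgroup.Normal.conj_mem inferInstance _ h0 _) h1

theorem IsLevel.cup (β : RepPairing A B C) {U : Subgroup G} [U.Normal] {m n : ℕ}
    {f : (Fin m → G) → A} {g : (Fin n → G) → B} (hf : IsLevel A m U f) (hg : IsLevel B n U g) :
    IsLevel C (m + n) U (cup β m n f g) := by
  constructor
  · intro x x' hxx'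
    rw [cup_apply, cup_apply]
    have h1 : f (tupFst m n x) = f (tupFst m n x') := hf.1 _ _ fun i => hxx' _
    have h2 : g (tupSnd m n x) = g (tupSnd m n x') := hg.1 _ _ fun i => hxx' _
    have h3 : (tupProd (tupFst m n x))⁻¹ * tupProd (tupFst m n x') ∈ U :=
      tupProd_inv_mul_mem fun i => hxx' _
    have h4 : tupProd (tupFst m n x') =
        tupProd (tupFst m n x) * ((tupProd (tupFst m n x))⁻¹ * tupProd (tupFst m n x')) := by
      group
    rw [← h1, ← h2, h4, map_mul, Module.End.mul_apply, hg.2 _ _ h3]
  · intro x u hu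
    rw [cup_apply, ← β.map_ρ, hf.2 _ _ hu, ← Module.End.mul_apply, ← map_mul]
    set P := tupProd (tupFst m n x)
    have h1 : u * P = P * (P⁻¹ * u * P⁻¹⁻¹) := by group
    rw [h1, map_mul, Module.End.mul_apply,
      hg.2 _ _ (Subgroup.Normal.conj_mem inferInstance _ hu _)]

theorem IsLevel.castCochain {X : Rep.{u} k G} {U : Subgroup G} {a b : ℕ} (h : a = b)
    {f : (Fin a → G) → X} (hf : IsLevel X a U f) : IsLevel X b U (castCochain h f) := by
  subst h; exact hf

theorem cupN_mem_lcCochains (𝔉 : LevelFamily G) (β : RepPairing A B C) {m n N : ℕ}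
    (h : m + n = N) {f : (Fin m → G) → A} {g : (Fin n → G) → B}
    (hf : f ∈ lcCochains 𝔉 A m) (hg : g ∈ lcCochains 𝔉 B n) :
    cupN β h f g ∈ lcCochains 𝔉 C N := by
  obtain ⟨U, hU, hfU⟩ := hf
  obtain ⟨V, hV, hgV⟩ := hg
  obtain ⟨W, hW, hle⟩ := 𝔉.directed U hU V hV
  have := 𝔉.normal W hW
  exact ⟨W, hW, ((hfU.mono (hle.trans inf_le_left)).cup β
    (hgV.mono (hle.trans inf_le_right))).castCochain h⟩

end Cup

end Fermat.Agent.PT
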