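/-
S55 engine (E3a): smooth function modules are acyclic for level-constant cohomology.

For a level family `𝔉` on `G` and a `k`-module `V`, `lcFunRep 𝔉 V` is the representation of `G` on
the locally constant functions `G → V` (right translation).  It is smooth and its level-constant
cohomology vanishes in positive degrees (explicit contracting homotopy).
-/
import Fermat.Agent.CFT.PT.Smooth
import Fermat.Agent.CFT.PT.SmoothLES
import Fermat.Agent.CFT.PT.Cup

set_option autoImplicit false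

namespace Fermat.Agent.PT

open CategoryTheory groupCohomology Rep

universe u

variable {k G : Type u} [CommRing k] [Group G] (𝔉 : LevelFamily G)
  (V : Type u) [AddCommGroup V] [Module k V]

/-- The locally constant functions `G → V`: invariant under right translation by some member of
the family. -/
def lcFun : Submodule k (G → V) where
  carrier := {f | ∃ U ∈ 𝔉.sets, ∀ x, ∀ u ∈ U, f (x * u) = f x}
  zero_mem' := by
    obtain ⟨U, hU⟩ := 𝔉.nonempty
    exact ⟨U, hU, fun _ _ _ => rfl⟩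
  add_mem' := by
    rintro f f' ⟨U, hU, hf⟩ ⟨U', hU', hf'⟩
    obtain ⟨W, hW, hle⟩ := 𝔉.directed U hU U' hU'
    refine ⟨W, hW, fun x u hu => ?_⟩
    simp only [Pi.add_apply]
    rw [hf x u (hle hu).1, hf' x u (hle hu).2]
  smul_mem' := by
    rintro c f ⟨U, hU, hf⟩
    refine ⟨U, hU, fun x u hu => ?_⟩
    simp only [Pi.smul_apply]
    rw [hf x u hu]

variable {𝔉 V} in
lemma mem_lcFun {f : G → V} :
    f ∈ lcFun (k := k) 𝔉 V ↔ ∃ U ∈ 𝔉.sets, ∀ x, ∀ u ∈ U, f (x * u) = f x := Iff.rfl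

/-- right translation preserves local constancy. -/
lemma lcFun_translate_mem (g : G) {f : G → V} (hf : f ∈ lcFun (k := k) 𝔉 V) :
    (fun x => f (x * g)) ∈ lcFun (k := k) 𝔉 V := by
  obtain ⟨U, hU, hfU⟩ := hf
  have := 𝔉.normal U hU
  refine ⟨U, hU, fun x u hu => ?_⟩
  have h1 : x * u * g = x * g * (g⁻¹ * u * g⁻¹⁻¹) := by group
  show f (x * u * g) = f (x * g)
  rw [h1]
  exact hfU _ _ (Subgroup.Normal.conj_mem inferInstance u hu g⁻¹)

/-- The representation of `G` on locally constant functions by right translation. -/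
def lcFunRepresentation : Representation k G (lcFun (k := k) 𝔉 V) where
  toFun g :=
    { toFun := fun f => ⟨fun x => f.1 (x * g), lcFun_translate_mem 𝔉 V g f.2⟩
      map_add' := fun _ _ => rfl
      map_smul' := fun _ _ => rfl }
  map_one' := by
    ext f x
    simp
  map_mul' g h := by
    ext f x
    simp [mul_assoc]

/-- The smooth function module as an object of `Rep k G`. -/
noncomputable abbrev lcFunRep : Rep.{u} k G := Rep.of (lcFunRepresentation (k := k) 𝔉 V)

variable {𝔉 V}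

lemma lcFunRep_ρ_apply (g : G) (f : lcFun (k := k) 𝔉 V) (x : G) :
    ((lcFunRep (k := k) 𝔉 V).ρ g f : lcFun (k := k) 𝔉 V).1 x = f.1 (x * g) := rfl

lemma lcFunRepresentation_apply (g : G) (f : lcFun (k := k) 𝔉 V) (x : G) :
    (lcFunRepresentation (k := k) 𝔉 V g f : lcFun (k := k) 𝔉 V).1 x = f.1 (x * g) := rfl


/-! ### The contracting homotopy -/

section Contract

variable {n : ℕ}

lemma contractNth_zero_cons (x : G) (g : Fin (n + 1) → G) :
    Fin.contractNth (0 : Fin (n + 2)) (· * ·) (Fin.cons x g : Fin (n + 2) → G) =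
      Fin.cons (x * g 0) (fun i => g i.succ) := by
  funext i
  refine Fin.cases ?_ (fun i => ?_) i
  · rw [contractNth_zero_zero]
    simp
  · rw [contractNth_zero_succ]
    simp

lemma contractNth_succ_cons (x : G) (g : Fin (n + 1) → G) (j : Fin (n + 1)) :
    Fin.contractNth j.succ (· * ·) (Fin.cons x g : Fin (n + 2) → G) =
      Fin.cons x (Fin.contractNth j (· * ·) g) := by
  funext i
  refine Fin.cases ?_ (fun i => ?_) i
  · rw [contractNth_succ_zero]
    simp
  · rw [contractNth_succ_succ]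
    simp

/-- the value of the contracting homotopy: `x ↦ F(x, g₁, …, gₙ)(1)`. -/
def lcFunContractFun (F : (Fin (n + 1) → G) → lcFunRep (k := k) 𝔉 V) (g : Fin n → G) : G → V :=
  fun x => (F (Fin.cons x g) : lcFun (k := k) 𝔉 V).1 1

lemma cons_inv_mul_mem {U : Subgroup G} (x : G) {g h : Fin n → G}
    (hgh : ∀ i, (g i)⁻¹ * h i ∈ U) (i : Fin (n + 1)) :
    ((Fin.cons x g : Fin (n + 1) → G) i)⁻¹ * (Fin.cons x h : Fin (n + 1) → G) i ∈ U := by
  refine Fin.cases ?_ (fun i => ?_) i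
  · simp
  · simpa using hgh i

lemma cons_mul_inv_mul_mem {U : Subgroup G} (x : G) {u : G} (hu : u ∈ U) (g : Fin n → G)
    (i : Fin (n + 1)) :
    ((Fin.cons x g : Fin (n + 1) → G) i)⁻¹ * (Fin.cons (x * u) g : Fin (n + 1) → G) i ∈ U := by
  refine Fin.cases ?_ (fun i => ?_) i
  · simpa using hu
  · simp

lemma lcFunContractFun_mem {U : Subgroup G} (hU : U ∈ 𝔉.sets)
    {F : (Fin (n + 1) → G) → lcFunRep (k := k) 𝔉 V}
    (hF : IsLevel (lcFunRep (k := k) 𝔉 V) (n + 1) U F) (g : Fin n → G) :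
    lcFunContractFun F g ∈ lcFun (k := k) 𝔉 V := by
  refine ⟨U, hU, fun x u hu => ?_⟩
  unfold lcFunContractFun
  rw [hF.1 (Fin.cons (x * u) g) (Fin.cons x g) fun i => by
    have := cons_mul_inv_mul_mem x hu g i
    have h2 := U.inv_mem this
    simpa using h2]

/-- the contracting homotopy on level-`U` cochains. -/
def lcFunContract {U : Subgroup G} (hU : U ∈ 𝔉.sets)
    {F : (Fin (n + 1) → G) → lcFunRep (k := k) 𝔉 V}
    (hF : IsLevel (lcFunRep (k := k) 𝔉 V) (n + 1) U F) :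
    (Fin n → G) → lcFunRep (k := k) 𝔉 V :=
  fun g => (⟨lcFunContractFun F g, lcFunContractFun_mem hU hF g⟩ : lcFun (k := k) 𝔉 V)

lemma lcFunContract_apply {U : Subgroup G} (hU : U ∈ 𝔉.sets)
    {F : (Fin (n + 1) → G) → lcFunRep (k := k) 𝔉 V}
    (hF : IsLevel (lcFunRep (k := k) 𝔉 V) (n + 1) U F) (g : Fin n → G) (x : G) :
    (lcFunContract hU hF g : lcFun (k := k) 𝔉 V).1 x =
      (F (Fin.cons x g) : lcFun (k := k) 𝔉 V).1 1 := rfl

lemma lcFunContract_isLevel {U : Subgroup G} (hU : U ∈ 𝔉.sets)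
    {F : (Fin (n + 1) → G) → lcFunRep (k := k) 𝔉 V}
    (hF : IsLevel (lcFunRep (k := k) 𝔉 V) (n + 1) U F) :
    IsLevel (lcFunRep (k := k) 𝔉 V) n U (lcFunContract hU hF) := by
  constructor
  · intro g h hgh
    apply Subtype.ext
    funext x
    rw [lcFunContract_apply, lcFunContract_apply, hF.1 _ _ (cons_inv_mul_mem x hgh)]
  · intro g u hu
    apply Subtype.ext
    funext x
    rw [lcFunRep_ρ_apply, lcFunContract_apply, lcFunContract_apply,
      hF.1 (Fin.cons (x * u) g) (Fin.cons x g) fun i => by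
        have := cons_mul_inv_mul_mem x hu g i
        have h2 := U.inv_mem this
        simpa using h2]

/-- evaluation of the underlying function of an element of the function module, as a linear map. -/
def lcFunEval (x : G) : lcFun (k := k) 𝔉 V →ₗ[k] V where
  toFun f := f.1 x
  map_add' _ _ := rfl
  map_smul' _ _ := rfl

lemma lcFunEval_apply (x : G) (f : lcFun (k := k) 𝔉 V) : lcFunEval x f = f.1 x := rfl

/-- **The homotopy identity on cocycles**: a level-constant cocycle of positive degree with values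
in the smooth function module is the coboundary of its contraction. -/
theorem d_lcFunContract {U : Subgroup G} (hU : U ∈ 𝔉.sets)
    {F : (Fin (n + 1) → G) → lcFunRep (k := k) 𝔉 V}
    (hF : IsLevel (lcFunRep (k := k) 𝔉 V) (n + 1) U F)
    (hd : (inhomogeneousCochains.d (lcFunRep (k := k) 𝔉 V) (n + 1)).hom F = 0) :
    (inhomogeneousCochains.d (lcFunRep (k := k) 𝔉 V) n).hom (lcFunContract hU hF) = F := by
  funext g
  apply Subtype.ext
  funext x
  have h0 := congrFun hd (Fin.cons x g)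
  rw [inhomogeneousCochains.d_hom_apply] at h0
  have h1 := congrArg (lcFunEval (k := k) (𝔉 := 𝔉) (V := V) 1) h0
  rw [map_add, map_sum, Fin.sum_univ_succ] at h1
  simp only [map_smul, lcFunEval_apply, contractNth_zero_cons, contractNth_succ_cons] at h1
  rw [inhomogeneousCochains.d_hom_apply]
  have h2 : ((lcFunRep (k := k) 𝔉 V).ρ (g 0) (lcFunContract hU hF fun i => g i.succ) +
      ∑ j : Fin (n + 1), (-1 : k) ^ ((j : ℕ) + 1) •
        lcFunContract hU hF (Fin.contractNth j (· * ·) g) : lcFun (k := k) 𝔉 V).1 x =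
      lcFunEval (k := k) (𝔉 := 𝔉) (V := V) x
        ((lcFunRep (k := k) 𝔉 V).ρ (g 0) (lcFunContract hU hF fun i => g i.succ) +
      ∑ j : Fin (n + 1), (-1 : k) ^ ((j : ℕ) + 1) •
        lcFunContract hU hF (Fin.contractNth j (· * ·) g)) := rfl
  rw [h2, map_add, map_sum]
  simp only [map_smul, lcFunEval_apply, lcFunRepresentation_apply, lcFunContract_apply]
  have e : ∀ i : Fin (n + 1), (-1 : k) ^ ((i.succ : ℕ) + 1) = - (-1) ^ ((i : ℕ) + 1) := by
    intro i
    rw [Fin.val_succ, pow_succ]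
    ring
  have h3 : (0 : (Fin (n + 1 + 1) → G) → lcFunRep (k := k) 𝔉 V) (Fin.cons x g) = 0 := rfl
  rw [h3] at h1
  simp only [lcFunRepresentation_apply, Fin.cons_zero, Fin.cons_succ, one_mul, e, neg_smul,
    Finset.sum_neg_distrib, Fin.val_zero, zero_add, pow_one, one_smul] at h1
  have h4 : ((0 : lcFun (k := k) 𝔉 V) : G → V) 1 = 0 := rfl
  rw [h4] at h1
  rw [eq_comm, ← sub_eq_zero, ← h1]
  abel

end Contract

/-! ### Consequences -/

variable (𝔉 V)

/-- the smooth function module is smooth. -/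
theorem isSmooth_lcFunRep : IsSmooth 𝔉 (lcFunRep (k := k) 𝔉 V) := by
  intro (f : lcFun (k := k) 𝔉 V)
  obtain ⟨U, hU, hf⟩ := f.2
  refine ⟨U, hU, fun u hu => ?_⟩
  apply Subtype.ext
  funext x
  exact hf x u hu

/-- **Acyclicity, element form**: every level-constant cocycle of positive degree with values in
the smooth function module is the coboundary of a level-constant cochain. -/
theorem exists_d_eq_of_mem_lcCocycles_lcFunRep (n : ℕ)
    (F : (Fin (n + 1) → G) → lcFunRep (k := k) 𝔉 V)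
    (hF : F ∈ lcCocycles 𝔉 (lcFunRep (k := k) 𝔉 V) (n + 1)) :
    ∃ f ∈ lcCochains 𝔉 (lcFunRep (k := k) 𝔉 V) n,
      (inhomogeneousCochains.d (lcFunRep (k := k) 𝔉 V) n).hom f = F := by
  obtain ⟨⟨U, hU, hFU⟩, hd⟩ := hF
  exact ⟨lcFunContract hU hFU, ⟨U, hU, lcFunContract_isLevel hU hFU⟩,
    d_lcFunContract hU hFU (LinearMap.mem_ker.1 hd)⟩

/-- **Acyclicity**: `Hlc 𝔉 (lcFunRep 𝔉 V) (n + 1) = 0`. -/
theorem Hlc_lcFunRep_eq_zero (n : ℕ) (x : Hlc 𝔉 (lcFunRep (k := k) 𝔉 V) (n + 1)) : x = 0 := by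
  obtain ⟨c, rfl⟩ := lcπ_surjective 𝔉 (lcFunRep (k := k) 𝔉 V) (n + 1) x
  rw [lcπ_eq_zero_iff]
  exact exists_d_eq_of_mem_lcCocycles_lcFunRep 𝔉 V n c.1 c.2

theorem isZero_Hlc_lcFunRep (n : ℕ) :
    Limits.IsZero (Hlc 𝔉 (lcFunRep (k := k) 𝔉 V) (n + 1)) := by
  rw [ModuleCat.isZero_iff_subsingleton]
  exact ⟨fun x y => (Hlc_lcFunRep_eq_zero 𝔉 V n x).trans (Hlc_lcFunRep_eq_zero 𝔉 V n y).symm⟩

end Fermat.Agent.PT

namespace Fermat.Agent.PT

open CategoryTheory groupCohomology Rep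

universe u

variable {k G : Type u} [CommRing k] [Group G] {𝔉 : LevelFamily G}

/-! ### The embedding of a smooth representation into its smooth function module -/

section Unit

variable (A : Rep.{u} k G) (hA : IsSmooth 𝔉 A)

include hA in
lemma lcFunUnit_mem (a : A) : (fun x : G => A.ρ x a) ∈ lcFun (k := k) 𝔉 A.V := by
  obtain ⟨U, hU, hUa⟩ := hA a
  refine ⟨U, hU, fun x u hu => ?_⟩
  show A.ρ (x * u) a = A.ρ x a
  rw [map_mul, Module.End.mul_apply, hUa u hu]

/-- `a ↦ (x ↦ x • a)`, as a linear map. -/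
noncomputable def lcFunUnitLin : A.V →ₗ[k] lcFun (k := k) 𝔉 A.V where
  toFun a := ⟨fun x => A.ρ x a, lcFunUnit_mem A hA a⟩
  map_add' a b := by
    apply Subtype.ext
    funext x
    simp
  map_smul' c a := by
    apply Subtype.ext
    funext x
    simp

lemma lcFunUnitLin_apply (a : A) (x : G) : (lcFunUnitLin A hA a).1 x = A.ρ x a := rfl

/-- The unit `A ⟶ lcFunRep 𝔉 A`, `a ↦ (x ↦ x • a)`. -/
noncomputable def lcFunUnit : A ⟶ lcFunRep (k := k) 𝔉 A.V :=
  Rep.ofHom (ρ := A.ρ) (σ := lcFunRepresentation (k := k) 𝔉 A.V)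
    ⟨lcFunUnitLin A hA, fun g => by
      ext a x
      show A.ρ x (A.ρ g a) = A.ρ (x * g) a
      rw [map_mul, Module.End.mul_apply]⟩

lemma lcFunUnit_apply (a : A) (x : G) :
    ((lcFunUnit A hA).hom a : lcFun (k := k) 𝔉 A.V).1 x = A.ρ x a := rfl

lemma lcFunUnit_injective : Function.Injective (lcFunUnit A hA).hom := by
  intro a b hab
  have h := congrArg (fun f : lcFun (k := k) 𝔉 A.V => f.1 1) hab
  have h2 : A.ρ 1 a = A.ρ 1 b := h
  simpa using h2

instance lcFunUnit_mono : Mono (lcFunUnit A hA) :=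
  (Rep.mono_iff_injective _).2 (lcFunUnit_injective A hA)

/-- The standard short complex `A ⟶ lcFunRep 𝔉 A ⟶ coker` used for dimension shifting. -/
noncomputable def lcFunSC : ShortComplex (Rep.{u} k G) :=
  ShortComplex.mk (lcFunUnit A hA) (Limits.cokernel.π (lcFunUnit A hA))
    (Limits.cokernel.condition _)

lemma lcFunSC_shortExact : (lcFunSC A hA).ShortExact :=
  { exact := ShortComplex.exact_cokernel _
    mono_f := lcFunUnit_mono A hA
    epi_g := by
      change Epi (Limits.cokernel.π (lcFunUnit A hA))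
      infer_instance }

end Unit

end Fermat.Agent.PT

namespace Fermat.Agent.PT

open CategoryTheory groupCohomology Rep

universe u

variable {k G : Type u} [CommRing k] [Group G] {𝔉 : LevelFamily G}

/-- a quotient of a smooth representation is smooth. -/
theorem IsSmooth.of_surjective {A B : Rep.{u} k G} (f : A ⟶ B)
    (hf : Function.Surjective f.hom) (hA : IsSmooth 𝔉 A) : IsSmooth 𝔉 B := by
  intro b
  obtain ⟨a, rfl⟩ := hf b
  obtain ⟨U, hU, hUa⟩ := hA a
  refine ⟨U, hU, fun u hu => ?_⟩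
  rw [← Rep.hom_comm_apply f u a, hUa u hu]

/-- a subrepresentation of a smooth representation is smooth. -/
theorem IsSmooth.of_injective {A B : Rep.{u} k G} (f : A ⟶ B)
    (hf : Function.Injective f.hom) (hB : IsSmooth 𝔉 B) : IsSmooth 𝔉 A := by
  intro a
  obtain ⟨U, hU, hUa⟩ := hB (f.hom a)
  refine ⟨U, hU, fun u hu => hf ?_⟩
  rw [Rep.hom_comm_apply f u a, hUa u hu]

section Shift

variable (A : Rep.{u} k G) (hA : IsSmooth 𝔉 A) (hfin : 𝔉.FiniteIndex)

lemma isSmooth_lcFunSC_X₂ : IsSmooth 𝔉 (lcFunSC A hA).X₂ := isSmooth_lcFunRep 𝔉 A.V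

lemma isSmooth_lcFunSC_X₃ : IsSmooth 𝔉 (lcFunSC A hA).X₃ :=
  IsSmooth.of_surjective (lcFunSC A hA).g
    ((Rep.epi_iff_surjective _).1 (lcFunSC_shortExact A hA).epi_g) (isSmooth_lcFunSC_X₂ A hA)

/-- the dimension-shifting connecting map `Hlcⁿ(J/A) ⟶ Hlcⁿ⁺¹(A)`. -/
noncomputable def lcFunδ (n : ℕ) : Hlc 𝔉 (lcFunSC A hA).X₃ n ⟶ Hlc 𝔉 A (n + 1) :=
  lcδ hfin (lcFunSC_shortExact A hA) (isSmooth_lcFunSC_X₂ A hA) n (n + 1) rfl

/-- **dimension shifting**: `lcFunδ` is surjective in every degree. -/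
theorem lcFunδ_surjective (n : ℕ) : Function.Surjective (lcFunδ A hA hfin n).hom := by
  intro x
  refine exists_lcδ_eq hfin (lcFunSC_shortExact A hA) (isSmooth_lcFunSC_X₂ A hA) n (n + 1) rfl x ?_
  exact Hlc_lcFunRep_eq_zero 𝔉 A.V n _

/-- **dimension shifting**: `lcFunδ` is injective in positive degrees. -/
theorem lcFunδ_injective (n : ℕ) : Function.Injective (lcFunδ A hA hfin (n + 1)).hom := by
  rw [injective_iff_map_eq_zero]
  intro x hx
  obtain ⟨y, rfl⟩ := exists_lcH₂₃_eq hfin (lcFunSC_shortExact A hA) (isSmooth_lcFunSC_X₂ A hA)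
    (n + 1) (n + 2) rfl x hx
  have hy : y = 0 := Hlc_lcFunRep_eq_zero 𝔉 A.V n y
  rw [hy, map_zero]

/-- in degree `0`, the kernel of `lcFunδ` is the image of `Hlc⁰(J)`. -/
theorem exists_of_lcFunδ_eq_zero (x : Hlc 𝔉 (lcFunSC A hA).X₃ 0)
    (hx : (lcFunδ A hA hfin 0).hom x = 0) :
    ∃ y : Hlc 𝔉 (lcFunSC A hA).X₂ 0, (lcH₂₃ 𝔉 (lcFunSC A hA) 0).hom y = x :=
  exists_lcH₂₃_eq hfin (lcFunSC_shortExact A hA) (isSmooth_lcFunSC_X₂ A hA) 0 1 rfl x hx

end Shift

end Fermat.Agent.PT
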