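/-
S55 engine (E3), part 0 (helper15): the level family induced on a subgroup.

For `𝔉 : LevelFamily G` and a subgroup `H ≤ G`, `𝔉.restrict H : LevelFamily H` consists of the
subgroups `V.subgroupOf H` (`= V ∩ H`), `V ∈ 𝔉`.  The inclusion `H.subtype` is compatible
(`𝔉.compat_subtype H`), finiteness of the indices and smoothness of representations are
inherited; `HlcRes` is the restriction map on level-constant cohomology, `HlcShapiro` the Shapiro map
`Hlc(G, Coind_H^G B) ⟶ Hlc(H, B)` (restrict to `H`, evaluate at `1`).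
-/
import Fermat.Agent.CFT.PT.SmoothLES

set_option autoImplicit false

namespace Fermat.Agent.PT

open CategoryTheory groupCohomology Rep

universe u

variable {k G : Type u} [CommRing k] [Group G]

/-- The level family induced on a subgroup `H`: the subgroups `V ∩ H`, `V ∈ 𝔉`. -/
def LevelFamily.restrict (𝔉 : LevelFamily G) (H : Subgroup G) : LevelFamily H where
  sets := {W | ∃ V ∈ 𝔉.sets, W = V.subgroupOf H}
  normal := by
    rintro W ⟨V, hV, rfl⟩
    have := 𝔉.normal V hV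
    exact Subgroup.normal_subgroupOf
  nonempty := by
    obtain ⟨V, hV⟩ := 𝔉.nonempty
    exact ⟨V.subgroupOf H, V, hV, rfl⟩
  directed := by
    rintro W ⟨V, hV, rfl⟩ W' ⟨V', hV', rfl⟩
    obtain ⟨V'', hV'', hle⟩ := 𝔉.directed V hV V' hV'
    refine ⟨V''.subgroupOf H, ⟨V'', hV'', rfl⟩, le_inf ?_ ?_⟩
    · exact Subgroup.subgroupOf_mono H (hle.trans inf_le_left)
    · exact Subgroup.subgroupOf_mono H (hle.trans inf_le_right)

theorem LevelFamily.mem_restrict_sets {𝔉 : LevelFamily G} {H : Subgroup G} {W : Subgroup H} :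
    W ∈ (𝔉.restrict H).sets ↔ ∃ V ∈ 𝔉.sets, W = V.subgroupOf H := Iff.rfl

theorem LevelFamily.subgroupOf_mem_restrict {𝔉 : LevelFamily G} (H : Subgroup G) {V : Subgroup G}
    (hV : V ∈ 𝔉.sets) : V.subgroupOf H ∈ (𝔉.restrict H).sets := ⟨V, hV, rfl⟩

/-- the inclusion of a subgroup is compatible with the induced family. -/
theorem LevelFamily.compat_subtype (𝔉 : LevelFamily G) (H : Subgroup G) :
    LevelFamily.Compat H.subtype (𝔉.restrict H) 𝔉 :=
  fun U hU => ⟨U.subgroupOf H, ⟨U, hU, rfl⟩, le_rfl⟩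

theorem LevelFamily.FiniteIndex.restrict {𝔉 : LevelFamily G} (h : 𝔉.FiniteIndex)
    (H : Subgroup G) : (𝔉.restrict H).FiniteIndex := by
  rintro W ⟨V, hV, rfl⟩
  have := h V hV
  infer_instance

theorem IsSmooth.res_subtype {𝔉 : LevelFamily G} {A : Rep.{u} k G} (hA : IsSmooth 𝔉 A)
    (H : Subgroup G) : IsSmooth (𝔉.restrict H) (res H.subtype A) := by
  intro a
  obtain ⟨U, hU, hUa⟩ := hA a
  exact ⟨U.subgroupOf H, ⟨U, hU, rfl⟩, fun u hu => hUa u hu⟩

/-- restriction of level-constant cohomology to a subgroup. -/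
noncomputable def HlcRes (𝔉 : LevelFamily G) (H : Subgroup G) (A : Rep.{u} k G) (n : ℕ) :
    Hlc 𝔉 A n ⟶ Hlc (𝔉.restrict H) (res H.subtype A) n :=
  HlcMap H.subtype (𝟙 (res H.subtype A)) (𝔉.compat_subtype H) n

/-- `HlcRes` on classes of cocycles: restrict the cocycle to `H`. -/
theorem HlcRes_lcπ (𝔉 : LevelFamily G) (H : Subgroup G) (A : Rep.{u} k G) (n : ℕ)
    (c : lcCocycles 𝔉 A n) :
    (HlcRes 𝔉 H A n).hom (lcπ 𝔉 A n c) =
      lcπ (𝔉.restrict H) (res H.subtype A) n
        ⟨((cochainsMap H.subtype (𝟙 (res H.subtype A))).f n).hom c.1,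
          cochainsMap_mem_lcCocycles H.subtype (𝟙 (res H.subtype A)) (𝔉.compat_subtype H) c.2⟩ :=
  HlcMap_lcπ H.subtype (𝟙 (res H.subtype A)) (𝔉.compat_subtype H) n c

/-! ### the Shapiro map -/

/-- evaluation at `1`: `Res_H Coind_H^G B ⟶ B` (the counit of the adjunction). -/
noncomputable def coindEv (H : Subgroup G) (B : Rep.{u} k H) :
    res H.subtype (coind H.subtype B) ⟶ B :=
  (resCoindHomEquiv H.subtype (coind H.subtype B) B).symm (𝟙 _)

theorem coindEv_apply (H : Subgroup G) (B : Rep.{u} k H) (f : B.ρ.coindV H.subtype) :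
    (coindEv H B).hom f = f.1 1 := rfl

/-- the Shapiro map `Hlc(G, Coind_H^G B) ⟶ Hlc(H, B)`: restrict to `H` and evaluate at `1`. -/
noncomputable def HlcShapiro (𝔉 : LevelFamily G) (H : Subgroup G) (B : Rep.{u} k H) (n : ℕ) :
    Hlc 𝔉 (coind H.subtype B) n ⟶ Hlc (𝔉.restrict H) B n :=
  HlcMap H.subtype (coindEv H B) (𝔉.compat_subtype H) n

/-- `HlcShapiro` on classes of cocycles. -/
theorem HlcShapiro_lcπ (𝔉 : LevelFamily G) (H : Subgroup G) (B : Rep.{u} k H) (n : ℕ)
    (c : lcCocycles 𝔉 (coind H.subtype B) n) :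
    (HlcShapiro 𝔉 H B n).hom (lcπ 𝔉 (coind H.subtype B) n c) =
      lcπ (𝔉.restrict H) B n
        ⟨((cochainsMap H.subtype (coindEv H B)).f n).hom c.1,
          cochainsMap_mem_lcCocycles H.subtype (coindEv H B) (𝔉.compat_subtype H) c.2⟩ :=
  HlcMap_lcπ H.subtype (coindEv H B) (𝔉.compat_subtype H) n c

end Fermat.Agent.PT
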