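/-
S55 engine (E3b): Shapiro's lemma for level-constant cohomology.

For `𝔉 : LevelFamily G`, an open subgroup `H ≤ G` and a smooth `B : Rep k H`, the map
`shapMap 𝔉 H B n : Hlc 𝔉 (coind_H^G B) n ⟶ Hlc (𝔉.restrict H) B n` (restrict to `H`, evaluate at `1`)
is bijective for all `n`.  Proof: dimension shifting (`PT/SmoothFun.lean`).
-/
import Fermat.Agent.CFT.PT.SmoothFun
import Fermat.Agent.CFT.PT.SmoothRestrict
import Fermat.Agent.CFT.PT.SmoothDelta
import Fermat.Agent.CFT.PT.CupH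

set_option autoImplicit false

namespace Fermat.Agent.PT

open CategoryTheory groupCohomology Rep

universe u

variable {k G : Type u} [CommRing k] [Group G] (𝔉 : LevelFamily G) (H : Subgroup G)

/-- The Shapiro map on level-constant cohomology. -/
noncomputable def shapMap (B : Rep.{u} k H) (n : ℕ) :
    Hlc 𝔉 (coind H.subtype B) n ⟶ Hlc (𝔉.restrict H) B n :=
  HlcMap H.subtype (coindEv H B) (𝔉.compat_subtype H) n

/-- `shapMap` is helper15's `HlcShapiro` (`PT/SmoothRestrict.lean`). -/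
theorem shapMap_eq_HlcShapiro (B : Rep.{u} k H) (n : ℕ) :
    shapMap 𝔉 H B n = HlcShapiro 𝔉 H B n := rfl


/-! ### Smoothness of the coinduced representation -/

section Smooth

variable {𝔉 H}

/-- `H` is open for `𝔉`: it contains a member of the family. -/
def IsOpenFor (𝔉 : LevelFamily G) (H : Subgroup G) : Prop := ∃ V ∈ 𝔉.sets, V ≤ H

lemma coind_apply_conj_mul (B : Rep.{u} k H) (f : B.ρ.coindV H.subtype) (x v : G)
    (hv : x * v * x⁻¹ ∈ H) : f.1 (x * v) = B.ρ ⟨x * v * x⁻¹, hv⟩ (f.1 x) := by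
  have h1 := f.2 ⟨x * v * x⁻¹, hv⟩ x
  have h2 : H.subtype ⟨x * v * x⁻¹, hv⟩ * x = x * v := by
    show x * v * x⁻¹ * x = x * v
    group
  rw [h2] at h1
  exact h1

theorem isSmooth_coind (hfin : 𝔉.FiniteIndex) (hH : IsOpenFor 𝔉 H) {B : Rep.{u} k H}
    (hB : IsSmooth (𝔉.restrict H) B) : IsSmooth 𝔉 (coind H.subtype B) := by
  classical
  intro (f : B.ρ.coindV H.subtype)
  obtain ⟨V₀, hV₀, hV₀H⟩ := hH
  have hV₀n : V₀.Normal := 𝔉.normal V₀ hV₀
  have hV₀fin : V₀.FiniteIndex := hfin V₀ hV₀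
  have : Finite (G ⧸ V₀) := Subgroup.finite_quotient_of_finiteIndex
  have : Fintype (G ⧸ V₀) := Fintype.ofFinite _
  -- for each coset representative, a member of the family fixing the value
  have hex : ∀ q : G ⧸ V₀, ∃ W ∈ 𝔉.sets, ∀ u (hu : u ∈ H), u ∈ W →
      B.ρ ⟨u, hu⟩ (f.1 q.out) = f.1 q.out := by
    intro q
    obtain ⟨W', ⟨W, hW, rfl⟩, hW'⟩ := hB (f.1 q.out)
    exact ⟨W, hW, fun u hu huW => hW' ⟨u, hu⟩ huW⟩
  choose Wq hWq hWqfix using hex
  obtain ⟨W₁, hW₁, hW₁le⟩ := exists_le_of_finset 𝔉.nonempty 𝔉.directed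
    (Finset.univ : Finset (G ⧸ V₀)) Wq (fun q _ => hWq q)
  obtain ⟨W, hW, hWle⟩ := 𝔉.directed W₁ hW₁ V₀ hV₀
  have hWn : W.Normal := 𝔉.normal W hW
  refine ⟨W, hW, fun u hu => ?_⟩
  apply Subtype.ext
  funext x
  show f.1 (x * u) = f.1 x
  -- write x = t * v with t = out, v ∈ V₀
  set q : G ⧸ V₀ := (x : G ⧸ V₀) with hq
  set t : G := q.out with ht
  have hv : t⁻¹ * x ∈ V₀ := by
    have : ((t : G) : G ⧸ V₀) = (x : G ⧸ V₀) := by rw [ht, hq]; exact QuotientGroup.out_eq' _
    exact QuotientGroup.eq.1 this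
  -- the value at x is a translate of the value at t
  have hconj1 : x * u * x⁻¹ ∈ W := hWn.conj_mem u hu x
  have hconj1H : x * u * x⁻¹ ∈ H := hV₀H ((hWle hconj1).2)
  rw [coind_apply_conj_mul B f x u hconj1H]
  -- f x = (t v t⁻¹) • f t
  set v : G := t⁻¹ * x with hvdef
  have hx : x = t * v := by rw [hvdef]; group
  have hc2 : t * v * t⁻¹ ∈ V₀ := hV₀n.conj_mem v hv t
  have hc2H : t * v * t⁻¹ ∈ H := hV₀H hc2
  have hfx : f.1 x = B.ρ ⟨t * v * t⁻¹, hc2H⟩ (f.1 t) := by
    conv_lhs => rw [hx]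
    exact coind_apply_conj_mul B f t v hc2H
  rw [hfx, ← Module.End.mul_apply, ← map_mul]
  -- move the conjugate of u across
  set a : H := ⟨t * v * t⁻¹, hc2H⟩ with ha
  set b : H := ⟨x * u * x⁻¹, hconj1H⟩ with hb
  have hc3 : (a⁻¹ * b * a : H).1 ∈ W := by
    have : (a⁻¹ * b * a : H).1 = (a.1)⁻¹ * (x * u * x⁻¹) * (a.1)⁻¹⁻¹ := by
      simp [hb]
    rw [this]
    exact hWn.conj_mem _ hconj1 _
  have hfix : B.ρ (a⁻¹ * b * a) (f.1 t) = f.1 t := by
    have := hWqfix q (a⁻¹ * b * a : H).1 (a⁻¹ * b * a : H).2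
      (hW₁le q (Finset.mem_univ q) ((hWle hc3).1))
    exact this
  have hba : b * a = a * (a⁻¹ * b * a) := by group
  rw [hba, map_mul, Module.End.mul_apply, hfix]

end Smooth

/-! ### Degree zero -/

section DegreeZero

variable {𝔉}

lemma d_zero_apply (A : Rep.{u} k G) (f : (Fin 0 → G) → A) (g : Fin 1 → G) :
    (inhomogeneousCochains.d A 0).hom f g = A.ρ (g 0) (f default) - f default := by
  rw [inhomogeneousCochains.d_hom_apply]
  have h1 : (fun i : Fin 0 => g i.succ) = default := Subsingleton.elim _ _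
  have h2 : ∀ j : Fin 1, Fin.contractNth j (· * ·) g = default := fun j => Subsingleton.elim _ _
  simp only [h1, h2]
  simp [sub_eq_add_neg]

lemma mem_lcCocycles_zero_iff (A : Rep.{u} k G) {f : (Fin 0 → G) → A} :
    f ∈ lcCocycles 𝔉 A 0 ↔ ∀ g, A.ρ g (f default) = f default := by
  constructor
  · rintro ⟨-, hd⟩ g
    have h := congrFun (LinearMap.mem_ker.1 hd) (fun _ => g)
    rw [d_zero_apply] at h
    exact sub_eq_zero.1 h
  · intro hf
    obtain ⟨U, hU⟩ := 𝔉.nonempty
    refine ⟨⟨U, hU, fun g h _ => by rw [Subsingleton.elim g h], fun g u _ => ?_⟩, ?_⟩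
    · rw [Subsingleton.elim g default]
      exact hf u
    · show (inhomogeneousCochains.d A 0).hom f = 0
      funext g
      rw [d_zero_apply, hf, sub_self]
      rfl

theorem shapMap_zero_injective (B : Rep.{u} k H) :
    Function.Injective (shapMap 𝔉 H B 0).hom := by
  rw [injective_iff_map_eq_zero]
  intro x hx
  obtain ⟨c, rfl⟩ := lcπ_surjective 𝔉 (coind H.subtype B) 0 x
  rw [shapMap, HlcMap_lcπ] at hx
  have h0 := lcπ_zero_injective (𝔉.restrict H) B (hx.trans (map_zero _).symm)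
  have h1 : (coindEv H B).hom (c.1 default) = 0 := by
    have := congrArg (fun z : lcCocycles (𝔉.restrict H) B 0 => z.1 default) h0
    have e : (fun i : Fin 0 => H.subtype ((default : Fin 0 → H) i)) = default :=
      Subsingleton.elim _ _
    have h' : (coindEv H B).hom (c.1 (fun i : Fin 0 => H.subtype ((default : Fin 0 → H) i))) = 0 :=
      this
    rwa [e] at h'
  have hinv := (mem_lcCocycles_zero_iff (𝔉 := 𝔉) (coind H.subtype B)).1 c.2
  have hc0 : c.1 default = 0 := by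
    apply Subtype.ext
    funext x
    have h2 := congrArg (fun F : B.ρ.coindV H.subtype => F.1 1) (hinv x)
    have h3 : (c.1 default : B.ρ.coindV H.subtype).1 (1 * x) =
        (c.1 default : B.ρ.coindV H.subtype).1 1 := h2
    rw [one_mul] at h3
    rw [h3]
    exact h1
  have hc : c = 0 := by
    apply Subtype.ext
    funext g
    rw [Subsingleton.elim g default, hc0]
    rfl
  rw [hc, map_zero]

theorem shapMap_zero_surjective (B : Rep.{u} k H) :
    Function.Surjective (shapMap 𝔉 H B 0).hom := by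
  intro y
  obtain ⟨c', rfl⟩ := lcπ_surjective (𝔉.restrict H) B 0 y
  have hinv := (mem_lcCocycles_zero_iff (𝔉 := 𝔉.restrict H) B).1 c'.2
  set b : B := c'.1 default with hb
  let F : B.ρ.coindV H.subtype := ⟨fun _ => b, fun h g => (hinv h).symm⟩
  have hc : (fun _ => F : (Fin 0 → G) → coind H.subtype B) ∈
      lcCocycles 𝔉 (coind H.subtype B) 0 := by
    rw [mem_lcCocycles_zero_iff]
    intro g
    apply Subtype.ext
    funext x
    rfl
  refine ⟨lcπ 𝔉 (coind H.subtype B) 0 ⟨_, hc⟩, ?_⟩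
  rw [shapMap, HlcMap_lcπ]
  congr 1
  apply Subtype.ext
  funext g
  rw [Subsingleton.elim g default]
  rfl

end DegreeZero

/-! ### Functoriality helpers -/

section Functoriality

variable {𝔉 H}

/-- coinduction preserves short exact sequences. -/
theorem coind_shortExact {S : ShortComplex (Rep.{u} k H)} (hS : S.ShortExact) :
    (S.map (coindFunctor k H.subtype)).ShortExact := by
  have := hS.mono_f
  have := hS.epi_g
  have : Limits.PreservesLimitsOfSize.{0, 0}
      (coindFunctor k H.subtype : Rep.{u} k H ⥤ Rep.{u} k G) := inferInstance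
  exact
  { exact := hS.exact.map_of_mono_of_preservesKernel _ hS.mono_f inferInstance
    mono_f := by
      show Mono ((coindFunctor k H.subtype).map S.f)
      infer_instance
    epi_g := by
      show Epi ((coindFunctor k H.subtype).map S.g)
      infer_instance }

/-- naturality of the Shapiro map in the coefficients. -/
theorem shapMap_naturality {B B' : Rep.{u} k H} (f : B ⟶ B') (n : ℕ)
    (x : Hlc 𝔉 (coind H.subtype B) n) :
    (shapMap 𝔉 H B' n).hom
        ((HlcMap (MonoidHom.id G) (coindMap H.subtype f) 𝔉.compat_id n).hom x) =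
      (HlcMap (MonoidHom.id H) f (𝔉.restrict H).compat_id n).hom ((shapMap 𝔉 H B n).hom x) := by
  obtain ⟨c, rfl⟩ := lcπ_surjective 𝔉 (coind H.subtype B) n x
  rw [shapMap, shapMap, HlcMap_lcπ, HlcMap_lcπ, HlcMap_lcπ, HlcMap_lcπ]
  rfl

end Functoriality

/-! ### Coinduction of a smooth function module is a smooth function module -/

section CoindFun

variable {𝔉 H} (hfin : 𝔉.FiniteIndex) (hH : IsOpenFor 𝔉 H)
  (V : Type u) [AddCommGroup V] [Module k V]

include hfin hH in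
lemma coindFunTo_mem (F : (lcFunRep (k := k) (𝔉.restrict H) V).ρ.coindV H.subtype) :
    (fun g : G => ((F.1 g : lcFun (k := k) (𝔉.restrict H) V)).1 1) ∈ lcFun (k := k) 𝔉 V := by
  obtain ⟨W, hW, hWF⟩ := isSmooth_coind hfin hH (isSmooth_lcFunRep (k := k) (𝔉.restrict H) V) F
  refine ⟨W, hW, fun x u hu => ?_⟩
  have h1 := congrArg (fun F' : (lcFunRep (k := k) (𝔉.restrict H) V).ρ.coindV H.subtype =>
    ((F'.1 x : lcFun (k := k) (𝔉.restrict H) V)).1 1) (hWF u hu)
  exact h1

/-- `Φ : Coind_H^G (J_H V) ⟶ J_G V`, `F ↦ (g ↦ F(g)(1))`. -/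
noncomputable def coindFunTo :
    coind H.subtype (lcFunRep (k := k) (𝔉.restrict H) V) ⟶ lcFunRep (k := k) 𝔉 V :=
  Rep.ofHom (ρ := (coind H.subtype (lcFunRep (k := k) (𝔉.restrict H) V)).ρ)
    (σ := lcFunRepresentation (k := k) 𝔉 V)
    ⟨{ toFun := fun F => ⟨_, coindFunTo_mem hfin hH V F⟩
       map_add' := fun _ _ => rfl
       map_smul' := fun _ _ => rfl }, fun x => by
      ext F g
      rfl⟩

lemma coindFunTo_apply (F : (lcFunRep (k := k) (𝔉.restrict H) V).ρ.coindV H.subtype) (g : G) :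
    ((coindFunTo hfin hH V).hom F : lcFun (k := k) 𝔉 V).1 g =
      ((F.1 g : lcFun (k := k) (𝔉.restrict H) V)).1 1 := rfl

omit hfin hH in
lemma coindFunFrom_mem₁ (φ : lcFun (k := k) 𝔉 V) (g : G) :
    (fun y : H => φ.1 (y.1 * g)) ∈ lcFun (k := k) (𝔉.restrict H) V := by
  obtain ⟨U, hU, hφ⟩ := φ.2
  have hUn : U.Normal := 𝔉.normal U hU
  refine ⟨U.subgroupOf H, ⟨U, hU, rfl⟩, fun y u hu => ?_⟩
  show φ.1 ((y * u : H).1 * g) = φ.1 (y.1 * g)
  have h1 : (y * u : H).1 * g = y.1 * g * (g⁻¹ * u.1 * g⁻¹⁻¹) := by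
    show y.1 * u.1 * g = _
    group
  rw [h1]
  exact hφ _ _ (hUn.conj_mem u.1 hu g⁻¹)

/-- `Ψ : J_G V ⟶ Coind_H^G (J_H V)`, `φ ↦ (g ↦ (y ↦ φ(y g)))`. -/
noncomputable def coindFunFrom :
    lcFunRep (k := k) 𝔉 V ⟶ coind H.subtype (lcFunRep (k := k) (𝔉.restrict H) V) :=
  Rep.ofHom (ρ := lcFunRepresentation (k := k) 𝔉 V)
    (σ := (coind H.subtype (lcFunRep (k := k) (𝔉.restrict H) V)).ρ)
    ⟨{ toFun := fun φ => ⟨fun g => (⟨fun y : H => φ.1 (y.1 * g), coindFunFrom_mem₁ V φ g⟩ :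
          lcFun (k := k) (𝔉.restrict H) V), fun h g => by
            apply Subtype.ext
            funext y
            show φ.1 (y.1 * (h.1 * g)) = φ.1 ((y * h : H).1 * g)
            rw [← mul_assoc]
            rfl⟩
       map_add' := fun _ _ => rfl
       map_smul' := fun _ _ => rfl }, fun x => by
      ext φ g y
      show φ.1 (y.1 * g * x) = φ.1 (y.1 * (g * x))
      rw [mul_assoc]⟩

lemma coindFunFrom_apply (φ : lcFun (k := k) 𝔉 V) (g : G) (y : H) :
    ((((coindFunFrom (H := H) V).hom φ :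
      (lcFunRep (k := k) (𝔉.restrict H) V).ρ.coindV H.subtype).1 g :
        lcFun (k := k) (𝔉.restrict H) V)).1 y = φ.1 (y.1 * g) := rfl

lemma coindFunFrom_coindFunTo
    (F : (lcFunRep (k := k) (𝔉.restrict H) V).ρ.coindV H.subtype) :
    (coindFunFrom (H := H) V).hom ((coindFunTo hfin hH V).hom F) = F := by
  apply Subtype.ext
  funext g
  apply Subtype.ext
  funext y
  rw [coindFunFrom_apply, coindFunTo_apply]
  have h1 := F.2 y g
  have h2 := congrArg (fun f : lcFun (k := k) (𝔉.restrict H) V => f.1 1) h1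
  have h3 : ((F.1 (H.subtype y * g) : lcFun (k := k) (𝔉.restrict H) V)).1 1 =
      ((F.1 g : lcFun (k := k) (𝔉.restrict H) V)).1 (1 * y) := h2
  rw [one_mul] at h3
  exact h3

end CoindFun

section CoindAcyclic

variable {𝔉 H} (hfin : 𝔉.FiniteIndex) (hH : IsOpenFor 𝔉 H)
  (V : Type u) [AddCommGroup V] [Module k V]

include hfin hH in
/-- the coinduction of a smooth function module is acyclic. -/
theorem Hlc_coind_lcFunRep_eq_zero (n : ℕ)
    (x : Hlc 𝔉 (coind H.subtype (lcFunRep (k := k) (𝔉.restrict H) V)) (n + 1)) : x = 0 := by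
  have key : (HlcMap (MonoidHom.id G) (coindFunFrom (H := H) V) 𝔉.compat_id (n + 1)).hom
      ((HlcMap (MonoidHom.id G) (coindFunTo hfin hH V) 𝔉.compat_id (n + 1)).hom x) = x := by
    obtain ⟨c, rfl⟩ := lcπ_surjective 𝔉 _ (n + 1) x
    rw [HlcMap_lcπ, HlcMap_lcπ]
    congr 1
    apply Subtype.ext
    funext g
    exact coindFunFrom_coindFunTo hfin hH V _
  have h0 : (HlcMap (MonoidHom.id G) (coindFunTo hfin hH V) 𝔉.compat_id (n + 1)).hom x = 0 :=
    Hlc_lcFunRep_eq_zero 𝔉 V n _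
  rw [← key, h0, map_zero]

end CoindAcyclic

/-! ### The induction -/

section Main

variable {𝔉 H} (hfin : 𝔉.FiniteIndex) (hH : IsOpenFor 𝔉 H)

section Step

variable (B : Rep.{u} k H) (hB : IsSmooth (𝔉.restrict H) B)

/-- the coinduced dimension-shifting sequence `0 ⟶ Coind B ⟶ Coind J ⟶ Coind (J/B) ⟶ 0`. -/
noncomputable abbrev shapX : ShortComplex (Rep.{u} k G) :=
  (lcFunSC B hB).map (coindFunctor k H.subtype)

lemma shapX_shortExact : (shapX B hB).ShortExact := coind_shortExact (lcFunSC_shortExact B hB)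

include hfin hH in
lemma shapX_isSmooth : IsSmooth 𝔉 (shapX B hB).X₂ :=
  isSmooth_coind hfin hH (isSmooth_lcFunRep (k := k) (𝔉.restrict H) B.V)

/-- the Shapiro maps commute with the connecting homomorphisms of the dimension-shifting
sequences. -/
theorem shapMap_lcδ (n : ℕ) (w : Hlc 𝔉 (shapX B hB).X₃ n) :
    (shapMap 𝔉 H B (n + 1)).hom
        ((lcδ hfin (shapX_shortExact B hB) (shapX_isSmooth hfin hH B hB) n (n + 1) rfl).hom w) =
      (lcFunδ B hB (hfin.restrict H) n).hom ((shapMap 𝔉 H (lcFunSC B hB).X₃ n).hom w) := by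
  have h := lcδ_naturality_map hfin (shapX_shortExact B hB) (shapX_isSmooth hfin hH B hB)
    (hfin.restrict H) (lcFunSC_shortExact B hB) (isSmooth_lcFunSC_X₂ B hB) H.subtype
    (𝔉.compat_subtype H) (coindEv H (lcFunSC B hB).X₁) (coindEv H (lcFunSC B hB).X₂)
    (coindEv H (lcFunSC B hB).X₃) (fun _ => rfl) (fun _ => rfl) n (n + 1) rfl
  exact congr($h w)

end Step

include hfin hH in
/-- **Shapiro's lemma for level-constant cohomology.** -/
theorem shapMap_bijective (n : ℕ) : ∀ (B : Rep.{u} k H) (_ : IsSmooth (𝔉.restrict H) B),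
    Function.Bijective (shapMap 𝔉 H B n).hom := by
  induction n with
  | zero => exact fun B _ => ⟨shapMap_zero_injective H B, shapMap_zero_surjective H B⟩
  | succ n ih =>
    intro B hB
    have hQ := isSmooth_lcFunSC_X₃ B hB
    have hJ := isSmooth_lcFunSC_X₂ B hB
    constructor
    · -- injectivity
      rw [injective_iff_map_eq_zero]
      intro x hx
      have hx₂ : (lcH₁₂ 𝔉 (shapX B hB) (n + 1)).hom x = 0 :=
        Hlc_coind_lcFunRep_eq_zero hfin hH B.V n _
      obtain ⟨w, rfl⟩ := exists_lcδ_eq hfin (shapX_shortExact B hB)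
        (shapX_isSmooth hfin hH B hB) n (n + 1) rfl x hx₂
      rw [shapMap_lcδ hfin hH B hB n w] at hx
      cases n with
      | zero =>
        obtain ⟨y', hy'⟩ := exists_of_lcFunδ_eq_zero B hB (hfin.restrict H) _ hx
        obtain ⟨w', rfl⟩ := (ih _ hJ).2 y'
        have hnat := shapMap_naturality (𝔉 := 𝔉) (lcFunSC B hB).g 0 w'
        have hw : (lcH₂₃ 𝔉 (shapX B hB) 0).hom w' = w := by
          apply (ih _ hQ).1
          exact hnat.trans hy'
        rw [← hw]
        exact lcH₂₃_lcδ_apply hfin (shapX_shortExact B hB) (shapX_isSmooth hfin hH B hB) 0 1 rfl w'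
      | succ m =>
        have h0 := lcFunδ_injective B hB (hfin.restrict H) m (hx.trans (map_zero _).symm)
        have hw : w = 0 := (ih _ hQ).1 (h0.trans (map_zero _).symm)
        rw [hw, map_zero]
        rfl
    · -- surjectivity
      intro y
      obtain ⟨z, rfl⟩ := lcFunδ_surjective B hB (hfin.restrict H) n y
      obtain ⟨w, rfl⟩ := (ih _ hQ).2 z
      exact ⟨_, shapMap_lcδ hfin hH B hB n w⟩

end Main

section Equiv

variable {𝔉 H}

lemma isOpenFor_of_mem (hH : H ∈ 𝔉.sets) : IsOpenFor 𝔉 H := ⟨H, hH, le_rfl⟩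

lemma IsOpenFor.mono {H' : Subgroup G} (h : IsOpenFor 𝔉 H) (hle : H ≤ H') : IsOpenFor 𝔉 H' := by
  obtain ⟨V, hV, hVH⟩ := h
  exact ⟨V, hV, hVH.trans hle⟩

/-- Shapiro's lemma as a linear equivalence. -/
noncomputable def shapEquiv (hfin : 𝔉.FiniteIndex) (hH : IsOpenFor 𝔉 H) (B : Rep.{u} k H)
    (hB : IsSmooth (𝔉.restrict H) B) (n : ℕ) :
    Hlc 𝔉 (coind H.subtype B) n ≃ₗ[k] Hlc (𝔉.restrict H) B n :=
  LinearEquiv.ofBijective (shapMap 𝔉 H B n).hom (shapMap_bijective hfin hH n B hB)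

@[simp] lemma shapEquiv_apply (hfin : 𝔉.FiniteIndex) (hH : IsOpenFor 𝔉 H) (B : Rep.{u} k H)
    (hB : IsSmooth (𝔉.restrict H) B) (n : ℕ) (x : Hlc 𝔉 (coind H.subtype B) n) :
    shapEquiv hfin hH B hB n x = (shapMap 𝔉 H B n).hom x := rfl

/-- the Shapiro map on classes of cocycles: restrict to `H` and evaluate at `1`. -/
theorem shapMap_lcπ (B : Rep.{u} k H) (n : ℕ) (c : lcCocycles 𝔉 (coind H.subtype B) n) :
    (shapMap 𝔉 H B n).hom (lcπ 𝔉 (coind H.subtype B) n c) =
      lcπ (𝔉.restrict H) B n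
        ⟨((cochainsMap H.subtype (coindEv H B)).f n).hom c.1,
          cochainsMap_mem_lcCocycles H.subtype (coindEv H B) (𝔉.compat_subtype H) c.2⟩ :=
  HlcMap_lcπ H.subtype (coindEv H B) (𝔉.compat_subtype H) n c

/-- **Shapiro's lemma** for helper15's `HlcShapiro`. -/
theorem HlcShapiro_bijective (hfin : 𝔉.FiniteIndex) (hH : IsOpenFor 𝔉 H) (n : ℕ)
    (B : Rep.{u} k H) (hB : IsSmooth (𝔉.restrict H) B) :
    Function.Bijective (HlcShapiro 𝔉 H B n).hom :=
  shapMap_bijective hfin hH n B hB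

end Equiv

end Fermat.Agent.PT
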