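import Mathlib
import Fermat.Agent.CFT.PT.Cup

/-!
# S55 engine (E4), part 2: cup products on level-constant cohomology

* `IsLcCoboundary 𝔉 A n c` : `c` is the differential of a level-constant cochain (`c = 0` if `n = 0`);
  `lcπ_eq_zero_iff'` : the class of a level-constant cocycle vanishes iff it is such a coboundary
  (all degrees, including `0`).
* `cupN_mem_lcCocycles`, `isLcCoboundary_cupN_left/right` : cocycle ∪ cocycle is a cocycle,
  coboundary ∪ cocycle and cocycle ∪ coboundary are coboundaries.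
* `cupZ 𝔉 β h` : the bilinear cup product on level-constant cocycles;
  `cupH 𝔉 β h : Hlc 𝔉 A m →ₗ[k] Hlc 𝔉 B n →ₗ[k] Hlc 𝔉 C N` (`h : m + n = N`) with
  `cupH_lcπ : cupH 𝔉 β h (lcπ c) (lcπ c') = lcπ (cupZ 𝔉 β h c c')`.
-/

set_option autoImplicit false

namespace Fermat.Agent.PT

open CategoryTheory groupCohomology Rep

universe u

variable {k G : Type u} [CommRing k] [Group G]

section Coboundary

variable (𝔉 : LevelFamily G) (A : Rep.{u} k G)

/-- level-constant coboundaries (only `0` in degree `0`) -/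
def IsLcCoboundary : (n : ℕ) → ((Fin n → G) → A) → Prop
  | 0, c => c = 0
  | n + 1, c => ∃ h ∈ lcCochains 𝔉 A n, (inhomogeneousCochains.d A n).hom h = c

theorem isLcCoboundary_zero (n : ℕ) : IsLcCoboundary 𝔉 A n 0 := by
  cases n with
  | zero => rfl
  | succ n => exact ⟨0, Submodule.zero_mem _, map_zero _⟩

theorem lcπ_zero_injective : Function.Injective (lcπ 𝔉 A 0) := by
  rw [injective_iff_map_eq_zero]
  intro c hc
  have h1 : (lcComplex 𝔉 A).homologyπ 0 ((lcToCycles 𝔉 A 0).hom c) = 0 := hc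
  have hinj : Function.Injective ((lcComplex 𝔉 A).homologyπ 0).hom :=
    (ModuleCat.mono_iff_injective _).1 inferInstance
  have h2 : (lcToCycles 𝔉 A 0).hom c = 0 := hinj (by rw [map_zero]; exact h1)
  apply Subtype.ext
  rw [← iCycles_lcToCycles 𝔉 A 0 c, h2, map_zero]
  rfl

/-- the class of a level-constant cocycle vanishes iff it is a level-constant coboundary. -/
theorem lcπ_eq_zero_iff' (n : ℕ) (c : lcCocycles 𝔉 A n) :
    lcπ 𝔉 A n c = 0 ↔ IsLcCoboundary 𝔉 A n c.1 := by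
  cases n with
  | zero =>
    constructor
    · intro h
      have : c = 0 := lcπ_zero_injective 𝔉 A (h.trans (map_zero _).symm)
      rw [this]
      rfl
    · intro h
      have : c = 0 := Subtype.ext h
      rw [this, map_zero]
  | succ n => exact lcπ_eq_zero_iff 𝔉 A n c

end Coboundary

section CupCocycles

variable (𝔉 : LevelFamily G) {A B C : Rep.{u} k G} (β : RepPairing A B C)

theorem cupN_mem_lcCocycles {m n N : ℕ} (h : m + n = N) {f : (Fin m → G) → A}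
    {g : (Fin n → G) → B} (hf : f ∈ lcCocycles 𝔉 A m) (hg : g ∈ lcCocycles 𝔉 B n) :
    cupN β h f g ∈ lcCocycles 𝔉 C N := by
  refine ⟨cupN_mem_lcCochains 𝔉 β h hf.1 hg.1, ?_⟩
  show (inhomogeneousCochains.d C N).hom (cupN β h f g) = 0
  rw [d_cupN, LinearMap.mem_ker.1 hf.2, LinearMap.mem_ker.1 hg.2,
    cupN_zero_left, cupN_zero_right, smul_zero, add_zero]

theorem isLcCoboundary_cupN_left {m n N : ℕ} (h : m + n = N) {f : (Fin m → G) → A}
    {g : (Fin n → G) → B} (hf : IsLcCoboundary 𝔉 A m f) (hg : g ∈ lcCocycles 𝔉 B n) :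
    IsLcCoboundary 𝔉 C N (cupN β h f g) := by
  cases m with
  | zero =>
    have hf0 : f = 0 := hf
    rw [hf0, cupN_zero_left]
    exact isLcCoboundary_zero 𝔉 C N
  | succ m =>
    obtain ⟨f', hf', rfl⟩ := hf
    obtain rfl : N = (m + n) + 1 := by omega
    refine ⟨cupN β rfl f' g, cupN_mem_lcCochains 𝔉 β rfl hf' hg.1, ?_⟩
    rw [d_cupN, LinearMap.mem_ker.1 hg.2, cupN_zero_right, smul_zero, add_zero]

theorem isLcCoboundary_cupN_right {m n N : ℕ} (h : m + n = N) {f : (Fin m → G) → A}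
    {g : (Fin n → G) → B} (hf : f ∈ lcCocycles 𝔉 A m) (hg : IsLcCoboundary 𝔉 B n g) :
    IsLcCoboundary 𝔉 C N (cupN β h f g) := by
  cases n with
  | zero =>
    have hg0 : g = 0 := hg
    rw [hg0, cupN_zero_right]
    exact isLcCoboundary_zero 𝔉 C N
  | succ n =>
    obtain ⟨g', hg', rfl⟩ := hg
    obtain rfl : N = (m + n) + 1 := by omega
    refine ⟨(-1 : k) ^ m • cupN β rfl f g',
      Submodule.smul_mem _ _ (cupN_mem_lcCochains 𝔉 β rfl hf.1 hg'), ?_⟩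
    rw [map_smul, d_cupN, LinearMap.mem_ker.1 hf.2, cupN_zero_left, zero_add, smul_smul,
      ← pow_add, ← two_mul, pow_mul]
    simp

/-- the cup product on level-constant cocycles -/
def cupZ {m n N : ℕ} (h : m + n = N) :
    lcCocycles 𝔉 A m →ₗ[k] lcCocycles 𝔉 B n →ₗ[k] lcCocycles 𝔉 C N :=
  LinearMap.mk₂ k (fun c c' => ⟨cupN β h c.1 c'.1, cupN_mem_lcCocycles 𝔉 β h c.2 c'.2⟩)
    (fun c₁ c₂ c' => Subtype.ext (cupN_add_left β h c₁.1 c₂.1 c'.1))
    (fun a c c' => Subtype.ext (cupN_smul_left β h a c.1 c'.1))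
    (fun c c₁' c₂' => Subtype.ext (cupN_add_right β h c.1 c₁'.1 c₂'.1))
    (fun a c c' => Subtype.ext (cupN_smul_right β h a c.1 c'.1))

@[simp] theorem cupZ_coe {m n N : ℕ} (h : m + n = N) (c : lcCocycles 𝔉 A m)
    (c' : lcCocycles 𝔉 B n) : (cupZ 𝔉 β h c c').1 = cupN β h c.1 c'.1 := rfl

theorem lcπ_cupZ_eq_zero_left {m n N : ℕ} (h : m + n = N) {c : lcCocycles 𝔉 A m}
    (hc : lcπ 𝔉 A m c = 0) (c' : lcCocycles 𝔉 B n) : lcπ 𝔉 C N (cupZ 𝔉 β h c c') = 0 := by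
  rw [lcπ_eq_zero_iff'] at hc ⊢
  exact isLcCoboundary_cupN_left 𝔉 β h hc c'.2

theorem lcπ_cupZ_eq_zero_right {m n N : ℕ} (h : m + n = N) (c : lcCocycles 𝔉 A m)
    {c' : lcCocycles 𝔉 B n} (hc' : lcπ 𝔉 B n c' = 0) : lcπ 𝔉 C N (cupZ 𝔉 β h c c') = 0 := by
  rw [lcπ_eq_zero_iff'] at hc' ⊢
  exact isLcCoboundary_cupN_right 𝔉 β h c.2 hc'

/-- the class of the cup product only depends on the classes of the factors -/
theorem lcπ_cupZ_congr {m n N : ℕ} (h : m + n = N) {c₁ c₂ : lcCocycles 𝔉 A m}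
    {c₁' c₂' : lcCocycles 𝔉 B n} (hc : lcπ 𝔉 A m c₁ = lcπ 𝔉 A m c₂)
    (hc' : lcπ 𝔉 B n c₁' = lcπ 𝔉 B n c₂') :
    lcπ 𝔉 C N (cupZ 𝔉 β h c₁ c₁') = lcπ 𝔉 C N (cupZ 𝔉 β h c₂ c₂') := by
  have h1 : lcπ 𝔉 A m (c₁ - c₂) = 0 := by rw [map_sub, hc, sub_self]
  have h2 : lcπ 𝔉 B n (c₁' - c₂') = 0 := by rw [map_sub, hc', sub_self]
  have e : cupZ 𝔉 β h c₁ c₁' - cupZ 𝔉 β h c₂ c₂' =
      cupZ 𝔉 β h (c₁ - c₂) c₁' + cupZ 𝔉 β h c₂ (c₁' - c₂') := by
    rw [map_sub, map_sub, LinearMap.sub_apply]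
    abel
  rw [← sub_eq_zero, ← map_sub, e, map_add, lcπ_cupZ_eq_zero_left 𝔉 β h h1,
    lcπ_cupZ_eq_zero_right 𝔉 β h c₂ h2, add_zero]

/-- the cup product on level-constant cohomology, as a function -/
noncomputable def cupHFun {m n N : ℕ} (h : m + n = N) (x : Hlc 𝔉 A m) (y : Hlc 𝔉 B n) :
    Hlc 𝔉 C N :=
  lcπ 𝔉 C N (cupZ 𝔉 β h (Classical.choose (lcπ_surjective 𝔉 A m x))
    (Classical.choose (lcπ_surjective 𝔉 B n y)))

theorem cupHFun_lcπ {m n N : ℕ} (h : m + n = N) (c : lcCocycles 𝔉 A m)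
    (c' : lcCocycles 𝔉 B n) :
    cupHFun 𝔉 β h (lcπ 𝔉 A m c) (lcπ 𝔉 B n c') = lcπ 𝔉 C N (cupZ 𝔉 β h c c') :=
  lcπ_cupZ_congr 𝔉 β h (Classical.choose_spec (lcπ_surjective 𝔉 A m (lcπ 𝔉 A m c)))
    (Classical.choose_spec (lcπ_surjective 𝔉 B n (lcπ 𝔉 B n c')))

/-- **the cup product on level-constant cohomology** -/
noncomputable def cupH {m n N : ℕ} (h : m + n = N) :
    Hlc 𝔉 A m →ₗ[k] Hlc 𝔉 B n →ₗ[k] Hlc 𝔉 C N :=
  LinearMap.mk₂ k (cupHFun 𝔉 β h)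
    (by
      intro x₁ x₂ y
      obtain ⟨c₁, rfl⟩ := lcπ_surjective 𝔉 A m x₁
      obtain ⟨c₂, rfl⟩ := lcπ_surjective 𝔉 A m x₂
      obtain ⟨c', rfl⟩ := lcπ_surjective 𝔉 B n y
      rw [← map_add, cupHFun_lcπ, cupHFun_lcπ, cupHFun_lcπ, map_add, LinearMap.add_apply,
        map_add])
    (by
      intro a x y
      obtain ⟨c, rfl⟩ := lcπ_surjective 𝔉 A m x
      obtain ⟨c', rfl⟩ := lcπ_surjective 𝔉 B n y
      rw [← map_smul, cupHFun_lcπ, cupHFun_lcπ, map_smul, LinearMap.smul_apply, map_smul])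
    (by
      intro x y₁ y₂
      obtain ⟨c, rfl⟩ := lcπ_surjective 𝔉 A m x
      obtain ⟨c₁', rfl⟩ := lcπ_surjective 𝔉 B n y₁
      obtain ⟨c₂', rfl⟩ := lcπ_surjective 𝔉 B n y₂
      rw [← map_add, cupHFun_lcπ, cupHFun_lcπ, cupHFun_lcπ, map_add, map_add])
    (by
      intro a x y
      obtain ⟨c, rfl⟩ := lcπ_surjective 𝔉 A m x
      obtain ⟨c', rfl⟩ := lcπ_surjective 𝔉 B n y
      rw [← map_smul, cupHFun_lcπ, cupHFun_lcπ, map_smul, map_smul])

/-- the cup product of the classes of two cocycles is the class of their cup product. -/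
@[simp] theorem cupH_lcπ {m n N : ℕ} (h : m + n = N) (c : lcCocycles 𝔉 A m)
    (c' : lcCocycles 𝔉 B n) :
    cupH 𝔉 β h (lcπ 𝔉 A m c) (lcπ 𝔉 B n c') = lcπ 𝔉 C N (cupZ 𝔉 β h c c') :=
  cupHFun_lcπ 𝔉 β h c c'

end CupCocycles

end Fermat.Agent.PT
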