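/-
S55 engine: degree `0` of level-constant cohomology is the module of invariants.

`Hlc0Equiv 𝔉 A : Hlc 𝔉 A 0 ≃ₗ[k] A.ρ.invariants` (no smoothness hypothesis: an invariant vector has
every level), its values on classes, and naturality for `HlcMap`.
-/
import Fermat.Agent.CFT.PT.CupH
import Fermat.Agent.CFT.PT.SmoothDelta

set_option autoImplicit false

namespace Fermat.Agent.PT

open CategoryTheory groupCohomology Rep

universe u

variable {k G : Type u} [CommRing k] [Group G]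

section Zero

variable (𝔉 : LevelFamily G) (A : Rep.{u} k G)

/-- the constant `0`-cochain with value `a`. -/
def constCochain₀ (a : A) : (Fin 0 → G) → A := fun _ => a

theorem constCochain₀_apply (a : A) (g : Fin 0 → G) : constCochain₀ A a g = a := rfl

theorem eq_constCochain₀ (f : (Fin 0 → G) → A) : f = constCochain₀ A (f default) := by
  funext g
  rw [Subsingleton.elim g default]
  rfl

theorem d_constCochain₀_apply (a : A) (g : Fin 1 → G) :
    (inhomogeneousCochains.d A 0).hom (constCochain₀ A a) g = A.ρ (g 0) a - a := by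
  rw [inhomogeneousCochains.d_hom_apply]
  simp [constCochain₀, sub_eq_add_neg]

theorem d_constCochain₀_eq_zero_iff (a : A) :
    (inhomogeneousCochains.d A 0).hom (constCochain₀ A a) = 0 ↔ a ∈ A.ρ.invariants := by
  constructor
  · intro h g
    have h1 := congrFun h (fun _ => g)
    rw [d_constCochain₀_apply] at h1
    exact sub_eq_zero.1 h1
  · intro h
    funext g
    rw [d_constCochain₀_apply]
    exact sub_eq_zero.2 (h (g 0))

theorem constCochain₀_mem_lcCocycles {a : A} (ha : a ∈ A.ρ.invariants) :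
    constCochain₀ A a ∈ lcCocycles 𝔉 A 0 := by
  refine ⟨?_, LinearMap.mem_ker.2 ((d_constCochain₀_eq_zero_iff A a).2 ha)⟩
  obtain ⟨U, hU⟩ := 𝔉.nonempty
  exact ⟨U, hU, fun g h _ => rfl, fun g u _ => ha u⟩

theorem apply_mem_invariants_of_mem_lcCocycles {f : (Fin 0 → G) → A}
    (hf : f ∈ lcCocycles 𝔉 A 0) (g : Fin 0 → G) : f g ∈ A.ρ.invariants := by
  have h := LinearMap.mem_ker.1 hf.2
  rw [eq_constCochain₀ A f] at h
  rw [Subsingleton.elim g default]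
  exact (d_constCochain₀_eq_zero_iff A _).1 h

/-- level-constant `0`-cocycles are the invariants. -/
def lcCocyclesEquiv₀ : lcCocycles 𝔉 A 0 ≃ₗ[k] A.ρ.invariants where
  toFun c := ⟨c.1 default, apply_mem_invariants_of_mem_lcCocycles 𝔉 A c.2 default⟩
  map_add' _ _ := rfl
  map_smul' _ _ := rfl
  invFun a := ⟨constCochain₀ A a.1, constCochain₀_mem_lcCocycles 𝔉 A a.2⟩
  left_inv c := Subtype.ext (eq_constCochain₀ A c.1).symm
  right_inv _ := rfl

theorem lcπ_zero_bijective : Function.Bijective (lcπ 𝔉 A 0) :=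
  ⟨lcπ_zero_injective 𝔉 A, lcπ_surjective 𝔉 A 0⟩

/-- **degree `0`**: `Hlc⁰(𝔉, A) = A^G`. -/
noncomputable def Hlc0Equiv : Hlc 𝔉 A 0 ≃ₗ[k] A.ρ.invariants :=
  (LinearEquiv.ofBijective (lcπ 𝔉 A 0) (lcπ_zero_bijective 𝔉 A)).symm.trans (lcCocyclesEquiv₀ 𝔉 A)

theorem Hlc0Equiv_lcπ (c : lcCocycles 𝔉 A 0) :
    Hlc0Equiv 𝔉 A (lcπ 𝔉 A 0 c) = lcCocyclesEquiv₀ 𝔉 A c := by
  unfold Hlc0Equiv
  rw [LinearEquiv.trans_apply]
  congr 1
  exact (LinearEquiv.symm_apply_eq _).2 rfl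

theorem coe_Hlc0Equiv_lcπ (c : lcCocycles 𝔉 A 0) :
    ((Hlc0Equiv 𝔉 A (lcπ 𝔉 A 0 c) : A.ρ.invariants) : A) = c.1 default := by
  rw [Hlc0Equiv_lcπ]
  rfl

theorem Hlc0Equiv_symm_apply (a : A.ρ.invariants) :
    (Hlc0Equiv 𝔉 A).symm a =
      lcπ 𝔉 A 0 ⟨constCochain₀ A a.1, constCochain₀_mem_lcCocycles 𝔉 A a.2⟩ := by
  rw [LinearEquiv.symm_apply_eq, Hlc0Equiv_lcπ]
  rfl

end Zero

section Nat

variable {H : Type u} [Group H] {A : Rep.{u} k G} {B : Rep.{u} k H} (ψ : H →* G)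
  (φ : res ψ A ⟶ B) {𝔉H : LevelFamily H} {𝔉G : LevelFamily G}

/-- **naturality in degree `0`**: `HlcMap` is `φ` on invariants. -/
theorem coe_Hlc0Equiv_HlcMap (hψ : 𝔉H.Compat ψ 𝔉G) (x : Hlc 𝔉G A 0) :
    ((Hlc0Equiv 𝔉H B ((HlcMap ψ φ hψ 0).hom x) : B.ρ.invariants) : B) =
      φ.hom ((Hlc0Equiv 𝔉G A x : A.ρ.invariants) : A) := by
  obtain ⟨c, rfl⟩ := lcπ_surjective 𝔉G A 0 x
  rw [HlcMap_lcπ, coe_Hlc0Equiv_lcπ, coe_Hlc0Equiv_lcπ]
  change φ.hom (c.1 (ψ ∘ default)) = _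
  rw [Subsingleton.elim (ψ ∘ (default : Fin 0 → H)) default]

end Nat

section Delta

open ShortComplex

variable {𝔉 : LevelFamily G} {X : ShortComplex (Rep.{u} k G)} (hfin : 𝔉.FiniteIndex)
  (hX : X.ShortExact) (hsm : IsSmooth 𝔉 X.X₂)

theorem constCochain₀_mem_lcCochains (A : Rep.{u} k G) {a : A}
    (ha : ∃ U ∈ 𝔉.sets, ∀ u ∈ U, A.ρ u a = a) : constCochain₀ A a ∈ lcCochains 𝔉 A 0 := by
  obtain ⟨U, hU, h⟩ := ha
  exact ⟨U, hU, fun g h _ => rfl, fun g u hu => h u hu⟩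

/-- **the connecting homomorphism in degree `0` on representatives**: for an invariant `c` of
`X₃` with lift `b`, `δ c` is the class of the `1`-cocycle `g ↦ f⁻¹ (g • b - b)`. -/
theorem lcδ_zero_apply (c : X.X₃.ρ.invariants) (b : X.X₂) (hb : X.g.hom b = c.1)
    (x : (Fin 1 → G) → X.X₁) (hxl : x ∈ lcCochains 𝔉 X.X₁ 1)
    (hx : ∀ g, X.f.hom (x g) = X.X₂.ρ (g 0) b - b) :
    (lcδ hfin hX hsm 0 1 rfl).hom ((Hlc0Equiv 𝔉 X.X₃).symm c) =
      lcπ 𝔉 X.X₁ 1 ⟨x, hxl, LinearMap.mem_ker.2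
        (d_eq_zero_of_comp_eq_d hX (constCochain₀ X.X₂ b) x fun g => by
          rw [d_constCochain₀_apply]; exact hx g)⟩ := by
  rw [Hlc0Equiv_symm_apply]
  exact lcδ_lcπ hfin hX hsm 0
    ⟨constCochain₀ X.X₃ c.1, constCochain₀_mem_lcCocycles 𝔉 X.X₃ c.2⟩ (constCochain₀ X.X₂ b)
    (constCochain₀_mem_lcCochains X.X₂ (hsm b)) (fun _ => hb) x hxl
    (fun g => by rw [d_constCochain₀_apply]; exact hx g)

end Delta

end Fermat.Agent.PT
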