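/-
S55 bridge (GB4-J)(J1): smooth coinduction along an arbitrary homomorphism and Shapiro's lemma.

For `ψ : H →* G`, a level family `𝔉` on `G` and `B : Rep k H`, `smCoind ψ 𝔉 B` is the
subrepresentation of the `𝔉`-smooth vectors of Mathlib's `coind ψ B`: the functions `f : G → B`
with `f (ψ h * g) = h • f g` which are right-invariant under some member of `𝔉`.
It is smooth, exact on `(𝔉.comap ψ)`-smooth modules, and
`HlcMap ψ ev : Hlc 𝔉 (smCoind ψ 𝔉 B) n ⟶ Hlc (𝔉.comap ψ) B n` is bijective (Shapiro), for ANY `ψ`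
(not necessarily injective, the image not necessarily open).
-/
import Fermat.Agent.CFT.PT.SmoothShapiro
import Fermat.Agent.CFT.PT.SmoothZero

set_option autoImplicit false

namespace Fermat.Agent.PT

open CategoryTheory groupCohomology Rep

universe u

variable {k G H : Type u} [CommRing k] [Group G] [Group H]

/-! ### The pulled-back level family -/

/-- The level family on `H` pulled back along `ψ : H →* G`. -/
def LevelFamily.comap (𝔉 : LevelFamily G) (ψ : H →* G) : LevelFamily H where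
  sets := {W | ∃ U ∈ 𝔉.sets, W = U.comap ψ}
  normal := by
    rintro W ⟨U, hU, rfl⟩
    have := 𝔉.normal U hU
    infer_instance
  nonempty := by
    obtain ⟨U, hU⟩ := 𝔉.nonempty
    exact ⟨U.comap ψ, U, hU, rfl⟩
  directed := by
    rintro W ⟨U, hU, rfl⟩ W' ⟨U', hU', rfl⟩
    obtain ⟨U'', hU'', hle⟩ := 𝔉.directed U hU U' hU'
    exact ⟨U''.comap ψ, ⟨U'', hU'', rfl⟩,
      le_inf (Subgroup.comap_mono (hle.trans inf_le_left))
        (Subgroup.comap_mono (hle.trans inf_le_right))⟩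

theorem LevelFamily.mem_comap_sets {𝔉 : LevelFamily G} {ψ : H →* G} {W : Subgroup H} :
    W ∈ (𝔉.comap ψ).sets ↔ ∃ U ∈ 𝔉.sets, W = U.comap ψ := Iff.rfl

theorem LevelFamily.comap_mem_comap {𝔉 : LevelFamily G} (ψ : H →* G) {U : Subgroup G}
    (hU : U ∈ 𝔉.sets) : U.comap ψ ∈ (𝔉.comap ψ).sets := ⟨U, hU, rfl⟩

theorem LevelFamily.compat_comap (𝔉 : LevelFamily G) (ψ : H →* G) :
    LevelFamily.Compat ψ (𝔉.comap ψ) 𝔉 :=
  fun U hU => ⟨U.comap ψ, ⟨U, hU, rfl⟩, le_rfl⟩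

theorem LevelFamily.FiniteIndex.comap {𝔉 : LevelFamily G} (h : 𝔉.FiniteIndex) (ψ : H →* G) :
    (𝔉.comap ψ).FiniteIndex := by
  rintro W ⟨U, hU, rfl⟩
  have hU' := h U hU
  constructor
  rw [Subgroup.index_comap]
  exact fun h0 => hU'.index_ne_zero (Subgroup.index_eq_zero_of_relIndex_eq_zero h0)

/-! ### Smooth coinduction -/

section Def

variable (ψ : H →* G) (𝔉 : LevelFamily G) (B : Rep.{u} k H)

/-- The `𝔉`-smooth `ψ`-equivariant functions `G → B`. -/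
def smCoindV : Submodule k (G → B) where
  carrier := {f | (∀ (h : H) (g : G), f (ψ h * g) = B.ρ h (f g)) ∧
    ∃ U ∈ 𝔉.sets, ∀ g, ∀ u ∈ U, f (g * u) = f g}
  zero_mem' := by
    obtain ⟨U, hU⟩ := 𝔉.nonempty
    exact ⟨fun _ _ => by simp, U, hU, fun _ _ _ => rfl⟩
  add_mem' := by
    rintro f f' ⟨he, U, hU, hf⟩ ⟨he', U', hU', hf'⟩
    obtain ⟨W, hW, hle⟩ := 𝔉.directed U hU U' hU'
    refine ⟨fun h g => ?_, W, hW, fun g u hu => ?_⟩
    · simp only [Pi.add_apply]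
      rw [he h g, he' h g, map_add]
    · simp only [Pi.add_apply]
      rw [hf g u (hle hu).1, hf' g u (hle hu).2]
  smul_mem' := by
    rintro c f ⟨he, U, hU, hf⟩
    refine ⟨fun h g => ?_, U, hU, fun g u hu => ?_⟩
    · simp only [Pi.smul_apply]
      rw [he h g, map_smul]
    · simp only [Pi.smul_apply]
      rw [hf g u hu]

variable {ψ 𝔉 B} in
lemma mem_smCoindV {f : G → B} :
    f ∈ smCoindV ψ 𝔉 B ↔ (∀ (h : H) (g : G), f (ψ h * g) = B.ρ h (f g)) ∧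
      ∃ U ∈ 𝔉.sets, ∀ g, ∀ u ∈ U, f (g * u) = f g := Iff.rfl

lemma smCoindV_translate_mem (x : G) {f : G → B} (hf : f ∈ smCoindV ψ 𝔉 B) :
    (fun g => f (g * x)) ∈ smCoindV ψ 𝔉 B := by
  obtain ⟨he, U, hU, hfU⟩ := hf
  have hn := 𝔉.normal U hU
  refine ⟨fun h g => ?_, U, hU, fun g u hu => ?_⟩
  · show f (ψ h * g * x) = B.ρ h (f (g * x))
    rw [mul_assoc, he]
  · show f (g * u * x) = f (g * x)
    have h1 : g * u * x = g * x * (x⁻¹ * u * x⁻¹⁻¹) := by group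
    rw [h1]
    exact hfU _ _ (hn.conj_mem u hu x⁻¹)

/-- The representation of `G` on the smooth coinduced functions by right translation. -/
def smCoindRepresentation : Representation k G (smCoindV ψ 𝔉 B) where
  toFun x :=
    { toFun := fun f => ⟨fun g => f.1 (g * x), smCoindV_translate_mem ψ 𝔉 B x f.2⟩
      map_add' := fun _ _ => rfl
      map_smul' := fun _ _ => rfl }
  map_one' := by
    ext f g
    simp
  map_mul' x y := by
    ext f g
    simp [mul_assoc]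

/-- **Smooth coinduction** of `B : Rep k H` along `ψ : H →* G`. -/
noncomputable abbrev smCoind : Rep.{u} k G := Rep.of (smCoindRepresentation ψ 𝔉 B)

variable {ψ 𝔉 B}

lemma smCoind_ρ_apply (x g : G) (f : smCoindV ψ 𝔉 B) :
    ((smCoind ψ 𝔉 B).ρ x f : smCoindV ψ 𝔉 B).1 g = f.1 (g * x) := rfl

lemma smCoind_apply_map_mul (f : smCoindV ψ 𝔉 B) (h : H) (g : G) :
    f.1 (ψ h * g) = B.ρ h (f.1 g) := f.2.1 h g

lemma smCoind_ext {f f' : smCoindV ψ 𝔉 B} (h : ∀ g, f.1 g = f'.1 g) : f = f' :=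
  Subtype.ext (funext h)

variable (ψ 𝔉 B)

/-- smooth coinduction is smooth (by construction). -/
theorem isSmooth_smCoind : IsSmooth 𝔉 (smCoind ψ 𝔉 B) := by
  intro (f : smCoindV ψ 𝔉 B)
  obtain ⟨U, hU, hfU⟩ := f.2.2
  exact ⟨U, hU, fun u hu => smCoind_ext fun g => hfU g u hu⟩

/-- evaluation at `1`, as a morphism `res ψ (smCoind ψ 𝔉 B) ⟶ B`. -/
noncomputable def smCoindEv : res ψ (smCoind ψ 𝔉 B) ⟶ B :=
  Rep.ofHom (ρ := (res ψ (smCoind ψ 𝔉 B)).ρ) (σ := B.ρ)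
    ⟨{ toFun := fun f => (f : smCoindV ψ 𝔉 B).1 1
       map_add' := fun _ _ => rfl
       map_smul' := fun _ _ => rfl }, fun h => by
      ext (f : smCoindV ψ 𝔉 B)
      show f.1 (1 * ψ h) = B.ρ h (f.1 1)
      rw [one_mul, ← smCoind_apply_map_mul f h 1, mul_one]⟩

lemma smCoindEv_apply (f : smCoindV ψ 𝔉 B) : (smCoindEv ψ 𝔉 B).hom f = f.1 1 := rfl

end Def

/-! ### Functoriality in the coefficients -/

section Map

variable (ψ : H →* G) (𝔉 : LevelFamily G) {B B' : Rep.{u} k H}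

lemma smCoindMap_mem (φ : B ⟶ B') {f : G → B} (hf : f ∈ smCoindV ψ 𝔉 B) :
    (fun g => φ.hom (f g)) ∈ smCoindV ψ 𝔉 B' := by
  obtain ⟨he, U, hU, hfU⟩ := hf
  refine ⟨fun h g => ?_, U, hU, fun g u hu => ?_⟩
  · show φ.hom (f (ψ h * g)) = B'.ρ h (φ.hom (f g))
    rw [he, Rep.hom_comm_apply]
  · show φ.hom (f (g * u)) = φ.hom (f g)
    rw [hfU g u hu]

/-- smooth coinduction on morphisms: postcomposition. -/
noncomputable def smCoindMap (φ : B ⟶ B') : smCoind ψ 𝔉 B ⟶ smCoind ψ 𝔉 B' :=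
  Rep.ofHom (ρ := smCoindRepresentation ψ 𝔉 B) (σ := smCoindRepresentation ψ 𝔉 B')
    ⟨{ toFun := fun f => ⟨fun g => φ.hom (f.1 g), smCoindMap_mem ψ 𝔉 φ f.2⟩
       map_add' := fun f f' => Subtype.ext (funext fun g => map_add φ.hom (f.1 g) (f'.1 g))
       map_smul' := fun c f => Subtype.ext (funext fun g => map_smul φ.hom c (f.1 g)) },
      fun x => by
        ext f g
        rfl⟩

lemma smCoindMap_apply (φ : B ⟶ B') (f : smCoindV ψ 𝔉 B) (g : G) :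
    ((smCoindMap ψ 𝔉 φ).hom f : smCoindV ψ 𝔉 B').1 g = φ.hom (f.1 g) := rfl

/-- compatibility of evaluation with `smCoindMap`. -/
lemma smCoindEv_smCoindMap (φ : B ⟶ B') (f : smCoindV ψ 𝔉 B) :
    (smCoindEv ψ 𝔉 B').hom ((smCoindMap ψ 𝔉 φ).hom f) = φ.hom ((smCoindEv ψ 𝔉 B).hom f) := rfl

/-- smooth coinduction of a short complex. -/
noncomputable def smCoindSC (S : ShortComplex (Rep.{u} k H)) : ShortComplex (Rep.{u} k G) :=
  ShortComplex.mk (smCoindMap ψ 𝔉 S.f) (smCoindMap ψ 𝔉 S.g) (by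
    ext (f : smCoindV ψ 𝔉 S.X₁) g
    show (S.f ≫ S.g).hom (f.1 g) = 0
    rw [S.zero]
    rfl)

end Map

/-! ### Exactness -/

section Exact

variable (ψ : H →* G) (𝔉 : LevelFamily G)

/-- **Lifting lemma**: smooth coinduction preserves surjections of `(𝔉.comap ψ)`-smooth
modules. -/
theorem smCoind_exists_lift (hfin : 𝔉.FiniteIndex) {X₂ X₃ : Rep.{u} k H} (π : X₂ ⟶ X₃)
    (hπ : Function.Surjective π.hom) (hsm : IsSmooth (𝔉.comap ψ) X₂)
    (f'' : smCoindV ψ 𝔉 X₃) : ∃ f : smCoindV ψ 𝔉 X₂, ∀ g, π.hom (f.1 g) = f''.1 g := by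
  classical
  obtain ⟨he'', U, hU, hU''⟩ := f''.2
  have hUn : U.Normal := 𝔉.normal U hU
  have hUfin : U.FiniteIndex := hfin U hU
  have : Finite (G ⧸ U) := Subgroup.finite_quotient_of_finiteIndex
  have : Fintype (G ⧸ U) := Fintype.ofFinite _
  -- stage 1: lifts of the finitely many values, with a common level
  choose b hb using fun x : G ⧸ U => hπ (f''.1 x.out)
  have hex : ∀ x : G ⧸ U, ∃ W ∈ 𝔉.sets, ∀ h : H, ψ h ∈ W → X₂.ρ h (b x) = b x := by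
    intro x
    obtain ⟨W', ⟨W, hW, rfl⟩, hW'⟩ := hsm (b x)
    exact ⟨W, hW, fun h hh => hW' h hh⟩
  choose Wx hWx hWxfix using hex
  obtain ⟨W₁, hW₁, hW₁le⟩ := exists_le_of_finset 𝔉.nonempty 𝔉.directed
    (Finset.univ : Finset (G ⧸ U)) Wx (fun x _ => hWx x)
  obtain ⟨U', hU', hU'le⟩ := 𝔉.directed W₁ hW₁ U hU
  have hU'n : U'.Normal := 𝔉.normal U' hU'
  have hU'U : U' ≤ U := hU'le.trans inf_le_right
  let β : G → X₂ := fun g => b (g : G ⧸ U)
  have hβπ : ∀ g, π.hom (β g) = f''.1 g := by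
    intro g
    show π.hom (b (g : G ⧸ U)) = f''.1 g
    rw [hb]
    have hq : (((g : G ⧸ U).out : G) : G ⧸ U) = (g : G ⧸ U) := QuotientGroup.out_eq' _
    have hmem : ((g : G ⧸ U).out)⁻¹ * g ∈ U := QuotientGroup.eq.1 hq
    have h2 := hU'' ((g : G ⧸ U).out) _ hmem
    rw [mul_inv_cancel_left] at h2
    exact h2.symm
  have hβfix : ∀ g, ∀ h : H, ψ h ∈ U' → X₂.ρ h (β g) = β g := fun g h hh =>
    hWxfix (g : G ⧸ U) h (hW₁le _ (Finset.mem_univ _) ((hU'le hh).1))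
  -- stage 2: double coset representatives for `ψ(H) \ G / U'`
  let t : G → G := fun g => (DoubleCoset.mk ψ.range U' g).out
  have ht : ∀ g, ∃ h : H, ∃ u ∈ U', g = ψ h * t g * u := by
    intro g
    obtain ⟨a, c, ⟨h, rfl⟩, hc, hac⟩ := DoubleCoset.mk_out_eq_mul ψ.range U' g
    refine ⟨h⁻¹, c⁻¹, U'.inv_mem hc, ?_⟩
    show g = ψ h⁻¹ * (DoubleCoset.mk ψ.range U' g).out * c⁻¹
    rw [hac, map_inv]
    group
  choose hh uu huu hg using ht
  have htt : ∀ (g : G) (h : H) (u : G), u ∈ U' → t (ψ h * g * u) = t g := by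
    intro g h u hu
    show (DoubleCoset.mk ψ.range U' (ψ h * g * u)).out = (DoubleCoset.mk ψ.range U' g).out
    congr 1
    exact ((DoubleCoset.eq ψ.range U' g (ψ h * g * u)).2 ⟨ψ h, ⟨h, rfl⟩, u, hu, rfl⟩).symm
  let F : G → X₂ := fun g => X₂.ρ (hh g) (β (t g))
  -- independence of the choices
  have key : ∀ (g : G) (h : H) (u : G), u ∈ U' → g = ψ h * t g * u →
      F g = X₂.ρ h (β (t g)) := by
    intro g h u hu hgu
    show X₂.ρ (hh g) (β (t g)) = X₂.ρ h (β (t g))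
    have h1 : ψ ((hh g)⁻¹ * h) = t g * (uu g * u⁻¹) * (t g)⁻¹ := by
      have e1 : ψ (hh g) * t g * uu g = ψ h * t g * u := (hg g).symm.trans hgu
      rw [map_mul, map_inv]
      have e2 : ψ h = ψ (hh g) * t g * uu g * u⁻¹ * (t g)⁻¹ := by
        rw [e1]; group
      rw [e2]; group
    have h2 : ψ ((hh g)⁻¹ * h) ∈ U' := by
      rw [h1]
      exact hU'n.conj_mem _ (U'.mul_mem (huu g) (U'.inv_mem hu)) _
    have h3 := hβfix (t g) _ h2
    have h4 : h = hh g * ((hh g)⁻¹ * h) := by group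
    rw [h4, map_mul, Module.End.mul_apply, h3]
  have hFe : ∀ (h : H) (g : G), F (ψ h * g) = X₂.ρ h (F g) := by
    intro h g
    have e0 : t (ψ h * g) = t g := by
      have := htt g h 1 U'.one_mem
      rwa [mul_one] at this
    have e1 : ψ h * g = ψ (h * hh g) * t (ψ h * g) * uu g := by
      rw [e0, map_mul]
      conv_lhs => rw [hg g]
      group
    rw [key (ψ h * g) (h * hh g) (uu g) (huu g) e1, e0, map_mul, Module.End.mul_apply]
  have hFs : ∀ g, ∀ u ∈ U', F (g * u) = F g := by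
    intro g u hu
    have e0 : t (g * u) = t g := by
      have := htt g 1 u hu
      rwa [map_one, one_mul] at this
    have e1 : g * u = ψ (hh g) * t (g * u) * (uu g * u) := by
      rw [e0]
      conv_lhs => rw [hg g]
      group
    rw [key (g * u) (hh g) (uu g * u) (U'.mul_mem (huu g) hu) e1, e0]
  refine ⟨⟨F, hFe, U', hU', hFs⟩, fun g => ?_⟩
  show π.hom (X₂.ρ (hh g) (β (t g))) = f''.1 g
  rw [Rep.hom_comm_apply, hβπ, ← he'']
  have e2 := hU'' (ψ (hh g) * t g) (uu g) (hU'U (huu g))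
  rw [← hg g] at e2
  exact e2.symm

/-- **smooth coinduction is exact** on short exact sequences with `(𝔉.comap ψ)`-smooth middle
term. -/
theorem smCoindSC_shortExact (hfin : 𝔉.FiniteIndex) {S : ShortComplex (Rep.{u} k H)}
    (hS : S.ShortExact) (hsm : IsSmooth (𝔉.comap ψ) S.X₂) :
    (smCoindSC ψ 𝔉 S).ShortExact := by
  have hinj : Function.Injective S.f.hom := (Rep.mono_iff_injective S.f).1 hS.mono_f
  have hsurj : Function.Surjective S.g.hom := (Rep.epi_iff_surjective S.g).1 hS.epi_g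
  have hM : Mono (smCoindSC ψ 𝔉 S).f := (Rep.mono_iff_injective _).2 (by
    intro (f : smCoindV ψ 𝔉 S.X₁) (f' : smCoindV ψ 𝔉 S.X₁) hff'
    apply smCoind_ext
    intro g
    apply hinj
    exact congrArg (fun F : smCoindV ψ 𝔉 S.X₂ => F.1 g) hff')
  have hP : Epi (smCoindSC ψ 𝔉 S).g := (Rep.epi_iff_surjective _).2 (by
    intro (f'' : smCoindV ψ 𝔉 S.X₃)
    obtain ⟨f, hf⟩ := smCoind_exists_lift ψ 𝔉 hfin S.g hsurj hsm f''
    exact ⟨f, smCoind_ext hf⟩)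
  have hex : ∀ a : (smCoindSC ψ 𝔉 S).X₂, (smCoindSC ψ 𝔉 S).g.hom a = 0 →
      ∃ b : (smCoindSC ψ 𝔉 S).X₁, (smCoindSC ψ 𝔉 S).f.hom b = a := by
    intro (x₂ : smCoindV ψ 𝔉 S.X₂) hx₂
    have hpt : ∀ g, ∃ a : S.X₁, S.f.hom a = x₂.1 g := fun g =>
      exists_of_shortExact_of_g_eq_zero hS _
        (congrArg (fun F : smCoindV ψ 𝔉 S.X₃ => F.1 g) hx₂)
    choose a ha using hpt
    have hmem : a ∈ smCoindV ψ 𝔉 S.X₁ := by
      refine ⟨fun h g => hinj ?_, ?_⟩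
      · rw [ha, Rep.hom_comm_apply, ha, smCoind_apply_map_mul]
      · obtain ⟨U, hU, hxU⟩ := x₂.2.2
        exact ⟨U, hU, fun g u hu => hinj (by rw [ha, ha, hxU g u hu])⟩
    exact ⟨⟨a, hmem⟩, smCoind_ext ha⟩
  have hE : (smCoindSC ψ 𝔉 S).Exact := by
    rw [← ShortComplex.exact_map_iff_of_faithful _ (forget₂ (Rep.{u} k G) (ModuleCat.{u} k)),
      ShortComplex.moduleCat_exact_iff]
    intro x₂ hx₂
    exact hex x₂ hx₂
  exact { exact := hE, mono_f := hM, epi_g := hP }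

end Exact

/-! ### The Shapiro map -/

section Shapiro

variable (ψ : H →* G) (𝔉 : LevelFamily G)

/-- The Shapiro map for smooth coinduction: restrict along `ψ` and evaluate at `1`. -/
noncomputable def smShap (B : Rep.{u} k H) (n : ℕ) :
    Hlc 𝔉 (smCoind ψ 𝔉 B) n ⟶ Hlc (𝔉.comap ψ) B n :=
  HlcMap ψ (smCoindEv ψ 𝔉 B) (𝔉.compat_comap ψ) n

theorem smShap_lcπ (B : Rep.{u} k H) (n : ℕ) (c : lcCocycles 𝔉 (smCoind ψ 𝔉 B) n) :
    (smShap ψ 𝔉 B n).hom (lcπ 𝔉 (smCoind ψ 𝔉 B) n c) =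
      lcπ (𝔉.comap ψ) B n
        ⟨((cochainsMap ψ (smCoindEv ψ 𝔉 B)).f n).hom c.1,
          cochainsMap_mem_lcCocycles ψ (smCoindEv ψ 𝔉 B) (𝔉.compat_comap ψ) c.2⟩ :=
  HlcMap_lcπ ψ (smCoindEv ψ 𝔉 B) (𝔉.compat_comap ψ) n c

/-- naturality of the Shapiro map in the coefficients. -/
theorem smShap_naturality {B B' : Rep.{u} k H} (f : B ⟶ B') (n : ℕ)
    (x : Hlc 𝔉 (smCoind ψ 𝔉 B) n) :
    (smShap ψ 𝔉 B' n).hom
        ((HlcMap (MonoidHom.id G) (smCoindMap ψ 𝔉 f) 𝔉.compat_id n).hom x) =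
      (HlcMap (MonoidHom.id H) f (𝔉.comap ψ).compat_id n).hom ((smShap ψ 𝔉 B n).hom x) := by
  obtain ⟨c, rfl⟩ := lcπ_surjective 𝔉 (smCoind ψ 𝔉 B) n x
  rw [smShap, smShap, HlcMap_lcπ, HlcMap_lcπ, HlcMap_lcπ, HlcMap_lcπ]
  rfl

/-! #### Degree zero -/

theorem smShap_zero_injective (B : Rep.{u} k H) :
    Function.Injective (smShap ψ 𝔉 B 0).hom := by
  rw [injective_iff_map_eq_zero]
  intro x hx
  have h1 := coe_Hlc0Equiv_HlcMap ψ (smCoindEv ψ 𝔉 B) (𝔉.compat_comap ψ) x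
  have hx' : (smShap ψ 𝔉 B 0).hom x = 0 := hx
  rw [show (HlcMap ψ (smCoindEv ψ 𝔉 B) (𝔉.compat_comap ψ) 0).hom x = 0 from hx', map_zero] at h1
  set F : (smCoind ψ 𝔉 B).ρ.invariants := Hlc0Equiv 𝔉 (smCoind ψ 𝔉 B) x with hF
  have hF1 : (F.1 : smCoindV ψ 𝔉 B).1 1 = 0 := h1.symm
  have hF0 : F = 0 := by
    apply Subtype.ext
    apply smCoind_ext
    intro g
    have hinv := F.2 g
    have h2 := congrArg (fun f : smCoindV ψ 𝔉 B => f.1 1) hinv
    have h3 : (F.1 : smCoindV ψ 𝔉 B).1 (1 * g) = (F.1 : smCoindV ψ 𝔉 B).1 1 := h2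
    rw [one_mul] at h3
    rw [h3, hF1]
    rfl
  exact (Hlc0Equiv 𝔉 (smCoind ψ 𝔉 B)).injective (hF0.trans (map_zero _).symm)

theorem smShap_zero_surjective (B : Rep.{u} k H) :
    Function.Surjective (smShap ψ 𝔉 B 0).hom := by
  intro y
  set b : B.ρ.invariants := Hlc0Equiv (𝔉.comap ψ) B y with hb
  have hmem : (fun _ : G => (b.1 : B)) ∈ smCoindV ψ 𝔉 B := by
    obtain ⟨U, hU⟩ := 𝔉.nonempty
    exact ⟨fun h _ => (b.2 h).symm, U, hU, fun _ _ _ => rfl⟩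
  let F : smCoindV ψ 𝔉 B := ⟨_, hmem⟩
  have hFinv : F ∈ (smCoind ψ 𝔉 B).ρ.invariants := fun g => smCoind_ext fun _ => rfl
  refine ⟨(Hlc0Equiv 𝔉 (smCoind ψ 𝔉 B)).symm ⟨F, hFinv⟩, ?_⟩
  apply (Hlc0Equiv (𝔉.comap ψ) B).injective
  apply Subtype.ext
  have h1 := coe_Hlc0Equiv_HlcMap ψ (smCoindEv ψ 𝔉 B) (𝔉.compat_comap ψ)
    ((Hlc0Equiv 𝔉 (smCoind ψ 𝔉 B)).symm ⟨F, hFinv⟩)
  rw [LinearEquiv.apply_symm_apply] at h1
  exact h1

/-! #### Smooth coinduction of a smooth function module -/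

section Fun

variable (V : Type u) [AddCommGroup V] [Module k V]

lemma smCoindFunTo_mem (F : smCoindV ψ 𝔉 (lcFunRep (k := k) (𝔉.comap ψ) V)) :
    (fun g : G => ((F.1 g : lcFun (k := k) (𝔉.comap ψ) V)).1 1) ∈ lcFun (k := k) 𝔉 V := by
  obtain ⟨U, hU, hFU⟩ := F.2.2
  refine ⟨U, hU, fun x u hu => ?_⟩
  show ((F.1 (x * u) : lcFun (k := k) (𝔉.comap ψ) V)).1 1 =
    ((F.1 x : lcFun (k := k) (𝔉.comap ψ) V)).1 1
  rw [hFU x u hu]

/-- `smCoind ψ (J_H V) ⟶ J_G V`, `F ↦ (g ↦ F(g)(1))`. -/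
noncomputable def smCoindFunTo :
    smCoind ψ 𝔉 (lcFunRep (k := k) (𝔉.comap ψ) V) ⟶ lcFunRep (k := k) 𝔉 V :=
  Rep.ofHom (ρ := smCoindRepresentation ψ 𝔉 (lcFunRep (k := k) (𝔉.comap ψ) V))
    (σ := lcFunRepresentation (k := k) 𝔉 V)
    ⟨{ toFun := fun F => ⟨_, smCoindFunTo_mem ψ 𝔉 V F⟩
       map_add' := fun _ _ => rfl
       map_smul' := fun _ _ => rfl }, fun x => by
      ext F g
      rfl⟩

lemma smCoindFunTo_apply (F : smCoindV ψ 𝔉 (lcFunRep (k := k) (𝔉.comap ψ) V)) (g : G) :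
    ((smCoindFunTo ψ 𝔉 V).hom F : lcFun (k := k) 𝔉 V).1 g =
      ((F.1 g : lcFun (k := k) (𝔉.comap ψ) V)).1 1 := rfl

lemma smCoindFunFrom_mem₁ (φ : lcFun (k := k) 𝔉 V) (g : G) :
    (fun y : H => φ.1 (ψ y * g)) ∈ lcFun (k := k) (𝔉.comap ψ) V := by
  obtain ⟨U, hU, hφ⟩ := φ.2
  have hUn : U.Normal := 𝔉.normal U hU
  refine ⟨U.comap ψ, ⟨U, hU, rfl⟩, fun y w hw => ?_⟩
  show φ.1 (ψ (y * w) * g) = φ.1 (ψ y * g)
  have h1 : ψ (y * w) * g = ψ y * g * (g⁻¹ * ψ w * g⁻¹⁻¹) := by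
    rw [map_mul]
    group
  rw [h1]
  exact hφ _ _ (hUn.conj_mem (ψ w) hw g⁻¹)

lemma smCoindFunFrom_mem₂ (φ : lcFun (k := k) 𝔉 V) :
    (fun g : G => (⟨fun y : H => φ.1 (ψ y * g), smCoindFunFrom_mem₁ ψ 𝔉 V φ g⟩ :
      lcFun (k := k) (𝔉.comap ψ) V)) ∈
      smCoindV ψ 𝔉 (lcFunRep (k := k) (𝔉.comap ψ) V) := by
  obtain ⟨U, hU, hφ⟩ := φ.2
  refine ⟨fun h g => ?_, U, hU, fun g u hu => ?_⟩
  · apply Subtype.ext
    funext y
    show φ.1 (ψ y * (ψ h * g)) = φ.1 (ψ (y * h) * g)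
    rw [map_mul, mul_assoc]
  · apply Subtype.ext
    funext y
    show φ.1 (ψ y * (g * u)) = φ.1 (ψ y * g)
    rw [← mul_assoc]
    exact hφ _ _ hu

/-- `J_G V ⟶ smCoind ψ (J_H V)`, `φ ↦ (g ↦ (y ↦ φ(ψ y * g)))`. -/
noncomputable def smCoindFunFrom :
    lcFunRep (k := k) 𝔉 V ⟶ smCoind ψ 𝔉 (lcFunRep (k := k) (𝔉.comap ψ) V) :=
  Rep.ofHom (ρ := lcFunRepresentation (k := k) 𝔉 V)
    (σ := smCoindRepresentation ψ 𝔉 (lcFunRep (k := k) (𝔉.comap ψ) V))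
    ⟨{ toFun := fun φ => (⟨_, smCoindFunFrom_mem₂ ψ 𝔉 V φ⟩ :
          smCoindV ψ 𝔉 (lcFunRep (k := k) (𝔉.comap ψ) V))
       map_add' := fun _ _ => rfl
       map_smul' := fun _ _ => rfl }, fun x => by
      ext φ g y
      show φ.1 (ψ y * g * x) = φ.1 (ψ y * (g * x))
      rw [mul_assoc]⟩

lemma smCoindFunFrom_apply (φ : lcFun (k := k) 𝔉 V) (g : G) (y : H) :
    ((((smCoindFunFrom ψ 𝔉 V).hom φ :
      smCoindV ψ 𝔉 (lcFunRep (k := k) (𝔉.comap ψ) V)).1 g :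
        lcFun (k := k) (𝔉.comap ψ) V)).1 y = φ.1 (ψ y * g) := rfl

lemma smCoindFunFrom_smCoindFunTo
    (F : smCoindV ψ 𝔉 (lcFunRep (k := k) (𝔉.comap ψ) V)) :
    (smCoindFunFrom ψ 𝔉 V).hom ((smCoindFunTo ψ 𝔉 V).hom F) = F := by
  apply smCoind_ext
  intro g
  apply Subtype.ext
  funext y
  rw [smCoindFunFrom_apply, smCoindFunTo_apply]
  have h1 := smCoind_apply_map_mul F y g
  have h2 := congrArg (fun f : lcFun (k := k) (𝔉.comap ψ) V => f.1 1) h1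
  have h3 : ((F.1 (ψ y * g) : lcFun (k := k) (𝔉.comap ψ) V)).1 1 =
      ((F.1 g : lcFun (k := k) (𝔉.comap ψ) V)).1 (1 * y) := h2
  rw [one_mul] at h3
  exact h3

/-- the smooth coinduction of a smooth function module is acyclic. -/
theorem Hlc_smCoind_lcFunRep_eq_zero (n : ℕ)
    (x : Hlc 𝔉 (smCoind ψ 𝔉 (lcFunRep (k := k) (𝔉.comap ψ) V)) (n + 1)) : x = 0 := by
  have key : (HlcMap (MonoidHom.id G) (smCoindFunFrom ψ 𝔉 V) 𝔉.compat_id (n + 1)).hom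
      ((HlcMap (MonoidHom.id G) (smCoindFunTo ψ 𝔉 V) 𝔉.compat_id (n + 1)).hom x) = x := by
    obtain ⟨c, rfl⟩ := lcπ_surjective 𝔉 _ (n + 1) x
    rw [HlcMap_lcπ, HlcMap_lcπ]
    congr 1
    apply Subtype.ext
    funext g
    exact smCoindFunFrom_smCoindFunTo ψ 𝔉 V _
  have h0 : (HlcMap (MonoidHom.id G) (smCoindFunTo ψ 𝔉 V) 𝔉.compat_id (n + 1)).hom x = 0 :=
    Hlc_lcFunRep_eq_zero 𝔉 V n _
  rw [← key, h0, map_zero]

end Fun

/-! #### The induction -/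

section Main

variable {ψ 𝔉} (hfin : 𝔉.FiniteIndex)

section Step

variable (B : Rep.{u} k H) (hB : IsSmooth (𝔉.comap ψ) B)

/-- the coinduced dimension-shifting sequence. -/
noncomputable abbrev smShapX : ShortComplex (Rep.{u} k G) :=
  smCoindSC ψ 𝔉 (lcFunSC B hB)

include hfin in
lemma smShapX_shortExact : (smShapX B hB).ShortExact :=
  smCoindSC_shortExact ψ 𝔉 hfin (lcFunSC_shortExact B hB) (isSmooth_lcFunSC_X₂ B hB)

lemma smShapX_isSmooth : IsSmooth 𝔉 (smShapX B hB).X₂ :=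
  isSmooth_smCoind ψ 𝔉 _

/-- the Shapiro maps commute with the connecting homomorphisms of the dimension-shifting
sequences. -/
theorem smShap_lcδ (n : ℕ) (w : Hlc 𝔉 (smShapX B hB).X₃ n) :
    (smShap ψ 𝔉 B (n + 1)).hom
        ((lcδ hfin (smShapX_shortExact hfin B hB) (smShapX_isSmooth B hB) n (n + 1) rfl).hom w) =
      (lcFunδ B hB (hfin.comap ψ) n).hom ((smShap ψ 𝔉 (lcFunSC B hB).X₃ n).hom w) := by
  have h := lcδ_naturality_map hfin (smShapX_shortExact hfin B hB) (smShapX_isSmooth B hB)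
    (hfin.comap ψ) (lcFunSC_shortExact B hB) (isSmooth_lcFunSC_X₂ B hB) ψ
    (𝔉.compat_comap ψ) (smCoindEv ψ 𝔉 (lcFunSC B hB).X₁) (smCoindEv ψ 𝔉 (lcFunSC B hB).X₂)
    (smCoindEv ψ 𝔉 (lcFunSC B hB).X₃) (fun _ => rfl) (fun _ => rfl) n (n + 1) rfl
  exact congr($h w)

end Step

include hfin in
/-- **Shapiro's lemma for smooth coinduction along an arbitrary homomorphism.** -/
theorem smShap_bijective (n : ℕ) : ∀ (B : Rep.{u} k H) (_ : IsSmooth (𝔉.comap ψ) B),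
    Function.Bijective (smShap ψ 𝔉 B n).hom := by
  induction n with
  | zero => exact fun B _ => ⟨smShap_zero_injective ψ 𝔉 B, smShap_zero_surjective ψ 𝔉 B⟩
  | succ n ih =>
    intro B hB
    have hQ := isSmooth_lcFunSC_X₃ B hB
    have hJ := isSmooth_lcFunSC_X₂ B hB
    constructor
    · -- injectivity
      rw [injective_iff_map_eq_zero]
      intro x hx
      have hx₂ : (lcH₁₂ 𝔉 (smShapX B hB) (n + 1)).hom x = 0 :=
        Hlc_smCoind_lcFunRep_eq_zero ψ 𝔉 B.V n _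
      obtain ⟨w, rfl⟩ := exists_lcδ_eq hfin (smShapX_shortExact hfin B hB)
        (smShapX_isSmooth B hB) n (n + 1) rfl x hx₂
      rw [smShap_lcδ hfin B hB n w] at hx
      cases n with
      | zero =>
        obtain ⟨y', hy'⟩ := exists_of_lcFunδ_eq_zero B hB (hfin.comap ψ) _ hx
        obtain ⟨w', rfl⟩ := (ih _ hJ).2 y'
        have hnat := smShap_naturality ψ 𝔉 (lcFunSC B hB).g 0 w'
        have hw : (lcH₂₃ 𝔉 (smShapX B hB) 0).hom w' = w := by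
          apply (ih _ hQ).1
          exact hnat.trans hy'
        rw [← hw]
        exact lcH₂₃_lcδ_apply hfin (smShapX_shortExact hfin B hB) (smShapX_isSmooth B hB) 0 1 rfl w'
      | succ m =>
        have h0 := lcFunδ_injective B hB (hfin.comap ψ) m (hx.trans (map_zero _).symm)
        have hw : w = 0 := (ih _ hQ).1 (h0.trans (map_zero _).symm)
        rw [hw, map_zero]
        rfl
    · -- surjectivity
      intro y
      obtain ⟨z, rfl⟩ := lcFunδ_surjective B hB (hfin.comap ψ) n y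
      obtain ⟨w, rfl⟩ := (ih _ hQ).2 z
      exact ⟨_, smShap_lcδ hfin B hB n w⟩

/-- Shapiro's lemma for smooth coinduction, as a linear equivalence. -/
noncomputable def smShapEquiv (B : Rep.{u} k H) (hB : IsSmooth (𝔉.comap ψ) B) (n : ℕ) :
    Hlc 𝔉 (smCoind ψ 𝔉 B) n ≃ₗ[k] Hlc (𝔉.comap ψ) B n :=
  LinearEquiv.ofBijective (smShap ψ 𝔉 B n).hom (smShap_bijective hfin n B hB)

@[simp] lemma smShapEquiv_apply (B : Rep.{u} k H) (hB : IsSmooth (𝔉.comap ψ) B) (n : ℕ)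
    (x : Hlc 𝔉 (smCoind ψ 𝔉 B) n) :
    smShapEquiv hfin B hB n x = (smShap ψ 𝔉 B n).hom x := rfl

end Main

end Shapiro

end Fermat.Agent.PT
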