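import Fermat.Agent.CFT.PT.Contracts
import Fermat.Agent.CFT.Bridge.Places

set_option autoImplicit false
set_option linter.unusedSectionVars false

/-!
# S55 bridge (GB-D): the index set of `locSV S V` is the set of places of `K_V` over `S`

* `PlacesOverS S K` : `{w : HeightOneSpectrum (𝓞 K) // ∃ q ∈ S, (q : 𝓞 K) ∈ w.asIdeal}`.
* `locSVIndexEquiv S K : (locSV S K.fixingSubgroup).ι ≃ PlacesOverS S K`, `natCard_locSV_ι`.
* `exists_numberField_of_mem_famS` : every level `V` of `famS S` is `G_K` for a finite Galois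
  `K/ℚ` unramified outside `S`; `exists_natCard_locSV_ι_eq` packages the count.
-/

namespace Fermat.Agent.PT

open CategoryTheory groupCohomology Rep ExtCitation NumberField IsDedekindDomain Fermat.Agent.CFT

local notation "Γℚ" => (AlgebraicClosure ℚ ≃ₐ[ℚ] AlgebraicClosure ℚ)
local notation "Qb" => AlgebraicClosure ℚ

variable (S : Finset Nat.Primes) (K : IntermediateField ℚ Qb) [NumberField K] [IsGalois ℚ K]

/-- the places of `K` over a prime of `S` -/
abbrev PlacesOverS : Type :=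
  {w : HeightOneSpectrum (𝓞 K) // ∃ q ∈ S, ((q : ℕ) : 𝓞 K) ∈ w.asIdeal}

/-- two distinct rational primes cannot lie in the same prime ideal -/
theorem prime_unique_of_mem (w : HeightOneSpectrum (𝓞 K)) {q q' : Nat.Primes}
    (hq : ((q : ℕ) : 𝓞 K) ∈ w.asIdeal) (hq' : ((q' : ℕ) : 𝓞 K) ∈ w.asIdeal) : q = q' := by
  by_contra hne
  have hcop : Nat.Coprime (q : ℕ) (q' : ℕ) :=
    (Nat.coprime_primes q.2 q'.2).2 (fun h => hne (Subtype.ext h))
  have h1 : ((Nat.gcd q q' : ℕ) : ℤ) = (q : ℕ) * Nat.gcdA q q' + (q' : ℕ) * Nat.gcdB q q' :=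
    Nat.gcd_eq_gcd_ab q q'
  rw [hcop.gcd_eq_one] at h1
  have h2 : (1 : 𝓞 K) = ((q : ℕ) : 𝓞 K) * ((Nat.gcdA q q' : ℤ) : 𝓞 K) +
      ((q' : ℕ) : 𝓞 K) * ((Nat.gcdB q q' : ℤ) : 𝓞 K) := by
    have := congrArg (fun z : ℤ => (z : 𝓞 K)) h1
    push_cast at this
    exact this
  have h3 : (1 : 𝓞 K) ∈ w.asIdeal := by
    rw [h2]
    exact add_mem (Ideal.mul_mem_right _ _ hq) (Ideal.mul_mem_right _ _ hq')
  exact w.isPrime.ne_top ((Ideal.eq_top_iff_one _).2 h3)

/-- `Σ_{q ∈ S} {w | q} ≃ {w | some q ∈ S}` -/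
noncomputable def sigmaPlacesEquiv :
    (Σ q : ↥S, {w : HeightOneSpectrum (𝓞 K) // (((q : Nat.Primes) : ℕ) : 𝓞 K) ∈ w.asIdeal}) ≃
      PlacesOverS S K :=
  Equiv.ofBijective (fun x => ⟨x.2.1, x.1.1, x.1.2, x.2.2⟩) ⟨by
    rintro ⟨⟨q, hq⟩, ⟨w, hw⟩⟩ ⟨⟨q', hq'⟩, ⟨w', hw'⟩⟩ h
    have hw_eq : w = w' := congrArg Subtype.val h
    subst hw_eq
    have hqq : q = q' := prime_unique_of_mem K w hw hw'
    subst hqq
    rfl, by
    rintro ⟨w, q, hq, hw⟩
    exact ⟨⟨⟨q, hq⟩, ⟨w, hw⟩⟩, rfl⟩⟩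

/-- **The index set of `locSV S G_K` is the set of places of `K` over `S`.** -/
noncomputable def locSVIndexEquiv [K.fixingSubgroup.Normal] :
    (locSV S K.fixingSubgroup).ι ≃ PlacesOverS S K :=
  (Equiv.sigmaCongrRight fun v : ↥S =>
    letI : Fact ((v : Nat.Primes) : ℕ).Prime := ⟨(v : Nat.Primes).2⟩
    placesEquiv ((v : Nat.Primes) : ℕ) K).trans (sigmaPlacesEquiv S K)

theorem natCard_locSV_ι [K.fixingSubgroup.Normal] :
    Nat.card (locSV S K.fixingSubgroup).ι = Nat.card (PlacesOverS S K) :=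
  Nat.card_congr (locSVIndexEquiv S K)

theorem natCard_locSV_ι_of_eq {V : Subgroup Γℚ} [V.Normal] (hKV : K.fixingSubgroup = V) :
    Nat.card (locSV S V).ι = Nat.card (PlacesOverS S K) := by
  subst hKV
  exact natCard_locSV_ι S K

omit [NumberField K] [IsGalois ℚ K] in
/-- the local groups of `locSV S G_K` over `q` are `ψ_q⁻¹(G_K) = Gal(Q̄_q / ℚ_q · ι K)`, of index
`[K_w : ℚ_q]` -/
theorem index_comap_primeLocalToGlobal (q : Nat.Primes) :
    letI : Fact (q : ℕ).Prime := ⟨q.2⟩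
    (K.fixingSubgroup.comap (primeLocalToGlobal q)).index =
      Module.finrank ℚ_[(q : ℕ)] (localLevel (q : ℕ) K) := by
  let _ : Fact (q : ℕ).Prime := ⟨q.2⟩
  exact index_comap_fixingSubgroup (q : ℕ) K

omit [NumberField K] [IsGalois ℚ K] in
/-- every level of `famS S` is the absolute Galois group of a finite Galois extension of `ℚ`
unramified outside `S` -/
theorem exists_numberField_of_mem_famS {V : Subgroup Γℚ} (hV : V ∈ (famS S).sets) :
    ∃ (K : IntermediateField ℚ Qb) (_ : NumberField K) (_ : IsGalois ℚ K),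
      K.IsUnramifiedOutside S ∧ K.fixingSubgroup = V := by
  obtain ⟨K, hK, hn, rfl⟩ := hV
  have : IsGalois ℚ Qb := ⟨⟩
  exact ⟨K, @NumberField.mk _ _ inferInstance hK.1, (InfiniteGalois.normal_iff_isGalois K).1 hn,
    hK, rfl⟩

omit [NumberField K] [IsGalois ℚ K] in
/-- **count of the index set**: for every level `V` of `famS S` there is a finite Galois `K/ℚ`
unramified outside `S` with `G_K = V` and `#(locSV S V).ι = #{places of K over S}`. -/
theorem exists_natCard_locSV_ι_eq {V : Subgroup Γℚ} [V.Normal] (hV : V ∈ (famS S).sets) :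
    ∃ (K : IntermediateField ℚ Qb) (_ : NumberField K) (_ : IsGalois ℚ K),
      K.IsUnramifiedOutside S ∧ K.fixingSubgroup = V ∧
        Nat.card (locSV S V).ι = Nat.card (PlacesOverS S K) := by
  obtain ⟨K, hnf, hgal, hK, hKV⟩ := exists_numberField_of_mem_famS S hV
  exact ⟨K, hnf, hgal, hK, hKV, natCard_locSV_ι_of_eq S K hKV⟩

end Fermat.Agent.PT
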