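import Mathlib
import Fermat.Agent.CFT.PT.SUnitsRep
import Fermat.Agent.CFT.S14.ValSubringOfPrime
import Fermat.Agent.CFT.S14.InertiaLift
import Fermat.Agent.CFT.S14.UnramBridge
import Fermat.Agent.CFT.Global.SUnitRank
import Fermat.Agent.CFT.PT.SmoothZero
import Fermat.Agent.CFT.PT.SmoothRestrict

set_option autoImplicit false

/-!
# S55 GLOBAL -> ENGINE bridge (GB2): valuation subrings of `Qb` versus primes of `𝓞 F`

(helper21)  `F : IntermediateField ℚ Qb` a number field.

* `sUD_forall_mem_iff` : `(∀ A over q, x ∈ A) ↔ ∀ w ∋ q, w.valuation F x ≤ 1` for `x : F`;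
* `sUD_primesOver F S` : the primes of `𝓞 F` over `S`; `sUD_mem_unit_iff`;
* `sUD_mem_ES_iff` : `E_S ∩ Fˣ` = `(sUD_primesOver F S).unit F` for `F` unramified outside `S`.
-/

namespace Fermat.Agent.PT

open CategoryTheory Fermat.Agent.CFT IntermediateField ExtCitation NumberField IsDedekindDomain
open scoped Pointwise

local notation "Qb" => AlgebraicClosure ℚ
local notation "Γℚ" => (AlgebraicClosure ℚ ≃ₐ[ℚ] AlgebraicClosure ℚ)

section Dedekind

variable {R K : Type*} [CommRing R] [IsDedekindDomain R] [Field K] [Algebra R K]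
  [IsFractionRing R K]

/-- an element of valuation `≤ 1` is a fraction with denominator prime to `v`. -/
theorem sUD_exists_div_of_valuation_le_one (v : HeightOneSpectrum R) {x : K}
    (hx : v.valuation K x ≤ 1) :
    ∃ a s : R, s ∉ v.asIdeal ∧ x * algebraMap R K s = algebraMap R K a := by
  obtain ⟨n, d, h | h⟩ := v.exists_primeCompl_mul_eq_or_mul_eq x
  · exact ⟨n, d, d.2, h⟩
  · have hd : v.valuation K (algebraMap R K d) = 1 := (v.valuation_eq_one_iff_notMem).2 d.2
    have h1 : v.valuation K x * v.valuation K (algebraMap R K n) = 1 := by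
      rw [← map_mul, h, hd]
    have hn : v.valuation K (algebraMap R K n) = 1 := by
      refine le_antisymm (v.valuation_le_one n) ?_
      calc (1 : _) = v.valuation K x * v.valuation K (algebraMap R K n) := h1.symm
        _ ≤ 1 * v.valuation K (algebraMap R K n) := mul_le_mul' hx le_rfl
        _ = v.valuation K (algebraMap R K n) := one_mul _
    exact ⟨d, n, (v.valuation_eq_one_iff_notMem).1 hn, h⟩

end Dedekind

section Dict

variable (F : IntermediateField ℚ Qb)

/-- valuation subrings of `Qb` contain all algebraic integers. -/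
theorem sUD_mem_of_isIntegral (A : ValuationSubring Qb) {y : Qb} (hy : IsIntegral ℤ y) :
    y ∈ A := by
  have h1 : IsIntegral A y := hy.tower_top
  obtain ⟨z, hz⟩ := IsIntegrallyClosed.algebraMap_eq_of_integral h1
  rw [← hz]
  exact z.2

/-- the ring homomorphism `𝓞 F → Qb`. -/
noncomputable def sUD_toQb : 𝓞 F →+* Qb := (algebraMap F Qb).comp (algebraMap (𝓞 F) F)

theorem sUD_toQb_apply (a : 𝓞 F) : sUD_toQb F a = ((a : F) : Qb) := rfl

theorem sUD_isIntegral_toQb (a : 𝓞 F) : IsIntegral ℤ (sUD_toQb F a) :=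
  (RingOfIntegers.isIntegral_coe a).algebraMap

theorem sUD_toQb_mem (A : ValuationSubring Qb) (a : 𝓞 F) : sUD_toQb F a ∈ A :=
  sUD_mem_of_isIntegral A (sUD_isIntegral_toQb F a)

/-- the ring homomorphism `𝓞 F → A` for a valuation subring `A` of `Qb`. -/
noncomputable def sUD_toA (A : ValuationSubring Qb) : 𝓞 F →+* A :=
  (sUD_toQb F).codRestrict A (sUD_toQb_mem F A)

/-- the prime ideal of `𝓞 F` cut out by a valuation subring of `Qb`. -/
noncomputable def sUD_idealOf (A : ValuationSubring Qb) : Ideal (𝓞 F) :=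
  (IsLocalRing.maximalIdeal A).comap (sUD_toA F A)

variable {F}

theorem mem_sUD_idealOf {A : ValuationSubring Qb} {a : 𝓞 F} :
    a ∈ sUD_idealOf F A ↔ sUD_toQb F a ∈ A.nonunits := by
  rw [sUD_idealOf, Ideal.mem_comap, ← ValuationSubring.coe_mem_nonunits_iff]
  rfl

instance sUD_idealOf_isPrime (A : ValuationSubring Qb) : (sUD_idealOf F A).IsPrime :=
  Ideal.comap_isPrime _ _

theorem sUD_natCast_mem_idealOf {A : ValuationSubring Qb} {q : ℕ} (hA : A.LiesOverPrime q) :
    ((q : ℕ) : 𝓞 F) ∈ sUD_idealOf F A := by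
  rw [mem_sUD_idealOf, map_natCast]
  exact hA

variable (F) [NumberField F]

/-- the prime of `𝓞 F` below a valuation subring of `Qb` over `q ≠ 0`. -/
noncomputable def sUD_primeOf (A : ValuationSubring Qb) {q : ℕ} (hq : q ≠ 0)
    (hA : A.LiesOverPrime q) : HeightOneSpectrum (𝓞 F) where
  asIdeal := sUD_idealOf F A
  isPrime := inferInstance
  ne_bot := by
    intro h
    have h1 : ((q : ℕ) : 𝓞 F) ∈ sUD_idealOf F A := sUD_natCast_mem_idealOf hA
    rw [h, Ideal.mem_bot] at h1
    exact hq (by exact_mod_cast h1)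

omit [NumberField F] in
theorem sUD_primeOf_asIdeal (A : ValuationSubring Qb) {q : ℕ} (hq : q ≠ 0)
    (hA : A.LiesOverPrime q) : (sUD_primeOf F A hq hA).asIdeal = sUD_idealOf F A := rfl

/-- **Dictionary (⇐).** -/
theorem sUD_mem_of_forall_valuation_le_one {q : ℕ} (hq : q ≠ 0) (A : ValuationSubring Qb)
    (hA : A.LiesOverPrime q) (x : F)
    (h : ∀ w : HeightOneSpectrum (𝓞 F), ((q : ℕ) : 𝓞 F) ∈ w.asIdeal → w.valuation F x ≤ 1) :
    (x : Qb) ∈ A := by
  obtain ⟨a, s, hs, hxs⟩ := sUD_exists_div_of_valuation_le_one (sUD_primeOf F A hq hA)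
    (h _ (sUD_natCast_mem_idealOf hA))
  have hs' : sUD_toQb F s ∉ A.nonunits := fun h' => hs (mem_sUD_idealOf.2 h')
  rw [ValuationSubring.mem_nonunits_iff_or, not_or, not_not] at hs'
  have e : (x : Qb) * sUD_toQb F s = sUD_toQb F a := by
    have := congrArg (algebraMap F Qb) hxs
    rwa [map_mul] at this
  have e' : (x : Qb) = sUD_toQb F a * (sUD_toQb F s)⁻¹ := by
    rw [← e, mul_assoc, mul_inv_cancel₀ hs'.1, mul_one]
  rw [e']
  exact mul_mem (sUD_toQb_mem F A a) hs'.2

/-- **Dictionary (⇒).** -/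
theorem sUD_valuation_le_one_of_forall_mem {q : ℕ} (x : F)
    (h : ∀ A : ValuationSubring Qb, A.LiesOverPrime q → (x : Qb) ∈ A)
    (w : HeightOneSpectrum (𝓞 F)) (hw : ((q : ℕ) : 𝓞 F) ∈ w.asIdeal) : w.valuation F x ≤ 1 := by
  by_contra hlt
  rw [not_le] at hlt
  have hx0 : x ≠ 0 := by
    rintro rfl
    rw [map_zero] at hlt
    exact not_lt.2 zero_le hlt
  have hinv : w.valuation F x⁻¹ < 1 := by
    rw [map_inv₀]
    exact inv_lt_one_of_one_lt₀ hlt
  obtain ⟨a, s, hs, hxs⟩ := sUD_exists_div_of_valuation_le_one w hinv.le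
  have ha : a ∈ w.asIdeal := by
    rw [← w.valuation_lt_one_iff_mem (K := F)]
    have h1 : w.valuation F (algebraMap (𝓞 F) F a) = w.valuation F x⁻¹ := by
      rw [← hxs, map_mul, (w.valuation_eq_one_iff_notMem).2 hs, mul_one]
    exact h1 ▸ hinv
  obtain ⟨P, hP, hPw⟩ := S14.InertiaLift.exists_prime_over w.asIdeal
  have := hP
  have ha' : algebraMap (𝓞 F) (𝓞 Qb) a ∈ P := by
    rw [← Ideal.mem_comap, hPw]; exact ha
  have hs' : algebraMap (𝓞 F) (𝓞 Qb) s ∉ P := by
    rw [← Ideal.mem_comap, hPw]; exact hs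
  have hq' : ((q : ℕ) : 𝓞 Qb) ∈ P := by
    have h1 : algebraMap (𝓞 F) (𝓞 Qb) ((q : ℕ) : 𝓞 F) ∈ P := by
      rw [← Ideal.mem_comap, hPw]; exact hw
    rwa [map_natCast] at h1
  have hnon := S14.div_mem_nonunits P ha' hs'
  have hxA := h _ (S14.valSubringOfPrime_liesOverPrime P q hq')
  have e : algebraMap (𝓞 Qb) Qb (algebraMap (𝓞 F) (𝓞 Qb) a) /
      algebraMap (𝓞 Qb) Qb (algebraMap (𝓞 F) (𝓞 Qb) s) = (x : Qb)⁻¹ := by
    have h1 := congrArg (algebraMap F Qb) hxs
    rw [map_mul, map_inv₀] at h1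
    have hs0 : algebraMap F Qb (algebraMap (𝓞 F) F s) ≠ 0 := by
      intro h0
      have : s = 0 := by
        have h2 := (algebraMap F Qb).injective (h0.trans (map_zero _).symm)
        exact (FaithfulSMul.algebraMap_injective (𝓞 F) F) (h2.trans (map_zero _).symm)
      exact hs (this ▸ w.asIdeal.zero_mem)
    change algebraMap F Qb (algebraMap (𝓞 F) F a) / algebraMap F Qb (algebraMap (𝓞 F) F s) = _
    rw [← h1]
    field_simp
    rfl
  rw [e] at hnon
  have h1 := sUR_mul_mem_nonunits _ hnon hxA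
  have hx0' : (x : Qb) ≠ 0 := fun h0 => hx0 (Subtype.ext h0)
  rw [inv_mul_cancel₀ hx0', ValuationSubring.mem_nonunits_iff, map_one] at h1
  exact lt_irrefl _ h1

/-- **Dictionary**: `x : F` lies in every valuation subring of `Qb` over `q` iff it is integral
at every prime of `𝓞 F` over `q`. -/
theorem sUD_forall_mem_iff {q : ℕ} (hq : q ≠ 0) (x : F) :
    (∀ A : ValuationSubring Qb, A.LiesOverPrime q → (x : Qb) ∈ A) ↔
      ∀ w : HeightOneSpectrum (𝓞 F), ((q : ℕ) : 𝓞 F) ∈ w.asIdeal → w.valuation F x ≤ 1 :=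
  ⟨fun h w hw => sUD_valuation_le_one_of_forall_mem F x h w hw,
    fun h A hA => sUD_mem_of_forall_valuation_le_one F hq A hA x h⟩

end Dict

section Units

variable (F : IntermediateField ℚ Qb) [NumberField F] (S : Finset Nat.Primes)

/-- the primes of `𝓞 F` lying over the rational primes in `S`. -/
def sUD_primesOver : Set (HeightOneSpectrum (𝓞 F)) :=
  {w | ∃ q ∈ S, (((q : Nat.Primes) : ℕ) : 𝓞 F) ∈ w.asIdeal}

omit [NumberField F] in
theorem mem_sUD_primesOver {w : HeightOneSpectrum (𝓞 F)} :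
    w ∈ sUD_primesOver F S ↔ ∃ q ∈ S, (((q : Nat.Primes) : ℕ) : 𝓞 F) ∈ w.asIdeal := Iff.rfl

theorem sUD_finite_primesOver : (sUD_primesOver F S).Finite := by
  have h : sUD_primesOver F S =
      ⋃ q ∈ S, {w : HeightOneSpectrum (𝓞 F) | (((q : Nat.Primes) : ℕ) : 𝓞 F) ∈ w.asIdeal} := by
    ext w
    simp [sUD_primesOver]
  rw [h]
  refine Set.Finite.biUnion S.finite_toSet fun q _ => ?_
  have hq0 : Ideal.span {(((q : Nat.Primes) : ℕ) : 𝓞 F)} ≠ 0 := by
    rw [Ne, Ideal.zero_eq_bot, Ideal.span_singleton_eq_bot]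
    exact_mod_cast q.2.ne_zero
  refine (Ideal.finite_factors hq0).subset fun w hw => ?_
  change w.asIdeal ∣ _
  rw [Ideal.dvd_span_singleton]
  exact hw

omit [NumberField F] in
theorem sUD_exists_prime_mem (w : HeightOneSpectrum (𝓞 F)) :
    ∃ q : Nat.Primes, (((q : Nat.Primes) : ℕ) : 𝓞 F) ∈ w.asIdeal := by
  have := w.isPrime
  obtain ⟨l, hl, hlw⟩ := S14.exists_prime_natCast_mem w.asIdeal w.ne_bot
  exact ⟨⟨l, hl⟩, hlw⟩

omit [NumberField F] in
theorem sUD_notMem_primesOver {w : HeightOneSpectrum (𝓞 F)} {q : Nat.Primes} (hq : q ∉ S)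
    (hw : (((q : Nat.Primes) : ℕ) : 𝓞 F) ∈ w.asIdeal) : w ∉ sUD_primesOver F S := by
  rintro ⟨q', hq'S, hq'w⟩
  have hne : (q : ℕ) ≠ (q' : ℕ) := fun h => hq (by rwa [Subtype.ext h])
  have hcop : Nat.Coprime (q : ℕ) (q' : ℕ) := (Nat.coprime_primes q.2 q'.2).2 hne
  obtain ⟨a, b, hab⟩ := Nat.isCoprime_iff_coprime.2 hcop
  have h1 : (1 : 𝓞 F) ∈ w.asIdeal := by
    have e : (1 : 𝓞 F) = (a : 𝓞 F) * (((q : ℕ)) : 𝓞 F) + (b : 𝓞 F) * (((q' : ℕ)) : 𝓞 F) := by
      have := congrArg (Int.cast : ℤ → 𝓞 F) hab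
      push_cast at this
      exact this.symm
    rw [e]
    exact add_mem (Ideal.mul_mem_left _ _ hw) (Ideal.mul_mem_left _ _ hq'w)
  exact (Ideal.ne_top_iff_one _).1 w.isPrime.ne_top h1

/-- **`T`-units in the valuation-subring language.** -/
theorem sUD_mem_unit_iff (x : Fˣ) :
    x ∈ (sUD_primesOver F S).unit F ↔ ∀ q : Nat.Primes, q ∉ S → ∀ A : ValuationSubring Qb,
      A.LiesOverPrime (q : ℕ) → (((x : F)) : Qb) ∈ A ∧ ((((x⁻¹ : Fˣ) : F)) : Qb) ∈ A := by
  constructor
  · intro hx q hq A hA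
    have key : ∀ w : HeightOneSpectrum (𝓞 F), (((q : Nat.Primes) : ℕ) : 𝓞 F) ∈ w.asIdeal →
        w.valuation F (x : F) = 1 := fun w hw => hx w (sUD_notMem_primesOver F S hq hw)
    refine ⟨sUD_mem_of_forall_valuation_le_one F q.2.ne_zero A hA x (fun w hw => (key w hw).le),
      sUD_mem_of_forall_valuation_le_one F q.2.ne_zero A hA _ (fun w hw => ?_)⟩
    rw [Units.val_inv_eq_inv_val, map_inv₀, key w hw, inv_one]
  · intro h w hw
    obtain ⟨q, hqw⟩ := sUD_exists_prime_mem F w
    have hq : q ∉ S := fun hqS => hw ⟨q, hqS, hqw⟩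
    have h1 : w.valuation F (x : F) ≤ 1 :=
      sUD_valuation_le_one_of_forall_mem F x (fun A hA => (h q hq A hA).1) w hqw
    have h2 : w.valuation F ((x⁻¹ : Fˣ) : F) ≤ 1 :=
      sUD_valuation_le_one_of_forall_mem F _ (fun A hA => (h q hq A hA).2) w hqw
    refine le_antisymm h1 ?_
    have h3 : w.valuation F (x : F) * w.valuation F ((x⁻¹ : Fˣ) : F) = 1 := by
      rw [← map_mul, ← Units.val_mul, mul_inv_cancel, Units.val_one, map_one]
    calc (1 : _) = w.valuation F (x : F) * w.valuation F ((x⁻¹ : Fˣ) : F) := h3.symm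
      _ ≤ w.valuation F (x : F) * 1 := mul_le_mul' le_rfl h2
      _ = w.valuation F (x : F) := mul_one _

/-- **`E_S ∩ Fˣ` is the group of `T`-units of `F`**, `T` the primes of `F` over `S`
(`F` unramified outside `S`). -/
theorem sUD_map_mem_ES_iff (hF : F.IsUnramifiedOutside S) (x : Fˣ) :
    Units.map (algebraMap F Qb : F →* Qb) x ∈ ES S ↔ x ∈ (sUD_primesOver F S).unit F := by
  rw [sUD_mem_unit_iff]
  constructor
  · intro h
    exact h.2
  · intro h
    exact sUR_mem_ES_of_mem S hF (x : F).2 h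

end Units

section Engine

variable (F : IntermediateField ℚ Qb) [NumberField F] (S : Finset Nat.Primes)

/-- the subgroup `E_S ∩ Fˣ` of `E_S`. -/
def ESF : Subgroup (ES S) where
  carrier := {x | (((x : Qbˣ)) : Qb) ∈ F}
  mul_mem' := by
    intro x y hx hy
    change ((((x * y : ES S) : Qbˣ)) : Qb) ∈ F
    rw [Subgroup.coe_mul, Units.val_mul]
    exact mul_mem hx hy
  one_mem' := by
    change ((((1 : ES S) : Qbˣ)) : Qb) ∈ F
    rw [Subgroup.coe_one, Units.val_one]
    exact one_mem _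
  inv_mem' := by
    intro x hx
    change ((((x⁻¹ : ES S) : Qbˣ)) : Qb) ∈ F
    rw [Subgroup.coe_inv, Units.val_inv_eq_inv_val]
    exact inv_mem hx

omit [NumberField F] in
theorem mem_ESF {x : ES S} : x ∈ ESF F S ↔ (((x : Qbˣ)) : Qb) ∈ F := Iff.rfl

/-- the map from the `T`-units of `F` to `E_S ∩ Fˣ`. -/
noncomputable def sUD_unitHom (hF : F.IsUnramifiedOutside S) :
    (sUD_primesOver F S).unit F →* ESF F S where
  toFun u := ⟨⟨Units.map (algebraMap F Qb : F →* Qb) u, (sUD_map_mem_ES_iff F S hF u).2 u.2⟩,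
    ((u : Fˣ) : F).2⟩
  map_one' := by
    apply Subtype.ext
    apply Subtype.ext
    simp
  map_mul' u v := by
    apply Subtype.ext
    apply Subtype.ext
    simp

theorem sUD_unitHom_coe (hF : F.IsUnramifiedOutside S) (u : (sUD_primesOver F S).unit F) :
    ((((sUD_unitHom F S hF u : ESF F S) : ES S) : Qbˣ) : Qb) = (((u : Fˣ) : F) : Qb) := rfl

theorem sUD_unitHom_bijective (hF : F.IsUnramifiedOutside S) :
    Function.Bijective (sUD_unitHom F S hF) := by
  constructor
  · intro u v huv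
    have h := congrArg (fun t : ESF F S => (((t : ES S) : Qbˣ) : Qb)) huv
    simp only [sUD_unitHom_coe] at h
    exact Subtype.ext (Units.ext (Subtype.ext h))
  · intro y
    have hy : ((((y : ES S) : Qbˣ)) : Qb) ∈ F := y.2
    have hy0 : (⟨_, hy⟩ : F) ≠ 0 := by
      intro h0
      exact ((y : ES S) : Qbˣ).ne_zero (congrArg Subtype.val h0)
    set x : Fˣ := Units.mk0 ⟨_, hy⟩ hy0 with hx
    have hmap : Units.map (algebraMap F Qb : F →* Qb) x = ((y : ES S) : Qbˣ) :=
      Units.ext rfl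
    have hxT : x ∈ (sUD_primesOver F S).unit F := by
      rw [← sUD_map_mem_ES_iff F S hF, hmap]
      exact (y : ES S).2
    refine ⟨⟨x, hxT⟩, ?_⟩
    apply Subtype.ext
    apply Subtype.ext
    exact hmap

/-- **`E_S ∩ Fˣ ≃ T`-units of `F`.** -/
noncomputable def sUD_unitEquiv (hF : F.IsUnramifiedOutside S) :
    (sUD_primesOver F S).unit F ≃* ESF F S :=
  MulEquiv.ofBijective (sUD_unitHom F S hF) (sUD_unitHom_bijective F S hF)

/-- **Dirichlet count**: `[U : U^p] = p ^ (|T| + #(infinite places))` for `U = T`-units of `F`,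
when `F` contains a primitive `p`-th root of unity. -/
theorem sUD_index_range_pow {p : ℕ} [Fact p.Prime] {ζ : F} (hζ : IsPrimitiveRoot ζ p) :
    (powMonoidHom p : (sUD_primesOver F S).unit F →* (sUD_primesOver F S).unit F).range.index =
      p ^ ((sUD_finite_primesOver F S).toFinset.card + Fintype.card (InfinitePlace F)) := by
  have h := index_range_powMonoidHom_sUnit F (sUD_finite_primesOver F S).toFinset hζ
  have e : ((sUD_finite_primesOver F S).toFinset : Set (HeightOneSpectrum (𝓞 F))) =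
      sUD_primesOver F S := Set.Finite.coe_toFinset _
  unfold sUnit at h
  rw [e] at h
  exact h

open Rep in
/-- the invariants of `Gal(Qb/F)` on `E_S` are `E_S ∩ Fˣ`. -/
noncomputable def sUD_invEquiv :
    Additive (ESF F S) ≃+ (res F.fixingSubgroup.subtype (ESRep S)).ρ.invariants where
  toFun x := ⟨Additive.ofMul ((x.toMul : ESF F S) : ES S), fun g =>
    (sUR_ESRep_ρ_eq_iff S F (Additive.ofMul ((x.toMul : ESF F S) : ES S))).2
      (x.toMul : ESF F S).2 g.1 g.2⟩
  invFun a := Additive.ofMul (⟨(a.1 : Additive (ES S)).toMul,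
    (sUR_ESRep_ρ_eq_iff S F a.1).1 (fun g hg => a.2 ⟨g, hg⟩)⟩ : ESF F S)
  left_inv _ := rfl
  right_inv _ := rfl
  map_add' _ _ := rfl

open Rep in
/-- **`Hlc⁰(Gal(Qb/F), E_S) ≃ T`-units of `F`** (`F` unramified outside `S`). -/
noncomputable def sUD_Hlc0Equiv (hF : F.IsUnramifiedOutside S) :
    Hlc ((famS S).restrict F.fixingSubgroup) (res F.fixingSubgroup.subtype (ESRep S)) 0 ≃+
      Additive ((sUD_primesOver F S).unit F) :=
  ((Hlc0Equiv ((famS S).restrict F.fixingSubgroup)
      (res F.fixingSubgroup.subtype (ESRep S))).toAddEquiv.trans (sUD_invEquiv F S).symm).trans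
    (MulEquiv.toAdditive (sUD_unitEquiv F S hF).symm)

theorem sUD_index_range_nsmul_congr {A B : Type*} [AddCommGroup A] [AddCommGroup B] (e : A ≃+ B)
    (n : ℕ) : (nsmulAddMonoidHom n : A →+ A).range.index =
      (nsmulAddMonoidHom n : B →+ B).range.index := by
  have h : (nsmulAddMonoidHom n : B →+ B).range =
      (nsmulAddMonoidHom n : A →+ A).range.map (e : A →+ B) := by
    ext b
    constructor
    · rintro ⟨b', rfl⟩
      exact ⟨n • e.symm b', ⟨e.symm b', rfl⟩, by simp⟩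
    · rintro ⟨a, ⟨a', rfl⟩, rfl⟩
      exact ⟨e a', by simp⟩
  rw [h]
  exact (AddSubgroup.index_map_equiv _ e).symm

open Rep in
/-- **the count on `Hlc⁰`**: `[Hlc⁰(Gal(Qb/F), E_S) : p] = p ^ (|T| + #(infinite places of F))`. -/
theorem sUD_index_range_nsmul_Hlc0 (hF : F.IsUnramifiedOutside S) {p : ℕ} [Fact p.Prime] {ζ : F}
    (hζ : IsPrimitiveRoot ζ p) :
    (nsmulAddMonoidHom p :
      Hlc ((famS S).restrict F.fixingSubgroup) (res F.fixingSubgroup.subtype (ESRep S)) 0 →+
      Hlc ((famS S).restrict F.fixingSubgroup) (res F.fixingSubgroup.subtype (ESRep S)) 0).range.index =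
      p ^ ((sUD_finite_primesOver F S).toFinset.card + Fintype.card (InfinitePlace F)) := by
  rw [sUD_index_range_nsmul_congr (sUD_Hlc0Equiv F S hF) p]
  have h := index_range_nsmul_sUnit F (sUD_finite_primesOver F S).toFinset hζ
  have e : ((sUD_finite_primesOver F S).toFinset : Set (HeightOneSpectrum (𝓞 F))) =
      sUD_primesOver F S := Set.Finite.coe_toFinset _
  unfold sUnit at h
  rw [e] at h
  exact h

end Engine

section NF

/-- a field unramified outside `S` (in the prelude's sense) is a number field. -/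
theorem sUD_numberField_of_isUnramifiedOutside {F : IntermediateField ℚ Qb} {S : Finset Nat.Primes}
    (hF : F.IsUnramifiedOutside S) : NumberField F :=
  haveI := hF.1
  { to_charZero := inferInstance, to_finiteDimensional := inferInstance }

end NF

end Fermat.Agent.PT
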