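import Mathlib

/-!
# S55, GLOBAL TOP: the abstract diagram chases (pure algebra)

Model-agnostic derivation of the global outputs `H³(V, μ_p) = 0`, `rank locRes² + 1 ≥ l²`,
`ker locRes² ≅ H¹(V, E_S)/p`, `|H¹(V, μ_p)| = |E_S(K)/p| · |H¹(V, E_S)[p]|` from the long exact
sequences of the Kummer sequence `0 → μ_p → E_S → E_S → 0` and of the idele sequence
`0 → E_S → J_S → C_S → 0`, with exactness in `∃`-form (as exported by `PT/SmoothLES.lean`).

Notation in the statements: `E_i = Hⁱ(V, E_S)`, `J_i = Hⁱ(V, J_S)`, `C_i = Hⁱ(V, C_S)`,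
`M_i = Hⁱ(V, μ_p)`, `Mv v = H²(V_v, μ_p)`, `Lv v = H²(V_v, K̄_vˣ)`.

All names are prefixed `topChase_`.
-/

set_option autoImplicit false

namespace Fermat.Agent.PT

section Divisible

variable (p : ℕ) {J C E : Type*} [AddCommGroup J] [AddCommGroup C] [AddCommGroup E]

/-- **(T1)** if `J` is `p`-divisible and `π` maps `J[p]` onto `C[p]`, then `ker π` is
`p`-divisible. -/
theorem topChase_ker_divisible (π : J →+ C)
    (hdiv : ∀ y : J, ∃ y', p • y' = y)
    (hsurj : ∀ c : C, p • c = 0 → ∃ y : J, p • y = 0 ∧ π y = c)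
    (y : J) (hy : π y = 0) : ∃ y', π y' = 0 ∧ p • y' = y := by
  obtain ⟨y1, rfl⟩ := hdiv y
  have h1 : p • π y1 = 0 := by rw [← map_nsmul]; exact hy
  obtain ⟨z, hz, hzπ⟩ := hsurj _ h1
  exact ⟨y1 - z, by rw [map_sub, hzπ, sub_self], by rw [smul_sub, hz, sub_zero]⟩

/-- **(T2)** `E ≅ ker π` is `p`-divisible (`E = H²(V, E_S)`, `j` injective because
`H¹(V, C_S) = 0`). -/
theorem topChase_divisible_of_exact (j : E →+ J) (π : J →+ C) (hj : Function.Injective j)
    (hπj : ∀ e, π (j e) = 0) (hex : ∀ y, π y = 0 → ∃ e, j e = y)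
    (hdiv : ∀ y : J, ∃ y', p • y' = y)
    (hsurj : ∀ c : C, p • c = 0 → ∃ y : J, p • y = 0 ∧ π y = c) (e : E) :
    ∃ e', p • e' = e := by
  obtain ⟨y', hy', hpy'⟩ := topChase_ker_divisible p π hdiv hsurj (j e) (hπj e)
  obtain ⟨e', rfl⟩ := hex y' hy'
  exact ⟨e', hj (by rw [map_nsmul, hpy'])⟩

/-- **(T3)** `E₃[p] = 0` from `J₃[p] = 0`, `J₂` `p`-divisible and `J₂[p] ↠ C₂[p]`. -/
theorem topChase_torsion_eq_zero {E3 J3 : Type*} [AddCommGroup E3] [AddCommGroup J3]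
    (π : J →+ C) (δ : C →+ E3) (j3 : E3 →+ J3)
    (hδπ : ∀ y, δ (π y) = 0) (hexC : ∀ c, δ c = 0 → ∃ y, π y = c)
    (hexE : ∀ e, j3 e = 0 → ∃ c, δ c = e)
    (hJ3 : ∀ y : J3, p • y = 0 → y = 0)
    (hdiv : ∀ y : J, ∃ y', p • y' = y)
    (hsurj : ∀ c : C, p • c = 0 → ∃ y : J, p • y = 0 ∧ π y = c)
    (e : E3) (he : p • e = 0) : e = 0 := by
  have h1 : j3 e = 0 := hJ3 _ (by rw [← map_nsmul, he, map_zero])
  obtain ⟨c, rfl⟩ := hexE e h1
  have h2 : δ (p • c) = 0 := by rw [map_nsmul]; exact he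
  obtain ⟨y, hy⟩ := hexC _ h2
  obtain ⟨y', rfl⟩ := hdiv y
  have h3 : p • (c - π y') = 0 := by rw [smul_sub, ← map_nsmul, hy, sub_self]
  obtain ⟨z, -, hz⟩ := hsurj _ h3
  have h4 : c = π (y' + z) := by rw [map_add, hz]; abel
  rw [h4, hδπ]

/-- **(T4)** `M₃ = 0` from the Kummer sequence `E₂ -∂→ M₃ -i→ E₃`, `E₂` `p`-divisible,
`E₃[p] = 0`, `p • M₃ = 0`. -/
theorem topChase_eq_zero_of_kummer {M3 E2 E3 : Type*} [AddCommGroup M3] [AddCommGroup E2]
    [AddCommGroup E3] (d : E2 →+ M3) (i : M3 →+ E3)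
    (hM : ∀ m : M3, p • m = 0) (hex : ∀ m, i m = 0 → ∃ e, d e = m)
    (hdivE : ∀ e : E2, ∃ e', p • e' = e) (htors : ∀ e : E3, p • e = 0 → e = 0) (m : M3) :
    m = 0 := by
  have h1 : i m = 0 := htors _ (by rw [← map_nsmul, hM, map_zero])
  obtain ⟨e, rfl⟩ := hex m h1
  obtain ⟨e', rfl⟩ := hdivE e
  rw [map_nsmul, hM]

/-- **(G1), assembled**: `H³(V, μ_p) = 0`. -/
theorem topChase_H3_eq_zero {M3 E2 E3 J3 : Type*} [AddCommGroup M3] [AddCommGroup E2]
    [AddCommGroup E3] [AddCommGroup J3]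
    (d : E2 →+ M3) (i : M3 →+ E3) (j : E2 →+ J) (π : J →+ C) (δ : C →+ E3) (j3 : E3 →+ J3)
    (hM : ∀ m : M3, p • m = 0) (hexM : ∀ m, i m = 0 → ∃ e, d e = m)
    (hj : Function.Injective j) (hπj : ∀ e, π (j e) = 0) (hexJ : ∀ y, π y = 0 → ∃ e, j e = y)
    (hδπ : ∀ y, δ (π y) = 0) (hexC : ∀ c, δ c = 0 → ∃ y, π y = c)
    (hexE : ∀ e, j3 e = 0 → ∃ c, δ c = e)
    (hJ3 : ∀ y : J3, p • y = 0 → y = 0)
    (hdiv : ∀ y : J, ∃ y', p • y' = y)
    (hsurj : ∀ c : C, p • c = 0 → ∃ y : J, p • y = 0 ∧ π y = c) (m : M3) : m = 0 :=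
  topChase_eq_zero_of_kummer p d i hM hexM
    (topChase_divisible_of_exact p j π hj hπj hexJ hdiv hsurj)
    (topChase_torsion_eq_zero p π δ j3 hδπ hexC hexE hJ3 hdiv hsurj) m

end Divisible

section Image

variable (p : ℕ) {ι : Type*} [Finite ι] {Mv Lv : ι → Type*} [∀ v, AddCommGroup (Mv v)]
  [∀ v, AddCommGroup (Lv v)] {M2 E2 J C : Type*} [AddCommGroup M2] [AddCommGroup E2]
  [AddCommGroup J] [AddCommGroup C]

/-- **(G2'), quotient form**: the cokernel of `loc` (`= locRes²`) injects into `C₂[p]`, hence has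
at most `p` elements. -/
theorem topChase_card_quotient_le [∀ v, Finite (Mv v)]
    (loc : M2 →+ ∀ v, Mv v) (iv : ∀ v, Mv v →+ Lv v) (i2 : M2 →+ E2) (j : E2 →+ J)
    (lam : J →+ ∀ v, Lv v) (π : J →+ C)
    (hsq : ∀ m v, iv v (loc m v) = lam (j (i2 m)) v)
    (hkum : ∀ e : E2, p • e = 0 → ∃ m, i2 m = e)
    (hj : Function.Injective j) (hexJ : ∀ y, π y = 0 → ∃ e, j e = y)
    (hivinj : ∀ v, Function.Injective (iv v))
    (hMv : ∀ v (m : Mv v), p • m = 0)
    (hA4 : ∀ l : ∀ v, Lv v, (∀ v, p • l v = 0) → ∃ y : J, p • y = 0 ∧ lam y = l)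
    (hC : ∀ s : Finset C, (∀ c ∈ s, p • c = 0) → s.card ≤ p) :
    Nat.card ((∀ v, Mv v) ⧸ loc.range) ≤ p := by
  classical
  -- choose representatives and lifts
  have hlift : ∀ x : ∀ v, Mv v, ∃ y : J, p • y = 0 ∧ lam y = fun v => iv v (x v) := fun x =>
    hA4 _ fun v => by rw [← map_nsmul, hMv, map_zero]
  choose Y hY1 hY2 using hlift
  let f : ((∀ v, Mv v) ⧸ loc.range) → C := fun q => π (Y (Quotient.out q))
  have hfp : ∀ q, p • f q = 0 := fun q => by
    show p • π (Y (Quotient.out q)) = 0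
    rw [← map_nsmul, hY1, map_zero]
  have hfinj : Function.Injective f := by
    intro q q' hqq'
    have h1 : π (Y (Quotient.out q) - Y (Quotient.out q')) = 0 := by
      rw [map_sub]; exact sub_eq_zero.2 hqq'
    obtain ⟨e, he⟩ := hexJ _ h1
    have hpe : p • e = 0 := hj (by rw [map_nsmul, he, smul_sub, hY1, hY1, sub_self, map_zero])
    obtain ⟨m, rfl⟩ := hkum e hpe
    have h2 : loc m = Quotient.out q - Quotient.out q' := by
      funext v
      apply hivinj v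
      rw [hsq, he, map_sub, Pi.sub_apply, hY2, hY2, Pi.sub_apply, map_sub]
    have h3 : (QuotientAddGroup.mk (Quotient.out q) : (∀ v, Mv v) ⧸ loc.range) =
        QuotientAddGroup.mk (Quotient.out q') := by
      rw [QuotientAddGroup.eq]
      have : -Quotient.out q + Quotient.out q' = loc (-m) := by
        rw [map_neg, h2]; abel
      rw [this]
      exact ⟨-m, rfl⟩
    have h4 : ∀ r : (∀ v, Mv v) ⧸ loc.range, (QuotientAddGroup.mk (Quotient.out r) :
        (∀ v, Mv v) ⧸ loc.range) = r := fun r => Quotient.out_eq r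
    rw [← h4 q, ← h4 q', h3]
  have : Finite ((∀ v, Mv v) ⧸ loc.range) := inferInstance
  have := Fintype.ofFinite ((∀ v, Mv v) ⧸ loc.range)
  have h5 := hC (Finset.univ.image f) (fun c hc => by
    obtain ⟨q, -, rfl⟩ := Finset.mem_image.1 hc
    exact hfp q)
  rw [Finset.card_image_of_injective _ hfinj, Finset.card_univ] at h5
  rwa [Nat.card_eq_fintype_card]

/-- **(G2'), cardinality form**: `|∏_v H²(V_v, μ_p)| ≤ p · |range locRes²|`. -/
theorem topChase_card_le [∀ v, Finite (Mv v)]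
    (loc : M2 →+ ∀ v, Mv v) (iv : ∀ v, Mv v →+ Lv v) (i2 : M2 →+ E2) (j : E2 →+ J)
    (lam : J →+ ∀ v, Lv v) (π : J →+ C)
    (hsq : ∀ m v, iv v (loc m v) = lam (j (i2 m)) v)
    (hkum : ∀ e : E2, p • e = 0 → ∃ m, i2 m = e)
    (hj : Function.Injective j) (hexJ : ∀ y, π y = 0 → ∃ e, j e = y)
    (hivinj : ∀ v, Function.Injective (iv v))
    (hMv : ∀ v (m : Mv v), p • m = 0)
    (hA4 : ∀ l : ∀ v, Lv v, (∀ v, p • l v = 0) → ∃ y : J, p • y = 0 ∧ lam y = l)
    (hC : ∀ s : Finset C, (∀ c ∈ s, p • c = 0) → s.card ≤ p) :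
    Nat.card (∀ v, Mv v) ≤ p * Nat.card loc.range := by
  rw [AddSubgroup.card_eq_card_quotient_mul_card_addSubgroup loc.range]
  exact Nat.mul_le_mul_right _
    (topChase_card_quotient_le p loc iv i2 j lam π hsq hkum hj hexJ hivinj hMv hA4 hC)

omit [Finite ι] in
/-- **(Ш²)** `locRes² m = 0 ↔ m` dies in `H²(V, E_S)` (Hasse principle for `H²(V, E_S)[p]`). -/
theorem topChase_loc_eq_zero_iff
    (loc : M2 →+ ∀ v, Mv v) (iv : ∀ v, Mv v →+ Lv v) (i2 : M2 →+ E2) (j : E2 →+ J)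
    (lam : J →+ ∀ v, Lv v)
    (hsq : ∀ m v, iv v (loc m v) = lam (j (i2 m)) v)
    (hj : Function.Injective j) (hivinj : ∀ v, Function.Injective (iv v))
    (hM2 : ∀ m : M2, p • m = 0)
    (hlaminj : ∀ y : J, p • y = 0 → lam y = 0 → y = 0) (m : M2) :
    loc m = 0 ↔ i2 m = 0 := by
  constructor
  · intro h
    apply hj
    rw [map_zero]
    apply hlaminj
    · rw [← map_nsmul, ← map_nsmul, hM2, map_zero, map_zero]
    · funext v
      rw [← hsq, h, Pi.zero_apply, map_zero, Pi.zero_apply]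
  · intro h
    funext v
    apply hivinj v
    rw [hsq, h, map_zero, map_zero, Pi.zero_apply, Pi.zero_apply, map_zero]

end Image

section Count

variable (p : ℕ)

/-- the multiplication-by-`p` endomorphism. -/
abbrev topChase_mulP (A : Type*) [AddCommGroup A] : A →+ A := nsmulAddMonoidHom p

theorem topChase_mulP_apply {A : Type*} [AddCommGroup A] (a : A) :
    topChase_mulP p A a = p • a := rfl

/-- for `E -(p)→ E -d→ M -i→ E'` exact at `E` (second) and `M`:
`|ker i| = |E / pE|`. -/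
theorem topChase_card_ker_eq {E M E' : Type*} [AddCommGroup E] [AddCommGroup M]
    [AddCommGroup E'] (d : E →+ M) (i : M →+ E')
    (hid : ∀ e, i (d e) = 0) (hexM : ∀ m, i m = 0 → ∃ e, d e = m)
    (hM : ∀ m : M, p • m = 0) (hkerd : ∀ e, d e = 0 → ∃ e', p • e' = e) :
    Nat.card i.ker = Nat.card (E ⧸ (topChase_mulP p E).range) := by
  have hker : d.ker = (topChase_mulP p E).range := by
    ext e
    constructor
    · intro he
      obtain ⟨e', rfl⟩ := hkerd e he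
      exact ⟨e', rfl⟩
    · rintro ⟨e', rfl⟩
      show d (p • e') = 0
      rw [map_nsmul, hM]
  have hrange : d.range = i.ker := by
    ext m
    constructor
    · rintro ⟨e, rfl⟩
      exact hid e
    · intro hm
      exact hexM m hm
  rw [← hrange, ← hker]
  exact Nat.card_congr (QuotientAddGroup.quotientKerEquivRange d).symm.toEquiv

/-- **(Ш²), cardinality**: `|ker locRes²| = |H¹(V, E_S) / p|`. -/
theorem topChase_card_ker_loc {ι : Type*} {Mv Lv : ι → Type*} [∀ v, AddCommGroup (Mv v)]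
    [∀ v, AddCommGroup (Lv v)] {M2 E1 E2 J : Type*} [AddCommGroup M2] [AddCommGroup E1]
    [AddCommGroup E2] [AddCommGroup J]
    (loc : M2 →+ ∀ v, Mv v) (iv : ∀ v, Mv v →+ Lv v) (d1 : E1 →+ M2) (i2 : M2 →+ E2)
    (j : E2 →+ J) (lam : J →+ ∀ v, Lv v)
    (hsq : ∀ m v, iv v (loc m v) = lam (j (i2 m)) v)
    (hj : Function.Injective j) (hivinj : ∀ v, Function.Injective (iv v))
    (hM2 : ∀ m : M2, p • m = 0)
    (hlaminj : ∀ y : J, p • y = 0 → lam y = 0 → y = 0)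
    (hid : ∀ e, i2 (d1 e) = 0) (hexM : ∀ m, i2 m = 0 → ∃ e, d1 e = m)
    (hkerd : ∀ e, d1 e = 0 → ∃ e', p • e' = e) :
    Nat.card loc.ker = Nat.card (E1 ⧸ (topChase_mulP p E1).range) := by
  have h : loc.ker = i2.ker := by
    ext m
    exact topChase_loc_eq_zero_iff p loc iv i2 j lam hsq hj hivinj hM2 hlaminj m
  rw [h]
  exact topChase_card_ker_eq p d1 i2 hid hexM hM2 hkerd

/-- **(H¹)** `|H¹(V, μ_p)| = |E₀ / p| · |E₁[p]|` from `E₀ -(p)→ E₀ -d→ M₁ -i→ E₁ -(p)→ E₁`. -/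
theorem topChase_card_H1 {E0 M1 E1 : Type*} [AddCommGroup E0] [AddCommGroup M1]
    [AddCommGroup E1] (d : E0 →+ M1) (i : M1 →+ E1)
    (hid : ∀ e, i (d e) = 0) (hexM : ∀ m, i m = 0 → ∃ e, d e = m)
    (hM : ∀ m : M1, p • m = 0) (hkerd : ∀ e, d e = 0 → ∃ e', p • e' = e)
    (hexE : ∀ e : E1, p • e = 0 → ∃ m, i m = e) :
    Nat.card M1 = Nat.card (E0 ⧸ (topChase_mulP p E0).range) *
      Nat.card (topChase_mulP p E1).ker := by
  have hrange : i.range = (topChase_mulP p E1).ker := by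
    ext e
    constructor
    · rintro ⟨m, rfl⟩
      show p • i m = 0
      rw [← map_nsmul, hM, map_zero]
    · intro he
      exact hexE e he
  rw [AddSubgroup.card_eq_card_quotient_mul_card_addSubgroup i.ker,
    topChase_card_ker_eq p d i hid hexM hM hkerd, ← hrange,
    Nat.card_congr (QuotientAddGroup.quotientKerEquivRange i).toEquiv, mul_comm]

/-- for a finite abelian group `|A / pA| = |A[p]|`. -/
theorem topChase_card_quotient_eq_card_torsion (A : Type*) [AddCommGroup A] [Finite A] :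
    Nat.card (A ⧸ (topChase_mulP p A).range) = Nat.card (topChase_mulP p A).ker := by
  have h1 := AddSubgroup.card_eq_card_quotient_mul_card_addSubgroup (topChase_mulP p A).range
  have h2 := AddSubgroup.card_eq_card_quotient_mul_card_addSubgroup (topChase_mulP p A).ker
  rw [Nat.card_congr (QuotientAddGroup.quotientKerEquivRange (topChase_mulP p A)).toEquiv,
    mul_comm] at h2
  have h3 : 0 < Nat.card (topChase_mulP p A).range := Nat.card_pos
  exact Nat.eq_of_mul_eq_mul_right h3 (h1.symm.trans h2)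

end Count

end Fermat.Agent.PT
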