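import Fermat.Agent.CFT.PT.SmoothBridge
import Fermat.Agent.CFT.S14.CycloField
import Fermat.Agent.CFT.Duality.S55Reduce

/-!
# S55 BRIDGE (B0'): the Tate twist `M.dualTwist (cycloChar p)` has a level, and the reduction of
S55 to the engine

* `cycloExp_eq_one_of_mem_inertia`, `cycloChar_eq_one_of_mem_inertia` : the mod `p` cyclotomic
  character is trivial on inertia at `q ≠ p`.
* `cycloChar_eq_one_iff` : `cycloChar p s = 1 ↔ s ∈ (cycloKf p).fixingSubgroup`.
* `hsm_dualTwist`, `hMur_dualTwist`, `nonempty_sLevel_dualTwist`.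
* `S55_of_lcSha` : S55 follows from `finrank lcSha S M' 1 = finrank lcSha S M 2` (+ finiteness)
  for the engine-side Tate–Shafarevich groups.
-/

namespace Fermat.Agent.PT

open CategoryTheory groupCohomology Rep Fermat.Agent.CFT Fermat.Agent.CFT.S14 ExtCitation Module

local notation "Γℚ" => (AlgebraicClosure ℚ ≃ₐ[ℚ] AlgebraicClosure ℚ)

variable (p : ℕ) [hp : Fact p.Prime]

theorem cycloChar_eq_one_iff_cycloExp (s : Γℚ) : cycloChar p s = 1 ↔ cycloExp p s = 1 := by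
  have hp1 : Fact (1 < p) := ⟨hp.out.one_lt⟩
  have hp0 : NeZero p := ⟨hp.out.ne_zero⟩
  rw [← Units.val_inj, coe_cycloChar, Units.val_one]
  constructor
  · intro h
    have h1 := congrArg ZMod.val h
    rwa [ZMod.val_natCast, ZMod.val_one, Nat.mod_eq_of_lt (cycloExp_lt p s)] at h1
  · intro h
    rw [h, Nat.cast_one]

theorem cycloChar_eq_one_iff (s : Γℚ) : cycloChar p s = 1 ↔ s ∈ (cycloKf p).fixingSubgroup := by
  rw [cycloChar_eq_one_iff_cycloExp, mem_fixingSubgroup_cycloKf_iff]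

/-- The mod `p` cyclotomic character is trivial on the inertia groups at primes `q ≠ p`. -/
theorem cycloExp_eq_one_of_mem_inertia {q : ℕ} (hqp : Nat.Coprime q p)
    (A : ValuationSubring (AlgebraicClosure ℚ)) (hA : A.LiesOverPrime q) {g : Γℚ}
    (hg : g ∈ A.inertiaSubgroupIn ℚ) : cycloExp p g = 1 := by
  by_contra hc
  set ζ := zetaQbar p with hζdef
  have hζ : IsPrimitiveRoot ζ p := zetaQbar_spec p
  have hζp : ζ ^ p = 1 := hζ.pow_eq_one
  have hp1 : 1 < p := hp.out.one_lt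
  have hζ0 : ζ ≠ 0 := hζ.ne_zero hp.out.ne_zero
  -- `ζ⁻¹ = ζ^(p-1)` and both lie in `A`
  have hinv : ζ⁻¹ = ζ ^ (p - 1) := by
    have h1 : ζ ^ (p - 1) * ζ = 1 := by
      rw [← pow_succ, Nat.sub_add_cancel hp1.le, hζp]
    exact (eq_inv_of_mul_eq_one_left h1).symm
  have hζA : ζ ∈ A := by
    rcases A.mem_or_inv_mem ζ with h | h
    · exact h
    · have : ζ = (ζ⁻¹) ^ (p - 1) := by
        rw [inv_pow, ← hinv, inv_inv]
      rw [this]
      exact pow_mem h _
  have hζinvA : ζ⁻¹ ∈ A := by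
    rw [hinv]
    exact pow_mem hζA _
  -- the inertia condition
  have hin := ((mem_inertiaSubgroupIn_iff_forall (K := ℚ)).1 hg).2 ζ hζA
  rw [map_zetaQbar] at hin
  set c := cycloExp p g with hcdef
  -- `ω = ζ^c ζ⁻¹ ≠ 1`, `ω^p = 1`, `ω - 1 ∈ 𝔪_A`
  set ω := ζ ^ c * ζ⁻¹ with hωdef
  have hωA : ω ∈ A := mul_mem (pow_mem hζA _) hζinvA
  have hω1 : ω ≠ 1 := by
    intro h
    rw [hωdef, mul_inv_eq_one₀ hζ0] at h
    exact hc (hζ.pow_inj (cycloExp_lt p g) hp1 (by rw [h, pow_one]))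
  have hωp : ω ^ p = 1 := by
    rw [hωdef, mul_pow, ← pow_mul, mul_comm c p, pow_mul, hζp, one_pow, inv_pow, hζp, inv_one,
      mul_one]
  have hωsub : ω - 1 ∈ A.nonunits := by
    have : ω - 1 = (ζ ^ c - ζ) * ζ⁻¹ := by
      rw [hωdef, sub_mul, mul_inv_cancel₀ hζ0]
    rw [this, ValuationSubring.mem_nonunits_iff, map_mul]
    have h1 : A.valuation (ζ ^ c - ζ) < 1 := (ValuationSubring.mem_nonunits_iff (A := A)).1 hin
    have h2 : A.valuation ζ⁻¹ ≤ 1 := (A.valuation_le_one_iff _).2 hζinvA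
    exact mul_lt_one_of_nonneg_of_lt_one_left zero_le h1 h2
  -- work in the local ring `A`
  obtain ⟨hmem, hωI⟩ := (A.mem_nonunits_iff_exists_mem_maximalIdeal).1 hωsub
  set ω' : A := ⟨ω, hωA⟩ with hω'def
  have hω'I : ω' - 1 ∈ IsLocalRing.maximalIdeal A := by
    have : (⟨ω - 1, hmem⟩ : A) = ω' - 1 := Subtype.ext rfl
    rwa [this] at hωI
  have hω'p : ω' ^ p = 1 := Subtype.ext hωp
  have hω'1 : ω' - 1 ≠ 0 := by
    intro h
    exact hω1 (congrArg Subtype.val (sub_eq_zero.1 h))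
  have hgeom : ∑ i ∈ Finset.range p, ω' ^ i = 0 := by
    have h := mul_geom_sum ω' p
    rw [hω'p, sub_self] at h
    exact (mul_eq_zero.1 h).resolve_left hω'1
  have hpI : (p : A) ∈ IsLocalRing.maximalIdeal A := by
    have h1 : ∑ i ∈ Finset.range p, (ω' ^ i - 1) ∈ IsLocalRing.maximalIdeal A := by
      refine Ideal.sum_mem _ fun i _ => ?_
      obtain ⟨d, hd⟩ := sub_one_dvd_pow_sub_one ω' i
      rw [hd]
      exact Ideal.mul_mem_right _ _ hω'I
    rw [Finset.sum_sub_distrib, hgeom, zero_sub, Finset.sum_const, Finset.card_range,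
      nsmul_eq_mul, mul_one] at h1
    simpa using neg_mem h1
  have hqI : (q : A) ∈ IsLocalRing.maximalIdeal A := by
    obtain ⟨hmemq, hq⟩ := (A.mem_nonunits_iff_exists_mem_maximalIdeal).1 hA
    have : (⟨(q : AlgebraicClosure ℚ), hmemq⟩ : A) = (q : A) := Subtype.ext (by simp)
    rwa [this] at hq
  obtain ⟨a, b, hab⟩ := (Nat.isCoprime_iff_coprime.2 hqp)
  have h1I : (1 : A) ∈ IsLocalRing.maximalIdeal A := by
    have : (1 : A) = (a : A) * (q : A) + (b : A) * (p : A) := by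
      have := congrArg (Int.cast : ℤ → A) hab
      push_cast at this
      exact this.symm
    rw [this]
    exact add_mem (Ideal.mul_mem_left _ _ hqI) (Ideal.mul_mem_left _ _ hpI)
  exact (Ideal.ne_top_iff_one _).1 (IsLocalRing.maximalIdeal.isMaximal A).ne_top h1I

theorem cycloChar_eq_one_of_mem_inertia {q : ℕ} (hqp : Nat.Coprime q p)
    (A : ValuationSubring (AlgebraicClosure ℚ)) (hA : A.LiesOverPrime q) {g : Γℚ}
    (hg : g ∈ A.inertiaSubgroupIn ℚ) : cycloChar p g = 1 :=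
  (cycloChar_eq_one_iff_cycloExp p g).2 (cycloExp_eq_one_of_mem_inertia p hqp A hA hg)

variable {p}

/-- If `s` acts trivially on `M` and `χ_cyc(s) = 1`, then `s` acts trivially on `M^∨(1)`. -/
theorem dualTwist_ρ_eq_one {M : Rep (ZMod p) Γℚ} {s : Γℚ} (h1 : M.ρ s = 1)
    (h2 : cycloChar p s = 1) : (M.dualTwist (cycloChar p)).ρ s = 1 := by
  have h3 : M.ρ s⁻¹ = 1 := by
    have h : M.ρ s⁻¹ * M.ρ s = 1 := by rw [← map_mul, inv_mul_cancel, map_one]
    rwa [h1, mul_one] at h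
  refine LinearMap.ext fun f => ?_
  rw [Rep.dualTwist_ρ_apply, h2, h3, Units.val_one, one_smul]
  rfl

/-- Smoothness hypothesis of `S55` for the Tate twist of the dual. -/
theorem hsm_dualTwist (M : Rep (ZMod p) Γℚ) [FiniteDimensional (ZMod p) M]
    (hsm : ∀ m : M, ∃ F : IntermediateField ℚ (AlgebraicClosure ℚ), FiniteDimensional ℚ F ∧
      ∀ s ∈ F.fixingSubgroup, M.ρ s m = m) :
    ∀ f : M.dualTwist (cycloChar p), ∃ F : IntermediateField ℚ (AlgebraicClosure ℚ),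
      FiniteDimensional ℚ F ∧
      ∀ s ∈ F.fixingSubgroup, (M.dualTwist (cycloChar p)).ρ s f = f := by
  classical
  obtain ⟨F₁, hF₁fin, hF₁⟩ : ∃ F₁ : IntermediateField ℚ (AlgebraicClosure ℚ),
      FiniteDimensional ℚ F₁ ∧ ∀ s ∈ F₁.fixingSubgroup, M.ρ s = 1 := by
    choose F hFfin hF using hsm
    let b := Module.finBasis (ZMod p) M
    refine ⟨⨆ i, F (b i), ?_, fun s hs => ?_⟩
    · have := hFfin
      exact IntermediateField.finiteDimensional_iSup_of_finite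
    · refine b.ext fun i => ?_
      exact hF (b i) s
        (IntermediateField.fixingSubgroup_antitone (le_iSup (fun i => F (b i)) i) hs)
  intro f
  have := hF₁fin
  refine ⟨F₁ ⊔ cycloKf p, IntermediateField.finiteDimensional_sup F₁ (cycloKf p), fun s hs => ?_⟩
  rw [dualTwist_ρ_eq_one (hF₁ s (IntermediateField.fixingSubgroup_antitone le_sup_left hs))
    ((cycloChar_eq_one_iff p s).2 (IntermediateField.fixingSubgroup_antitone le_sup_right hs))]
  rfl

/-- Unramifiedness hypothesis of `S55` for the Tate twist of the dual (needs `p ∈ S`). -/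
theorem hMur_dualTwist (S : Finset Nat.Primes) (hpS : pPrime p ∈ S) (M : Rep (ZMod p) Γℚ)
    (hMur : ∀ q : Nat.Primes, q ∉ S → ∀ A : ValuationSubring (AlgebraicClosure ℚ),
      A.LiesOverPrime (q : ℕ) → ∀ g ∈ A.inertiaSubgroupIn ℚ, M.ρ g = 1) :
    ∀ q : Nat.Primes, q ∉ S → ∀ A : ValuationSubring (AlgebraicClosure ℚ),
      A.LiesOverPrime (q : ℕ) → ∀ g ∈ A.inertiaSubgroupIn ℚ,
        (M.dualTwist (cycloChar p)).ρ g = 1 := by
  intro q hq A hA g hg
  have hqp : Nat.Coprime (q : ℕ) p := by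
    refine (Nat.coprime_primes q.2 hp.out).2 fun h => hq ?_
    have : q = pPrime p := Subtype.ext h
    rwa [this]
  exact dualTwist_ρ_eq_one (hMur q hq A hA g hg) (cycloChar_eq_one_of_mem_inertia p hqp A hA hg)

/-- A level for the Tate twist of the dual. -/
theorem nonempty_sLevel_dualTwist (S : Finset Nat.Primes) (hpS : pPrime p ∈ S)
    (M : Rep (ZMod p) Γℚ) [FiniteDimensional (ZMod p) M]
    (hsm : ∀ m : M, ∃ F : IntermediateField ℚ (AlgebraicClosure ℚ), FiniteDimensional ℚ F ∧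
      ∀ s ∈ F.fixingSubgroup, M.ρ s m = m)
    (hMur : ∀ q : Nat.Primes, q ∉ S → ∀ A : ValuationSubring (AlgebraicClosure ℚ),
      A.LiesOverPrime (q : ℕ) → ∀ g ∈ A.inertiaSubgroupIn ℚ, M.ρ g = 1) :
    Nonempty (SLevel S (M.dualTwist (cycloChar p))) :=
  nonempty_sLevel S (M.dualTwist (cycloChar p)) (hsm_dualTwist M hsm)
    (hMur_dualTwist S hpS M hMur)

/-- Transport of a two-sided nondegenerate pairing along linear equivalences. -/
theorem exists_pairing_of_equiv {k V W V' W' : Type*} [CommRing k] [AddCommGroup V] [Module k V]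
    [AddCommGroup W] [Module k W] [AddCommGroup V'] [Module k V'] [AddCommGroup W'] [Module k W']
    (e₁ : V' ≃ₗ[k] V) (e₂ : W ≃ₗ[k] W') (B' : V' →ₗ[k] W' →ₗ[k] k)
    (hl : ∀ y, (∀ x, B' y x = 0) → y = 0) (hr : ∀ x, (∀ y, B' y x = 0) → x = 0) :
    ∃ B : V →ₗ[k] W →ₗ[k] k,
      (∀ y, (∀ x, B y x = 0) → y = 0) ∧ (∀ x, (∀ y, B y x = 0) → x = 0) := by
  refine ⟨(B'.compl₂ e₂.toLinearMap).comp e₁.symm.toLinearMap, fun y hy => ?_, fun x hx => ?_⟩
  · have h1 : e₁.symm y = 0 := by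
      refine hl _ fun x => ?_
      have := hy (e₂.symm x)
      simpa using this
    exact e₁.symm.map_eq_zero_iff.1 h1
  · have h1 : e₂ x = 0 := by
      refine hr _ fun y => ?_
      have := hx (e₁ y)
      simpa using this
    exact e₂.map_eq_zero_iff.1 h1

/-- **S55 from the engine, pairing form.**  A pairing between the engine-side Tate–Shafarevich
groups `lcSha S M^∨(1) 1` and `lcSha S M 2`, nondegenerate on both sides, gives the conclusion of
the frozen statement `S55`. -/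
theorem S55_of_lcSha_pairing (S : Finset Nat.Primes) (hpS : pPrime p ∈ S)
    (M : Rep (ZMod p) Γℚ) [FiniteDimensional (ZMod p) M]
    (hsm : ∀ m : M, ∃ F : IntermediateField ℚ (AlgebraicClosure ℚ), FiniteDimensional ℚ F ∧
      ∀ s ∈ F.fixingSubgroup, M.ρ s m = m)
    (hMur : ∀ q : Nat.Primes, q ∉ S → ∀ A : ValuationSubring (AlgebraicClosure ℚ),
      A.LiesOverPrime (q : ℕ) → ∀ g ∈ A.inertiaSubgroupIn ℚ, M.ρ g = 1)
    (B' : lcSha S (M.dualTwist (cycloChar p)) 1 →ₗ[ZMod p] lcSha S M 2 →ₗ[ZMod p] ZMod p)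
    (hl : ∀ y, (∀ x, B' y x = 0) → y = 0) (hr : ∀ x, (∀ y, B' y x = 0) → x = 0) :
    ∃ B : sha₁ S (M.dualTwist (cycloChar p)) →ₗ[ZMod p] sha₂ S M →ₗ[ZMod p] ZMod p,
      (∀ y, (∀ x, B y x = 0) → y = 0) ∧ (∀ x, (∀ y, B y x = 0) → x = 0) := by
  have h1 : Nonempty (SLevel S M) := nonempty_sLevel S M hsm hMur
  have h2 : Nonempty (SLevel S (M.dualTwist (cycloChar p))) :=
    nonempty_sLevel_dualTwist S hpS M hsm hMur
  obtain ⟨L₀⟩ := h1
  obtain ⟨L₀'⟩ := h2
  have e₂ : ↥(sha₂ S M) ≃ₗ[ZMod p] ↥(lcSha S M 2) := sha₂Equiv L₀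
  have e₁ : ↥(lcSha S (M.dualTwist (cycloChar p)) 1) ≃ₗ[ZMod p]
      ↥(sha₁ S (M.dualTwist (cycloChar p))) := sha₁Equiv L₀'
  exact exists_pairing_of_equiv e₁ e₂ B' hl hr

/-- **S55 from the engine, dimension form.** -/
theorem S55_of_lcSha_finrank (S : Finset Nat.Primes) (hpS : pPrime p ∈ S)
    (M : Rep (ZMod p) Γℚ) [FiniteDimensional (ZMod p) M]
    (hsm : ∀ m : M, ∃ F : IntermediateField ℚ (AlgebraicClosure ℚ), FiniteDimensional ℚ F ∧
      ∀ s ∈ F.fixingSubgroup, M.ρ s m = m)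
    (hMur : ∀ q : Nat.Primes, q ∉ S → ∀ A : ValuationSubring (AlgebraicClosure ℚ),
      A.LiesOverPrime (q : ℕ) → ∀ g ∈ A.inertiaSubgroupIn ℚ, M.ρ g = 1)
    (h₁ : Module.Finite (ZMod p) (lcSha S (M.dualTwist (cycloChar p)) 1))
    (h₂ : Module.Finite (ZMod p) (lcSha S M 2))
    (h : finrank (ZMod p) (lcSha S (M.dualTwist (cycloChar p)) 1) =
      finrank (ZMod p) (lcSha S M 2)) :
    ∃ B : sha₁ S (M.dualTwist (cycloChar p)) →ₗ[ZMod p] sha₂ S M →ₗ[ZMod p] ZMod p,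
      (∀ y, (∀ x, B y x = 0) → y = 0) ∧ (∀ x, (∀ y, B y x = 0) → x = 0) := by
  obtain ⟨B', hl, hr⟩ := exists_perfect_pairing_of_finrank_eq h
  exact S55_of_lcSha_pairing S hpS M hsm hMur B' hl hr

end Fermat.Agent.PT
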