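import Mathlib
import Fermat.Agent.CFT.PT.PlacesCount
import Fermat.Agent.CFT.PT.SUnitsDict
import Fermat.Agent.CFT.PT.TopChase
import Fermat.Agent.CFT.PT.TwistLevel
import Fermat.Agent.CFT.S14.CycloField

set_option autoImplicit false

/-!
# S55 GLOBAL glue: the numerical input `e₀` of `GlobalTopAt`

(helper10)  For a cyclo-level `V` of `famS S` (`p` odd), `V = G_K`:
`[Hlc⁰(V, E_S) : p] = p ^ e₀` with `V.index + 2 * #(locSV S V).ι = 2 * e₀`
(helper21's `sUD_index_range_nsmul_Hlc0` + helper16's `natCard_locSV_ι`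
+ `K` totally complex + `[Γℚ : G_K] = [K : ℚ]`).
-/

namespace Fermat.Agent.PT

open CategoryTheory Fermat.Agent.CFT Fermat.Agent.CFT.S14 IntermediateField ExtCitation NumberField
  IsDedekindDomain Rep

local notation "Qb" => AlgebraicClosure ℚ
local notation "Γℚ" => (AlgebraicClosure ℚ ≃ₐ[ℚ] AlgebraicClosure ℚ)

section Count

variable (S : Finset Nat.Primes) (K : IntermediateField ℚ Qb) [NumberField K]

/-- helper16's count in helper21's vocabulary. -/
theorem plg_natCard_locSV [IsGalois ℚ K] [K.fixingSubgroup.Normal] :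
    Nat.card (locSV S K.fixingSubgroup).ι = (sUD_finite_primesOver K S).toFinset.card := by
  rw [natCard_locSV_ι]
  exact (Nat.card_coe_set_eq (sUD_primesOver K S)).trans
    (Set.ncard_eq_toFinset_card _ (sUD_finite_primesOver K S))

omit [NumberField K] in
/-- `[Γℚ : G_K] = [K : ℚ]`. -/
theorem plg_index_fixingSubgroup : K.fixingSubgroup.index = Module.finrank ℚ K := by
  haveI : IsGalois ℚ Qb := ⟨⟩
  exact (IntermediateField.finrank_eq_fixingSubgroup_index (F := ℚ) Qb K).symm

/-- a number field containing a primitive `p`-th root of unity, `p > 2`, has degree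
`2 * #(infinite places)`. -/
theorem plg_finrank_eq_two_mul {p : ℕ} (hp : 2 < p) {ζ : K} (hζ : IsPrimitiveRoot ζ p) :
    Module.finrank ℚ K = 2 * Fintype.card (InfinitePlace K) := by
  rw [InfinitePlace.card_eq_nrRealPlaces_add_nrComplexPlaces,
    ← InfinitePlace.card_add_two_mul_card_eq_rank K,
    NumberField.InfinitePlace.IsPrimitiveRoot.nrRealPlaces_eq_zero_of_two_lt hp hζ, zero_add,
    zero_add]

/-- **the numerology of (G4)**. -/
theorem plg_index_add_two_mul [IsGalois ℚ K] [K.fixingSubgroup.Normal] {p : ℕ} (hp : 2 < p)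
    {ζ : K} (hζ : IsPrimitiveRoot ζ p) :
    K.fixingSubgroup.index + 2 * Nat.card (locSV S K.fixingSubgroup).ι =
      2 * ((sUD_finite_primesOver K S).toFinset.card + Fintype.card (InfinitePlace K)) := by
  rw [plg_natCard_locSV, plg_index_fixingSubgroup, plg_finrank_eq_two_mul K hp hζ]
  ring

end Count

section CycloLevel

variable (p : ℕ) [Fact p.Prime] (S : Finset Nat.Primes)

/-- a field whose absolute Galois group is killed by the cyclotomic character contains `ζ_p`. -/
theorem plg_zetaQbar_mem (K : IntermediateField ℚ Qb)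
    (h : ∀ s ∈ K.fixingSubgroup, cycloChar p s = 1) : zetaQbar p ∈ K := by
  haveI : IsGalois ℚ Qb := ⟨⟩
  rw [← InfiniteGalois.fixedField_fixingSubgroup K]
  rintro ⟨s, hs⟩
  have h1 := (cycloChar_eq_one_iff p s).1 (h s hs)
  exact (IntermediateField.mem_fixingSubgroup_iff _ _).1 h1 _ (zetaQbar_mem p)

/-- the primitive `p`-th root of unity of a cyclo-level field. -/
theorem plg_exists_primitiveRoot (K : IntermediateField ℚ Qb)
    (h : ∀ s ∈ K.fixingSubgroup, cycloChar p s = 1) : ∃ ζ : K, IsPrimitiveRoot ζ p :=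
  ⟨⟨zetaQbar p, plg_zetaQbar_mem p K h⟩,
    IsPrimitiveRoot.coe_submonoidClass_iff.mp (zetaQbar_spec p)⟩

/-- **the `e₀`-clause of `GlobalTopAt`**, for `E = res V.subtype (ESRep S)`. -/
theorem plg_exists_e0 (hp2 : p ≠ 2) {V : Subgroup Γℚ} (hV : IsCycloLevel p S V) :
    haveI := hV.normal
    ∃ e₀ : ℕ, Nat.card (Hlc ((famS S).restrict V) (res V.subtype (ESRep S)) 0 ⧸
        (topChase_mulP p (Hlc ((famS S).restrict V) (res V.subtype (ESRep S)) 0)).range) =
          p ^ e₀ ∧
      V.index + 2 * Nat.card (locSV S V).ι ≤ 2 * e₀ := by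
  haveI := hV.normal
  have h2 : 2 < p := lt_of_le_of_ne (Fact.out : p.Prime).two_le (Ne.symm hp2)
  obtain ⟨K, hnf, hgal, hK, hKV⟩ := exists_numberField_of_mem_famS S hV.1
  subst hKV
  obtain ⟨ζ, hζ⟩ := plg_exists_primitiveRoot p K hV.2
  exact ⟨_, sUD_index_range_nsmul_Hlc0 K S hK hζ, (plg_index_add_two_mul S K h2 hζ).le⟩

end CycloLevel

end Fermat.Agent.PT
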