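/-
S55 engine (E6): level-constant cohomology versus the finite levels.

For `U ∈ 𝔉` the inflation `H^n(G ⧸ U, A^U) ⟶ Hlc^n(𝔉, A)`; every class of `Hlc` comes from a finite
level, and a class of a finite level dying in `Hlc` dies at a smaller finite level.
-/
import Fermat.Agent.CFT.PT.Smooth

set_option autoImplicit false

namespace Fermat.Agent.PT

open CategoryTheory groupCohomology Rep

universe u

variable {k G : Type u} [CommRing k] [Group G]

section Infl

variable (A : Rep.{u} k G) (U : Subgroup G) [U.Normal]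

/-- the inflation morphism `A^U ⟶ A` over `G ⟶ G ⧸ U`. -/
noncomputable abbrev inflHom : res (QuotientGroup.mk' U) (A.quotientToInvariants U) ⟶ A :=
  Rep.ofHom (A.ρ.quotientToInvariants_lift U)

/-- inflation of cochains. -/
noncomputable abbrev inflCochain (n : ℕ) (f : (Fin n → G ⧸ U) → A.quotientToInvariants U) :
    (Fin n → G) → A :=
  ((cochainsMap (QuotientGroup.mk' U) (inflHom A U)).f n).hom f

theorem inflCochain_apply (n : ℕ) (f : (Fin n → G ⧸ U) → A.quotientToInvariants U)
    (g : Fin n → G) :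
    inflCochain A U n f g = ((f fun i => (g i : G ⧸ U)) : A) := rfl

theorem isLevel_inflCochain (n : ℕ) (f : (Fin n → G ⧸ U) → A.quotientToInvariants U) :
    IsLevel A n U (inflCochain A U n f) := by
  constructor
  · intro g h hgh
    rw [inflCochain_apply, inflCochain_apply]
    have : (fun i => (g i : G ⧸ U)) = fun i => (h i : G ⧸ U) := by
      funext i
      exact QuotientGroup.eq.mpr (hgh i)
    rw [this]
  · intro g u hu
    rw [inflCochain_apply]
    exact (f fun i => (g i : G ⧸ U)).2 ⟨u, hu⟩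

theorem inflCochain_injective (n : ℕ) : Function.Injective (inflCochain A U n) := by
  intro f f' hff'
  funext c
  apply Subtype.ext
  have h := congrFun hff' (fun i => Quotient.out (c i))
  rw [inflCochain_apply, inflCochain_apply] at h
  have hc : (fun i => ((Quotient.out (c i) : G) : G ⧸ U)) = c := by
    funext i
    exact Quotient.out_eq (c i)
  rw [hc] at h
  exact h

/-- every cochain of level `U` is inflated from `G ⧸ U`. -/
theorem exists_inflCochain_eq {n : ℕ} {f : (Fin n → G) → A} (hf : IsLevel A n U f) :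
    ∃ f' : (Fin n → G ⧸ U) → A.quotientToInvariants U, inflCochain A U n f' = f := by
  refine ⟨fun c => ⟨f fun i => Quotient.out (c i), fun u => hf.2 _ u.1 u.2⟩, ?_⟩
  funext g
  rw [inflCochain_apply]
  show f (fun i => Quotient.out ((g i : G ⧸ U))) = f g
  apply hf.1
  intro i
  have h1 : ((Quotient.out ((g i : G ⧸ U)) : G) : G ⧸ U) = (g i : G ⧸ U) := Quotient.out_eq _
  exact QuotientGroup.eq.mp h1

end Infl

section Complex

variable (𝔉 : LevelFamily G) (A : Rep.{u} k G)

instance LevelFamily.normal_coe (U : ↥𝔉.sets) : (U : Subgroup G).Normal := 𝔉.normal U U.2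

theorem inflCochain_mem_lcCochains (U : ↥𝔉.sets) (n : ℕ)
    (f : (Fin n → G ⧸ (U : Subgroup G)) → A.quotientToInvariants (U : Subgroup G)) :
    inflCochain A U n f ∈ lcCochains 𝔉 A n :=
  ⟨U, U.2, isLevel_inflCochain A U n f⟩

/-- the inflation from the finite level `G ⧸ U` to the level-constant complex. -/
noncomputable def lcInfl (U : ↥𝔉.sets) :
    inhomogeneousCochains (A.quotientToInvariants (U : Subgroup G)) ⟶ lcComplex 𝔉 A :=
  CochainComplex.ofHom
    (fun n => ModuleCat.ofHom
      (((cochainsMap (QuotientGroup.mk' (U : Subgroup G)) (inflHom A U)).f n).hom.codRestrict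
        (lcCochains 𝔉 A n) fun f => inflCochain_mem_lcCochains 𝔉 A U n f))
    (fun n => by
      rw [lcComplex_d, inhomogeneousCochains.d_def]
      ext f : 2
      apply Subtype.ext
      have h := (cochainsMap (QuotientGroup.mk' (U : Subgroup G)) (inflHom A U)).comm n (n + 1)
      rw [inhomogeneousCochains.d_def, inhomogeneousCochains.d_def] at h
      exact congr($h f))

theorem lcInfl_f_apply_coe (U : ↥𝔉.sets) (n : ℕ)
    (f : (Fin n → G ⧸ (U : Subgroup G)) → A.quotientToInvariants (U : Subgroup G)) :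
    Subtype.val (p := fun x => x ∈ lcCochains 𝔉 A n) (((lcInfl 𝔉 A U).f n).hom f) =
      inflCochain A U n f := rfl

@[reassoc]
theorem lcInfl_comp_lcι (U : ↥𝔉.sets) :
    lcInfl 𝔉 A U ≫ lcι 𝔉 A = cochainsMap (QuotientGroup.mk' (U : Subgroup G)) (inflHom A U) := by
  ext n f : 3
  rfl

theorem lcInfl_f_injective (U : ↥𝔉.sets) (n : ℕ) :
    Function.Injective ((lcInfl 𝔉 A U).f n).hom := by
  intro f f' hff'
  apply inflCochain_injective A U n
  exact congrArg (Subtype.val (p := fun x => x ∈ lcCochains 𝔉 A n)) hff'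

/-- inflation on cohomology: `H^n(G ⧸ U, A^U) ⟶ Hlc^n(𝔉, A)`. -/
noncomputable def HlcInfl (U : ↥𝔉.sets) (n : ℕ) :
    groupCohomology (A.quotientToInvariants (U : Subgroup G)) n ⟶ Hlc 𝔉 A n :=
  HomologicalComplex.homologyMap (lcInfl 𝔉 A U) n

@[reassoc]
theorem HlcInfl_comp_lcToH (U : ↥𝔉.sets) (n : ℕ) :
    HlcInfl 𝔉 A U n ≫ lcToH 𝔉 A n =
      groupCohomology.map (QuotientGroup.mk' (U : Subgroup G)) (inflHom A U) n := by
  exact (HomologicalComplex.homologyMap_comp _ _ n).symm.trans
    (congrArg (fun f => HomologicalComplex.homologyMap f n) (lcInfl_comp_lcι 𝔉 A U))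

end Complex

section Classes

variable (𝔉 : LevelFamily G) (A : Rep.{u} k G)

/-- inflation commutes with the differentials (on elements). -/
theorem d_inflCochain (U : Subgroup G) [U.Normal] (n : ℕ)
    (f : (Fin n → G ⧸ U) → A.quotientToInvariants U) :
    (inhomogeneousCochains.d A n).hom (inflCochain A U n f) =
      inflCochain A U (n + 1) ((inhomogeneousCochains.d (A.quotientToInvariants U) n).hom f) := by
  have h := (cochainsMap (QuotientGroup.mk' U) (inflHom A U)).comm n (n + 1)
  rw [inhomogeneousCochains.d_def, inhomogeneousCochains.d_def] at h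
  exact congr($h f)

theorem inflCochain_mem_lcCocycles (U : ↥𝔉.sets) (n : ℕ)
    (f : (Fin n → G ⧸ (U : Subgroup G)) → A.quotientToInvariants (U : Subgroup G))
    (hf : (inhomogeneousCochains.d (A.quotientToInvariants (U : Subgroup G)) n).hom f = 0) :
    inflCochain A U n f ∈ lcCocycles 𝔉 A n := by
  refine ⟨inflCochain_mem_lcCochains 𝔉 A U n f, ?_⟩
  show (inhomogeneousCochains.d A n).hom (inflCochain A U n f) = 0
  rw [d_inflCochain, hf]
  exact map_zero _

/-- `HlcInfl` on classes of cocycles. -/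
theorem HlcInfl_π (U : ↥𝔉.sets) (n : ℕ)
    (f : (Fin n → G ⧸ (U : Subgroup G)) → A.quotientToInvariants (U : Subgroup G))
    (hf : (inhomogeneousCochains.d (A.quotientToInvariants (U : Subgroup G)) n).hom f = 0) :
    (HlcInfl 𝔉 A U n).hom (groupCohomology.π _ n (cocyclesMk f hf)) =
      lcπ 𝔉 A n ⟨inflCochain A U n f, inflCochain_mem_lcCocycles 𝔉 A U n f hf⟩ := by
  change ((inhomogeneousCochains (A.quotientToInvariants (U : Subgroup G))).homologyπ n ≫
    HomologicalComplex.homologyMap (lcInfl 𝔉 A U) n) (cocyclesMk f hf) = _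
  rw [HomologicalComplex.homologyπ_naturality]
  change (lcComplex 𝔉 A).homologyπ n (HomologicalComplex.cyclesMap (lcInfl 𝔉 A U) n
    (cocyclesMk f hf)) = (lcComplex 𝔉 A).homologyπ n _
  congr 1
  apply (ModuleCat.mono_iff_injective ((lcComplex 𝔉 A).iCycles n)).1 inferInstance
  apply lcX_ext
  refine Eq.trans ?_ (iCycles_lcToCycles 𝔉 A n _).symm
  have h := HomologicalComplex.cyclesMap_i (lcInfl 𝔉 A U) n
  have h2 := congr($h (cocyclesMk f hf))
  refine (congrArg (Subtype.val (p := fun x => x ∈ lcCochains 𝔉 A n)) h2).trans ?_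
  have h3 : (inhomogeneousCochains (A.quotientToInvariants (U : Subgroup G))).iCycles n
      (cocyclesMk f hf) = f := iCocycles_mk f hf
  show Subtype.val (p := fun x => x ∈ lcCochains 𝔉 A n) (((lcInfl 𝔉 A U).f n).hom
    ((inhomogeneousCochains (A.quotientToInvariants (U : Subgroup G))).iCycles n
      (cocyclesMk f hf))) = _
  rw [h3]
  rfl

/-- **(FL-surj)** every class of `Hlc` comes from a finite level. -/
theorem exists_HlcInfl_eq (n : ℕ) (x : Hlc 𝔉 A n) :
    ∃ (U : ↥𝔉.sets) (y : groupCohomology (A.quotientToInvariants (U : Subgroup G)) n),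
      (HlcInfl 𝔉 A U n).hom y = x := by
  obtain ⟨c, rfl⟩ := lcπ_surjective 𝔉 A n x
  obtain ⟨U, hU, hlev⟩ := c.2.1
  haveI := 𝔉.normal U hU
  obtain ⟨f, hf⟩ := exists_inflCochain_eq A U hlev
  have hd : (inhomogeneousCochains.d (A.quotientToInvariants U) n).hom f = 0 := by
    apply inflCochain_injective A U (n + 1)
    rw [← d_inflCochain, hf]
    rw [show inflCochain A U (n + 1) 0 = 0 from map_zero _]
    exact LinearMap.mem_ker.1 c.2.2
  refine ⟨⟨U, hU⟩, groupCohomology.π _ n (cocyclesMk f hd), ?_⟩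
  rw [HlcInfl_π 𝔉 A ⟨U, hU⟩ n f hd]
  congr 1
  exact Subtype.ext hf

end Classes

section Transition

variable (A : Rep.{u} k G) {U V : Subgroup G} [U.Normal] [V.Normal] (hVU : V ≤ U)

/-- the projection `G ⧸ V →* G ⧸ U` for `V ≤ U`. -/
abbrev quotMap : G ⧸ V →* G ⧸ U :=
  QuotientGroup.map V U (MonoidHom.id G) (by simpa using hVU)

theorem quotMap_mk (g : G) : quotMap hVU (g : G ⧸ V) = (g : G ⧸ U) := rfl

/-- the inclusion `A^U ⊆ A^V` as a linear map. -/
def invInclLin : (A.quotientToInvariants U) →ₗ[k] (A.quotientToInvariants V) where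
  toFun x := ⟨x.1, fun v => x.2 ⟨v.1, hVU v.2⟩⟩
  map_add' _ _ := rfl
  map_smul' _ _ := rfl

/-- the inclusion `A^U ⊆ A^V` over `G ⧸ V ⟶ G ⧸ U`. -/
noncomputable def invIncl :
    res (quotMap hVU) (A.quotientToInvariants U) ⟶ A.quotientToInvariants V :=
  Rep.ofHom ⟨invInclLin A hVU, fun g => QuotientGroup.induction_on g fun g => by
    ext x
    rfl⟩

theorem invIncl_apply_coe (x : A.quotientToInvariants U) :
    (((invIncl A hVU).hom x : A.quotientToInvariants V) : A) = (x : A) := rfl

/-- the transition map on cochains. -/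
noncomputable abbrev transCochain (n : ℕ) (f : (Fin n → G ⧸ U) → A.quotientToInvariants U) :
    (Fin n → G ⧸ V) → A.quotientToInvariants V :=
  ((cochainsMap (quotMap hVU) (invIncl A hVU)).f n).hom f

theorem inflCochain_transCochain (n : ℕ) (f : (Fin n → G ⧸ U) → A.quotientToInvariants U) :
    inflCochain A V n (transCochain A hVU n f) = inflCochain A U n f := rfl

/-- the transition map `H^n(G ⧸ U, A^U) ⟶ H^n(G ⧸ V, A^V)` (inflation between finite levels). -/
noncomputable abbrev inflUV (n : ℕ) :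
    groupCohomology (A.quotientToInvariants U) n ⟶ groupCohomology (A.quotientToInvariants V) n :=
  groupCohomology.map (quotMap hVU) (invIncl A hVU) n

end Transition

section Colimit

variable (𝔉 : LevelFamily G) (A : Rep.{u} k G)

@[reassoc]
theorem trans_comp_lcInfl {U V : ↥𝔉.sets} (hVU : (V : Subgroup G) ≤ U) :
    cochainsMap (quotMap hVU) (invIncl A hVU) ≫ lcInfl 𝔉 A V = lcInfl 𝔉 A U := by
  ext n f : 3
  rfl

/-- inflation to `Hlc` is compatible with the transition maps. -/
@[reassoc]
theorem inflUV_comp_HlcInfl {U V : ↥𝔉.sets} (hVU : (V : Subgroup G) ≤ U) (n : ℕ) :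
    inflUV A hVU n ≫ HlcInfl 𝔉 A V n = HlcInfl 𝔉 A U n := by
  exact (HomologicalComplex.homologyMap_comp _ _ n).symm.trans
    (congrArg (fun f => HomologicalComplex.homologyMap f n) (trans_comp_lcInfl 𝔉 A hVU))

theorem HlcInfl_inflUV_apply {U V : ↥𝔉.sets} (hVU : (V : Subgroup G) ≤ U) (n : ℕ)
    (y : groupCohomology (A.quotientToInvariants (U : Subgroup G)) n) :
    (HlcInfl 𝔉 A V n).hom ((inflUV A hVU n).hom y) = (HlcInfl 𝔉 A U n).hom y :=
  congr($(inflUV_comp_HlcInfl 𝔉 A hVU n) y)

/-- **(FL-ker)** a class of a finite level dying in `Hlc` dies at a smaller finite level. -/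
theorem exists_inflUV_eq_zero (U : ↥𝔉.sets) (n : ℕ)
    (y : groupCohomology (A.quotientToInvariants (U : Subgroup G)) (n + 1))
    (hy : (HlcInfl 𝔉 A U (n + 1)).hom y = 0) :
    ∃ (V : ↥𝔉.sets) (hVU : (V : Subgroup G) ≤ U), (inflUV A hVU (n + 1)).hom y = 0 := by
  -- represent `y` by a cycle
  obtain ⟨z, rfl⟩ := (ModuleCat.epi_iff_surjective
    ((inhomogeneousCochains (A.quotientToInvariants (U : Subgroup G))).homologyπ (n + 1))).1
    inferInstance y
  set f := (inhomogeneousCochains (A.quotientToInvariants (U : Subgroup G))).iCycles (n + 1) z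
    with hf
  -- the image in `Hlc` is the class of the inflated cycle
  have h1 : (HlcInfl 𝔉 A U (n + 1)).hom
      ((inhomogeneousCochains (A.quotientToInvariants (U : Subgroup G))).homologyπ (n + 1) z) =
      (lcComplex 𝔉 A).homologyπ (n + 1)
        (HomologicalComplex.cyclesMap (lcInfl 𝔉 A U) (n + 1) z) :=
    congr($(HomologicalComplex.homologyπ_naturality (lcInfl 𝔉 A U) (n + 1)) z)
  have hy' : (lcComplex 𝔉 A).homologyπ (n + 1)
      (HomologicalComplex.cyclesMap (lcInfl 𝔉 A U) (n + 1) z) = 0 := h1.symm.trans hy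
  obtain ⟨b, hb⟩ := (homologyπ_eq_zero_iff (lcComplex 𝔉 A) n _).1 hy'
  have h2 : (lcComplex 𝔉 A).iCycles (n + 1)
      (HomologicalComplex.cyclesMap (lcInfl 𝔉 A U) (n + 1) z) =
      ((lcInfl 𝔉 A U).f (n + 1)).hom f :=
    congr($(HomologicalComplex.cyclesMap_i (lcInfl 𝔉 A U) (n + 1)) z)
  rw [h2, lcComplex_d] at hb
  -- `b` has some level `W`; shrink to `V ≤ U ⊓ W`
  obtain ⟨W, hW, hlevW⟩ := (b : lcCochains 𝔉 A n).2
  obtain ⟨V, hV, hVle⟩ := 𝔉.directed U U.2 W hW
  have hVU : V ≤ (U : Subgroup G) := hVle.trans inf_le_left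
  haveI : V.Normal := 𝔉.normal V hV
  obtain ⟨b', hb'⟩ := exists_inflCochain_eq A V (hlevW.mono (hVle.trans inf_le_right))
  refine ⟨⟨V, hV⟩, hVU, ?_⟩
  -- `d b' = transition of f`
  have h3 : (inhomogeneousCochains.d (A.quotientToInvariants V) n).hom b' =
      transCochain A hVU (n + 1) f := by
    apply inflCochain_injective A V (n + 1)
    rw [← d_inflCochain, hb', inflCochain_transCochain]
    have := congrArg (Subtype.val (p := fun x => x ∈ lcCochains 𝔉 A (n + 1))) hb
    exact this
  -- conclude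
  have h4 : (inflUV A hVU (n + 1)).hom
      ((inhomogeneousCochains (A.quotientToInvariants (U : Subgroup G))).homologyπ (n + 1) z) =
      (inhomogeneousCochains (A.quotientToInvariants V)).homologyπ (n + 1)
        (HomologicalComplex.cyclesMap (cochainsMap (quotMap hVU) (invIncl A hVU)) (n + 1) z) :=
    congr($(HomologicalComplex.homologyπ_naturality
      (cochainsMap (quotMap hVU) (invIncl A hVU)) (n + 1)) z)
  refine h4.trans ((homologyπ_eq_zero_iff (inhomogeneousCochains (A.quotientToInvariants V)) n _).2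
    ⟨b', ?_⟩)
  have h5 : (inhomogeneousCochains (A.quotientToInvariants V)).iCycles (n + 1)
      (HomologicalComplex.cyclesMap (cochainsMap (quotMap hVU) (invIncl A hVU)) (n + 1) z) =
      transCochain A hVU (n + 1) f :=
    congr($(HomologicalComplex.cyclesMap_i
      (cochainsMap (quotMap hVU) (invIncl A hVU)) (n + 1)) z)
  rw [h5, inhomogeneousCochains.d_def]
  exact h3

/-- **(FL-zero)** if cofinally many finite levels vanish in degree `n`, so does `Hlc`. -/
theorem isZero_Hlc_of_cofinal (n : ℕ)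
    (h : ∀ U : ↥𝔉.sets, ∃ V : ↥𝔉.sets, (V : Subgroup G) ≤ U ∧
      Limits.IsZero (groupCohomology (A.quotientToInvariants (V : Subgroup G)) n)) :
    Limits.IsZero (Hlc 𝔉 A n) := by
  rw [ModuleCat.isZero_iff_subsingleton]
  refine ⟨fun x x' => ?_⟩
  have key : ∀ x : Hlc 𝔉 A n, x = 0 := by
    intro x
    obtain ⟨U, y, rfl⟩ := exists_HlcInfl_eq 𝔉 A n x
    obtain ⟨V, hVU, hV⟩ := h U
    rw [← HlcInfl_inflUV_apply 𝔉 A hVU n y]
    haveI := (ModuleCat.isZero_iff_subsingleton).1 hV
    rw [Subsingleton.elim ((inflUV A hVU n).hom y) 0, map_zero]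
  rw [key x, key x']

/-- if all finite levels vanish in degree `n`, so does `Hlc`. -/
theorem isZero_Hlc_of_forall (n : ℕ)
    (h : ∀ U : ↥𝔉.sets, Limits.IsZero (groupCohomology (A.quotientToInvariants (U : Subgroup G)) n)) :
    Limits.IsZero (Hlc 𝔉 A n) :=
  isZero_Hlc_of_cofinal 𝔉 A n fun U => ⟨U, le_rfl, h U⟩

end Colimit

end Fermat.Agent.PT
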