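import Fermat.Agent.CFT.PT.LocalFamily
import Fermat.Agent.CFT.Local.GaloisFamily

/-!
# S55 BRIDGE: `famGal K Ω` is a Galois family in the sense of `Local/GaloisFamily`

Glue between the intrinsic family `famGal K Ω` (`PT/GaloisFamily`), the local families
`famLoc q` (`PT/LocalFamily`) and the local theory of `Local/GaloisFamily` (predicate
`IsGaloisFamily`): Hilbert 90 in the limit for the local groups of the prelude.
-/

set_option autoImplicit false

namespace Fermat.Agent.PT

open CategoryTheory groupCohomology Rep Fermat.Agent.CFT ExtCitation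

theorem isGaloisFamily_famGal (K Ω : Type) [Field K] [Field Ω] [Algebra K Ω] [IsGalois K Ω] :
    IsGaloisFamily K Ω (famGal K Ω) := by
  rintro U ⟨L, hfd, hn, rfl⟩
  have : IsGalois K L := (InfiniteGalois.normal_iff_isGalois L).1 hn
  exact ⟨L, hfd, inferInstance, rfl⟩

/-- Hilbert 90 in the limit for `famGal`. -/
theorem isZero_Hlc_one_unitsGal (K Ω : Type) [Field K] [Field Ω] [Algebra K Ω] [IsGalois K Ω] :
    Limits.IsZero (Hlc (famGal K Ω) (Rep.ofAlgebraAutOnUnits K Ω) 1) :=
  isZero_Hlc_one_units (famGal K Ω) (isGaloisFamily_famGal K Ω)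

end Fermat.Agent.PT
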