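import Mathlib
import Fermat.Agent.CFT.PT.CupH
import Fermat.Agent.CFT.PT.SmoothDelta

/-!
# S55 engine (LS): change of coefficient ring `k ↝ ℤ` for level-constant cohomology

For `A : Rep k G` the same additive group with the same action is a `ℤ`-representation `intRep A`.
The level-constant cochains, cocycles and coboundaries of `A` and `intRep A` coincide as sets of
functions, hence `Hlc 𝔉 (intRep A) n ≃+ Hlc 𝔉 A n` (`HlcIntEquiv`), compatibly with classes of
cocycles (`HlcIntEquiv_lcπ`), with `HlcMap` and with connecting homomorphisms.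
-/

set_option autoImplicit false

namespace Fermat.Agent.PT

open CategoryTheory groupCohomology Rep

variable {k G : Type} [CommRing k] [Group G]

/-- the underlying `ℤ`-linear representation of a `k`-linear representation -/
def intRepρ (A : Rep.{0} k G) : Representation ℤ G A.V where
  toFun g := (A.ρ g).toAddMonoidHom.toIntLinearMap
  map_one' := by
    ext a
    simp
  map_mul' g h := by
    ext a
    simp

/-- `A : Rep k G` viewed as a `ℤ`-representation (same carrier, same action). -/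
noncomputable abbrev intRep (A : Rep.{0} k G) : Rep.{0} ℤ G := Rep.of (intRepρ A)

@[simp] theorem intRep_ρ_apply (A : Rep.{0} k G) (g : G) (a : A.V) :
    (intRep A).ρ g a = A.ρ g a := rfl

theorem neg_one_pow_zsmul_eq {M : Type*} [AddCommGroup M] [Module k M] (m : ℕ) (x : M) :
    ((-1 : ℤ) ^ m) • x = ((-1 : k) ^ m) • x := by
  rcases Nat.even_or_odd m with h | h
  · rw [h.neg_one_pow, h.neg_one_pow, one_smul, one_smul]
  · rw [h.neg_one_pow, h.neg_one_pow, neg_smul, neg_smul, one_smul, one_smul]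

/-- the differentials of `A` and `intRep A` agree on cochains -/
theorem d_intRep (A : Rep.{0} k G) (n : ℕ) (f : (Fin n → G) → A.V) :
    (inhomogeneousCochains.d (intRep A) n).hom f = (inhomogeneousCochains.d A n).hom f := by
  funext g
  rw [inhomogeneousCochains.d_hom_apply, inhomogeneousCochains.d_hom_apply]
  congr 1
  refine Finset.sum_congr rfl fun j _ => ?_
  exact neg_one_pow_zsmul_eq _ _

theorem isLevel_intRep_iff (A : Rep.{0} k G) (n : ℕ) (U : Subgroup G) (f : (Fin n → G) → A.V) :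
    IsLevel (intRep A) n U f ↔ IsLevel A n U f := Iff.rfl

theorem mem_lcCochains_intRep (𝔉 : LevelFamily G) (A : Rep.{0} k G) (n : ℕ)
    (f : (Fin n → G) → A.V) : f ∈ lcCochains 𝔉 (intRep A) n ↔ f ∈ lcCochains 𝔉 A n := Iff.rfl

theorem mem_lcCocycles_intRep (𝔉 : LevelFamily G) (A : Rep.{0} k G) (n : ℕ)
    (f : (Fin n → G) → A.V) : f ∈ lcCocycles 𝔉 (intRep A) n ↔ f ∈ lcCocycles 𝔉 A n := by
  rw [mem_lcCocycles, mem_lcCocycles, d_intRep]
  exact Iff.rfl

theorem isLcCoboundary_intRep (𝔉 : LevelFamily G) (A : Rep.{0} k G) (n : ℕ)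
    (f : (Fin n → G) → A.V) : IsLcCoboundary 𝔉 (intRep A) n f ↔ IsLcCoboundary 𝔉 A n f := by
  cases n with
  | zero => exact Iff.rfl
  | succ n =>
    constructor
    · rintro ⟨h, hh, hd⟩
      exact ⟨h, hh, by rw [← d_intRep]; exact hd⟩
    · rintro ⟨h, hh, hd⟩
      exact ⟨h, hh, by rw [d_intRep]; exact hd⟩

section Equiv

variable (𝔉 : LevelFamily G) (A : Rep.{0} k G) (n : ℕ)

/-- the identification of the cocycle groups -/
def lcCocyclesIntEquiv : lcCocycles 𝔉 (intRep A) n ≃+ lcCocycles 𝔉 A n where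
  toFun c := ⟨c.1, (mem_lcCocycles_intRep 𝔉 A n c.1).1 c.2⟩
  invFun c := ⟨c.1, (mem_lcCocycles_intRep 𝔉 A n c.1).2 c.2⟩
  left_inv _ := rfl
  right_inv _ := rfl
  map_add' _ _ := rfl

@[simp] theorem lcCocyclesIntEquiv_coe (c : lcCocycles 𝔉 (intRep A) n) :
    (lcCocyclesIntEquiv 𝔉 A n c).1 = c.1 := rfl

@[simp] theorem lcCocyclesIntEquiv_symm_coe (c : lcCocycles 𝔉 A n) :
    ((lcCocyclesIntEquiv 𝔉 A n).symm c).1 = c.1 := rfl

theorem lcπ_intRep_eq_zero_iff (c : lcCocycles 𝔉 (intRep A) n) :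
    lcπ 𝔉 (intRep A) n c = 0 ↔ lcπ 𝔉 A n (lcCocyclesIntEquiv 𝔉 A n c) = 0 := by
  rw [lcπ_eq_zero_iff', lcπ_eq_zero_iff', isLcCoboundary_intRep]
  exact Iff.rfl

/-- **change of coefficient ring**: `Hlc` of `intRep A` is `Hlc` of `A`. -/
noncomputable def HlcIntEquiv : Hlc 𝔉 (intRep A) n ≃+ Hlc 𝔉 A n :=
  let π₁ : lcCocycles 𝔉 (intRep A) n →+ Hlc 𝔉 (intRep A) n := (lcπ 𝔉 (intRep A) n).toAddMonoidHom
  let π₂ : lcCocycles 𝔉 (intRep A) n →+ Hlc 𝔉 A n :=
    (lcπ 𝔉 A n).toAddMonoidHom.comp (lcCocyclesIntEquiv 𝔉 A n).toAddMonoidHom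
  have h₁ : Function.Surjective π₁ := lcπ_surjective 𝔉 (intRep A) n
  have h₂ : Function.Surjective π₂ :=
    (lcπ_surjective 𝔉 A n).comp (lcCocyclesIntEquiv 𝔉 A n).surjective
  have hker : π₁.ker = π₂.ker := by
    ext c
    exact lcπ_intRep_eq_zero_iff 𝔉 A n c
  (QuotientAddGroup.quotientKerEquivOfSurjective π₁ h₁).symm.trans
    ((QuotientAddGroup.quotientAddEquivOfEq hker).trans
      (QuotientAddGroup.quotientKerEquivOfSurjective π₂ h₂))

theorem HlcIntEquiv_lcπ (c : lcCocycles 𝔉 (intRep A) n) :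
    HlcIntEquiv 𝔉 A n (lcπ 𝔉 (intRep A) n c) = lcπ 𝔉 A n (lcCocyclesIntEquiv 𝔉 A n c) := by
  unfold HlcIntEquiv
  simp only [AddEquiv.trans_apply]
  have h : (QuotientAddGroup.quotientKerEquivOfSurjective
      ((lcπ 𝔉 (intRep A) n).toAddMonoidHom) (lcπ_surjective 𝔉 (intRep A) n)).symm
        (lcπ 𝔉 (intRep A) n c) = QuotientAddGroup.mk c := by
    rw [AddEquiv.symm_apply_eq]
    rfl
  rw [h]
  rfl

theorem HlcIntEquiv_symm_lcπ (c : lcCocycles 𝔉 A n) :
    (HlcIntEquiv 𝔉 A n).symm (lcπ 𝔉 A n c) =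
      lcπ 𝔉 (intRep A) n ((lcCocyclesIntEquiv 𝔉 A n).symm c) := by
  rw [AddEquiv.symm_apply_eq, HlcIntEquiv_lcπ]
  rfl

end Equiv

section Functoriality

variable {H : Type} [Group H]

/-- a morphism `res ψ A ⟶ B` of `k`-representations, as a morphism of `ℤ`-representations -/
noncomputable def intRepResHom (ψ : H →* G) {A : Rep.{0} k G} {B : Rep.{0} k H}
    (φ : res ψ A ⟶ B) : res ψ (intRep A) ⟶ intRep B :=
  Rep.ofHom ⟨φ.hom.toLinearMap.toAddMonoidHom.toIntLinearMap, fun h => by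
    ext a
    exact Rep.hom_comm_apply φ h a⟩

@[simp] theorem intRepResHom_apply (ψ : H →* G) {A : Rep.{0} k G} {B : Rep.{0} k H}
    (φ : res ψ A ⟶ B) (a : A.V) : (intRepResHom ψ φ).hom a = φ.hom a := rfl

/-- a morphism of `k`-representations, as a morphism of `ℤ`-representations -/
noncomputable def intRepHom {A B : Rep.{0} k G} (φ : A ⟶ B) : intRep A ⟶ intRep B :=
  intRepResHom (MonoidHom.id G) φ

@[simp] theorem intRepHom_apply {A B : Rep.{0} k G} (φ : A ⟶ B) (a : A.V) :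
    (intRepHom φ).hom a = φ.hom a := rfl

theorem cochainsMap_intRepResHom (ψ : H →* G) {A : Rep.{0} k G} {B : Rep.{0} k H}
    (φ : res ψ A ⟶ B) (n : ℕ) (f : (Fin n → G) → A.V) :
    ((cochainsMap ψ (intRepResHom ψ φ)).f n).hom f = ((cochainsMap ψ φ).f n).hom f := rfl

/-- `HlcIntEquiv` is natural for `HlcMap`. -/
theorem HlcIntEquiv_HlcMap (ψ : H →* G) {A : Rep.{0} k G} {B : Rep.{0} k H}
    (φ : res ψ A ⟶ B) {𝔉H : LevelFamily H} {𝔉G : LevelFamily G} (hψ : 𝔉H.Compat ψ 𝔉G) (n : ℕ)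
    (x : Hlc 𝔉G (intRep A) n) :
    HlcIntEquiv 𝔉H B n ((HlcMap ψ (intRepResHom ψ φ) hψ n).hom x) =
      (HlcMap ψ φ hψ n).hom (HlcIntEquiv 𝔉G A n x) := by
  obtain ⟨c, rfl⟩ := lcπ_surjective 𝔉G (intRep A) n x
  rw [HlcMap_lcπ, HlcIntEquiv_lcπ, HlcIntEquiv_lcπ, HlcMap_lcπ]
  rfl

section OfAddEquiv

variable {V' : Type} [AddCommGroup V'] (ρ' : Representation ℤ G V') (A : Rep.{0} k G)

/-- an equivariant additive map from a `ℤ`-representation to (the additive group of) a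
`k`-representation, as a morphism of `ℤ`-representations -/
noncomputable def intRepHomOfAddHom (e : V' →+ A.V)
    (he : ∀ g a, e (ρ' g a) = A.ρ g (e a)) : Rep.of ρ' ⟶ intRep A :=
  Rep.ofHom (ρ := ρ') (σ := intRepρ A) ⟨e.toIntLinearMap, fun g => by
    apply LinearMap.ext
    intro a
    exact he g a⟩

@[simp] theorem intRepHomOfAddHom_apply (e : V' →+ A.V)
    (he : ∀ g a, e (ρ' g a) = A.ρ g (e a)) (a : V') :
    (intRepHomOfAddHom ρ' A e he).hom a = e a := rfl

/-- the converse direction -/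
noncomputable def intRepHomToAddHom (e : A.V →+ V')
    (he : ∀ g a, e (A.ρ g a) = ρ' g (e a)) : intRep A ⟶ Rep.of ρ' :=
  Rep.ofHom (ρ := intRepρ A) (σ := ρ') ⟨e.toIntLinearMap, fun g => by
    apply LinearMap.ext
    intro a
    exact he g a⟩

@[simp] theorem intRepHomToAddHom_apply (e : A.V →+ V')
    (he : ∀ g a, e (A.ρ g a) = ρ' g (e a)) (a : A.V) :
    (intRepHomToAddHom ρ' A e he).hom a = e a := rfl

theorem addEquiv_symm_equivariant
    (e : V' ≃+ A.V) (he : ∀ g a, e (ρ' g a) = A.ρ g (e a)) (g : G) (a : A.V) :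
    e.symm (A.ρ g a) = ρ' g (e.symm a) := by
  apply e.injective
  rw [he, e.apply_symm_apply, e.apply_symm_apply]

/-- **change of ring along an equivariant additive equivalence**: if the `ℤ`-representation
`Rep.of ρ'` and the `k`-representation `A` have the same underlying `G`-module (via `e`), their
level-constant cohomologies agree. -/
noncomputable def HlcEquivOfAddEquiv (𝔉 : LevelFamily G)
    (e : V' ≃+ A.V) (he : ∀ g a, e (ρ' g a) = A.ρ g (e a)) (n : ℕ) :
    Hlc 𝔉 (Rep.of ρ') n ≃+ Hlc 𝔉 A n where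
  toFun x := HlcIntEquiv 𝔉 A n
    ((HlcMap (MonoidHom.id G) (intRepHomOfAddHom ρ' A e.toAddMonoidHom he) 𝔉.compat_id n).hom x)
  invFun y := (HlcMap (MonoidHom.id G)
    (intRepHomToAddHom ρ' A e.symm.toAddMonoidHom (addEquiv_symm_equivariant ρ' A e he))
      𝔉.compat_id n).hom ((HlcIntEquiv 𝔉 A n).symm y)
  left_inv x := by
    obtain ⟨c, rfl⟩ := lcπ_surjective 𝔉 (Rep.of ρ') n x
    dsimp only
    rw [HlcMap_lcπ, HlcIntEquiv_lcπ, HlcIntEquiv_symm_lcπ, HlcMap_lcπ]
    congr 1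
    apply Subtype.ext
    funext g
    exact e.symm_apply_apply (c.1 g)
  right_inv y := by
    obtain ⟨c, rfl⟩ := lcπ_surjective 𝔉 A n y
    dsimp only
    rw [HlcIntEquiv_symm_lcπ, HlcMap_lcπ, HlcMap_lcπ, HlcIntEquiv_lcπ]
    congr 1
    apply Subtype.ext
    funext g
    exact e.apply_symm_apply (c.1 g)
  map_add' x y := by
    simp only [map_add]

theorem HlcEquivOfAddEquiv_lcπ (𝔉 : LevelFamily G)
    (e : V' ≃+ A.V) (he : ∀ g a, e (ρ' g a) = A.ρ g (e a)) (n : ℕ)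
    (c : lcCocycles 𝔉 (Rep.of ρ') n) :
    ((HlcEquivOfAddEquiv ρ' A 𝔉 e he n) (lcπ 𝔉 (Rep.of ρ') n c) : Hlc 𝔉 A n) =
      lcπ 𝔉 A n (lcCocyclesIntEquiv 𝔉 A n
        ⟨((cochainsMap (MonoidHom.id G)
          (intRepHomOfAddHom ρ' A e.toAddMonoidHom he)).f n).hom c.1,
          cochainsMap_mem_lcCocycles (MonoidHom.id G) _ 𝔉.compat_id c.2⟩) := by
  show HlcIntEquiv 𝔉 A n ((HlcMap (MonoidHom.id G) _ 𝔉.compat_id n).hom
    (lcπ 𝔉 (Rep.of ρ') n c)) = _
  rw [HlcMap_lcπ, HlcIntEquiv_lcπ]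

end OfAddEquiv

end Functoriality

section ShortExact

open ShortComplex

/-- a short complex of representations is short exact as soon as it is so on elements -/
theorem rep_shortExact_of_elementwise {R : Type} [CommRing R] (Y : ShortComplex (Rep.{0} R G))
    (hinj : Function.Injective Y.f.hom) (hsurj : Function.Surjective Y.g.hom)
    (hex : ∀ a : Y.X₂, Y.g.hom a = 0 → ∃ b : Y.X₁, Y.f.hom b = a) : Y.ShortExact := by
  have hM : Mono Y.f := (Rep.mono_iff_injective Y.f).2 hinj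
  have hP : Epi Y.g := (Rep.epi_iff_surjective Y.g).2 hsurj
  have hE : Y.Exact := by
    rw [← ShortComplex.exact_map_iff_of_faithful _ (forget₂ (Rep.{0} R G) (ModuleCat.{0} R)),
      ShortComplex.moduleCat_exact_iff]
    intro x₂ hx₂
    exact hex x₂ hx₂
  exact { exact := hE, mono_f := hM, epi_g := hP }

variable (X : ShortComplex (Rep.{0} k G))

/-- the short complex of underlying `ℤ`-representations -/
noncomputable abbrev intShortComplex : ShortComplex (Rep.{0} ℤ G) :=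
  ShortComplex.mk (intRepHom X.f) (intRepHom X.g) (by
    apply Rep.hom_ext
    apply Representation.IntertwiningMap.ext
    apply LinearMap.ext
    intro a
    have h2 : (X.f ≫ X.g).hom a = 0 := by
      rw [X.zero]
      rfl
    exact h2)

variable {X}

theorem intShortComplex_shortExact (hX : X.ShortExact) : (intShortComplex X).ShortExact :=
  rep_shortExact_of_elementwise (intShortComplex X)
    ((Rep.mono_iff_injective X.f).1 hX.mono_f) ((Rep.epi_iff_surjective X.g).1 hX.epi_g)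
    (fun a ha => exists_of_shortExact_of_g_eq_zero hX a ha)

theorem isSmooth_intRep (𝔉 : LevelFamily G) (A : Rep.{0} k G) :
    IsSmooth 𝔉 (intRep A) ↔ IsSmooth 𝔉 A := Iff.rfl

/-- `HlcIntEquiv` commutes with the connecting homomorphisms. -/
theorem HlcIntEquiv_lcδ {𝔉 : LevelFamily G} (hfin : 𝔉.FiniteIndex) (hX : X.ShortExact)
    (hsm : IsSmooth 𝔉 X.X₂) (i : ℕ) (x : Hlc 𝔉 (intRep X.X₃) i) :
    HlcIntEquiv 𝔉 X.X₁ (i + 1)
        ((lcδ hfin (intShortComplex_shortExact hX)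
          ((isSmooth_intRep 𝔉 X.X₂).2 hsm) i (i + 1) rfl).hom x) =
      (lcδ hfin hX hsm i (i + 1) rfl).hom (HlcIntEquiv 𝔉 X.X₃ i x) := by
  obtain ⟨z, rfl⟩ := lcπ_surjective 𝔉 (intRep X.X₃) i x
  -- lift `z` to a level-constant cochain `y` of `X₂`
  obtain ⟨y, hy, hyz⟩ := exists_lift_isLCFun (𝔉 := 𝔉.sets) X.X₂.ρ X.X₃.ρ 𝔉.nonempty
    𝔉.directed hfin X.g.hom ((Rep.epi_iff_surjective X.g).1 hX.epi_g) hsm z.1 z.2.1
  -- `d y` comes from a level-constant cochain `w` of `X₁`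
  have hdy : (inhomogeneousCochains.d X.X₂ i).hom y ∈ lcCochains 𝔉 X.X₂ (i + 1) :=
    d_mem_lcCochains 𝔉 hy
  have hz0 : (inhomogeneousCochains.d X.X₃ i).hom z.1 = 0 := by
    have := ((mem_lcCocycles_intRep 𝔉 X.X₃ i z.1).1 z.2).2
    exact this
  have hgdy : ∀ g, X.g.hom ((inhomogeneousCochains.d X.X₂ i).hom y g) = 0 := by
    intro g
    have h := (cochainsMap (MonoidHom.id G) X.g).comm i (i + 1)
    rw [inhomogeneousCochains.d_def, inhomogeneousCochains.d_def] at h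
    have h2 : (inhomogeneousCochains.d X.X₃ i).hom (((cochainsMap (MonoidHom.id G) X.g).f i).hom y) =
        ((cochainsMap (MonoidHom.id G) X.g).f (i + 1)).hom ((inhomogeneousCochains.d X.X₂ i).hom y) :=
      congr($h y)
    have h3 : ((cochainsMap (MonoidHom.id G) X.g).f i).hom y = z.1 := by
      funext g'
      exact hyz g'
    rw [h3, hz0] at h2
    exact (congrFun h2 g).symm
  obtain ⟨w, hw, hwy⟩ := exists_factor_isLCFun (𝔉 := 𝔉.sets) X.X₁.ρ X.X₂.ρ X.f.hom
    ((Rep.mono_iff_injective X.f).1 hX.mono_f) (fun u a => Rep.hom_comm_apply X.f u a)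
    _ hdy (fun g => exists_of_shortExact_of_g_eq_zero hX _ (hgdy g))
  rw [HlcIntEquiv_lcπ]
  rw [lcδ_lcπ hfin hX hsm i (lcCocyclesIntEquiv 𝔉 X.X₃ i z) y hy hyz w hw hwy]
  have h2 := lcδ_lcπ hfin (intShortComplex_shortExact hX) ((isSmooth_intRep 𝔉 X.X₂).2 hsm) i z y
    hy hyz w hw (fun g => (hwy g).trans (congrFun (d_intRep X.X₂ i y).symm g))
  refine (congrArg (HlcIntEquiv 𝔉 X.X₁ (i + 1)) h2).trans ?_
  rw [HlcIntEquiv_lcπ]
  rfl

end ShortExact

end Fermat.Agent.PT
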