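import Fermat.Agent.CFT.PT.Smooth

/-!
# S55 engine (E1'): functoriality laws for level-constant cohomology

* `LevelFamily.Compat.comp`;
* `lcMap_id`, `lcMap_comp`; `HlcMap_id`, `HlcMap_comp` (for `HlcMap_id_comp` see `PT/SmoothCor`);
* change of family: `LevelFamily.Refines`, `lcCochains_le_of_refines`, `lcCochains_eq_of_cofinal`,
  `HlcFam` (the map `Hlc 𝔉 A n ⟶ Hlc 𝔉' A n` when `𝔉'` refines `𝔉`), `HlcFamIso` for mutually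
  cofinal families, compatibility with `HlcMap`;
-/

set_option autoImplicit false

namespace Fermat.Agent.PT

open CategoryTheory groupCohomology Rep

universe u

variable {k : Type u} [CommRing k]

section Laws

variable {G H K : Type u} [Group G] [Group H] [Group K]

lemma LevelFamily.Compat.comp {ψ₂ : H →* G} {ψ₁ : K →* H} {𝔉K : LevelFamily K}
    {𝔉H : LevelFamily H} {𝔉G : LevelFamily G} (h₂ : 𝔉H.Compat ψ₂ 𝔉G) (h₁ : 𝔉K.Compat ψ₁ 𝔉H) :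
    𝔉K.Compat (ψ₂.comp ψ₁) 𝔉G := by
  intro U hU
  obtain ⟨V, hV, hVU⟩ := h₂ U hU
  obtain ⟨W, hW, hWV⟩ := h₁ V hV
  exact ⟨W, hW, fun w hw => hVU (hWV hw)⟩

variable (𝔉 : LevelFamily G) (A : Rep.{u} k G)

@[simp]
lemma lcMap_id : lcMap (MonoidHom.id G) (𝟙 A) 𝔉.compat_id = 𝟙 (lcComplex 𝔉 A) := by
  ext n f : 3
  rfl

@[simp]
lemma HlcMap_id (n : ℕ) : HlcMap (MonoidHom.id G) (𝟙 A) 𝔉.compat_id n = 𝟙 (Hlc 𝔉 A n) := by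
  rw [HlcMap, lcMap_id]
  exact HomologicalComplex.homologyMap_id _ _

variable {𝔉 A}
variable {𝔉K : LevelFamily K} {𝔉H : LevelFamily H} {B : Rep.{u} k H} {C : Rep.{u} k K}

lemma lcMap_comp (ψ₂ : H →* G) (ψ₁ : K →* H) (φ₂ : res ψ₂ A ⟶ B) (φ₁ : res ψ₁ B ⟶ C)
    (h₂ : 𝔉H.Compat ψ₂ 𝔉) (h₁ : 𝔉K.Compat ψ₁ 𝔉H) :
    lcMap (ψ₂.comp ψ₁) ((resFunctor ψ₁).map φ₂ ≫ φ₁) (h₂.comp h₁) =
      lcMap ψ₂ φ₂ h₂ ≫ lcMap ψ₁ φ₁ h₁ := by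
  ext n f : 3
  rfl

@[reassoc]
lemma HlcMap_comp (ψ₂ : H →* G) (ψ₁ : K →* H) (φ₂ : res ψ₂ A ⟶ B) (φ₁ : res ψ₁ B ⟶ C)
    (h₂ : 𝔉H.Compat ψ₂ 𝔉) (h₁ : 𝔉K.Compat ψ₁ 𝔉H) (n : ℕ) :
    HlcMap (ψ₂.comp ψ₁) ((resFunctor ψ₁).map φ₂ ≫ φ₁) (h₂.comp h₁) n =
      HlcMap ψ₂ φ₂ h₂ n ≫ HlcMap ψ₁ φ₁ h₁ n := by
  rw [HlcMap, lcMap_comp]
  exact HomologicalComplex.homologyMap_comp _ _ _

end Laws

section Family

variable {G : Type u} [Group G]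

/-- `𝔉'` refines `𝔉`: every member of `𝔉` contains a member of `𝔉'`. -/
def LevelFamily.Refines (𝔉' 𝔉 : LevelFamily G) : Prop := ∀ U ∈ 𝔉.sets, ∃ V ∈ 𝔉'.sets, V ≤ U

lemma LevelFamily.Refines.compat {𝔉' 𝔉 : LevelFamily G} (h : 𝔉'.Refines 𝔉) :
    𝔉'.Compat (MonoidHom.id G) 𝔉 := fun U hU => by
  obtain ⟨V, hV, hVU⟩ := h U hU
  exact ⟨V, hV, fun v hv => hVU hv⟩

lemma LevelFamily.refines_rfl (𝔉 : LevelFamily G) : 𝔉.Refines 𝔉 := fun U hU => ⟨U, hU, le_rfl⟩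

lemma LevelFamily.Refines.trans {𝔉'' 𝔉' 𝔉 : LevelFamily G} (h' : 𝔉''.Refines 𝔉')
    (h : 𝔉'.Refines 𝔉) : 𝔉''.Refines 𝔉 := fun U hU => by
  obtain ⟨V, hV, hVU⟩ := h U hU
  obtain ⟨W, hW, hWV⟩ := h' V hV
  exact ⟨W, hW, hWV.trans hVU⟩

variable {𝔉'' 𝔉' 𝔉 : LevelFamily G} (A : Rep.{u} k G)

lemma lcCochains_le_of_refines (h : 𝔉'.Refines 𝔉) (n : ℕ) :
    lcCochains 𝔉 A n ≤ lcCochains 𝔉' A n := by
  rintro f ⟨U, hU, hf⟩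
  obtain ⟨V, hV, hVU⟩ := h U hU
  exact ⟨V, hV, hf.mono hVU⟩

/-- Mutually cofinal families have the same level-constant cochains. -/
lemma lcCochains_eq_of_cofinal (h : 𝔉'.Refines 𝔉) (h' : 𝔉.Refines 𝔉') (n : ℕ) :
    lcCochains 𝔉 A n = lcCochains 𝔉' A n :=
  le_antisymm (lcCochains_le_of_refines A h n) (lcCochains_le_of_refines A h' n)

/-- Change of family: `Hlc 𝔉 A n ⟶ Hlc 𝔉' A n` when `𝔉'` refines `𝔉`. -/
noncomputable def HlcFam (h : 𝔉'.Refines 𝔉) (n : ℕ) : Hlc 𝔉 A n ⟶ Hlc 𝔉' A n :=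
  HlcMap (MonoidHom.id G) (𝟙 A) h.compat n

lemma HlcFam_lcπ (h : 𝔉'.Refines 𝔉) (n : ℕ) (c : lcCocycles 𝔉 A n) :
    (HlcFam A h n).hom (lcπ 𝔉 A n c) =
      lcπ 𝔉' A n ⟨c.1, cochainsMap_mem_lcCocycles (MonoidHom.id G) (𝟙 A) h.compat c.2⟩ :=
  HlcMap_lcπ (MonoidHom.id G) (𝟙 A) h.compat n c

@[simp]
lemma HlcFam_rfl (n : ℕ) : HlcFam A 𝔉.refines_rfl n = 𝟙 (Hlc 𝔉 A n) :=
  HlcMap_id 𝔉 A n

@[reassoc]
lemma HlcFam_comp (h' : 𝔉''.Refines 𝔉') (h : 𝔉'.Refines 𝔉) (n : ℕ) :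
    HlcFam A h n ≫ HlcFam A h' n = HlcFam A (h'.trans h) n := by
  have hc : lcMap (MonoidHom.id G) (𝟙 A) h.compat ≫ lcMap (MonoidHom.id G) (𝟙 A) h'.compat =
      lcMap (MonoidHom.id G) (𝟙 A) (h'.trans h).compat := by
    ext n f : 3
    rfl
  rw [HlcFam, HlcFam, HlcFam, HlcMap, HlcMap, HlcMap, ← hc]
  exact (HomologicalComplex.homologyMap_comp _ _ _).symm

/-- Mutually cofinal families have isomorphic level-constant cohomology. -/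
noncomputable def HlcFamIso (h : 𝔉'.Refines 𝔉) (h' : 𝔉.Refines 𝔉') (n : ℕ) :
    Hlc 𝔉 A n ≅ Hlc 𝔉' A n where
  hom := HlcFam A h n
  inv := HlcFam A h' n
  hom_inv_id := by rw [HlcFam_comp]; exact HlcFam_rfl A n
  inv_hom_id := by rw [HlcFam_comp]; exact HlcFam_rfl A n

/-- `lcToH` is compatible with change of family. -/
@[reassoc]
lemma HlcFam_comp_lcToH (h : 𝔉'.Refines 𝔉) (n : ℕ) :
    HlcFam A h n ≫ lcToH 𝔉' A n = lcToH 𝔉 A n := by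
  rw [HlcFam, HlcMap_comp_lcToH, groupCohomology.map_id, Category.comp_id]

end Family

section FamilyMap

variable {G H : Type u} [Group G] [Group H] {𝔉G 𝔉G' : LevelFamily G} {𝔉H 𝔉H' : LevelFamily H}
  {A : Rep.{u} k G} {B : Rep.{u} k H} (ψ : H →* G) (φ : res ψ A ⟶ B)

/-- `HlcMap` commutes with change of families. -/
@[reassoc]
lemma HlcMap_comp_HlcFam (hψ : 𝔉H.Compat ψ 𝔉G) (hψ' : 𝔉H'.Compat ψ 𝔉G')
    (hG : 𝔉G'.Refines 𝔉G) (hH : 𝔉H'.Refines 𝔉H) (n : ℕ) :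
    HlcMap ψ φ hψ n ≫ HlcFam B hH n = HlcFam A hG n ≫ HlcMap ψ φ hψ' n := by
  have hc : lcMap ψ φ hψ ≫ lcMap (MonoidHom.id H) (𝟙 B) hH.compat =
      lcMap (MonoidHom.id G) (𝟙 A) hG.compat ≫ lcMap ψ φ hψ' := by
    ext n f : 3
    rfl
  exact (HomologicalComplex.homologyMap_comp _ _ n).symm.trans
    ((congrArg (fun f => HomologicalComplex.homologyMap f n) hc).trans
      (HomologicalComplex.homologyMap_comp _ _ n))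

end FamilyMap

end Fermat.Agent.PT
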