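import Mathlib
import Fermat.Agent.CFT.PT.CupH

/-!
# S55 engine (E4), part 3: naturality of the cup product under restriction / change of group

For `ψ : H →* G`, pairings `β : A × B → C` over `G` and `β' : A' × B' → C'` over `H`, and maps
`φA : res ψ A ⟶ A'`, `φB : res ψ B ⟶ B'`, `φC : res ψ C ⟶ C'` with
`β' (φA a) (φB b) = φC (β a b)` (`RepPairing.Compat`):

* `cochainsMap_cup`, `cochainsMap_cupN` : `cochainsMap (f ∪ g) = cochainsMap f ∪ cochainsMap g`;
* `HlcMap_cupH` : `HlcMap (x ∪ y) = HlcMap x ∪ HlcMap y` on level-constant cohomology.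
* `RepPairing.res ψ β` : the restricted pairing, `RepPairing.compat_res`.
-/

set_option autoImplicit false

namespace Fermat.Agent.PT

open CategoryTheory groupCohomology Rep

universe u

section TupNat

variable {G H : Type u} [Group G] [Group H] (ψ : H →* G)

theorem tupProd_comp {m : ℕ} (y : Fin m → H) : tupProd (ψ ∘ y) = ψ (tupProd y) := by
  induction m with
  | zero => rw [tupProd_zero, tupProd_zero, map_one]
  | succ m ih =>
    rw [tupProd_succ, tupProd_succ y, map_mul]
    congr 1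
    exact ih fun i => y i.succ

theorem tupFst_comp (m n : ℕ) (x : Fin (m + n) → H) :
    tupFst m n (ψ ∘ x) = ψ ∘ tupFst m n x := rfl

theorem tupSnd_comp (m n : ℕ) (x : Fin (m + n) → H) :
    tupSnd m n (ψ ∘ x) = ψ ∘ tupSnd m n x := rfl

end TupNat

section CupNat

variable {k G H : Type u} [CommRing k] [Group G] [Group H]
  {A B C : Rep.{u} k G} {A' B' C' : Rep.{u} k H}

/-- compatibility of two pairings along `ψ : H →* G` and maps of coefficients -/
def RepPairing.Compat (β : RepPairing A B C) (β' : RepPairing A' B' C') (ψ : H →* G)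
    (φA : res ψ A ⟶ A') (φB : res ψ B ⟶ B') (φC : res ψ C ⟶ C') : Prop :=
  ∀ (a : A) (b : B), β'.toLin (φA.hom a) (φB.hom b) = φC.hom (β.toLin a b)

variable (β : RepPairing A B C) (β' : RepPairing A' B' C') (ψ : H →* G)
  (φA : res ψ A ⟶ A') (φB : res ψ B ⟶ B') (φC : res ψ C ⟶ C')

theorem cochainsMap_f_hom_apply {X : Rep.{u} k G} {X' : Rep.{u} k H} (φ : res ψ X ⟶ X') (n : ℕ)
    (f : (Fin n → G) → X) (x : Fin n → H) :
    ((cochainsMap ψ φ).f n).hom f x = φ.hom (f (ψ ∘ x)) := rfl

/-- **naturality of the cup product of cochains** -/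
theorem cochainsMap_cup (hβ : β.Compat β' ψ φA φB φC) (m n : ℕ) (f : (Fin m → G) → A)
    (g : (Fin n → G) → B) :
    ((cochainsMap ψ φC).f (m + n)).hom (cup β m n f g) =
      cup β' m n (((cochainsMap ψ φA).f m).hom f) (((cochainsMap ψ φB).f n).hom g) := by
  funext x
  rw [cochainsMap_f_hom_apply, cup_apply, cup_apply, cochainsMap_f_hom_apply,
    cochainsMap_f_hom_apply, tupFst_comp, tupSnd_comp, tupProd_comp, ← hβ]
  congr 1
  exact Rep.hom_comm_apply φB (tupProd (tupFst m n x)) (g (ψ ∘ tupSnd m n x))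

theorem cochainsMap_castCochain {X : Rep.{u} k G} {X' : Rep.{u} k H} (φ : res ψ X ⟶ X')
    {a b : ℕ} (h : a = b) (f : (Fin a → G) → X) :
    ((cochainsMap ψ φ).f b).hom (castCochain h f) =
      castCochain h (((cochainsMap ψ φ).f a).hom f) := by
  subst h
  rfl

/-- naturality of the cup product of cochains, degree-free version -/
theorem cochainsMap_cupN (hβ : β.Compat β' ψ φA φB φC) {m n N : ℕ} (h : m + n = N)
    (f : (Fin m → G) → A) (g : (Fin n → G) → B) :
    ((cochainsMap ψ φC).f N).hom (cupN β h f g) =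
      cupN β' h (((cochainsMap ψ φA).f m).hom f) (((cochainsMap ψ φB).f n).hom g) := by
  subst h
  exact cochainsMap_cup β β' ψ φA φB φC hβ m n f g

variable {𝔉H : LevelFamily H} {𝔉G : LevelFamily G}

/-- **naturality of the cup product on level-constant cohomology** -/
theorem HlcMap_cupH (hβ : β.Compat β' ψ φA φB φC) (hψ : 𝔉H.Compat ψ 𝔉G) {m n N : ℕ}
    (h : m + n = N) (x : Hlc 𝔉G A m) (y : Hlc 𝔉G B n) :
    (HlcMap ψ φC hψ N).hom (cupH 𝔉G β h x y) =
      cupH 𝔉H β' h ((HlcMap ψ φA hψ m).hom x) ((HlcMap ψ φB hψ n).hom y) := by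
  obtain ⟨c, rfl⟩ := lcπ_surjective 𝔉G A m x
  obtain ⟨c', rfl⟩ := lcπ_surjective 𝔉G B n y
  rw [cupH_lcπ, HlcMap_lcπ, HlcMap_lcπ, HlcMap_lcπ, cupH_lcπ]
  congr 1
  apply Subtype.ext
  exact cochainsMap_cupN β β' ψ φA φB φC hβ h c.1 c'.1

end CupNat

section ResPairing

variable {k G H : Type u} [CommRing k] [Group G] [Group H] {A B C : Rep.{u} k G}

/-- restriction of a pairing along a group homomorphism -/
def RepPairing.res (ψ : H →* G) (β : RepPairing A B C) :
    RepPairing (Rep.res ψ A) (Rep.res ψ B) (Rep.res ψ C) where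
  toLin := β.toLin
  map_ρ h a b := β.map_ρ (ψ h) a b

theorem RepPairing.compat_res (ψ : H →* G) (β : RepPairing A B C) :
    β.Compat (β.res ψ) ψ (𝟙 _) (𝟙 _) (𝟙 _) := fun _ _ => rfl

/-- change of coefficients (same group): a compatible triple of morphisms -/
theorem RepPairing.compat_id_iff {A' B' C' : Rep.{u} k G} (β : RepPairing A B C)
    (β' : RepPairing A' B' C') (φA : A ⟶ A') (φB : B ⟶ B') (φC : C ⟶ C') :
    β.Compat β' (MonoidHom.id G) φA φB φC ↔
      ∀ (a : A) (b : B), β'.toLin (φA.hom a) (φB.hom b) = φC.hom (β.toLin a b) := Iff.rfl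

end ResPairing

end Fermat.Agent.PT
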