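import Mathlib
import Fermat.Agent.CFT.PT.CupNat

/-!
# S55 engine (E5): compactly supported (cone) cohomology and its long exact sequence

`LocSystem 𝔉` : a family of "local" groups `Gv v` with level families and compatible maps
`ψ v : Gv v →* G`.  For `A : Rep k G` the **cone cochains** in *cone degree* `n` (= compactly
supported cochains of degree `n + 1`) are pairs `(a, b)` with `a` a level-constant `(n+1)`-cochain
of `G` and `b v` a level-constant `n`-cochain of `Gv v`; the differential is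
`(a, b) ↦ (d a, res_v a - d (b v))`.

* `Hcc 𝔏 A n` : cone cohomology in cone degree `n` (i.e. `H_c^{n+1}`), a plain quotient module;
  `ccπ`, `ccπ_surjective`, `ccπ_eq_zero_iff`.
* `locRes`, `ccδ`, `ccToH` : the maps of the long exact sequence
  `Hlc^n(G) → ∏ Hlc^n(G_v) → Hcc^n → Hlc^{n+1}(G) → ∏ Hlc^{n+1}(G_v)`
  and its exactness (`ccδ_locRes`, `exists_locRes_eq_of_ccδ_eq_zero`, `ccToH_ccδ`,
  `exists_ccδ_eq_of_ccToH_eq_zero`, `locRes_ccToH`, `exists_ccToH_eq_of_locRes_eq_zero`).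
* general API: `IsLcCoboundary.add/neg/sub/smul`, `lcCoboundaries`, `HlcLift` (maps out of `Hlc`
  defined on cocycles), `Hlc_hom_ext`.
-/

set_option autoImplicit false

namespace Fermat.Agent.PT

open CategoryTheory groupCohomology Rep

universe u

variable {k G : Type u} [CommRing k] [Group G]

/-! ### More API for level-constant coboundaries -/

section CoboundaryAPI

variable {𝔉 : LevelFamily G} {A : Rep.{u} k G}

theorem d_d_apply {n : ℕ} (f : (Fin n → G) → A) :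
    (inhomogeneousCochains.d A (n + 1)).hom ((inhomogeneousCochains.d A n).hom f) = 0 :=
  congr($(groupCohomology.inhomogeneousCochains.d_comp_d n A) f)

theorem IsLcCoboundary.add {n : ℕ} {c c' : (Fin n → G) → A} (hc : IsLcCoboundary 𝔉 A n c)
    (hc' : IsLcCoboundary 𝔉 A n c') : IsLcCoboundary 𝔉 A n (c + c') := by
  cases n with
  | zero =>
    have h0 : c = 0 := hc
    have h0' : c' = 0 := hc'
    rw [h0, h0', add_zero]
    exact isLcCoboundary_zero 𝔉 A 0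
  | succ n =>
    obtain ⟨h, hh, rfl⟩ := hc
    obtain ⟨h', hh', rfl⟩ := hc'
    exact ⟨h + h', Submodule.add_mem _ hh hh', map_add _ _ _⟩

theorem IsLcCoboundary.smul {n : ℕ} (r : k) {c : (Fin n → G) → A}
    (hc : IsLcCoboundary 𝔉 A n c) : IsLcCoboundary 𝔉 A n (r • c) := by
  cases n with
  | zero =>
    have h0 : c = 0 := hc
    rw [h0, smul_zero]
    exact isLcCoboundary_zero 𝔉 A 0
  | succ n =>
    obtain ⟨h, hh, rfl⟩ := hc
    exact ⟨r • h, Submodule.smul_mem _ _ hh, map_smul _ _ _⟩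

variable (𝔉 A) in
/-- the submodule of level-constant coboundaries -/
def lcCoboundaries (n : ℕ) : Submodule k ((Fin n → G) → A) where
  carrier := {c | IsLcCoboundary 𝔉 A n c}
  add_mem' := IsLcCoboundary.add
  zero_mem' := isLcCoboundary_zero 𝔉 A n
  smul_mem' r _ hc := IsLcCoboundary.smul r hc

theorem mem_lcCoboundaries {n : ℕ} {c : (Fin n → G) → A} :
    c ∈ lcCoboundaries 𝔉 A n ↔ IsLcCoboundary 𝔉 A n c := Iff.rfl

theorem IsLcCoboundary.neg {n : ℕ} {c : (Fin n → G) → A} (hc : IsLcCoboundary 𝔉 A n c) :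
    IsLcCoboundary 𝔉 A n (-c) :=
  (lcCoboundaries 𝔉 A n).neg_mem hc

theorem IsLcCoboundary.sub {n : ℕ} {c c' : (Fin n → G) → A} (hc : IsLcCoboundary 𝔉 A n c)
    (hc' : IsLcCoboundary 𝔉 A n c') : IsLcCoboundary 𝔉 A n (c - c') :=
  (lcCoboundaries 𝔉 A n).sub_mem hc hc'

theorem isLcCoboundary_d {n : ℕ} {f : (Fin n → G) → A} (hf : f ∈ lcCochains 𝔉 A n) :
    IsLcCoboundary 𝔉 A (n + 1) ((inhomogeneousCochains.d A n).hom f) :=
  ⟨f, hf, rfl⟩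

theorem IsLcCoboundary.mem_lcCocycles {n : ℕ} {c : (Fin n → G) → A}
    (hc : IsLcCoboundary 𝔉 A n c) : c ∈ lcCocycles 𝔉 A n := by
  cases n with
  | zero =>
    have h0 : c = 0 := hc
    rw [h0]
    exact Submodule.zero_mem _
  | succ n =>
    obtain ⟨h, hh, rfl⟩ := hc
    exact ⟨d_mem_lcCochains 𝔉 hh, LinearMap.mem_ker.2 (d_d_apply h)⟩

theorem lcCoboundaries_le_lcCocycles (n : ℕ) : lcCoboundaries 𝔉 A n ≤ lcCocycles 𝔉 A n :=
  fun _ hc => IsLcCoboundary.mem_lcCocycles hc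

variable (𝔉 A) in
theorem ker_lcπ (n : ℕ) :
    LinearMap.ker (lcπ 𝔉 A n) = (lcCoboundaries 𝔉 A n).comap (lcCocycles 𝔉 A n).subtype := by
  ext c
  rw [LinearMap.mem_ker, lcπ_eq_zero_iff']
  rfl

theorem lcπ_eq_lcπ_iff {n : ℕ} (c c' : lcCocycles 𝔉 A n) :
    lcπ 𝔉 A n c = lcπ 𝔉 A n c' ↔ IsLcCoboundary 𝔉 A n (c.1 - c'.1) := by
  rw [← sub_eq_zero, ← map_sub, lcπ_eq_zero_iff']
  rfl

variable (𝔉 A) in
/-- a linear map on level-constant cocycles killing the coboundaries descends to `Hlc`. -/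
noncomputable def HlcLift {M : Type*} [AddCommGroup M] [Module k M] (n : ℕ)
    (f : lcCocycles 𝔉 A n →ₗ[k] M)
    (hf : ∀ c : lcCocycles 𝔉 A n, IsLcCoboundary 𝔉 A n c.1 → f c = 0) : Hlc 𝔉 A n →ₗ[k] M :=
  ((LinearMap.ker (lcπ 𝔉 A n)).liftQ f (fun c hc =>
      LinearMap.mem_ker.2 (hf c ((lcπ_eq_zero_iff' 𝔉 A n c).1 (LinearMap.mem_ker.1 hc))))) ∘ₗ
    ((lcπ 𝔉 A n).quotKerEquivOfSurjective (lcπ_surjective 𝔉 A n)).symm.toLinearMap

@[simp] theorem HlcLift_lcπ {M : Type*} [AddCommGroup M] [Module k M] (n : ℕ)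
    (f : lcCocycles 𝔉 A n →ₗ[k] M)
    (hf : ∀ c : lcCocycles 𝔉 A n, IsLcCoboundary 𝔉 A n c.1 → f c = 0) (c : lcCocycles 𝔉 A n) :
    HlcLift 𝔉 A n f hf (lcπ 𝔉 A n c) = f c := by
  have h : ((lcπ 𝔉 A n).quotKerEquivOfSurjective (lcπ_surjective 𝔉 A n)).symm (lcπ 𝔉 A n c) =
      Submodule.Quotient.mk c := by
    rw [LinearEquiv.symm_apply_eq]
    rfl
  unfold HlcLift
  rw [LinearMap.comp_apply, LinearEquiv.coe_coe, h]
  rfl

theorem Hlc_hom_ext {M : Type*} [AddCommGroup M] [Module k M] {n : ℕ}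
    {f g : Hlc 𝔉 A n →ₗ[k] M} (h : ∀ c : lcCocycles 𝔉 A n, f (lcπ 𝔉 A n c) = g (lcπ 𝔉 A n c)) :
    f = g := by
  ext x
  obtain ⟨c, rfl⟩ := lcπ_surjective 𝔉 A n x
  exact h c

end CoboundaryAPI

/-! ### Naturality of coboundaries -/

section CoboundaryNat

variable {H : Type u} [Group H] {A : Rep.{u} k G} {B : Rep.{u} k H} (ψ : H →* G)
  (φ : res ψ A ⟶ B) {𝔉H : LevelFamily H} {𝔉G : LevelFamily G}

theorem cochainsMap_d_apply {n : ℕ} (f : (Fin n → G) → A) :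
    ((cochainsMap ψ φ).f (n + 1)).hom ((inhomogeneousCochains.d A n).hom f) =
      (inhomogeneousCochains.d B n).hom (((cochainsMap ψ φ).f n).hom f) := by
  have h := (cochainsMap ψ φ).comm n (n + 1)
  rw [inhomogeneousCochains.d_def, inhomogeneousCochains.d_def] at h
  exact (congr($h f)).symm

theorem IsLcCoboundary.cochainsMap (hψ : 𝔉H.Compat ψ 𝔉G) {n : ℕ} {c : (Fin n → G) → A}
    (hc : IsLcCoboundary 𝔉G A n c) : IsLcCoboundary 𝔉H B n (((cochainsMap ψ φ).f n).hom c) := by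
  cases n with
  | zero =>
    have h0 : c = 0 := hc
    rw [h0, map_zero]
    exact isLcCoboundary_zero 𝔉H B 0
  | succ n =>
    obtain ⟨h, hh, rfl⟩ := hc
    exact ⟨((groupCohomology.cochainsMap ψ φ).f n).hom h, cochainsMap_mem_lcCochains ψ φ hψ hh,
      (cochainsMap_d_apply ψ φ h).symm⟩

end CoboundaryNat

/-! ### Descending linear maps along surjections -/

section Descend

variable {R P Q M : Type*} [Ring R] [AddCommGroup P] [Module R P] [AddCommGroup Q] [Module R Q]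
  [AddCommGroup M] [Module R M]

/-- a linear map `f` killing the kernel of a surjective linear map `p` descends along `p`. -/
noncomputable def linDescend (p : P →ₗ[R] Q) (hp : Function.Surjective p) (f : P →ₗ[R] M)
    (hf : LinearMap.ker p ≤ LinearMap.ker f) : Q →ₗ[R] M :=
  ((LinearMap.ker p).liftQ f hf) ∘ₗ (p.quotKerEquivOfSurjective hp).symm.toLinearMap

@[simp] theorem linDescend_apply (p : P →ₗ[R] Q) (hp : Function.Surjective p) (f : P →ₗ[R] M)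
    (hf : LinearMap.ker p ≤ LinearMap.ker f) (x : P) : linDescend p hp f hf (p x) = f x := by
  have h : (p.quotKerEquivOfSurjective hp).symm (p x) = Submodule.Quotient.mk x := by
    rw [LinearEquiv.symm_apply_eq]
    rfl
  unfold linDescend
  rw [LinearMap.comp_apply, LinearEquiv.coe_coe, h]
  rfl

end Descend

/-! ### Local systems and the cone complex -/

/-- a system of "local" groups with level families over `(G, 𝔉)` -/
structure LocSystem (𝔉 : LevelFamily G) where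
  /-- the index set (places) -/
  ι : Type u
  /-- the local groups -/
  Gv : ι → Type u
  [grp : ∀ v, Group (Gv v)]
  /-- the local level families -/
  fam : ∀ v, LevelFamily (Gv v)
  /-- the maps to the global group -/
  ψ : ∀ v, Gv v →* G
  compat : ∀ v, (fam v).Compat (ψ v) 𝔉

attribute [instance] LocSystem.grp

section Cone

variable {𝔉 : LevelFamily G} (𝔏 : LocSystem 𝔉) (A : Rep.{u} k G)

/-- the coefficient module restricted to the local group at `v` -/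
abbrev LocSystem.coeff (v : 𝔏.ι) : Rep.{u} k (𝔏.Gv v) := res (𝔏.ψ v) A

/-- restriction of cochains to the local group at `v` -/
noncomputable def resLoc (v : 𝔏.ι) (n : ℕ) :
    ((Fin n → G) → A) →ₗ[k] ((Fin n → 𝔏.Gv v) → 𝔏.coeff A v) :=
  ((cochainsMap (𝔏.ψ v) (𝟙 (res (𝔏.ψ v) A))).f n).hom

theorem resLoc_apply (v : 𝔏.ι) (n : ℕ) (f : (Fin n → G) → A) (x : Fin n → 𝔏.Gv v) :
    resLoc 𝔏 A v n f x = f (𝔏.ψ v ∘ x) := rfl

theorem resLoc_d (v : 𝔏.ι) (n : ℕ) (f : (Fin n → G) → A) :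
    resLoc 𝔏 A v (n + 1) ((inhomogeneousCochains.d A n).hom f) =
      (inhomogeneousCochains.d (𝔏.coeff A v) n).hom (resLoc 𝔏 A v n f) :=
  cochainsMap_d_apply (𝔏.ψ v) (𝟙 (res (𝔏.ψ v) A)) f

variable {𝔏 A} in
theorem resLoc_mem_lcCochains (v : 𝔏.ι) {n : ℕ} {f : (Fin n → G) → A}
    (hf : f ∈ lcCochains 𝔉 A n) : resLoc 𝔏 A v n f ∈ lcCochains (𝔏.fam v) (𝔏.coeff A v) n :=
  cochainsMap_mem_lcCochains (𝔏.ψ v) (𝟙 (res (𝔏.ψ v) A)) (𝔏.compat v) hf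

variable {𝔏 A} in
theorem resLoc_mem_lcCocycles (v : 𝔏.ι) {n : ℕ} {f : (Fin n → G) → A}
    (hf : f ∈ lcCocycles 𝔉 A n) : resLoc 𝔏 A v n f ∈ lcCocycles (𝔏.fam v) (𝔏.coeff A v) n :=
  cochainsMap_mem_lcCocycles (𝔏.ψ v) (𝟙 (res (𝔏.ψ v) A)) (𝔏.compat v) hf

variable {𝔏 A} in
theorem IsLcCoboundary.resLoc (v : 𝔏.ι) {n : ℕ} {f : (Fin n → G) → A}
    (hf : IsLcCoboundary 𝔉 A n f) :
    IsLcCoboundary (𝔏.fam v) (𝔏.coeff A v) n (Fermat.Agent.PT.resLoc 𝔏 A v n f) :=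
  IsLcCoboundary.cochainsMap (𝔏.ψ v) (𝟙 (res (𝔏.ψ v) A)) (𝔏.compat v) hf

/-- the ambient module of cone cochains of cone degree `n` -/
abbrev ConeAmb (n : ℕ) : Type u :=
  ((Fin (n + 1) → G) → A) × (∀ v : 𝔏.ι, (Fin n → 𝔏.Gv v) → 𝔏.coeff A v)

/-- the differential of the cone complex: `(a, b) ↦ (d a, res_v a - d (b v))` -/
noncomputable def coneD (n : ℕ) : ConeAmb 𝔏 A n →ₗ[k] ConeAmb 𝔏 A (n + 1) :=
  LinearMap.prod ((inhomogeneousCochains.d A (n + 1)).hom ∘ₗ LinearMap.fst k _ _)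
    (LinearMap.pi fun v => resLoc 𝔏 A v (n + 1) ∘ₗ LinearMap.fst k _ _ -
      (inhomogeneousCochains.d (𝔏.coeff A v) n).hom ∘ₗ LinearMap.proj v ∘ₗ LinearMap.snd k _ _)

@[simp] theorem coneD_fst (n : ℕ) (z : ConeAmb 𝔏 A n) :
    (coneD 𝔏 A n z).1 = (inhomogeneousCochains.d A (n + 1)).hom z.1 := rfl

@[simp] theorem coneD_snd (n : ℕ) (z : ConeAmb 𝔏 A n) (v : 𝔏.ι) :
    (coneD 𝔏 A n z).2 v =
      resLoc 𝔏 A v (n + 1) z.1 - (inhomogeneousCochains.d (𝔏.coeff A v) n).hom (z.2 v) := rfl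

/-- the augmentation `a' ↦ (d a', res a')` (the differential out of cone degree `-1` when
`n = 0`, and `coneD (a', 0)` in general) -/
noncomputable def coneAug (n : ℕ) : ((Fin n → G) → A) →ₗ[k] ConeAmb 𝔏 A n :=
  LinearMap.prod (inhomogeneousCochains.d A n).hom (LinearMap.pi fun v => resLoc 𝔏 A v n)

@[simp] theorem coneAug_fst (n : ℕ) (a : (Fin n → G) → A) :
    (coneAug 𝔏 A n a).1 = (inhomogeneousCochains.d A n).hom a := rfl

@[simp] theorem coneAug_snd (n : ℕ) (a : (Fin n → G) → A) (v : 𝔏.ι) :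
    (coneAug 𝔏 A n a).2 v = resLoc 𝔏 A v n a := rfl

theorem coneD_coneD (n : ℕ) (z : ConeAmb 𝔏 A n) : coneD 𝔏 A (n + 1) (coneD 𝔏 A n z) = 0 := by
  refine Prod.ext ?_ (funext fun v => ?_)
  · rw [coneD_fst, coneD_fst, d_d_apply]
    rfl
  · rw [coneD_snd, coneD_fst, coneD_snd, resLoc_d, map_sub, d_d_apply, sub_zero, sub_self]
    rfl

theorem coneD_coneAug (n : ℕ) (a : (Fin n → G) → A) : coneD 𝔏 A n (coneAug 𝔏 A n a) = 0 := by
  refine Prod.ext ?_ (funext fun v => ?_)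
  · rw [coneD_fst, coneAug_fst, d_d_apply]
    rfl
  · rw [coneD_snd, coneAug_fst, coneAug_snd, resLoc_d, sub_self]
    rfl

/-- level-constant cone cochains -/
def coneCochains (n : ℕ) : Submodule k (ConeAmb 𝔏 A n) :=
  (lcCochains 𝔉 A (n + 1)).prod
    (Submodule.pi Set.univ fun v => lcCochains (𝔏.fam v) (𝔏.coeff A v) n)

variable {𝔏 A} in
theorem mem_coneCochains {n : ℕ} {z : ConeAmb 𝔏 A n} :
    z ∈ coneCochains 𝔏 A n ↔
      z.1 ∈ lcCochains 𝔉 A (n + 1) ∧ ∀ v, z.2 v ∈ lcCochains (𝔏.fam v) (𝔏.coeff A v) n := by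
  simp [coneCochains, Submodule.mem_prod, Submodule.mem_pi]

variable {𝔏 A} in
theorem coneD_mem_coneCochains {n : ℕ} {z : ConeAmb 𝔏 A n} (hz : z ∈ coneCochains 𝔏 A n) :
    coneD 𝔏 A n z ∈ coneCochains 𝔏 A (n + 1) := by
  rw [mem_coneCochains] at hz ⊢
  refine ⟨d_mem_lcCochains 𝔉 hz.1, fun v => ?_⟩
  rw [coneD_snd]
  exact Submodule.sub_mem _ (resLoc_mem_lcCochains v hz.1) (d_mem_lcCochains _ (hz.2 v))

/-- level-constant cone cocycles -/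
noncomputable def coneCocycles (n : ℕ) : Submodule k (ConeAmb 𝔏 A n) :=
  coneCochains 𝔏 A n ⊓ LinearMap.ker (coneD 𝔏 A n)

variable {𝔏 A} in
theorem mem_coneCocycles {n : ℕ} {z : ConeAmb 𝔏 A n} :
    z ∈ coneCocycles 𝔏 A n ↔
      (z.1 ∈ lcCochains 𝔉 A (n + 1) ∧ ∀ v, z.2 v ∈ lcCochains (𝔏.fam v) (𝔏.coeff A v) n) ∧
      (inhomogeneousCochains.d A (n + 1)).hom z.1 = 0 ∧
      ∀ v, resLoc 𝔏 A v (n + 1) z.1 = (inhomogeneousCochains.d (𝔏.coeff A v) n).hom (z.2 v) := by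
  rw [coneCocycles, Submodule.mem_inf, mem_coneCochains, LinearMap.mem_ker]
  refine and_congr Iff.rfl ?_
  constructor
  · intro h
    refine ⟨congrArg Prod.fst h, fun v => ?_⟩
    have h2 := congrFun (congrArg Prod.snd h) v
    rw [coneD_snd] at h2
    exact sub_eq_zero.1 h2
  · rintro ⟨h1, h2⟩
    refine Prod.ext h1 (funext fun v => ?_)
    rw [coneD_snd, h2 v, sub_self]
    rfl

/-- cone coboundaries: `(d a', b)` with `res_v a' - b v` a local coboundary -/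
def coneCoboundaries (n : ℕ) : Submodule k (ConeAmb 𝔏 A n) where
  carrier := {z | ∃ a' ∈ lcCochains 𝔉 A n, (inhomogeneousCochains.d A n).hom a' = z.1 ∧
    ∀ v, IsLcCoboundary (𝔏.fam v) (𝔏.coeff A v) n (resLoc 𝔏 A v n a' - z.2 v)}
  add_mem' := by
    rintro z z' ⟨a, ha, h1, h2⟩ ⟨a', ha', h1', h2'⟩
    refine ⟨a + a', Submodule.add_mem _ ha ha', ?_, fun v => ?_⟩
    · rw [map_add, h1, h1']
      rfl
    · have e : resLoc 𝔏 A v n (a + a') - (z + z').2 v =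
          (resLoc 𝔏 A v n a - z.2 v) + (resLoc 𝔏 A v n a' - z'.2 v) := by
        rw [map_add]
        change _ - (z.2 v + z'.2 v) = _
        abel
      rw [e]
      exact (h2 v).add (h2' v)
  zero_mem' := ⟨0, Submodule.zero_mem _, map_zero _, fun v => by
    rw [map_zero]
    change IsLcCoboundary _ _ n (0 - 0)
    rw [sub_zero]
    exact isLcCoboundary_zero _ _ n⟩
  smul_mem' := by
    rintro r z ⟨a, ha, h1, h2⟩
    refine ⟨r • a, Submodule.smul_mem _ _ ha, ?_, fun v => ?_⟩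
    · rw [map_smul, h1]
      rfl
    · have e : resLoc 𝔏 A v n (r • a) - (r • z).2 v = r • (resLoc 𝔏 A v n a - z.2 v) := by
        rw [map_smul, smul_sub]
        rfl
      rw [e]
      exact (h2 v).smul r

variable {𝔏 A} in
theorem mem_coneCoboundaries {n : ℕ} {z : ConeAmb 𝔏 A n} :
    z ∈ coneCoboundaries 𝔏 A n ↔
      ∃ a' ∈ lcCochains 𝔉 A n, (inhomogeneousCochains.d A n).hom a' = z.1 ∧
        ∀ v, IsLcCoboundary (𝔏.fam v) (𝔏.coeff A v) n (resLoc 𝔏 A v n a' - z.2 v) := Iff.rfl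

theorem coneCoboundaries_le_coneCocycles (n : ℕ) :
    coneCoboundaries 𝔏 A n ≤ coneCocycles 𝔏 A n := by
  rintro z ⟨a', ha', h1, h2⟩
  rw [mem_coneCocycles]
  have hb : ∀ v, z.2 v = resLoc 𝔏 A v n a' - (resLoc 𝔏 A v n a' - z.2 v) := fun v => by abel
  refine ⟨⟨h1 ▸ d_mem_lcCochains 𝔉 ha', fun v => ?_⟩, ?_, fun v => ?_⟩
  · rw [hb v]
    exact Submodule.sub_mem _ (resLoc_mem_lcCochains v ha') (h2 v).mem_lcCocycles.1
  · rw [← h1, d_d_apply]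
  · rw [hb v, map_sub, LinearMap.mem_ker.1 (h2 v).mem_lcCocycles.2, sub_zero, ← h1, resLoc_d]

variable {𝔏 A} in
theorem coneAug_mem_coneCoboundaries {n : ℕ} {a : (Fin n → G) → A}
    (ha : a ∈ lcCochains 𝔉 A n) : coneAug 𝔏 A n a ∈ coneCoboundaries 𝔏 A n :=
  ⟨a, ha, rfl, fun v => by
    rw [coneAug_snd, sub_self]
    exact isLcCoboundary_zero _ _ n⟩

variable {𝔏 A} in
theorem coneD_mem_coneCoboundaries {n : ℕ} {z : ConeAmb 𝔏 A n} (hz : z ∈ coneCochains 𝔏 A n) :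
    coneD 𝔏 A n z ∈ coneCoboundaries 𝔏 A (n + 1) := by
  rw [mem_coneCochains] at hz
  refine ⟨z.1, hz.1, rfl, fun v => ?_⟩
  rw [coneD_snd, sub_sub_cancel]
  exact isLcCoboundary_d (hz.2 v)

/-- **cone cohomology** in cone degree `n` (compactly supported cohomology `H_c^{n+1}`) -/
abbrev Hcc (n : ℕ) : Type u :=
  ↥(coneCocycles 𝔏 A n) ⧸ (coneCoboundaries 𝔏 A n).comap (coneCocycles 𝔏 A n).subtype

/-- the class of a cone cocycle -/
noncomputable def ccπ (n : ℕ) : coneCocycles 𝔏 A n →ₗ[k] Hcc 𝔏 A n :=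
  ((coneCoboundaries 𝔏 A n).comap (coneCocycles 𝔏 A n).subtype).mkQ

theorem ccπ_surjective (n : ℕ) : Function.Surjective (ccπ 𝔏 A n) :=
  Submodule.mkQ_surjective _

variable {𝔏 A} in
theorem ccπ_eq_zero_iff {n : ℕ} (z : coneCocycles 𝔏 A n) :
    ccπ 𝔏 A n z = 0 ↔ z.1 ∈ coneCoboundaries 𝔏 A n := by
  change Submodule.Quotient.mk z = 0 ↔ _
  rw [Submodule.Quotient.mk_eq_zero]
  rfl

variable {𝔏 A} in
theorem ccπ_eq_ccπ_iff {n : ℕ} (z z' : coneCocycles 𝔏 A n) :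
    ccπ 𝔏 A n z = ccπ 𝔏 A n z' ↔ z.1 - z'.1 ∈ coneCoboundaries 𝔏 A n := by
  rw [← sub_eq_zero, ← map_sub, ccπ_eq_zero_iff]
  rfl

/-! ### The maps of the long exact sequence -/

/-- the total localisation map `Hlc^n(G, A) → ∏_v Hlc^n(G_v, A)` -/
noncomputable def locRes (n : ℕ) :
    Hlc 𝔉 A n →ₗ[k] ∀ v : 𝔏.ι, Hlc (𝔏.fam v) (𝔏.coeff A v) n :=
  LinearMap.pi fun v => (HlcMap (𝔏.ψ v) (𝟙 (res (𝔏.ψ v) A)) (𝔏.compat v) n).hom

theorem locRes_apply (n : ℕ) (x : Hlc 𝔉 A n) (v : 𝔏.ι) :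
    locRes 𝔏 A n x v = (HlcMap (𝔏.ψ v) (𝟙 (res (𝔏.ψ v) A)) (𝔏.compat v) n).hom x := rfl

theorem locRes_lcπ (n : ℕ) (c : lcCocycles 𝔉 A n) (v : 𝔏.ι) :
    locRes 𝔏 A n (lcπ 𝔉 A n c) v =
      lcπ (𝔏.fam v) (𝔏.coeff A v) n ⟨resLoc 𝔏 A v n c.1, resLoc_mem_lcCocycles v c.2⟩ :=
  HlcMap_lcπ (𝔏.ψ v) (𝟙 (res (𝔏.ψ v) A)) (𝔏.compat v) n c

/-- families of local cocycles -/
abbrev LocCocycles (n : ℕ) : Type u := ∀ v : 𝔏.ι, lcCocycles (𝔏.fam v) (𝔏.coeff A v) n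

/-- the class map on families of local cocycles -/
noncomputable def locπ (n : ℕ) :
    LocCocycles 𝔏 A n →ₗ[k] ∀ v : 𝔏.ι, Hlc (𝔏.fam v) (𝔏.coeff A v) n :=
  LinearMap.pi fun v => lcπ (𝔏.fam v) (𝔏.coeff A v) n ∘ₗ LinearMap.proj v

@[simp] theorem locπ_apply (n : ℕ) (b : LocCocycles 𝔏 A n) (v : 𝔏.ι) :
    locπ 𝔏 A n b v = lcπ (𝔏.fam v) (𝔏.coeff A v) n (b v) := rfl

theorem locπ_surjective (n : ℕ) : Function.Surjective (locπ 𝔏 A n) := by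
  intro y
  choose b hb using fun v => lcπ_surjective (𝔏.fam v) (𝔏.coeff A v) n (y v)
  exact ⟨b, funext hb⟩

variable {𝔏 A} in
theorem locπ_eq_zero_iff {n : ℕ} (b : LocCocycles 𝔏 A n) :
    locπ 𝔏 A n b = 0 ↔ ∀ v, IsLcCoboundary (𝔏.fam v) (𝔏.coeff A v) n (b v).1 := by
  rw [funext_iff]
  exact forall_congr' fun v => lcπ_eq_zero_iff' _ _ n (b v)

/-- `(0, b)` for a family of local cocycles `b` -/
noncomputable def coneOfLoc (n : ℕ) : LocCocycles 𝔏 A n →ₗ[k] coneCocycles 𝔏 A n :=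
  LinearMap.codRestrict (coneCocycles 𝔏 A n)
    (LinearMap.inr k _ _ ∘ₗ LinearMap.pi fun v =>
      (lcCocycles (𝔏.fam v) (𝔏.coeff A v) n).subtype ∘ₗ LinearMap.proj v)
    (fun b => by
      rw [mem_coneCocycles]
      refine ⟨⟨Submodule.zero_mem _, fun v => (b v).2.1⟩, map_zero _, fun v => ?_⟩
      change resLoc 𝔏 A v (n + 1) 0 = (inhomogeneousCochains.d (𝔏.coeff A v) n).hom (b v).1
      rw [map_zero, LinearMap.mem_ker.1 (b v).2.2])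

@[simp] theorem coneOfLoc_fst (n : ℕ) (b : LocCocycles 𝔏 A n) : (coneOfLoc 𝔏 A n b).1.1 = 0 := rfl

@[simp] theorem coneOfLoc_snd (n : ℕ) (b : LocCocycles 𝔏 A n) (v : 𝔏.ι) :
    (coneOfLoc 𝔏 A n b).1.2 v = (b v).1 := rfl

/-- the connecting map `∏_v Hlc^n(G_v, A) → Hcc^n` : the class of `b` goes to the class of
`(0, b)` -/
noncomputable def ccδ (n : ℕ) : (∀ v : 𝔏.ι, Hlc (𝔏.fam v) (𝔏.coeff A v) n) →ₗ[k] Hcc 𝔏 A n :=
  linDescend (locπ 𝔏 A n) (locπ_surjective 𝔏 A n) (ccπ 𝔏 A n ∘ₗ coneOfLoc 𝔏 A n) (by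
    intro b hb
    rw [LinearMap.mem_ker] at hb ⊢
    rw [locπ_eq_zero_iff] at hb
    rw [LinearMap.comp_apply, ccπ_eq_zero_iff]
    refine ⟨0, Submodule.zero_mem _, map_zero _, fun v => ?_⟩
    rw [map_zero, zero_sub, coneOfLoc_snd]
    exact (hb v).neg)

@[simp] theorem ccδ_locπ (n : ℕ) (b : LocCocycles 𝔏 A n) :
    ccδ 𝔏 A n (locπ 𝔏 A n b) = ccπ 𝔏 A n (coneOfLoc 𝔏 A n b) :=
  linDescend_apply _ _ _ _ b

/-- the global component of a cone cocycle -/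
noncomputable def coneFst (n : ℕ) : coneCocycles 𝔏 A n →ₗ[k] lcCocycles 𝔉 A (n + 1) :=
  LinearMap.codRestrict (lcCocycles 𝔉 A (n + 1))
    (LinearMap.fst k _ _ ∘ₗ (coneCocycles 𝔏 A n).subtype)
    (fun z => by
      have hz := mem_coneCocycles.1 z.2
      exact ⟨hz.1.1, LinearMap.mem_ker.2 hz.2.1⟩)

@[simp] theorem coneFst_coe (n : ℕ) (z : coneCocycles 𝔏 A n) : (coneFst 𝔏 A n z).1 = z.1.1 := rfl

/-- the map `Hcc^n → Hlc^{n+1}(G, A)` forgetting the local trivialisations -/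
noncomputable def ccToH (n : ℕ) : Hcc 𝔏 A n →ₗ[k] Hlc 𝔉 A (n + 1) :=
  Submodule.liftQ _ (lcπ 𝔉 A (n + 1) ∘ₗ coneFst 𝔏 A n) (by
    rintro z ⟨a', ha', h1, -⟩
    rw [LinearMap.mem_ker, LinearMap.comp_apply, lcπ_eq_zero_iff']
    exact ⟨a', ha', h1⟩)

@[simp] theorem ccToH_ccπ (n : ℕ) (z : coneCocycles 𝔏 A n) :
    ccToH 𝔏 A n (ccπ 𝔏 A n z) = lcπ 𝔉 A (n + 1) (coneFst 𝔏 A n z) := rfl

/-! ### Exactness -/

/-- exactness at `∏ Hlc^n(G_v)`, part 1 -/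
theorem ccδ_locRes (n : ℕ) (x : Hlc 𝔉 A n) : ccδ 𝔏 A n (locRes 𝔏 A n x) = 0 := by
  obtain ⟨c, rfl⟩ := lcπ_surjective 𝔉 A n x
  have h : locRes 𝔏 A n (lcπ 𝔉 A n c) =
      locπ 𝔏 A n (fun v => ⟨resLoc 𝔏 A v n c.1, resLoc_mem_lcCocycles v c.2⟩) :=
    funext fun v => locRes_lcπ 𝔏 A n c v
  rw [h, ccδ_locπ, ccπ_eq_zero_iff]
  refine ⟨c.1, c.2.1, LinearMap.mem_ker.1 c.2.2, fun v => ?_⟩
  rw [coneOfLoc_snd, sub_self]
  exact isLcCoboundary_zero _ _ n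

/-- exactness at `∏ Hlc^n(G_v)`, part 2 -/
theorem exists_locRes_eq_of_ccδ_eq_zero (n : ℕ)
    (y : ∀ v : 𝔏.ι, Hlc (𝔏.fam v) (𝔏.coeff A v) n) (hy : ccδ 𝔏 A n y = 0) :
    ∃ x : Hlc 𝔉 A n, locRes 𝔏 A n x = y := by
  obtain ⟨b, rfl⟩ := locπ_surjective 𝔏 A n y
  rw [ccδ_locπ, ccπ_eq_zero_iff] at hy
  obtain ⟨a', ha', h1, h2⟩ := hy
  have hc : a' ∈ lcCocycles 𝔉 A n := ⟨ha', LinearMap.mem_ker.2 h1⟩
  refine ⟨lcπ 𝔉 A n ⟨a', hc⟩, funext fun v => ?_⟩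
  rw [locRes_lcπ, locπ_apply, lcπ_eq_lcπ_iff]
  exact h2 v

/-- exactness at `Hcc^n`, part 1 -/
theorem ccToH_ccδ (n : ℕ) (y : ∀ v : 𝔏.ι, Hlc (𝔏.fam v) (𝔏.coeff A v) n) :
    ccToH 𝔏 A n (ccδ 𝔏 A n y) = 0 := by
  obtain ⟨b, rfl⟩ := locπ_surjective 𝔏 A n y
  rw [ccδ_locπ, ccToH_ccπ]
  have h : coneFst 𝔏 A n (coneOfLoc 𝔏 A n b) = 0 := Subtype.ext rfl
  rw [h, map_zero]

/-- exactness at `Hcc^n`, part 2 -/
theorem exists_ccδ_eq_of_ccToH_eq_zero (n : ℕ) (z : Hcc 𝔏 A n) (hz : ccToH 𝔏 A n z = 0) :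
    ∃ y : ∀ v : 𝔏.ι, Hlc (𝔏.fam v) (𝔏.coeff A v) n, ccδ 𝔏 A n y = z := by
  obtain ⟨w, rfl⟩ := ccπ_surjective 𝔏 A n z
  rw [ccToH_ccπ, lcπ_eq_zero_iff'] at hz
  obtain ⟨a', ha', h1⟩ := hz
  rw [coneFst_coe] at h1
  have hw := mem_coneCocycles.1 w.2
  have hb : ∀ v, w.1.2 v - resLoc 𝔏 A v n a' ∈ lcCocycles (𝔏.fam v) (𝔏.coeff A v) n := by
    intro v
    refine ⟨Submodule.sub_mem _ (hw.1.2 v) (resLoc_mem_lcCochains v ha'), LinearMap.mem_ker.2 ?_⟩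
    rw [map_sub, ← resLoc_d, h1, hw.2.2 v, sub_self]
  refine ⟨locπ 𝔏 A n (fun v => ⟨w.1.2 v - resLoc 𝔏 A v n a', hb v⟩), ?_⟩
  rw [ccδ_locπ, ccπ_eq_ccπ_iff]
  have h : (coneOfLoc 𝔏 A n (fun v => ⟨w.1.2 v - resLoc 𝔏 A v n a', hb v⟩)).1 - w.1 =
      -coneAug 𝔏 A n a' := by
    refine Prod.ext ?_ (funext fun v => ?_)
    · change (0 : (Fin (n + 1) → G) → A) - w.1.1 = -(inhomogeneousCochains.d A n).hom a'
      rw [h1, zero_sub]
    · change (w.1.2 v - resLoc 𝔏 A v n a') - w.1.2 v = -resLoc 𝔏 A v n a'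
      abel
  rw [h]
  exact Submodule.neg_mem _ (coneAug_mem_coneCoboundaries ha')

/-- exactness at `Hlc^{n+1}(G)`, part 1 -/
theorem locRes_ccToH (n : ℕ) (z : Hcc 𝔏 A n) : locRes 𝔏 A (n + 1) (ccToH 𝔏 A n z) = 0 := by
  obtain ⟨w, rfl⟩ := ccπ_surjective 𝔏 A n z
  have hw := mem_coneCocycles.1 w.2
  refine funext fun v => ?_
  rw [ccToH_ccπ, locRes_lcπ, Pi.zero_apply, lcπ_eq_zero_iff']
  exact ⟨w.1.2 v, hw.1.2 v, (hw.2.2 v).symm⟩

/-- exactness at `Hlc^{n+1}(G)`, part 2 -/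
theorem exists_ccToH_eq_of_locRes_eq_zero (n : ℕ) (x : Hlc 𝔉 A (n + 1))
    (hx : locRes 𝔏 A (n + 1) x = 0) : ∃ z : Hcc 𝔏 A n, ccToH 𝔏 A n z = x := by
  obtain ⟨c, rfl⟩ := lcπ_surjective 𝔉 A (n + 1) x
  have h : ∀ v, ∃ b ∈ lcCochains (𝔏.fam v) (𝔏.coeff A v) n,
      (inhomogeneousCochains.d (𝔏.coeff A v) n).hom b = resLoc 𝔏 A v (n + 1) c.1 := by
    intro v
    have hv := congrFun hx v
    rw [locRes_lcπ, Pi.zero_apply, lcπ_eq_zero_iff'] at hv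
    exact hv
  choose b hb hdb using h
  have hw : ((c.1, b) : ConeAmb 𝔏 A n) ∈ coneCocycles 𝔏 A n :=
    mem_coneCocycles.2 ⟨⟨c.2.1, hb⟩, LinearMap.mem_ker.1 c.2.2, fun v => (hdb v).symm⟩
  refine ⟨ccπ 𝔏 A n ⟨(c.1, b), hw⟩, ?_⟩
  rw [ccToH_ccπ]
  congr 1

end Cone

end Fermat.Agent.PT
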