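import Mathlib
import Fermat.Agent.CFT.PT.Cone

/-!
# S55 engine (E5), part 2: the cup product `Hcc^m(A) × Hlc^n(B) → Hcc^{m+n}(C)`

For a pairing `β : A × B → C` and a local system `𝔏`, the cup product of a cone cochain
`z = (a, b)` (cone degree `m`) with a cochain `g` (degree `n`) is
`z ∪ g = (a ∪ g, b_v ∪ res_v g)` (cone degree `m + n`).  It satisfies the Leibniz rule
`coneD (z ∪ g) = coneD z ∪ g + (-1)^(m+1) z ∪ dg` (`coneD_coneCup`), hence descends to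
`ccCupH 𝔏 β h : Hcc 𝔏 A m →ₗ[k] Hlc 𝔉 B n →ₗ[k] Hcc 𝔏 C N` (`h : m + n = N`), with
`ccCupH_ccπ_lcπ`, and is compatible with the maps of the long exact sequence:
`ccToH_ccCupH : ccToH (z ∪ y) = ccToH z ∪ y` and
`ccCupH_ccδ : ccδ x ∪ y = ccδ (x_v ∪ res_v y)`.
-/

set_option autoImplicit false

namespace Fermat.Agent.PT

open CategoryTheory groupCohomology Rep

universe u

variable {k G : Type u} [CommRing k] [Group G]

section ConeCup

variable {𝔉 : LevelFamily G} (𝔏 : LocSystem 𝔉) {A B C : Rep.{u} k G} (β : RepPairing A B C)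

/-- the restriction of the pairing to the local group at `v` -/
abbrev LocSystem.pairing (v : 𝔏.ι) : RepPairing (𝔏.coeff A v) (𝔏.coeff B v) (𝔏.coeff C v) :=
  β.res (𝔏.ψ v)

theorem resLoc_cupN (v : 𝔏.ι) {m n N : ℕ} (h : m + n = N) (f : (Fin m → G) → A)
    (g : (Fin n → G) → B) :
    resLoc 𝔏 C v N (cupN β h f g) =
      cupN (𝔏.pairing β v) h (resLoc 𝔏 A v m f) (resLoc 𝔏 B v n g) :=
  cochainsMap_cupN β (β.res (𝔏.ψ v)) (𝔏.ψ v) (𝟙 _) (𝟙 _) (𝟙 _) (β.compat_res (𝔏.ψ v)) h f g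

/-- cup product of a cone cochain with a cochain -/
noncomputable def coneCup {m n N : ℕ} (h : m + n = N) (z : ConeAmb 𝔏 A m) (g : (Fin n → G) → B) :
    ConeAmb 𝔏 C N :=
  (cupN β (show m + 1 + n = N + 1 by omega) z.1 g,
    fun v => cupN (𝔏.pairing β v) h (z.2 v) (resLoc 𝔏 B v n g))

@[simp] theorem coneCup_fst {m n N : ℕ} (h : m + n = N) (z : ConeAmb 𝔏 A m)
    (g : (Fin n → G) → B) :
    (coneCup 𝔏 β h z g).1 = cupN β (show m + 1 + n = N + 1 by omega) z.1 g := rfl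

@[simp] theorem coneCup_snd {m n N : ℕ} (h : m + n = N) (z : ConeAmb 𝔏 A m)
    (g : (Fin n → G) → B) (v : 𝔏.ι) :
    (coneCup 𝔏 β h z g).2 v = cupN (𝔏.pairing β v) h (z.2 v) (resLoc 𝔏 B v n g) := rfl

theorem coneCup_add_left {m n N : ℕ} (h : m + n = N) (z z' : ConeAmb 𝔏 A m)
    (g : (Fin n → G) → B) :
    coneCup 𝔏 β h (z + z') g = coneCup 𝔏 β h z g + coneCup 𝔏 β h z' g :=
  Prod.ext (cupN_add_left β _ z.1 z'.1 g)
    (funext fun v => cupN_add_left (𝔏.pairing β v) h (z.2 v) (z'.2 v) _)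

theorem coneCup_smul_left {m n N : ℕ} (h : m + n = N) (r : k) (z : ConeAmb 𝔏 A m)
    (g : (Fin n → G) → B) : coneCup 𝔏 β h (r • z) g = r • coneCup 𝔏 β h z g :=
  Prod.ext (cupN_smul_left β _ r z.1 g)
    (funext fun v => cupN_smul_left (𝔏.pairing β v) h r (z.2 v) _)

theorem coneCup_add_right {m n N : ℕ} (h : m + n = N) (z : ConeAmb 𝔏 A m)
    (g g' : (Fin n → G) → B) :
    coneCup 𝔏 β h z (g + g') = coneCup 𝔏 β h z g + coneCup 𝔏 β h z g' :=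
  Prod.ext (cupN_add_right β _ z.1 g g')
    (funext fun v => by
      change cupN (𝔏.pairing β v) h (z.2 v) (resLoc 𝔏 B v n (g + g')) = _
      rw [map_add, cupN_add_right]
      rfl)

theorem coneCup_smul_right {m n N : ℕ} (h : m + n = N) (r : k) (z : ConeAmb 𝔏 A m)
    (g : (Fin n → G) → B) : coneCup 𝔏 β h z (r • g) = r • coneCup 𝔏 β h z g :=
  Prod.ext (cupN_smul_right β _ r z.1 g)
    (funext fun v => by
      change cupN (𝔏.pairing β v) h (z.2 v) (resLoc 𝔏 B v n (r • g)) = _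
      rw [map_smul, cupN_smul_right]
      rfl)

theorem coneCup_zero_left {m n N : ℕ} (h : m + n = N) (g : (Fin n → G) → B) :
    coneCup 𝔏 β h (0 : ConeAmb 𝔏 A m) g = 0 :=
  Prod.ext (cupN_zero_left β _ g) (funext fun v => cupN_zero_left (𝔏.pairing β v) h _)

theorem coneCup_zero_right {m n N : ℕ} (h : m + n = N) (z : ConeAmb 𝔏 A m) :
    coneCup 𝔏 β h z (0 : (Fin n → G) → B) = 0 :=
  Prod.ext (cupN_zero_right β _ z.1)
    (funext fun v => by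
      change cupN (𝔏.pairing β v) h (z.2 v) (resLoc 𝔏 B v n 0) = _
      rw [map_zero, cupN_zero_right]
      rfl)

/-- **Leibniz rule** for the cup product of a cone cochain with a cochain -/
theorem coneD_coneCup {m n N : ℕ} (h : m + n = N) (z : ConeAmb 𝔏 A m) (g : (Fin n → G) → B) :
    coneD 𝔏 C N (coneCup 𝔏 β h z g) =
      coneCup 𝔏 β (show m + 1 + n = N + 1 by omega) (coneD 𝔏 A m z) g +
        (-1 : k) ^ (m + 1) • coneCup 𝔏 β (show m + (n + 1) = N + 1 by omega) z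
          ((inhomogeneousCochains.d B n).hom g) := by
  refine Prod.ext ?_ (funext fun v => ?_)
  · rw [coneD_fst, coneCup_fst, d_cupN]
    rfl
  · rw [coneD_snd, coneCup_fst, coneCup_snd, resLoc_cupN, d_cupN]
    change _ = cupN (𝔏.pairing β v) _ ((coneD 𝔏 A m z).2 v) (resLoc 𝔏 B v n g) +
      (-1 : k) ^ (m + 1) • cupN (𝔏.pairing β v) _ (z.2 v)
        (resLoc 𝔏 B v (n + 1) ((inhomogeneousCochains.d B n).hom g))
    rw [coneD_snd, resLoc_d, pow_succ, mul_neg_one, neg_smul]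
    have e : ∀ x y : (Fin (m + 1) → 𝔏.Gv v) → 𝔏.coeff A v,
        cupN (𝔏.pairing β v) (show m + 1 + n = N + 1 by omega) (x - y) (resLoc 𝔏 B v n g) =
          cupN (𝔏.pairing β v) (show m + 1 + n = N + 1 by omega) x (resLoc 𝔏 B v n g) -
            cupN (𝔏.pairing β v) (show m + 1 + n = N + 1 by omega) y (resLoc 𝔏 B v n g) := by
      intro x y
      have := cupN_add_left (𝔏.pairing β v) (show m + 1 + n = N + 1 by omega) (x - y) y
        (resLoc 𝔏 B v n g)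
      rw [sub_add_cancel] at this
      rw [this, add_sub_cancel_right]
    rw [e]
    abel

/-! ### cochains, cocycles, coboundaries -/

variable {𝔏 β} in
theorem coneCup_mem_coneCochains {m n N : ℕ} (h : m + n = N) {z : ConeAmb 𝔏 A m}
    {g : (Fin n → G) → B} (hz : z ∈ coneCochains 𝔏 A m) (hg : g ∈ lcCochains 𝔉 B n) :
    coneCup 𝔏 β h z g ∈ coneCochains 𝔏 C N := by
  rw [mem_coneCochains] at hz ⊢
  exact ⟨cupN_mem_lcCochains 𝔉 β _ hz.1 hg,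
    fun v => cupN_mem_lcCochains (𝔏.fam v) (𝔏.pairing β v) h (hz.2 v) (resLoc_mem_lcCochains v hg)⟩

variable {𝔏 β} in
theorem coneCup_mem_coneCocycles {m n N : ℕ} (h : m + n = N) {z : ConeAmb 𝔏 A m}
    {g : (Fin n → G) → B} (hz : z ∈ coneCocycles 𝔏 A m) (hg : g ∈ lcCocycles 𝔉 B n) :
    coneCup 𝔏 β h z g ∈ coneCocycles 𝔏 C N := by
  refine ⟨coneCup_mem_coneCochains h hz.1 hg.1, LinearMap.mem_ker.2 ?_⟩
  rw [coneD_coneCup, LinearMap.mem_ker.1 hz.2, LinearMap.mem_ker.1 hg.2, coneCup_zero_left,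
    coneCup_zero_right, smul_zero, add_zero]

variable {𝔏 β} in
theorem coneCup_mem_coneCoboundaries_left {m n N : ℕ} (h : m + n = N) {z : ConeAmb 𝔏 A m}
    {g : (Fin n → G) → B} (hz : z ∈ coneCoboundaries 𝔏 A m) (hg : g ∈ lcCocycles 𝔉 B n) :
    coneCup 𝔏 β h z g ∈ coneCoboundaries 𝔏 C N := by
  obtain ⟨a', ha', h1, h2⟩ := hz
  refine ⟨cupN β h a' g, cupN_mem_lcCochains 𝔉 β h ha' hg.1, ?_, fun v => ?_⟩
  · rw [d_cupN, LinearMap.mem_ker.1 hg.2, cupN_zero_right, smul_zero, add_zero, h1]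
    rfl
  · rw [resLoc_cupN, coneCup_snd]
    have e : cupN (𝔏.pairing β v) h (resLoc 𝔏 A v m a') (resLoc 𝔏 B v n g) -
        cupN (𝔏.pairing β v) h (z.2 v) (resLoc 𝔏 B v n g) =
        cupN (𝔏.pairing β v) h (resLoc 𝔏 A v m a' - z.2 v) (resLoc 𝔏 B v n g) := by
      have := cupN_add_left (𝔏.pairing β v) h (resLoc 𝔏 A v m a' - z.2 v) (z.2 v)
        (resLoc 𝔏 B v n g)
      rw [sub_add_cancel] at this
      rw [this, add_sub_cancel_right]
    rw [e]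
    exact isLcCoboundary_cupN_left (𝔏.fam v) (𝔏.pairing β v) h (h2 v)
      (resLoc_mem_lcCocycles v hg)

variable {𝔏 β} in
theorem coneCup_mem_coneCoboundaries_right {m n N : ℕ} (h : m + n = N) {z : ConeAmb 𝔏 A m}
    {g : (Fin n → G) → B} (hz : z ∈ coneCocycles 𝔏 A m) (hg : IsLcCoboundary 𝔉 B n g) :
    coneCup 𝔏 β h z g ∈ coneCoboundaries 𝔏 C N := by
  cases n with
  | zero =>
    have hg0 : g = 0 := hg
    rw [hg0, coneCup_zero_right]
    exact Submodule.zero_mem _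
  | succ n =>
    obtain ⟨g', hg', rfl⟩ := hg
    obtain rfl : N = (m + n) + 1 := by omega
    have hL := coneD_coneCup 𝔏 β (rfl : m + n = m + n) z g'
    rw [LinearMap.mem_ker.1 hz.2, coneCup_zero_left, zero_add] at hL
    have e : coneCup 𝔏 β h z ((inhomogeneousCochains.d B n).hom g') =
        (-1 : k) ^ (m + 1) • coneD 𝔏 C (m + n) (coneCup 𝔏 β rfl z g') := by
      rw [hL, smul_smul, ← pow_add, ← two_mul, pow_mul]
      simp
    rw [e]
    exact Submodule.smul_mem _ _ (coneD_mem_coneCoboundaries (coneCup_mem_coneCochains rfl hz.1 hg'))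

/-! ### the pairing on cohomology -/

/-- the cup product on cocycles -/
noncomputable def ccCupZ {m n N : ℕ} (h : m + n = N) :
    coneCocycles 𝔏 A m →ₗ[k] lcCocycles 𝔉 B n →ₗ[k] coneCocycles 𝔏 C N :=
  LinearMap.mk₂ k (fun z c => ⟨coneCup 𝔏 β h z.1 c.1, coneCup_mem_coneCocycles h z.2 c.2⟩)
    (fun z z' c => Subtype.ext (coneCup_add_left 𝔏 β h z.1 z'.1 c.1))
    (fun r z c => Subtype.ext (coneCup_smul_left 𝔏 β h r z.1 c.1))
    (fun z c c' => Subtype.ext (coneCup_add_right 𝔏 β h z.1 c.1 c'.1))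
    (fun r z c => Subtype.ext (coneCup_smul_right 𝔏 β h r z.1 c.1))

@[simp] theorem ccCupZ_coe {m n N : ℕ} (h : m + n = N) (z : coneCocycles 𝔏 A m)
    (c : lcCocycles 𝔉 B n) : (ccCupZ 𝔏 β h z c).1 = coneCup 𝔏 β h z.1 c.1 := rfl

theorem ccCupAux_hf {m n N : ℕ} (h : m + n = N) (z : coneCocycles 𝔏 A m)
    (c : lcCocycles 𝔉 B n) (hc : IsLcCoboundary 𝔉 B n c.1) :
    (ccπ 𝔏 C N ∘ₗ ccCupZ 𝔏 β h z) c = 0 := by
  rw [LinearMap.comp_apply, ccπ_eq_zero_iff]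
  exact coneCup_mem_coneCoboundaries_right h z.2 hc

/-- auxiliary: the cup product with a fixed cone cocycle, on `Hlc` -/
noncomputable def ccCupAux {m n N : ℕ} (h : m + n = N) :
    coneCocycles 𝔏 A m →ₗ[k] Hlc 𝔉 B n →ₗ[k] Hcc 𝔏 C N where
  toFun z := HlcLift 𝔉 B n (ccπ 𝔏 C N ∘ₗ ccCupZ 𝔏 β h z) (ccCupAux_hf 𝔏 β h z)
  map_add' z z' := by
    apply Hlc_hom_ext
    intro c
    rw [LinearMap.add_apply, HlcLift_lcπ, HlcLift_lcπ, HlcLift_lcπ]
    simp only [LinearMap.comp_apply, map_add, LinearMap.add_apply]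
  map_smul' r z := by
    apply Hlc_hom_ext
    intro c
    rw [RingHom.id_apply, LinearMap.smul_apply, HlcLift_lcπ, HlcLift_lcπ]
    simp only [LinearMap.comp_apply, map_smul, LinearMap.smul_apply]

theorem ccCupAux_lcπ {m n N : ℕ} (h : m + n = N) (z : coneCocycles 𝔏 A m)
    (c : lcCocycles 𝔉 B n) :
    ccCupAux 𝔏 β h z (lcπ 𝔉 B n c) = ccπ 𝔏 C N (ccCupZ 𝔏 β h z c) :=
  HlcLift_lcπ n (ccπ 𝔏 C N ∘ₗ ccCupZ 𝔏 β h z) (ccCupAux_hf 𝔏 β h z) c

/-- **the cup product `Hcc^m(A) × Hlc^n(B) → Hcc^N(C)`**, `m + n = N` -/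
noncomputable def ccCupH {m n N : ℕ} (h : m + n = N) :
    Hcc 𝔏 A m →ₗ[k] Hlc 𝔉 B n →ₗ[k] Hcc 𝔏 C N :=
  Submodule.liftQ _ (ccCupAux 𝔏 β h) (by
    intro z hz
    rw [LinearMap.mem_ker]
    apply Hlc_hom_ext
    intro c
    rw [ccCupAux_lcπ, LinearMap.zero_apply, ccπ_eq_zero_iff]
    exact coneCup_mem_coneCoboundaries_left h hz c.2)

@[simp] theorem ccCupH_ccπ_lcπ {m n N : ℕ} (h : m + n = N) (z : coneCocycles 𝔏 A m)
    (c : lcCocycles 𝔉 B n) :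
    ccCupH 𝔏 β h (ccπ 𝔏 A m z) (lcπ 𝔉 B n c) = ccπ 𝔏 C N (ccCupZ 𝔏 β h z c) :=
  ccCupAux_lcπ 𝔏 β h z c

/-! ### compatibility with the long exact sequence -/

/-- `ccToH (z ∪ y) = ccToH z ∪ y` -/
theorem ccToH_ccCupH {m n N : ℕ} (h : m + n = N) (z : Hcc 𝔏 A m) (y : Hlc 𝔉 B n) :
    ccToH 𝔏 C N (ccCupH 𝔏 β h z y) =
      cupH 𝔉 β (show m + 1 + n = N + 1 by omega) (ccToH 𝔏 A m z) y := by
  obtain ⟨w, rfl⟩ := ccπ_surjective 𝔏 A m z
  obtain ⟨c, rfl⟩ := lcπ_surjective 𝔉 B n y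
  rw [ccCupH_ccπ_lcπ, ccToH_ccπ, ccToH_ccπ, cupH_lcπ]
  congr 1

/-- `ccδ x ∪ y = ccδ (x_v ∪ res_v y)` -/
theorem ccCupH_ccδ {m n N : ℕ} (h : m + n = N)
    (x : ∀ v : 𝔏.ι, Hlc (𝔏.fam v) (𝔏.coeff A v) m) (y : Hlc 𝔉 B n) :
    ccCupH 𝔏 β h (ccδ 𝔏 A m x) y =
      ccδ 𝔏 C N (fun v => cupH (𝔏.fam v) (𝔏.pairing β v) h (x v) (locRes 𝔏 B n y v)) := by
  obtain ⟨b, rfl⟩ := locπ_surjective 𝔏 A m x
  obtain ⟨c, rfl⟩ := lcπ_surjective 𝔉 B n y
  have e : (fun v => cupH (𝔏.fam v) (𝔏.pairing β v) h (locπ 𝔏 A m b v)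
      (locRes 𝔏 B n (lcπ 𝔉 B n c) v)) =
      locπ 𝔏 C N (fun v => cupZ (𝔏.fam v) (𝔏.pairing β v) h (b v)
        ⟨resLoc 𝔏 B v n c.1, resLoc_mem_lcCocycles v c.2⟩) := by
    funext v
    rw [locπ_apply, locRes_lcπ, cupH_lcπ, locπ_apply]
  rw [e, ccδ_locπ, ccδ_locπ, ccCupH_ccπ_lcπ]
  congr 1
  apply Subtype.ext
  refine Prod.ext ?_ rfl
  change cupN β _ (0 : (Fin (m + 1) → G) → A) c.1 = 0
  exact cupN_zero_left β _ c.1

end ConeCup

end Fermat.Agent.PT
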