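import Mathlib
import Fermat.Agent.CFT.PT.ConeCup

/-!
# S55 engine (E5), part 3: functoriality of cone cohomology in the coefficients

For `φ : A ⟶ A'` in `Rep k G`:
* `coeffMap φ n` : change of coefficients on cochains (`coeffMap_d`, `coeffMap_mem_lcCochains`, ...);
  `HlcCoeff 𝔉 φ n : Hlc 𝔉 A n →ₗ[k] Hlc 𝔉 A' n` (`= HlcMap (MonoidHom.id G) φ`), `HlcCoeff_lcπ`.
* `coneMap 𝔏 φ n` on cone cochains (`coneD_coneMap`), `HccMap 𝔏 φ n : Hcc 𝔏 A n →ₗ[k] Hcc 𝔏 A' n`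
  with `HccMap_ccπ`, `HccMap_id`, `HccMap_comp`.
* naturality of the long exact sequence: `locRes_HlcCoeff`, `HccMap_ccδ`, `ccToH_HccMap`.
* naturality of the cup product: `HccMap_ccCupH`.
-/

set_option autoImplicit false

namespace Fermat.Agent.PT

open CategoryTheory groupCohomology Rep

universe u

variable {k G : Type u} [CommRing k] [Group G]

section CoeffMap

variable {A A' A'' : Rep.{u} k G} (φ : A ⟶ A') (φ' : A' ⟶ A'')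

/-- change of coefficients on cochains -/
noncomputable def coeffMap (n : ℕ) : ((Fin n → G) → A) →ₗ[k] ((Fin n → G) → A') :=
  ((cochainsMap (MonoidHom.id G) φ).f n).hom

@[simp] theorem coeffMap_apply (n : ℕ) (f : (Fin n → G) → A) (x : Fin n → G) :
    coeffMap φ n f x = φ.hom (f x) := rfl

theorem coeffMap_d (n : ℕ) (f : (Fin n → G) → A) :
    coeffMap φ (n + 1) ((inhomogeneousCochains.d A n).hom f) =
      (inhomogeneousCochains.d A' n).hom (coeffMap φ n f) :=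
  cochainsMap_d_apply (MonoidHom.id G) φ f

theorem coeffMap_id (n : ℕ) (f : (Fin n → G) → A) : coeffMap (𝟙 A) n f = f := rfl

theorem coeffMap_comp (n : ℕ) (f : (Fin n → G) → A) :
    coeffMap (φ ≫ φ') n f = coeffMap φ' n (coeffMap φ n f) := rfl

variable {φ} (𝔉 : LevelFamily G)

theorem coeffMap_mem_lcCochains {n : ℕ} {f : (Fin n → G) → A} (hf : f ∈ lcCochains 𝔉 A n) :
    coeffMap φ n f ∈ lcCochains 𝔉 A' n :=
  cochainsMap_mem_lcCochains (MonoidHom.id G) φ 𝔉.compat_id hf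

theorem coeffMap_mem_lcCocycles {n : ℕ} {f : (Fin n → G) → A} (hf : f ∈ lcCocycles 𝔉 A n) :
    coeffMap φ n f ∈ lcCocycles 𝔉 A' n :=
  cochainsMap_mem_lcCocycles (MonoidHom.id G) φ 𝔉.compat_id hf

variable {𝔉} in
theorem IsLcCoboundary.coeffMap {n : ℕ} {f : (Fin n → G) → A} (hf : IsLcCoboundary 𝔉 A n f) :
    IsLcCoboundary 𝔉 A' n (Fermat.Agent.PT.coeffMap φ n f) :=
  IsLcCoboundary.cochainsMap (MonoidHom.id G) φ 𝔉.compat_id hf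

variable (φ)

/-- change of coefficients on level-constant cohomology -/
noncomputable def HlcCoeff (n : ℕ) : Hlc 𝔉 A n →ₗ[k] Hlc 𝔉 A' n :=
  (HlcMap (MonoidHom.id G) φ 𝔉.compat_id n).hom

theorem HlcCoeff_lcπ (n : ℕ) (c : lcCocycles 𝔉 A n) :
    HlcCoeff φ 𝔉 n (lcπ 𝔉 A n c) =
      lcπ 𝔉 A' n ⟨coeffMap φ n c.1, coeffMap_mem_lcCocycles 𝔉 c.2⟩ :=
  HlcMap_lcπ (MonoidHom.id G) φ 𝔉.compat_id n c

theorem HlcCoeff_id (n : ℕ) (x : Hlc 𝔉 A n) : HlcCoeff (𝟙 A) 𝔉 n x = x := by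
  obtain ⟨c, rfl⟩ := lcπ_surjective 𝔉 A n x
  rw [HlcCoeff_lcπ]
  rfl

theorem HlcCoeff_comp (n : ℕ) (x : Hlc 𝔉 A n) :
    HlcCoeff (φ ≫ φ') 𝔉 n x = HlcCoeff φ' 𝔉 n (HlcCoeff φ 𝔉 n x) := by
  obtain ⟨c, rfl⟩ := lcπ_surjective 𝔉 A n x
  rw [HlcCoeff_lcπ, HlcCoeff_lcπ, HlcCoeff_lcπ]
  rfl

end CoeffMap

section ConeMap

variable {𝔉 : LevelFamily G} (𝔏 : LocSystem 𝔉) {A A' A'' : Rep.{u} k G} (φ : A ⟶ A')
  (φ' : A' ⟶ A'')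

/-- the morphism of local coefficient modules at `v` induced by `φ` -/
abbrev LocSystem.coeffHom (v : 𝔏.ι) : 𝔏.coeff A v ⟶ 𝔏.coeff A' v := (resFunctor (𝔏.ψ v)).map φ

theorem resLoc_coeffMap (v : 𝔏.ι) (n : ℕ) (f : (Fin n → G) → A) :
    resLoc 𝔏 A' v n (coeffMap φ n f) = coeffMap (𝔏.coeffHom φ v) n (resLoc 𝔏 A v n f) := rfl

/-- change of coefficients on cone cochains -/
noncomputable def coneMap (n : ℕ) : ConeAmb 𝔏 A n →ₗ[k] ConeAmb 𝔏 A' n :=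
  LinearMap.prodMap (coeffMap φ (n + 1))
    (LinearMap.pi fun v => coeffMap (𝔏.coeffHom φ v) n ∘ₗ LinearMap.proj v)

@[simp] theorem coneMap_fst (n : ℕ) (z : ConeAmb 𝔏 A n) :
    (coneMap 𝔏 φ n z).1 = coeffMap φ (n + 1) z.1 := rfl

@[simp] theorem coneMap_snd (n : ℕ) (z : ConeAmb 𝔏 A n) (v : 𝔏.ι) :
    (coneMap 𝔏 φ n z).2 v = coeffMap (𝔏.coeffHom φ v) n (z.2 v) := rfl

theorem coneD_coneMap (n : ℕ) (z : ConeAmb 𝔏 A n) :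
    coneD 𝔏 A' n (coneMap 𝔏 φ n z) = coneMap 𝔏 φ (n + 1) (coneD 𝔏 A n z) := by
  refine Prod.ext ?_ (funext fun v => ?_)
  · rw [coneD_fst, coneMap_fst, coneMap_fst, coneD_fst, coeffMap_d]
  · rw [coneD_snd, coneMap_fst, coneMap_snd, coneMap_snd, coneD_snd, map_sub, coeffMap_d,
      resLoc_coeffMap]

variable {𝔏 φ} in
theorem coneMap_mem_coneCochains {n : ℕ} {z : ConeAmb 𝔏 A n} (hz : z ∈ coneCochains 𝔏 A n) :
    coneMap 𝔏 φ n z ∈ coneCochains 𝔏 A' n := by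
  rw [mem_coneCochains] at hz ⊢
  exact ⟨coeffMap_mem_lcCochains 𝔉 hz.1,
    fun v => coeffMap_mem_lcCochains (φ := 𝔏.coeffHom φ v) (𝔏.fam v) (hz.2 v)⟩

variable {𝔏 φ} in
theorem coneMap_mem_coneCocycles {n : ℕ} {z : ConeAmb 𝔏 A n} (hz : z ∈ coneCocycles 𝔏 A n) :
    coneMap 𝔏 φ n z ∈ coneCocycles 𝔏 A' n := by
  refine ⟨coneMap_mem_coneCochains hz.1, LinearMap.mem_ker.2 ?_⟩
  rw [coneD_coneMap, LinearMap.mem_ker.1 hz.2, map_zero]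

variable {𝔏 φ} in
theorem coneMap_mem_coneCoboundaries {n : ℕ} {z : ConeAmb 𝔏 A n}
    (hz : z ∈ coneCoboundaries 𝔏 A n) : coneMap 𝔏 φ n z ∈ coneCoboundaries 𝔏 A' n := by
  obtain ⟨a', ha', h1, h2⟩ := hz
  refine ⟨coeffMap φ n a', coeffMap_mem_lcCochains 𝔉 ha', ?_, fun v => ?_⟩
  · rw [← coeffMap_d, h1]
    rfl
  · rw [resLoc_coeffMap, coneMap_snd, ← map_sub]
    exact (h2 v).coeffMap

/-- change of coefficients on cone cocycles -/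
noncomputable def coneMapZ (n : ℕ) : coneCocycles 𝔏 A n →ₗ[k] coneCocycles 𝔏 A' n :=
  (coneMap 𝔏 φ n).restrict fun _ hz => coneMap_mem_coneCocycles hz

@[simp] theorem coneMapZ_coe (n : ℕ) (z : coneCocycles 𝔏 A n) :
    (coneMapZ 𝔏 φ n z).1 = coneMap 𝔏 φ n z.1 := rfl

/-- **change of coefficients on cone cohomology** -/
noncomputable def HccMap (n : ℕ) : Hcc 𝔏 A n →ₗ[k] Hcc 𝔏 A' n :=
  Submodule.mapQ _ _ (coneMapZ 𝔏 φ n) fun _ hz => coneMap_mem_coneCoboundaries hz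

@[simp] theorem HccMap_ccπ (n : ℕ) (z : coneCocycles 𝔏 A n) :
    HccMap 𝔏 φ n (ccπ 𝔏 A n z) = ccπ 𝔏 A' n (coneMapZ 𝔏 φ n z) := rfl

theorem HccMap_id (n : ℕ) (z : Hcc 𝔏 A n) : HccMap 𝔏 (𝟙 A) n z = z := by
  obtain ⟨w, rfl⟩ := ccπ_surjective 𝔏 A n z
  rw [HccMap_ccπ]
  rfl

theorem HccMap_comp (n : ℕ) (z : Hcc 𝔏 A n) :
    HccMap 𝔏 (φ ≫ φ') n z = HccMap 𝔏 φ' n (HccMap 𝔏 φ n z) := by
  obtain ⟨w, rfl⟩ := ccπ_surjective 𝔏 A n z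
  rw [HccMap_ccπ, HccMap_ccπ, HccMap_ccπ]
  rfl

/-! ### naturality of the long exact sequence -/

theorem locRes_HlcCoeff (n : ℕ) (x : Hlc 𝔉 A n) (v : 𝔏.ι) :
    locRes 𝔏 A' n (HlcCoeff φ 𝔉 n x) v =
      HlcCoeff (𝔏.coeffHom φ v) (𝔏.fam v) n (locRes 𝔏 A n x v) := by
  obtain ⟨c, rfl⟩ := lcπ_surjective 𝔉 A n x
  rw [HlcCoeff_lcπ, locRes_lcπ, locRes_lcπ, HlcCoeff_lcπ]
  rfl

theorem HccMap_ccδ (n : ℕ) (x : ∀ v : 𝔏.ι, Hlc (𝔏.fam v) (𝔏.coeff A v) n) :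
    HccMap 𝔏 φ n (ccδ 𝔏 A n x) =
      ccδ 𝔏 A' n (fun v => HlcCoeff (𝔏.coeffHom φ v) (𝔏.fam v) n (x v)) := by
  obtain ⟨b, rfl⟩ := locπ_surjective 𝔏 A n x
  have e : (fun v => HlcCoeff (𝔏.coeffHom φ v) (𝔏.fam v) n (locπ 𝔏 A n b v)) =
      locπ 𝔏 A' n (fun v => ⟨coeffMap (𝔏.coeffHom φ v) n (b v).1,
        coeffMap_mem_lcCocycles (𝔏.fam v) (b v).2⟩) := by
    funext v
    rw [locπ_apply, HlcCoeff_lcπ, locπ_apply]
  rw [e, ccδ_locπ, ccδ_locπ, HccMap_ccπ]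
  congr 1
  apply Subtype.ext
  refine Prod.ext ?_ rfl
  change coeffMap φ (n + 1) 0 = 0
  rw [map_zero]

theorem ccToH_HccMap (n : ℕ) (z : Hcc 𝔏 A n) :
    ccToH 𝔏 A' n (HccMap 𝔏 φ n z) = HlcCoeff φ 𝔉 (n + 1) (ccToH 𝔏 A n z) := by
  obtain ⟨w, rfl⟩ := ccπ_surjective 𝔏 A n z
  rw [HccMap_ccπ, ccToH_ccπ, ccToH_ccπ, HlcCoeff_lcπ]
  rfl

end ConeMap

section CupNaturality

variable {𝔉 : LevelFamily G} (𝔏 : LocSystem 𝔉) {A B C A' B' C' : Rep.{u} k G}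
  (β : RepPairing A B C) (β' : RepPairing A' B' C') (φA : A ⟶ A') (φB : B ⟶ B') (φC : C ⟶ C')

theorem coeffMap_cupN (hβ : β.Compat β' (MonoidHom.id G) φA φB φC) {m n N : ℕ} (h : m + n = N)
    (f : (Fin m → G) → A) (g : (Fin n → G) → B) :
    coeffMap φC N (cupN β h f g) = cupN β' h (coeffMap φA m f) (coeffMap φB n g) :=
  cochainsMap_cupN β β' (MonoidHom.id G) φA φB φC hβ h f g

theorem HlcCoeff_cupH (hβ : β.Compat β' (MonoidHom.id G) φA φB φC) {m n N : ℕ} (h : m + n = N)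
    (x : Hlc 𝔉 A m) (y : Hlc 𝔉 B n) :
    HlcCoeff φC 𝔉 N (cupH 𝔉 β h x y) =
      cupH 𝔉 β' h (HlcCoeff φA 𝔉 m x) (HlcCoeff φB 𝔉 n y) :=
  HlcMap_cupH β β' (MonoidHom.id G) φA φB φC hβ 𝔉.compat_id h x y

theorem coneMap_coneCup (hβ : β.Compat β' (MonoidHom.id G) φA φB φC) {m n N : ℕ}
    (h : m + n = N) (z : ConeAmb 𝔏 A m) (g : (Fin n → G) → B) :
    coneMap 𝔏 φC N (coneCup 𝔏 β h z g) =
      coneCup 𝔏 β' h (coneMap 𝔏 φA m z) (coeffMap φB n g) := by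
  refine Prod.ext ?_ (funext fun v => ?_)
  · exact coeffMap_cupN β β' φA φB φC hβ _ z.1 g
  · exact coeffMap_cupN (𝔏.pairing β v) (𝔏.pairing β' v) (𝔏.coeffHom φA v) (𝔏.coeffHom φB v)
      (𝔏.coeffHom φC v) (fun a b => hβ a b) h (z.2 v) (resLoc 𝔏 B v n g)

/-- naturality of the cup product `Hcc × Hlc → Hcc` in the coefficients -/
theorem HccMap_ccCupH (hβ : β.Compat β' (MonoidHom.id G) φA φB φC) {m n N : ℕ} (h : m + n = N)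
    (z : Hcc 𝔏 A m) (y : Hlc 𝔉 B n) :
    HccMap 𝔏 φC N (ccCupH 𝔏 β h z y) =
      ccCupH 𝔏 β' h (HccMap 𝔏 φA m z) (HlcCoeff φB 𝔉 n y) := by
  obtain ⟨w, rfl⟩ := ccπ_surjective 𝔏 A m z
  obtain ⟨c, rfl⟩ := lcπ_surjective 𝔉 B n y
  rw [ccCupH_ccπ_lcπ, HccMap_ccπ, HccMap_ccπ, HlcCoeff_lcπ, ccCupH_ccπ_lcπ]
  congr 1
  apply Subtype.ext
  exact coneMap_coneCup 𝔏 β β' φA φB φC hβ h w.1 c.1

end CupNaturality

end Fermat.Agent.PT
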