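/-
S55 engine (E3), part (SH2) (helper15): restriction, corestriction and the index trick for
level-constant ("smooth") cohomology.

For `𝔉 : LevelFamily G`, a subgroup `H ≤ G` of finite index and `M : Rep k G`:
* `HlcMap_id_comp`, `HlcMap_id_nsmul`, `HlcMap_id_id` : functoriality of `Hlc 𝔉 - n` in the
  coefficients;
* `HlcUnit_comp_HlcShapiro` : restriction `Hlc(G, M) ⟶ Hlc(H, M)` is the unit
  `M ⟶ Coind_H^G Res_H M` followed by the Shapiro map;
* `index_nsmul_eq_zero_of_HlcRes_eq_zero` : if the Shapiro map is injective, the kernel of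
  restriction is killed by the index `[G : H]`;
* `HlcCor`, `HlcRes_comp_HlcCor` : corestriction (for a bijective Shapiro map) and
  `cor ∘ res = [G : H]`;
* `eq_zero_of_HlcRes_eq_zero_of_coprime` : the Sylow reduction (restriction to a subgroup of index
  prime to `p` is injective on `p`-torsion classes).
-/
import Fermat.Agent.CFT.PT.SmoothRestrict
import Fermat.Agent.CFT.Coh.IndexKill

set_option autoImplicit false

namespace Fermat.Agent.PT

open CategoryTheory groupCohomology Rep Fermat.Agent.CFT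

universe u

variable {k G : Type u} [CommRing k] [Group G]

section Coefficients

variable (𝔉 : LevelFamily G) {A B C : Rep.{u} k G}

theorem lcMap_id_comp (φ : A ⟶ B) (ψ : B ⟶ C) :
    lcMap (MonoidHom.id G) (φ ≫ ψ) 𝔉.compat_id =
      lcMap (MonoidHom.id G) φ 𝔉.compat_id ≫ lcMap (MonoidHom.id G) ψ 𝔉.compat_id := by
  ext n f : 3
  rfl

theorem HlcMap_id_comp (φ : A ⟶ B) (ψ : B ⟶ C) (n : ℕ) :
    HlcMap (MonoidHom.id G) (φ ≫ ψ) 𝔉.compat_id n =
      HlcMap (MonoidHom.id G) φ 𝔉.compat_id n ≫ HlcMap (MonoidHom.id G) ψ 𝔉.compat_id n := by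
  unfold HlcMap
  rw [lcMap_id_comp]
  exact HomologicalComplex.homologyMap_comp _ _ n

theorem HlcMap_id_congr {φ φ' : A ⟶ B} (h : φ = φ') (n : ℕ) :
    HlcMap (MonoidHom.id G) φ 𝔉.compat_id n = HlcMap (MonoidHom.id G) φ' 𝔉.compat_id n := by
  subst h
  rfl

theorem lcMap_id_id (A : Rep.{u} k G) :
    lcMap (MonoidHom.id G) (𝟙 A) 𝔉.compat_id = 𝟙 (lcComplex 𝔉 A) := by
  ext n f : 3
  rfl

theorem HlcMap_id_id (A : Rep.{u} k G) (n : ℕ) :
    HlcMap (MonoidHom.id G) (𝟙 A) 𝔉.compat_id n = 𝟙 (Hlc 𝔉 A n) := by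
  unfold HlcMap
  rw [lcMap_id_id, HomologicalComplex.homologyMap_id]
  rfl

theorem lcMap_id_nsmul (φ : A ⟶ B) (m : ℕ) :
    lcMap (MonoidHom.id G) (m • φ) 𝔉.compat_id = m • lcMap (MonoidHom.id G) φ 𝔉.compat_id := by
  ext n f : 3
  apply lcX_ext
  funext g
  change (m • φ).hom (f.1 g) = m • φ.hom (f.1 g)
  rfl

theorem HlcMap_id_nsmul (φ : A ⟶ B) (m n : ℕ) :
    HlcMap (MonoidHom.id G) (m • φ) 𝔉.compat_id n =
      m • HlcMap (MonoidHom.id G) φ 𝔉.compat_id n := by
  unfold HlcMap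
  rw [lcMap_id_nsmul]
  exact (HomologicalComplex.homologyFunctor (ModuleCat k) _ n).map_nsmul

end Coefficients

section IndexTrick

variable (𝔉 : LevelFamily G) (H : Subgroup G) (M : Rep.{u} k G)

/-- restriction = unit followed by "restrict and evaluate at `1`" (complex level). -/
theorem lcMap_unit_comp_lcMap_ev :
    lcMap (MonoidHom.id G) (coindUnit H M) 𝔉.compat_id ≫
        lcMap H.subtype (coindEv H (res H.subtype M)) (𝔉.compat_subtype H) =
      lcMap H.subtype (𝟙 (res H.subtype M)) (𝔉.compat_subtype H) := by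
  ext n f : 3
  apply lcX_ext
  funext g
  change ((coindUnit H M).hom (f.1 (H.subtype ∘ g))).1 1 = f.1 (H.subtype ∘ g)
  rw [coindUnit_apply, map_one]
  rfl

/-- the map `Hlc(G, M) ⟶ Hlc(G, Coind_H^G Res_H M)` induced by the unit. -/
noncomputable def HlcUnit (n : ℕ) :
    Hlc 𝔉 M n ⟶ Hlc 𝔉 (coind H.subtype (res H.subtype M)) n :=
  HlcMap (MonoidHom.id G) (coindUnit H M) 𝔉.compat_id n

/-- restriction is the unit followed by the Shapiro map. -/
theorem HlcUnit_comp_HlcShapiro (n : ℕ) :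
    HlcUnit 𝔉 H M n ≫ HlcShapiro 𝔉 H (res H.subtype M) n = HlcRes 𝔉 H M n := by
  unfold HlcUnit HlcShapiro HlcRes HlcMap
  rw [← lcMap_unit_comp_lcMap_ev]
  exact (HomologicalComplex.homologyMap_comp _ _ n).symm

variable [H.FiniteIndex]

/-- the map `Hlc(G, Coind_H^G Res_H M) ⟶ Hlc(G, M)` induced by the trace. -/
noncomputable def HlcTrace (n : ℕ) :
    Hlc 𝔉 (coind H.subtype (res H.subtype M)) n ⟶ Hlc 𝔉 M n :=
  HlcMap (MonoidHom.id G) (coindTrace H M) 𝔉.compat_id n

/-- trace ∘ unit is multiplication by the index on `Hlc`. -/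
theorem HlcUnit_comp_HlcTrace (n : ℕ) :
    HlcUnit 𝔉 H M n ≫ HlcTrace 𝔉 H M n = H.index • 𝟙 (Hlc 𝔉 M n) := by
  unfold HlcUnit HlcTrace
  exact (HlcMap_id_comp 𝔉 _ _ n).symm.trans
    ((HlcMap_id_congr 𝔉 (coindUnit_comp_coindTrace H M) n).trans
      ((HlcMap_id_nsmul 𝔉 _ _ n).trans (by rw [HlcMap_id_id])))

/-- **Index trick.** If the Shapiro map is injective, the kernel of the restriction
`Hlc(G, M) ⟶ Hlc(H, M)` is killed by the index `[G : H]`. -/
theorem index_nsmul_eq_zero_of_HlcRes_eq_zero (n : ℕ)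
    (hinj : Function.Injective (HlcShapiro 𝔉 H (res H.subtype M) n).hom)
    (x : Hlc 𝔉 M n) (hx : (HlcRes 𝔉 H M n).hom x = 0) : H.index • x = 0 := by
  have h1 : (HlcUnit 𝔉 H M n).hom x = 0 := by
    apply hinj
    rw [map_zero]
    have := congrArg (fun f => f.hom x) (HlcUnit_comp_HlcShapiro 𝔉 H M n)
    simp only [ModuleCat.hom_comp, LinearMap.comp_apply] at this
    rw [this, hx]
  have h2 := congrArg (fun f => f.hom x) (HlcUnit_comp_HlcTrace 𝔉 H M n)
  simp only [ModuleCat.hom_comp, LinearMap.comp_apply] at h2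
  rw [h1, map_zero] at h2
  simpa using h2.symm

/-- **Sylow reduction.** If the Shapiro map is injective, a class killed by `p` whose restriction
to a subgroup of index prime to `p` vanishes is zero. -/
theorem eq_zero_of_HlcRes_eq_zero_of_coprime (n : ℕ)
    (hinj : Function.Injective (HlcShapiro 𝔉 H (res H.subtype M) n).hom)
    {p : ℕ} (hp : Nat.Coprime p H.index) (x : Hlc 𝔉 M n) (hpx : p • x = 0)
    (hx : (HlcRes 𝔉 H M n).hom x = 0) : x = 0 := by
  have h1 := index_nsmul_eq_zero_of_HlcRes_eq_zero 𝔉 H M n hinj x hx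
  have h2 : (Nat.gcd p H.index) • x = 0 := by
    have hd1 : addOrderOf x ∣ p := addOrderOf_dvd_of_nsmul_eq_zero hpx
    have hd2 : addOrderOf x ∣ H.index := addOrderOf_dvd_of_nsmul_eq_zero h1
    exact addOrderOf_dvd_iff_nsmul_eq_zero.mp (Nat.dvd_gcd hd1 hd2)
  rw [hp, one_smul] at h2
  exact h2

/-- corestriction `Hlc(H, M) ⟶ Hlc(G, M)`, defined through the inverse of the Shapiro map. -/
noncomputable def HlcCor (n : ℕ)
    (hbij : Function.Bijective (HlcShapiro 𝔉 H (res H.subtype M) n).hom) :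
    Hlc (𝔉.restrict H) (res H.subtype M) n ⟶ Hlc 𝔉 M n :=
  haveI : IsIso (HlcShapiro 𝔉 H (res H.subtype M) n) :=
    (ConcreteCategory.isIso_iff_bijective _).mpr hbij
  inv (HlcShapiro 𝔉 H (res H.subtype M) n) ≫ HlcTrace 𝔉 H M n

/-- `cor ∘ res = [G : H]`. -/
theorem HlcRes_comp_HlcCor (n : ℕ)
    (hbij : Function.Bijective (HlcShapiro 𝔉 H (res H.subtype M) n).hom) :
    HlcRes 𝔉 H M n ≫ HlcCor 𝔉 H M n hbij = H.index • 𝟙 (Hlc 𝔉 M n) := by
  have : IsIso (HlcShapiro 𝔉 H (res H.subtype M) n) :=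
    (ConcreteCategory.isIso_iff_bijective _).mpr hbij
  rw [← HlcUnit_comp_HlcTrace, ← HlcUnit_comp_HlcShapiro, HlcCor, Category.assoc,
    IsIso.hom_inv_id_assoc]

end IndexTrick

end Fermat.Agent.PT
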