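import Mathlib
import Fermat.Agent.CFT.PT.SmoothZero
import Fermat.Agent.CFT.PT.Cone
import Fermat.Agent.CFT.PT.SmoothShapiro

/-!
# S55 engine (P7): finiteness of level-constant cohomology by dévissage (R6)

* `hlcFin_finite_of_exact` : abstract three-term exactness ⟹ finite-dimensionality of the middle.
* `hlcFin_finite` : if every `N` in a class `C` embeds into a smooth `I` with all `Hlc 𝔉 I n`
  finite-dimensional and cokernel again in `C`, and `Hlc 𝔉 N 0` is finite-dimensional for `N` in `C`,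
  then `Hlc 𝔉 N n` is finite-dimensional for all `n` and all `N` in `C`.
* `hlcFin_finite_zero` : `Hlc 𝔉 N 0` is finite-dimensional for finite-dimensional `N`.
* `hlcFin_finite_Hcc` : finiteness of the cone cohomology from the cone long exact sequence.
-/

set_option autoImplicit false
set_option linter.style.haveILetI false

namespace Fermat.Agent.PT

open CategoryTheory groupCohomology Rep

universe u

section Abstract

variable {k : Type*} [Field k] {M₁ M₂ M₃ : Type*} [AddCommGroup M₁] [Module k M₁]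
  [AddCommGroup M₂] [Module k M₂] [AddCommGroup M₃] [Module k M₃]

/-- the middle term of an exact sequence `M₁ → M₂ → M₃` of vector spaces with finite-dimensional
outer terms is finite-dimensional. -/
theorem hlcFin_finite_of_exact (f : M₁ →ₗ[k] M₂) (g : M₂ →ₗ[k] M₃)
    (h : ∀ x, g x = 0 → ∃ y, f y = x) [Module.Finite k M₁] [Module.Finite k M₃] :
    Module.Finite k M₂ := by
  have hker : LinearMap.ker g ≤ LinearMap.range f := fun x hx => h x hx
  haveI : Module.Finite k (LinearMap.range f) := Module.Finite.range f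
  haveI : Module.Finite k (LinearMap.ker g) :=
    Module.Finite.of_injective (Submodule.inclusion hker) (Submodule.inclusion_injective hker)
  haveI : Module.Finite k (LinearMap.range g) := inferInstance
  haveI : Module.Finite k (M₂ ⧸ LinearMap.ker g) :=
    Module.Finite.equiv g.quotKerEquivRange.symm
  exact Module.Finite.of_submodule_quotient (LinearMap.ker g)

end Abstract

section Devissage

variable {k G : Type u} [Field k] [Group G] {𝔉 : LevelFamily G}

/-- **(R6), abstract dévissage.** -/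
theorem hlcFin_finite (hfin : 𝔉.FiniteIndex) (C : Rep.{u} k G → Prop)
    (h0 : ∀ N, C N → Module.Finite k (Hlc 𝔉 N 0))
    (hI : ∀ N, C N → ∃ (I Q : Rep.{u} k G) (f : N ⟶ I) (g : I ⟶ Q) (w : f ≫ g = 0),
      (ShortComplex.mk f g w).ShortExact ∧ IsSmooth 𝔉 I ∧ C Q ∧
        ∀ n, Module.Finite k (Hlc 𝔉 I n)) :
    ∀ n N, C N → Module.Finite k (Hlc 𝔉 N n) := by
  intro n
  induction n with
  | zero => exact h0
  | succ n ih =>
    intro N hN
    obtain ⟨I, Q, f, g, w, hX, hsm, hQ, hIfin⟩ := hI N hN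
    haveI : Module.Finite k (Hlc 𝔉 Q n) := ih Q hQ
    haveI : Module.Finite k (Hlc 𝔉 I (n + 1)) := hIfin (n + 1)
    exact hlcFin_finite_of_exact
      (lcδ (X := ShortComplex.mk f g w) hfin hX hsm n (n + 1) rfl).hom
      (lcH₁₂ 𝔉 (ShortComplex.mk f g w) (n + 1)).hom
      (fun x hx => exists_lcδ_eq hfin hX hsm n (n + 1) rfl x hx)

/-- `Hlc⁰` of a finite-dimensional representation is finite-dimensional. -/
theorem hlcFin_finite_zero (𝔉 : LevelFamily G) (N : Rep.{u} k G) [Module.Finite k N] :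
    Module.Finite k (Hlc 𝔉 N 0) :=
  Module.Finite.equiv (Hlc0Equiv 𝔉 N).symm

/-- **(R6)** for the class of finite-dimensional smooth representations: if every such `N` embeds
into a smooth `I` (in practice `coind_V res_V N`) with finite-dimensional level-constant
cohomology and finite-dimensional smooth cokernel, then all `Hlc 𝔉 N n` are finite-dimensional. -/
theorem hlcFin_finite_of_smooth (hfin : 𝔉.FiniteIndex)
    (hI : ∀ N : Rep.{u} k G, Module.Finite k N → IsSmooth 𝔉 N →
      ∃ (I Q : Rep.{u} k G) (f : N ⟶ I) (g : I ⟶ Q) (w : f ≫ g = 0),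
        (ShortComplex.mk f g w).ShortExact ∧ IsSmooth 𝔉 I ∧ Module.Finite k Q ∧ IsSmooth 𝔉 Q ∧
          ∀ n, Module.Finite k (Hlc 𝔉 I n))
    (n : ℕ) (N : Rep.{u} k G) [hN : Module.Finite k N] (hsm : IsSmooth 𝔉 N) :
    Module.Finite k (Hlc 𝔉 N n) := by
  refine hlcFin_finite hfin (fun N => Module.Finite k N ∧ IsSmooth 𝔉 N) ?_ ?_ n N ⟨hN, hsm⟩
  · rintro N ⟨hN, -⟩
    exact hlcFin_finite_zero 𝔉 N
  · rintro N ⟨hN, hsm⟩
    obtain ⟨I, Q, f, g, w, hX, hIsm, hQ, hQsm, hIfin⟩ := hI N hN hsm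
    exact ⟨I, Q, f, g, w, hX, hIsm, ⟨hQ, hQsm⟩, hIfin⟩

/-- finiteness for coinduced modules, by Shapiro's lemma. -/
theorem hlcFin_finite_coind (hfin : 𝔉.FiniteIndex) {H : Subgroup G} (hH : IsOpenFor 𝔉 H)
    (B : Rep.{u} k H) (hB : IsSmooth (𝔉.restrict H) B) (n : ℕ)
    (h : Module.Finite k (Hlc (𝔉.restrict H) B n)) :
    Module.Finite k (Hlc 𝔉 (coind H.subtype B) n) :=
  Module.Finite.equiv (shapEquiv hfin hH B hB n).symm

/-- **(R6)** in the form used by the dévissage: every finite-dimensional smooth `N` embeds into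
`coind_V (res_V N)` for some `V ∈ 𝔉` with finite-dimensional smooth cokernel, and the cohomology
of `(V, res_V N)` is finite-dimensional. -/
theorem hlcFin_finite_of_coind (hfin : 𝔉.FiniteIndex)
    (hI : ∀ N : Rep.{u} k G, Module.Finite k N → IsSmooth 𝔉 N →
      ∃ (V : Subgroup G) (_ : V ∈ 𝔉.sets) (Q : Rep.{u} k G)
        (f : N ⟶ coind V.subtype (res V.subtype N)) (g : coind V.subtype (res V.subtype N) ⟶ Q)
        (w : f ≫ g = 0), (ShortComplex.mk f g w).ShortExact ∧ Module.Finite k Q ∧ IsSmooth 𝔉 Q ∧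
          ∀ n, Module.Finite k (Hlc (𝔉.restrict V) (res V.subtype N) n))
    (n : ℕ) (N : Rep.{u} k G) [Module.Finite k N] (hsm : IsSmooth 𝔉 N) :
    Module.Finite k (Hlc 𝔉 N n) := by
  refine hlcFin_finite_of_smooth hfin ?_ n N hsm
  intro N hN hNsm
  obtain ⟨V, hV, Q, f, g, w, hX, hQ, hQsm, hfinV⟩ := hI N hN hNsm
  have hB : IsSmooth (𝔉.restrict V) (res V.subtype N) := hNsm.res_subtype V
  exact ⟨_, Q, f, g, w, hX, isSmooth_coind hfin (isOpenFor_of_mem hV) hB, hQ, hQsm,
    fun n => hlcFin_finite_coind hfin (isOpenFor_of_mem hV) _ hB n (hfinV n)⟩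

end Devissage

section Cone

variable {k G : Type u} [Field k] [Group G] {𝔉 : LevelFamily G} (𝔏 : LocSystem 𝔉)
  (A : Rep.{u} k G)

/-- finiteness of the cone cohomology `Hcc n` (`= H_c^{n+1}`) from the cone long exact sequence
`∏_v Hlcⁿ(G_v) → Hcc n → Hlcⁿ⁺¹(G)`. -/
theorem hlcFin_finite_Hcc [Finite 𝔏.ι] (n : ℕ)
    (hloc : ∀ v : 𝔏.ι, Module.Finite k (Hlc (𝔏.fam v) (𝔏.coeff A v) n))
    (hglob : Module.Finite k (Hlc 𝔉 A (n + 1))) : Module.Finite k (Hcc 𝔏 A n) := by
  haveI := hloc
  haveI := hglob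
  haveI : Module.Finite k (∀ v : 𝔏.ι, Hlc (𝔏.fam v) (𝔏.coeff A v) n) := Module.Finite.pi
  exact hlcFin_finite_of_exact (ccδ 𝔏 A n) (ccToH 𝔏 A n)
    (fun z hz => exists_ccδ_eq_of_ccToH_eq_zero 𝔏 A n z hz)

/-- finiteness of the kernel and of the range of the localisation map. -/
theorem hlcFin_finite_ker_locRes (n : ℕ) (hglob : Module.Finite k (Hlc 𝔉 A n)) :
    Module.Finite k (LinearMap.ker (locRes 𝔏 A n)) := by
  haveI := hglob
  infer_instance

end Cone

end Fermat.Agent.PT
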