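/-
S55 engine (V-abs) (helper1): the "finite Sylow + unipotent filtration" vanishing step.

For a level family `𝔉` on `G` with finite-index members and `k = ZMod p`:

* `isZero_Hlc_of_isPGroup_quotient` : if `V ∈ 𝔉` with `G ⧸ V` a `p`-group acts trivially on the
  finite-dimensional representation `N` and `Hlcⁿ(𝔉, 𝔽_p) = 0`, then `Hlcⁿ(𝔉, N) = 0`
  (induction on the dimension: a `p`-group has a fixed line).
* `isZero_Hlc_of_forall_trivial` : if `Hlcⁿ(𝔉|_H, 𝔽_p) = 0` for all open subgroups `H` (and the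
  Shapiro maps are injective), then `Hlcⁿ(𝔉, M) = 0` for every finite-dimensional smooth `M`
  (restriction to the preimage of a Sylow subgroup of a finite quotient is injective).
-/
import Fermat.Agent.CFT.PT.SmoothCor

set_option autoImplicit false

namespace Fermat.Agent.PT

open CategoryTheory CategoryTheory.Limits groupCohomology Rep

section Generic

variable {k G : Type} [CommRing k] [Group G] (𝔉 : LevelFamily G)

/-- level-constant cohomology of a zero representation vanishes. -/
theorem unipV_isZero_Hlc_of_subsingleton (N : Rep k G) [Subsingleton N] (n : ℕ) :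
    IsZero (Hlc 𝔉 N n) := by
  haveI : Subsingleton (Hlc 𝔉 N n) := by
    refine ⟨fun x y => ?_⟩
    obtain ⟨c, rfl⟩ := lcπ_surjective 𝔉 N n x
    obtain ⟨c', rfl⟩ := lcπ_surjective 𝔉 N n y
    congr 1
    apply Subtype.ext
    funext g
    exact Subsingleton.elim _ _
  exact ModuleCat.isZero_of_subsingleton _

/-- the morphism `k ⟶ N`, `1 ↦ m`, for a fixed vector `m`. -/
noncomputable def unipV_lineHom (N : Rep k G) (m : N) (hm : ∀ g, N.ρ g m = m) :
    Rep.trivial k G k ⟶ N :=
  Rep.ofHom (ρ := Representation.trivial k G k) (σ := N.ρ)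
    ⟨LinearMap.toSpanSingleton k N m, fun g => by
      ext
      simp [hm g]⟩

theorem unipV_lineHom_apply (N : Rep k G) (m : N) (hm : ∀ g, N.ρ g m = m) (c : k) :
    (unipV_lineHom N m hm).hom c = c • m := rfl

end Generic

section SC
variable {k G : Type} [CommRing k] [Group G]

/-- the short complex `k ⟶ N ⟶ coker` attached to a fixed vector. -/
noncomputable def unipV_SC (N : Rep k G) (m : N) (hm : ∀ g, N.ρ g m = m) :
    ShortComplex (Rep k G) :=
  ShortComplex.mk (unipV_lineHom N m hm) (cokernel.π (unipV_lineHom N m hm))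
    (cokernel.condition _)

theorem unipV_SC_shortExact (N : Rep k G) (m : N) (hm : ∀ g, N.ρ g m = m)
    (hinj : Function.Injective (unipV_lineHom N m hm).hom) : (unipV_SC N m hm).ShortExact :=
  { exact := ShortComplex.exact_cokernel _
    mono_f := (Rep.mono_iff_injective _).2 hinj
    epi_g := by
      change Epi (cokernel.π (unipV_lineHom N m hm))
      infer_instance }

end SC

variable {p : ℕ} [Fact p.Prime] {G : Type} [Group G]

theorem unipV_exists_fixed_ne_zero (V : Subgroup G) [V.Normal] (hP : IsPGroup p (G ⧸ V))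
    (N : Rep (ZMod p) G) [FiniteDimensional (ZMod p) N] [Nontrivial N]
    (hN : ∀ v ∈ V, N.ρ v = 1) : ∃ m : N, m ≠ 0 ∧ ∀ g, N.ρ g m = m := by
  classical
  let φ : G ⧸ V →* (N →ₗ[ZMod p] N) := QuotientGroup.lift V N.ρ (fun v hv => hN v hv)
  letI : MulAction (G ⧸ V) N := MulAction.compHom N φ
  haveI : Finite N := Module.finite_of_finite (ZMod p)
  have hcard : p ∣ Nat.card N := by
    rw [Module.natCard_eq_pow_finrank (K := ZMod p) (V := N), Nat.card_zmod]
    exact dvd_pow_self p (Module.finrank_pos.ne')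
  have h0 : (0 : N) ∈ MulAction.fixedPoints (G ⧸ V) N := fun q => by
    show φ q 0 = 0
    simp
  obtain ⟨b, hb, hne⟩ := hP.exists_fixed_point_of_prime_dvd_card_of_fixed_point N hcard h0
  refine ⟨b, hne.symm, fun g => ?_⟩
  exact hb (g : G ⧸ V)

theorem unipV_aux (𝔉 : LevelFamily G) (hfin : 𝔉.FiniteIndex) (n : ℕ)
    (hbase : IsZero (Hlc 𝔉 (Rep.trivial (ZMod p) G (ZMod p)) n))
    (V : Subgroup G) [V.Normal] (hV : V ∈ 𝔉.sets) (hP : IsPGroup p (G ⧸ V)) :
    ∀ (d : ℕ) (N : Rep (ZMod p) G) [FiniteDimensional (ZMod p) N],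
      Module.finrank (ZMod p) N = d → (∀ v ∈ V, N.ρ v = 1) → IsZero (Hlc 𝔉 N n) := by
  intro d
  induction d with
  | zero =>
    intro N _ hd _
    haveI : Subsingleton N := Module.finrank_zero_iff.1 hd
    exact unipV_isZero_Hlc_of_subsingleton 𝔉 N n
  | succ d ih =>
    intro N _ hd hN
    haveI : Nontrivial N := Module.finrank_pos_iff.1 (by rw [hd]; exact Nat.succ_pos d)
    obtain ⟨m, hm0, hm⟩ := unipV_exists_fixed_ne_zero V hP N hN
    have hinj : Function.Injective (unipV_lineHom N m hm).hom := by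
      intro a b hab
      have h1 : a • m = b • m := hab
      have h2 : (a - b) • m = 0 := by rw [sub_smul, h1, sub_self]
      rcases smul_eq_zero.1 h2 with h | h
      · exact sub_eq_zero.1 h
      · exact absurd h hm0
    have hX := unipV_SC_shortExact N m hm hinj
    have hsm : IsSmooth 𝔉 (unipV_SC N m hm).X₂ := fun a => ⟨V, hV, fun u hu => by
      have := hN u hu
      show N.ρ u a = a
      rw [this]; rfl⟩
    -- the cokernel
    haveI : FiniteDimensional (ZMod p) (unipV_SC N m hm).X₂ := ‹FiniteDimensional (ZMod p) N›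
    set C := (unipV_SC N m hm).X₃ with hC
    have hgsurj : Function.Surjective (unipV_SC N m hm).g.hom :=
      (Rep.epi_iff_surjective _).1 hX.epi_g
    haveI : FiniteDimensional (ZMod p) C :=
      Module.Finite.of_surjective (unipV_SC N m hm).g.hom.toLinearMap hgsurj
    have hCV : ∀ v ∈ V, C.ρ v = 1 := by
      intro v hv
      ext c
      obtain ⟨a, rfl⟩ := hgsurj c
      have h1 := Rep.hom_comm_apply (unipV_SC N m hm).g v a
      rw [← h1]
      have := hN v hv
      show (unipV_SC N m hm).g.hom (N.ρ v a) = _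
      rw [this]; rfl
    have hker : LinearMap.ker (unipV_SC N m hm).g.hom.toLinearMap =
        LinearMap.range (unipV_SC N m hm).f.hom.toLinearMap :=
      ((hX.exact.map (forget₂ (Rep (ZMod p) G) (ModuleCat (ZMod p)))).moduleCat_range_eq_ker).symm
    have hCd : Module.finrank (ZMod p) C = d := by
      have h1 := LinearMap.finrank_range_add_finrank_ker (unipV_SC N m hm).g.hom.toLinearMap
      have h4 : Module.finrank (ZMod p) (LinearMap.range (unipV_SC N m hm).f.hom.toLinearMap) =
          Module.finrank (ZMod p) (unipV_SC N m hm).X₁ := LinearMap.finrank_range_of_inj hinj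
      rw [LinearMap.range_eq_top.2 hgsurj, finrank_top, hker, h4] at h1
      have h2 : Module.finrank (ZMod p) (unipV_SC N m hm).X₁ = 1 := Module.finrank_self _
      have h3 : Module.finrank (ZMod p) (unipV_SC N m hm).X₂ = d + 1 := hd
      rw [h2, h3] at h1
      exact Nat.succ_injective h1
    have hCzero : IsZero (Hlc 𝔉 C n) := ih C hCd hCV
    haveI : Subsingleton (Hlc 𝔉 N n) := by
      refine subsingleton_of_forall_eq 0 fun x => ?_
      have hx : (lcH₂₃ 𝔉 (unipV_SC N m hm) n).hom x = 0 :=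
        (ModuleCat.subsingleton_of_isZero hCzero).elim _ _
      obtain ⟨y, rfl⟩ := exists_lcH₁₂_eq hfin hX hsm n x hx
      have hy : y = 0 := (ModuleCat.subsingleton_of_isZero hbase).elim _ _
      rw [hy, map_zero]
      rfl
    exact ModuleCat.isZero_of_subsingleton _

theorem isZero_Hlc_of_isPGroup_quotient (𝔉 : LevelFamily G) (hfin : 𝔉.FiniteIndex) (n : ℕ)
    (hbase : IsZero (Hlc 𝔉 (Rep.trivial (ZMod p) G (ZMod p)) n))
    (V : Subgroup G) [V.Normal] (hV : V ∈ 𝔉.sets) (hP : IsPGroup p (G ⧸ V))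
    (N : Rep (ZMod p) G) [FiniteDimensional (ZMod p) N] (hN : ∀ v ∈ V, N.ρ v = 1) :
    IsZero (Hlc 𝔉 N n) :=
  unipV_aux 𝔉 hfin n hbase V hV hP _ N rfl hN

/-- a finite-dimensional smooth representation is fixed pointwise by a member of the family. -/
theorem unipV_exists_level (𝔉 : LevelFamily G) (M : Rep (ZMod p) G)
    [FiniteDimensional (ZMod p) M] (hM : IsSmooth 𝔉 M) :
    ∃ V ∈ 𝔉.sets, ∀ v ∈ V, M.ρ v = 1 := by
  classical
  haveI : Finite M := Module.finite_of_finite (ZMod p)
  haveI : Fintype M := Fintype.ofFinite _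
  choose U hU hUa using hM
  obtain ⟨W, hW, hWle⟩ := exists_le_of_finset 𝔉.nonempty 𝔉.directed (Finset.univ : Finset M) U
    (fun a _ => hU a)
  refine ⟨W, hW, fun v hv => ?_⟩
  ext a
  exact hUa a v (hWle a (Finset.mem_univ a) hv)

theorem isZero_Hlc_of_forall_trivial (𝔉 : LevelFamily G) (hfin : 𝔉.FiniteIndex) (n : ℕ)
    (hshap : ∀ H : Subgroup G, (∃ U ∈ 𝔉.sets, U ≤ H) → ∀ M : Rep (ZMod p) G,
      Function.Injective (HlcShapiro 𝔉 H (res H.subtype M) n).hom)
    (hbase : ∀ H : Subgroup G, (∃ U ∈ 𝔉.sets, U ≤ H) →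
      IsZero (Hlc (𝔉.restrict H) (Rep.trivial (ZMod p) H (ZMod p)) n))
    (M : Rep (ZMod p) G) [FiniteDimensional (ZMod p) M] (hM : IsSmooth 𝔉 M) :
    IsZero (Hlc 𝔉 M n) := by
  classical
  obtain ⟨V, hV, hVM⟩ := unipV_exists_level 𝔉 M hM
  haveI : V.Normal := 𝔉.normal V hV
  haveI : V.FiniteIndex := hfin V hV
  haveI : Finite (G ⧸ V) := Subgroup.finite_quotient_of_finiteIndex
  obtain ⟨P⟩ : Nonempty (Sylow p (G ⧸ V)) := inferInstance
  set H : Subgroup G := (P : Subgroup (G ⧸ V)).comap (QuotientGroup.mk' V) with hH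
  have hVH : V ≤ H := by
    intro v hv
    show (QuotientGroup.mk' V v) ∈ (P : Subgroup (G ⧸ V))
    have : QuotientGroup.mk' V v = 1 := (QuotientGroup.eq_one_iff v).2 hv
    rw [this]
    exact one_mem _
  have hopen : ∃ U ∈ 𝔉.sets, U ≤ H := ⟨V, hV, hVH⟩
  haveI : H.FiniteIndex := Subgroup.finiteIndex_of_le hVH
  have hindex : H.index = (P : Subgroup (G ⧸ V)).index :=
    Subgroup.index_comap_of_surjective _ (QuotientGroup.mk'_surjective V)
  have hcop : Nat.Coprime p H.index := by
    rw [hindex]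
    exact (Nat.Prime.coprime_iff_not_dvd Fact.out).2 P.not_dvd_index
  -- the quotient of `H` by `V ∩ H` is a `p`-group
  haveI : (V.subgroupOf H).Normal := Subgroup.normal_subgroupOf
  have hPH : IsPGroup p (↥H ⧸ V.subgroupOf H) := by
    intro q
    obtain ⟨h, rfl⟩ := QuotientGroup.mk_surjective q
    obtain ⟨k, hk⟩ := P.isPGroup' ⟨QuotientGroup.mk' V h.1, h.2⟩
    refine ⟨k, ?_⟩
    rw [← QuotientGroup.mk_pow, QuotientGroup.eq_one_iff, Subgroup.mem_subgroupOf]
    have h2 := congrArg Subtype.val hk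
    simp only [SubgroupClass.coe_pow, Subgroup.coe_one] at h2
    rw [← map_pow] at h2
    exact (QuotientGroup.eq_one_iff _).1 h2
  haveI : FiniteDimensional (ZMod p) (res H.subtype M) := ‹FiniteDimensional (ZMod p) M›
  have hzero : IsZero (Hlc (𝔉.restrict H) (res H.subtype M) n) :=
    isZero_Hlc_of_isPGroup_quotient (𝔉.restrict H) (hfin.restrict H) n (hbase H hopen)
      (V.subgroupOf H) (LevelFamily.subgroupOf_mem_restrict H hV) hPH (res H.subtype M)
      (fun v hv => hVM v.1 hv)
  haveI : Subsingleton (Hlc 𝔉 M n) := by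
    refine subsingleton_of_forall_eq 0 fun x => ?_
    refine eq_zero_of_HlcRes_eq_zero_of_coprime 𝔉 H M n (hshap H hopen M) hcop x ?_
      ((ModuleCat.subsingleton_of_isZero hzero).elim _ _)
    have h1 : (p : ℕ) • x = ((p : ℕ) : ZMod p) • x := (Nat.cast_smul_eq_nsmul (ZMod p) p x).symm
    rw [h1, ZMod.natCast_self, zero_smul]
  exact ModuleCat.isZero_of_subsingleton _

end Fermat.Agent.PT
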