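/-
S55 engine (V-abs), part 2 (helper1): the Sylow + unipotent-filtration vanishing with the Shapiro
hypothesis discharged by `shapMap_bijective` (PT/SmoothShapiro.lean).

`isZero_Hlc_of_forall_open_trivial` : if `Hlcⁿ(𝔉|_H, 𝔽_p) = 0` for all open subgroups `H`, then
`Hlcⁿ(𝔉, M) = 0` for every finite-dimensional smooth `𝔽_p`-representation `M`.
-/
import Fermat.Agent.CFT.PT.UnipotentVanish
import Fermat.Agent.CFT.PT.SmoothShapiro

set_option autoImplicit false

namespace Fermat.Agent.PT

open CategoryTheory CategoryTheory.Limits groupCohomology Rep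

variable {p : ℕ} [Fact p.Prime] {G : Type} [Group G]

/-- the preimage in `G` of a Sylow `p`-subgroup of the finite quotient `G ⧸ V`: it is open, of
index prime to `p`, and its quotient by `V` is a `p`-group. -/
theorem unipV_exists_sylow_preimage (V : Subgroup G) [V.Normal] [V.FiniteIndex] :
    ∃ H : Subgroup G, V ≤ H ∧ Nat.Coprime p H.index ∧
      IsPGroup p (↥H ⧸ V.subgroupOf H) := by
  classical
  haveI : Finite (G ⧸ V) := Subgroup.finite_quotient_of_finiteIndex
  obtain ⟨P⟩ : Nonempty (Sylow p (G ⧸ V)) := inferInstance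
  refine ⟨(P : Subgroup (G ⧸ V)).comap (QuotientGroup.mk' V), ?_, ?_, ?_⟩
  · intro v hv
    show (QuotientGroup.mk' V v) ∈ (P : Subgroup (G ⧸ V))
    have : QuotientGroup.mk' V v = 1 := (QuotientGroup.eq_one_iff v).2 hv
    rw [this]
    exact one_mem _
  · have hindex : ((P : Subgroup (G ⧸ V)).comap (QuotientGroup.mk' V)).index =
        (P : Subgroup (G ⧸ V)).index :=
      Subgroup.index_comap_of_surjective _ (QuotientGroup.mk'_surjective V)
    rw [hindex]
    exact (Nat.Prime.coprime_iff_not_dvd Fact.out).2 P.not_dvd_index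
  · intro q
    obtain ⟨h, rfl⟩ := QuotientGroup.mk_surjective q
    obtain ⟨k, hk⟩ := P.isPGroup' ⟨QuotientGroup.mk' V h.1, h.2⟩
    refine ⟨k, ?_⟩
    rw [← QuotientGroup.mk_pow, QuotientGroup.eq_one_iff, Subgroup.mem_subgroupOf]
    have h2 := congrArg Subtype.val hk
    simp only [SubgroupClass.coe_pow, Subgroup.coe_one] at h2
    rw [← map_pow] at h2
    exact (QuotientGroup.eq_one_iff _).1 h2

/-- **(R5)**: if `Hlcⁿ(H, 𝔽_p) = 0` for all open subgroups `H` of `G`, then `Hlcⁿ(G, M) = 0` for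
all finite-dimensional smooth `𝔽_p`-representations `M`. -/
theorem isZero_Hlc_of_forall_open_trivial (𝔉 : LevelFamily G) (hfin : 𝔉.FiniteIndex) (n : ℕ)
    (hbase : ∀ H : Subgroup G, IsOpenFor 𝔉 H →
      IsZero (Hlc (𝔉.restrict H) (Rep.trivial (ZMod p) H (ZMod p)) n))
    (M : Rep (ZMod p) G) [FiniteDimensional (ZMod p) M] (hM : IsSmooth 𝔉 M) :
    IsZero (Hlc 𝔉 M n) := by
  classical
  obtain ⟨V, hV, hVM⟩ := unipV_exists_level 𝔉 M hM
  haveI : V.Normal := 𝔉.normal V hV
  haveI : V.FiniteIndex := hfin V hV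
  obtain ⟨H, hVH, hcop, hPH⟩ := unipV_exists_sylow_preimage (p := p) V
  have hopen : IsOpenFor 𝔉 H := ⟨V, hV, hVH⟩
  haveI : H.FiniteIndex := Subgroup.finiteIndex_of_le hVH
  haveI : (V.subgroupOf H).Normal := Subgroup.normal_subgroupOf
  haveI : FiniteDimensional (ZMod p) (res H.subtype M) := ‹FiniteDimensional (ZMod p) M›
  have hzero : IsZero (Hlc (𝔉.restrict H) (res H.subtype M) n) :=
    isZero_Hlc_of_isPGroup_quotient (𝔉.restrict H) (hfin.restrict H) n (hbase H hopen)
      (V.subgroupOf H) (LevelFamily.subgroupOf_mem_restrict H hV) hPH (res H.subtype M)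
      (fun v hv => hVM v.1 hv)
  have hinj : Function.Injective (HlcShapiro 𝔉 H (res H.subtype M) n).hom :=
    (shapMap_bijective hfin hopen n (res H.subtype M) (hM.res_subtype H)).1
  haveI : Subsingleton (Hlc 𝔉 M n) := by
    refine subsingleton_of_forall_eq 0 fun x => ?_
    refine eq_zero_of_HlcRes_eq_zero_of_coprime 𝔉 H M n hinj hcop x ?_
      ((ModuleCat.subsingleton_of_isZero hzero).elim _ _)
    have h1 : (p : ℕ) • x = ((p : ℕ) : ZMod p) • x := (Nat.cast_smul_eq_nsmul (ZMod p) p x).symm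
    rw [h1, ZMod.natCast_self, zero_smul]
  exact ModuleCat.isZero_of_subsingleton _

end Fermat.Agent.PT
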