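/-
S55 engine (E6'): naturality of the finite-level inflations `HlcInfl` in the group and in the
coefficients.

For `ψ : H →* G`, `φ : res ψ A ⟶ B`, normal `U ≤ G`, `V ≤ H` with `V ≤ U.comap ψ` there is the
finite-level map `H^n(G ⧸ U, A^U) ⟶ H^n(H ⧸ V, B^V)`; it is compatible with `HlcMap ψ φ`.
-/
import Fermat.Agent.CFT.PT.FiniteLevel

set_option autoImplicit false

namespace Fermat.Agent.PT

open CategoryTheory groupCohomology Rep

universe u

variable {k G H : Type u} [CommRing k] [Group G] [Group H]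

section Gen

variable {A : Rep.{u} k G} {B : Rep.{u} k H} (ψ : H →* G) (φ : res ψ A ⟶ B)
  {U : Subgroup G} {V : Subgroup H} [U.Normal] [V.Normal] (hVU : V ≤ U.comap ψ)

/-- the map `H ⧸ V →* G ⧸ U` induced by `ψ` when `ψ V ≤ U`. -/
abbrev quotMapGen : H ⧸ V →* G ⧸ U := QuotientGroup.map V U ψ hVU

theorem quotMapGen_mk (h : H) : quotMapGen ψ hVU (h : H ⧸ V) = (ψ h : G ⧸ U) := rfl

/-- `A^U ⟶ B^V` induced by `φ`, as a linear map. -/
def invMapLin : (A.quotientToInvariants U) →ₗ[k] (B.quotientToInvariants V) where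
  toFun x := ⟨φ.hom x.1, fun v => by
    have h1 := Rep.hom_comm_apply φ v.1 x.1
    have h2 : A.ρ (ψ v.1) x.1 = x.1 := x.2 ⟨ψ v.1, hVU v.2⟩
    change B.ρ v.1 (φ.hom x.1) = φ.hom x.1
    rw [← h1]
    exact congrArg φ.hom h2⟩
  map_add' x y := Subtype.ext (map_add φ.hom x.1 y.1)
  map_smul' c x := Subtype.ext (map_smul φ.hom c x.1)

theorem invMapLin_apply_coe (x : A.quotientToInvariants U) :
    ((invMapLin ψ φ hVU x : B.quotientToInvariants V) : B) = φ.hom (x : A) := rfl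

/-- `A^U ⟶ B^V` over `H ⧸ V ⟶ G ⧸ U`. -/
noncomputable def invMap :
    res (quotMapGen ψ hVU) (A.quotientToInvariants U) ⟶ B.quotientToInvariants V :=
  Rep.ofHom ⟨invMapLin ψ φ hVU, fun h => QuotientGroup.induction_on h fun h => by
    ext x
    exact Rep.hom_comm_apply φ h x.1⟩

theorem invMap_apply_coe (x : A.quotientToInvariants U) :
    (((invMap ψ φ hVU).hom x : B.quotientToInvariants V) : B) = φ.hom (x : A) := rfl

/-- the finite-level map `H^n(G ⧸ U, A^U) ⟶ H^n(H ⧸ V, B^V)`. -/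
noncomputable abbrev finMap (n : ℕ) :
    groupCohomology (A.quotientToInvariants U) n ⟶ groupCohomology (B.quotientToInvariants V) n :=
  groupCohomology.map (quotMapGen ψ hVU) (invMap ψ φ hVU) n

end Gen

section Nat

variable {A : Rep.{u} k G} {B : Rep.{u} k H} (ψ : H →* G) (φ : res ψ A ⟶ B)
  {𝔉H : LevelFamily H} {𝔉G : LevelFamily G}

@[reassoc]
theorem finMap_comp_lcInfl (hψ : 𝔉H.Compat ψ 𝔉G) {U : ↥𝔉G.sets} {V : ↥𝔉H.sets}
    (hVU : (V : Subgroup H) ≤ (U : Subgroup G).comap ψ) :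
    cochainsMap (quotMapGen ψ hVU) (invMap ψ φ hVU) ≫ lcInfl 𝔉H B V =
      lcInfl 𝔉G A U ≫ lcMap ψ φ hψ := by
  ext n f : 3
  rfl

/-- **naturality of the finite-level inflation** in the group and the coefficients. -/
@[reassoc]
theorem finMap_comp_HlcInfl (hψ : 𝔉H.Compat ψ 𝔉G) {U : ↥𝔉G.sets} {V : ↥𝔉H.sets}
    (hVU : (V : Subgroup H) ≤ (U : Subgroup G).comap ψ) (n : ℕ) :
    finMap ψ φ hVU n ≫ HlcInfl 𝔉H B V n = HlcInfl 𝔉G A U n ≫ HlcMap ψ φ hψ n := by
  exact (HomologicalComplex.homologyMap_comp _ _ n).symm.trans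
    ((congrArg (fun f => HomologicalComplex.homologyMap f n)
      (finMap_comp_lcInfl ψ φ hψ hVU)).trans (HomologicalComplex.homologyMap_comp _ _ n))

theorem HlcMap_HlcInfl_apply (hψ : 𝔉H.Compat ψ 𝔉G) {U : ↥𝔉G.sets} {V : ↥𝔉H.sets}
    (hVU : (V : Subgroup H) ≤ (U : Subgroup G).comap ψ) (n : ℕ)
    (y : groupCohomology (A.quotientToInvariants (U : Subgroup G)) n) :
    (HlcMap ψ φ hψ n).hom ((HlcInfl 𝔉G A U n).hom y) =
      (HlcInfl 𝔉H B V n).hom ((finMap ψ φ hVU n).hom y) :=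
  congr($(finMap_comp_HlcInfl ψ φ hψ hVU n) y).symm

/-- for every level `U` of `G` there is a level `V` of `H` mapping into it. -/
theorem exists_level_le_comap (hψ : 𝔉H.Compat ψ 𝔉G) (U : ↥𝔉G.sets) :
    ∃ V : ↥𝔉H.sets, (V : Subgroup H) ≤ (U : Subgroup G).comap ψ := by
  obtain ⟨V, hV, hVU⟩ := hψ U U.2
  exact ⟨⟨V, hV⟩, hVU⟩

end Nat

end Fermat.Agent.PT
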