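import Fermat.Agent.CFT.PT.GaloisFamily
import Fermat.Agent.CFT.PT.SmoothBridge
import Fermat.Agent.CFT.Bridge.LocalLevel
import Fermat.Agent.CFT.Bridge.Arch

/-!
# S55 BRIDGE: the local families are the intrinsic Galois families of `PadicAlgCl q / ℚ_q`

* `famGal_refines_famR`, `famR_refines_famGal` : the pulled-back family `famR (localGaloisToGlobal q)`
  on `Gal(PadicAlgCl q / ℚ_q)` and the intrinsic family `famGal ℚ_[q] (PadicAlgCl q)` (fixing
  subgroups of the finite Galois extensions of `ℚ_q`) are mutually cofinal (Krasner).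
* `famLoc q : LevelFamily (primeLocalGaloisGroup q)` (the intrinsic family, for `q : Nat.Primes`),
  `famLoc_refines_famR`, `famR_refines_famLoc`, `HlcLocIso`,
  `famLoc_compat_famS : (famLoc q).Compat (primeLocalToGlobal q) (famS S)`.
* `locQ S M q n : Hlc (famS S) M n ⟶ Hlc (famLoc q) (res (primeLocalToGlobal q) M) n`, and
  `mem_lcSha_iff_forall_locQ` : for `p` odd and `n = 1, 2` the engine-side `Ш` is cut out by the
  intrinsic localisation maps `locQ` at the primes of `S` alone.
-/

set_option autoImplicit false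

namespace Fermat.Agent.PT

open CategoryTheory groupCohomology Rep Fermat.Agent.CFT ExtCitation IntermediateField

local notation "Γℚ" => (AlgebraicClosure ℚ ≃ₐ[ℚ] AlgebraicClosure ℚ)

section Generic

universe u

variable {G H : Type u} [Group G] [Group H]

/-- Compatibility is preserved by refining the source family and coarsening the target. -/
lemma LevelFamily.Compat.of_refines {ψ : H →* G} {𝔉H 𝔉H' : LevelFamily H}
    {𝔉G 𝔉G' : LevelFamily G} (h : 𝔉H.Compat ψ 𝔉G) (hH : 𝔉H'.Refines 𝔉H)
    (hG : 𝔉G.Refines 𝔉G') : 𝔉H'.Compat ψ 𝔉G' := by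
  intro U hU
  obtain ⟨U', hU', hUU'⟩ := hG U hU
  obtain ⟨V, hV, hVU⟩ := h U' hU'
  obtain ⟨W, hW, hWV⟩ := hH V hV
  exact ⟨W, hW, fun w hw => hUU' (hVU (hWV hw))⟩

end Generic

section Padic

variable (q : ℕ) [Fact q.Prime]

local instance isAlgebraicQbar_lfam : Algebra.IsAlgebraic ℚ (AlgebraicClosure ℚ) :=
  AlgebraicClosure.isAlgebraic ℚ
local instance isAlgClosureQbar_lfam : IsAlgClosure ℚ (AlgebraicClosure ℚ) :=
  ⟨inferInstance, inferInstance⟩
local instance normalQbar_lfam : Normal ℚ (AlgebraicClosure ℚ) :=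
  IsAlgClosure.normal ℚ (AlgebraicClosure ℚ)

theorem famGal_refines_famR :
    (famGal ℚ_[q] (PadicAlgCl q)).Refines (famR (localGaloisToGlobal q)) := by
  rintro U ⟨F, hF, -, rfl⟩
  have := hF
  rw [← localLevel_fixingSubgroup_eq_comap]
  exact exists_mem_famGal_le (localLevel q F)

theorem famR_refines_famGal :
    (famR (localGaloisToGlobal q)).Refines (famGal ℚ_[q] (PadicAlgCl q)) := by
  rintro U ⟨E, hE, -, rfl⟩
  have := hE
  obtain ⟨F, hF, hEF⟩ := exists_le_localLevel q E
  have := hF
  refine ⟨(galClosure F).fixingSubgroup.comap (localGaloisToGlobal q),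
    ⟨galClosure F, galClosure_finiteDimensional F,
      (galClosure_fixingSubgroup_normal F).comap _, rfl⟩, ?_⟩
  rw [← localLevel_fixingSubgroup_eq_comap]
  exact IntermediateField.fixingSubgroup_antitone
    (hEF.trans (localLevel_mono q (le_galClosure F)))

end Padic

section Primes

variable (q : Nat.Primes)

/-- The intrinsic level family of the local Galois group at `q`: fixing subgroups of the finite
Galois extensions of `ℚ_q` inside `PadicAlgCl q`. -/
noncomputable def famLoc : LevelFamily (primeLocalGaloisGroup q) :=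
  letI : Fact (q : ℕ).Prime := ⟨q.2⟩
  famGal ℚ_[(q : ℕ)] (PadicAlgCl (q : ℕ))

theorem famLoc_refines_famR : (famLoc q).Refines (famR (primeLocalToGlobal q)) :=
  letI : Fact (q : ℕ).Prime := ⟨q.2⟩
  famGal_refines_famR (q : ℕ)

theorem famR_refines_famLoc : (famR (primeLocalToGlobal q)).Refines (famLoc q) :=
  letI : Fact (q : ℕ).Prime := ⟨q.2⟩
  famR_refines_famGal (q : ℕ)

theorem famLoc_finiteIndex : (famLoc q).FiniteIndex :=
  letI : Fact (q : ℕ).Prime := ⟨q.2⟩
  famGal_finiteIndex

theorem famLoc_compat_famS (S : Finset Nat.Primes) :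
    (famLoc q).Compat (primeLocalToGlobal q) (famS S) :=
  (famR_compat_famS (primeLocalToGlobal q) S).of_refines (famLoc_refines_famR q)
    (LevelFamily.refines_rfl _)

variable {k : Type} [CommRing k]

/-- The pulled-back and the intrinsic local families give the same cohomology. -/
noncomputable def HlcLocIso (N : Rep.{0} k (primeLocalGaloisGroup q)) (n : ℕ) :
    Hlc (famR (primeLocalToGlobal q)) N n ≅ Hlc (famLoc q) N n :=
  HlcFamIso N (famLoc_refines_famR q) (famR_refines_famLoc q) n

/-- The intrinsic localisation map at `q`. -/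
noncomputable def locQ (S : Finset Nat.Primes) (M : Rep.{0} k Γℚ) (n : ℕ) :
    Hlc (famS S) M n ⟶ Hlc (famLoc q) (Rep.res (primeLocalToGlobal q) M) n :=
  HlcMap (primeLocalToGlobal q) (𝟙 (Rep.res (primeLocalToGlobal q) M)) (famLoc_compat_famS q S) n

theorem locQ_eq (S : Finset Nat.Primes) (M : Rep.{0} k Γℚ) (n : ℕ) :
    locQ q S M n =
      HlcMap (primeLocalToGlobal q) (𝟙 (Rep.res (primeLocalToGlobal q) M))
        (famR_compat_famS (primeLocalToGlobal q) S) n ≫
      (HlcLocIso q (Rep.res (primeLocalToGlobal q) M) n).hom := by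
  have h := HlcMap_comp_HlcFam (primeLocalToGlobal q) (𝟙 (Rep.res (primeLocalToGlobal q) M))
    (famR_compat_famS (primeLocalToGlobal q) S) (famLoc_compat_famS q S)
    (LevelFamily.refines_rfl (famS S)) (famLoc_refines_famR q) n
  rw [HlcFam_rfl, Category.id_comp] at h
  exact h.symm

theorem locQ_apply_eq_zero_iff (S : Finset Nat.Primes) (M : Rep.{0} k Γℚ) (n : ℕ)
    (y : Hlc (famS S) M n) :
    (locQ q S M n).hom y = 0 ↔
      (HlcMap (primeLocalToGlobal q) (𝟙 (Rep.res (primeLocalToGlobal q) M))
        (famR_compat_famS (primeLocalToGlobal q) S) n).hom y = 0 := by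
  rw [locQ_eq, ModuleCat.hom_comp, LinearMap.comp_apply]
  constructor
  · intro h
    have h2 := congrArg (HlcLocIso q (Rep.res (primeLocalToGlobal q) M) n).inv.hom h
    rw [map_zero] at h2
    rw [← h2]
    exact (congr($((HlcLocIso q (Rep.res (primeLocalToGlobal q) M) n).hom_inv_id) _)).symm
  · intro h
    rw [h, map_zero]

end Primes

section Sha

variable {p : ℕ} [Fact p.Prime] {S : Finset Nat.Primes} {M : Rep.{0} (ZMod p) Γℚ}

/-- The archimedean local `Hlc²` vanishes for odd `p`. -/
theorem eq_zero_of_arch_two (hp2 : p ≠ 2) (L₀ : SLevel S M)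
    (z : Hlc (famR archimedeanLoc) (Rep.res archimedeanLoc M) 2) : z = 0 := by
  have := subsingleton_continuousH2_archimedean hp2 M
  apply (continuousH2Equiv (Rep.res archimedeanLoc M) (L₀.toRLevel archimedeanLoc)).symm.injective
  exact Subsingleton.elim (α := continuousH2 archimedeanLoc (Rep.res archimedeanLoc M)) _ _

/-- The archimedean local `Hlc¹` vanishes for odd `p`. -/
theorem eq_zero_of_arch_one (hp2 : p ≠ 2) (L₀ : SLevel S M)
    (z : Hlc (famR archimedeanLoc) (Rep.res archimedeanLoc M) 1) : z = 0 := by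
  have := subsingleton_H1_archimedean hp2 M
  apply (continuousH1Equiv (Rep.res archimedeanLoc M) (L₀.toRLevel archimedeanLoc)).injective
  apply Subtype.ext
  exact Subsingleton.elim (α := H1 (Rep.res archimedeanLoc M)) _ _

/-- **`Ш` through the intrinsic local families.**  For odd `p` and `n = 1, 2` the engine-side
Tate–Shafarevich group is cut out by the localisation maps `locQ` at the primes of `S`. -/
theorem mem_lcSha_iff_forall_locQ (hp2 : p ≠ 2) (L₀ : SLevel S M) {n : ℕ} (hn : n = 1 ∨ n = 2)
    (y : Hlc (famS S) M n) :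
    y ∈ lcSha S M n ↔ ∀ q : ↥S, (locQ q.1 S M n).hom y = 0 := by
  rw [mem_lcSha]
  constructor
  · intro h q
    exact (locQ_apply_eq_zero_iff q.1 S M n y).2 (h (Sum.inr q))
  · rintro h (v | q)
    · rcases hn with rfl | rfl
      · exact eq_zero_of_arch_one hp2 L₀ _
      · exact eq_zero_of_arch_two hp2 L₀ _
    · exact (locQ_apply_eq_zero_iff q.1 S M n y).1 (h q)

end Sha

end Fermat.Agent.PT
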