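/-
S55 bridge (GB4-J)(J4): the local half of the smooth-coinduction model of `J`.

Abstract part: `K` a local field, `Ω / K` Galois, `𝔉` ANY level family of Galois type on
`Gal(Ω/K)` (not necessarily cofinal), `K'` an intermediate field, `H = Gal(Ω/K') ≤ Gal(Ω/K)` with
the induced family `𝔉.restrict H` and coefficients `Ωˣ`: Hilbert 90, vanishing of `H³`, the
`p`-primary Brauer theory, and injectivity of the change of family to the full Galois family.
Concrete part: `K = ℚ_q`, `Ω = PadicAlgCl q`, `𝔉 = (famS S).comap (primeLocalToGlobal q)`.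
-/
import Fermat.Agent.CFT.Local.BrauerGal
import Fermat.Agent.CFT.Local.OpenSubgroup
import Fermat.Agent.CFT.Local.CdTwo
import Fermat.Agent.CFT.Local.PadicLocalField
import Fermat.Agent.CFT.PT.SmoothCoind
import Fermat.Agent.CFT.PT.LocalFamily
import Fermat.Agent.CFT.PT.FiniteLevelNat

set_option autoImplicit false
set_option linter.unusedSectionVars false

namespace Fermat.Agent.PT

open CategoryTheory groupCohomology Rep IntermediateField Fermat.Agent.CFT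

section Abstract

variable {K Ω : Type} [Field K] [Field Ω] [Algebra K Ω] [IsGalois K Ω]

/-- a level family all of whose members are fixing subgroups of finite subextensions is of Galois
type (normality of the fields follows from normality of the subgroups). -/
theorem smLoc_isGaloisFamily_of_forall (𝔉 : LevelFamily (Ω ≃ₐ[K] Ω))
    (h : ∀ U ∈ 𝔉.sets, ∃ L : IntermediateField K Ω,
      FiniteDimensional K L ∧ L.fixingSubgroup = U) : IsGaloisFamily K Ω 𝔉 := by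
  intro U hU
  obtain ⟨L, hfd, rfl⟩ := h U hU
  have hn : L.fixingSubgroup.Normal := 𝔉.normal _ hU
  have : IsGalois K L := (InfiniteGalois.normal_iff_isGalois L).1 hn
  exact ⟨L, hfd, inferInstance, rfl⟩

/-- every family of Galois type is refined by the full Galois family. -/
theorem smLoc_famGal_refines (𝔉 : LevelFamily (Ω ≃ₐ[K] Ω)) (h𝔉 : IsGaloisFamily K Ω 𝔉) :
    (famGal K Ω).Refines 𝔉 := by
  intro U hU
  obtain ⟨L, hfd, hn, rfl⟩ := h𝔉 U hU
  exact ⟨_, mem_famGal_of_normal L, le_rfl⟩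

variable (K' : IntermediateField K Ω)

/-- the fixing subgroup of `K'(L)` in `Gal(Ω/K')` is the preimage of the fixing subgroup of `L`. -/
theorem smLoc_fixingSubgroup_adjoin (L : IntermediateField K Ω) :
    (IntermediateField.adjoin K' (L : Set Ω)).fixingSubgroup =
      L.fixingSubgroup.comap (galIncl K K' Ω) := by
  ext σ
  rw [mem_fixingSubgroup_adjoin_iff, Subgroup.mem_comap, IntermediateField.mem_fixingSubgroup_iff]
  rfl

theorem smLoc_finiteDimensional_adjoin (L : IntermediateField K Ω) [FiniteDimensional K L] :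
    FiniteDimensional K' ↥(IntermediateField.adjoin K' (L : Set Ω)) := by
  have h1 := IntermediateField.adjoin_rank_le_of_isAlgebraic_right (F := K) K' L
  have h2 : Module.rank K ↥L < Cardinal.aleph0 := Module.rank_lt_aleph0 K ↥L
  exact Module.rank_lt_aleph0_iff.1 (lt_of_le_of_lt h1 h2)

/-- the pull-back of a family of Galois type to `Gal(Ω/K')` is of Galois type. -/
theorem smLoc_isGaloisFamily_comap (𝔉 : LevelFamily (Ω ≃ₐ[K] Ω)) (h𝔉 : IsGaloisFamily K Ω 𝔉) :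
    IsGaloisFamily K' Ω (𝔉.comap (galIncl K K' Ω)) := by
  refine smLoc_isGaloisFamily_of_forall _ ?_
  rintro W ⟨U, hU, rfl⟩
  obtain ⟨L, hfd, hn, rfl⟩ := h𝔉 U hU
  exact ⟨IntermediateField.adjoin K' (L : Set Ω), smLoc_finiteDimensional_adjoin K' L,
    smLoc_fixingSubgroup_adjoin K' L⟩

/-! ### transport to `Gal(Ω/K')` -/

/-- `Gal(Ω/K') ≃* K'.fixingSubgroup` is compatible with the pulled-back and the induced family. -/
theorem smLoc_compat_equiv (𝔉 : LevelFamily (Ω ≃ₐ[K] Ω)) :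
    (𝔉.comap (galIncl K K' Ω)).Compat (openSub_equiv K').toMonoidHom
      (𝔉.restrict K'.fixingSubgroup) := by
  rintro W ⟨V, hV, rfl⟩
  exact ⟨V.comap (galIncl K K' Ω), ⟨V, hV, rfl⟩, fun σ hσ => hσ⟩

theorem smLoc_compat_equiv_symm (𝔉 : LevelFamily (Ω ≃ₐ[K] Ω)) :
    (𝔉.restrict K'.fixingSubgroup).Compat (openSub_equiv K').symm.toMonoidHom
      (𝔉.comap (galIncl K K' Ω)) := by
  rintro W ⟨V, hV, rfl⟩
  refine ⟨V.subgroupOf K'.fixingSubgroup, ⟨V, hV, rfl⟩, fun u hu => ?_⟩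
  change galIncl K K' Ω ((openSub_equiv K').symm u) ∈ V
  have h1 : galIncl K K' Ω ((openSub_equiv K').symm u) = (u : Ω ≃ₐ[K] Ω) := by
    ext x
    rfl
  rw [h1]
  exact hu

/-- the coefficient morphism of the transport: the identity of `Ωˣ`. -/
noncomputable def smLoc_unitsHom :
    res (openSub_equiv K').toMonoidHom
        (res K'.fixingSubgroup.subtype (Rep.ofAlgebraAutOnUnits K Ω)) ⟶
      Rep.ofAlgebraAutOnUnits K' Ω :=
  openSub_idHom K' (Rep.ofAlgebraAutOnUnits K Ω) ≫ unitsResHom K K' Ω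

theorem smLoc_unitsHom_bijective : Function.Bijective (smLoc_unitsHom K').hom :=
  Function.bijective_id

/-- **transport**: the level-constant cohomology of `H = Gal(Ω/K') ≤ Gal(Ω/K)` with the family
induced by `𝔉` and coefficients `Ωˣ` is that of `Gal(Ω/K')` with the pulled-back family. -/
noncomputable def smLoc_HlcEquiv (𝔉 : LevelFamily (Ω ≃ₐ[K] Ω)) (n : ℕ) :
    Hlc (𝔉.restrict K'.fixingSubgroup)
        (res K'.fixingSubgroup.subtype (Rep.ofAlgebraAutOnUnits K Ω)) n ≃ₗ[ℤ]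
      Hlc (𝔉.comap (galIncl K K' Ω)) (Rep.ofAlgebraAutOnUnits K' Ω) n :=
  LinearEquiv.ofBijective
    (HlcMap (openSub_equiv K').toMonoidHom (smLoc_unitsHom K') (smLoc_compat_equiv K' 𝔉) n).hom
    (openSub_HlcMap_bijective (openSub_equiv K') (smLoc_compat_equiv K' 𝔉)
      (smLoc_compat_equiv_symm K' 𝔉) (smLoc_unitsHom K') (smLoc_unitsHom_bijective K') n)

theorem smLoc_HlcEquiv_apply (𝔉 : LevelFamily (Ω ≃ₐ[K] Ω)) (n : ℕ)
    (x : Hlc (𝔉.restrict K'.fixingSubgroup)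
        (res K'.fixingSubgroup.subtype (Rep.ofAlgebraAutOnUnits K Ω)) n) :
    smLoc_HlcEquiv K' 𝔉 n x =
      (HlcMap (openSub_equiv K').toMonoidHom (smLoc_unitsHom K')
        (smLoc_compat_equiv K' 𝔉) n).hom x := rfl

/-! ### change of family in degree `2` -/

/-- **change of family is injective on the Brauer groups**: for families of Galois type
`𝔊 ≤ 𝔉`, the map `Hlc 𝔉 Ωˣ 2 ⟶ Hlc 𝔊 Ωˣ 2` is injective. -/
theorem smLoc_HlcFam_two_injective (𝔉 𝔊 : LevelFamily (Ω ≃ₐ[K] Ω))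
    (h𝔉 : IsGaloisFamily K Ω 𝔉) (h𝔊 : IsGaloisFamily K Ω 𝔊) (h : 𝔊.Refines 𝔉) :
    Function.Injective (HlcFam (Rep.ofAlgebraAutOnUnits K Ω) h 2).hom := by
  rw [injective_iff_map_eq_zero]
  intro x hx
  obtain ⟨U, y, rfl⟩ := exists_HlcInfl_eq 𝔉 _ 2 x
  obtain ⟨V, hV, hVU⟩ := h U U.2
  have hVn : V.Normal := 𝔊.normal V hV
  have hVU' : V ≤ (U : Subgroup (Ω ≃ₐ[K] Ω)).comap (MonoidHom.id (Ω ≃ₐ[K] Ω)) :=
    fun v hv => hVU hv
  have h1 := HlcMap_HlcInfl_apply (MonoidHom.id (Ω ≃ₐ[K] Ω))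
    (𝟙 (Rep.ofAlgebraAutOnUnits K Ω)) h.compat (U := U) (V := ⟨V, hV⟩) hVU' 2 y
  have h2 : (finMap (MonoidHom.id (Ω ≃ₐ[K] Ω)) (𝟙 (Rep.ofAlgebraAutOnUnits K Ω))
      (U := (U : Subgroup (Ω ≃ₐ[K] Ω))) (V := V) hVU' 2).hom y = 0 := by
    apply HlcInfl_two_injective 𝔊 h𝔊 ⟨V, hV⟩
    rw [map_zero]
    exact h1.symm.trans hx
  have h3 : (inflUV (Rep.ofAlgebraAutOnUnits K Ω) (U := (U : Subgroup (Ω ≃ₐ[K] Ω))) (V := V)
      hVU 2).hom y = 0 := h2
  obtain ⟨L, hfd, hn, hL⟩ := h𝔉 U U.2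
  obtain ⟨L', hfd', hn', hL'⟩ := h𝔊 V hV
  have hle : L ≤ L' := le_of_fixingSubgroup_le (by rw [hL, hL']; exact hVU)
  have hinj := inflUV_two_injective_of_eq L L' hle U V hL hL' hVU
  rw [hinj (h3.trans (map_zero _).symm), map_zero]

/-! ### `p`-divisibility of the Brauer group from `p`-power degrees -/

/-- **`Br` is `p`-divisible** as soon as the family has levels of degree divisible by arbitrarily
high powers of `p`. -/
theorem smLoc_brauer_divisible (hK : IsLocalFieldNA K) (𝔉 : LevelFamily (Ω ≃ₐ[K] Ω))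
    (h𝔉 : IsGaloisFamily K Ω 𝔉) (p : ℕ) (hp : p.Prime)
    (hdeg : ∀ j : ℕ, FamilyHasDegree K Ω 𝔉 (p ^ j))
    (x : Hlc 𝔉 (Rep.ofAlgebraAutOnUnits K Ω) 2) :
    ∃ z : Hlc 𝔉 (Rep.ofAlgebraAutOnUnits K Ω) 2, p • z = x := by
  obtain ⟨U, y₁, rfl⟩ := exists_HlcInfl_eq 𝔉 _ 2 x
  obtain ⟨L, hfd, hnor, hL⟩ := h𝔉 U U.2
  have hNpos : 0 < Module.finrank K L := Module.finrank_pos
  obtain ⟨a, m, hm, hNam⟩ := Nat.exists_eq_pow_mul_and_not_dvd hNpos.ne' p hp.ne_one
  obtain ⟨L₁, hfd₁, hnor₁, hmem₁, hdvd₁⟩ := hdeg (a + 1)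
  obtain ⟨V, hV, hVle⟩ := 𝔉.directed U U.2 _ hmem₁
  have hVU : V ≤ (U : Subgroup (Ω ≃ₐ[K] Ω)) := hVle.trans inf_le_left
  have hVU₁ : V ≤ L₁.fixingSubgroup := hVle.trans inf_le_right
  obtain ⟨L', hfd', hn', hL'⟩ := h𝔉 V hV
  have hVn : V.Normal := 𝔉.normal V hV
  let V' : ↥𝔉.sets := ⟨V, hV⟩
  have hle₁ : L₁ ≤ L' := le_of_fixingSubgroup_le (by rw [hL']; exact hVU₁)
  have hle : L ≤ L' := le_of_fixingSubgroup_le (by rw [hL, hL']; exact hVU)
  have hfinU := level_two_finite hK L U hL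
  have hfinV := level_two_finite hK L' V hL'
  have hcycV := level_two_isAddCyclic hK L' V hL'
  have hy₁ : Module.finrank K L • y₁ = 0 := by
    rw [← level_two_natCard hK L U hL]; exact card_nsmul_eq_zero'
  set y₂ := (inflUV (Rep.ofAlgebraAutOnUnits K Ω) (U := (U : Subgroup (Ω ≃ₐ[K] Ω))) (V := V)
    hVU 2).hom y₁ with hy₂
  have hy₂0 : Module.finrank K L • y₂ = 0 := by rw [hy₂, ← map_nsmul, hy₁, map_zero]
  have hd1 : p ^ (a + 1) ∣ Module.finrank K L' :=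
    hdvd₁.trans (IntermediateField.finrank_dvd_of_le_right hle₁)
  have hd2 : m ∣ Module.finrank K L' :=
    (Dvd.intro_left _ hNam.symm).trans (IntermediateField.finrank_dvd_of_le_right hle)
  have hcop : Nat.Coprime (p ^ (a + 1)) m :=
    Nat.Coprime.pow_left _ ((Nat.Prime.coprime_iff_not_dvd hp).2 hm)
  have hcard : p * Module.finrank K L ∣ Nat.card (groupCohomology
      ((Rep.ofAlgebraAutOnUnits K Ω).quotientToInvariants V) 2) := by
    rw [level_two_natCard hK L' V hL', hNam, ← mul_assoc, ← pow_succ']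
    exact Nat.Coprime.mul_dvd_of_dvd_of_dvd hcop hd1 hd2
  obtain ⟨z₂, hz₂⟩ := exists_nsmul_eq_of_isAddCyclic hNpos hcard y₂ hy₂0
  refine ⟨(HlcInfl 𝔉 (Rep.ofAlgebraAutOnUnits K Ω) V' 2).hom z₂, ?_⟩
  rw [← map_nsmul, hz₂]
  exact HlcInfl_inflUV_apply 𝔉 _ (U := U) (V := V') hVU 2 y₁

/-! ### the open subgroup `Gal(Ω/K')` with the induced family -/

theorem smLoc_refines_restrict {G : Type} [Group G] {𝔉 𝔊 : LevelFamily G} (h : 𝔊.Refines 𝔉)
    (H : Subgroup G) : (𝔊.restrict H).Refines (𝔉.restrict H) := by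
  rintro W ⟨U, hU, rfl⟩
  obtain ⟨V, hV, hVU⟩ := h U hU
  exact ⟨V.subgroupOf H, ⟨V, hV, rfl⟩, Subgroup.subgroupOf_mono H hVU⟩

theorem smLoc_refines_comap {G G' : Type} [Group G] [Group G'] {𝔉 𝔊 : LevelFamily G}
    (h : 𝔊.Refines 𝔉) (ψ : G' →* G) : (𝔊.comap ψ).Refines (𝔉.comap ψ) := by
  rintro W ⟨U, hU, rfl⟩
  obtain ⟨V, hV, hVU⟩ := h U hU
  exact ⟨V.comap ψ, ⟨V, hV, rfl⟩, Subgroup.comap_mono hVU⟩

theorem smLoc_range_galIncl : (galIncl K K' Ω).range = K'.fixingSubgroup := by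
  ext σ
  constructor
  · rintro ⟨τ, rfl⟩
    exact (openSub_equiv K' τ).2
  · intro h
    exact ⟨(openSub_equiv K').symm ⟨σ, h⟩, by ext x; rfl⟩

/-- a member of `𝔉` of relative index divisible by `n` in `Gal(Ω/K')` gives a level of degree
divisible by `n` over `K'`. -/
theorem smLoc_familyHasDegree_comap (𝔉 : LevelFamily (Ω ≃ₐ[K] Ω)) (h𝔉 : IsGaloisFamily K Ω 𝔉)
    (n : ℕ) (U : Subgroup (Ω ≃ₐ[K] Ω)) (hU : U ∈ 𝔉.sets)
    (hn : n ∣ U.relIndex K'.fixingSubgroup) :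
    FamilyHasDegree K' Ω (𝔉.comap (galIncl K K' Ω)) n := by
  have hmem : U.comap (galIncl K K' Ω) ∈ (𝔉.comap (galIncl K K' Ω)).sets := ⟨U, hU, rfl⟩
  obtain ⟨L', hfd', hn', hL'⟩ := smLoc_isGaloisFamily_comap K' 𝔉 h𝔉 _ hmem
  refine ⟨L', hfd', hn', hL' ▸ hmem, ?_⟩
  rw [IntermediateField.finrank_eq_fixingSubgroup_index, hL', Subgroup.index_comap,
    smLoc_range_galIncl]
  exact hn

/-- **(X0) Hilbert 90** for `Gal(Ω/K')` with the family induced by `𝔉`. -/
theorem smLoc_sub_subsingleton_one (𝔉 : LevelFamily (Ω ≃ₐ[K] Ω)) (h𝔉 : IsGaloisFamily K Ω 𝔉) :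
    Subsingleton (Hlc (𝔉.restrict K'.fixingSubgroup)
      (res K'.fixingSubgroup.subtype (Rep.ofAlgebraAutOnUnits K Ω)) 1) := by
  have h0 := isZero_Hlc_one_units _ (smLoc_isGaloisFamily_comap K' 𝔉 h𝔉)
  have := (ModuleCat.isZero_iff_subsingleton).1 h0
  exact (smLoc_HlcEquiv K' 𝔉 1).toEquiv.subsingleton

/-- **(X4)** `Hlc³ = 0` for `Gal(Ω/K')` with the family induced by `𝔉`. -/
theorem smLoc_sub_subsingleton_three (hK : IsLocalFieldNA K) [FiniteDimensional K K']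
    (𝔉 : LevelFamily (Ω ≃ₐ[K] Ω)) (h𝔉 : IsGaloisFamily K Ω 𝔉) :
    Subsingleton (Hlc (𝔉.restrict K'.fixingSubgroup)
      (res K'.fixingSubgroup.subtype (Rep.ofAlgebraAutOnUnits K Ω)) 3) := by
  have hK' : IsLocalFieldNA ↥K' := cdTwo_isLocalFieldNA_intermediate Ω hK K'
  have h0 := isZero_Hlc_units_of_forall_level _ (smLoc_isGaloisFamily_comap K' 𝔉 h𝔉) 3
    (fun L hfd hnor => by
      have : IsGalois ↥K' ↥L := isGalois_of_normal_intermediateField L
      exact hK'.isZero_H3_units (L := L))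
  have := (ModuleCat.isZero_iff_subsingleton).1 h0
  exact (smLoc_HlcEquiv K' 𝔉 3).toEquiv.subsingleton

/-- **(X1)** the change of family is injective in degree `2`, on `Gal(Ω/K')` with the induced
families. -/
theorem smLoc_sub_HlcFam_two_injective (𝔉 𝔊 : LevelFamily (Ω ≃ₐ[K] Ω))
    (h𝔉 : IsGaloisFamily K Ω 𝔉) (h𝔊 : IsGaloisFamily K Ω 𝔊) (h : 𝔊.Refines 𝔉)
    (h' : (𝔊.restrict K'.fixingSubgroup).Refines (𝔉.restrict K'.fixingSubgroup)) :
    Function.Injective (HlcFam (res K'.fixingSubgroup.subtype (Rep.ofAlgebraAutOnUnits K Ω))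
      h' 2).hom := by
  rw [injective_iff_map_eq_zero]
  intro x hx
  have hsq := HlcMap_comp_HlcFam (openSub_equiv K').toMonoidHom (smLoc_unitsHom K')
    (smLoc_compat_equiv K' 𝔉) (smLoc_compat_equiv K' 𝔊) h'
    (smLoc_refines_comap h (galIncl K K' Ω)) 2
  have h1 : (HlcFam (Rep.ofAlgebraAutOnUnits K' Ω) (smLoc_refines_comap h (galIncl K K' Ω)) 2).hom
      (smLoc_HlcEquiv K' 𝔉 2 x) = 0 := by
    have h2 : (HlcFam (Rep.ofAlgebraAutOnUnits K' Ω)
        (smLoc_refines_comap h (galIncl K K' Ω)) 2).hom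
        ((HlcMap (openSub_equiv K').toMonoidHom (smLoc_unitsHom K')
          (smLoc_compat_equiv K' 𝔉) 2).hom x) =
        (HlcMap (openSub_equiv K').toMonoidHom (smLoc_unitsHom K')
          (smLoc_compat_equiv K' 𝔊) 2).hom
          ((HlcFam (res K'.fixingSubgroup.subtype (Rep.ofAlgebraAutOnUnits K Ω)) h' 2).hom x) :=
      congr($hsq x)
    rw [hx, map_zero] at h2
    exact h2
  have h3 := smLoc_HlcFam_two_injective _ _ (smLoc_isGaloisFamily_comap K' 𝔉 h𝔉)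
    (smLoc_isGaloisFamily_comap K' 𝔊 h𝔊) (smLoc_refines_comap h (galIncl K K' Ω))
    (h1.trans (map_zero _).symm)
  exact (smLoc_HlcEquiv K' 𝔉 2).injective (h3.trans (map_zero _).symm)

/-- **(X3)** the `n`-torsion of the Brauer group of `Gal(Ω/K')` (family induced by `𝔉`) has `n`
elements if some level has relative index divisible by `n`. -/
theorem smLoc_sub_natCard_torsion (hK : IsLocalFieldNA K) [FiniteDimensional K K']
    (𝔉 : LevelFamily (Ω ≃ₐ[K] Ω)) (h𝔉 : IsGaloisFamily K Ω 𝔉) (n : ℕ)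
    (hdeg : ∃ U ∈ 𝔉.sets, n ∣ U.relIndex K'.fixingSubgroup) :
    Nat.card (nsmulAddMonoidHom n : Hlc (𝔉.restrict K'.fixingSubgroup)
      (res K'.fixingSubgroup.subtype (Rep.ofAlgebraAutOnUnits K Ω)) 2 →+ _).ker = n := by
  have hK' : IsLocalFieldNA ↥K' := cdTwo_isLocalFieldNA_intermediate Ω hK K'
  obtain ⟨U, hU, hn⟩ := hdeg
  have h0 := natCard_brauer_torsion hK' _ (smLoc_isGaloisFamily_comap K' 𝔉 h𝔉) n
    (smLoc_familyHasDegree_comap K' 𝔉 h𝔉 n U hU hn)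
  refine (Nat.card_congr ((smLoc_HlcEquiv K' 𝔉 2).toEquiv.subtypeEquiv fun x => ?_)).trans h0
  rw [AddMonoidHom.mem_ker, AddMonoidHom.mem_ker, nsmulAddMonoidHom_apply,
    nsmulAddMonoidHom_apply]
  change n • x = 0 ↔ n • (smLoc_HlcEquiv K' 𝔉 2) x = 0
  rw [← map_nsmul, LinearEquiv.map_eq_zero_iff]

/-- **(X2)** the Brauer group of `Gal(Ω/K')` (family induced by `𝔉`) is `p`-divisible if the
relative indices of the levels are divisible by arbitrarily high powers of `p`. -/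
theorem smLoc_sub_divisible (hK : IsLocalFieldNA K) [FiniteDimensional K K']
    (𝔉 : LevelFamily (Ω ≃ₐ[K] Ω)) (h𝔉 : IsGaloisFamily K Ω 𝔉) (p : ℕ) (hp : p.Prime)
    (hdeg : ∀ j : ℕ, ∃ U ∈ 𝔉.sets, p ^ j ∣ U.relIndex K'.fixingSubgroup)
    (x : Hlc (𝔉.restrict K'.fixingSubgroup)
      (res K'.fixingSubgroup.subtype (Rep.ofAlgebraAutOnUnits K Ω)) 2) :
    ∃ z : Hlc (𝔉.restrict K'.fixingSubgroup)
      (res K'.fixingSubgroup.subtype (Rep.ofAlgebraAutOnUnits K Ω)) 2, p • z = x := by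
  have hK' : IsLocalFieldNA ↥K' := cdTwo_isLocalFieldNA_intermediate Ω hK K'
  obtain ⟨z', hz'⟩ := smLoc_brauer_divisible hK' _ (smLoc_isGaloisFamily_comap K' 𝔉 h𝔉) p hp
    (fun j => by
      obtain ⟨U, hU, hn⟩ := hdeg j
      exact smLoc_familyHasDegree_comap K' 𝔉 h𝔉 (p ^ j) U hU hn)
    (smLoc_HlcEquiv K' 𝔉 2 x)
  refine ⟨(smLoc_HlcEquiv K' 𝔉 2).symm z', ?_⟩
  rw [← map_nsmul, hz', LinearEquiv.symm_apply_apply]

/-- a member of a family of Galois type is a member of the full Galois family. -/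
theorem smLoc_mem_famGal (𝔉 : LevelFamily (Ω ≃ₐ[K] Ω)) (h𝔉 : IsGaloisFamily K Ω 𝔉)
    {U : Subgroup (Ω ≃ₐ[K] Ω)} (hU : U ∈ 𝔉.sets) : U ∈ (famGal K Ω).sets := by
  obtain ⟨L, hfd, hn, rfl⟩ := h𝔉 U hU
  exact mem_famGal_of_normal L

/-- **(X5)** every `n`-torsion class of the Brauer group of `Gal(Ω/K')` for the finer family `𝔊`
comes from an `n`-torsion class for the coarser family `𝔉`, if both families have a level of
relative index divisible by `n`. -/
theorem smLoc_sub_exists_HlcFam_eq (hK : IsLocalFieldNA K) [FiniteDimensional K K']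
    (𝔉 𝔊 : LevelFamily (Ω ≃ₐ[K] Ω)) (h𝔉 : IsGaloisFamily K Ω 𝔉) (h𝔊 : IsGaloisFamily K Ω 𝔊)
    (h : 𝔊.Refines 𝔉)
    (h' : (𝔊.restrict K'.fixingSubgroup).Refines (𝔉.restrict K'.fixingSubgroup))
    (n : ℕ) (hn : 0 < n) (hdeg : ∃ U ∈ 𝔉.sets, n ∣ U.relIndex K'.fixingSubgroup)
    (hdeg' : ∃ U ∈ 𝔊.sets, n ∣ U.relIndex K'.fixingSubgroup)
    (y : Hlc (𝔊.restrict K'.fixingSubgroup)
      (res K'.fixingSubgroup.subtype (Rep.ofAlgebraAutOnUnits K Ω)) 2) (hy : n • y = 0) :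
    ∃ x : Hlc (𝔉.restrict K'.fixingSubgroup)
      (res K'.fixingSubgroup.subtype (Rep.ofAlgebraAutOnUnits K Ω)) 2,
      n • x = 0 ∧ (HlcFam (res K'.fixingSubgroup.subtype (Rep.ofAlgebraAutOnUnits K Ω))
        h' 2).hom x = y := by
  have hc₁ := smLoc_sub_natCard_torsion K' hK 𝔉 h𝔉 n hdeg
  have hc₂ := smLoc_sub_natCard_torsion K' hK 𝔊 h𝔊 n hdeg'
  have hinj := smLoc_sub_HlcFam_two_injective K' 𝔉 𝔊 h𝔉 h𝔊 h h'
  have hfin₂ : Finite (nsmulAddMonoidHom n : Hlc (𝔊.restrict K'.fixingSubgroup)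
      (res K'.fixingSubgroup.subtype (Rep.ofAlgebraAutOnUnits K Ω)) 2 →+ _).ker :=
    Nat.finite_of_card_ne_zero (by rw [hc₂]; exact hn.ne')
  let f : (nsmulAddMonoidHom n : Hlc (𝔉.restrict K'.fixingSubgroup)
      (res K'.fixingSubgroup.subtype (Rep.ofAlgebraAutOnUnits K Ω)) 2 →+ _).ker →
      (nsmulAddMonoidHom n : Hlc (𝔊.restrict K'.fixingSubgroup)
      (res K'.fixingSubgroup.subtype (Rep.ofAlgebraAutOnUnits K Ω)) 2 →+ _).ker :=
    fun x => ⟨(HlcFam (res K'.fixingSubgroup.subtype (Rep.ofAlgebraAutOnUnits K Ω)) h' 2).hom x.1,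
      by
        have hx := x.2
        rw [AddMonoidHom.mem_ker, nsmulAddMonoidHom_apply] at hx ⊢
        rw [← map_nsmul, hx, map_zero]⟩
  have hfinj : Function.Injective f := fun a b hab =>
    Subtype.ext (hinj (congrArg Subtype.val hab))
  have hbij := hfinj.bijective_of_nat_card_le (by rw [hc₁, hc₂])
  obtain ⟨x, hx⟩ := hbij.2 ⟨y, by rw [AddMonoidHom.mem_ker, nsmulAddMonoidHom_apply]; exact hy⟩
  refine ⟨x.1, ?_, congrArg Subtype.val hx⟩
  have hx2 := x.2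
  rw [AddMonoidHom.mem_ker, nsmulAddMonoidHom_apply] at hx2
  exact hx2

/-! ### the whole group `Gal(Ω/K)` with a family of Galois type -/

/-- a member of index divisible by `n` gives a level of degree divisible by `n`. -/
theorem smLoc_familyHasDegree_of_index (𝔉 : LevelFamily (Ω ≃ₐ[K] Ω))
    (h𝔉 : IsGaloisFamily K Ω 𝔉) (n : ℕ) (U : Subgroup (Ω ≃ₐ[K] Ω)) (hU : U ∈ 𝔉.sets)
    (hn : n ∣ U.index) : FamilyHasDegree K Ω 𝔉 n := by
  obtain ⟨L, hfd, hnor, hL⟩ := h𝔉 U hU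
  refine ⟨L, hfd, hnor, hL ▸ hU, ?_⟩
  rw [IntermediateField.finrank_eq_fixingSubgroup_index, hL]
  exact hn

/-- **(X5), whole group**: every `n`-torsion class of the Brauer group for the finer family `𝔊`
comes from an `n`-torsion class for the coarser family `𝔉`. -/
theorem smLoc_exists_HlcFam_eq (hK : IsLocalFieldNA K) (𝔉 𝔊 : LevelFamily (Ω ≃ₐ[K] Ω))
    (h𝔉 : IsGaloisFamily K Ω 𝔉) (h𝔊 : IsGaloisFamily K Ω 𝔊) (h : 𝔊.Refines 𝔉)
    (n : ℕ) (hn : 0 < n) (hdeg : FamilyHasDegree K Ω 𝔉 n) (hdeg' : FamilyHasDegree K Ω 𝔊 n)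
    (y : Hlc 𝔊 (Rep.ofAlgebraAutOnUnits K Ω) 2) (hy : n • y = 0) :
    ∃ x : Hlc 𝔉 (Rep.ofAlgebraAutOnUnits K Ω) 2,
      n • x = 0 ∧ (HlcFam (Rep.ofAlgebraAutOnUnits K Ω) h 2).hom x = y := by
  have hc₁ := natCard_brauer_torsion hK 𝔉 h𝔉 n hdeg
  have hc₂ := natCard_brauer_torsion hK 𝔊 h𝔊 n hdeg'
  have hinj := smLoc_HlcFam_two_injective 𝔉 𝔊 h𝔉 h𝔊 h
  have hfin₂ : Finite (nsmulAddMonoidHom n :
      Hlc 𝔊 (Rep.ofAlgebraAutOnUnits K Ω) 2 →+ _).ker :=
    Nat.finite_of_card_ne_zero (by rw [hc₂]; exact hn.ne')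
  let f : (nsmulAddMonoidHom n : Hlc 𝔉 (Rep.ofAlgebraAutOnUnits K Ω) 2 →+ _).ker →
      (nsmulAddMonoidHom n : Hlc 𝔊 (Rep.ofAlgebraAutOnUnits K Ω) 2 →+ _).ker :=
    fun x => ⟨(HlcFam (Rep.ofAlgebraAutOnUnits K Ω) h 2).hom x.1, by
        have hx := x.2
        rw [AddMonoidHom.mem_ker, nsmulAddMonoidHom_apply] at hx ⊢
        rw [← map_nsmul, hx, map_zero]⟩
  have hfinj : Function.Injective f := fun a b hab =>
    Subtype.ext (hinj (congrArg Subtype.val hab))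
  have hbij := hfinj.bijective_of_nat_card_le (by rw [hc₁, hc₂])
  obtain ⟨x, hx⟩ := hbij.2 ⟨y, by rw [AddMonoidHom.mem_ker, nsmulAddMonoidHom_apply]; exact hy⟩
  refine ⟨x.1, ?_, congrArg Subtype.val hx⟩
  have hx2 := x.2
  rw [AddMonoidHom.mem_ker, nsmulAddMonoidHom_apply] at hx2
  exact hx2

end Abstract

/-! ### the concrete case: `Gal(PadicAlgCl q / ℚ_q)` with the family pulled back from `famS S` -/

section Padic

variable (q : ℕ) [Fact q.Prime] (S : Finset Nat.Primes)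

/-- the family on `Gal(PadicAlgCl q / ℚ_q)` pulled back from `famS S` is of Galois type: its
members are the absolute Galois groups of the local fields `ℚ_q · ι(F)`, `F/ℚ` finite Galois
unramified outside `S`. -/
theorem smLoc_isGaloisFamily_famS :
    IsGaloisFamily ℚ_[q] (PadicAlgCl q) ((famS S).comap (localGaloisToGlobal q)) := by
  refine smLoc_isGaloisFamily_of_forall _ ?_
  rintro W ⟨U, ⟨F, hF, -, rfl⟩, rfl⟩
  have := hF.1
  exact ⟨localLevel q F, inferInstance, localLevel_fixingSubgroup_eq_comap q F⟩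

variable {q S} in
theorem smLoc_isOpenFor_famGal {H : Subgroup (PadicAlgCl q ≃ₐ[ℚ_[q]] PadicAlgCl q)}
    (hH : IsOpenFor ((famS S).comap (localGaloisToGlobal q)) H) :
    IsOpenFor (famGal ℚ_[q] (PadicAlgCl q)) H := by
  obtain ⟨V, hV, hVH⟩ := hH
  obtain ⟨V', hV', hle⟩ := smLoc_famGal_refines _ (smLoc_isGaloisFamily_famS q S) V hV
  exact ⟨V', hV', hle.trans hVH⟩

variable {q S}
variable {H : Subgroup (PadicAlgCl q ≃ₐ[ℚ_[q]] PadicAlgCl q)}
  (hH : IsOpenFor ((famS S).comap (localGaloisToGlobal q)) H)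
include hH

theorem smLoc_padic_subsingleton_one :
    Subsingleton (Hlc (((famS S).comap (localGaloisToGlobal q)).restrict H)
      (res H.subtype (Rep.ofAlgebraAutOnUnits ℚ_[q] (PadicAlgCl q))) 1) := by
  obtain ⟨K', hfd, rfl, -⟩ := openSub_exists_of_isOpenFor (smLoc_isOpenFor_famGal hH)
  exact smLoc_sub_subsingleton_one K' _ (smLoc_isGaloisFamily_famS q S)

theorem smLoc_padic_subsingleton_three :
    Subsingleton (Hlc (((famS S).comap (localGaloisToGlobal q)).restrict H)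
      (res H.subtype (Rep.ofAlgebraAutOnUnits ℚ_[q] (PadicAlgCl q))) 3) := by
  obtain ⟨K', hfd, rfl, -⟩ := openSub_exists_of_isOpenFor (smLoc_isOpenFor_famGal hH)
  have := hfd
  exact smLoc_sub_subsingleton_three K' (isLocalFieldNA_padic q) _ (smLoc_isGaloisFamily_famS q S)

theorem smLoc_padic_HlcFam_two_injective
    (h' : ((famGal ℚ_[q] (PadicAlgCl q)).restrict H).Refines
      (((famS S).comap (localGaloisToGlobal q)).restrict H)) :
    Function.Injective (HlcFam (res H.subtype (Rep.ofAlgebraAutOnUnits ℚ_[q] (PadicAlgCl q)))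
      h' 2).hom := by
  obtain ⟨K', hfd, rfl, -⟩ := openSub_exists_of_isOpenFor (smLoc_isOpenFor_famGal hH)
  exact smLoc_sub_HlcFam_two_injective K' _ _ (smLoc_isGaloisFamily_famS q S)
    (isGaloisFamily_famGal _ _) (smLoc_famGal_refines _ (smLoc_isGaloisFamily_famS q S)) h'

theorem smLoc_padic_natCard_torsion (n : ℕ)
    (hdeg : ∃ U ∈ ((famS S).comap (localGaloisToGlobal q)).sets, n ∣ U.relIndex H) :
    Nat.card (nsmulAddMonoidHom n : Hlc (((famS S).comap (localGaloisToGlobal q)).restrict H)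
      (res H.subtype (Rep.ofAlgebraAutOnUnits ℚ_[q] (PadicAlgCl q))) 2 →+ _).ker = n := by
  obtain ⟨K', hfd, rfl, -⟩ := openSub_exists_of_isOpenFor (smLoc_isOpenFor_famGal hH)
  have := hfd
  exact smLoc_sub_natCard_torsion K' (isLocalFieldNA_padic q) _ (smLoc_isGaloisFamily_famS q S) n
    hdeg

theorem smLoc_padic_divisible (p : ℕ) (hp : p.Prime)
    (hdeg : ∀ j : ℕ, ∃ U ∈ ((famS S).comap (localGaloisToGlobal q)).sets, p ^ j ∣ U.relIndex H)
    (x : Hlc (((famS S).comap (localGaloisToGlobal q)).restrict H)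
      (res H.subtype (Rep.ofAlgebraAutOnUnits ℚ_[q] (PadicAlgCl q))) 2) :
    ∃ z : Hlc (((famS S).comap (localGaloisToGlobal q)).restrict H)
      (res H.subtype (Rep.ofAlgebraAutOnUnits ℚ_[q] (PadicAlgCl q))) 2, p • z = x := by
  obtain ⟨K', hfd, rfl, -⟩ := openSub_exists_of_isOpenFor (smLoc_isOpenFor_famGal hH)
  have := hfd
  exact smLoc_sub_divisible K' (isLocalFieldNA_padic q) _ (smLoc_isGaloisFamily_famS q S) p hp
    hdeg x

theorem smLoc_padic_exists_HlcFam_eq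
    (h' : ((famGal ℚ_[q] (PadicAlgCl q)).restrict H).Refines
      (((famS S).comap (localGaloisToGlobal q)).restrict H)) (n : ℕ) (hn : 0 < n)
    (hdeg : ∃ U ∈ ((famS S).comap (localGaloisToGlobal q)).sets, n ∣ U.relIndex H)
    (y : Hlc ((famGal ℚ_[q] (PadicAlgCl q)).restrict H)
      (res H.subtype (Rep.ofAlgebraAutOnUnits ℚ_[q] (PadicAlgCl q))) 2) (hy : n • y = 0) :
    ∃ x : Hlc (((famS S).comap (localGaloisToGlobal q)).restrict H)
      (res H.subtype (Rep.ofAlgebraAutOnUnits ℚ_[q] (PadicAlgCl q))) 2,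
      n • x = 0 ∧ (HlcFam (res H.subtype (Rep.ofAlgebraAutOnUnits ℚ_[q] (PadicAlgCl q)))
        h' 2).hom x = y := by
  obtain ⟨K', hfd, rfl, -⟩ := openSub_exists_of_isOpenFor (smLoc_isOpenFor_famGal hH)
  have := hfd
  obtain ⟨U, hU, hdvd⟩ := hdeg
  exact smLoc_sub_exists_HlcFam_eq K' (isLocalFieldNA_padic q) _ _
    (smLoc_isGaloisFamily_famS q S) (isGaloisFamily_famGal _ _)
    (smLoc_famGal_refines _ (smLoc_isGaloisFamily_famS q S)) h' n hn ⟨U, hU, hdvd⟩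
    ⟨U, smLoc_mem_famGal _ (smLoc_isGaloisFamily_famS q S) hU, hdvd⟩ y hy

end Padic

/-! ### the statements for `q : Nat.Primes` (the shape consumed by `PT/SmoothCoindTop`) -/

section Primes

open ExtCitation

variable (S : Finset Nat.Primes) (q : Nat.Primes)

/-- the multiplicative group of `PadicAlgCl q` as a module over the local Galois group at `q`. -/
noncomputable def smLoc_units : Rep.{0} ℤ (primeLocalGaloisGroup q) :=
  letI : Fact (q : ℕ).Prime := ⟨q.2⟩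
  Rep.ofAlgebraAutOnUnits ℚ_[(q : ℕ)] (PadicAlgCl (q : ℕ))

/-- the family on the local Galois group at `q` pulled back from `famS S` (NOT cofinal in
`famLoc q` in general). -/
noncomputable abbrev smLoc_fam : LevelFamily (primeLocalGaloisGroup q) :=
  (famS S).comap (primeLocalToGlobal q)

theorem smLoc_fam_isGaloisFamily :
    letI : Fact (q : ℕ).Prime := ⟨q.2⟩
    IsGaloisFamily ℚ_[(q : ℕ)] (PadicAlgCl (q : ℕ)) (smLoc_fam S q) :=
  letI : Fact (q : ℕ).Prime := ⟨q.2⟩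
  smLoc_isGaloisFamily_famS (q : ℕ) S

/-- `famLoc q` refines the family pulled back from `famS S`. -/
theorem smLoc_famLoc_refines : (famLoc q).Refines (smLoc_fam S q) :=
  letI : Fact (q : ℕ).Prime := ⟨q.2⟩
  smLoc_famGal_refines _ (smLoc_isGaloisFamily_famS (q : ℕ) S)

theorem smLoc_famLoc_refines_restrict (H : Subgroup (primeLocalGaloisGroup q)) :
    ((famLoc q).restrict H).Refines ((smLoc_fam S q).restrict H) :=
  smLoc_refines_restrict (smLoc_famLoc_refines S q) H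

/-- an open subgroup for the pulled-back family is open for `famLoc q`. -/
theorem smLoc_isOpenFor_famLoc {H : Subgroup (primeLocalGaloisGroup q)}
    (hH : IsOpenFor (smLoc_fam S q) H) : IsOpenFor (famLoc q) H :=
  letI : Fact (q : ℕ).Prime := ⟨q.2⟩
  smLoc_isOpenFor_famGal hH

variable {S q} {H : Subgroup (primeLocalGaloisGroup q)} (hH : IsOpenFor (smLoc_fam S q) H)
include hH

/-- **(X0)** Hilbert 90. -/
theorem smLoc_X0 :
    Subsingleton (Hlc ((smLoc_fam S q).restrict H) (res H.subtype (smLoc_units q)) 1) :=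
  letI : Fact (q : ℕ).Prime := ⟨q.2⟩
  smLoc_padic_subsingleton_one hH

/-- **(X4)** `Hlc³(H, Ωˣ) = 0`. -/
theorem smLoc_X4 :
    Subsingleton (Hlc ((smLoc_fam S q).restrict H) (res H.subtype (smLoc_units q)) 3) :=
  letI : Fact (q : ℕ).Prime := ⟨q.2⟩
  smLoc_padic_subsingleton_three hH

/-- **(X1)** the change of family `Hlc²(H, Ωˣ)` (family from `famS S`) `⟶ Hlc²(H, Ωˣ)` (family
`famLoc q`) is injective. -/
theorem smLoc_X1 (h' : ((famLoc q).restrict H).Refines ((smLoc_fam S q).restrict H)) :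
    Function.Injective (HlcFam (res H.subtype (smLoc_units q)) h' 2).hom :=
  letI : Fact (q : ℕ).Prime := ⟨q.2⟩
  smLoc_padic_HlcFam_two_injective hH h'

/-- **(X3)**, general `n`: `|Hlc²(H, Ωˣ)[n]| = n` if `n` divides the relative index of a level. -/
theorem smLoc_natCard_torsion (n : ℕ) (hdeg : ∃ U ∈ (smLoc_fam S q).sets, n ∣ U.relIndex H) :
    Nat.card (nsmulAddMonoidHom n :
      Hlc ((smLoc_fam S q).restrict H) (res H.subtype (smLoc_units q)) 2 →+ _).ker = n :=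
  letI : Fact (q : ℕ).Prime := ⟨q.2⟩
  smLoc_padic_natCard_torsion hH n hdeg

/-- **(X3)** `|Hlc²(H, Ωˣ)[p]| = p`. -/
theorem smLoc_X3 (p : ℕ)
    (hdeg : ∀ j : ℕ, ∃ U ∈ (smLoc_fam S q).sets, U ≤ H ∧ p ^ j ∣ U.relIndex H) :
    Nat.card (nsmulAddMonoidHom p :
      Hlc ((smLoc_fam S q).restrict H) (res H.subtype (smLoc_units q)) 2 →+ _).ker = p := by
  obtain ⟨U, hU, -, hdvd⟩ := hdeg 1
  rw [pow_one] at hdvd
  exact smLoc_natCard_torsion hH p ⟨U, hU, hdvd⟩

/-- **(X2)** `Hlc²(H, Ωˣ)` is `p`-divisible. -/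
theorem smLoc_X2 (p : ℕ) (hp : p.Prime)
    (hdeg : ∀ j : ℕ, ∃ U ∈ (smLoc_fam S q).sets, U ≤ H ∧ p ^ j ∣ U.relIndex H)
    (x : Hlc ((smLoc_fam S q).restrict H) (res H.subtype (smLoc_units q)) 2) :
    ∃ z : Hlc ((smLoc_fam S q).restrict H) (res H.subtype (smLoc_units q)) 2, p • z = x :=
  letI : Fact (q : ℕ).Prime := ⟨q.2⟩
  smLoc_padic_divisible hH p hp (fun j => by
    obtain ⟨U, hU, -, hdvd⟩ := hdeg j
    exact ⟨U, hU, hdvd⟩) x

/-- **(X5)** every `p`-torsion class of `Hlc²(H, Ωˣ)` for the family `famLoc q` comes from a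
`p`-torsion class for the family pulled back from `famS S`. -/
theorem smLoc_X5 (h' : ((famLoc q).restrict H).Refines ((smLoc_fam S q).restrict H))
    (p : ℕ) (hp : p.Prime)
    (hdeg : ∀ j : ℕ, ∃ U ∈ (smLoc_fam S q).sets, U ≤ H ∧ p ^ j ∣ U.relIndex H)
    (y : Hlc ((famLoc q).restrict H) (res H.subtype (smLoc_units q)) 2) (hy : p • y = 0) :
    ∃ x : Hlc ((smLoc_fam S q).restrict H) (res H.subtype (smLoc_units q)) 2,
      p • x = 0 ∧ (HlcFam (res H.subtype (smLoc_units q)) h' 2).hom x = y := by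
  obtain ⟨U, hU, -, hdvd⟩ := hdeg 1
  rw [pow_one] at hdvd
  have : Fact (q : ℕ).Prime := ⟨q.2⟩
  exact smLoc_padic_exists_HlcFam_eq hH h' p hp.pos ⟨U, hU, hdvd⟩ y hy

/-- the `p`-torsion of `Hlc²(H, Ωˣ)` for the family `famLoc q` has `p` elements. -/
theorem smLoc_natCard_torsion_famLoc (n : ℕ)
    (hdeg : ∃ U ∈ (smLoc_fam S q).sets, n ∣ U.relIndex H) :
    Nat.card (nsmulAddMonoidHom n :
      Hlc ((famLoc q).restrict H) (res H.subtype (smLoc_units q)) 2 →+ _).ker = n := by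
  have : Fact (q : ℕ).Prime := ⟨q.2⟩
  obtain ⟨U, hU, hdvd⟩ := hdeg
  obtain ⟨K', hfd, rfl, -⟩ := openSub_exists_of_isOpenFor (smLoc_isOpenFor_famGal hH)
  have := hfd
  exact smLoc_sub_natCard_torsion K' (isLocalFieldNA_padic (q : ℕ)) _ (isGaloisFamily_famGal _ _) n
    ⟨U, smLoc_mem_famGal _ (smLoc_isGaloisFamily_famS (q : ℕ) S) hU, hdvd⟩

end Primes

/-! ### the whole local Galois group at `q` -/

section PrimesTop

open ExtCitation

variable (S : Finset Nat.Primes) (q : Nat.Primes)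

/-- **(X0), whole group.** -/
theorem smLoc_top_X0 : Subsingleton (Hlc (smLoc_fam S q) (smLoc_units q) 1) := by
  have : Fact (q : ℕ).Prime := ⟨q.2⟩
  exact (ModuleCat.isZero_iff_subsingleton).1
    (isZero_Hlc_one_units _ (smLoc_isGaloisFamily_famS (q : ℕ) S))

/-- **(X4), whole group.** -/
theorem smLoc_top_X4 : Subsingleton (Hlc (smLoc_fam S q) (smLoc_units q) 3) := by
  have : Fact (q : ℕ).Prime := ⟨q.2⟩
  refine (ModuleCat.isZero_iff_subsingleton).1
    (isZero_Hlc_units_of_forall_level _ (smLoc_isGaloisFamily_famS (q : ℕ) S) 3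
      (fun L hfd hnor => ?_))
  have : IsGalois ℚ_[(q : ℕ)] ↥L := isGalois_of_normal_intermediateField L
  exact (isLocalFieldNA_padic (q : ℕ)).isZero_H3_units (L := L)

/-- **(X1), whole group**: the change of family to `famLoc q` is injective in degree `2`. -/
theorem smLoc_top_X1 (h' : (famLoc q).Refines (smLoc_fam S q)) :
    Function.Injective (HlcFam (smLoc_units q) h' 2).hom := by
  have : Fact (q : ℕ).Prime := ⟨q.2⟩
  exact smLoc_HlcFam_two_injective _ _ (smLoc_isGaloisFamily_famS (q : ℕ) S)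
    (isGaloisFamily_famGal _ _) h'

/-- **(X3), whole group, general `n`.** -/
theorem smLoc_top_natCard_torsion (n : ℕ) (hdeg : ∃ U ∈ (smLoc_fam S q).sets, n ∣ U.index) :
    Nat.card (nsmulAddMonoidHom n : Hlc (smLoc_fam S q) (smLoc_units q) 2 →+ _).ker = n := by
  have : Fact (q : ℕ).Prime := ⟨q.2⟩
  obtain ⟨U, hU, hn⟩ := hdeg
  exact natCard_brauer_torsion (isLocalFieldNA_padic (q : ℕ)) _
    (smLoc_isGaloisFamily_famS (q : ℕ) S) n
    (smLoc_familyHasDegree_of_index _ (smLoc_isGaloisFamily_famS (q : ℕ) S) n U hU hn)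

/-- **(X2), whole group.** -/
theorem smLoc_top_X2 (p : ℕ) (hp : p.Prime)
    (hdeg : ∀ j : ℕ, ∃ U ∈ (smLoc_fam S q).sets, p ^ j ∣ U.index)
    (x : Hlc (smLoc_fam S q) (smLoc_units q) 2) :
    ∃ z : Hlc (smLoc_fam S q) (smLoc_units q) 2, p • z = x := by
  have : Fact (q : ℕ).Prime := ⟨q.2⟩
  exact smLoc_brauer_divisible (isLocalFieldNA_padic (q : ℕ)) _
    (smLoc_isGaloisFamily_famS (q : ℕ) S) p hp (fun j => by
      obtain ⟨U, hU, hn⟩ := hdeg j
      exact smLoc_familyHasDegree_of_index _ (smLoc_isGaloisFamily_famS (q : ℕ) S) _ U hU hn) x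

/-- **(X5), whole group.** -/
theorem smLoc_top_X5 (h' : (famLoc q).Refines (smLoc_fam S q)) (n : ℕ) (hn : 0 < n)
    (hdeg : ∃ U ∈ (smLoc_fam S q).sets, n ∣ U.index)
    (y : Hlc (famLoc q) (smLoc_units q) 2) (hy : n • y = 0) :
    ∃ x : Hlc (smLoc_fam S q) (smLoc_units q) 2,
      n • x = 0 ∧ (HlcFam (smLoc_units q) h' 2).hom x = y := by
  have : Fact (q : ℕ).Prime := ⟨q.2⟩
  obtain ⟨U, hU, hdvd⟩ := hdeg
  exact smLoc_exists_HlcFam_eq (isLocalFieldNA_padic (q : ℕ)) _ _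
    (smLoc_isGaloisFamily_famS (q : ℕ) S) (isGaloisFamily_famGal _ _) h' n hn
    (smLoc_familyHasDegree_of_index _ (smLoc_isGaloisFamily_famS (q : ℕ) S) n U hU hdvd)
    (smLoc_familyHasDegree_of_index _ (isGaloisFamily_famGal _ _) n U
      (smLoc_mem_famGal _ (smLoc_isGaloisFamily_famS (q : ℕ) S) hU) hdvd) y hy

end PrimesTop

end Fermat.Agent.PT
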