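import Mathlib
import Fermat.Agent.CFT.PT.SUnitsRep
import Fermat.Agent.CFT.PT.SUnitsDict

set_option autoImplicit false

/-!
# S55 GLOBAL -> ENGINE bridge: the Kummer step of `p`-capitulation

`p ∈ S`.  If `a ∈ ℚ_S` has `p`-divisible order at every valuation subring of `Qb` over a prime
outside `S` (in the form: `a / b^p` is a unit there for some `b ∈ ℚ_S`), then every `p`-th root of
`a` lies in `ℚ_S` (`ℚ_S(a^{1/p}) / ℚ_S` is unramified outside `S`, hence trivial).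

* `sUC_mem_QS_of_pow_mem`, `sUC_mem_QS_of_pow_mem'` : the statement in `Qb`
  (valuation-subring language, `QS S`);
* `sUC_mem_of_valuation_le_one`, `sUC_unit_of_valuation_eq_one` : one-prime form of helper21's
  dictionary;
* `sUC_mem_QS_of_pow_eq` : number-field form: `F ≤ ℚ_S` a number field, `a ∈ Fˣ` with
  `w(a) ≡ 0 mod p` (in the form `w(a / b^p) = 0`) for all primes `w` of `F` not over `S`
  ⟹ `a^{1/p} ∈ ℚ_S`;
* `sUC_exists_capitulation_field` : the finite extension `F(α) ≤ ℚ_S`.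
-/

namespace Fermat.Agent.PT

open CategoryTheory Fermat.Agent.CFT IntermediateField ExtCitation NumberField IsDedekindDomain
open scoped Pointwise

local notation "Qb" => AlgebraicClosure ℚ
local notation "Γℚ" => (AlgebraicClosure ℚ ≃ₐ[ℚ] AlgebraicClosure ℚ)

section Core

variable (S : Finset Nat.Primes) {p : ℕ} [Fact p.Prime]

/-- **Kummer step**: if `α ^ p ∈ ℚ_S` and at every valuation subring `A` of `Qb` over a prime
outside `S` the element `α` is a unit up to an element of `ℚ_S`, then `α ∈ ℚ_S`. -/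
theorem sUC_mem_QS_of_pow_mem (hpS : pPrime p ∈ S) (α : Qb) (hα : α ^ p ∈ QS S)
    (hloc : ∀ q : Nat.Primes, q ∉ S → ∀ A : ValuationSubring Qb, A.LiesOverPrime (q : ℕ) →
      ∃ b : Qb, b ∈ QS S ∧ b ≠ 0 ∧ α * b⁻¹ ∈ A ∧ (α * b⁻¹)⁻¹ ∈ A) : α ∈ QS S := by
  have hp : p.Prime := Fact.out
  by_cases hα0 : α = 0
  · rw [hα0]; exact zero_mem _
  rw [mem_QS_iff]
  intro q hq A hA g hg
  obtain ⟨b, hbQ, hb0, hyA, hyinvA⟩ := hloc q hq A hA
  obtain ⟨-, hgm⟩ := mem_inertiaSubgroupIn_iff_forall.1 hg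
  have hgb : g b = b := (mem_QS_iff S).1 hbQ q hq A hA g hg
  have hgα : g (α ^ p) = α ^ p := (mem_QS_iff S).1 hα q hq A hA g hg
  set y : Qb := α * b⁻¹ with hy
  have hy0 : y ≠ 0 := mul_ne_zero hα0 (inv_ne_zero hb0)
  have hgy : g y = g α * b⁻¹ := by rw [hy, map_mul, map_inv₀, hgb]
  have hζ : (g y * y⁻¹) ^ p = 1 := by
    have h1 : g y ^ p = y ^ p := by
      rw [hgy, hy, mul_pow, mul_pow, ← map_pow, hgα]
    rw [mul_pow, h1, inv_pow]
    exact mul_inv_cancel₀ (pow_ne_zero _ hy0)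
  have hm : g y * y⁻¹ - 1 ∈ A.nonunits := by
    have e : g y * y⁻¹ - 1 = (g y - y) * y⁻¹ := by
      field_simp
    rw [e]
    exact sUR_mul_mem_nonunits A (hgm _ hyA) hyinvA
  have hpq : Nat.Coprime p (q : ℕ) := by
    rw [Nat.coprime_primes hp q.2]
    intro hpq
    apply hq
    have : pPrime p = q := Subtype.ext hpq
    rwa [← this]
  have h1 := sUR_eq_one_of_sub_one_mem_nonunits A hA hpq hζ hm
  have h2 : g y = y := by
    have := congrArg (· * y) h1
    simp only [one_mul] at this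
    rwa [mul_assoc, inv_mul_cancel₀ hy0, mul_one] at this
  rw [hgy, hy] at h2
  have h3 := congrArg (· * b) h2
  simp only [mul_assoc, inv_mul_cancel₀ hb0, mul_one] at h3
  exact h3

/-- the same with the local condition on `a = α ^ p`: `a / b ^ p` is a unit of `A`. -/
theorem sUC_mem_QS_of_pow_mem' (hpS : pPrime p ∈ S) (α : Qb) (hα : α ^ p ∈ QS S)
    (hloc : ∀ q : Nat.Primes, q ∉ S → ∀ A : ValuationSubring Qb, A.LiesOverPrime (q : ℕ) →
      ∃ b : Qb, b ∈ QS S ∧ b ≠ 0 ∧ α ^ p * (b ^ p)⁻¹ ∈ A ∧ (α ^ p * (b ^ p)⁻¹)⁻¹ ∈ A) :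
    α ∈ QS S := by
  have hp0 : p ≠ 0 := (Fact.out : p.Prime).ne_zero
  refine sUC_mem_QS_of_pow_mem S hpS α hα fun q hq A hA => ?_
  obtain ⟨b, hbQ, hb0, h1, h2⟩ := hloc q hq A hA
  refine ⟨b, hbQ, hb0, sUR_mem_of_pow_mem A hp0 ?_, sUR_mem_of_pow_mem A hp0 ?_⟩
  · rwa [mul_pow, inv_pow]
  · rwa [inv_pow, mul_pow, inv_pow]

end Core

section NumberField

variable (F : IntermediateField ℚ Qb) [NumberField F]

/-- one-prime form of the dictionary: an element of `F` of valuation `≤ 1` at the prime of `𝓞 F`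
below `A` lies in `A`. -/
theorem sUC_mem_of_valuation_le_one {q : ℕ} (hq : q ≠ 0) (A : ValuationSubring Qb)
    (hA : A.LiesOverPrime q) (x : F) (h : (sUD_primeOf F A hq hA).valuation F x ≤ 1) :
    (x : Qb) ∈ A := by
  obtain ⟨a, s, hs, hxs⟩ := sUD_exists_div_of_valuation_le_one (sUD_primeOf F A hq hA) h
  have hs' : sUD_toQb F s ∉ A.nonunits := fun h' => hs (mem_sUD_idealOf.2 h')
  rw [ValuationSubring.mem_nonunits_iff_or, not_or, not_not] at hs'
  have e : (x : Qb) * sUD_toQb F s = sUD_toQb F a := by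
    have := congrArg (algebraMap F Qb) hxs
    rwa [map_mul] at this
  have e' : (x : Qb) = sUD_toQb F a * (sUD_toQb F s)⁻¹ := by
    rw [← e, mul_assoc, mul_inv_cancel₀ hs'.1, mul_one]
  rw [e']
  exact mul_mem (sUD_toQb_mem F A a) hs'.2

/-- an element of `F` of valuation `1` at the prime below `A` is a unit of `A`. -/
theorem sUC_unit_of_valuation_eq_one {q : ℕ} (hq : q ≠ 0) (A : ValuationSubring Qb)
    (hA : A.LiesOverPrime q) (x : F) (h : (sUD_primeOf F A hq hA).valuation F x = 1) :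
    (x : Qb) ∈ A ∧ ((x : Qb))⁻¹ ∈ A := by
  refine ⟨sUC_mem_of_valuation_le_one F hq A hA x h.le, ?_⟩
  have h2 : (sUD_primeOf F A hq hA).valuation F x⁻¹ ≤ 1 := by
    rw [map_inv₀, h, inv_one]
  have := sUC_mem_of_valuation_le_one F hq A hA x⁻¹ h2
  rwa [IntermediateField.coe_inv] at this

variable (S : Finset Nat.Primes) {p : ℕ} [Fact p.Prime]

/-- **Kummer step, number-field form**: `F ≤ ℚ_S` a number field, `a ∈ Fˣ` whose order at every
prime `w` of `F` not over `S` is divisible by `p` (in the form `w(a / b ^ p) = 0` for some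
`b ∈ Fˣ`).  Then every `p`-th root of `a` lies in `ℚ_S`. -/
theorem sUC_mem_QS_of_pow_eq (hpS : pPrime p ∈ S) (hF : F ≤ QS S) (a : F)
    (hdiv : ∀ w : HeightOneSpectrum (𝓞 F), w ∉ sUD_primesOver F S →
      ∃ b : F, b ≠ 0 ∧ w.valuation F (a * (b ^ p)⁻¹) = 1)
    (α : Qb) (hα : α ^ p = (a : Qb)) : α ∈ QS S := by
  refine sUC_mem_QS_of_pow_mem' S hpS α (by rw [hα]; exact hF a.2) fun q hq A hA => ?_
  have hw : sUD_primeOf F A q.2.ne_zero hA ∉ sUD_primesOver F S :=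
    sUD_notMem_primesOver F S hq (sUD_natCast_mem_idealOf hA)
  obtain ⟨b, hb0, hb⟩ := hdiv _ hw
  obtain ⟨h1, h2⟩ := sUC_unit_of_valuation_eq_one F q.2.ne_zero A hA _ hb
  refine ⟨(b : Qb), hF b.2, ?_, ?_, ?_⟩
  · intro h0
    apply hb0
    exact Subtype.ext h0
  · rw [hα]
    have e : ((a * (b ^ p)⁻¹ : F) : Qb) = (a : Qb) * ((b : Qb) ^ p)⁻¹ := by
      push_cast
      rfl
    rwa [e] at h1
  · rw [hα]
    have e : ((a * (b ^ p)⁻¹ : F) : Qb) = (a : Qb) * ((b : Qb) ^ p)⁻¹ := by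
      push_cast
      rfl
    rwa [e] at h2

/-- the finite extension `F(α)` of `F` inside `ℚ_S` in which the class capitulates. -/
theorem sUC_exists_capitulation_field (hpS : pPrime p ∈ S) (hF : F ≤ QS S) (a : F)
    (hdiv : ∀ w : HeightOneSpectrum (𝓞 F), w ∉ sUD_primesOver F S →
      ∃ b : F, b ≠ 0 ∧ w.valuation F (a * (b ^ p)⁻¹) = 1)
    (α : Qb) (hα : α ^ p = (a : Qb)) :
    ∃ F' : IntermediateField ℚ Qb, F ≤ F' ∧ F' ≤ QS S ∧ FiniteDimensional ℚ F' ∧ α ∈ F' := by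
  have hαQ := sUC_mem_QS_of_pow_eq F S hpS hF a hdiv α hα
  refine ⟨F ⊔ ℚ⟮α⟯, le_sup_left, sup_le hF ?_, ?_, ?_⟩
  · rw [IntermediateField.adjoin_le_iff]
    intro x hx
    rw [Set.mem_singleton_iff] at hx
    rw [hx]
    exact hαQ
  · have : FiniteDimensional ℚ ℚ⟮α⟯ :=
      IntermediateField.adjoin.finiteDimensional
        ((AlgebraicClosure.isAlgebraic ℚ).isAlgebraic α).isIntegral
    exact IntermediateField.finiteDimensional_sup F ℚ⟮α⟯
  · exact (le_sup_right : ℚ⟮α⟯ ≤ F ⊔ ℚ⟮α⟯) (IntermediateField.mem_adjoin_simple_self ℚ α)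

end NumberField

end Fermat.Agent.PT
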