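import Mathlib
import Fermat.Agent.CFT.PT.SUnitsDict
import Fermat.Agent.CFT.PT.SUnitsCapit
import Fermat.Agent.CFT.Global.PrimeDivisor

set_option autoImplicit false

/-!
# S55 GLOBAL -> ENGINE bridge (GB-cap): `p`-capitulation inside `ℚ_S`

(helper21)  `p ∈ S`.  If `F ⊆ ℚ_S` is a number field and `α ∈ Fˣ` has a divisor which is divisible
by `p ^ k` off `S`, then every `p ^ k`-th root `β` of `α` lies in `ℚ_S`
(`sUC_root_mem_QS`): the Kummer extension `F(β)/F` is unramified outside `S`.  Consequently an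
`S`-ideal class of `F` killed by `p ^ k` becomes principal in a finite Galois subextension of
`ℚ_S` (`sUC_exists_galois_root`).

* `sUC_mem_QS_of_pow_mem_of_coprime` : the Kummer lemma in the valuation-subring language of the
  prelude, for any exponent prime to all `q ∉ S` (helper28's `PT/SUnitsCapit.lean` has the case of
  exponent `p`; its single-prime dictionary `sUC_unit_of_valuation_eq_one` is reused here);
* `sUC_exists_valuation_eq` : elements of `F` with prescribed valuation at one prime;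
* `sUC_root_mem_QS`, `sUC_exists_galois_root`.
-/

namespace Fermat.Agent.PT

open CategoryTheory Fermat.Agent.CFT IntermediateField ExtCitation NumberField IsDedekindDomain
open scoped Pointwise

local notation "Qb" => AlgebraicClosure ℚ
local notation "Γℚ" => (AlgebraicClosure ℚ ≃ₐ[ℚ] AlgebraicClosure ℚ)

local instance sUC_isAlgebraicQbar : Algebra.IsAlgebraic ℚ (AlgebraicClosure ℚ) :=
  AlgebraicClosure.isAlgebraic ℚ
local instance sUC_isAlgClosureQbar : IsAlgClosure ℚ (AlgebraicClosure ℚ) :=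
  ⟨inferInstance, inferInstance⟩
local instance sUC_isGaloisQbar : IsGalois ℚ (AlgebraicClosure ℚ) where

section Kummer

variable (S : Finset Nat.Primes)

/-- **Kummer lemma, valuation-subring form.**  Let `n` be prime to every `q ∉ S`, `β ^ n ∈ ℚ_S`,
and assume that at every valuation subring `A` of `Qb` over a prime `q ∉ S` the element `β` is an
`A`-unit times an element of `ℚ_S`.  Then `β ∈ ℚ_S`. -/
theorem sUC_mem_QS_of_pow_mem_of_coprime {n : ℕ} (hn : ∀ q : Nat.Primes, q ∉ S → Nat.Coprime n (q : ℕ))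
    {β : Qb} (hβ : β ^ n ∈ QS S)
    (hloc : ∀ q : Nat.Primes, q ∉ S → ∀ A : ValuationSubring Qb, A.LiesOverPrime (q : ℕ) →
      ∃ t : Qb, t ∈ QS S ∧ t ≠ 0 ∧ β / t ∈ A ∧ t / β ∈ A) : β ∈ QS S := by
  rw [mem_QS_iff]
  intro q hq A hA g hg
  by_cases hβ0 : β = 0
  · rw [hβ0, map_zero]
  obtain ⟨t, ht, ht0, h1, h2⟩ := hloc q hq A hA
  obtain ⟨-, hgm⟩ := mem_inertiaSubgroupIn_iff_forall.1 hg
  have hgt : g t = t := (mem_QS_iff S).1 ht q hq A hA g hg
  have hgβ : g (β ^ n) = β ^ n := (mem_QS_iff S).1 hβ q hq A hA g hg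
  have hζ : (g β * β⁻¹) ^ n = 1 := by
    rw [mul_pow, ← map_pow, hgβ, inv_pow]
    exact mul_inv_cancel₀ (pow_ne_zero _ hβ0)
  have hm : g β * β⁻¹ - 1 ∈ A.nonunits := by
    have e : g β * β⁻¹ - 1 = (g (β / t) - β / t) * (t / β) := by
      rw [map_div₀, hgt]
      field_simp
    rw [e]
    exact sUR_mul_mem_nonunits A (hgm _ h1) h2
  have h3 := sUR_eq_one_of_sub_one_mem_nonunits A hA (hn q hq) hζ hm
  have h4 := congrArg (· * β) h3
  simp only [one_mul] at h4
  rwa [mul_assoc, inv_mul_cancel₀ hβ0, mul_one] at h4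

end Kummer

section Dict

variable (F : IntermediateField ℚ Qb) [NumberField F]

/-- elements of `F` with prescribed valuation at one prime. -/
theorem sUC_exists_valuation_eq (w : HeightOneSpectrum (𝓞 F)) (d : ℤ) :
    ∃ t : F, t ≠ 0 ∧ w.valuation F t = WithZero.exp d := by
  obtain ⟨π, hπ⟩ := w.valuation_exists_uniformizer F
  have hπ0 : π ≠ 0 := by
    rintro rfl
    rw [map_zero] at hπ
    exact WithZero.exp_ne_zero.symm hπ
  refine ⟨π ^ (-d), zpow_ne_zero _ hπ0, ?_⟩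
  rw [map_zpow₀, hπ, ← WithZero.exp_zsmul]
  congr 1
  simp

end Dict

section Main

variable (S : Finset Nat.Primes) {p : ℕ} [Fact p.Prime]

theorem sUC_coprime_pow (hpS : pPrime p ∈ S) (k : ℕ) (q : Nat.Primes) (hq : q ∉ S) :
    Nat.Coprime (p ^ k) (q : ℕ) := by
  have hp : p.Prime := Fact.out
  refine Nat.Coprime.pow_left k ?_
  rw [Nat.coprime_primes hp q.2]
  intro hpq
  apply hq
  have : pPrime p = q := Subtype.ext hpq
  rwa [← this]

/-- **Kummer capitulation, element form** (hypothesis in `∃ t` form).  `F ⊆ ℚ_S` a number field,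
`p ∈ S`, `α ∈ Fˣ` such that at every prime `w` of `F` not over `S` the element `α` is a `w`-unit
times a `p ^ k`-th power of `F`.  Then every `p ^ k`-th root of `α` lies in `ℚ_S`. -/
theorem sUC_root_mem_QS' (hpS : pPrime p ∈ S) (F : IntermediateField ℚ Qb) [NumberField F]
    (hF : F.IsUnramifiedOutside S) (k : ℕ) (α : F)
    (hα : ∀ w : HeightOneSpectrum (𝓞 F), w ∉ sUD_primesOver F S →
      ∃ t : F, t ≠ 0 ∧ w.valuation F (α / t ^ (p ^ k)) = 1)
    {β : Qb} (hβ : β ^ (p ^ k) = (α : Qb)) : β ∈ QS S := by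
  have hp : p.Prime := Fact.out
  have hpk0 : p ^ k ≠ 0 := pow_ne_zero _ hp.ne_zero
  have hFQ : F ≤ QS S := le_QS_of_isUnramifiedOutside S hF
  refine sUC_mem_QS_of_pow_mem_of_coprime S (sUC_coprime_pow S hpS k) (by rw [hβ]; exact hFQ α.2) ?_
  intro q hq A hA
  have hwS : sUD_primeOf F A q.2.ne_zero hA ∉ sUD_primesOver F S :=
    sUD_notMem_primesOver F S hq (sUD_natCast_mem_idealOf hA)
  obtain ⟨t, ht0, hval⟩ := hα _ hwS
  obtain ⟨h1, h2⟩ := sUC_unit_of_valuation_eq_one F q.2.ne_zero A hA _ hval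
  have ht0' : (t : Qb) ≠ 0 := fun h0 => ht0 (Subtype.ext h0)
  refine ⟨(t : Qb), hFQ t.2, ht0', sUR_mem_of_pow_mem A hpk0 ?_, sUR_mem_of_pow_mem A hpk0 ?_⟩
  · rw [div_pow, hβ]
    exact h1
  · rw [div_pow, hβ]
    have e : ((t : Qb)) ^ (p ^ k) / (α : Qb) = (((α / t ^ (p ^ k) : F)) : Qb)⁻¹ := by
      push_cast
      rw [inv_div]
    rw [e]
    exact h2

/-- **Kummer capitulation, element form** (divisor hypothesis).  `F ⊆ ℚ_S` a number field,
`p ∈ S`, `α ∈ Fˣ` whose divisor is divisible by `p ^ k` at all primes of `F` not over `S`.  Then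
every `p ^ k`-th root of `α` lies in `ℚ_S`. -/
theorem sUC_root_mem_QS (hpS : pPrime p ∈ S) (F : IntermediateField ℚ Qb) [NumberField F]
    (hF : F.IsUnramifiedOutside S) (k : ℕ) (α : Fˣ)
    (hα : ∀ w : HeightOneSpectrum (𝓞 F), w ∉ sUD_primesOver F S →
      ((p ^ k : ℕ) : ℤ) ∣ divFun (𝓞 F) F α w) {β : Qb} (hβ : β ^ (p ^ k) = ((α : F) : Qb)) :
    β ∈ QS S := by
  refine sUC_root_mem_QS' S hpS F hF k (α : F) (fun w hw => ?_) hβ
  obtain ⟨d, hd⟩ := hα w hw
  obtain ⟨t, ht0, ht⟩ := sUC_exists_valuation_eq F w d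
  refine ⟨t, ht0, ?_⟩
  rw [map_div₀, map_pow, ht, valuation_eq_exp_divFun, hd, ← WithZero.exp_nsmul,
    div_eq_one_iff_eq WithZero.exp_ne_zero]
  congr 1

/-- every `p ^ k`-th root lying in `ℚ_S` lies in a finite Galois subextension containing `F`. -/
theorem sUC_exists_galois_of_mem_QS (F : IntermediateField ℚ Qb)
    (hF : F.IsUnramifiedOutside S) {β : Qb} (hβQ : β ∈ QS S) :
    ∃ F' : IntermediateField ℚ Qb, F ≤ F' ∧ F'.IsUnramifiedOutside S ∧ IsGalois ℚ F' ∧
      F'.fixingSubgroup.Normal ∧ β ∈ F' := by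
  have hFQ : F ≤ QS S := le_QS_of_isUnramifiedOutside S hF
  have : FiniteDimensional ℚ F := hF.1
  have : FiniteDimensional ℚ ℚ⟮β⟯ := adjoin.finiteDimensional (Algebra.IsIntegral.isIntegral β)
  have hsup : (F ⊔ ℚ⟮β⟯).IsUnramifiedOutside S := by
    rw [← le_QS_iff]
    refine sup_le hFQ ?_
    rw [adjoin_simple_le_iff]
    exact hβQ
  exact ⟨galClosure (F ⊔ ℚ⟮β⟯), le_trans le_sup_left (le_galClosure _),
    IsUnramifiedOutside.galClosure hsup,
    (InfiniteGalois.normal_iff_isGalois _).1 (galClosure_fixingSubgroup_normal _),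
    galClosure_fixingSubgroup_normal _,
    le_galClosure _ (le_sup_right (a := F) (mem_adjoin_simple_self ℚ β))⟩

/-- **`p`-capitulation in `ℚ_S`** (hypothesis in `∃ t` form): there is a finite Galois extension
`F'` of `ℚ` inside `ℚ_S`, containing `F`, in which `α` is a `p ^ k`-th power. -/
theorem sUC_exists_galois_root' (hpS : pPrime p ∈ S) (F : IntermediateField ℚ Qb) [NumberField F]
    (hF : F.IsUnramifiedOutside S) (k : ℕ) (α : F)
    (hα : ∀ w : HeightOneSpectrum (𝓞 F), w ∉ sUD_primesOver F S →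
      ∃ t : F, t ≠ 0 ∧ w.valuation F (α / t ^ (p ^ k)) = 1) :
    ∃ F' : IntermediateField ℚ Qb, F ≤ F' ∧ F'.IsUnramifiedOutside S ∧ IsGalois ℚ F' ∧
      F'.fixingSubgroup.Normal ∧ ∃ β : Qb, β ∈ F' ∧ β ^ (p ^ k) = (α : Qb) := by
  have hp : p.Prime := Fact.out
  have hpk0 : p ^ k ≠ 0 := pow_ne_zero _ hp.ne_zero
  obtain ⟨β, hβ⟩ := IsAlgClosed.exists_pow_nat_eq (α : Qb) (Nat.pos_of_ne_zero hpk0)
  obtain ⟨F', h1, h2, h3, h4, h5⟩ := sUC_exists_galois_of_mem_QS S F hF
    (sUC_root_mem_QS' S hpS F hF k α hα hβ)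
  exact ⟨F', h1, h2, h3, h4, β, h5, hβ⟩

/-- **`p`-capitulation in `ℚ_S`** (divisor hypothesis): if the divisor of `α ∈ Fˣ` is divisible
by `p ^ k` off `S` there is a finite Galois extension `F'` of `ℚ` inside `ℚ_S`, containing `F`,
in which `α` is a `p ^ k`-th power. -/
theorem sUC_exists_galois_root (hpS : pPrime p ∈ S) (F : IntermediateField ℚ Qb) [NumberField F]
    (hF : F.IsUnramifiedOutside S) (k : ℕ) (α : Fˣ)
    (hα : ∀ w : HeightOneSpectrum (𝓞 F), w ∉ sUD_primesOver F S →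
      ((p ^ k : ℕ) : ℤ) ∣ divFun (𝓞 F) F α w) :
    ∃ F' : IntermediateField ℚ Qb, F ≤ F' ∧ F'.IsUnramifiedOutside S ∧ IsGalois ℚ F' ∧
      F'.fixingSubgroup.Normal ∧ ∃ β : Qb, β ∈ F' ∧ β ^ (p ^ k) = ((α : F) : Qb) := by
  have hp : p.Prime := Fact.out
  have hpk0 : p ^ k ≠ 0 := pow_ne_zero _ hp.ne_zero
  obtain ⟨β, hβ⟩ := IsAlgClosed.exists_pow_nat_eq (((α : F)) : Qb) (Nat.pos_of_ne_zero hpk0)
  obtain ⟨F', h1, h2, h3, h4, h5⟩ := sUC_exists_galois_of_mem_QS S F hF
    (sUC_root_mem_QS S hpS F hF k α hα hβ)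
  exact ⟨F', h1, h2, h3, h4, β, h5, hβ⟩

end Main

end Fermat.Agent.PT
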