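import Mathlib
import Fermat.Agent.CFT.PT.SUnitsCap
import Fermat.Agent.CFT.Idele.LocalDegreeSurj
import Fermat.Agent.CFT.Idele.IntegralSUnits
import Fermat.Agent.CFT.Idele.Relative

set_option autoImplicit false

/-!
# S55 GLOBAL (K2) = (CAP): idelic `p`-capitulation inside `ℚ_S`

(helper21)  `p ∈ S`.  In the `ℚ`-model of the ideles (`ideleGroup ℚ F`, `F ⊆ Qb` a number field
unramified outside `S`): if the class of an idele `x` in `Cl_S(F) = J_F / Fˣ·J_{F,S}` is killed by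
`p ^ k`, then it dies in `Cl_S(F')` for a finite Galois extension `F'/ℚ` inside `ℚ_S` containing
`F` (`sUCI_capitulation`).

* `sUCI_exists_approx` : multiplicative approximation in the residue fields `E_m` of `K_v ⊗ L`;
* `sUCI_exists_of_pow_mul_mem` : `x ^ n / α ∈ J_{L,S}` ⟹ `n ∣ ord_w(α)` for `w ∤ S`
  (in the form `∃ t, w(α / t ^ n) = 1`);
* `sUCI_relIdele_mul_inv_mem`, `sUCI_relIdele_mem_sup` : abstract idelic capitulation (units of
  the integral closure are closed under extraction of roots);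
* `sUCI_ratSet S`, `sUCI_primeBelow_mem_ratSet_iff`, `sUCI_capitulation`.
-/

namespace Fermat.Agent.CFT

open IsDedekindDomain IsDedekindDomain.HeightOneSpectrum IsLocalRing NumberField
open scoped WithZero TensorProduct

section Local

attribute [local instance] Ideal.Quotient.field

variable (K L : Type) [Field K] [NumberField K] [Field L] [NumberField L] [Algebra K L]
  (v : HeightOneSpectrum (𝓞 K)) (m : Ideal ((v.adicCompletion K) ⊗[K] L)) [hm : m.IsMaximal]

theorem sUCI_exists_integral_multiple (z : ((v.adicCompletion K) ⊗[K] L) ⧸ m) :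
    ∃ d : v.adicCompletionIntegers K, d ≠ 0 ∧
      algebraMap (v.adicCompletionIntegers K) (((v.adicCompletion K) ⊗[K] L) ⧸ m) d * z ∈
        locDeg_B K L v m := by
  have hz : IsAlgebraic (v.adicCompletionIntegers K) z :=
    (IsFractionRing.isAlgebraic_iff (v.adicCompletionIntegers K) (v.adicCompletion K) _).mpr
      (Algebra.IsAlgebraic.isAlgebraic z)
  obtain ⟨d, hd0, hd⟩ := hz.exists_integral_multiple
  refine ⟨d, hd0, ?_⟩
  rw [← Algebra.smul_def]
  exact hd

/-- every element of `E_m` becomes integral after multiplication by a nonzero element of `K`. -/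
theorem sUCI_exists_base_multiple (z : ((v.adicCompletion K) ⊗[K] L) ⧸ m) :
    ∃ c : K, c ≠ 0 ∧
      algebraMap (v.adicCompletion K) (((v.adicCompletion K) ⊗[K] L) ⧸ m)
        (algebraMap K (v.adicCompletion K) c) * z ∈ locDeg_B K L v m := by
  obtain ⟨d, hd0, hd⟩ := sUCI_exists_integral_multiple K L v m z
  obtain ⟨π, hπ⟩ := v.valuation_exists_uniformizer K
  have hπ0 : π ≠ 0 := by
    rintro rfl
    rw [map_zero] at hπ
    exact WithZero.exp_ne_zero.symm hπ
  have hπv : Valued.v (algebraMap K (v.adicCompletion K) π) < 1 := by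
    change Valued.v ((π : K) : v.adicCompletion K) < 1
    rw [adicCompletion.valued_coe, hπ, ← WithZero.exp_zero, WithZero.exp_lt_exp]
    simp
  have hd0'' : (d : v.adicCompletion K) ≠ 0 := fun h => hd0 (Subtype.ext h)
  have hd0' : Valued.v (d : v.adicCompletion K) ≠ 0 := by
    rw [ne_eq, map_eq_zero]
    exact hd0''
  obtain ⟨N, hN⟩ := exists_pow_lt₀ hπv (Units.mk0 _ hd0')
  rw [Units.val_mk0] at hN
  refine ⟨π ^ N, pow_ne_zero _ hπ0, ?_⟩
  -- `π ^ N / d` is integral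
  set e : v.adicCompletion K := algebraMap K (v.adicCompletion K) (π ^ N) * (d : v.adicCompletion K)⁻¹
    with he
  have heO : e ∈ v.adicCompletionIntegers K := by
    rw [mem_adicCompletionIntegers, he, map_mul, map_inv₀, map_pow, map_pow]
    rw [mul_inv_le_iff₀ (zero_lt_iff.2 hd0'), one_mul]
    exact hN.le
  have hfac : algebraMap (v.adicCompletion K) (((v.adicCompletion K) ⊗[K] L) ⧸ m)
      (algebraMap K (v.adicCompletion K) (π ^ N)) * z =
      algebraMap (v.adicCompletionIntegers K) (((v.adicCompletion K) ⊗[K] L) ⧸ m) ⟨e, heO⟩ *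
        (algebraMap (v.adicCompletionIntegers K) (((v.adicCompletion K) ⊗[K] L) ⧸ m) d * z) := by
    rw [← mul_assoc, ← map_mul]
    congr 1
    rw [IsScalarTower.algebraMap_apply (v.adicCompletionIntegers K) (v.adicCompletion K)]
    congr 1
    change _ = e * (d : v.adicCompletion K)
    rw [he, mul_assoc, inv_mul_cancel₀ hd0'', mul_one]
  rw [hfac, ← Algebra.smul_def]
  exact Subalgebra.smul_mem _ hd _

theorem sUCI_not_small_neg_one : ¬ locDeg_small K L v m (-1) := by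
  rintro ⟨h, hmem⟩
  have hu : IsUnit (⟨-1, h⟩ : locDeg_B K L v m) := by
    refine ⟨⟨⟨-1, h⟩, ⟨-1, h⟩, ?_, ?_⟩, rfl⟩ <;>
    · apply Subtype.ext
      change (-1 : ((v.adicCompletion K) ⊗[K] L) ⧸ m) * -1 = 1
      ring
  exact (IsLocalRing.mem_maximalIdeal _).1 hmem hu

/-- `1 + (small)` is a unit of `B_m`. -/
theorem sUCI_unit_of_small_sub_one {u : ((v.adicCompletion K) ⊗[K] L) ⧸ m}
    (h : locDeg_small K L v m (u - 1)) : u ∈ locDeg_B K L v m ∧ u⁻¹ ∈ locDeg_B K L v m := by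
  obtain ⟨hB, hmem⟩ := h
  have huB : u ∈ locDeg_B K L v m := by
    have := Subalgebra.add_mem _ hB (Subalgebra.one_mem (locDeg_B K L v m))
    simpa using this
  refine ⟨huB, ?_⟩
  have hunit : IsUnit (⟨u, huB⟩ : locDeg_B K L v m) := by
    have h1 := IsLocalRing.isUnit_one_sub_self_of_mem_nonunits (-(⟨u - 1, hB⟩ : locDeg_B K L v m))
      (by
        rw [← IsLocalRing.mem_maximalIdeal]
        exact (Ideal.neg_mem_iff _).2 hmem)
    have e : (1 : locDeg_B K L v m) - -(⟨u - 1, hB⟩ : locDeg_B K L v m) = ⟨u, huB⟩ := by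
      apply Subtype.ext
      simp
    rwa [e] at h1
  obtain ⟨w, hw⟩ := hunit
  have h2 : u * ((w⁻¹ : (locDeg_B K L v m)ˣ) : locDeg_B K L v m) = 1 := by
    have h3 := w.mul_inv
    have h4 := congrArg (Subtype.val) h3
    rw [hw] at h4
    simpa using h4
  have hu0 : u ≠ 0 := by
    rintro rfl
    rw [zero_mul] at h2
    exact zero_ne_one h2
  have h5 : u⁻¹ = ((w⁻¹ : (locDeg_B K L v m)ˣ) : locDeg_B K L v m) :=
    (eq_inv_of_mul_eq_one_right h2).symm
  rw [h5]
  exact Subtype.property _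

/-- **multiplicative approximation**: every nonzero element of `E_m` is, up to a factor in
`1 + 𝔪_{B_m}`, the image of an element of `L`. -/
theorem sUCI_exists_approx (z : (v.adicCompletion K) ⊗[K] L)
    (hz : Ideal.Quotient.mk m z ≠ 0) :
    ∃ t : L, t ≠ 0 ∧
      locDeg_small K L v m (locDeg_emb K L v m t * (Ideal.Quotient.mk m z)⁻¹ - 1) := by
  obtain ⟨c, hc0, hc⟩ := sUCI_exists_base_multiple K L v m (Ideal.Quotient.mk m z)⁻¹
  set cv : v.adicCompletion K := algebraMap K (v.adicCompletion K) c with hcv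
  have hcv0 : cv ≠ 0 := by
    rw [hcv, ne_eq, map_eq_zero]
    exact hc0
  set cb : ((v.adicCompletion K) ⊗[K] L) ⧸ m :=
    algebraMap (v.adicCompletion K) (((v.adicCompletion K) ⊗[K] L) ⧸ m) cv with hcb
  have hcb0 : cb ≠ 0 := by
    rw [hcb, ne_eq, map_eq_zero]
    exact hcv0
  obtain ⟨y, hy⟩ := locDeg_exists_approx K L v
    (algebraMap (v.adicCompletion K) ((v.adicCompletion K) ⊗[K] L) cv⁻¹ * z)
  have hy' := hy m
  have hmk : Ideal.Quotient.mk m ((1 : v.adicCompletion K) ⊗ₜ[K] y -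
      algebraMap (v.adicCompletion K) ((v.adicCompletion K) ⊗[K] L) cv⁻¹ * z) =
      locDeg_emb K L v m y - cb⁻¹ * Ideal.Quotient.mk m z := by
    rw [map_sub, map_mul, locDeg_emb_apply, ← Ideal.Quotient.algebraMap_eq,
      ← IsScalarTower.algebraMap_apply, map_inv₀]
  rw [hmk] at hy'
  have ht : locDeg_emb K L v m (algebraMap K L c * y) = cb * locDeg_emb K L v m y := by
    rw [map_mul, locDeg_emb_algebraMap]
  have hsmall : locDeg_small K L v m
      (locDeg_emb K L v m (algebraMap K L c * y) * (Ideal.Quotient.mk m z)⁻¹ - 1) := by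
    have e : locDeg_emb K L v m (algebraMap K L c * y) * (Ideal.Quotient.mk m z)⁻¹ - 1 =
        (locDeg_emb K L v m y - cb⁻¹ * Ideal.Quotient.mk m z) *
          (cb * (Ideal.Quotient.mk m z)⁻¹) := by
      rw [ht]
      field_simp
    rw [e]
    exact locDeg_small_mul K L v m hy' hc
  refine ⟨algebraMap K L c * y, ?_, hsmall⟩
  intro h0
  rw [h0, map_zero, zero_mul, zero_sub] at hsmall
  exact sUCI_not_small_neg_one K L v m hsmall

theorem sUCI_field_aux1 {E : Type*} [Field E] (z u ε : E) (n : ℕ) (hz : z ≠ 0) (hε : ε ≠ 0) :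
    z ^ n * u / (ε * z) ^ n = u * (ε⁻¹) ^ n := by
  have hzn : z ^ n ≠ 0 := pow_ne_zero _ hz
  have hεn : ε ^ n ≠ 0 := pow_ne_zero _ hε
  rw [mul_pow, inv_pow, div_eq_iff (mul_ne_zero hεn hzn)]
  calc z ^ n * u = u * ((ε ^ n)⁻¹ * ε ^ n) * z ^ n := by
        rw [inv_mul_cancel₀ hεn, mul_one, mul_comm]
    _ = u * (ε ^ n)⁻¹ * (ε ^ n * z ^ n) := by ring

theorem sUCI_field_aux2 {E : Type*} [Field E] (u u' ε : E) (n : ℕ) (huu : u * u' = 1)
    (hε : ε ≠ 0) : (u * (ε⁻¹) ^ n)⁻¹ = u' * ε ^ n := by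
  have hu0 : u ≠ 0 := left_ne_zero_of_mul_eq_one huu
  have hεn : ε ^ n ≠ 0 := pow_ne_zero _ hε
  rw [eq_inv_of_mul_eq_one_right huu, inv_pow, mul_inv, inv_inv]

omit [NumberField L] hm in
/-- the image in `E_m` of an element of `K_v ⊗ L` integral over `O_v` lies in `B_m`. -/
theorem sUCI_mk_mem_B {u : (v.adicCompletion K) ⊗[K] L}
    (hu : IsIntegral (v.adicCompletionIntegers K) u) :
    Ideal.Quotient.mk m u ∈ locDeg_B K L v m :=
  hu.map (Ideal.Quotient.mkₐ (v.adicCompletionIntegers K) m)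

/-- **`n`-divisibility of the order at `w(m)`**: if `1 ⊗ α = y ^ n * u` in `(K_v ⊗ L)ˣ` with `u` a
unit of the integral closure, then `α` is, at the prime `w(m)` of `L`, a unit times an `n`-th
power of an element of `L`. -/
theorem sUCI_exists_valuation_eq_one {α : L} {n : ℕ}
    (y u : ((v.adicCompletion K) ⊗[K] L)ˣ) (hu : u ∈ semiLocalUnits K L v)
    (h : (1 : v.adicCompletion K) ⊗ₜ[K] α = ((y ^ n * u : ((v.adicCompletion K) ⊗[K] L)ˣ) :
      (v.adicCompletion K) ⊗[K] L)) :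
    ∃ t : L, t ≠ 0 ∧ (primeOfMax K L v m).valuation L (α / t ^ n) = 1 := by
  rw [mem_semiLocalUnits_iff] at hu
  obtain ⟨hu1, hu2⟩ := hu
  have hy0 : Ideal.Quotient.mk m (y : (v.adicCompletion K) ⊗[K] L) ≠ 0 :=
    (y.isUnit.map (Ideal.Quotient.mk m)).ne_zero
  obtain ⟨t, ht0, ht⟩ := sUCI_exists_approx K L v m (y : (v.adicCompletion K) ⊗[K] L) hy0
  obtain ⟨hε, hεinv⟩ := sUCI_unit_of_small_sub_one K L v m ht
  set zb := Ideal.Quotient.mk m (y : (v.adicCompletion K) ⊗[K] L) with hzb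
  set ub := Ideal.Quotient.mk m (u : (v.adicCompletion K) ⊗[K] L) with hub
  set ub' := Ideal.Quotient.mk m ((u⁻¹ : ((v.adicCompletion K) ⊗[K] L)ˣ) :
    (v.adicCompletion K) ⊗[K] L) with hub'
  have hubB : ub ∈ locDeg_B K L v m := sUCI_mk_mem_B K L v m hu1
  have hubB' : ub' ∈ locDeg_B K L v m := sUCI_mk_mem_B K L v m hu2
  have huu : ub * ub' = 1 := by
    rw [hub, hub', ← map_mul, ← Units.val_mul, mul_inv_cancel, Units.val_one, map_one]
  have hα : locDeg_emb K L v m α = zb ^ n * ub := by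
    rw [locDeg_emb_apply, h, Units.val_mul, Units.val_pow_eq_pow_val, map_mul, map_pow]
  have hτ0 : locDeg_emb K L v m t ≠ 0 := by
    rw [ne_eq, map_eq_zero]
    exact ht0
  set ε := locDeg_emb K L v m t * zb⁻¹ with hε'
  have hε0 : ε ≠ 0 := mul_ne_zero hτ0 (inv_ne_zero hy0)
  have ht' : locDeg_emb K L v m t = ε * zb := by
    rw [hε', mul_assoc, inv_mul_cancel₀ hy0, mul_one]
  have h1 : locDeg_emb K L v m (α / t ^ n) = ub * (ε⁻¹) ^ n := by
    rw [map_div₀, map_pow, hα, ht']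
    exact sUCI_field_aux1 zb ub ε n hy0 hε0
  have h2 : locDeg_emb K L v m (α / t ^ n)⁻¹ = ub' * ε ^ n := by
    rw [map_inv₀, h1]
    exact sUCI_field_aux2 ub ub' ε n huu hε0
  refine ⟨t, ht0, le_antisymm ?_ ?_⟩
  · rw [primeOfMax_valuation_le_one_iff, h1]
    exact Subalgebra.mul_mem _ hubB (Subalgebra.pow_mem _ hεinv n)
  · have h3 : (primeOfMax K L v m).valuation L (α / t ^ n)⁻¹ ≤ 1 := by
      rw [primeOfMax_valuation_le_one_iff, h2]
      exact Subalgebra.mul_mem _ hubB' (Subalgebra.pow_mem _ hε n)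
    rw [map_inv₀] at h3
    by_cases hx0 : (primeOfMax K L v m).valuation L (α / t ^ n) = 0
    · rw [hx0, inv_zero] at h3
      rw [map_eq_zero] at hx0
      rw [hx0, map_zero] at h1
      have : ub * ε⁻¹ ^ n ≠ 0 :=
        mul_ne_zero (left_ne_zero_of_mul_eq_one huu) (pow_ne_zero _ (inv_ne_zero hε0))
      exact absurd h1.symm this
    · exact (inv_le_one₀ (zero_lt_iff.2 hx0)).1 h3

omit hm in
/-- **idelic form**: if `x ^ n / α ∈ J_{L,S}` for an idele `x` and `α ∈ Lˣ`, then at every prime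
`w` of `L` not above `S` the element `α` is a `w`-unit times an `n`-th power of `L`. -/
theorem sUCI_exists_of_pow_mul_mem (S : Set (HeightOneSpectrum (𝓞 K))) (x : ideleGroup K L)
    (n : ℕ) (α : Lˣ) (h : x ^ n * (diagIdele (K := K) α)⁻¹ ∈ ideleGroupS K L S)
    (w : HeightOneSpectrum (𝓞 L)) (hw : primeBelow K L w ∉ S) :
    ∃ t : L, t ≠ 0 ∧ w.valuation L ((α : L) / t ^ n) = 1 := by
  obtain ⟨m, hm, hmw⟩ := ldSurj_exists_primeOfMax_eq K L (primeBelow K L w) w rfl
  have hs := h (primeBelow K L w) hw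
  set s : (semiLocal K L (primeBelow K L w))ˣ :=
    ((x ^ n * (diagIdele (K := K) α)⁻¹ : ideleGroup K L) :
      ∀ v, (semiLocal K L v)ˣ) (primeBelow K L w) with hs_def
  have hs1 : s = (x.1 (primeBelow K L w)) ^ n *
      (Units.map (semiLocalIncl K L (primeBelow K L w) : L →* semiLocal K L (primeBelow K L w))
        α)⁻¹ := rfl
  have hα : (1 : (primeBelow K L w).adicCompletion K) ⊗ₜ[K] (α : L) =
      (((x.1 (primeBelow K L w)) ^ n * s⁻¹ : (semiLocal K L (primeBelow K L w))ˣ) :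
        semiLocal K L (primeBelow K L w)) := by
    rw [hs1, mul_inv, inv_inv, mul_comm ((x.1 (primeBelow K L w)) ^ n)⁻¹, ← mul_assoc,
      mul_inv_cancel_comm]
    rfl
  obtain ⟨t, ht0, ht⟩ := sUCI_exists_valuation_eq_one K L (primeBelow K L w) m
    (x.1 (primeBelow K L w)) s⁻¹ ((semiLocalUnits K L _).inv_mem hs) hα
  exact ⟨t, ht0, hmw ▸ ht⟩

end Local

section RootClosed

variable {K L : Type*} [Field K] [NumberField K] [Field L] [NumberField L] [Algebra K L]

/-- the unit group of the integral closure is closed under extraction of roots. -/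
theorem sUCI_mem_semiLocalUnits_of_pow {v : HeightOneSpectrum (𝓞 K)} (y : (semiLocal K L v)ˣ)
    {n : ℕ} (hn : n ≠ 0) (h : y ^ n ∈ semiLocalUnits K L v) : y ∈ semiLocalUnits K L v := by
  rw [mem_semiLocalUnits_iff] at h ⊢
  obtain ⟨h1, h2⟩ := h
  rw [Units.val_pow_eq_pow_val] at h1
  rw [← inv_pow, Units.val_pow_eq_pow_val] at h2
  exact ⟨IsIntegral.of_pow (Nat.pos_of_ne_zero hn) h1, IsIntegral.of_pow (Nat.pos_of_ne_zero hn) h2⟩

/-- `J_{L,S}` is closed under extraction of roots in `J_L`. -/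
theorem sUCI_mem_ideleGroupS_of_pow (S : Set (HeightOneSpectrum (𝓞 K))) (y : ideleGroup K L)
    {n : ℕ} (hn : n ≠ 0) (h : y ^ n ∈ ideleGroupS K L S) : y ∈ ideleGroupS K L S := by
  intro v hv
  exact sUCI_mem_semiLocalUnits_of_pow _ hn (h v hv)

variable {M : Type*} [Field M] [NumberField M] [Algebra K M] [Algebra M L] [IsScalarTower K M L]

/-- **idelic capitulation, abstract form**: if `x ^ n ∈ α · J_{M,S}` with `α ∈ Mˣ` and `α` becomes
an `n`-th power `β ^ n` in `L`, then `x ∈ β · J_{L,S}` in `J_L`. -/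
theorem sUCI_relIdele_mul_inv_mem (S : Set (HeightOneSpectrum (𝓞 K))) (x : ideleGroup K M)
    {n : ℕ} (hn : n ≠ 0) (α : Mˣ) (hx : x ^ n * (diagIdele (K := K) α)⁻¹ ∈ ideleGroupS K M S)
    (β : Lˣ) (hβ : β ^ n = Units.map (algebraMap M L : M →* L) α) :
    relIdele K M L x * (diagIdele (K := K) β)⁻¹ ∈ ideleGroupS K L S := by
  refine sUCI_mem_ideleGroupS_of_pow S _ hn ?_
  have e : (relIdele K M L x * (diagIdele (K := K) β)⁻¹) ^ n =
      relIdele K M L (x ^ n * (diagIdele (K := K) α)⁻¹) := by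
    rw [mul_pow, inv_pow, ← map_pow, ← map_pow, hβ, ← relIdele_diagIdele, map_mul, map_inv]
  rw [e, relIdele_mem_ideleGroupS_iff]
  exact hx

/-- the same with conclusion in `Lˣ · J_{L,S}`. -/
theorem sUCI_relIdele_mem_sup (S : Set (HeightOneSpectrum (𝓞 K))) (x : ideleGroup K M)
    {n : ℕ} (hn : n ≠ 0) (α : Mˣ) (hx : x ^ n * (diagIdele (K := K) α)⁻¹ ∈ ideleGroupS K M S)
    (β : Lˣ) (hβ : β ^ n = Units.map (algebraMap M L : M →* L) α) :
    relIdele K M L x ∈ principalIdeles K L ⊔ ideleGroupS K L S := by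
  have h := sUCI_relIdele_mul_inv_mem S x hn α hx β hβ
  have e : relIdele K M L x = diagIdele (K := K) β *
      (relIdele K M L x * (diagIdele (K := K) β)⁻¹) := by
    rw [mul_comm (relIdele K M L x), mul_inv_cancel_left]
  rw [e]
  exact Subgroup.mul_mem_sup ⟨β, rfl⟩ h

end RootClosed

end Fermat.Agent.CFT

namespace Fermat.Agent.PT

open CategoryTheory Fermat.Agent.CFT IntermediateField ExtCitation NumberField IsDedekindDomain

local notation "Qb" => AlgebraicClosure ℚ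

section Concrete

variable (S : Finset Nat.Primes)

/-- the primes of `𝓞 ℚ` over the rational primes in `S`. -/
def sUCI_ratSet : Set (HeightOneSpectrum (𝓞 ℚ)) :=
  {v | ∃ q ∈ S, (((q : Nat.Primes) : ℕ) : 𝓞 ℚ) ∈ v.asIdeal}

theorem mem_sUCI_ratSet {v : HeightOneSpectrum (𝓞 ℚ)} :
    v ∈ sUCI_ratSet S ↔ ∃ q ∈ S, (((q : Nat.Primes) : ℕ) : 𝓞 ℚ) ∈ v.asIdeal := Iff.rfl

variable (F : IntermediateField ℚ Qb) [NumberField F]

omit [NumberField F] in
/-- a prime of `F` lies over `S` iff the prime of `ℚ` below it does. -/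
theorem sUCI_primeBelow_mem_ratSet_iff (w : HeightOneSpectrum (𝓞 F)) :
    primeBelow ℚ F w ∈ sUCI_ratSet S ↔ w ∈ sUD_primesOver F S := by
  rw [mem_sUCI_ratSet, mem_sUD_primesOver]
  refine exists_congr fun q => and_congr_right fun _ => ?_
  rw [HeightOneSpectrum.under_asIdeal, Ideal.under, Ideal.mem_comap, map_natCast]

variable {p : ℕ} [Fact p.Prime]

/-- **(CAP) idelic `p`-capitulation in `ℚ_S`.**  `F ⊆ ℚ_S` a number field, `x` an idele of `F`
(in the `ℚ`-model) whose class in `Cl_S(F) = J_F / Fˣ·J_{F,S}` is killed by `p ^ k`.  Then there is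
a finite Galois extension `F'/ℚ` inside `ℚ_S`, containing `F`, such that the image of `x` in `J_{F'}`
lies in `F'ˣ·J_{F',S}`. -/
theorem sUCI_capitulation (hpS : pPrime p ∈ S) (hF : F.IsUnramifiedOutside S) (k : ℕ)
    (x : ideleGroup ℚ F)
    (hx : x ^ (p ^ k) ∈ principalIdeles ℚ F ⊔ ideleGroupS ℚ F (sUCI_ratSet S)) :
    ∃ F' : IntermediateField ℚ Qb, F ≤ F' ∧ F'.IsUnramifiedOutside S ∧ IsGalois ℚ F' ∧
      F'.fixingSubgroup.Normal ∧
      ∀ [NumberField F'] [Algebra F F'] [IsScalarTower ℚ F F'],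
        (∀ a : F, ((algebraMap F F' a : F') : Qb) = (a : Qb)) →
          relIdele ℚ F F' x ∈ principalIdeles ℚ F' ⊔ ideleGroupS ℚ F' (sUCI_ratSet S) := by
  have hp : p.Prime := Fact.out
  have hpk0 : p ^ k ≠ 0 := pow_ne_zero _ hp.ne_zero
  obtain ⟨y, ⟨α, rfl⟩, s, hs, hys⟩ := Subgroup.mem_sup.1 hx
  have hxα : x ^ (p ^ k) * (diagIdele (K := ℚ) α)⁻¹ ∈ ideleGroupS ℚ F (sUCI_ratSet S) := by
    rw [← hys, mul_comm (diagIdele (K := ℚ) α), mul_inv_cancel_right]
    exact hs
  have hα : ∀ w : HeightOneSpectrum (𝓞 F), w ∉ sUD_primesOver F S →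
      ∃ t : F, t ≠ 0 ∧ w.valuation F ((α : F) / t ^ (p ^ k)) = 1 := fun w hw =>
    sUCI_exists_of_pow_mul_mem ℚ F (sUCI_ratSet S) x (p ^ k) α hxα w
      (fun h => hw ((sUCI_primeBelow_mem_ratSet_iff S F w).1 h))
  obtain ⟨F', hFF', hF', hgal, hnorm, β, hβF', hβ⟩ :=
    sUC_exists_galois_root' S hpS F hF k (α : F) hα
  refine ⟨F', hFF', hF', hgal, hnorm, ?_⟩
  intro _ _ _ hincl
  have hβ0 : (⟨β, hβF'⟩ : F') ≠ 0 := by
    intro h0
    have h1 : β = 0 := congrArg Subtype.val h0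
    rw [h1, zero_pow hpk0] at hβ
    exact (Units.ne_zero α) (Subtype.ext hβ.symm)
  refine sUCI_relIdele_mem_sup (sUCI_ratSet S) x hpk0 α hxα (Units.mk0 ⟨β, hβF'⟩ hβ0) ?_
  apply Units.ext
  apply Subtype.ext
  rw [Units.val_pow_eq_pow_val, Units.val_mk0, Units.coe_map, MonoidHom.coe_coe]
  change β ^ (p ^ k) = ((algebraMap F F' (α : F) : F') : Qb)
  rw [hβ, hincl]

end Concrete

end Fermat.Agent.PT
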