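import Fermat.Agent.CFT.PT.Smooth

/-!
# S55 engine (E1'), low degrees: `Hlc 𝔉 A n` for `n = 1, 2` in terms of Mathlib's
`cocycles₁`, `cocycles₂`, `d₀₁`, `d₁₂`

* `IsLevel₀ A U a`, `IsLevel₁ A U x`, `IsLevel₂ A U x`: the level conditions for `a : A`,
  `x : G → A`, `x : G × G → A`; comparison with `IsLevel` through Mathlib's `cochainsIso₀/₁/₂`.
* `lcCocycles₁ 𝔉 A`, `lcCocycles₂ 𝔉 A` (submodules of functions) with the class maps
  `lcπ₁ : lcCocycles₁ 𝔉 A →ₗ Hlc 𝔉 A 1`, `lcπ₂ : lcCocycles₂ 𝔉 A →ₗ Hlc 𝔉 A 2`, surjective, with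
  kernels the coboundaries of level-constant cochains (`lcπ₁_eq_zero_iff`, `lcπ₂_eq_zero_iff`).
* comparison with abstract cohomology: `lcToH_lcπ₁`, `lcToH_lcπ₂` (`= H1π`, `H2π`);
  `lcToH_one_injective` for smooth `A`.
* functoriality on classes: `HlcMap_lcπ₁`, `HlcMap_lcπ₂`.
-/

namespace Fermat.Agent.PT

open CategoryTheory groupCohomology Rep

universe u

variable {k G : Type u} [CommRing k] [Group G]

section Levels

variable (A : Rep.{u} k G) (U : Subgroup G)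

/-- `a : A` is fixed by `U`. -/
def IsLevel₀ (a : A) : Prop := ∀ u ∈ U, A.ρ u a = a

/-- `x : G → A` is right-`U`-invariant with `U`-fixed values. -/
def IsLevel₁ (x : G → A) : Prop :=
  (∀ g, ∀ s ∈ U, x (g * s) = x g) ∧ ∀ g, ∀ u ∈ U, A.ρ u (x g) = x g

/-- `x : G × G → A` is right-`U`-invariant in both variables with `U`-fixed values. -/
def IsLevel₂ (x : G × G → A) : Prop :=
  (∀ g g', ∀ s ∈ U, ∀ s' ∈ U, x (g * s, g' * s') = x (g, g')) ∧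
    ∀ y, ∀ u ∈ U, A.ρ u (x y) = x y

variable {A U}

lemma isLevel_zero_iff (f : (Fin 0 → G) → A) :
    IsLevel A 0 U f ↔ IsLevel₀ A U ((cochainsIso₀ A).hom f) := by
  constructor
  · intro hf u hu
    exact hf.2 _ u hu
  · intro hf
    refine ⟨fun g h _ => by rw [Subsingleton.elim g h], fun g u hu => ?_⟩
    rw [Subsingleton.elim g default]
    exact hf u hu

lemma isLevel_zero_inv_iff (a : A) :
    IsLevel A 0 U ((cochainsIso₀ A).inv a) ↔ IsLevel₀ A U a := by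
  rw [isLevel_zero_iff]
  exact Iff.rfl

lemma isLevel_one_inv_iff (x : G → A) :
    IsLevel A 1 U ((cochainsIso₁ A).inv x) ↔ IsLevel₁ A U x := by
  constructor
  · intro hf
    refine ⟨fun g s hs => ?_, fun g u hu => hf.2 (fun _ => g) u hu⟩
    exact (hf.1 (fun _ => g) (fun _ => g * s) fun _ => by simpa using hs).symm
  · intro hx
    refine ⟨fun v w hvw => ?_, fun v u hu => hx.2 (v 0) u hu⟩
    change x (v 0) = x (w 0)
    have : w 0 = v 0 * ((v 0)⁻¹ * w 0) := by group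
    rw [this, hx.1 _ _ (hvw 0)]

lemma isLevel_one_iff (f : (Fin 1 → G) → A) :
    IsLevel A 1 U f ↔ IsLevel₁ A U ((cochainsIso₁ A).hom f) := by
  rw [← isLevel_one_inv_iff]
  have : (cochainsIso₁ A).inv ((cochainsIso₁ A).hom f) = f :=
    congr($((cochainsIso₁ A).hom_inv_id) f)
  rw [this]

lemma isLevel_two_inv_iff (x : G × G → A) :
    IsLevel A 2 U ((cochainsIso₂ A).inv x) ↔ IsLevel₂ A U x := by
  constructor
  · intro hf
    refine ⟨fun g g' s hs s' hs' => ?_, fun y u hu => ?_⟩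
    · have := hf.1 ![g, g'] ![g * s, g' * s'] (fun i => by
        fin_cases i
        · simpa using hs
        · simpa using hs')
      exact this.symm
    · have := hf.2 ![y.1, y.2] u hu
      exact this
  · intro hx
    refine ⟨fun v w hvw => ?_, fun v u hu => hx.2 (v 0, v 1) u hu⟩
    change x (v 0, v 1) = x (w 0, w 1)
    have h0 : w 0 = v 0 * ((v 0)⁻¹ * w 0) := by group
    have h1 : w 1 = v 1 * ((v 1)⁻¹ * w 1) := by group
    rw [h0, h1, hx.1 _ _ _ (hvw 0) _ (hvw 1)]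

lemma isLevel_two_iff (f : (Fin 2 → G) → A) :
    IsLevel A 2 U f ↔ IsLevel₂ A U ((cochainsIso₂ A).hom f) := by
  rw [← isLevel_two_inv_iff]
  have : (cochainsIso₂ A).inv ((cochainsIso₂ A).hom f) = f :=
    congr($((cochainsIso₂ A).hom_inv_id) f)
  rw [this]

lemma IsLevel₀.mono {V : Subgroup G} {a : A} (h : IsLevel₀ A U a) (hVU : V ≤ U) :
    IsLevel₀ A V a := fun u hu => h u (hVU hu)

lemma IsLevel₁.mono {V : Subgroup G} {x : G → A} (h : IsLevel₁ A U x) (hVU : V ≤ U) :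
    IsLevel₁ A V x :=
  ⟨fun g s hs => h.1 g s (hVU hs), fun g u hu => h.2 g u (hVU hu)⟩

lemma IsLevel₂.mono {V : Subgroup G} {x : G × G → A} (h : IsLevel₂ A U x) (hVU : V ≤ U) :
    IsLevel₂ A V x :=
  ⟨fun g g' s hs s' hs' => h.1 g g' s (hVU hs) s' (hVU hs'), fun y u hu => h.2 y u (hVU hu)⟩

end Levels

section LowCocycles

variable (𝔉 : LevelFamily G) (A : Rep.{u} k G)

/-- Level-constant `1`-cochains as functions `G → A`. -/
noncomputable def lcCochains₁ : Submodule k (G → A) :=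
  (lcCochains 𝔉 A 1).comap (cochainsIso₁ A).inv.hom

/-- Level-constant `2`-cochains as functions `G × G → A`. -/
noncomputable def lcCochains₂ : Submodule k (G × G → A) :=
  (lcCochains 𝔉 A 2).comap (cochainsIso₂ A).inv.hom

/-- Smooth vectors. -/
noncomputable def lcCochains₀ : Submodule k A :=
  (lcCochains 𝔉 A 0).comap (cochainsIso₀ A).inv.hom

variable {𝔉 A}

lemma mem_lcCochains₀ {a : A} : a ∈ lcCochains₀ 𝔉 A ↔ ∃ U ∈ 𝔉.sets, IsLevel₀ A U a := by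
  change (∃ U ∈ 𝔉.sets, IsLevel A 0 U ((cochainsIso₀ A).inv a)) ↔ _
  exact exists_congr fun U => and_congr_right fun _ => isLevel_zero_inv_iff a

lemma mem_lcCochains₁ {x : G → A} : x ∈ lcCochains₁ 𝔉 A ↔ ∃ U ∈ 𝔉.sets, IsLevel₁ A U x := by
  change (∃ U ∈ 𝔉.sets, IsLevel A 1 U ((cochainsIso₁ A).inv x)) ↔ _
  exact exists_congr fun U => and_congr_right fun _ => isLevel_one_inv_iff x

lemma mem_lcCochains₂ {x : G × G → A} :
    x ∈ lcCochains₂ 𝔉 A ↔ ∃ U ∈ 𝔉.sets, IsLevel₂ A U x := by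
  change (∃ U ∈ 𝔉.sets, IsLevel A 2 U ((cochainsIso₂ A).inv x)) ↔ _
  exact exists_congr fun U => and_congr_right fun _ => isLevel_two_inv_iff x

lemma hom_mem_lcCochains₁ {f : (Fin 1 → G) → A} (hf : f ∈ lcCochains 𝔉 A 1) :
    (cochainsIso₁ A).hom f ∈ lcCochains₁ 𝔉 A := by
  change (cochainsIso₁ A).inv ((cochainsIso₁ A).hom f) ∈ lcCochains 𝔉 A 1
  have : (cochainsIso₁ A).inv ((cochainsIso₁ A).hom f) = f :=
    congr($((cochainsIso₁ A).hom_inv_id) f)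
  rwa [this]

lemma hom_mem_lcCochains₂ {f : (Fin 2 → G) → A} (hf : f ∈ lcCochains 𝔉 A 2) :
    (cochainsIso₂ A).hom f ∈ lcCochains₂ 𝔉 A := by
  change (cochainsIso₂ A).inv ((cochainsIso₂ A).hom f) ∈ lcCochains 𝔉 A 2
  have : (cochainsIso₂ A).inv ((cochainsIso₂ A).hom f) = f :=
    congr($((cochainsIso₂ A).hom_inv_id) f)
  rwa [this]

lemma hom_mem_lcCochains₀ {f : (Fin 0 → G) → A} (hf : f ∈ lcCochains 𝔉 A 0) :
    (cochainsIso₀ A).hom f ∈ lcCochains₀ 𝔉 A := by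
  change (cochainsIso₀ A).inv ((cochainsIso₀ A).hom f) ∈ lcCochains 𝔉 A 0
  have : (cochainsIso₀ A).inv ((cochainsIso₀ A).hom f) = f :=
    congr($((cochainsIso₀ A).hom_inv_id) f)
  rwa [this]

variable (𝔉 A)

/-- Level-constant `1`-cocycles (as functions `G → A`). -/
noncomputable def lcCocycles₁ : Submodule k (G → A) := cocycles₁ A ⊓ lcCochains₁ 𝔉 A

/-- Level-constant `2`-cocycles (as functions `G × G → A`). -/
noncomputable def lcCocycles₂ : Submodule k (G × G → A) := cocycles₂ A ⊓ lcCochains₂ 𝔉 A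

variable {𝔉 A}

lemma d_inv_eq_zero₁ {x : G → A} (hx : x ∈ cocycles₁ A) :
    (inhomogeneousCochains.d A 1).hom ((cochainsIso₁ A).inv x) = 0 := by
  have h : (cochainsIso₁ A).inv ≫ inhomogeneousCochains.d A 1 =
      d₁₂ A ≫ (cochainsIso₂ A).inv := by
    rw [← inhomogeneousCochains.d_def]
    exact eq_d₁₂_comp_inv A
  have h2 : (inhomogeneousCochains.d A 1).hom ((cochainsIso₁ A).inv x) =
      (cochainsIso₂ A).inv ((d₁₂ A).hom x) := congr($h x)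
  have h3 : (d₁₂ A).hom x = 0 := cocycles₁.d₁₂_apply ⟨x, hx⟩
  rw [h2, h3, map_zero]

lemma d_inv_eq_zero₂ {x : G × G → A} (hx : x ∈ cocycles₂ A) :
    (inhomogeneousCochains.d A 2).hom ((cochainsIso₂ A).inv x) = 0 := by
  have h : (cochainsIso₂ A).inv ≫ inhomogeneousCochains.d A 2 =
      d₂₃ A ≫ (cochainsIso₃ A).inv := by
    rw [← inhomogeneousCochains.d_def]
    exact eq_d₂₃_comp_inv A
  have h2 : (inhomogeneousCochains.d A 2).hom ((cochainsIso₂ A).inv x) =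
      (cochainsIso₃ A).inv ((d₂₃ A).hom x) := congr($h x)
  have h3 : (d₂₃ A).hom x = 0 := cocycles₂.d₂₃_apply ⟨x, hx⟩
  rw [h2, h3, map_zero]

lemma inv_mem_lcCocycles_one {x : G → A} (hx : x ∈ lcCocycles₁ 𝔉 A) :
    (cochainsIso₁ A).inv x ∈ lcCocycles 𝔉 A 1 :=
  ⟨hx.2, LinearMap.mem_ker.2 (d_inv_eq_zero₁ hx.1)⟩

lemma inv_mem_lcCocycles_two {x : G × G → A} (hx : x ∈ lcCocycles₂ 𝔉 A) :
    (cochainsIso₂ A).inv x ∈ lcCocycles 𝔉 A 2 :=
  ⟨hx.2, LinearMap.mem_ker.2 (d_inv_eq_zero₂ hx.1)⟩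

variable (𝔉 A)

/-- The class of a level-constant `1`-cocycle. -/
noncomputable def lcπ₁ : lcCocycles₁ 𝔉 A →ₗ[k] Hlc 𝔉 A 1 :=
  lcπ 𝔉 A 1 ∘ₗ ((cochainsIso₁ A).inv.hom.restrict
    (p := lcCocycles₁ 𝔉 A) (q := lcCocycles 𝔉 A 1) fun _ hx => inv_mem_lcCocycles_one hx)

/-- The class of a level-constant `2`-cocycle. -/
noncomputable def lcπ₂ : lcCocycles₂ 𝔉 A →ₗ[k] Hlc 𝔉 A 2 :=
  lcπ 𝔉 A 2 ∘ₗ ((cochainsIso₂ A).inv.hom.restrict
    (p := lcCocycles₂ 𝔉 A) (q := lcCocycles 𝔉 A 2) fun _ hx => inv_mem_lcCocycles_two hx)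

lemma lcπ₁_apply (c : lcCocycles₁ 𝔉 A) :
    lcπ₁ 𝔉 A c = lcπ 𝔉 A 1 ⟨(cochainsIso₁ A).inv c.1, inv_mem_lcCocycles_one c.2⟩ := rfl

lemma lcπ₂_apply (c : lcCocycles₂ 𝔉 A) :
    lcπ₂ 𝔉 A c = lcπ 𝔉 A 2 ⟨(cochainsIso₂ A).inv c.1, inv_mem_lcCocycles_two c.2⟩ := rfl

variable {𝔉 A}

lemma hom_mem_cocycles₁ {f : (Fin 1 → G) → A} (hf : (inhomogeneousCochains.d A 1).hom f = 0) :
    (cochainsIso₁ A).hom f ∈ cocycles₁ A := by
  have h : (cochainsIso₁ A).hom ≫ d₁₂ A =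
      inhomogeneousCochains.d A 1 ≫ (cochainsIso₂ A).hom := by
    rw [← inhomogeneousCochains.d_def]
    exact comp_d₁₂_eq A
  have h2 : (d₁₂ A).hom ((cochainsIso₁ A).hom f) =
      (cochainsIso₂ A).hom ((inhomogeneousCochains.d A 1).hom f) := congr($h f)
  change (d₁₂ A).hom ((cochainsIso₁ A).hom f) = 0
  rw [h2, hf, map_zero]

lemma hom_mem_cocycles₂ {f : (Fin 2 → G) → A} (hf : (inhomogeneousCochains.d A 2).hom f = 0) :
    (cochainsIso₂ A).hom f ∈ cocycles₂ A := by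
  have h : (cochainsIso₂ A).hom ≫ d₂₃ A =
      inhomogeneousCochains.d A 2 ≫ (cochainsIso₃ A).hom := by
    rw [← inhomogeneousCochains.d_def]
    exact comp_d₂₃_eq A
  have h2 : (d₂₃ A).hom ((cochainsIso₂ A).hom f) =
      (cochainsIso₃ A).hom ((inhomogeneousCochains.d A 2).hom f) := congr($h f)
  change (d₂₃ A).hom ((cochainsIso₂ A).hom f) = 0
  rw [h2, hf, map_zero]

lemma inv_hom₁ (f : (Fin 1 → G) → A) : (cochainsIso₁ A).inv ((cochainsIso₁ A).hom f) = f :=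
  congr($((cochainsIso₁ A).hom_inv_id) f)

lemma inv_hom₂ (f : (Fin 2 → G) → A) : (cochainsIso₂ A).inv ((cochainsIso₂ A).hom f) = f :=
  congr($((cochainsIso₂ A).hom_inv_id) f)

lemma inv_hom₀ (f : (Fin 0 → G) → A) : (cochainsIso₀ A).inv ((cochainsIso₀ A).hom f) = f :=
  congr($((cochainsIso₀ A).hom_inv_id) f)

variable (𝔉 A)

theorem lcπ₁_surjective : Function.Surjective (lcπ₁ 𝔉 A) := by
  intro y
  obtain ⟨c, rfl⟩ := lcπ_surjective 𝔉 A 1 y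
  refine ⟨⟨(cochainsIso₁ A).hom c.1,
    hom_mem_cocycles₁ (LinearMap.mem_ker.1 c.2.2), hom_mem_lcCochains₁ c.2.1⟩, ?_⟩
  rw [lcπ₁_apply]
  congr 1
  exact Subtype.ext (inv_hom₁ c.1)

theorem lcπ₂_surjective : Function.Surjective (lcπ₂ 𝔉 A) := by
  intro y
  obtain ⟨c, rfl⟩ := lcπ_surjective 𝔉 A 2 y
  refine ⟨⟨(cochainsIso₂ A).hom c.1,
    hom_mem_cocycles₂ (LinearMap.mem_ker.1 c.2.2), hom_mem_lcCochains₂ c.2.1⟩, ?_⟩
  rw [lcπ₂_apply]
  congr 1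
  exact Subtype.ext (inv_hom₂ c.1)

/-- A level-constant `2`-cocycle is trivial in `Hlc²` iff it is the coboundary of a
level-constant `1`-cochain. -/
theorem lcπ₂_eq_zero_iff (c : lcCocycles₂ 𝔉 A) :
    lcπ₂ 𝔉 A c = 0 ↔ ∃ x ∈ lcCochains₁ 𝔉 A, (d₁₂ A).hom x = c.1 := by
  rw [lcπ₂_apply, lcπ_eq_zero_iff]
  have h : (cochainsIso₁ A).inv ≫ inhomogeneousCochains.d A 1 =
      d₁₂ A ≫ (cochainsIso₂ A).inv := by
    rw [← inhomogeneousCochains.d_def]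
    exact eq_d₁₂_comp_inv A
  have h' : (cochainsIso₁ A).hom ≫ d₁₂ A =
      inhomogeneousCochains.d A 1 ≫ (cochainsIso₂ A).hom := by
    rw [← inhomogeneousCochains.d_def]
    exact comp_d₁₂_eq A
  constructor
  · rintro ⟨g, hg, hgc⟩
    refine ⟨(cochainsIso₁ A).hom g, hom_mem_lcCochains₁ hg, ?_⟩
    have h2 : (d₁₂ A).hom ((cochainsIso₁ A).hom g) =
        (cochainsIso₂ A).hom ((inhomogeneousCochains.d A 1).hom g) := congr($h' g)
    rw [h2, hgc]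
    exact congr($((cochainsIso₂ A).inv_hom_id) c.1)
  · rintro ⟨x, hx, hxc⟩
    refine ⟨(cochainsIso₁ A).inv x, hx, ?_⟩
    have h2 : (inhomogeneousCochains.d A 1).hom ((cochainsIso₁ A).inv x) =
        (cochainsIso₂ A).inv ((d₁₂ A).hom x) := congr($h x)
    rw [h2, hxc]

/-- A level-constant `1`-cocycle is trivial in `Hlc¹` iff it is the coboundary of a smooth
vector. -/
theorem lcπ₁_eq_zero_iff (c : lcCocycles₁ 𝔉 A) :
    lcπ₁ 𝔉 A c = 0 ↔ ∃ a ∈ lcCochains₀ 𝔉 A, (d₀₁ A).hom a = c.1 := by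
  rw [lcπ₁_apply, lcπ_eq_zero_iff]
  have h : (cochainsIso₀ A).inv ≫ inhomogeneousCochains.d A 0 =
      d₀₁ A ≫ (cochainsIso₁ A).inv := by
    rw [← inhomogeneousCochains.d_def]
    exact eq_d₀₁_comp_inv A
  have h' : (cochainsIso₀ A).hom ≫ d₀₁ A =
      inhomogeneousCochains.d A 0 ≫ (cochainsIso₁ A).hom := by
    rw [← inhomogeneousCochains.d_def]
    exact comp_d₀₁_eq A
  constructor
  · rintro ⟨g, hg, hgc⟩
    refine ⟨(cochainsIso₀ A).hom g, hom_mem_lcCochains₀ hg, ?_⟩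
    have h2 : (d₀₁ A).hom ((cochainsIso₀ A).hom g) =
        (cochainsIso₁ A).hom ((inhomogeneousCochains.d A 0).hom g) := congr($h' g)
    rw [h2, hgc]
    exact congr($((cochainsIso₁ A).inv_hom_id) c.1)
  · rintro ⟨a, ha, hac⟩
    refine ⟨(cochainsIso₀ A).inv a, ha, ?_⟩
    have h2 : (inhomogeneousCochains.d A 0).hom ((cochainsIso₀ A).inv a) =
        (cochainsIso₁ A).inv ((d₀₁ A).hom a) := congr($h a)
    rw [h2, hac]

/-- Comparison with abstract `H¹` on classes. -/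
theorem lcToH_lcπ₁ (c : lcCocycles₁ 𝔉 A) :
    (lcToH 𝔉 A 1).hom (lcπ₁ 𝔉 A c) = H1π A ⟨c.1, c.2.1⟩ := by
  rw [lcπ₁_apply, lcToH_lcπ]
  change groupCohomology.π A 1 _ = groupCohomology.π A 1 ((isoCocycles₁ A).inv ⟨c.1, c.2.1⟩)
  rw [← cocyclesMk₁_eq]

/-- Comparison with abstract `H²` on classes. -/
theorem lcToH_lcπ₂ (c : lcCocycles₂ 𝔉 A) :
    (lcToH 𝔉 A 2).hom (lcπ₂ 𝔉 A c) = H2π A ⟨c.1, c.2.1⟩ := by
  rw [lcπ₂_apply, lcToH_lcπ]
  change groupCohomology.π A 2 _ = groupCohomology.π A 2 ((isoCocycles₂ A).inv ⟨c.1, c.2.1⟩)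
  rw [← cocyclesMk₂_eq]

/-- For a smooth representation, `Hlc¹ → H¹` is injective. -/
theorem lcToH_one_injective (hsm : ∀ a : A, a ∈ lcCochains₀ 𝔉 A) :
    Function.Injective (lcToH 𝔉 A 1).hom := by
  rw [injective_iff_map_eq_zero]
  intro y hy
  obtain ⟨c, rfl⟩ := lcπ₁_surjective 𝔉 A y
  rw [lcToH_lcπ₁, H1π_eq_zero_iff] at hy
  obtain ⟨a, ha⟩ := hy
  rw [lcπ₁_eq_zero_iff]
  exact ⟨a, hsm a, ha⟩

end LowCocycles

section LowFunctoriality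

variable {H : Type u} [Group H] {A : Rep.{u} k G} {B : Rep.{u} k H} (ψ : H →* G)
  (φ : res ψ A ⟶ B) {𝔉H : LevelFamily H} {𝔉G : LevelFamily G}

lemma cochainsMap₁_mem_lcCocycles₁ (hψ : 𝔉H.Compat ψ 𝔉G) {x : G → A}
    (hx : x ∈ lcCocycles₁ 𝔉G A) : (cochainsMap₁ ψ φ).hom x ∈ lcCocycles₁ 𝔉H B := by
  refine ⟨(mapCocycles₁ ψ φ ⟨x, hx.1⟩).2, ?_⟩
  change (cochainsIso₁ B).inv ((cochainsMap₁ ψ φ).hom x) ∈ lcCochains 𝔉H B 1
  exact cochainsMap_mem_lcCochains ψ φ hψ (f := (cochainsIso₁ A).inv x) hx.2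

lemma cochainsMap₂_mem_lcCocycles₂ (hψ : 𝔉H.Compat ψ 𝔉G) {x : G × G → A}
    (hx : x ∈ lcCocycles₂ 𝔉G A) : (cochainsMap₂ ψ φ).hom x ∈ lcCocycles₂ 𝔉H B := by
  refine ⟨(mapCocycles₂ ψ φ ⟨x, hx.1⟩).2, ?_⟩
  change (cochainsIso₂ B).inv ((cochainsMap₂ ψ φ).hom x) ∈ lcCochains 𝔉H B 2
  exact cochainsMap_mem_lcCochains ψ φ hψ (f := (cochainsIso₂ A).inv x) hx.2

/-- `HlcMap` on classes of level-constant `1`-cocycles: `x ↦ φ ∘ x ∘ ψ`. -/
theorem HlcMap_lcπ₁ (hψ : 𝔉H.Compat ψ 𝔉G) (c : lcCocycles₁ 𝔉G A) :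
    (HlcMap ψ φ hψ 1).hom (lcπ₁ 𝔉G A c) =
      lcπ₁ 𝔉H B ⟨(cochainsMap₁ ψ φ).hom c.1, cochainsMap₁_mem_lcCocycles₁ ψ φ hψ c.2⟩ := by
  rw [lcπ₁_apply, HlcMap_lcπ, lcπ₁_apply]
  rfl

/-- `HlcMap` on classes of level-constant `2`-cocycles: `x ↦ φ ∘ x ∘ (ψ × ψ)`. -/
theorem HlcMap_lcπ₂ (hψ : 𝔉H.Compat ψ 𝔉G) (c : lcCocycles₂ 𝔉G A) :
    (HlcMap ψ φ hψ 2).hom (lcπ₂ 𝔉G A c) =
      lcπ₂ 𝔉H B ⟨(cochainsMap₂ ψ φ).hom c.1, cochainsMap₂_mem_lcCocycles₂ ψ φ hψ c.2⟩ := by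
  rw [lcπ₂_apply, HlcMap_lcπ, lcπ₂_apply]
  rfl

end LowFunctoriality

end Fermat.Agent.PT
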