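import Mathlib
import Fermat.Agent.CFT.PT.SUnitsRep
import Fermat.Agent.CFT.PT.SmoothRestrict
import Fermat.Agent.CFT.PT.SmoothLow
import Fermat.Agent.CFT.Idele.SUnitsH1
import Fermat.Agent.CFT.Global.CrossVal
import Fermat.Agent.CFT.S14.FieldL
import Fermat.Agent.CFT.S14.InertiaLiftDischarge

set_option autoImplicit false
set_option linter.unusedSectionVars false

/-!
# S55 GLOBAL -> ENGINE bridge (GB3) + (GB-lvl): `H¹(G_{K,S}, E_S)` is finite

(helper1)

* **(GB-lvl) valuation dictionary** for a finite `F : IntermediateField ℚ Qb`: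
  `sUF_T F S` (primes of `𝓞 F` above `S`), `sUF_primeOf F A hq hA` (the prime of `𝓞 F` cut out by a
  valuation subring `A` of `Qb` over `q`), `sUF_exists_valSubring` (every prime off `T` arises),
  `sUF_forall_valSubring_iff` (unit at all `A` over `q ∉ S` iff unit at all `w ∉ T`),
  `sUF_mem_ES_iff` (`ES S ∩ F` = the `T`-units of `F`, for `F ≤ QS S`).
* relative layer `K ≤ L` (instances through `Fact (K ≤ L)`, local): `sUF_inertia_eq_bot`,
  `sUF_primeBelow_mem_T_iff`, `sUF_hval` (`L / K` is unramified off `T`, valuation form).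
* cocycles: `sUF_IsDescent`, `sUF_exists_descent`, `sUF_isMulCocycle₁`, `sUF_exists_divisor`,
  `sUF_exists_coboundary`.
* **`finite_Hlc_one_ESRep`**: for `K` unramified outside `S`,
  `Hlc ((famS S).restrict K.fixingSubgroup) (res (ESRep S)) 1` is finite (pigeonhole into the
  finite group `clT K (sUF_T K S)` of `Idele/SUnitsH1.lean`); `finite_Hlc_one_ESRep_of_mem` for
  `V ∈ (famS S).sets`.
-/

namespace Fermat.Agent.PT

open IsDedekindDomain IsDedekindDomain.HeightOneSpectrum NumberField Fermat.Agent.CFT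
  Fermat.Agent.CFT.S14 IntermediateField

local notation "Qb" => AlgebraicClosure ℚ
local notation "Γℚ" => (AlgebraicClosure ℚ ≃ₐ[ℚ] AlgebraicClosure ℚ)

theorem sUF_isAlgebraicQb : Algebra.IsAlgebraic ℚ (AlgebraicClosure ℚ) :=
  AlgebraicClosure.isAlgebraic ℚ

attribute [local instance] sUF_isAlgebraicQb

theorem sUF_isAlgClosureQb : IsAlgClosure ℚ (AlgebraicClosure ℚ) := ⟨inferInstance, inferInstance⟩

attribute [local instance] sUF_isAlgClosureQb

theorem sUF_isGaloisQb : IsGalois ℚ (AlgebraicClosure ℚ) where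

attribute [local instance] sUF_isGaloisQb

theorem sUF_numberField (F : IntermediateField ℚ Qb) [FiniteDimensional ℚ F] : NumberField F := { }

attribute [local instance] sUF_numberField

/-- algebraic integers lie in every valuation subring. -/
theorem sUF_mem_of_isIntegral (A : ValuationSubring Qb) {x : Qb} (hx : IsIntegral ℤ x) : x ∈ A := by
  have h1 : IsIntegral A x := hx.tower_top
  obtain ⟨y, hy⟩ := IsIntegrallyClosed.isIntegral_iff.1 h1
  rw [← hy]
  exact y.2

section Dict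

variable (F : IntermediateField ℚ Qb)

theorem sUF_coe_mem (A : ValuationSubring Qb) (x : 𝓞 F) : ((x : F) : Qb) ∈ A :=
  sUF_mem_of_isIntegral A ((RingOfIntegers.isIntegral_coe x).map (IsScalarTower.toAlgHom ℤ F Qb))

/-- the prime ideal of `𝓞 F` cut out by a valuation subring of `Qb`. -/
def sUF_primeIdeal (A : ValuationSubring Qb) : Ideal (𝓞 F) where
  carrier := {x | ((x : F) : Qb) ∈ A.nonunits}
  add_mem' := by
    intro a b ha hb
    change ((a : F) : Qb) ∈ A.nonunits at ha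
    change ((b : F) : Qb) ∈ A.nonunits at hb
    change (((a + b : 𝓞 F) : F) : Qb) ∈ A.nonunits
    rw [ValuationSubring.mem_nonunits_iff] at ha hb ⊢
    have : (((a + b : 𝓞 F) : F) : Qb) = ((a : F) : Qb) + ((b : F) : Qb) := by push_cast; rfl
    rw [this]
    exact lt_of_le_of_lt (A.valuation.map_add _ _) (max_lt ha hb)
  zero_mem' := by
    change (((0 : 𝓞 F) : F) : Qb) ∈ A.nonunits
    rw [ValuationSubring.mem_nonunits_iff]
    have : (((0 : 𝓞 F) : F) : Qb) = 0 := by push_cast; rfl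
    rw [this, map_zero]
    exact zero_lt_one
  smul_mem' := by
    intro c x hx
    change ((x : F) : Qb) ∈ A.nonunits at hx
    change (((c * x : 𝓞 F) : F) : Qb) ∈ A.nonunits
    have : (((c * x : 𝓞 F) : F) : Qb) = ((x : F) : Qb) * ((c : F) : Qb) := by
      push_cast; rw [mul_comm]
    rw [this]
    exact sUR_mul_mem_nonunits A hx (sUF_coe_mem F A c)

theorem sUF_mem_primeIdeal_iff (A : ValuationSubring Qb) (x : 𝓞 F) :
    x ∈ sUF_primeIdeal F A ↔ ((x : F) : Qb) ∈ A.nonunits := Iff.rfl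

theorem sUF_primeIdeal_isPrime (A : ValuationSubring Qb) : (sUF_primeIdeal F A).IsPrime := by
  refine ⟨?_, ?_⟩
  · rw [Ideal.ne_top_iff_one, sUF_mem_primeIdeal_iff]
    have : (((1 : 𝓞 F) : F) : Qb) = 1 := by push_cast; rfl
    rw [this, ValuationSubring.mem_nonunits_iff, map_one]
    exact lt_irrefl _
  · intro a b hab
    rw [sUF_mem_primeIdeal_iff] at hab
    have : (((a * b : 𝓞 F) : F) : Qb) = ((a : F) : Qb) * ((b : F) : Qb) := by push_cast; rfl
    rw [this, ValuationSubring.mem_nonunits_iff, map_mul] at hab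
    rw [sUF_mem_primeIdeal_iff, sUF_mem_primeIdeal_iff, ValuationSubring.mem_nonunits_iff,
      ValuationSubring.mem_nonunits_iff]
    by_contra h
    rw [not_or, not_lt, not_lt] at h
    have ha : A.valuation ((a : F) : Qb) = 1 :=
      le_antisymm ((A.valuation_le_one_iff _).2 (sUF_coe_mem F A a)) h.1
    have hb : A.valuation ((b : F) : Qb) = 1 :=
      le_antisymm ((A.valuation_le_one_iff _).2 (sUF_coe_mem F A b)) h.2
    rw [ha, hb, one_mul] at hab
    exact lt_irrefl _ hab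

theorem sUF_natCast_mem_primeIdeal {A : ValuationSubring Qb} {q : ℕ} (hA : A.LiesOverPrime q) :
    ((q : ℕ) : 𝓞 F) ∈ sUF_primeIdeal F A := by
  rw [sUF_mem_primeIdeal_iff]
  have : ((((q : ℕ) : 𝓞 F) : F) : Qb) = (q : Qb) := by push_cast; rfl
  rw [this]
  exact hA

variable [FiniteDimensional ℚ F]

/-- the prime of `𝓞 F` cut out by a valuation subring of `Qb` lying over a rational prime. -/
noncomputable def sUF_primeOf (A : ValuationSubring Qb) {q : ℕ} (hq : q ≠ 0)
    (hA : A.LiesOverPrime q) : HeightOneSpectrum (𝓞 F) where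
  asIdeal := sUF_primeIdeal F A
  isPrime := sUF_primeIdeal_isPrime F A
  ne_bot := by
    intro h
    have h1 := sUF_natCast_mem_primeIdeal F hA
    rw [h, Ideal.mem_bot] at h1
    exact hq (Nat.cast_injective (R := 𝓞 F) (by rw [h1, Nat.cast_zero]))

theorem sUF_mem_primeOf_iff (A : ValuationSubring Qb) {q : ℕ} (hq : q ≠ 0)
    (hA : A.LiesOverPrime q) (x : 𝓞 F) :
    x ∈ (sUF_primeOf F A hq hA).asIdeal ↔ ((x : F) : Qb) ∈ A.nonunits := Iff.rfl

variable (S : Finset Nat.Primes)

/-- the set of primes of `F` above `S`. -/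
def sUF_T : Set (HeightOneSpectrum (𝓞 F)) := {w | ∃ q ∈ S, (((q : ℕ)) : 𝓞 F) ∈ w.asIdeal}

theorem sUF_primeOf_not_mem_T (A : ValuationSubring Qb) {q : Nat.Primes} (hqS : q ∉ S)
    (hA : A.LiesOverPrime (q : ℕ)) : sUF_primeOf F A q.2.ne_zero hA ∉ sUF_T F S := by
  rintro ⟨q', hq'S, hq'⟩
  have hne : q ≠ q' := fun h => hqS (h ▸ hq'S)
  have hcop : Nat.Coprime (q : ℕ) (q' : ℕ) :=
    (Nat.coprime_primes q.2 q'.2).2 fun h => hne (Subtype.ext h)
  have h1 := sUF_natCast_mem_primeIdeal F hA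
  have hP := sUF_primeIdeal_isPrime F A
  obtain ⟨a, b, hab⟩ := Nat.isCoprime_iff_coprime.2 hcop
  have h2 : (1 : 𝓞 F) ∈ sUF_primeIdeal F A := by
    have e : (1 : 𝓞 F) = (a : 𝓞 F) * ((q : ℕ) : 𝓞 F) + (b : 𝓞 F) * ((q' : ℕ) : 𝓞 F) := by
      have := congrArg (Int.cast : ℤ → 𝓞 F) hab
      push_cast at this
      exact this.symm
    rw [e]
    exact add_mem (Ideal.mul_mem_left _ _ h1) (Ideal.mul_mem_left _ _ hq')
  exact hP.ne_top ((Ideal.eq_top_iff_one _).2 h2)

/-- every prime of `𝓞 F` off `T` is cut out by a valuation subring over a prime outside `S`. -/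
theorem sUF_exists_valSubring (w : HeightOneSpectrum (𝓞 F)) (hw : w ∉ sUF_T F S) :
    ∃ (q : Nat.Primes) (_ : q ∉ S) (A : ValuationSubring Qb) (hA : A.LiesOverPrime (q : ℕ)),
      sUF_primeOf F A q.2.ne_zero hA = w := by
  have := w.isPrime
  obtain ⟨l, hl, hlw⟩ := exists_prime_natCast_mem w.asIdeal w.ne_bot
  obtain ⟨P, hP, hPw⟩ := InertiaLift.exists_prime_over (Lf := F) w.asIdeal
  have hlP : (l : 𝓞 Qb) ∈ P := by
    have : (l : 𝓞 F) ∈ P.comap (algebraMap (𝓞 F) (𝓞 Qb)) := hPw ▸ hlw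
    simpa using this
  have hA := valSubringOfPrime_liesOverPrime P l hlP
  refine ⟨⟨l, hl⟩, fun hS => hw ⟨⟨l, hl⟩, hS, hlw⟩, valSubringOfPrime P, hA, ?_⟩
  ext x
  rw [sUF_mem_primeOf_iff, ← hPw, Ideal.mem_comap, ← algebraMap_mem_nonunits_iff P]
  rfl

theorem sUF_valuation_eq_one_iff_mem (A : ValuationSubring Qb) {x : Qb} (hx : x ≠ 0) :
    A.valuation x = 1 ↔ x ∈ A ∧ x⁻¹ ∈ A := by
  rw [← A.valuation_le_one_iff, ← A.valuation_le_one_iff, map_inv₀]
  constructor
  · intro h
    rw [h, inv_one]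
    exact ⟨le_rfl, le_rfl⟩
  · rintro ⟨h1, h2⟩
    refine le_antisymm h1 ?_
    have h0 : A.valuation x ≠ 0 := (Valuation.ne_zero_iff _).2 hx
    rwa [inv_le_one₀ (zero_lt_iff.2 h0)] at h2

theorem sUF_valuation_coe_eq_one_of_not_mem (A : ValuationSubring Qb) {q : ℕ} (hq : q ≠ 0)
    (hA : A.LiesOverPrime q) {r : 𝓞 F} (hr : r ∉ (sUF_primeOf F A hq hA).asIdeal) :
    A.valuation ((r : F) : Qb) = 1 := by
  rw [sUF_mem_primeOf_iff, ValuationSubring.mem_nonunits_iff, not_lt] at hr
  exact le_antisymm ((A.valuation_le_one_iff _).2 (sUF_coe_mem F A r)) hr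

/-- **dictionary, one direction**: a `w`-unit of `F` is a unit of every valuation subring cutting
out `w`. -/
theorem sUF_valuation_eq_one_of_valuation_eq_one (A : ValuationSubring Qb) {q : ℕ} (hq : q ≠ 0)
    (hA : A.LiesOverPrime q) {x : F} (hx : (sUF_primeOf F A hq hA).valuation F x = 1) :
    A.valuation (x : Qb) = 1 := by
  obtain ⟨r, s, hr, hs, hrs⟩ := exists_eq_div_of_valuation_eq_one _ hx
  have h1 := sUF_valuation_coe_eq_one_of_not_mem F A hq hA hr
  have h2 := sUF_valuation_coe_eq_one_of_not_mem F A hq hA hs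
  have h3 : (x : Qb) * ((s : F) : Qb) = ((r : F) : Qb) := by
    have := congrArg (fun y : F => (y : Qb)) hrs
    exact this
  have h4 := congrArg A.valuation h3
  rwa [map_mul, h1, h2, mul_one] at h4

theorem sUF_valuation_lt_one_of_valuation_lt_one (A : ValuationSubring Qb) {q : ℕ} (hq : q ≠ 0)
    (hA : A.LiesOverPrime q) {x : F} (hx : (sUF_primeOf F A hq hA).valuation F x < 1) :
    A.valuation (x : Qb) < 1 := by
  obtain ⟨n, d, hnd⟩ := (sUF_primeOf F A hq hA).exists_primeCompl_mul_eq_of_integer x hx.le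
  have hd : (d : 𝓞 F) ∉ (sUF_primeOf F A hq hA).asIdeal := d.2
  have h2 := sUF_valuation_coe_eq_one_of_not_mem F A hq hA hd
  have hdv : (sUF_primeOf F A hq hA).valuation F (algebraMap (𝓞 F) F d) = 1 := by
    rw [HeightOneSpectrum.valuation_of_algebraMap]
    exact ((sUF_primeOf F A hq hA).intValuation_eq_one_iff_mem_primeCompl d).mpr d.2
  have hn : n ∈ (sUF_primeOf F A hq hA).asIdeal := by
    have h1 : (sUF_primeOf F A hq hA).valuation F (algebraMap (𝓞 F) F n) < 1 := by
      rw [← hnd, map_mul, hdv, mul_one]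
      exact hx
    rw [HeightOneSpectrum.valuation_of_algebraMap] at h1
    exact ((sUF_primeOf F A hq hA).intValuation_lt_one_iff_mem n).1 h1
  rw [sUF_mem_primeOf_iff, ValuationSubring.mem_nonunits_iff] at hn
  have h3 : (x : Qb) * (((d : 𝓞 F) : F) : Qb) = ((n : F) : Qb) := by
    have := congrArg (fun y : F => (y : Qb)) hnd
    exact this
  have h4 := congrArg A.valuation h3
  rw [map_mul, h2, mul_one] at h4
  rw [h4]
  exact hn

/-- **dictionary, other direction**. -/
theorem sUF_valuation_eq_one_of_valuation_eq_one' (A : ValuationSubring Qb) {q : ℕ} (hq : q ≠ 0)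
    (hA : A.LiesOverPrime q) {x : F} (hx0 : x ≠ 0) (hx : A.valuation (x : Qb) = 1) :
    (sUF_primeOf F A hq hA).valuation F x = 1 := by
  rcases lt_trichotomy ((sUF_primeOf F A hq hA).valuation F x) 1 with h | h | h
  · have := sUF_valuation_lt_one_of_valuation_lt_one F A hq hA h
    rw [hx] at this
    exact absurd this (lt_irrefl _)
  · exact h
  · have h0 : (sUF_primeOf F A hq hA).valuation F x ≠ 0 := (Valuation.ne_zero_iff _).2 hx0
    have h1 : (sUF_primeOf F A hq hA).valuation F x⁻¹ < 1 := by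
      rw [map_inv₀]
      exact inv_lt_one_of_one_lt₀ h
    have := sUF_valuation_lt_one_of_valuation_lt_one F A hq hA h1
    have e : ((x⁻¹ : F) : Qb) = (x : Qb)⁻¹ := by push_cast; rfl
    rw [e, map_inv₀, hx, inv_one] at this
    exact absurd this (lt_irrefl _)

/-- **(GB-lvl) the valuation dictionary**: an element of `F` is a unit at every valuation subring
of `Qb` over a prime outside `S` iff it is a unit at every prime of `𝓞 F` off `T`. -/
theorem sUF_forall_valSubring_iff {x : F} (hx0 : x ≠ 0) :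
    (∀ q : Nat.Primes, q ∉ S → ∀ A : ValuationSubring Qb, A.LiesOverPrime (q : ℕ) →
      (x : Qb) ∈ A ∧ (x : Qb)⁻¹ ∈ A) ↔
    ∀ w : HeightOneSpectrum (𝓞 F), w ∉ sUF_T F S → w.valuation F x = 1 := by
  have hx0' : (x : Qb) ≠ 0 := fun h => hx0 (Subtype.ext h)
  constructor
  · intro h w hw
    obtain ⟨q, hq, A, hA, rfl⟩ := sUF_exists_valSubring F S w hw
    exact sUF_valuation_eq_one_of_valuation_eq_one' F A q.2.ne_zero hA hx0
      ((sUF_valuation_eq_one_iff_mem A hx0').2 (h q hq A hA))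
  · intro h q hq A hA
    rw [← sUF_valuation_eq_one_iff_mem A hx0']
    exact sUF_valuation_eq_one_of_valuation_eq_one F A q.2.ne_zero hA
      (h _ (sUF_primeOf_not_mem_T F S A hq hA))

/-- membership in `ES S` of an element of a subfield `F ≤ QS S`, through the primes of `𝓞 F`. -/
theorem sUF_mem_ES_iff (hF : F ≤ QS S) (x : Qbˣ) (hx : (x : Qb) ∈ F) :
    x ∈ ES S ↔ ∀ w : HeightOneSpectrum (𝓞 F), w ∉ sUF_T F S →
      w.valuation F (⟨(x : Qb), hx⟩ : F) = 1 := by
  have hx0 : (⟨(x : Qb), hx⟩ : F) ≠ 0 := fun h => x.ne_zero (congrArg Subtype.val h)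
  rw [← sUF_forall_valSubring_iff F S hx0, mem_ES_iff]
  constructor
  · rintro ⟨-, h⟩ q hq A hA
    have := h q hq A hA
    rwa [Units.val_inv_eq_inv_val] at this
  · intro h
    refine ⟨hF hx, fun q hq A hA => ?_⟩
    rw [Units.val_inv_eq_inv_val]
    exact h q hq A hA

end Dict

section Rel

/-- the algebra structure of a bigger intermediate field over a smaller one, as an instance. -/
@[reducible] noncomputable def sUF_algebra {K L : IntermediateField ℚ Qb} [h : Fact (K ≤ L)] : Algebra K L :=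
  algebraOfLE h.out

attribute [local instance] sUF_algebra

theorem sUF_isScalarTower {K L : IntermediateField ℚ Qb} [h : Fact (K ≤ L)] :
    IsScalarTower ℚ K L := isScalarTower_of_le h.out

theorem sUF_isScalarTower' {K L : IntermediateField ℚ Qb} [h : Fact (K ≤ L)] :
    IsScalarTower K L Qb := isScalarTower_of_le' h.out

attribute [local instance] sUF_isScalarTower sUF_isScalarTower'

theorem sUF_isGalois {K L : IntermediateField ℚ Qb} [Fact (K ≤ L)] [FiniteDimensional ℚ L]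
    [Normal ℚ L] : IsGalois K L := by
  have : IsGalois ℚ L := ⟨⟩
  exact IsGalois.tower_top_of_isGalois ℚ K L

attribute [local instance] sUF_isGalois

variable (S : Finset Nat.Primes) {K L : IntermediateField ℚ Qb} [hKL : Fact (K ≤ L)]
  [FiniteDimensional ℚ K] [FiniteDimensional ℚ L] [Normal ℚ L]

theorem sUF_coe_algebraMap (a : K) : ((algebraMap K L a : L) : Qb) = (a : Qb) := rfl

/-- trivial ideal-theoretic inertia in `Gal(L/K)` at a prime over `q ∉ S`. -/
theorem sUF_inertia_eq_bot (hL : L.IsUnramifiedOutside S) (Q : Ideal (𝓞 L)) [Q.IsPrime]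
    {q : Nat.Primes} (hq : q ∉ S) (hqQ : ((q : ℕ) : 𝓞 L) ∈ Q) :
    Ideal.inertia (L ≃ₐ[K] L) Q = ⊥ := by
  rw [eq_bot_iff]
  intro g hg
  rw [Subgroup.mem_bot]
  obtain ⟨P, hP, s, hPQ, hsP, hsτ⟩ :=
    liftsInertia_of_normal L Q (g.restrictScalars ℚ) (fun x => hg x)
  have hqP : ((q : ℕ) : 𝓞 Qb) ∈ P := by
    have : ((q : ℕ) : 𝓞 L) ∈ P.comap (algebraMap (𝓞 L) (𝓞 Qb)) := hPQ ▸ hqQ
    simpa using this
  have hI := mem_inertiaSubgroupIn_of_trivial P s hsP
  exact eq_one_of_lift_mem_fixingSubgroup hKL.out g s hsτ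
    (hL.2 q hq _ (valSubringOfPrime_liesOverPrime P q hqP) hI)

theorem sUF_primeBelow_mem_T_iff (w : HeightOneSpectrum (𝓞 L)) :
    primeBelow K L w ∈ sUF_T K S ↔ w ∈ sUF_T L S := by
  have e : ∀ q : ℕ, ((q : 𝓞 K) ∈ (primeBelow K L w).asIdeal ↔ (q : 𝓞 L) ∈ w.asIdeal) := by
    intro q
    rw [primeBelow, under_asIdeal, Ideal.under, Ideal.mem_comap, map_natCast]
  constructor
  · rintro ⟨q, hq, h⟩
    exact ⟨q, hq, (e q).1 h⟩
  · rintro ⟨q, hq, h⟩
    exact ⟨q, hq, (e q).2 h⟩

/-- **(hval)** `L / K` is unramified off `T`: the valuations of `L` off `T` extend those of `K`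
without ramification exponent. -/
theorem sUF_hval (hL : L.IsUnramifiedOutside S) (w : HeightOneSpectrum (𝓞 L))
    (hw : primeBelow K L w ∉ sUF_T K S) (a : K) :
    w.valuation L (algebraMap K L a) = (primeBelow K L w).valuation K a := by
  have := w.isPrime
  obtain ⟨l, hl, hlw⟩ := exists_prime_natCast_mem w.asIdeal w.ne_bot
  have hlS : (⟨l, hl⟩ : Nat.Primes) ∉ S := fun h =>
    hw ((sUF_primeBelow_mem_T_iff S w).2 ⟨⟨l, hl⟩, h, hlw⟩)
  have hin : w.asIdeal.inertia (L ≃ₐ[K] L) = ⊥ :=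
    sUF_inertia_eq_bot S hL w.asIdeal (q := ⟨l, hl⟩) hlS hlw
  have hlies : w.asIdeal.LiesOver (primeBelow K L w).asIdeal := Ideal.over_under w.asIdeal
  exact valuation_algebraMap_eq_of_inertia_eq_bot w (primeBelow K L w) hin a

end Rel

/-- the `Normal` instance in the form used by the generic Galois-theory files (`ℚ`-algebra
structure of `L` through `IntermediateField.algebra'`). -/
theorem sUF_normal_alg' {L : IntermediateField ℚ Qb} [h : Normal ℚ L] :
    @Normal ℚ L _ _ (IntermediateField.algebra' L) := h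

/-- shortcut instance (the generic search is very slow on subtypes of `Qb`). -/
@[reducible] noncomputable def sUF_galUnitsAction {K L : IntermediateField ℚ Qb} [Fact (K ≤ L)] :
    letI := sUF_algebra (K := K) (L := L)
    MulDistribMulAction (L ≃ₐ[K] L) Lˣ :=
  letI := sUF_algebra (K := K) (L := L)
  AlgEquiv.instMulDistribMulActionUnits

/-- shortcut instance. -/
@[reducible] noncomputable def sUF_galUnitsSMul {K L : IntermediateField ℚ Qb} [Fact (K ≤ L)] :
    letI := sUF_algebra (K := K) (L := L)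
    SMul (L ≃ₐ[K] L) Lˣ :=
  letI := sUF_algebra (K := K) (L := L)
  (sUF_galUnitsAction (K := K) (L := L)).toMulAction.toSemigroupAction.toSMul

section Coc

open CategoryTheory groupCohomology Rep

variable (S : Finset Nat.Primes) {K L : IntermediateField ℚ Qb} [hKL : Fact (K ≤ L)]
  [FiniteDimensional ℚ K] [FiniteDimensional ℚ L] [Normal ℚ L]

attribute [local instance] sUF_algebra sUF_isScalarTower sUF_isScalarTower' sUF_isGalois
  sUR_mulDistribMulAction sUF_normal_alg' sUF_galUnitsAction sUF_galUnitsSMul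

/-- the unit of `L` attached to a unit of `Qb` lying in `L`. -/
noncomputable def sUF_unitOf (x : Qbˣ) (hx : (x : Qb) ∈ L) : Lˣ :=
  Units.mk0 ⟨(x : Qb), hx⟩ (fun h => x.ne_zero (congrArg Subtype.val h))

theorem sUF_coe_unitOf (x : Qbˣ) (hx : (x : Qb) ∈ L) :
    (((sUF_unitOf x hx : Lˣ) : L) : Qb) = x := rfl

/-- the unit of `Qb` attached to a unit of `L`. -/
noncomputable def sUF_unitUp (u : Lˣ) : Qbˣ := Units.map (algebraMap L Qb : L →* Qb) u

theorem sUF_coe_unitUp (u : Lˣ) : ((sUF_unitUp u : Qbˣ) : Qb) = ((u : L) : Qb) := rfl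

/-- the value of an element of `ESRep S` as a unit of `Qb`. -/
noncomputable def sUF_val (a : Additive (ES S)) : Qbˣ := ((Additive.toMul a : ES S) : Qbˣ)

theorem sUF_val_add (a b : Additive (ES S)) : sUF_val S (a + b) = sUF_val S a * sUF_val S b := rfl

theorem sUF_val_sub (a b : Additive (ES S)) : sUF_val S (a - b) = sUF_val S a / sUF_val S b := rfl

/-- the action of `Γℚ` on `ESRep S`, on the carrier `Additive (ES S)`. -/
noncomputable def sUF_act (g : Γℚ) (a : Additive (ES S)) : Additive (ES S) := (ESRep S).ρ g a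

theorem sUF_val_ρ (g : Γℚ) (a : Additive (ES S)) :
    ((sUF_val S (sUF_act S g a) : Qbˣ) : Qb) = g ((sUF_val S a : Qbˣ) : Qb) := rfl

theorem sUF_val_injective : Function.Injective (sUF_val S) := by
  intro a b h
  have : (Additive.toMul a : ES S) = Additive.toMul b := Subtype.ext h
  exact this

variable (K L) in
/-- the level of `K.fixingSubgroup` attached to `L`. -/
noncomputable abbrev sUF_lvl : Subgroup K.fixingSubgroup := L.fixingSubgroup.subgroupOf K.fixingSubgroup

/-- `cL` is a descent of the cochain `c` to `Gal(L/K)`. -/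
def sUF_IsDescent (c : K.fixingSubgroup → Additive (ES S)) (cL : (L ≃ₐ[K] L) → Lˣ) : Prop :=
  ∀ σ : K.fixingSubgroup,
    (((cL (relRestrict hKL.out σ) : Lˣ) : L) : Qb) = ((sUF_val S (c σ) : Qbˣ) : Qb)

/-- the values of a cochain of level `L` lie in `L`. -/
theorem sUF_val_mem (c : K.fixingSubgroup → Additive (ES S))
    (hc : IsLevel₁ (Rep.res K.fixingSubgroup.subtype (ESRep S)) (sUF_lvl K L) c)
    (σ : K.fixingSubgroup) : ((sUF_val S (c σ) : Qbˣ) : Qb) ∈ L := by
  refine (sUR_ESRep_ρ_eq_iff S L (c σ)).1 fun g hg => ?_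
  have hgK : g ∈ K.fixingSubgroup := IntermediateField.fixingSubgroup_antitone hKL.out hg
  exact hc.2 σ ⟨g, hgK⟩ (Subgroup.mem_subgroupOf.2 hg)

theorem sUF_eq_of_relRestrict_eq (c : K.fixingSubgroup → Additive (ES S))
    (hc : IsLevel₁ (Rep.res K.fixingSubgroup.subtype (ESRep S)) (sUF_lvl K L) c)
    {σ σ' : K.fixingSubgroup} (h : relRestrict hKL.out σ = relRestrict hKL.out σ') :
    c σ = c σ' := by
  have h1 : relRestrict hKL.out (σ⁻¹ * σ') = 1 := by
    rw [map_mul, map_inv, h, inv_mul_cancel]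
  rw [relRestrict_eq_one_iff] at h1
  have h2 := hc.1 σ (σ⁻¹ * σ') (Subgroup.mem_subgroupOf.2 h1)
  rw [mul_inv_cancel_left] at h2
  exact h2.symm

/-- existence of a descent. -/
theorem sUF_exists_descent (c : K.fixingSubgroup → Additive (ES S))
    (hc : IsLevel₁ (Rep.res K.fixingSubgroup.subtype (ESRep S)) (sUF_lvl K L) c) :
    ∃ cL : (L ≃ₐ[K] L) → Lˣ, sUF_IsDescent S c cL := by
  have hsurj := relRestrict_surjective (k := ℚ) (E := Qb) hKL.out
  refine ⟨fun τ => sUF_unitOf (sUF_val S (c (Function.surjInv hsurj τ)))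
    (sUF_val_mem S c hc _), fun σ => ?_⟩
  rw [sUF_coe_unitOf]
  rw [sUF_eq_of_relRestrict_eq S c hc (Function.surjInv_eq hsurj (relRestrict hKL.out σ))]

theorem sUF_coe_smul_units (σ : K.fixingSubgroup) (u : Lˣ) :
    ((((relRestrict hKL.out σ) • u : Lˣ) : L) : Qb) = σ.1 ((u : L) : Qb) :=
  relRestrict_apply hKL.out σ (u : L)

/-- a descent of a cocycle is a multiplicative cocycle of `Gal(L/K)`. -/
theorem sUF_isMulCocycle₁ (c : K.fixingSubgroup → Additive (ES S))
    (hcoc : c ∈ cocycles₁ (Rep.res K.fixingSubgroup.subtype (ESRep S)))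
    (cL : (L ≃ₐ[K] L) → Lˣ) (hd : sUF_IsDescent S c cL) : IsMulCocycle₁ cL := by
  have hsurj := relRestrict_surjective (k := ℚ) (E := Qb) hKL.out
  intro g h
  obtain ⟨σ, rfl⟩ := hsurj g
  obtain ⟨σ', rfl⟩ := hsurj h
  rw [← map_mul]
  apply Units.ext
  apply Subtype.ext
  rw [hd (σ * σ')]
  have h1 : c (σ * σ') = sUF_act S σ.1 (c σ') + c σ := (mem_cocycles₁_iff (A := Rep.res K.fixingSubgroup.subtype (ESRep S)) c).1 hcoc σ σ'
  rw [h1, sUF_val_add, Units.val_mul, sUF_val_ρ, Units.val_mul]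
  change _ = ((((relRestrict hKL.out σ) • cL (relRestrict hKL.out σ') : Lˣ) : L) : Qb) *
    (((cL (relRestrict hKL.out σ) : Lˣ) : L) : Qb)
  rw [sUF_coe_smul_units, hd σ', hd σ]

/-- the values of a descent are units off `T`. -/
theorem sUF_descent_unit (hL : L.IsUnramifiedOutside S) (c : K.fixingSubgroup → Additive (ES S))
    (cL : (L ≃ₐ[K] L) → Lˣ) (hd : sUF_IsDescent S c cL) (g : L ≃ₐ[K] L)
    (w : HeightOneSpectrum (𝓞 L)) (hw : primeBelow K L w ∉ sUF_T K S) :
    w.valuation L ((cL g : Lˣ) : L) = 1 := by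
  obtain ⟨σ, rfl⟩ := relRestrict_surjective (k := ℚ) (E := Qb) hKL.out g
  have hmem : sUF_val S (c σ) ∈ ES S := (Additive.toMul (c σ)).2
  have hxL : ((sUF_val S (c σ) : Qbˣ) : Qb) ∈ L := by
    rw [← hd σ]
    exact Subtype.property _
  have h1 := (sUF_mem_ES_iff L S (le_QS_of_isUnramifiedOutside S hL) _ hxL).1 hmem w
    (fun h => hw ((sUF_primeBelow_mem_T_iff S w).2 h))
  have e : ((cL (relRestrict hKL.out σ) : Lˣ) : L) = ⟨((sUF_val S (c σ) : Qbˣ) : Qb), hxL⟩ :=
    Subtype.ext (hd σ)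
  rw [e]
  exact h1

/-- **existence of a divisor** for a level-`L` cocycle. -/
theorem sUF_exists_divisor (hL : L.IsUnramifiedOutside S)
    (c : K.fixingSubgroup → Additive (ES S))
    (hcoc : c ∈ cocycles₁ (Rep.res K.fixingSubgroup.subtype (ESRep S)))
    (hc : IsLevel₁ (Rep.res K.fixingSubgroup.subtype (ESRep S)) (sUF_lvl K L) c) :
    ∃ (cL : (L ≃ₐ[K] L) → Lˣ) (D : HeightOneSpectrum (𝓞 K) →₀ ℤ),
      sUF_IsDescent S c cL ∧ SUH1Rel K L (sUF_T K S) cL D := by
  obtain ⟨cL, hd⟩ := sUF_exists_descent S c hc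
  obtain ⟨D, hD⟩ := sUH1_exists_divisor (T := sUF_T K S) cL (sUF_isMulCocycle₁ S c hcoc cL hd)
    (fun g w hw => sUF_descent_unit S hL c cL hd g w hw)
  exact ⟨cL, D, hd, hD⟩

omit [Normal ℚ L] hKL in
theorem sUF_SUH1Rel_div {F M : Type*} [Field F] [Field M] [NumberField F] [NumberField M]
    [Algebra F M] [IsGalois F M] {T : Set (HeightOneSpectrum (𝓞 F))}
    {c c' : Gal(M/F) → Mˣ} {D D' : HeightOneSpectrum (𝓞 F) →₀ ℤ}
    (h : SUH1Rel F M T c D) (h' : SUH1Rel F M T c' D') : SUH1Rel F M T (c / c') (D - D') := by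
  obtain ⟨x, hx, hD⟩ := h
  obtain ⟨x', hx', hD'⟩ := h'
  refine ⟨x / x', fun g => ?_, fun w hw => ?_⟩
  · rw [Pi.div_apply, hx g, hx' g, smul_div', div_div_div_comm]
  · rw [sUH1_divFun_div, hD w hw, hD' w hw, Finsupp.sub_apply]

/-- **injectivity**: two level-`L` cocycles whose divisors agree modulo divisors principal off `T`
differ by the coboundary of an `L`-rational element of `E_S`. -/
theorem sUF_exists_coboundary (hL : L.IsUnramifiedOutside S)
    (c c' : K.fixingSubgroup → Additive (ES S)) (cL cL' : (L ≃ₐ[K] L) → Lˣ)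
    (hd : sUF_IsDescent S c cL) (hd' : sUF_IsDescent S c' cL')
    {D D' : HeightOneSpectrum (𝓞 K) →₀ ℤ} (h : SUH1Rel K L (sUF_T K S) cL D)
    (h' : SUH1Rel K L (sUF_T K S) cL' D') (hDD' : D - D' ∈ princOff K (sUF_T K S)) :
    ∃ a : Additive (ES S), (∀ g ∈ L.fixingSubgroup, (ESRep S).ρ g a = a) ∧
      ∀ σ : K.fixingSubgroup, c σ - c' σ = sUF_act S σ.1 a - a := by
  have hrel := sUF_SUH1Rel_div h h'
  obtain ⟨u, hu, hcu⟩ := (sUH1_rel_mem_princOff_iff (sUF_T K S)
    (fun w hw a => sUF_hval S hL w hw a) hrel).1 hDD'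
  have huES : sUF_unitUp u ∈ ES S := by
    refine (sUF_mem_ES_iff L S (le_QS_of_isUnramifiedOutside S hL) (sUF_unitUp u) (u : L).2).2
      fun w hw => ?_
    exact hu w (fun h => hw ((sUF_primeBelow_mem_T_iff S w).1 h))
  refine ⟨Additive.ofMul (⟨sUF_unitUp u, huES⟩ : ES S), ?_, fun σ => ?_⟩
  · exact (sUR_ESRep_ρ_eq_iff S L _).2 (u : L).2
  · apply sUF_val_injective S
    apply Units.ext
    rw [sUF_val_sub, sUF_val_sub, Units.val_div_eq_div_val, Units.val_div_eq_div_val, sUF_val_ρ]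
    rw [← hd σ, ← hd' σ]
    have h1 := hcu (relRestrict hKL.out σ)
    rw [Pi.div_apply] at h1
    have h2 := congrArg (fun v : Lˣ => ((v : L) : Qb)) h1
    simp only [Units.val_div_eq_div_val] at h2
    rw [IntermediateField.coe_div, IntermediateField.coe_div, sUF_coe_smul_units] at h2
    exact h2

end Coc

section Main

open CategoryTheory groupCohomology Rep

attribute [local instance] sUF_algebra sUF_isScalarTower sUF_isScalarTower' sUF_isGalois
  sUR_mulDistribMulAction sUF_normal_alg' sUF_galUnitsAction sUF_galUnitsSMul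

variable (S : Finset Nat.Primes) (K : IntermediateField ℚ Qb)

/-- a good level for `K`: a finite Galois extension of `ℚ` containing `K`, unramified outside
`S`. -/
def sUF_GoodLevel (L : IntermediateField ℚ Qb) : Prop :=
  K ≤ L ∧ L.IsUnramifiedOutside S ∧ L.fixingSubgroup.Normal ∧ Normal ℚ L

theorem sUF_goodLevel_galClosure {F : IntermediateField ℚ Qb} (hF : F.IsUnramifiedOutside S)
    (hKF : K ≤ F) : sUF_GoodLevel S K (galClosure F) := by
  refine ⟨hKF.trans (le_galClosure F), IsUnramifiedOutside.galClosure hF,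
    galClosure_fixingSubgroup_normal F, ?_⟩
  rw [galClosure_eq_normalClosure]
  exact normalClosure.normal ℚ F Qb

theorem sUF_lvl_mem_sets {L : IntermediateField ℚ Qb} (hL : sUF_GoodLevel S K L) :
    sUF_lvl K L ∈ ((famS S).restrict K.fixingSubgroup).sets :=
  ⟨L.fixingSubgroup, ⟨L, hL.2.1, hL.2.2.1, rfl⟩, rfl⟩

/-- a common good level for finitely many level-constant cochains. -/
theorem sUF_exists_common_level (hK : K.IsUnramifiedOutside S) {ι : Type*} (s : Finset ι)
    (c : ι → K.fixingSubgroup → Additive (ES S))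
    (hc : ∀ i ∈ s, c i ∈ lcCochains₁ ((famS S).restrict K.fixingSubgroup)
      (Rep.res K.fixingSubgroup.subtype (ESRep S))) :
    ∃ L : IntermediateField ℚ Qb, sUF_GoodLevel S K L ∧ ∀ i ∈ s,
      IsLevel₁ (Rep.res K.fixingSubgroup.subtype (ESRep S)) (sUF_lvl K L) (c i) := by
  classical
  induction s using Finset.induction_on with
  | empty =>
    exact ⟨galClosure K, sUF_goodLevel_galClosure S K hK le_rfl, fun i hi => by simp at hi⟩
  | insert j s hj ih =>
    obtain ⟨L₁, hL₁, hlev⟩ := ih fun i hi => hc i (Finset.mem_insert_of_mem hi)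
    obtain ⟨U, ⟨U₀, ⟨L₀, hL₀, -, rfl⟩, rfl⟩, hU⟩ :=
      mem_lcCochains₁.1 (hc j (Finset.mem_insert_self j s))
    have hsup : (L₁ ⊔ L₀).IsUnramifiedOutside S := hL₁.2.1.sup hL₀
    refine ⟨galClosure (L₁ ⊔ L₀),
      sUF_goodLevel_galClosure S K hsup (hL₁.1.trans le_sup_left), fun i hi => ?_⟩
    have h1 : (galClosure (L₁ ⊔ L₀)).fixingSubgroup ≤ L₁.fixingSubgroup :=
      IntermediateField.fixingSubgroup_antitone (le_sup_left.trans (le_galClosure _))
    have h0 : (galClosure (L₁ ⊔ L₀)).fixingSubgroup ≤ L₀.fixingSubgroup :=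
      IntermediateField.fixingSubgroup_antitone (le_sup_right.trans (le_galClosure _))
    rcases Finset.mem_insert.1 hi with rfl | hi
    · exact hU.mono (Subgroup.subgroupOf_mono _ h0)
    · exact (hlev i hi).mono (Subgroup.subgroupOf_mono _ h1)

variable [FiniteDimensional ℚ K]

/-- **(GB3)** `H¹(G_{K,S}, E_S)` is finite (it embeds into the `S`-class group of `K`). -/
theorem finite_Hlc_one_ESRep (hK : K.IsUnramifiedOutside S) :
    Finite (Hlc ((famS S).restrict K.fixingSubgroup)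
      (Rep.res K.fixingSubgroup.subtype (ESRep S)) 1) := by
  classical
  by_contra hinf
  rw [not_finite_iff_infinite] at hinf
  set 𝔉 := (famS S).restrict K.fixingSubgroup with h𝔉
  set A := Rep.res K.fixingSubgroup.subtype (ESRep S) with hA
  have := Fintype.ofFinite (clT K (sUF_T K S))
  obtain ⟨s, hs⟩ := Infinite.exists_subset_card_eq (Hlc 𝔉 A 1)
    (Fintype.card (clT K (sUF_T K S)) + 1)
  have hrep : ∀ x : Hlc 𝔉 A 1, ∃ c : lcCocycles₁ 𝔉 A, lcπ₁ 𝔉 A c = x := lcπ₁_surjective 𝔉 A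
  choose cc hcc using hrep
  obtain ⟨L, hL, hlev⟩ := sUF_exists_common_level S K hK s (fun x => (cc x).1)
    (fun x _ => (cc x).2.2)
  have : Fact (K ≤ L) := ⟨hL.1⟩
  have : FiniteDimensional ℚ L := hL.2.1.1
  have : Normal ℚ L := hL.2.2.2
  have hdiv : ∀ x : s, ∃ (cL : (L ≃ₐ[K] L) → Lˣ) (D : HeightOneSpectrum (𝓞 K) →₀ ℤ),
      sUF_IsDescent S (cc x.1).1 cL ∧ SUH1Rel K L (sUF_T K S) cL D := fun x =>
    sUF_exists_divisor S hL.2.1 (cc x.1).1 (cc x.1).2.1 (hlev x.1 x.2)
  choose cL D hd hrel using hdiv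
  obtain ⟨x, y, hxy, hf⟩ := Fintype.exists_ne_map_eq_of_card_lt
    (fun x : s => (QuotientAddGroup.mk (D x) : clT K (sUF_T K S))) (by
      rw [Fintype.card_coe, hs]
      exact Nat.lt_succ_self _)
  have hDD : D x - D y ∈ princOff K (sUF_T K S) := by
    have h1 := (QuotientAddGroup.eq).1 hf
    have h2 := neg_mem h1
    have e : -(-D x + D y) = D x - D y := by abel
    rwa [e] at h2
  obtain ⟨a, hafix, ha⟩ := sUF_exists_coboundary S hL.2.1 (cc x.1).1 (cc y.1).1 (cL x) (cL y)
    (hd x) (hd y) (hrel x) (hrel y) hDD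
  have hzero : lcπ₁ 𝔉 A (cc x.1 - cc y.1) = 0 := by
    rw [lcπ₁_eq_zero_iff]
    refine ⟨a, mem_lcCochains₀.2 ⟨sUF_lvl K L, sUF_lvl_mem_sets S K hL, fun u hu => ?_⟩, ?_⟩
    · exact hafix u.1 (Subgroup.mem_subgroupOf.1 hu)
    · funext σ
      exact (ha σ).symm
  rw [map_sub, sub_eq_zero, hcc, hcc] at hzero
  exact hxy (Subtype.ext hzero)

/-- the same for a member `V` of `famS S`. -/
theorem finite_Hlc_one_ESRep_of_mem (V : Subgroup Γℚ) (hV : V ∈ (famS S).sets) :
    Finite (Hlc ((famS S).restrict V) (Rep.res V.subtype (ESRep S)) 1) := by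
  obtain ⟨K, hK, -, rfl⟩ := hV
  have := hK.1
  exact finite_Hlc_one_ESRep S K hK

end Main

end Fermat.Agent.PT
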