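import Fermat.Agent.CFT.PT.SmoothLES

/-!
# Generic sub/quotient representations of a multiplicative `G`-module

`X` a commutative group with a `MulDistribMulAction` of `G`.  For `G`-stable subgroups `A`, `B` of
`X` the subquotient `A / (A ⊓ B)` is a `ℤ`-representation `sqRep A B hA hB : Rep ℤ G`
(carrier `Additive (↥A ⧸ B.subgroupOf A)`), functorial in `(A, B)` for the inclusion order:
`sqRepMap : sqRep A B ⟶ sqRep A' B'` for `A ≤ A'`, `B ≤ B'`.

* `sqRepMap_injective_iff`, `sqRepMap_surjective_iff`, `sqRepIso`;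
* `sqRep_shortExact` : for `B ≤ C` the sequence `A ⊓ C / B → A / B → A / C` is short exact;
* `isSmooth_sqRep` : smoothness from pointwise stabilisers on `A`;
* `sqRepOfHom` : the morphism induced by an equivariant group homomorphism `Y →* X`.
-/

set_option autoImplicit false

namespace Fermat.Agent.PT

open CategoryTheory Rep

variable {G : Type} [Group G] {X : Type} [CommGroup X] [MulDistribMulAction G X]

/-- a subgroup stable under the action of `G`. -/
def IsStableSub (G : Type) [Group G] {X : Type} [CommGroup X] [MulDistribMulAction G X]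
    (A : Subgroup X) : Prop :=
  ∀ (g : G) (x : X), x ∈ A → g • x ∈ A

namespace IsStableSub

variable {A B : Subgroup X}

theorem bot : IsStableSub G (⊥ : Subgroup X) := fun g x hx => by
  rw [Subgroup.mem_bot] at hx ⊢
  rw [hx, smul_one]

theorem top : IsStableSub G (⊤ : Subgroup X) := fun _ _ _ => Subgroup.mem_top _

theorem inf (hA : IsStableSub G A) (hB : IsStableSub G B) : IsStableSub G (A ⊓ B) :=
  fun g x hx => ⟨hA g x hx.1, hB g x hx.2⟩

theorem sup (hA : IsStableSub G A) (hB : IsStableSub G B) : IsStableSub G (A ⊔ B) := by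
  intro g x hx
  obtain ⟨a, ha, b, hb, rfl⟩ := Subgroup.mem_sup.1 hx
  rw [smul_mul']
  exact Subgroup.mul_mem_sup (hA g a ha) (hB g b hb)

theorem smul_mem_iff (hA : IsStableSub G A) (g : G) (x : X) : g • x ∈ A ↔ x ∈ A := by
  refine ⟨fun h => ?_, hA g x⟩
  have := hA g⁻¹ _ h
  rwa [inv_smul_smul] at this

end IsStableSub

section Action

variable (A B : Subgroup X) (hA : IsStableSub G A) (hB : IsStableSub G B)

/-- the action on a stable subgroup. -/
@[reducible] def sqSubAction : MulDistribMulAction G A where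
  smul g x := ⟨g • (x : X), hA g x x.2⟩
  one_smul x := Subtype.ext (one_smul _ (x : X))
  mul_smul g h x := Subtype.ext (mul_smul g h (x : X))
  smul_mul g x y := Subtype.ext (smul_mul' g (x : X) (y : X))
  smul_one g := Subtype.ext (smul_one g)

/-- the endomorphism `x ↦ g • x` of `A / (A ⊓ B)`. -/
noncomputable def sqQuotSmul (g : G) : (↥A ⧸ B.subgroupOf A) →* (↥A ⧸ B.subgroupOf A) :=
  letI := sqSubAction A hA
  QuotientGroup.map (B.subgroupOf A) (B.subgroupOf A) (MulDistribMulAction.toMonoidHom (↥A) g)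
    (fun x hx => by
      rw [Subgroup.mem_comap, Subgroup.mem_subgroupOf]
      exact hB g x hx)

theorem sqQuotSmul_mk (g : G) (x : A) :
    sqQuotSmul A B hA hB g (QuotientGroup.mk x) =
      QuotientGroup.mk (⟨g • (x : X), hA g x x.2⟩ : A) := rfl

/-- the action on the subquotient `A / (A ⊓ B)`. -/
@[reducible] noncomputable def sqQuotAction : MulDistribMulAction G (↥A ⧸ B.subgroupOf A) where
  smul g q := sqQuotSmul A B hA hB g q
  one_smul q := by
    induction q using QuotientGroup.induction_on with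
    | H x =>
      change sqQuotSmul A B hA hB 1 (QuotientGroup.mk x) = _
      rw [sqQuotSmul_mk]
      exact congrArg _ (Subtype.ext (one_smul _ (x : X)))
  mul_smul g h q := by
    induction q using QuotientGroup.induction_on with
    | H x =>
      change sqQuotSmul A B hA hB (g * h) (QuotientGroup.mk x) =
        sqQuotSmul A B hA hB g (sqQuotSmul A B hA hB h (QuotientGroup.mk x))
      rw [sqQuotSmul_mk, sqQuotSmul_mk, sqQuotSmul_mk]
      exact congrArg _ (Subtype.ext (mul_smul g h (x : X)))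
  smul_mul g q r := map_mul (sqQuotSmul A B hA hB g) q r
  smul_one g := map_one (sqQuotSmul A B hA hB g)

/-- **the subquotient `A / (A ⊓ B)` as a representation of `G` over `ℤ`.** -/
noncomputable def sqRep : Rep ℤ G :=
  letI := sqQuotAction A B hA hB
  Rep.ofMulDistribMulAction G (↥A ⧸ B.subgroupOf A)

/-- the class of `x ∈ A` in `sqRep A B`. -/
noncomputable def sqMk (x : A) : sqRep A B hA hB :=
  Additive.ofMul (QuotientGroup.mk x : ↥A ⧸ B.subgroupOf A)

theorem sqMk_surjective : Function.Surjective (sqMk A B hA hB) := by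
  intro q
  obtain ⟨x, hx⟩ := QuotientGroup.mk_surjective (Additive.toMul q : ↥A ⧸ B.subgroupOf A)
  exact ⟨x, congrArg Additive.ofMul hx⟩

theorem sqRep_ρ_sqMk (g : G) (x : A) :
    (sqRep A B hA hB).ρ g (sqMk A B hA hB x) = sqMk A B hA hB ⟨g • (x : X), hA g x x.2⟩ := rfl

theorem sqMk_eq_zero_iff (x : A) : sqMk A B hA hB x = 0 ↔ (x : X) ∈ B := by
  change Additive.ofMul (QuotientGroup.mk x : ↥A ⧸ B.subgroupOf A) = Additive.ofMul 1 ↔ _
  rw [Additive.ofMul.apply_eq_iff_eq, QuotientGroup.eq_one_iff, Subgroup.mem_subgroupOf]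

theorem sqMk_mul (x y : A) :
    sqMk A B hA hB (x * y) = sqMk A B hA hB x + sqMk A B hA hB y := rfl

theorem sqMk_one : sqMk A B hA hB 1 = 0 := rfl

theorem sqMk_inv (x : A) : sqMk A B hA hB x⁻¹ = - sqMk A B hA hB x := rfl

theorem sqMk_eq_iff (x y : A) :
    sqMk A B hA hB x = sqMk A B hA hB y ↔ ((x : X)⁻¹ * (y : X)) ∈ B := by
  change Additive.ofMul (QuotientGroup.mk x : ↥A ⧸ B.subgroupOf A) =
    Additive.ofMul (QuotientGroup.mk y) ↔ _
  rw [Additive.ofMul.apply_eq_iff_eq, QuotientGroup.eq, Subgroup.mem_subgroupOf]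
  rfl

end Action

section Generalities

/-- a morphism of representations which is bijective is an isomorphism (any coefficient ring). -/
theorem sqRep_isIso_of_bijective {k : Type} [CommRing k] {A B : Rep.{0} k G} (f : A ⟶ B)
    (h : Function.Bijective f.hom) : IsIso f := by
  have : IsIso ((forget (Rep.{0} k G)).map f) := (isIso_iff_bijective _).2 h
  exact isIso_of_reflects_iso f (forget (Rep.{0} k G))

/-- a short complex of representations is short exact as soon as it is so on elements. -/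
theorem sqRep_shortExact_of_elementwise {k : Type} [CommRing k] (Y : ShortComplex (Rep.{0} k G))
    (hinj : Function.Injective Y.f.hom) (hsurj : Function.Surjective Y.g.hom)
    (hex : ∀ a : Y.X₂, Y.g.hom a = 0 → ∃ b : Y.X₁, Y.f.hom b = a) : Y.ShortExact := by
  have hM : Mono Y.f := (Rep.mono_iff_injective Y.f).2 hinj
  have hP : Epi Y.g := (Rep.epi_iff_surjective Y.g).2 hsurj
  have hE : Y.Exact := by
    rw [← ShortComplex.exact_map_iff_of_faithful _ (forget₂ (Rep.{0} k G) (ModuleCat.{0} k)),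
      ShortComplex.moduleCat_exact_iff]
    intro x₂ hx₂
    exact hex x₂ hx₂
  exact { exact := hE, mono_f := hM, epi_g := hP }

end Generalities

section Map

variable {A B A' B' : Subgroup X} (hA : IsStableSub G A) (hB : IsStableSub G B)
  (hA' : IsStableSub G A') (hB' : IsStableSub G B')

/-- the group homomorphism `A / (A ⊓ B) → A' / (A' ⊓ B')` for `A ≤ A'`, `B ≤ B'`. -/
noncomputable def sqQuotMap (hle : A ≤ A') (hle' : B ≤ B') :
    (↥A ⧸ B.subgroupOf A) →* (↥A' ⧸ B'.subgroupOf A') :=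
  QuotientGroup.map (B.subgroupOf A) (B'.subgroupOf A') (Subgroup.inclusion hle)
    (fun x hx => by
      rw [Subgroup.mem_comap, Subgroup.mem_subgroupOf]
      exact hle' hx)

/-- **functoriality of the subquotients** for the inclusion order. -/
noncomputable def sqRepMap (hle : A ≤ A') (hle' : B ≤ B') :
    sqRep A B hA hB ⟶ sqRep A' B' hA' hB' :=
  Rep.ofHom
    { toLinearMap := (MonoidHom.toAdditive (sqQuotMap hle hle')).toIntLinearMap
      isIntertwining' := fun g => by
        refine LinearMap.ext fun q => ?_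
        obtain ⟨x, rfl⟩ := sqMk_surjective A B hA hB q
        rfl }

theorem sqRepMap_sqMk (hle : A ≤ A') (hle' : B ≤ B') (x : A) :
    (sqRepMap hA hB hA' hB' hle hle').hom (sqMk A B hA hB x) =
      sqMk A' B' hA' hB' ⟨(x : X), hle x.2⟩ := rfl

theorem sqRepMap_injective_iff (hle : A ≤ A') (hle' : B ≤ B') :
    Function.Injective (sqRepMap hA hB hA' hB' hle hle').hom ↔ ∀ x ∈ A, x ∈ B' → x ∈ B := by
  constructor
  · intro h x hx hxB'
    have h0 : (sqRepMap hA hB hA' hB' hle hle').hom (sqMk A B hA hB ⟨x, hx⟩) = 0 := by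
      rw [sqRepMap_sqMk, sqMk_eq_zero_iff]
      exact hxB'
    have := h (h0.trans (map_zero _).symm)
    exact (sqMk_eq_zero_iff A B hA hB ⟨x, hx⟩).1 this
  · intro h
    rw [injective_iff_map_eq_zero]
    intro q hq
    obtain ⟨x, rfl⟩ := sqMk_surjective A B hA hB q
    rw [sqRepMap_sqMk, sqMk_eq_zero_iff] at hq
    exact (sqMk_eq_zero_iff A B hA hB x).2 (h x x.2 hq)

theorem sqRepMap_surjective_iff (hle : A ≤ A') (hle' : B ≤ B') :
    Function.Surjective (sqRepMap hA hB hA' hB' hle hle').hom ↔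
      ∀ x ∈ A', ∃ a ∈ A, a⁻¹ * x ∈ B' := by
  constructor
  · intro h x hx
    obtain ⟨q, hq⟩ := h (sqMk A' B' hA' hB' ⟨x, hx⟩)
    obtain ⟨a, rfl⟩ := sqMk_surjective A B hA hB q
    rw [sqRepMap_sqMk, sqMk_eq_iff] at hq
    exact ⟨a, a.2, hq⟩
  · intro h q
    obtain ⟨x, rfl⟩ := sqMk_surjective A' B' hA' hB' q
    obtain ⟨a, ha, hax⟩ := h x x.2
    refine ⟨sqMk A B hA hB ⟨a, ha⟩, ?_⟩
    rw [sqRepMap_sqMk, sqMk_eq_iff]
    exact hax

/-- the comparison map is an isomorphism as soon as it is bijective. -/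
noncomputable def sqRepIso (hle : A ≤ A') (hle' : B ≤ B') (hinj : ∀ x ∈ A, x ∈ B' → x ∈ B)
    (hsurj : ∀ x ∈ A', ∃ a ∈ A, a⁻¹ * x ∈ B') : sqRep A B hA hB ≅ sqRep A' B' hA' hB' :=
  haveI := sqRep_isIso_of_bijective (sqRepMap hA hB hA' hB' hle hle')
    ⟨(sqRepMap_injective_iff hA hB hA' hB' hle hle').2 hinj,
      (sqRepMap_surjective_iff hA hB hA' hB' hle hle').2 hsurj⟩
  asIso (sqRepMap hA hB hA' hB' hle hle')

theorem sqRepIso_hom (hle : A ≤ A') (hle' : B ≤ B') (hinj : ∀ x ∈ A, x ∈ B' → x ∈ B)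
    (hsurj : ∀ x ∈ A', ∃ a ∈ A, a⁻¹ * x ∈ B') :
    (sqRepIso hA hB hA' hB' hle hle' hinj hsurj).hom = sqRepMap hA hB hA' hB' hle hle' := rfl

end Map

section Exact

variable {A B C D : Subgroup X} (hA : IsStableSub G A) (hB : IsStableSub G B)
  (hC : IsStableSub G C) (hD : IsStableSub G D) (hBC : B ≤ C) (hDA : D ≤ A)

/-- the short complex `D / B → A / B → A / C` for `B ≤ C`, `D ≤ A ⊓ C`. -/
noncomputable def sqRepSC (hDC : D ≤ C) : ShortComplex (Rep ℤ G) :=
  ShortComplex.mk
    (sqRepMap hD hB hA hB hDA le_rfl)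
    (sqRepMap hA hB hA hC le_rfl hBC)
    (by
      apply Rep.hom_ext
      apply Representation.IntertwiningMap.ext
      refine LinearMap.ext fun q => ?_
      obtain ⟨x, rfl⟩ := sqMk_surjective D B hD hB q
      change (sqRepMap hA hB hA hC le_rfl hBC).hom
        ((sqRepMap hD hB hA hB hDA le_rfl).hom _) = 0
      rw [sqRepMap_sqMk, sqRepMap_sqMk, sqMk_eq_zero_iff]
      exact hDC x.2)

/-- **`D / B → A / B → A / C` is short exact** when `B ≤ C` and `D = A ⊓ C`. -/
theorem sqRepSC_shortExact (hDC : D ≤ C) (hACD : ∀ x ∈ A, x ∈ C → x ∈ D) :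
    (sqRepSC hA hB hC hD hBC hDA hDC).ShortExact := by
  refine sqRep_shortExact_of_elementwise _ ?_ ?_ ?_
  · exact (sqRepMap_injective_iff hD hB hA hB hDA le_rfl).2 fun x _ hx => hx
  · exact (sqRepMap_surjective_iff hA hB hA hC le_rfl hBC).2 fun x hx =>
      ⟨x, hx, by rw [inv_mul_cancel]; exact one_mem _⟩
  · intro q hq
    obtain ⟨x, rfl⟩ := sqMk_surjective A B hA hB q
    change (sqRepMap hA hB hA hC le_rfl hBC).hom _ = 0 at hq
    rw [sqRepMap_sqMk, sqMk_eq_zero_iff] at hq
    exact ⟨sqMk D B hD hB ⟨x, hACD x x.2 hq⟩, rfl⟩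

end Exact

section OfHom

variable {Y : Type} [CommGroup Y] [MulDistribMulAction G Y] {A B : Subgroup X}
  (hA : IsStableSub G A) (hB : IsStableSub G B) (φ : Y →* X)
  (hφ : ∀ (g : G) (y : Y), φ (g • y) = g • φ y) (hr : ∀ y, φ y ∈ A)

/-- the morphism `Y ⟶ A / (A ⊓ B)` induced by an equivariant homomorphism `φ : Y →* X` with
values in `A`. -/
noncomputable def sqRepOfHom : Rep.ofMulDistribMulAction G Y ⟶ sqRep A B hA hB :=
  Rep.ofHom
    { toLinearMap := (MonoidHom.toAdditive
        ((QuotientGroup.mk' (B.subgroupOf A)).comp (φ.codRestrict A hr))).toIntLinearMap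
      isIntertwining' := fun g => by
        refine LinearMap.ext fun y => ?_
        change sqMk A B hA hB ⟨φ (g • Additive.toMul y), hr _⟩ =
          sqMk A B hA hB ⟨g • φ (Additive.toMul y), hA g _ (hr _)⟩
        exact congrArg (sqMk A B hA hB) (Subtype.ext (hφ g _)) }

theorem sqRepOfHom_apply (y : Additive Y) :
    (sqRepOfHom hA hB φ hφ hr).hom y = sqMk A B hA hB ⟨φ (Additive.toMul y), hr _⟩ := rfl

theorem sqRepOfHom_eq_zero_iff (y : Additive Y) :
    (sqRepOfHom hA hB φ hφ hr).hom y = 0 ↔ φ (Additive.toMul y) ∈ B :=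
  sqMk_eq_zero_iff A B hA hB ⟨φ (Additive.toMul y), hr _⟩

theorem sqRepOfHom_injective_iff :
    Function.Injective (sqRepOfHom hA hB φ hφ hr).hom ↔ ∀ y, φ y ∈ B → y = 1 := by
  constructor
  · intro h y hy
    have h0 : (sqRepOfHom hA hB φ hφ hr).hom (Additive.ofMul y) = 0 :=
      (sqRepOfHom_eq_zero_iff hA hB φ hφ hr (Additive.ofMul y)).2 hy
    exact congrArg Additive.toMul (h (h0.trans (map_zero _).symm))
  · intro h
    rw [injective_iff_map_eq_zero]
    intro y hy
    have hy' := (sqRepOfHom_eq_zero_iff hA hB φ hφ hr y).1 hy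
    exact congrArg Additive.ofMul (h _ hy')

theorem sqRepOfHom_surjective_iff :
    Function.Surjective (sqRepOfHom hA hB φ hφ hr).hom ↔ ∀ x ∈ A, ∃ y, (φ y)⁻¹ * x ∈ B := by
  constructor
  · intro h x hx
    obtain ⟨y, hy⟩ := h (sqMk A B hA hB ⟨x, hx⟩)
    have hy' : sqMk A B hA hB ⟨φ (Additive.toMul (y : Additive Y)), hr _⟩ =
        sqMk A B hA hB ⟨x, hx⟩ := hy
    rw [sqMk_eq_iff] at hy'
    exact ⟨Additive.toMul (y : Additive Y), hy'⟩
  · intro h q
    obtain ⟨x, rfl⟩ := sqMk_surjective A B hA hB q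
    obtain ⟨y, hy⟩ := h x x.2
    refine ⟨Additive.ofMul y, ?_⟩
    change sqMk A B hA hB ⟨φ y, hr _⟩ = sqMk A B hA hB x
    rw [sqMk_eq_iff]
    exact hy

/-- `Y ≅ A / (A ⊓ B)` when the induced map is bijective. -/
noncomputable def sqRepOfHomIso (hinj : ∀ y, φ y ∈ B → y = 1)
    (hsurj : ∀ x ∈ A, ∃ y, (φ y)⁻¹ * x ∈ B) :
    Rep.ofMulDistribMulAction G Y ≅ sqRep A B hA hB :=
  haveI := sqRep_isIso_of_bijective (sqRepOfHom hA hB φ hφ hr)
    ⟨(sqRepOfHom_injective_iff hA hB φ hφ hr).2 hinj,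
      (sqRepOfHom_surjective_iff hA hB φ hφ hr).2 hsurj⟩
  asIso (sqRepOfHom hA hB φ hφ hr)

end OfHom

section Smooth

variable {A B : Subgroup X} (hA : IsStableSub G A) (hB : IsStableSub G B)

/-- the subquotient is smooth as soon as every element of `A` is fixed by a member of the
family. -/
theorem isSmooth_sqRep (𝔉 : LevelFamily G)
    (h : ∀ x ∈ A, ∃ U ∈ 𝔉.sets, ∀ u ∈ U, u • x = x) : IsSmooth 𝔉 (sqRep A B hA hB) := by
  intro q
  obtain ⟨x, rfl⟩ := sqMk_surjective A B hA hB q
  obtain ⟨U, hU, hUx⟩ := h x x.2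
  refine ⟨U, hU, fun u hu => ?_⟩
  rw [sqRep_ρ_sqMk]
  exact congrArg (sqMk A B hA hB) (Subtype.ext (hUx u hu))

end Smooth

end Fermat.Agent.PT
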