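/-
CFT, S55 pool, GLOBAL-IDELIC layer, (K0) (helper27): the infinite-level idelic representations of
`Γℚ = Gal(Qb/ℚ)` in the TENSOR MODEL.

* ambient group `slProd = ∏_v (ℚ_v ⊗[ℚ] Qb)ˣ` (`v` the finite places of `ℚ`), `Γℚ` acting on the right
  factor;
* `JFull S` (`𝕁`): elements fixed by a member of `famS S` and integral units almost everywhere;
  `idK S` (`𝕂 = ℚ_Sˣ`, diagonal), `idU S` (`𝕌`: `1` at `S`, integral units off `S`), `idJS S`
  (`J_S`: `1` off `S`), `idE S` (`Ē = J_S ∩ 𝕂𝕌`, the image of the idelic `S`-units `ESid S`);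
* representations (helper29's `sqRep`): `idJRep idKRep idURep idJSRep idERep`, `idCRep = 𝕁/𝕂`,
  `idCSRep = 𝕁/𝕂𝕌`, `idC'Rep = J_S/Ē`, `idClRep = 𝕁/J_S𝕂𝕌`, all smooth for `famS S`;
* short exact sequences `idSeq4` (`𝕂 → 𝕁 → ℂ`), `idSeq3` (`𝕌 → ℂ → ℂ_S`), `idSeq2`
  (`C' → ℂ_S → Cl_∞`), `idSeq1` (`Ē → J_S → C'`), `idSeq1'` (`ESidRep → J_S → C'`);
* base change from a finite level: `slBase v f : ℚ_v ⊗ L → ℚ_v ⊗ Qb` for `f : L →ₐ[ℚ] Qb`.
-/
import Fermat.Agent.CFT.PT.SUnitsRep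
import Fermat.Agent.CFT.PT.SubQuotRep
import Fermat.Agent.CFT.Global.TensorGalois
import Fermat.Agent.CFT.Idele.IntegralSUnits

set_option autoImplicit false

namespace Fermat.Agent.PT

open CategoryTheory Fermat.Agent.CFT IntermediateField NumberField IsDedekindDomain
open scoped TensorProduct Fermat.Agent.CFT.TensorGal

local notation "Qb" => AlgebraicClosure ℚ
local notation "Γℚ" => (AlgebraicClosure ℚ ≃ₐ[ℚ] AlgebraicClosure ℚ)

attribute [local instance] Units.mulDistribMulActionRight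

noncomputable section

/-- the semilocal algebra `ℚ_v ⊗[ℚ] Qb` at infinite level. -/
abbrev slQb (v : HeightOneSpectrum (𝓞 ℚ)) : Type := (v.adicCompletion ℚ) ⊗[ℚ] Qb

/-- the action of `Γℚ` on `(ℚ_v ⊗ Qb)ˣ` (through the right factor). -/
@[reducible] def slQbUnitsAction (v : HeightOneSpectrum (𝓞 ℚ)) :
    MulDistribMulAction Γℚ (slQb v)ˣ := Units.mulDistribMulActionRight

attribute [local instance] slQbUnitsAction

/-- the ambient group `∏_v (ℚ_v ⊗ Qb)ˣ` (a type synonym: the generic instance search on the `Pi`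
type is pathologically slow, so the instances are declared by hand). -/
def slProd : Type := ∀ v : HeightOneSpectrum (𝓞 ℚ), (slQb v)ˣ

instance slProd.instCommGroup : CommGroup slProd :=
  inferInstanceAs (CommGroup (∀ v : HeightOneSpectrum (𝓞 ℚ), (slQb v)ˣ))

/-- the componentwise action of `Γℚ` on `∏_v (ℚ_v ⊗ Qb)ˣ`. -/
instance slProd.instAction : MulDistribMulAction Γℚ slProd :=
  inferInstanceAs (MulDistribMulAction Γℚ (∀ v : HeightOneSpectrum (𝓞 ℚ), (slQb v)ˣ))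

theorem slProd_ext {x y : slProd} (h : ∀ v, x v = y v) : x = y := funext h

@[simp] theorem slProd_one_apply (v : HeightOneSpectrum (𝓞 ℚ)) : (1 : slProd) v = 1 := rfl

@[simp] theorem slProd_mul_apply (x y : slProd) (v : HeightOneSpectrum (𝓞 ℚ)) :
    (x * y) v = x v * y v := rfl

@[simp] theorem slProd_inv_apply (x : slProd) (v : HeightOneSpectrum (𝓞 ℚ)) :
    (x⁻¹) v = (x v)⁻¹ := rfl

theorem slQb_smul_tmul (v : HeightOneSpectrum (𝓞 ℚ)) (g : Γℚ) (a : v.adicCompletion ℚ) (y : Qb) :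
    g • (a ⊗ₜ[ℚ] y : slQb v) = a ⊗ₜ[ℚ] (g y) := by
  rw [tensorRight_smul_tmul]
  rfl

theorem slQb_units_smul_val (v : HeightOneSpectrum (𝓞 ℚ)) (g : Γℚ) (u : (slQb v)ˣ) :
    ((g • u : (slQb v)ˣ) : slQb v) = g • (u : slQb v) := rfl

theorem slProd_smul_apply (g : Γℚ) (x : slProd) (v : HeightOneSpectrum (𝓞 ℚ)) :
    (g • x) v = g • x v := rfl

/-- the integral units of `ℚ_v ⊗ Qb`. -/
def slIntUnits (v : HeightOneSpectrum (𝓞 ℚ)) : Subgroup (slQb v)ˣ :=
  (integralClosure (v.adicCompletionIntegers ℚ) (slQb v)).toSubsemiring.toSubmonoid.units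

theorem mem_slIntUnits_iff {v : HeightOneSpectrum (𝓞 ℚ)} (x : (slQb v)ˣ) :
    x ∈ slIntUnits v ↔ IsIntegral (v.adicCompletionIntegers ℚ) (x : slQb v) ∧
      IsIntegral (v.adicCompletionIntegers ℚ) ((x⁻¹ : (slQb v)ˣ) : slQb v) := by
  rw [slIntUnits, Submonoid.mem_units_iff]
  rfl

theorem isIntegral_slQb_smul {v : HeightOneSpectrum (𝓞 ℚ)} (g : Γℚ) {y : slQb v}
    (hy : IsIntegral (v.adicCompletionIntegers ℚ) y) :
    IsIntegral (v.adicCompletionIntegers ℚ) (g • y) :=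
  hy.map ((tensorRightHom ℚ (v.adicCompletion ℚ) Qb Γℚ g).toAlgHom.restrictScalars
    (v.adicCompletionIntegers ℚ))

theorem smul_mem_slIntUnits {v : HeightOneSpectrum (𝓞 ℚ)} (g : Γℚ) {u : (slQb v)ˣ}
    (hu : u ∈ slIntUnits v) : g • u ∈ slIntUnits v := by
  rw [mem_slIntUnits_iff] at hu ⊢
  refine ⟨isIntegral_slQb_smul g hu.1, ?_⟩
  have : ((g • u)⁻¹ : (slQb v)ˣ) = g • u⁻¹ := (smul_inv' g u).symm
  rw [this]
  exact isIntegral_slQb_smul g hu.2

variable (S : Finset Nat.Primes)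

/-- the places of `ℚ` in `S`. -/
def placesS : Set (HeightOneSpectrum (𝓞 ℚ)) :=
  {v | Rat.HeightOneSpectrum.primesEquiv v ∈ S}

/-- the **full idele group of `ℚ_S`** (finite ideles, tensor model): the elements of
`∏_v (ℚ_v ⊗ Qb)ˣ` which are fixed by a member of `famS S` and integral units almost everywhere. -/
def JFull : Subgroup slProd where
  carrier := {x | (∃ U ∈ (famS S).sets, ∀ g ∈ U, g • x = x) ∧
    ∀ᶠ v in Filter.cofinite, x v ∈ slIntUnits v}
  one_mem' := by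
    refine ⟨?_, Filter.Eventually.of_forall fun v => (slIntUnits v).one_mem⟩
    obtain ⟨U, hU⟩ := (famS S).nonempty
    exact ⟨U, hU, fun g _ => smul_one g⟩
  mul_mem' := by
    rintro x y ⟨⟨U, hU, hx⟩, hx'⟩ ⟨⟨V, hV, hy⟩, hy'⟩
    obtain ⟨W, hW, hle⟩ := (famS S).directed U hU V hV
    refine ⟨⟨W, hW, fun g hg => ?_⟩, ?_⟩
    · rw [smul_mul', hx g (hle hg).1, hy g (hle hg).2]
    · filter_upwards [hx', hy'] with v h1 h2
      exact (slIntUnits v).mul_mem h1 h2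
  inv_mem' := by
    rintro x ⟨⟨U, hU, hx⟩, hx'⟩
    refine ⟨⟨U, hU, fun g hg => ?_⟩, ?_⟩
    · rw [smul_inv', hx g hg]
    · filter_upwards [hx'] with v h1
      exact (slIntUnits v).inv_mem h1

theorem mem_JFull_iff {x : slProd} : x ∈ JFull S ↔ (∃ U ∈ (famS S).sets, ∀ g ∈ U, g • x = x) ∧
    ∀ᶠ v in Filter.cofinite, x v ∈ slIntUnits v := Iff.rfl

theorem smul_mem_JFull (g : Γℚ) {x : slProd} (hx : x ∈ JFull S) : g • x ∈ JFull S := by
  obtain ⟨⟨U, hU, hx⟩, hx'⟩ := hx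
  refine ⟨⟨U, hU, fun u hu => ?_⟩, ?_⟩
  · have hn : U.Normal := (famS S).normal U hU
    have h1 : g⁻¹ * u * g ∈ U := by
      have := hn.conj_mem u hu g⁻¹
      rwa [inv_inv] at this
    have h2 := hx _ h1
    rw [← mul_smul, show u * g = g * (g⁻¹ * u * g) by group, mul_smul, h2]
  · filter_upwards [hx'] with v h1
    exact smul_mem_slIntUnits g h1


/-! ### the diagonal embeddings -/

/-- `x ↦ 1 ⊗ x`, `Qbˣ → (ℚ_v ⊗ Qb)ˣ`. -/
def slIncl (v : HeightOneSpectrum (𝓞 ℚ)) : Qbˣ →* (slQb v)ˣ :=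
  Units.map ((Algebra.TensorProduct.includeRight : Qb →ₐ[ℚ] slQb v) : Qb →* slQb v)

theorem slIncl_val (v : HeightOneSpectrum (𝓞 ℚ)) (x : Qbˣ) :
    ((slIncl v x : (slQb v)ˣ) : slQb v) = (1 : v.adicCompletion ℚ) ⊗ₜ[ℚ] (x : Qb) := rfl

theorem slIncl_injective (v : HeightOneSpectrum (𝓞 ℚ)) : Function.Injective (slIncl v) := by
  intro x y hxy
  have h := congrArg (fun u : (slQb v)ˣ => (u : slQb v)) hxy
  simp only [slIncl_val] at h
  exact Units.ext (Algebra.TensorProduct.includeRight_injective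
    (algebraMap ℚ (v.adicCompletion ℚ)).injective h)

theorem slIncl_smul (v : HeightOneSpectrum (𝓞 ℚ)) (g : Γℚ) (x : Qbˣ) :
    slIncl v (Units.map (g : Qb →* Qb) x) = g • slIncl v x := by
  apply Units.ext
  rw [slQb_units_smul_val, slIncl_val, slIncl_val, slQb_smul_tmul]
  rfl

/-- the diagonal embedding `Qbˣ → ∏_v (ℚ_v ⊗ Qb)ˣ`. -/
def slDiag : Qbˣ →* slProd where
  toFun x := fun v => slIncl v x
  map_one' := funext fun v => map_one (slIncl v)
  map_mul' x y := funext fun v => map_mul (slIncl v) x y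

theorem slDiag_apply (x : Qbˣ) (v : HeightOneSpectrum (𝓞 ℚ)) : slDiag x v = slIncl v x := rfl

theorem slDiag_smul (g : Γℚ) (x : Qbˣ) :
    slDiag (Units.map (g : Qb →* Qb) x) = g • slDiag x :=
  funext fun v => slIncl_smul v g x

open Classical in
/-- the diagonal embedding into the `S`-components only. -/
def slDiagS : Qbˣ →* slProd where
  toFun x := fun v => if v ∈ placesS S then slIncl v x else 1
  map_one' := funext fun v => by
    by_cases hv : v ∈ placesS S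
    · simp only [if_pos hv, map_one]; rfl
    · simp only [if_neg hv]; rfl
  map_mul' x y := funext fun v => by
    show (if v ∈ placesS S then slIncl v (x * y) else 1) =
      (if v ∈ placesS S then slIncl v x else 1) * (if v ∈ placesS S then slIncl v y else 1)
    by_cases hv : v ∈ placesS S
    · rw [if_pos hv, if_pos hv, if_pos hv, map_mul]
    · rw [if_neg hv, if_neg hv, if_neg hv, mul_one]

theorem slDiagS_apply_of_mem (x : Qbˣ) {v : HeightOneSpectrum (𝓞 ℚ)} (hv : v ∈ placesS S) :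
    slDiagS S x v = slIncl v x := by
  classical
  exact if_pos hv

theorem slDiagS_apply_of_notMem (x : Qbˣ) {v : HeightOneSpectrum (𝓞 ℚ)} (hv : v ∉ placesS S) :
    slDiagS S x v = 1 := by
  classical
  exact if_neg hv

theorem slDiagS_smul (g : Γℚ) (x : Qbˣ) :
    slDiagS S (Units.map (g : Qb →* Qb) x) = g • slDiagS S x := by
  funext v
  by_cases hv : v ∈ placesS S
  · rw [slProd_smul_apply, slDiagS_apply_of_mem S _ hv, slDiagS_apply_of_mem S _ hv, slIncl_smul]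
  · rw [slProd_smul_apply, slDiagS_apply_of_notMem S _ hv, slDiagS_apply_of_notMem S _ hv, smul_one]

/-! ### base change from a finite level -/

section Base

variable {L : Type} [Field L] [Algebra ℚ L]

/-- the base change map `ℚ_v ⊗ L → ℚ_v ⊗ Qb` along an embedding `L → Qb`. -/
def slBase (v : HeightOneSpectrum (𝓞 ℚ)) (f : L →ₐ[ℚ] Qb) :
    (v.adicCompletion ℚ) ⊗[ℚ] L →ₐ[v.adicCompletion ℚ] slQb v :=
  Algebra.TensorProduct.map (AlgHom.id (v.adicCompletion ℚ) (v.adicCompletion ℚ)) f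

@[simp] theorem slBase_tmul (v : HeightOneSpectrum (𝓞 ℚ)) (f : L →ₐ[ℚ] Qb)
    (a : v.adicCompletion ℚ) (y : L) : slBase v f (a ⊗ₜ[ℚ] y) = a ⊗ₜ[ℚ] f y := by
  rw [slBase, Algebra.TensorProduct.map_tmul]
  rfl

theorem slBase_injective (v : HeightOneSpectrum (𝓞 ℚ)) (f : L →ₐ[ℚ] Qb) :
    Function.Injective (slBase v f) := by
  have h : (slBase v f : (v.adicCompletion ℚ) ⊗[ℚ] L → slQb v) =
      (f.toLinearMap.lTensor (v.adicCompletion ℚ)) := by
    funext z
    induction z using TensorProduct.induction_on with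
    | zero => simp
    | tmul a y => simp
    | add x y hx hy => rw [map_add, hx, hy, map_add]
  rw [h]
  exact Module.Flat.lTensor_preserves_injective_linearMap _ f.injective

theorem isIntegral_slBase {v : HeightOneSpectrum (𝓞 ℚ)} (f : L →ₐ[ℚ] Qb)
    {z : (v.adicCompletion ℚ) ⊗[ℚ] L} (hz : IsIntegral (v.adicCompletionIntegers ℚ) z) :
    IsIntegral (v.adicCompletionIntegers ℚ) (slBase v f z) :=
  hz.map ((slBase v f).restrictScalars (v.adicCompletionIntegers ℚ))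

end Base


variable (S : Finset Nat.Primes)

theorem slIncl_smul' (v : HeightOneSpectrum (𝓞 ℚ)) (g : Γℚ) (x : Qbˣ) :
    slIncl v (g • x) = g • slIncl v x := slIncl_smul v g x

theorem slDiag_smul' (g : Γℚ) (x : Qbˣ) : slDiag (g • x) = g • slDiag x := slDiag_smul g x

theorem slDiagS_smul' (g : Γℚ) (x : Qbˣ) : slDiagS S (g • x) = g • slDiagS S x :=
  slDiagS_smul S g x

theorem slDiag_injective : Function.Injective slDiag := by
  intro x y h
  obtain ⟨v⟩ : Nonempty (HeightOneSpectrum (𝓞 ℚ)) :=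
    ⟨Rat.HeightOneSpectrum.primesEquiv.symm ⟨2, Nat.prime_two⟩⟩
  exact slIncl_injective v (congrFun h v)

/-- the units of `ℚ_S`. -/
def QSU : Subgroup Qbˣ where
  carrier := {x | (x : Qb) ∈ QS S}
  one_mem' := by
    show ((1 : Qbˣ) : Qb) ∈ QS S
    rw [Units.val_one]; exact one_mem _
  mul_mem' := by
    intro x y hx hy
    show ((x * y : Qbˣ) : Qb) ∈ QS S
    rw [Units.val_mul]; exact mul_mem hx hy
  inv_mem' := by
    intro x hx
    show ((x⁻¹ : Qbˣ) : Qb) ∈ QS S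
    rw [Units.val_inv_eq_inv_val]; exact inv_mem hx

theorem mem_QSU_iff {x : Qbˣ} : x ∈ QSU S ↔ (x : Qb) ∈ QS S := Iff.rfl

theorem smul_mem_QSU (g : Γℚ) {x : Qbˣ} (hx : x ∈ QSU S) : g • x ∈ QSU S :=
  smul_mem_QS S g hx

theorem ES_le_QSU : ES S ≤ QSU S := fun _ hx => hx.1

/-- every element of `ℚ_S` is fixed by a member of `famS S`. -/
theorem exists_famS_forall_apply_eq {x : Qb} (hx : x ∈ QS S) :
    ∃ U ∈ (famS S).sets, ∀ g ∈ U, g x = x := by
  have hF := isUnramifiedOutside_adjoin_of_mem_QS S hx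
  refine ⟨(galClosure ℚ⟮x⟯).fixingSubgroup,
    ⟨_, IsUnramifiedOutside.galClosure hF, galClosure_fixingSubgroup_normal _, rfl⟩, fun u hu => ?_⟩
  exact (IntermediateField.mem_fixingSubgroup_iff _ _).1 hu _
    (le_galClosure _ (mem_adjoin_simple_self ℚ _))

theorem exists_famS_forall_smul_eq {x : Qbˣ} (hx : x ∈ QSU S) :
    ∃ U ∈ (famS S).sets, ∀ g ∈ U, g • x = x := by
  obtain ⟨U, hU, h⟩ := exists_famS_forall_apply_eq S hx
  exact ⟨U, hU, fun g hg => Units.ext (h g hg)⟩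

/-- `1 ⊗ x` is integral for almost all `v`. -/
theorem eventually_isIntegral_slIncl (x : Qb) :
    ∀ᶠ v : HeightOneSpectrum (𝓞 ℚ) in Filter.cofinite,
      IsIntegral (v.adicCompletionIntegers ℚ) ((1 : v.adicCompletion ℚ) ⊗ₜ[ℚ] x : slQb v) := by
  have hx : IsIntegral ℚ x := (AlgebraicClosure.isAlgebraic ℚ).isIntegral.isIntegral x
  have : FiniteDimensional ℚ ℚ⟮x⟯ := adjoin.finiteDimensional hx
  have : NumberField ℚ⟮x⟯ := ⟨⟩
  have h := eventually_isIntegral_semiLocalIncl (K := ℚ) (L := ℚ⟮x⟯)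
    (⟨x, mem_adjoin_simple_self ℚ x⟩ : ℚ⟮x⟯)
  filter_upwards [h] with v hv
  have := isIntegral_slBase (v := v) (ℚ⟮x⟯).val hv
  rwa [show semiLocalIncl ℚ ℚ⟮x⟯ v ⟨x, mem_adjoin_simple_self ℚ x⟩ =
    (1 : v.adicCompletion ℚ) ⊗ₜ[ℚ] (⟨x, mem_adjoin_simple_self ℚ x⟩ : ℚ⟮x⟯) from rfl,
    slBase_tmul] at this

theorem eventually_slIncl_mem_slIntUnits (x : Qbˣ) :
    ∀ᶠ v : HeightOneSpectrum (𝓞 ℚ) in Filter.cofinite, slIncl v x ∈ slIntUnits v := by
  filter_upwards [eventually_isIntegral_slIncl (x : Qb),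
    eventually_isIntegral_slIncl ((x⁻¹ : Qbˣ) : Qb)] with v h1 h2
  rw [mem_slIntUnits_iff]
  refine ⟨h1, ?_⟩
  rw [← map_inv]
  exact h2

theorem slDiag_mem_JFull {x : Qbˣ} (hx : x ∈ QSU S) : slDiag x ∈ JFull S := by
  obtain ⟨U, hU, h⟩ := exists_famS_forall_smul_eq S hx
  refine ⟨⟨U, hU, fun g hg => ?_⟩, eventually_slIncl_mem_slIntUnits x⟩
  rw [← slDiag_smul', h g hg]


/-! ### the subgroups -/

/-- the principal ideles `𝕂 = ℚ_Sˣ` (diagonal). -/
def idK : Subgroup slProd := (QSU S).map slDiag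

theorem mem_idK_iff {x : slProd} : x ∈ idK S ↔ ∃ y ∈ QSU S, slDiag y = x := Subgroup.mem_map

theorem idK_le_JFull : idK S ≤ JFull S := by
  rintro _ ⟨y, hy, rfl⟩
  exact slDiag_mem_JFull S hy

theorem isStableSub_JFull : IsStableSub Γℚ (JFull S) := fun g _ hx => smul_mem_JFull S g hx

theorem isStableSub_idK : IsStableSub Γℚ (idK S) := by
  rintro g _ ⟨y, hy, rfl⟩
  exact ⟨g • y, smul_mem_QSU S g hy, slDiag_smul' g y⟩

/-- the unit ideles outside `S`: `𝕌 = ∏_{v ∉ S} O_vˣ` (smooth part). -/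
def idU : Subgroup slProd where
  carrier := {x | x ∈ JFull S ∧ (∀ v ∈ placesS S, x v = 1) ∧ ∀ v ∉ placesS S, x v ∈ slIntUnits v}
  one_mem' := ⟨one_mem _, fun _ _ => rfl, fun v _ => one_mem _⟩
  mul_mem' := by
    rintro x y ⟨hx, hx1, hx2⟩ ⟨hy, hy1, hy2⟩
    refine ⟨mul_mem hx hy, fun v hv => ?_, fun v hv => ?_⟩
    · rw [slProd_mul_apply, hx1 v hv, hy1 v hv, mul_one]
    · rw [slProd_mul_apply]; exact mul_mem (hx2 v hv) (hy2 v hv)
  inv_mem' := by
    rintro x ⟨hx, hx1, hx2⟩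
    refine ⟨inv_mem hx, fun v hv => ?_, fun v hv => ?_⟩
    · rw [slProd_inv_apply, hx1 v hv, inv_one]
    · rw [slProd_inv_apply]; exact inv_mem (hx2 v hv)

theorem mem_idU_iff {x : slProd} : x ∈ idU S ↔ x ∈ JFull S ∧ (∀ v ∈ placesS S, x v = 1) ∧
    ∀ v ∉ placesS S, x v ∈ slIntUnits v := Iff.rfl

theorem idU_le_JFull : idU S ≤ JFull S := fun _ hx => hx.1

theorem isStableSub_idU : IsStableSub Γℚ (idU S) := by
  rintro g x ⟨hx, hx1, hx2⟩
  refine ⟨smul_mem_JFull S g hx, fun v hv => ?_, fun v hv => ?_⟩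
  · rw [slProd_smul_apply, hx1 v hv, smul_one]
  · rw [slProd_smul_apply]; exact smul_mem_slIntUnits g (hx2 v hv)

/-- the `S`-ideles `J_S = ∏_{v ∈ S} (ℚ_v ⊗ ℚ_S)ˣ` (smooth part). -/
def idJS : Subgroup slProd where
  carrier := {x | x ∈ JFull S ∧ ∀ v ∉ placesS S, x v = 1}
  one_mem' := ⟨one_mem _, fun _ _ => rfl⟩
  mul_mem' := by
    rintro x y ⟨hx, hx1⟩ ⟨hy, hy1⟩
    refine ⟨mul_mem hx hy, fun v hv => ?_⟩
    rw [slProd_mul_apply, hx1 v hv, hy1 v hv, mul_one]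
  inv_mem' := by
    rintro x ⟨hx, hx1⟩
    refine ⟨inv_mem hx, fun v hv => ?_⟩
    rw [slProd_inv_apply, hx1 v hv, inv_one]

theorem mem_idJS_iff {x : slProd} : x ∈ idJS S ↔ x ∈ JFull S ∧ ∀ v ∉ placesS S, x v = 1 := Iff.rfl

theorem idJS_le_JFull : idJS S ≤ JFull S := fun _ hx => hx.1

theorem isStableSub_idJS : IsStableSub Γℚ (idJS S) := by
  rintro g x ⟨hx, hx1⟩
  refine ⟨smul_mem_JFull S g hx, fun v hv => ?_⟩
  rw [slProd_smul_apply, hx1 v hv, smul_one]

/-- the idelic `S`-units of `ℚ_S`: the elements of `ℚ_Sˣ` which are integral units of `ℚ_v ⊗ Qb`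
at all `v ∉ S`.  (It is equal to helper21's `ES S`: see `ESid_eq_ES`.) -/
def ESid : Subgroup Qbˣ where
  carrier := {y | y ∈ QSU S ∧ ∀ v ∉ placesS S, slIncl v y ∈ slIntUnits v}
  one_mem' := ⟨one_mem _, fun v _ => by rw [map_one]; exact one_mem _⟩
  mul_mem' := by
    rintro x y ⟨hx, hx1⟩ ⟨hy, hy1⟩
    exact ⟨mul_mem hx hy, fun v hv => by rw [map_mul]; exact mul_mem (hx1 v hv) (hy1 v hv)⟩
  inv_mem' := by
    rintro x ⟨hx, hx1⟩
    exact ⟨inv_mem hx, fun v hv => by rw [map_inv]; exact inv_mem (hx1 v hv)⟩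

theorem mem_ESid_iff {y : Qbˣ} : y ∈ ESid S ↔ y ∈ QSU S ∧ ∀ v ∉ placesS S, slIncl v y ∈ slIntUnits v :=
  Iff.rfl

theorem smul_mem_ESid (g : Γℚ) {y : Qbˣ} (hy : y ∈ ESid S) : g • y ∈ ESid S := by
  refine ⟨smul_mem_QSU S g hy.1, fun v hv => ?_⟩
  rw [slIncl_smul']
  exact smul_mem_slIntUnits g (hy.2 v hv)

theorem slDiagS_mem_JFull {y : Qbˣ} (hy : y ∈ QSU S) : slDiagS S y ∈ JFull S := by
  obtain ⟨U, hU, h⟩ := exists_famS_forall_smul_eq S hy
  refine ⟨⟨U, hU, fun g hg => ?_⟩, ?_⟩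
  · rw [← slDiagS_smul', h g hg]
  · filter_upwards [eventually_slIncl_mem_slIntUnits y] with v hv
    by_cases hvS : v ∈ placesS S
    · rw [slDiagS_apply_of_mem S _ hvS]; exact hv
    · rw [slDiagS_apply_of_notMem S _ hvS]; exact one_mem _

theorem slDiagS_mem_idJS {y : Qbˣ} (hy : y ∈ QSU S) : slDiagS S y ∈ idJS S :=
  ⟨slDiagS_mem_JFull S hy, fun _ hv => slDiagS_apply_of_notMem S _ hv⟩

/-- the image `Ē` of the idelic `S`-units in `J_S`. -/
def idE : Subgroup slProd := (ESid S).map (slDiagS S)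

theorem mem_idE_iff {x : slProd} : x ∈ idE S ↔ ∃ y ∈ ESid S, slDiagS S y = x := Subgroup.mem_map

theorem idE_le_idJS : idE S ≤ idJS S := by
  rintro _ ⟨y, hy, rfl⟩
  exact slDiagS_mem_idJS S hy.1

theorem isStableSub_idE : IsStableSub Γℚ (idE S) := by
  rintro g _ ⟨y, hy, rfl⟩
  exact ⟨g • y, smul_mem_ESid S g hy, slDiagS_smul' S g y⟩

theorem idE_le_sup : idE S ≤ idK S ⊔ idU S := by
  rintro _ ⟨y, hy, rfl⟩
  have h : slDiagS S y = slDiag y * ((slDiag y)⁻¹ * slDiagS S y) := by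
    rw [mul_inv_cancel_left]
  rw [h]
  refine Subgroup.mul_mem_sup ⟨y, hy.1, rfl⟩ ⟨?_, fun v hv => ?_, fun v hv => ?_⟩
  · exact mul_mem (inv_mem (slDiag_mem_JFull S hy.1)) (slDiagS_mem_JFull S hy.1)
  · rw [slProd_mul_apply, slProd_inv_apply, slDiagS_apply_of_mem S _ hv, slDiag_apply,
      inv_mul_cancel]
  · rw [slProd_mul_apply, slProd_inv_apply, slDiagS_apply_of_notMem S _ hv, slDiag_apply, mul_one]
    exact inv_mem (hy.2 v hv)

/-- `J_S ∩ 𝕂𝕌 = Ē`. -/
theorem mem_idE_of_mem_idJS_of_mem_sup {x : slProd} (hx : x ∈ idJS S) (hx' : x ∈ idK S ⊔ idU S) :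
    x ∈ idE S := by
  obtain ⟨k, ⟨y, hy, rfl⟩, u, hu, rfl⟩ := Subgroup.mem_sup.1 hx'
  have hyE : y ∈ ESid S := by
    refine ⟨hy, fun v hv => ?_⟩
    have h1 := hx.2 v hv
    rw [slProd_mul_apply, slDiag_apply] at h1
    rw [eq_inv_of_mul_eq_one_left h1]
    exact inv_mem (hu.2.2 v hv)
  refine ⟨y, hyE, ?_⟩
  funext v
  by_cases hv : v ∈ placesS S
  · rw [slDiagS_apply_of_mem S _ hv, slProd_mul_apply, hu.2.1 v hv, mul_one, slDiag_apply]
  · rw [slDiagS_apply_of_notMem S _ hv]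
    exact (hx.2 v hv).symm

/-- `𝕌 ∩ 𝕂 = 1` when `S` is nonempty. -/
theorem eq_one_of_mem_idU_of_mem_idK (hS : S.Nonempty) {x : slProd} (hx : x ∈ idU S)
    (hx' : x ∈ idK S) : x = 1 := by
  obtain ⟨y, -, rfl⟩ := hx'
  obtain ⟨q, hq⟩ := hS
  have hv : Rat.HeightOneSpectrum.primesEquiv.symm q ∈ placesS S := by
    show Rat.HeightOneSpectrum.primesEquiv (Rat.HeightOneSpectrum.primesEquiv.symm q) ∈ S
    rw [Equiv.apply_symm_apply]; exact hq
  have h1 := hx.2.1 _ hv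
  rw [slDiag_apply] at h1
  have : y = 1 := slIncl_injective _ (h1.trans (map_one _).symm)
  rw [this, map_one]



/-! ### the representations -/

theorem isStableSub_idKU : IsStableSub Γℚ (idK S ⊔ idU S) :=
  (isStableSub_idK S).sup (isStableSub_idU S)

theorem isStableSub_idJSKU : IsStableSub Γℚ (idJS S ⊔ (idK S ⊔ idU S)) :=
  (isStableSub_idJS S).sup (isStableSub_idKU S)

theorem idKU_le_JFull : idK S ⊔ idU S ≤ JFull S := sup_le (idK_le_JFull S) (idU_le_JFull S)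

theorem exists_famS_of_mem_JFull {x : slProd} (hx : x ∈ JFull S) :
    ∃ U ∈ (famS S).sets, ∀ u ∈ U, u • x = x := hx.1

/-- `𝕁`: the ideles of `ℚ_S` as a representation of `Γℚ`. -/
abbrev idJRep : Rep ℤ Γℚ := sqRep (JFull S) ⊥ (isStableSub_JFull S) IsStableSub.bot

/-- `𝕂 = ℚ_Sˣ` as a representation of `Γℚ`. -/
abbrev idKRep : Rep ℤ Γℚ := sqRep (idK S) ⊥ (isStableSub_idK S) IsStableSub.bot

/-- `𝕌` as a representation of `Γℚ`. -/
abbrev idURep : Rep ℤ Γℚ := sqRep (idU S) ⊥ (isStableSub_idU S) IsStableSub.bot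

/-- `J_S` (the `S`-components) as a representation of `Γℚ`. -/
abbrev idJSRep : Rep ℤ Γℚ := sqRep (idJS S) ⊥ (isStableSub_idJS S) IsStableSub.bot

/-- `Ē` (the idelic `S`-units embedded in `J_S`) as a representation of `Γℚ`. -/
abbrev idERep : Rep ℤ Γℚ := sqRep (idE S) ⊥ (isStableSub_idE S) IsStableSub.bot

/-- `ℂ = 𝕁 / 𝕂`: the idele class group of `ℚ_S`. -/
abbrev idCRep : Rep ℤ Γℚ := sqRep (JFull S) (idK S) (isStableSub_JFull S) (isStableSub_idK S)

/-- `ℂ_S = 𝕁 / 𝕂𝕌`: the `S`-idele class group of `ℚ_S`. -/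
abbrev idCSRep : Rep ℤ Γℚ :=
  sqRep (JFull S) (idK S ⊔ idU S) (isStableSub_JFull S) (isStableSub_idKU S)

/-- `C' = J_S / Ē = J_S 𝕂𝕌 / 𝕂𝕌`: the cokernel of `E_S → J_S`. -/
abbrev idC'Rep : Rep ℤ Γℚ :=
  sqRep (idJS S) (idK S ⊔ idU S) (isStableSub_idJS S) (isStableSub_idKU S)

/-- `Cl_∞ = 𝕁 / J_S 𝕂𝕌`: the limit of the `S`-class groups. -/
abbrev idClRep : Rep ℤ Γℚ :=
  sqRep (JFull S) (idJS S ⊔ (idK S ⊔ idU S)) (isStableSub_JFull S) (isStableSub_idJSKU S)

theorem isSmooth_idJRep : IsSmooth (famS S) (idJRep S) :=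
  isSmooth_sqRep _ _ _ fun _ hx => exists_famS_of_mem_JFull S hx

theorem isSmooth_idKRep : IsSmooth (famS S) (idKRep S) :=
  isSmooth_sqRep _ _ _ fun _ hx => exists_famS_of_mem_JFull S (idK_le_JFull S hx)

theorem isSmooth_idURep : IsSmooth (famS S) (idURep S) :=
  isSmooth_sqRep _ _ _ fun _ hx => exists_famS_of_mem_JFull S (idU_le_JFull S hx)

theorem isSmooth_idJSRep : IsSmooth (famS S) (idJSRep S) :=
  isSmooth_sqRep _ _ _ fun _ hx => exists_famS_of_mem_JFull S (idJS_le_JFull S hx)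

theorem isSmooth_idERep : IsSmooth (famS S) (idERep S) :=
  isSmooth_sqRep _ _ _ fun _ hx =>
    exists_famS_of_mem_JFull S (idJS_le_JFull S (idE_le_idJS S hx))

theorem isSmooth_idCRep : IsSmooth (famS S) (idCRep S) :=
  isSmooth_sqRep _ _ _ fun _ hx => exists_famS_of_mem_JFull S hx

theorem isSmooth_idCSRep : IsSmooth (famS S) (idCSRep S) :=
  isSmooth_sqRep _ _ _ fun _ hx => exists_famS_of_mem_JFull S hx

theorem isSmooth_idC'Rep : IsSmooth (famS S) (idC'Rep S) :=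
  isSmooth_sqRep _ _ _ fun _ hx => exists_famS_of_mem_JFull S (idJS_le_JFull S hx)

theorem isSmooth_idClRep : IsSmooth (famS S) (idClRep S) :=
  isSmooth_sqRep _ _ _ fun _ hx => exists_famS_of_mem_JFull S hx

/-! ### the four short exact sequences -/

/-- (S4) `0 → 𝕂 → 𝕁 → ℂ → 0`. -/
def idSeq4 : ShortComplex (Rep ℤ Γℚ) :=
  sqRepSC (isStableSub_JFull S) IsStableSub.bot (isStableSub_idK S) (isStableSub_idK S)
    bot_le (idK_le_JFull S) le_rfl

theorem idSeq4_shortExact : (idSeq4 S).ShortExact :=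
  sqRepSC_shortExact _ _ _ _ _ _ _ fun _ _ hx => hx

theorem idSeq4_X₁ : (idSeq4 S).X₁ = idKRep S := rfl
theorem idSeq4_X₂ : (idSeq4 S).X₂ = idJRep S := rfl
theorem idSeq4_X₃ : (idSeq4 S).X₃ = idCRep S := rfl

/-- the map `𝕌 → ℂ`. -/
def idUToC : idURep S ⟶ idCRep S :=
  sqRepMap (isStableSub_idU S) IsStableSub.bot (isStableSub_JFull S) (isStableSub_idK S)
    (idU_le_JFull S) bot_le

/-- the map `ℂ → ℂ_S`. -/
def idCToCS : idCRep S ⟶ idCSRep S :=
  sqRepMap (isStableSub_JFull S) (isStableSub_idK S) (isStableSub_JFull S) (isStableSub_idKU S)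
    le_rfl le_sup_left

theorem idUToC_sqMk (x : idU S) :
    (idUToC S).hom (sqMk (idU S) ⊥ (isStableSub_idU S) IsStableSub.bot x) =
      sqMk (JFull S) (idK S) (isStableSub_JFull S) (isStableSub_idK S)
        ⟨(x : slProd), idU_le_JFull S x.2⟩ := rfl

theorem idCToCS_sqMk (x : JFull S) :
    (idCToCS S).hom (sqMk (JFull S) (idK S) (isStableSub_JFull S) (isStableSub_idK S) x) =
      sqMk (JFull S) (idK S ⊔ idU S) (isStableSub_JFull S) (isStableSub_idKU S) x := rfl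

/-- (S3) `0 → 𝕌 → ℂ → ℂ_S → 0`. -/
def idSeq3 : ShortComplex (Rep ℤ Γℚ) :=
  ShortComplex.mk (idUToC S) (idCToCS S) (by
    apply Rep.hom_ext
    apply Representation.IntertwiningMap.ext
    refine LinearMap.ext fun q => ?_
    obtain ⟨x, rfl⟩ := sqMk_surjective (idU S) ⊥ (isStableSub_idU S) IsStableSub.bot q
    change (idCToCS S).hom ((idUToC S).hom _) = 0
    rw [idUToC_sqMk, idCToCS_sqMk, sqMk_eq_zero_iff]
    exact Subgroup.mem_sup_right x.2)

theorem idSeq3_shortExact (hS : S.Nonempty) : (idSeq3 S).ShortExact := by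
  refine sqRep_shortExact_of_elementwise _ ?_ ?_ ?_
  · refine (sqRepMap_injective_iff _ _ _ _ _ _).2 fun x hx hx' => ?_
    rw [Subgroup.mem_bot]
    exact eq_one_of_mem_idU_of_mem_idK S hS hx hx'
  · exact (sqRepMap_surjective_iff _ _ _ _ _ _).2 fun x hx =>
      ⟨x, hx, by rw [inv_mul_cancel]; exact one_mem _⟩
  · intro q hq
    obtain ⟨x, rfl⟩ := sqMk_surjective (JFull S) (idK S) (isStableSub_JFull S)
      (isStableSub_idK S) q
    change (idCToCS S).hom _ = 0 at hq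
    rw [idCToCS_sqMk, sqMk_eq_zero_iff] at hq
    obtain ⟨k, hk, u, hu, hku⟩ := Subgroup.mem_sup.1 hq
    refine ⟨sqMk (idU S) ⊥ (isStableSub_idU S) IsStableSub.bot ⟨u, hu⟩, ?_⟩
    change (idUToC S).hom _ = _
    rw [idUToC_sqMk, sqMk_eq_iff]
    show u⁻¹ * (x : slProd) ∈ idK S
    rw [← hku, mul_comm k u, inv_mul_cancel_left]
    exact hk

theorem idSeq3_X₁ : (idSeq3 S).X₁ = idURep S := rfl
theorem idSeq3_X₂ : (idSeq3 S).X₂ = idCRep S := rfl
theorem idSeq3_X₃ : (idSeq3 S).X₃ = idCSRep S := rfl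

/-- the map `C' → ℂ_S`. -/
def idC'ToCS : idC'Rep S ⟶ idCSRep S :=
  sqRepMap (isStableSub_idJS S) (isStableSub_idKU S) (isStableSub_JFull S) (isStableSub_idKU S)
    (idJS_le_JFull S) le_rfl

/-- the map `ℂ_S → Cl_∞`. -/
def idCSToCl : idCSRep S ⟶ idClRep S :=
  sqRepMap (isStableSub_JFull S) (isStableSub_idKU S) (isStableSub_JFull S)
    (isStableSub_idJSKU S) le_rfl le_sup_right

theorem idC'ToCS_sqMk (x : idJS S) :
    (idC'ToCS S).hom (sqMk (idJS S) (idK S ⊔ idU S) (isStableSub_idJS S) (isStableSub_idKU S) x) =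
      sqMk (JFull S) (idK S ⊔ idU S) (isStableSub_JFull S) (isStableSub_idKU S)
        ⟨(x : slProd), idJS_le_JFull S x.2⟩ := rfl

theorem idCSToCl_sqMk (x : JFull S) :
    (idCSToCl S).hom (sqMk (JFull S) (idK S ⊔ idU S) (isStableSub_JFull S)
      (isStableSub_idKU S) x) =
      sqMk (JFull S) (idJS S ⊔ (idK S ⊔ idU S)) (isStableSub_JFull S) (isStableSub_idJSKU S) x :=
  rfl

theorem idC'ToCS_injective : Function.Injective (idC'ToCS S).hom :=
  (sqRepMap_injective_iff _ _ _ _ _ _).2 fun _ _ hx' => hx'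

/-- (S2) `0 → C' → ℂ_S → Cl_∞ → 0`. -/
def idSeq2 : ShortComplex (Rep ℤ Γℚ) :=
  ShortComplex.mk (idC'ToCS S) (idCSToCl S) (by
    apply Rep.hom_ext
    apply Representation.IntertwiningMap.ext
    refine LinearMap.ext fun q => ?_
    obtain ⟨x, rfl⟩ := sqMk_surjective (idJS S) (idK S ⊔ idU S) (isStableSub_idJS S)
      (isStableSub_idKU S) q
    change (idCSToCl S).hom ((idC'ToCS S).hom _) = 0
    rw [idC'ToCS_sqMk, idCSToCl_sqMk, sqMk_eq_zero_iff]
    exact Subgroup.mem_sup_left x.2)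

theorem idSeq2_shortExact : (idSeq2 S).ShortExact := by
  refine sqRep_shortExact_of_elementwise _ (idC'ToCS_injective S) ?_ ?_
  · exact (sqRepMap_surjective_iff _ _ _ _ _ _).2 fun x hx =>
      ⟨x, hx, by rw [inv_mul_cancel]; exact one_mem _⟩
  · intro q hq
    obtain ⟨x, rfl⟩ := sqMk_surjective (JFull S) (idK S ⊔ idU S) (isStableSub_JFull S)
      (isStableSub_idKU S) q
    change (idCSToCl S).hom _ = 0 at hq
    rw [idCSToCl_sqMk, sqMk_eq_zero_iff] at hq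
    obtain ⟨j, hj, k, hk, hjk⟩ := Subgroup.mem_sup.1 hq
    refine ⟨sqMk (idJS S) (idK S ⊔ idU S) (isStableSub_idJS S) (isStableSub_idKU S) ⟨j, hj⟩, ?_⟩
    change (idC'ToCS S).hom _ = _
    rw [idC'ToCS_sqMk, sqMk_eq_iff]
    show j⁻¹ * (x : slProd) ∈ idK S ⊔ idU S
    rw [← hjk, inv_mul_cancel_left]
    exact hk

theorem idSeq2_X₁ : (idSeq2 S).X₁ = idC'Rep S := rfl
theorem idSeq2_X₂ : (idSeq2 S).X₂ = idCSRep S := rfl
theorem idSeq2_X₃ : (idSeq2 S).X₃ = idClRep S := rfl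

/-- (S1) `0 → Ē → J_S → C' → 0`. -/
def idSeq1 : ShortComplex (Rep ℤ Γℚ) :=
  sqRepSC (isStableSub_idJS S) IsStableSub.bot (isStableSub_idKU S) (isStableSub_idE S)
    bot_le (idE_le_idJS S) (idE_le_sup S)

theorem idSeq1_shortExact : (idSeq1 S).ShortExact :=
  sqRepSC_shortExact _ _ _ _ _ _ _ fun _ hx hx' => mem_idE_of_mem_idJS_of_mem_sup S hx hx'

theorem idSeq1_X₁ : (idSeq1 S).X₁ = idERep S := rfl
theorem idSeq1_X₂ : (idSeq1 S).X₂ = idJSRep S := rfl
theorem idSeq1_X₃ : (idSeq1 S).X₃ = idC'Rep S := rfl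



/-! ### the idelic `S`-units as a representation, and `Ē` -/

/-- the Galois action on the idelic `S`-units. -/
@[reducible] def ESidAction : MulDistribMulAction Γℚ (ESid S) where
  smul g x := ⟨g • (x : Qbˣ), smul_mem_ESid S g x.2⟩
  one_smul x := Subtype.ext (one_smul _ (x : Qbˣ))
  mul_smul g h x := Subtype.ext (mul_smul g h (x : Qbˣ))
  smul_mul g x y := Subtype.ext (smul_mul' g (x : Qbˣ) (y : Qbˣ))
  smul_one g := Subtype.ext (smul_one g)

attribute [local instance] ESidAction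

/-- the idelic `S`-units of `ℚ_S` as a representation of `Γℚ`. -/
abbrev ESidRep : Rep ℤ Γℚ := Rep.ofMulDistribMulAction Γℚ (ESid S)

/-- `ESid S → ∏_v (ℚ_v ⊗ Qb)ˣ`, `y ↦ (y)_{v ∈ S}`. -/
def ESidDiag : ESid S →* slProd := (slDiagS S).comp (ESid S).subtype

theorem ESidDiag_apply (y : ESid S) : ESidDiag S y = slDiagS S (y : Qbˣ) := rfl

theorem ESidDiag_smul (g : Γℚ) (y : ESid S) : ESidDiag S (g • y) = g • ESidDiag S y :=
  slDiagS_smul' S g (y : Qbˣ)

theorem ESidDiag_mem (y : ESid S) : ESidDiag S y ∈ idE S := ⟨y, y.2, rfl⟩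

theorem slDiagS_injective (hS : S.Nonempty) : Function.Injective (slDiagS S) := by
  intro x y h
  obtain ⟨q, hq⟩ := hS
  have hv : Rat.HeightOneSpectrum.primesEquiv.symm q ∈ placesS S := by
    show Rat.HeightOneSpectrum.primesEquiv (Rat.HeightOneSpectrum.primesEquiv.symm q) ∈ S
    rw [Equiv.apply_symm_apply]; exact hq
  have h1 := congrFun h (Rat.HeightOneSpectrum.primesEquiv.symm q)
  rw [slDiagS_apply_of_mem S _ hv, slDiagS_apply_of_mem S _ hv] at h1
  exact slIncl_injective _ h1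

/-- `E_S ≅ Ē` as representations. -/
def ESidIso (hS : S.Nonempty) : ESidRep S ≅ idERep S :=
  sqRepOfHomIso (isStableSub_idE S) IsStableSub.bot (ESidDiag S) (ESidDiag_smul S)
    (ESidDiag_mem S)
    (fun y hy => by
      rw [Subgroup.mem_bot] at hy
      exact Subtype.ext (slDiagS_injective S hS (hy.trans (map_one _).symm)))
    (fun x hx => by
      obtain ⟨y, hy, rfl⟩ := hx
      exact ⟨⟨y, hy⟩, by rw [ESidDiag_apply, inv_mul_cancel]; exact one_mem _⟩)

/-- the map `E_S → J_S` (idelic `S`-units to `S`-ideles). -/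
def ESidToJS : ESidRep S ⟶ idJSRep S :=
  sqRepOfHom (isStableSub_idJS S) IsStableSub.bot (ESidDiag S) (ESidDiag_smul S)
    (fun y => idE_le_idJS S (ESidDiag_mem S y))

/-- the projection `J_S → C'`. -/
def idJSToC' : idJSRep S ⟶ idC'Rep S := (idSeq1 S).g

theorem ESidToJS_apply (y : Additive (ESid S)) :
    (ESidToJS S).hom y = sqMk (idJS S) ⊥ (isStableSub_idJS S) IsStableSub.bot
      ⟨slDiagS S ((Additive.toMul y : ESid S) : Qbˣ),
        idE_le_idJS S (ESidDiag_mem S (Additive.toMul y))⟩ := rfl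

theorem idJSToC'_sqMk (x : idJS S) :
    (idJSToC' S).hom (sqMk (idJS S) ⊥ (isStableSub_idJS S) IsStableSub.bot x) =
      sqMk (idJS S) (idK S ⊔ idU S) (isStableSub_idJS S) (isStableSub_idKU S) x := rfl

theorem ESidToJS_eq (hS : S.Nonempty) : ESidToJS S = (ESidIso S hS).hom ≫ (idSeq1 S).f := by
  apply Rep.hom_ext
  apply Representation.IntertwiningMap.ext
  refine LinearMap.ext fun y => ?_
  rfl

/-- (S1'), the `TopDatum` shape: `0 → E_S → J_S → C' → 0` with `E_S` the idelic `S`-units. -/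
def idSeq1' : ShortComplex (Rep ℤ Γℚ) :=
  ShortComplex.mk (ESidToJS S) (idJSToC' S) (by
    apply Rep.hom_ext
    apply Representation.IntertwiningMap.ext
    refine LinearMap.ext fun y => ?_
    have h : (idJSToC' S).hom ((ESidToJS S).hom y) =
        sqMk (idJS S) (idK S ⊔ idU S) (isStableSub_idJS S) (isStableSub_idKU S)
          ⟨slDiagS S ((Additive.toMul (y : Additive (ESid S)) : ESid S) : Qbˣ),
            idE_le_idJS S (ESidDiag_mem S (Additive.toMul (y : Additive (ESid S))))⟩ := rfl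
    refine h.trans ?_
    exact (sqMk_eq_zero_iff _ _ _ _ _).2
      (idE_le_sup S (ESidDiag_mem S (Additive.toMul (y : Additive (ESid S))))))

theorem idSeq1'_shortExact (hS : S.Nonempty) : (idSeq1' S).ShortExact := by
  refine sqRep_shortExact_of_elementwise _ ?_ ?_ ?_
  · refine (sqRepOfHom_injective_iff (isStableSub_idJS S) IsStableSub.bot (ESidDiag S)
      (ESidDiag_smul S) (fun y => idE_le_idJS S (ESidDiag_mem S y))).2 fun y hy => ?_
    rw [Subgroup.mem_bot] at hy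
    exact Subtype.ext (slDiagS_injective S hS (hy.trans (map_one _).symm))
  · exact (Rep.epi_iff_surjective _).1 (idSeq1_shortExact S).epi_g
  · intro q hq
    obtain ⟨x, rfl⟩ := sqMk_surjective (idJS S) ⊥ (isStableSub_idJS S) IsStableSub.bot q
    change (idJSToC' S).hom _ = 0 at hq
    rw [idJSToC'_sqMk, sqMk_eq_zero_iff] at hq
    obtain ⟨y, hy, hyx⟩ := mem_idE_of_mem_idJS_of_mem_sup S x.2 hq
    refine ⟨Additive.ofMul (⟨y, hy⟩ : ESid S), ?_⟩
    refine (ESidToJS_apply S (Additive.ofMul (⟨y, hy⟩ : ESid S))).trans ?_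
    exact congrArg _ (Subtype.ext hyx)

theorem isSmooth_ESidRep : IsSmooth (famS S) (ESidRep S) := by
  intro a
  change Additive (ESid S) at a
  obtain ⟨U, hU, h⟩ := exists_famS_forall_smul_eq S (Additive.toMul a : ESid S).2.1
  exact ⟨U, hU, fun u hu => congrArg Additive.ofMul (Subtype.ext (h u hu))⟩


end

end Fermat.Agent.PT
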