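import Fermat.Agent.CFT.PT.SmoothFunctor
import Fermat.Agent.CFT.PT.SmoothLES

/-!
# S55 engine/bridge: the level family of an (infinite) Galois extension

For a Galois extension `Ω / K` (possibly infinite), `famGal K Ω : LevelFamily (Ω ≃ₐ[K] Ω)` is the
family of fixing subgroups of the finite subextensions `L / K` with normal fixing subgroup
(equivalently `L / K` finite Galois).

* `mem_famGal_of_normal`, `famGal_finiteIndex`;
* `isSmooth_unitsGal : IsSmooth (famGal K Ω) (Rep.ofAlgebraAutOnUnits K Ω)`;
* `isSmooth_of_forall_exists_finiteDimensional` : a representation all of whose vectors are fixed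
  by the fixing subgroup of a finite subextension is smooth for `famGal`.
-/

set_option autoImplicit false

namespace Fermat.Agent.PT

open CategoryTheory groupCohomology Rep IntermediateField

variable (K Ω : Type) [Field K] [Field Ω] [Algebra K Ω]

/-- The family of the fixing subgroups of the finite subextensions of `Ω / K` with normal fixing
subgroup. -/
def famGal [IsGalois K Ω] : LevelFamily (Ω ≃ₐ[K] Ω) where
  sets := {U | ∃ L : IntermediateField K Ω,
    FiniteDimensional K L ∧ L.fixingSubgroup.Normal ∧ L.fixingSubgroup = U}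
  normal := by
    rintro U ⟨L, -, hn, rfl⟩
    exact hn
  nonempty := ⟨(⊥ : IntermediateField K Ω).fixingSubgroup, ⊥, inferInstance, by
    rw [IntermediateField.fixingSubgroup_bot]; infer_instance, rfl⟩
  directed := by
    rintro U ⟨L, hL, -, rfl⟩ V ⟨L', hL', -, rfl⟩
    have := hL
    have := hL'
    have hfd : FiniteDimensional K ↥(L ⊔ L') := IntermediateField.finiteDimensional_sup L L'
    refine ⟨(normalClosure K ↥(L ⊔ L') Ω).fixingSubgroup,
      ⟨normalClosure K ↥(L ⊔ L') Ω, normalClosure.is_finiteDimensional K ↥(L ⊔ L') Ω, ?_, rfl⟩,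
      le_inf ?_ ?_⟩
    · rw [← (normalClosure K ↥(L ⊔ L') Ω).restrictNormalHom_ker]
      exact MonoidHom.normal_ker _
    · exact IntermediateField.fixingSubgroup_antitone
        (le_sup_left.trans (IntermediateField.le_normalClosure _))
    · exact IntermediateField.fixingSubgroup_antitone
        (le_sup_right.trans (IntermediateField.le_normalClosure _))

variable {K Ω}

section

variable [IsGalois K Ω]

theorem mem_famGal_iff {U : Subgroup (Ω ≃ₐ[K] Ω)} :
    U ∈ (famGal K Ω).sets ↔ ∃ L : IntermediateField K Ω,
      FiniteDimensional K L ∧ L.fixingSubgroup.Normal ∧ L.fixingSubgroup = U := Iff.rfl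

theorem mem_famGal_of_normal (L : IntermediateField K Ω) [FiniteDimensional K L] [Normal K L] :
    L.fixingSubgroup ∈ (famGal K Ω).sets :=
  ⟨L, inferInstance, by
    rw [← L.restrictNormalHom_ker]
    exact MonoidHom.normal_ker _, rfl⟩

/-- Every finite subextension is contained in a member of the family. -/
theorem exists_mem_famGal_le (L : IntermediateField K Ω) [FiniteDimensional K L] :
    ∃ U ∈ (famGal K Ω).sets, U ≤ L.fixingSubgroup := by
  have : FiniteDimensional K ↥(normalClosure K ↥L Ω) := normalClosure.is_finiteDimensional K ↥L Ω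
  exact ⟨(normalClosure K ↥L Ω).fixingSubgroup, mem_famGal_of_normal _,
    IntermediateField.fixingSubgroup_antitone (IntermediateField.le_normalClosure L)⟩

theorem famGal_finiteIndex : (famGal K Ω).FiniteIndex := by
  rintro U ⟨L, hL, -, rfl⟩
  have := hL
  refine ⟨?_⟩
  rw [← IntermediateField.finrank_eq_fixingSubgroup_index]
  exact Module.finrank_pos.ne'

/-- A representation all of whose vectors are fixed by the fixing subgroup of a finite
subextension is smooth. -/
theorem isSmooth_of_forall_exists_finiteDimensional {k : Type} [CommRing k]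
    (A : Rep.{0} k (Ω ≃ₐ[K] Ω))
    (h : ∀ a : A, ∃ L : IntermediateField K Ω, FiniteDimensional K L ∧
      ∀ s ∈ L.fixingSubgroup, A.ρ s a = a) : IsSmooth (famGal K Ω) A := by
  intro a
  obtain ⟨L, hL, hLa⟩ := h a
  have := hL
  obtain ⟨U, hU, hUL⟩ := exists_mem_famGal_le L
  exact ⟨U, hU, fun u hu => hLa u (hUL hu)⟩

/-- The multiplicative group of `Ω` is a smooth `Gal(Ω/K)`-module. -/
theorem isSmooth_unitsGal : IsSmooth (famGal K Ω) (Rep.ofAlgebraAutOnUnits K Ω) := by
  refine isSmooth_of_forall_exists_finiteDimensional _ fun a => ?_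
  have hint : IsIntegral K ((Additive.toMul a : Ωˣ) : Ω) :=
    Algebra.IsIntegral.isIntegral _
  refine ⟨K⟮((Additive.toMul a : Ωˣ) : Ω)⟯, adjoin.finiteDimensional hint, fun s hs => ?_⟩
  have h1 : s ((Additive.toMul a : Ωˣ) : Ω) = ((Additive.toMul a : Ωˣ) : Ω) :=
    hs ⟨_, mem_adjoin_simple_self K _⟩
  refine congrArg Additive.ofMul (Units.ext ?_)
  exact h1

end

end Fermat.Agent.PT
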