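import Fermat.Agent.CFT.PT.Cone
import Fermat.Agent.CFT.PT.LocalFamily
import Fermat.Agent.CFT.PT.SmoothShapiro
import Fermat.Agent.CFT.PT.TwistLevel

/-!
# S55, plan v1: the arithmetic local system, its restriction to a normal subgroup, and the
exact inputs (contracts) the Poitou–Tate side consumes from GLOBAL and LOCAL

* `LocSystem.restrictNormal 𝔏 V` : for `V` normal in `G`, the local system over
  `(V, 𝔉.restrict V)` with index set `Σ v, G ⧸ (V ⊔ range ψ_v)` (the "places of `K_V` over `v`"),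
  local groups `ψ_v⁻¹(V)` and structure maps `u ↦ g ψ_v(u) g⁻¹` (`g` the chosen representative).
* `locS S : LocSystem (famS S)` : the finite places of `S` with the intrinsic local families.
* `cycloRep p`, `IsCycloLevel p S V`.
* the contracts `GlobalOut0 … GlobalOut4`, `GlobalOutQ`, `LocalOut0 … LocalOut3`.
-/

set_option autoImplicit false

namespace Fermat.Agent.PT

open CategoryTheory groupCohomology Rep ExtCitation

universe u

section RestrictNormal

variable {G : Type u} [Group G] {𝔉 : LevelFamily G}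

/-- conjugation by `g`, restricted to a normal subgroup `V`, after `ψ` -/
noncomputable def conjComap {H : Type u} [Group H] (ψ : H →* G) (V : Subgroup G) [V.Normal]
    (g : G) : ↥(V.comap ψ) →* ↥V :=
  MonoidHom.codRestrict
    ((MulAut.conj g).toMonoidHom.comp (ψ.comp (V.comap ψ).subtype)) V
    (fun u => by
      have hu : ψ (u : H) ∈ V := u.2
      change g * ψ (u : H) * g⁻¹ ∈ V
      exact (inferInstance : V.Normal).conj_mem _ hu g)

@[simp] theorem conjComap_coe {H : Type u} [Group H] (ψ : H →* G) (V : Subgroup G) [V.Normal]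
    (g : G) (u : ↥(V.comap ψ)) : ((conjComap ψ V g u : ↥V) : G) = g * ψ (u : H) * g⁻¹ := rfl

/-- **Restriction of a local system to a normal subgroup `V`**: one local group `ψ_v⁻¹(V)` for
every pair (`v`, class of `G` modulo `V · ψ_v(G_v)`), mapped to `V` by `u ↦ g ψ_v(u) g⁻¹`. -/
noncomputable def LocSystem.restrictNormal (𝔏 : LocSystem 𝔉) (V : Subgroup G) [V.Normal] :
    LocSystem (𝔉.restrict V) where
  ι := Σ v : 𝔏.ι, G ⧸ (V ⊔ (𝔏.ψ v).range)
  Gv x := ↥(V.comap (𝔏.ψ x.1))
  fam x := (𝔏.fam x.1).restrict (V.comap (𝔏.ψ x.1))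
  ψ x := conjComap (𝔏.ψ x.1) V (Quotient.out x.2)
  compat x := by
    rintro W ⟨U, hU, rfl⟩
    obtain ⟨U', hU', hle⟩ := 𝔏.compat x.1 U hU
    refine ⟨U'.subgroupOf (V.comap (𝔏.ψ x.1)), ⟨U', hU', rfl⟩, ?_⟩
    intro u hu
    have h1 : 𝔏.ψ x.1 (u : 𝔏.Gv x.1) ∈ U := hle hu
    have hn : U.Normal := 𝔉.normal U hU
    change (conjComap (𝔏.ψ x.1) V (Quotient.out x.2) u : G) ∈ U
    rw [conjComap_coe]
    exact hn.conj_mem _ h1 _

end RestrictNormal

local notation "Γℚ" => (AlgebraicClosure ℚ ≃ₐ[ℚ] AlgebraicClosure ℚ)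

section Arith

variable (p : ℕ) [Fact p.Prime] (S : Finset Nat.Primes)

/-- The arithmetic local system over `(Γℚ, famS S)`: the finite places of `S`, with the intrinsic
local families `famLoc q` on `Gal(PadicAlgCl q / ℚ_q)`. -/
noncomputable def locS : LocSystem (famS S) where
  ι := ↥S
  Gv q := primeLocalGaloisGroup q.1
  fam q := famLoc q.1
  ψ q := primeLocalToGlobal q.1
  compat q := famLoc_compat_famS q.1 S

/-- the coefficient module `μ_p`: `ZMod p` with `Γℚ` acting through the cyclotomic character -/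
noncomputable abbrev cycloRep : Rep (ZMod p) Γℚ := groupCohomology.ofChar (k := ZMod p) (cycloChar p)

/-- the trivial representation on `ZMod p` -/
noncomputable abbrev trivRep (H : Type) [Group H] : Rep (ZMod p) H :=
  Rep.trivial (ZMod p) H (ZMod p)

/-- `V` is a level of `famS S` (open normal in `G_S`) on which the cyclotomic character is
trivial: `V = G_{K,S}` with `μ_p ⊆ K`, `K / ℚ` Galois. -/
def IsCycloLevel (V : Subgroup Γℚ) : Prop :=
  V ∈ (famS S).sets ∧ ∀ s ∈ V, cycloChar p s = 1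

variable {p S} in
theorem IsCycloLevel.normal {V : Subgroup Γℚ} (hV : IsCycloLevel p S V) : V.Normal :=
  (famS S).normal V hV.1

/-- the local system of `V = G_{K,S}`: its index set is the set of places of `K` over `S` -/
noncomputable def locSV (V : Subgroup Γℚ) [V.Normal] : LocSystem ((famS S).restrict V) :=
  (locS S).restrictNormal V

/-! ### GLOBAL-OUT -/

/-- (G0) finiteness of `H^1, H^2 (G_{K,S}, 𝔽_p)`. -/
def GlobalOut0 : Prop :=
  ∀ V : Subgroup Γℚ, IsCycloLevel p S V → ∀ n : ℕ, n ≤ 2 →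
    Module.Finite (ZMod p) (Hlc ((famS S).restrict V) (trivRep p ↥V) n)

/-- (G1) `H^3(G_{K',S}, 𝔽_p) = 0` for every open subgroup `V'` (not necessarily normal) on which the
cyclotomic character is trivial. -/
def GlobalOut1 : Prop :=
  ∀ V' : Subgroup Γℚ, IsOpenFor (famS S) V' → (∀ s ∈ V', cycloChar p s = 1) →
    Subsingleton (Hlc ((famS S).restrict V') (trivRep p ↥V') 3)

/-- (G2) the image of `H^2(G_{K,S}, 𝔽_p) → ∏_w H^2(G_{K_w}, 𝔽_p)` has codimension exactly `1`. -/
def GlobalOut2 : Prop :=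
  ∀ (V : Subgroup Γℚ) (hV : IsCycloLevel p S V),
    haveI := hV.normal
    Module.finrank (ZMod p) (LinearMap.range (locRes (locSV S V) (trivRep p ↥V) 2)) + 1 =
      Module.finrank (ZMod p)
        (∀ x : (locSV S V).ι, Hlc ((locSV S V).fam x) ((locSV S V).coeff (trivRep p ↥V) x) 2)

/-- (GQ) reciprocity over `ℚ`: `H^2(G_S, μ_p) → ∏_{q ∈ S} H^2(G_q, μ_p)` is not surjective. -/
def GlobalOutQ : Prop :=
  ¬ Function.Surjective (locRes (locS S) (cycloRep p) 2)

/-- (G3) `dim Ш^1(G_{K,S}, 𝔽_p) = dim Ш^2(G_{K,S}, 𝔽_p)` (both are `dim Cl_S(K)/p`). -/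
def GlobalOut3 : Prop :=
  ∀ (V : Subgroup Γℚ) (hV : IsCycloLevel p S V),
    haveI := hV.normal
    Module.finrank (ZMod p) (LinearMap.ker (locRes (locSV S V) (trivRep p ↥V) 1)) =
      Module.finrank (ZMod p) (LinearMap.ker (locRes (locSV S V) (trivRep p ↥V) 2))

/-- (G4) `2 h^1(G_{K,S}, 𝔽_p) = [K:ℚ] + 2 #S(K) + 2 dim Ш^1(G_{K,S}, 𝔽_p)` (Kummer theory and the
`S`-unit theorem; `r_2 = [K:ℚ]/2` because `μ_p ⊆ K`, `p` odd). -/
def GlobalOut4 : Prop :=
  ∀ (V : Subgroup Γℚ) (hV : IsCycloLevel p S V),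
    haveI := hV.normal
    2 * Module.finrank (ZMod p) (Hlc ((famS S).restrict V) (trivRep p ↥V) 1) =
      V.index + 2 * Nat.card (locSV S V).ι +
        2 * Module.finrank (ZMod p) (LinearMap.ker (locRes (locSV S V) (trivRep p ↥V) 1))

/-! ### LOCAL-OUT -/

/-- (L0) finiteness of `H^n(U, 𝔽_p)`, `n ≤ 2`, for the open subgroups of the local Galois group. -/
def LocalOut0 : Prop :=
  ∀ q : Nat.Primes, q ∈ S → ∀ U : Subgroup (primeLocalGaloisGroup q), IsOpenFor (famLoc q) U →
    ∀ n : ℕ, n ≤ 2 →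
      Module.Finite (ZMod p) (Hlc ((famLoc q).restrict U) (trivRep p ↥U) n)

/-- (L1) `H^3(U, 𝔽_p) = 0` for the open subgroups of the local Galois group. -/
def LocalOut1 : Prop :=
  ∀ q : Nat.Primes, q ∈ S → ∀ U : Subgroup (primeLocalGaloisGroup q), IsOpenFor (famLoc q) U →
    Subsingleton (Hlc ((famLoc q).restrict U) (trivRep p ↥U) 3)

/-- (L2) `dim H^2(U, μ_p) = 1` for the open subgroups of the local Galois group. -/
def LocalOut2 : Prop :=
  ∀ q : Nat.Primes, q ∈ S → ∀ U : Subgroup (primeLocalGaloisGroup q), IsOpenFor (famLoc q) U →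
    Module.finrank (ZMod p) (Hlc ((famLoc q).restrict U)
      (Rep.res U.subtype (Rep.res (primeLocalToGlobal q) (cycloRep p))) 2) = 1

/-- (L3) `dim H^1(U, 𝔽_p) = 2 + [ℚ_q : U]·[q = p]` for the open subgroups of the local Galois group
on which the cyclotomic character is trivial. -/
def LocalOut3 : Prop :=
  ∀ q : Nat.Primes, q ∈ S → ∀ U : Subgroup (primeLocalGaloisGroup q), IsOpenFor (famLoc q) U →
    (∀ u ∈ U, cycloChar p (primeLocalToGlobal q u) = 1) →
      Module.finrank (ZMod p) (Hlc ((famLoc q).restrict U) (trivRep p ↥U) 1) =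
        2 + (if (q : ℕ) = p then U.index else 0)

end Arith

end Fermat.Agent.PT
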