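import Mathlib
import Fermat.Agent.CFT.PT.Cone

/-!
# S55 (P12): dimension bookkeeping for the cone long exact sequence

* `baseCount_finrank_of_exact` : abstract linear algebra: for an exact sequence
  `H → P → C → H' → P'` of vector spaces with `P` and `ker (H' → P')` finite-dimensional,
  `C` is finite-dimensional and `dim C + rank (H → P) = dim P + dim ker (H' → P')`.
* `baseCount_finrank_Hcc` : the instance for the cone sequence
  `Hlc^n(G) → ∏ Hlc^n(G_v) → Hcc^n → Hlc^{n+1}(G) → ∏ Hlc^{n+1}(G_v)`.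
* `baseCount_numbers` : the numerical check `(BASE_i)` of the S55 plan v1 at a level `V`.
-/

set_option autoImplicit false

namespace Fermat.Agent.PT

open Module

universe u

section Abstract

variable {k : Type*} [Field k] {H P C H' P' : Type*}
  [AddCommGroup H] [Module k H] [AddCommGroup P] [Module k P] [AddCommGroup C] [Module k C]
  [AddCommGroup H'] [Module k H'] [AddCommGroup P'] [Module k P']

/-- Dimension count in an exact sequence `H → P → C → H' → P'`. -/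
theorem baseCount_finrank_of_exact (f : H →ₗ[k] P) (δ : P →ₗ[k] C) (g : C →ₗ[k] H')
    (f' : H' →ₗ[k] P')
    (h1 : ∀ x, δ (f x) = 0) (h2 : ∀ y, δ y = 0 → ∃ x, f x = y)
    (h3 : ∀ y, g (δ y) = 0) (h4 : ∀ z, g z = 0 → ∃ y, δ y = z)
    (h5 : ∀ z, f' (g z) = 0) (h6 : ∀ x, f' x = 0 → ∃ z, g z = x)
    [Module.Finite k P] [Module.Finite k (LinearMap.ker f')] :
    Module.Finite k C ∧
      finrank k C + finrank k (LinearMap.range f) = finrank k P + finrank k (LinearMap.ker f') := by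
  have hkδ : LinearMap.ker δ = LinearMap.range f := by
    ext y
    constructor
    · intro hy
      obtain ⟨x, rfl⟩ := h2 y hy
      exact ⟨x, rfl⟩
    · rintro ⟨x, rfl⟩
      exact h1 x
  have hkg : LinearMap.ker g = LinearMap.range δ := by
    ext z
    constructor
    · intro hz
      obtain ⟨y, rfl⟩ := h4 z hz
      exact ⟨y, rfl⟩
    · rintro ⟨y, rfl⟩
      exact h3 y
  have hrg : LinearMap.range g = LinearMap.ker f' := by
    ext x
    constructor
    · rintro ⟨z, rfl⟩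
      exact h5 z
    · intro hx
      obtain ⟨z, rfl⟩ := h6 x hx
      exact ⟨z, rfl⟩
  have hfinr : Module.Finite k (LinearMap.range g) := by rw [hrg]; infer_instance
  have hfink : Module.Finite k (LinearMap.ker g) := by rw [hkg]; infer_instance
  have hC : Module.Finite k C := by
    have hq : Module.Finite k (C ⧸ LinearMap.ker g) :=
      Module.Finite.equiv g.quotKerEquivRange.symm
    exact Module.Finite.of_submodule_quotient (LinearMap.ker g)
  refine ⟨hC, ?_⟩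
  have e1 := LinearMap.finrank_range_add_finrank_ker g
  have e2 := LinearMap.finrank_range_add_finrank_ker δ
  rw [hkδ] at e2
  rw [hkg] at e1
  rw [hrg] at e1
  omega

end Abstract

section ConeInstance

variable {k G : Type u} [Field k] [Group G] {𝔉 : LevelFamily G} (𝔏 : LocSystem 𝔉)
  (A : Rep.{u} k G)

/-- **Dimension of cone cohomology**: `dim Hcc^n + rank locRes^n = dim ∏ Hlc^n(G_v) +
dim ker locRes^{n+1}` (all finite-dimensional as soon as the local groups and the kernel are). -/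
theorem baseCount_finrank_Hcc (n : ℕ) [Finite 𝔏.ι]
    [∀ v, Module.Finite k (Hlc (𝔏.fam v) (𝔏.coeff A v) n)]
    [Module.Finite k (LinearMap.ker (locRes 𝔏 A (n + 1)))] :
    Module.Finite k (Hcc 𝔏 A n) ∧
      finrank k (Hcc 𝔏 A n) + finrank k (LinearMap.range (locRes 𝔏 A n)) =
        finrank k (∀ v : 𝔏.ι, Hlc (𝔏.fam v) (𝔏.coeff A v) n) +
          finrank k (LinearMap.ker (locRes 𝔏 A (n + 1))) :=
  baseCount_finrank_of_exact (locRes 𝔏 A n) (ccδ 𝔏 A n) (ccToH 𝔏 A n) (locRes 𝔏 A (n + 1))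
    (ccδ_locRes 𝔏 A n) (exists_locRes_eq_of_ccδ_eq_zero 𝔏 A n)
    (ccToH_ccδ 𝔏 A n) (exists_ccδ_eq_of_ccToH_eq_zero 𝔏 A n)
    (locRes_ccToH 𝔏 A n) (exists_ccToH_eq_of_locRes_eq_zero 𝔏 A n)

/-- `dim Hlc^n(G) = dim ker locRes^n + rank locRes^n`. -/
theorem baseCount_finrank_Hlc (n : ℕ) [Module.Finite k (Hlc 𝔉 A n)] :
    finrank k (Hlc 𝔉 A n) =
      finrank k (LinearMap.ker (locRes 𝔏 A n)) + finrank k (LinearMap.range (locRes 𝔏 A n)) := by
  have := LinearMap.finrank_range_add_finrank_ker (locRes 𝔏 A n)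
  omega

/-- the dimension of the product of the local cohomology groups -/
theorem baseCount_finrank_loc (n : ℕ) [Fintype 𝔏.ι]
    [∀ v, Module.Finite k (Hlc (𝔏.fam v) (𝔏.coeff A v) n)] :
    finrank k (∀ v : 𝔏.ι, Hlc (𝔏.fam v) (𝔏.coeff A v) n) =
      ∑ v : 𝔏.ι, finrank k (Hlc (𝔏.fam v) (𝔏.coeff A v) n) :=
  Module.finrank_pi_fintype k

end ConeInstance

section Numbers

/-- The numerical check `(BASE_i)` of the S55 plan v1: `s` places, index `n`,
`h i = dim Hlc^i`, `sh i = dim ker locRes^i`, `r i = rank locRes^i`, `l i = dim ∏ Hlc^i(G_v)`,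
`c i = dim Hcc^i`. -/
theorem baseCount_numbers {s n h0 h1 h2 sh1 sh2 sh3 r0 r1 r2 l0 l1 l2 c0 c1 c2 : ℕ}
    (e0 : c0 + r0 = l0 + sh1) (e1 : c1 + r1 = l1 + sh2) (e2 : c2 + r2 = l2 + sh3)
    (d0 : h0 = r0) (d1 : h1 = sh1 + r1) (d2 : h2 = sh2 + r2)
    (hl0 : l0 = s) (hl1 : l1 = 2 * s + n) (hl2 : l2 = s) (hh0 : h0 = 1) (hsh3 : sh3 = 0)
    (G2 : r2 + 1 = l2) (G3 : sh1 = sh2) (G4 : 2 * h1 = n + 2 * s + 2 * sh1) :
    c0 + 1 = s + sh1 ∧ c1 = h1 ∧ c2 = 1 ∧ h2 = c0 := by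
  omega

end Numbers

section Level

variable {k G : Type u} [Field k] [Group G] {𝔉 : LevelFamily G} (𝔏 : LocSystem 𝔉)
  (A : Rep.{u} k G)

/-- **Base count at a level**: from the global inputs (G0)-(G4) and the local inputs (L0)-(L3)
in dimension form, the dimensions of the cone cohomology groups `Hcc 0, 1, 2`
(`= H_c^1, H_c^2, H_c^3`) of the local system `𝔏` with coefficients `A`. -/
theorem baseCount_level [Fintype 𝔏.ι] (n : ℕ)
    (L0 : ∀ i, i ≤ 2 → ∀ v, Module.Finite k (Hlc (𝔏.fam v) (𝔏.coeff A v) i))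
    (L3a : ∀ v, finrank k (Hlc (𝔏.fam v) (𝔏.coeff A v) 0) = 1)
    (L3b : ∑ v : 𝔏.ι, finrank k (Hlc (𝔏.fam v) (𝔏.coeff A v) 1) = 2 * Fintype.card 𝔏.ι + n)
    (L2 : ∀ v, finrank k (Hlc (𝔏.fam v) (𝔏.coeff A v) 2) = 1)
    (G0 : ∀ i, i ≤ 2 → Module.Finite k (Hlc 𝔉 A i))
    (G0a : finrank k (Hlc 𝔉 A 0) = 1) (G0b : Function.Injective (locRes 𝔏 A 0))
    (G1 : Subsingleton (Hlc 𝔉 A 3))
    (G2 : finrank k (LinearMap.range (locRes 𝔏 A 2)) + 1 = Fintype.card 𝔏.ι)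
    (G3 : finrank k (LinearMap.ker (locRes 𝔏 A 1)) = finrank k (LinearMap.ker (locRes 𝔏 A 2)))
    (G4 : 2 * finrank k (Hlc 𝔉 A 1) =
      n + 2 * Fintype.card 𝔏.ι + 2 * finrank k (LinearMap.ker (locRes 𝔏 A 1))) :
    (Module.Finite k (Hcc 𝔏 A 0) ∧ Module.Finite k (Hcc 𝔏 A 1) ∧ Module.Finite k (Hcc 𝔏 A 2)) ∧
      finrank k (Hcc 𝔏 A 0) + 1 =
        Fintype.card 𝔏.ι + finrank k (LinearMap.ker (locRes 𝔏 A 1)) ∧
      finrank k (Hcc 𝔏 A 1) = finrank k (Hlc 𝔉 A 1) ∧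
      finrank k (Hcc 𝔏 A 2) = 1 ∧
      finrank k (Hlc 𝔉 A 2) = finrank k (Hcc 𝔏 A 0) := by
  have := fun v => L0 0 (by omega) v
  have h1v := fun v => L0 1 (by omega) v
  have h2v := fun v => L0 2 (by omega) v
  have := G0 0 (by omega)
  have hG1 := G0 1 (by omega)
  have hG2 := G0 2 (by omega)
  haveI : Module.Finite k (LinearMap.ker (locRes 𝔏 A 3)) := by
    haveI : Subsingleton (LinearMap.ker (locRes 𝔏 A 3)) :=
      ⟨fun a b => Subtype.ext (Subsingleton.elim _ _)⟩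
    infer_instance
  obtain ⟨f0, e0⟩ := baseCount_finrank_Hcc 𝔏 A 0
  obtain ⟨f1, e1⟩ := baseCount_finrank_Hcc 𝔏 A 1
  obtain ⟨f2, e2⟩ := baseCount_finrank_Hcc 𝔏 A 2
  refine ⟨⟨f0, f1, f2⟩, ?_⟩
  have d0 := baseCount_finrank_Hlc 𝔏 A 0
  have d1 := baseCount_finrank_Hlc 𝔏 A 1
  have d2 := baseCount_finrank_Hlc 𝔏 A 2
  have hk0 : finrank k (LinearMap.ker (locRes 𝔏 A 0)) = 0 := by
    rw [LinearMap.ker_eq_bot.mpr G0b]
    exact finrank_bot k _
  have hk3 : finrank k (LinearMap.ker (locRes 𝔏 A 3)) = 0 := by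
    haveI : Subsingleton (LinearMap.ker (locRes 𝔏 A 3)) :=
      ⟨fun a b => Subtype.ext (Subsingleton.elim _ _)⟩
    exact finrank_zero_of_subsingleton
  rw [hk0, zero_add] at d0
  have hl0 : finrank k (∀ v : 𝔏.ι, Hlc (𝔏.fam v) (𝔏.coeff A v) 0) = Fintype.card 𝔏.ι := by
    rw [baseCount_finrank_loc]
    simp [L3a]
  have hl2 : finrank k (∀ v : 𝔏.ι, Hlc (𝔏.fam v) (𝔏.coeff A v) 2) = Fintype.card 𝔏.ι := by
    rw [baseCount_finrank_loc]
    simp [L2]
  have hl1 : finrank k (∀ v : 𝔏.ι, Hlc (𝔏.fam v) (𝔏.coeff A v) 1) =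
      2 * Fintype.card 𝔏.ι + n := by
    rw [baseCount_finrank_loc, L3b]
  exact baseCount_numbers e0 e1 e2 d0 d1 d2 hl0 hl1 hl2 G0a hk3 (by rw [hl2]; exact G2) G3 G4

end Level

end Fermat.Agent.PT
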