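import Mathlib
import Fermat.Agent.CFT.PT.BaseCount
import Fermat.Agent.CFT.PT.Contracts
import Fermat.Agent.CFT.PT.SmoothZero

/-!
# S55 (P12), part 2: the base count at an arithmetic level `V = G_{K,S}`

From the contracts `GlobalOut0 … GlobalOut4`, `LocalOut0 … LocalOut3` of `PT/Contracts.lean`:
for a cyclotomic level `V` (open normal in `G_S`, `μ_p` trivial on `V`) the cone cohomology
`Hcc (locSV S V) 𝔽_p i` (`= H_c^{i+1}(G_{K,S}, 𝔽_p)`) has dimensions
`dim Hcc 0 + 1 = #S(K) + dim Ш^1`, `dim Hcc 1 = h^1`, `dim Hcc 2 = 1`, and `h^2 = dim Hcc 0`.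
-/

set_option autoImplicit false

namespace Fermat.Agent.PT

open CategoryTheory groupCohomology Rep ExtCitation Module

local notation "Γℚ" => (AlgebraicClosure ℚ ≃ₐ[ℚ] AlgebraicClosure ℚ)

universe u

section TrivZero

variable {k G : Type u} [Field k] [Group G] (𝔉 : LevelFamily G)

/-- `dim H^0(G, k) = 1` for the trivial module `k`. -/
theorem baseCount_finrank_Hlc0_trivial :
    finrank k (Hlc 𝔉 (Rep.trivial k G k) 0) = 1 := by
  rw [(Hlc0Equiv 𝔉 (Rep.trivial k G k)).finrank_eq]
  have h : (Rep.trivial k G k).ρ.invariants = ⊤ := by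
    rw [eq_top_iff]
    intro a _ g
    rfl
  rw [h, finrank_top]
  exact finrank_self k

theorem baseCount_finite_Hlc0_trivial :
    Module.Finite k (Hlc 𝔉 (Rep.trivial k G k) 0) :=
  Module.Finite.equiv (Hlc0Equiv 𝔉 (Rep.trivial k G k)).symm

/-- restriction in degree `0` is injective (trivial coefficients) -/
theorem baseCount_HlcMap_zero_injective {H : Type u} [Group H] (𝔉H : LevelFamily H)
    (ψ : H →* G) (hψ : 𝔉H.Compat ψ 𝔉) :
    Function.Injective
      (HlcMap ψ (𝟙 (res ψ (Rep.trivial k G k))) hψ 0).hom := by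
  intro x y hxy
  have h1 := coe_Hlc0Equiv_HlcMap ψ (𝟙 (res ψ (Rep.trivial k G k))) hψ x
  have h2 := coe_Hlc0Equiv_HlcMap ψ (𝟙 (res ψ (Rep.trivial k G k))) hψ y
  rw [hxy, h2] at h1
  apply (Hlc0Equiv 𝔉 (Rep.trivial k G k)).injective
  apply Subtype.ext
  exact h1.symm

end TrivZero

variable (p : ℕ) [Fact p.Prime] (S : Finset Nat.Primes)

/-- the members of `famS S` have finite index -/
theorem baseCount_famS_finiteIndex : (famS S).FiniteIndex := by
  rintro U ⟨L, hL, -, rfl⟩
  have := hL.1
  refine ⟨?_⟩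
  rw [← IntermediateField.finrank_eq_fixingSubgroup_index]
  exact Module.finrank_pos.ne'

/-- on a group mapping to `Γℚ` through the kernel of the cyclotomic character, `μ_p` is the
trivial module -/
theorem baseCount_res_cycloRep_eq {H : Type} [Group H] (ψ : H →* Γℚ)
    (h : ∀ u : H, cycloChar p (ψ u) = 1) : Rep.res ψ (cycloRep p) = trivRep p H := by
  have hρ : (Rep.res ψ (cycloRep p)).ρ = Representation.trivial (ZMod p) H (ZMod p) := by
    ext u
    simp [Representation.twist_apply_apply, h u]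
  change Rep.of (Rep.res ψ (cycloRep p)).ρ = Rep.of (Representation.trivial (ZMod p) H (ZMod p))
  rw [hρ]

variable {p S}

/-- the number of "places above `q`" times the local index is the global index -/
theorem baseCount_card_mul_index {G H : Type*} [Group G] [Group H] (ψ : H →* G)
    (V : Subgroup G) [V.Normal] :
    Nat.card (G ⧸ (V ⊔ ψ.range)) * (V.comap ψ).index = V.index := by
  rw [← Subgroup.index_eq_card, Subgroup.index_comap, ← Subgroup.relIndex_sup_left (K := V),
    mul_comm]
  exact Subgroup.relIndex_mul_index le_sup_left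

theorem baseCount_finite_ι (V : Subgroup Γℚ) [V.Normal] (hV : V.FiniteIndex) :
    Finite (locSV S V).ι := by
  have : ∀ v : (locS S).ι, Finite (Γℚ ⧸ (V ⊔ ((locS S).ψ v).range)) := fun v => by
    have := Subgroup.finiteIndex_of_le (H := V) (K := V ⊔ ((locS S).ψ v).range) le_sup_left
    infer_instance
  change Finite (Σ v : (locS S).ι, Γℚ ⧸ (V ⊔ ((locS S).ψ v).range))
  have : Finite (locS S).ι := (inferInstance : Finite ↥S)
  infer_instance

/-- on the preimage of a cyclotomic level, `μ_p` restricted twice is the trivial module -/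
theorem baseCount_res_res_cycloRep_eq {H : Type} [Group H] (ψ : H →* Γℚ) (U : Subgroup H)
    (h : ∀ u ∈ U, cycloChar p (ψ u) = 1) :
    Rep.res U.subtype (Rep.res ψ (cycloRep p)) = trivRep p ↥U := by
  have hρ : (Rep.res U.subtype (Rep.res ψ (cycloRep p))).ρ =
      Representation.trivial (ZMod p) ↥U (ZMod p) := by
    ext u
    simp [Representation.twist_apply_apply, h u.1 u.2]
  change Rep.of (Rep.res U.subtype (Rep.res ψ (cycloRep p))).ρ =
    Rep.of (Representation.trivial (ZMod p) ↥U (ZMod p))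
  rw [hρ]

/-- **Base count at an arithmetic level** (plan v1, `(BASE_i)`): from the contracts
(G0)-(G4), (L0), (L2), (L3). -/
theorem baseCount_arith (hpS : pPrime p ∈ S)
    (g0 : GlobalOut0 p S) (g1 : GlobalOut1 p S) (g2 : GlobalOut2 p S) (g3 : GlobalOut3 p S)
    (g4 : GlobalOut4 p S) (l0 : LocalOut0 p S) (l2 : LocalOut2 p S) (l3 : LocalOut3 p S)
    (V : Subgroup Γℚ) (hV : IsCycloLevel p S V) :
    haveI := hV.normal
    (Module.Finite (ZMod p) (Hcc (locSV S V) (trivRep p ↥V) 0) ∧
      Module.Finite (ZMod p) (Hcc (locSV S V) (trivRep p ↥V) 1) ∧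
      Module.Finite (ZMod p) (Hcc (locSV S V) (trivRep p ↥V) 2)) ∧
    finrank (ZMod p) (Hcc (locSV S V) (trivRep p ↥V) 0) + 1 =
      Nat.card (locSV S V).ι +
        finrank (ZMod p) (LinearMap.ker (locRes (locSV S V) (trivRep p ↥V) 1)) ∧
    finrank (ZMod p) (Hcc (locSV S V) (trivRep p ↥V) 1) =
      finrank (ZMod p) (Hlc ((famS S).restrict V) (trivRep p ↥V) 1) ∧
    finrank (ZMod p) (Hcc (locSV S V) (trivRep p ↥V) 2) = 1 ∧
    finrank (ZMod p) (Hlc ((famS S).restrict V) (trivRep p ↥V) 2) =
      finrank (ZMod p) (Hcc (locSV S V) (trivRep p ↥V) 0) := by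
  haveI := hV.normal
  have hVfin : V.FiniteIndex := baseCount_famS_finiteIndex S V hV.1
  haveI : Finite (locSV S V).ι := baseCount_finite_ι V hVfin
  letI : Fintype (locSV S V).ι := Fintype.ofFinite _
  have hcard : Nat.card (locSV S V).ι = Fintype.card (locSV S V).ι := Nat.card_eq_fintype_card
  -- the local groups are open
  have hopen : ∀ x : (locSV S V).ι,
      IsOpenFor (famLoc x.1.1) (V.comap (primeLocalToGlobal x.1.1)) := fun x =>
    famLoc_compat_famS x.1.1 S V hV.1
  have hcyc : ∀ x : (locSV S V).ι, ∀ u ∈ V.comap (primeLocalToGlobal x.1.1),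
      cycloChar p (primeLocalToGlobal x.1.1 u) = 1 := fun x u hu => hV.2 _ hu
  -- local inputs
  have L0 : ∀ i, i ≤ 2 → ∀ x : (locSV S V).ι, Module.Finite (ZMod p)
      (Hlc ((locSV S V).fam x) ((locSV S V).coeff (trivRep p ↥V) x) i) := fun i hi x =>
    l0 x.1.1 x.1.2 _ (hopen x) i hi
  have L3a : ∀ x : (locSV S V).ι, finrank (ZMod p)
      (Hlc ((locSV S V).fam x) ((locSV S V).coeff (trivRep p ↥V) x) 0) = 1 := fun x =>
    baseCount_finrank_Hlc0_trivial _
  have L2 : ∀ x : (locSV S V).ι, finrank (ZMod p)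
      (Hlc ((locSV S V).fam x) ((locSV S V).coeff (trivRep p ↥V) x) 2) = 1 := fun x => by
    have h := l2 x.1.1 x.1.2 _ (hopen x)
    rw [baseCount_res_res_cycloRep_eq _ _ (hcyc x)] at h
    exact h
  have L3 : ∀ x : (locSV S V).ι, finrank (ZMod p)
      (Hlc ((locSV S V).fam x) ((locSV S V).coeff (trivRep p ↥V) x) 1) =
        2 + (if ((x.1.1 : Nat.Primes) : ℕ) = p then
          (V.comap (primeLocalToGlobal x.1.1)).index else 0) := fun x =>
    l3 x.1.1 x.1.2 _ (hopen x) (hcyc x)
  -- the sum of the local `h^1`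
  classical
  set p' : (locS S).ι := ⟨pPrime p, hpS⟩ with hp'
  have hiff : ∀ x : (locSV S V).ι, ((x.1.1 : Nat.Primes) : ℕ) = p ↔ x.1 = p' := fun x => by
    constructor
    · intro h
      apply Subtype.ext
      apply Subtype.ext
      exact h
    · intro h
      rw [h]
      rfl
  have hsumite : ∑ x : (locSV S V).ι, (if ((x.1.1 : Nat.Primes) : ℕ) = p then
      (V.comap (primeLocalToGlobal x.1.1)).index else 0) = V.index := by
    have h1 : ∀ x : (locSV S V).ι, (if ((x.1.1 : Nat.Primes) : ℕ) = p then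
        (V.comap (primeLocalToGlobal x.1.1)).index else 0) =
        if x.1 = p' then (V.comap (primeLocalToGlobal p'.1)).index else 0 := fun x => by
      by_cases h : x.1 = p'
      · rw [if_pos h, if_pos ((hiff x).2 h), h]
      · rw [if_neg h, if_neg (fun h' => h ((hiff x).1 h'))]
    simp_rw [h1]
    rw [Finset.sum_ite, Finset.sum_const, Finset.sum_const_zero, add_zero, smul_eq_mul]
    have h2 : (Finset.univ.filter fun x : (locSV S V).ι => x.1 = p').card =
        Nat.card (Γℚ ⧸ (V ⊔ ((locS S).ψ p').range)) := by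
      rw [← Fintype.card_subtype, ← Nat.card_eq_fintype_card]
      exact Nat.card_congr (Equiv.sigmaSubtype p')
    rw [h2]
    exact baseCount_card_mul_index ((locS S).ψ p') V
  have L3b : ∑ x : (locSV S V).ι, finrank (ZMod p)
      (Hlc ((locSV S V).fam x) ((locSV S V).coeff (trivRep p ↥V) x) 1) =
        2 * Fintype.card (locSV S V).ι + V.index := by
    simp_rw [L3]
    rw [Finset.sum_add_distrib, hsumite, Finset.sum_const, Finset.card_univ, smul_eq_mul, mul_comm]
  -- global inputs
  have G0 : ∀ i, i ≤ 2 → Module.Finite (ZMod p) (Hlc ((famS S).restrict V) (trivRep p ↥V) i) :=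
    fun i hi => g0 V hV i hi
  have G0b : Function.Injective (locRes (locSV S V) (trivRep p ↥V) 0) := by
    intro x y hxy
    have h := congrFun hxy ⟨p', ((1 : Γℚ) : Γℚ ⧸ (V ⊔ ((locS S).ψ p').range))⟩
    exact baseCount_HlcMap_zero_injective _ _ _ _ h
  have G2 : finrank (ZMod p) (LinearMap.range (locRes (locSV S V) (trivRep p ↥V) 2)) + 1 =
      Fintype.card (locSV S V).ι := by
    have h := g2 V hV
    have := fun x => L0 2 le_rfl x
    rw [baseCount_finrank_loc] at h
    simp_rw [L2] at h
    rw [h]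
    simp
  have G4 : 2 * finrank (ZMod p) (Hlc ((famS S).restrict V) (trivRep p ↥V) 1) =
      V.index + 2 * Fintype.card (locSV S V).ι +
        2 * finrank (ZMod p) (LinearMap.ker (locRes (locSV S V) (trivRep p ↥V) 1)) := by
    rw [← hcard]
    exact g4 V hV
  rw [hcard]
  exact baseCount_level (locSV S V) (trivRep p ↥V) V.index L0 L3a L3b L2 G0
    (baseCount_finrank_Hlc0_trivial _) G0b (g1 V ⟨V, hV.1, le_rfl⟩ hV.2) G2 (g3 V hV) G4

end Fermat.Agent.PT
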