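import Mathlib
import Fermat.Agent.CFT.PT.BaseCountArith

/-!
# S55 (P12), part 3: the base count from the WEAKENED global inputs (inequalities)

The Poitou–Tate side uses the base count only through the three inequalities
`dim Hcc 2 ≤ 1`, `dim Hcc 1 ≤ h^1(V, 𝔽_p)`, `dim Hcc 0 ≤ h^2(V, 𝔽_p)`.  These follow from the
inequality forms `GlobalOut2Le`, `GlobalOut3Le`, `GlobalOut4Le` of the global inputs (G2)-(G4):

* (G2') `dim ∏_w H^2(K_w, 𝔽_p) ≤ rank locRes^2 + 1` (existence half only),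
* (G3') `dim Ш^1 ≤ dim Ш^2`,
* (G4') `[K:ℚ] + 2 #S(K) + dim Ш^1 + dim Ш^2 ≤ 2 h^1`.

Also: `baseCount_finrank_Hcc_congr`, the transport of `dim Hcc` between two local systems with
the same local dimensions, the same rank of `locRes^n` and the same `dim ker locRes^(n+1)`.
-/

set_option autoImplicit false

namespace Fermat.Agent.PT

open CategoryTheory groupCohomology Rep ExtCitation Module

local notation "Γℚ" => (AlgebraicClosure ℚ ≃ₐ[ℚ] AlgebraicClosure ℚ)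

universe u

section Numbers

/-- The numerical check `(BASE_i)` in inequality form: `s` places, index `n`,
`h i = dim Hlc^i`, `sh i = dim ker locRes^i`, `r i = rank locRes^i`, `l i = dim ∏ Hlc^i(G_v)`,
`c i = dim Hcc^i`. -/
theorem baseCount_numbers_le {s n h0 h1 h2 sh1 sh2 sh3 r0 r1 r2 l0 l1 l2 c0 c1 c2 : ℕ}
    (e0 : c0 + r0 = l0 + sh1) (e1 : c1 + r1 = l1 + sh2) (e2 : c2 + r2 = l2 + sh3)
    (d0 : h0 = r0) (d1 : h1 = sh1 + r1) (d2 : h2 = sh2 + r2)
    (hl0 : l0 = s) (hl1 : l1 = 2 * s + n) (hl2 : l2 = s) (hh0 : h0 = 1) (hsh3 : sh3 = 0)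
    (G2 : l2 ≤ r2 + 1) (G3 : sh1 ≤ sh2) (G4 : n + 2 * s + sh1 + sh2 ≤ 2 * h1) :
    c2 ≤ 1 ∧ c1 ≤ h1 ∧ c0 ≤ h2 := by
  omega

end Numbers

section Congr

variable {k G G' : Type u} [Field k] [Group G] [Group G'] {𝔉 : LevelFamily G}
  {𝔉' : LevelFamily G'} (𝔏 : LocSystem 𝔉) (A : Rep.{u} k G) (𝔏' : LocSystem 𝔉')
  (A' : Rep.{u} k G')

/-- **Transport of `dim Hcc^n`** between two local systems (e.g. through Shapiro/Mackey):
equal local dimensions, equal ranks of `locRes^n` and equal `dim ker locRes^(n+1)` give equal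
`dim Hcc^n`. -/
theorem baseCount_finrank_Hcc_congr (n : ℕ) [Finite 𝔏.ι] [Finite 𝔏'.ι]
    [∀ v, Module.Finite k (Hlc (𝔏.fam v) (𝔏.coeff A v) n)]
    [∀ v, Module.Finite k (Hlc (𝔏'.fam v) (𝔏'.coeff A' v) n)]
    [Module.Finite k (LinearMap.ker (locRes 𝔏 A (n + 1)))]
    [Module.Finite k (LinearMap.ker (locRes 𝔏' A' (n + 1)))]
    (hl : finrank k (∀ v : 𝔏.ι, Hlc (𝔏.fam v) (𝔏.coeff A v) n) =
      finrank k (∀ v : 𝔏'.ι, Hlc (𝔏'.fam v) (𝔏'.coeff A' v) n))
    (hr : finrank k (LinearMap.range (locRes 𝔏 A n)) =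
      finrank k (LinearMap.range (locRes 𝔏' A' n)))
    (hk : finrank k (LinearMap.ker (locRes 𝔏 A (n + 1))) =
      finrank k (LinearMap.ker (locRes 𝔏' A' (n + 1)))) :
    finrank k (Hcc 𝔏 A n) = finrank k (Hcc 𝔏' A' n) := by
  obtain ⟨-, e⟩ := baseCount_finrank_Hcc 𝔏 A n
  obtain ⟨-, e'⟩ := baseCount_finrank_Hcc 𝔏' A' n
  omega

/-- inequality form of the transport -/
theorem baseCount_finrank_Hcc_le (n : ℕ) [Finite 𝔏.ι] [Finite 𝔏'.ι]
    [∀ v, Module.Finite k (Hlc (𝔏.fam v) (𝔏.coeff A v) n)]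
    [∀ v, Module.Finite k (Hlc (𝔏'.fam v) (𝔏'.coeff A' v) n)]
    [Module.Finite k (LinearMap.ker (locRes 𝔏 A (n + 1)))]
    [Module.Finite k (LinearMap.ker (locRes 𝔏' A' (n + 1)))]
    (hl : finrank k (∀ v : 𝔏.ι, Hlc (𝔏.fam v) (𝔏.coeff A v) n) ≤
      finrank k (∀ v : 𝔏'.ι, Hlc (𝔏'.fam v) (𝔏'.coeff A' v) n))
    (hr : finrank k (LinearMap.range (locRes 𝔏' A' n)) ≤
      finrank k (LinearMap.range (locRes 𝔏 A n)))
    (hk : finrank k (LinearMap.ker (locRes 𝔏 A (n + 1))) ≤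
      finrank k (LinearMap.ker (locRes 𝔏' A' (n + 1)))) :
    finrank k (Hcc 𝔏 A n) ≤ finrank k (Hcc 𝔏' A' n) := by
  obtain ⟨-, e⟩ := baseCount_finrank_Hcc 𝔏 A n
  obtain ⟨-, e'⟩ := baseCount_finrank_Hcc 𝔏' A' n
  omega

end Congr

section Level

variable {k G : Type u} [Field k] [Group G] {𝔉 : LevelFamily G} (𝔏 : LocSystem 𝔉)
  (A : Rep.{u} k G)

/-- **Base count at a level, inequality form**: from the weakened global inputs (G2'), (G3'),
(G4') and the local inputs (L0)-(L3) in dimension form: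
`dim Hcc 2 ≤ 1`, `dim Hcc 1 ≤ h^1`, `dim Hcc 0 ≤ h^2`. -/
theorem baseCount_level_le [Fintype 𝔏.ι] (n : ℕ)
    (L0 : ∀ i, i ≤ 2 → ∀ v, Module.Finite k (Hlc (𝔏.fam v) (𝔏.coeff A v) i))
    (L3a : ∀ v, finrank k (Hlc (𝔏.fam v) (𝔏.coeff A v) 0) = 1)
    (L3b : ∑ v : 𝔏.ι, finrank k (Hlc (𝔏.fam v) (𝔏.coeff A v) 1) = 2 * Fintype.card 𝔏.ι + n)
    (L2 : ∀ v, finrank k (Hlc (𝔏.fam v) (𝔏.coeff A v) 2) = 1)
    (G0 : ∀ i, i ≤ 2 → Module.Finite k (Hlc 𝔉 A i))
    (G0a : finrank k (Hlc 𝔉 A 0) = 1) (G0b : Function.Injective (locRes 𝔏 A 0))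
    (G1 : Subsingleton (Hlc 𝔉 A 3))
    (G2 : Fintype.card 𝔏.ι ≤ finrank k (LinearMap.range (locRes 𝔏 A 2)) + 1)
    (G3 : finrank k (LinearMap.ker (locRes 𝔏 A 1)) ≤ finrank k (LinearMap.ker (locRes 𝔏 A 2)))
    (G4 : n + 2 * Fintype.card 𝔏.ι + finrank k (LinearMap.ker (locRes 𝔏 A 1)) +
      finrank k (LinearMap.ker (locRes 𝔏 A 2)) ≤ 2 * finrank k (Hlc 𝔉 A 1)) :
    (Module.Finite k (Hcc 𝔏 A 0) ∧ Module.Finite k (Hcc 𝔏 A 1) ∧ Module.Finite k (Hcc 𝔏 A 2)) ∧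
      finrank k (Hcc 𝔏 A 2) ≤ 1 ∧
      finrank k (Hcc 𝔏 A 1) ≤ finrank k (Hlc 𝔉 A 1) ∧
      finrank k (Hcc 𝔏 A 0) ≤ finrank k (Hlc 𝔉 A 2) := by
  have := fun v => L0 0 (by omega) v
  have h1v := fun v => L0 1 (by omega) v
  have h2v := fun v => L0 2 (by omega) v
  have := G0 0 (by omega)
  have hG1 := G0 1 (by omega)
  have hG2 := G0 2 (by omega)
  haveI : Module.Finite k (LinearMap.ker (locRes 𝔏 A 3)) := by
    haveI : Subsingleton (LinearMap.ker (locRes 𝔏 A 3)) :=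
      ⟨fun a b => Subtype.ext (Subsingleton.elim _ _)⟩
    infer_instance
  obtain ⟨f0, e0⟩ := baseCount_finrank_Hcc 𝔏 A 0
  obtain ⟨f1, e1⟩ := baseCount_finrank_Hcc 𝔏 A 1
  obtain ⟨f2, e2⟩ := baseCount_finrank_Hcc 𝔏 A 2
  refine ⟨⟨f0, f1, f2⟩, ?_⟩
  have d0 := baseCount_finrank_Hlc 𝔏 A 0
  have d1 := baseCount_finrank_Hlc 𝔏 A 1
  have d2 := baseCount_finrank_Hlc 𝔏 A 2
  have hk0 : finrank k (LinearMap.ker (locRes 𝔏 A 0)) = 0 := by
    rw [LinearMap.ker_eq_bot.mpr G0b]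
    exact finrank_bot k _
  have hk3 : finrank k (LinearMap.ker (locRes 𝔏 A 3)) = 0 := by
    haveI : Subsingleton (LinearMap.ker (locRes 𝔏 A 3)) :=
      ⟨fun a b => Subtype.ext (Subsingleton.elim _ _)⟩
    exact finrank_zero_of_subsingleton
  rw [hk0, zero_add] at d0
  have hl0 : finrank k (∀ v : 𝔏.ι, Hlc (𝔏.fam v) (𝔏.coeff A v) 0) = Fintype.card 𝔏.ι := by
    rw [baseCount_finrank_loc]
    simp [L3a]
  have hl2 : finrank k (∀ v : 𝔏.ι, Hlc (𝔏.fam v) (𝔏.coeff A v) 2) = Fintype.card 𝔏.ι := by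
    rw [baseCount_finrank_loc]
    simp [L2]
  have hl1 : finrank k (∀ v : 𝔏.ι, Hlc (𝔏.fam v) (𝔏.coeff A v) 1) =
      2 * Fintype.card 𝔏.ι + n := by
    rw [baseCount_finrank_loc, L3b]
  exact baseCount_numbers_le e0 e1 e2 d0 d1 d2 hl0 hl1 hl2 G0a hk3 (by rw [hl2]; exact G2) G3 G4

end Level

variable (p : ℕ) [Fact p.Prime] (S : Finset Nat.Primes)

/-! ### the weakened GLOBAL-OUT contracts -/

/-- (G2') the image of `H^2(G_{K,S}, 𝔽_p) → ∏_w H^2(G_{K_w}, 𝔽_p)` has codimension at most `1`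
(existence of global classes with prescribed local components of "sum zero"). -/
def GlobalOut2Le : Prop :=
  ∀ (V : Subgroup Γℚ) (hV : IsCycloLevel p S V),
    haveI := hV.normal
    Module.finrank (ZMod p)
        (∀ x : (locSV S V).ι, Hlc ((locSV S V).fam x) ((locSV S V).coeff (trivRep p ↥V) x) 2) ≤
      Module.finrank (ZMod p) (LinearMap.range (locRes (locSV S V) (trivRep p ↥V) 2)) + 1

/-- (G3') `dim Ш^1(G_{K,S}, 𝔽_p) ≤ dim Ш^2(G_{K,S}, 𝔽_p)`. -/
def GlobalOut3Le : Prop :=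
  ∀ (V : Subgroup Γℚ) (hV : IsCycloLevel p S V),
    haveI := hV.normal
    Module.finrank (ZMod p) (LinearMap.ker (locRes (locSV S V) (trivRep p ↥V) 1)) ≤
      Module.finrank (ZMod p) (LinearMap.ker (locRes (locSV S V) (trivRep p ↥V) 2))

/-- (G4') `[K:ℚ] + 2 #S(K) + dim Ш^1 + dim Ш^2 ≤ 2 h^1(G_{K,S}, 𝔽_p)`. -/
def GlobalOut4Le : Prop :=
  ∀ (V : Subgroup Γℚ) (hV : IsCycloLevel p S V),
    haveI := hV.normal
    V.index + 2 * Nat.card (locSV S V).ι +
        Module.finrank (ZMod p) (LinearMap.ker (locRes (locSV S V) (trivRep p ↥V) 1)) +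
        Module.finrank (ZMod p) (LinearMap.ker (locRes (locSV S V) (trivRep p ↥V) 2)) ≤
      2 * Module.finrank (ZMod p) (Hlc ((famS S).restrict V) (trivRep p ↥V) 1)

variable {p S}

theorem GlobalOut2.toLe (g2 : GlobalOut2 p S) : GlobalOut2Le p S := fun V hV =>
  (g2 V hV).symm.le

theorem GlobalOut3.toLe (g3 : GlobalOut3 p S) : GlobalOut3Le p S := fun V hV =>
  (g3 V hV).le

theorem GlobalOut4.toLe (g3 : GlobalOut3 p S) (g4 : GlobalOut4 p S) : GlobalOut4Le p S := by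
  intro V hV
  have h3 := g3 V hV
  have h4 := g4 V hV
  omega

/-- **Base count at an arithmetic level, inequality form** (plan v1, `(BASE_i)` as used by the
Poitou–Tate side): from (G0), (G1), (G2'), (G3'), (G4'), (L0), (L2), (L3). -/
theorem baseCount_arith_le (hpS : pPrime p ∈ S)
    (g0 : GlobalOut0 p S) (g1 : GlobalOut1 p S) (g2 : GlobalOut2Le p S) (g3 : GlobalOut3Le p S)
    (g4 : GlobalOut4Le p S) (l0 : LocalOut0 p S) (l2 : LocalOut2 p S) (l3 : LocalOut3 p S)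
    (V : Subgroup Γℚ) (hV : IsCycloLevel p S V) :
    haveI := hV.normal
    (Module.Finite (ZMod p) (Hcc (locSV S V) (trivRep p ↥V) 0) ∧
      Module.Finite (ZMod p) (Hcc (locSV S V) (trivRep p ↥V) 1) ∧
      Module.Finite (ZMod p) (Hcc (locSV S V) (trivRep p ↥V) 2)) ∧
    finrank (ZMod p) (Hcc (locSV S V) (trivRep p ↥V) 2) ≤ 1 ∧
    finrank (ZMod p) (Hcc (locSV S V) (trivRep p ↥V) 1) ≤
      finrank (ZMod p) (Hlc ((famS S).restrict V) (trivRep p ↥V) 1) ∧
    finrank (ZMod p) (Hcc (locSV S V) (trivRep p ↥V) 0) ≤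
      finrank (ZMod p) (Hlc ((famS S).restrict V) (trivRep p ↥V) 2) := by
  haveI := hV.normal
  have hVfin : V.FiniteIndex := baseCount_famS_finiteIndex S V hV.1
  haveI : Finite (locSV S V).ι := baseCount_finite_ι V hVfin
  letI : Fintype (locSV S V).ι := Fintype.ofFinite _
  have hcard : Nat.card (locSV S V).ι = Fintype.card (locSV S V).ι := Nat.card_eq_fintype_card
  -- the local groups are open
  have hopen : ∀ x : (locSV S V).ι,
      IsOpenFor (famLoc x.1.1) (V.comap (primeLocalToGlobal x.1.1)) := fun x =>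
    famLoc_compat_famS x.1.1 S V hV.1
  have hcyc : ∀ x : (locSV S V).ι, ∀ u ∈ V.comap (primeLocalToGlobal x.1.1),
      cycloChar p (primeLocalToGlobal x.1.1 u) = 1 := fun x u hu => hV.2 _ hu
  -- local inputs
  have L0 : ∀ i, i ≤ 2 → ∀ x : (locSV S V).ι, Module.Finite (ZMod p)
      (Hlc ((locSV S V).fam x) ((locSV S V).coeff (trivRep p ↥V) x) i) := fun i hi x =>
    l0 x.1.1 x.1.2 _ (hopen x) i hi
  have L3a : ∀ x : (locSV S V).ι, finrank (ZMod p)
      (Hlc ((locSV S V).fam x) ((locSV S V).coeff (trivRep p ↥V) x) 0) = 1 := fun x =>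
    baseCount_finrank_Hlc0_trivial _
  have L2 : ∀ x : (locSV S V).ι, finrank (ZMod p)
      (Hlc ((locSV S V).fam x) ((locSV S V).coeff (trivRep p ↥V) x) 2) = 1 := fun x => by
    have h := l2 x.1.1 x.1.2 _ (hopen x)
    rw [baseCount_res_res_cycloRep_eq _ _ (hcyc x)] at h
    exact h
  have L3 : ∀ x : (locSV S V).ι, finrank (ZMod p)
      (Hlc ((locSV S V).fam x) ((locSV S V).coeff (trivRep p ↥V) x) 1) =
        2 + (if ((x.1.1 : Nat.Primes) : ℕ) = p then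
          (V.comap (primeLocalToGlobal x.1.1)).index else 0) := fun x =>
    l3 x.1.1 x.1.2 _ (hopen x) (hcyc x)
  -- the sum of the local `h^1`
  classical
  set p' : (locS S).ι := ⟨pPrime p, hpS⟩ with hp'
  have hiff : ∀ x : (locSV S V).ι, ((x.1.1 : Nat.Primes) : ℕ) = p ↔ x.1 = p' := fun x => by
    constructor
    · intro h
      apply Subtype.ext
      apply Subtype.ext
      exact h
    · intro h
      rw [h]
      rfl
  have hsumite : ∑ x : (locSV S V).ι, (if ((x.1.1 : Nat.Primes) : ℕ) = p then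
      (V.comap (primeLocalToGlobal x.1.1)).index else 0) = V.index := by
    have h1 : ∀ x : (locSV S V).ι, (if ((x.1.1 : Nat.Primes) : ℕ) = p then
        (V.comap (primeLocalToGlobal x.1.1)).index else 0) =
        if x.1 = p' then (V.comap (primeLocalToGlobal p'.1)).index else 0 := fun x => by
      by_cases h : x.1 = p'
      · rw [if_pos h, if_pos ((hiff x).2 h), h]
      · rw [if_neg h, if_neg (fun h' => h ((hiff x).1 h'))]
    simp_rw [h1]
    rw [Finset.sum_ite, Finset.sum_const, Finset.sum_const_zero, add_zero, smul_eq_mul]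
    have h2 : (Finset.univ.filter fun x : (locSV S V).ι => x.1 = p').card =
        Nat.card (Γℚ ⧸ (V ⊔ ((locS S).ψ p').range)) := by
      rw [← Fintype.card_subtype, ← Nat.card_eq_fintype_card]
      exact Nat.card_congr (Equiv.sigmaSubtype p')
    rw [h2]
    exact baseCount_card_mul_index ((locS S).ψ p') V
  have L3b : ∑ x : (locSV S V).ι, finrank (ZMod p)
      (Hlc ((locSV S V).fam x) ((locSV S V).coeff (trivRep p ↥V) x) 1) =
        2 * Fintype.card (locSV S V).ι + V.index := by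
    simp_rw [L3]
    rw [Finset.sum_add_distrib, hsumite, Finset.sum_const, Finset.card_univ, smul_eq_mul, mul_comm]
  -- global inputs
  have G0 : ∀ i, i ≤ 2 → Module.Finite (ZMod p) (Hlc ((famS S).restrict V) (trivRep p ↥V) i) :=
    fun i hi => g0 V hV i hi
  have G0b : Function.Injective (locRes (locSV S V) (trivRep p ↥V) 0) := by
    intro x y hxy
    have h := congrFun hxy ⟨p', ((1 : Γℚ) : Γℚ ⧸ (V ⊔ ((locS S).ψ p').range))⟩
    exact baseCount_HlcMap_zero_injective _ _ _ _ h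
  have G2 : Fintype.card (locSV S V).ι ≤
      finrank (ZMod p) (LinearMap.range (locRes (locSV S V) (trivRep p ↥V) 2)) + 1 := by
    have h := g2 V hV
    have := fun x => L0 2 le_rfl x
    rw [baseCount_finrank_loc] at h
    simp_rw [L2] at h
    simpa using h
  have G4 : V.index + 2 * Fintype.card (locSV S V).ι +
      finrank (ZMod p) (LinearMap.ker (locRes (locSV S V) (trivRep p ↥V) 1)) +
      finrank (ZMod p) (LinearMap.ker (locRes (locSV S V) (trivRep p ↥V) 2)) ≤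
      2 * finrank (ZMod p) (Hlc ((famS S).restrict V) (trivRep p ↥V) 1) := by
    rw [← hcard]
    exact g4 V hV
  exact baseCount_level_le (locSV S V) (trivRep p ↥V) V.index L0 L3a L3b L2 G0
    (baseCount_finrank_Hlc0_trivial _) G0b (g1 V ⟨V, hV.1, le_rfl⟩ hV.2) G2 (g3 V hV) G4

end Fermat.Agent.PT
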