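/-
S55 engine (P4)(a): inner automorphisms act trivially on level-constant cohomology.

For `g : G`, conjugation `conjHom g : x ↦ g x g⁻¹` together with `a ↦ ρ(g⁻¹) a` induces the identity
on `Hlc 𝔉 A n` for every smooth `A` (dimension shifting, `PT/SmoothFun.lean`).
-/
import Fermat.Agent.CFT.PT.SmoothFun
import Fermat.Agent.CFT.PT.SmoothDelta
import Fermat.Agent.CFT.PT.SmoothShapiro

set_option autoImplicit false

namespace Fermat.Agent.PT

open CategoryTheory groupCohomology Rep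

universe u

variable {k G : Type u} [CommRing k] [Group G] (𝔉 : LevelFamily G)

/-- conjugation by `g` as a monoid endomorphism of `G`. -/
def conjHom (g : G) : G →* G := (MulAut.conj g).toMonoidHom

@[simp] lemma conjHom_apply (g x : G) : conjHom g x = g * x * g⁻¹ := rfl

/-- conjugation preserves every member of a level family (they are normal). -/
lemma compat_conj (g : G) : 𝔉.Compat (conjHom g) 𝔉 := by
  intro U hU
  have := 𝔉.normal U hU
  refine ⟨U, hU, fun x hx => ?_⟩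
  show g * x * g⁻¹ ∈ U
  exact Subgroup.Normal.conj_mem inferInstance x hx g

/-- `a ↦ ρ(g⁻¹) a : res (conj g) A ⟶ A`. -/
noncomputable def conjRepHom (A : Rep.{u} k G) (g : G) : res (conjHom g) A ⟶ A :=
  Rep.ofHom (ρ := A.ρ.comp (conjHom g)) (σ := A.ρ)
    ⟨A.ρ g⁻¹, fun x => by
      ext a
      show A.ρ g⁻¹ (A.ρ (g * x * g⁻¹) a) = A.ρ x (A.ρ g⁻¹ a)
      rw [← Module.End.mul_apply, ← map_mul, ← Module.End.mul_apply, ← map_mul]
      congr 2
      group⟩

lemma conjRepHom_apply (A : Rep.{u} k G) (g : G) (a : A) :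
    (conjRepHom A g).hom a = A.ρ g⁻¹ a := rfl

/-- the action of conjugation by `g` on level-constant cohomology. -/
noncomputable def HlcConj (A : Rep.{u} k G) (g : G) (n : ℕ) : Hlc 𝔉 A n ⟶ Hlc 𝔉 A n :=
  HlcMap (conjHom g) (conjRepHom A g) (compat_conj 𝔉 g) n

variable {𝔉}

theorem HlcConj_zero_apply (A : Rep.{u} k G) (g : G) (x : Hlc 𝔉 A 0) :
    (HlcConj 𝔉 A g 0).hom x = x := by
  obtain ⟨c, rfl⟩ := lcπ_surjective 𝔉 A 0 x
  rw [HlcConj, HlcMap_lcπ]
  congr 1
  apply Subtype.ext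
  funext y
  have hinv := (mem_lcCocycles_zero_iff (𝔉 := 𝔉) A).1 c.2
  show A.ρ g⁻¹ (c.1 _) = c.1 y
  rw [Subsingleton.elim ((fun x : Fin 0 → G => ⇑(conjHom g) ∘ x) y) default,
    Subsingleton.elim y default]
  exact hinv g⁻¹

/-- **inner automorphisms act trivially** on `Hlc` of a smooth representation. -/
theorem HlcConj_apply (hfin : 𝔉.FiniteIndex) (g : G) (n : ℕ) :
    ∀ (A : Rep.{u} k G) (_ : IsSmooth 𝔉 A) (x : Hlc 𝔉 A n), (HlcConj 𝔉 A g n).hom x = x := by
  induction n with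
  | zero => exact fun A _ x => HlcConj_zero_apply A g x
  | succ n ih =>
    intro A hA x
    obtain ⟨z, rfl⟩ := lcFunδ_surjective A hA hfin n x
    have h := lcδ_naturality_map hfin (lcFunSC_shortExact A hA) (isSmooth_lcFunSC_X₂ A hA)
      hfin (lcFunSC_shortExact A hA) (isSmooth_lcFunSC_X₂ A hA) (conjHom g) (compat_conj 𝔉 g)
      (conjRepHom (lcFunSC A hA).X₁ g) (conjRepHom (lcFunSC A hA).X₂ g)
      (conjRepHom (lcFunSC A hA).X₃ g)
      (fun a => (Rep.hom_comm_apply (lcFunSC A hA).f g⁻¹ a).symm)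
      (fun a => (Rep.hom_comm_apply (lcFunSC A hA).g g⁻¹ a).symm) n (n + 1) rfl
    have h2 := congr($h z)
    have h3 : (HlcConj 𝔉 A g (n + 1)).hom ((lcFunδ A hA hfin n).hom z) =
        (lcFunδ A hA hfin n).hom ((HlcConj 𝔉 (lcFunSC A hA).X₃ g n).hom z) := h2
    rw [h3, ih _ (isSmooth_lcFunSC_X₃ A hA) z]

end Fermat.Agent.PT
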