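/-
S55 engine (P4)(b1): module-level Mackey decomposition for a normal subgroup.

For `V ≤ G` normal, `ψ : Γ →* G` and `B : Rep k V`, the restriction along `ψ` of `Coind_V^G B`
decomposes: the maps `mackeyProj ψ V B g : res ψ (coind_V B) ⟶ coind_{ψ⁻¹V} (res (conjComap ψ V g) B)`,
`f ↦ (γ ↦ f (g * ψ γ))`, for `g` running through representatives of `G ⧸ (V ⊔ ψ.range)`, are jointly
bijective.
-/
import Mathlib
import Fermat.Agent.CFT.PT.Contracts

set_option autoImplicit false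

namespace Fermat.Agent.PT

open CategoryTheory Rep

universe u

variable {k G Γ : Type u} [CommRing k] [Group G] [Group Γ] (ψ : Γ →* G) (V : Subgroup G)
  [hVn : V.Normal]

variable (B : Rep.{u} k V)

lemma mackeyProj_mem (g : G) (f : B.ρ.coindV V.subtype) :
    (fun γ : Γ => f.1 (g * ψ γ)) ∈
      (res (conjComap ψ V g) B).ρ.coindV (V.comap ψ).subtype := by
  intro u γ
  show f.1 (g * ψ (u.1 * γ)) = B.ρ (conjComap ψ V g u) (f.1 (g * ψ γ))
  have h := f.2 (conjComap ψ V g u) (g * ψ γ)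
  rw [← h]
  have e : g * ψ (u.1 * γ) = V.subtype (conjComap ψ V g u) * (g * ψ γ) := by
    show g * ψ (u.1 * γ) = g * ψ u.1 * g⁻¹ * (g * ψ γ)
    rw [map_mul]
    group
  rw [e]

/-- The Mackey projection `f ↦ (γ ↦ f (g * ψ γ))`. -/
noncomputable def mackeyProj (g : G) :
    res ψ (coind V.subtype B) ⟶ coind (V.comap ψ).subtype (res (conjComap ψ V g) B) :=
  Rep.ofHom (ρ := (coind V.subtype B).ρ.comp ψ)
    (σ := (coind (V.comap ψ).subtype (res (conjComap ψ V g) B)).ρ)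
    ⟨{ toFun := fun f => ⟨fun γ => f.1 (g * ψ γ), mackeyProj_mem ψ V B g f⟩
       map_add' := fun _ _ => rfl
       map_smul' := fun _ _ => rfl }, fun γ' => by
      ext f γ
      show f.1 (g * ψ γ * ψ γ') = f.1 (g * ψ (γ * γ'))
      rw [map_mul, mul_assoc]⟩

lemma mackeyProj_apply (g : G) (f : B.ρ.coindV V.subtype) (γ : Γ) :
    ((mackeyProj ψ V B g).hom f :
      (res (conjComap ψ V g) B).ρ.coindV (V.comap ψ).subtype).1 γ = f.1 (g * ψ γ) := rfl

/-! ### Joint bijectivity -/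

section Bijective

/-- elements of `V ⊔ ψ.range` are products `v * ψ γ`. -/
lemma mackey_exists_mul_of_mem_sup {y : G} (hy : y ∈ V ⊔ ψ.range) :
    ∃ v : V, ∃ γ : Γ, y = v.1 * ψ γ := by
  have h : y ∈ ((V ⊔ ψ.range : Subgroup G) : Set G) := hy
  rw [Subgroup.normal_mul] at h
  obtain ⟨v, hv, z, ⟨γ, rfl⟩, rfl⟩ := Set.mem_mul.1 h
  exact ⟨⟨v, hv⟩, γ, rfl⟩

/-- every `x : G` is `(g v g⁻¹) * (g * ψ γ)` for `g` the chosen representative of its coset. -/
lemma mackey_exists_decomp (x : G) :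
    ∃ v : V, ∃ γ : Γ, x = ((x : G ⧸ (V ⊔ ψ.range)).out) * v.1 * ψ γ := by
  set g := ((x : G ⧸ (V ⊔ ψ.range)).out) with hg
  have h1 : g⁻¹ * x ∈ V ⊔ ψ.range := by
    have : ((g : G) : G ⧸ (V ⊔ ψ.range)) = (x : G ⧸ (V ⊔ ψ.range)) := by
      rw [hg]; exact QuotientGroup.out_eq' _
    exact QuotientGroup.eq.1 this
  obtain ⟨v, γ, h⟩ := mackey_exists_mul_of_mem_sup ψ V h1
  refine ⟨v, γ, ?_⟩
  rw [mul_assoc, ← h]
  group

/-- the conjugate `g v g⁻¹` as an element of `V`. -/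
def conjV (g : G) (v : V) : V := ⟨g * v.1 * g⁻¹, hVn.conj_mem _ v.2 g⟩

lemma mackey_coind_apply_mul (f : B.ρ.coindV V.subtype) (g : G) (v : V) (γ : Γ) :
    f.1 (g * v.1 * ψ γ) = B.ρ (conjV V g v) (f.1 (g * ψ γ)) := by
  have h := f.2 (conjV V g v) (g * ψ γ)
  rw [← h]
  have e : g * v.1 * ψ γ = V.subtype (conjV V g v) * (g * ψ γ) := by
    show g * v.1 * ψ γ = g * v.1 * g⁻¹ * (g * ψ γ)
    group
  rw [e]

theorem mackeyProj_injective :
    Function.Injective (fun (f : B.ρ.coindV V.subtype) (c : G ⧸ (V ⊔ ψ.range)) =>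
      (mackeyProj ψ V B c.out).hom f) := by
  intro f f' hff'
  apply Subtype.ext
  funext x
  obtain ⟨v, γ, hx⟩ := mackey_exists_decomp ψ V x
  set c : G ⧸ (V ⊔ ψ.range) := (x : G ⧸ (V ⊔ ψ.range)) with hc
  have h1 := congrFun hff' c
  have h2 := congrArg (fun φ : (res (conjComap ψ V c.out) B).ρ.coindV (V.comap ψ).subtype =>
    φ.1 γ) h1
  have h3 : f.1 (c.out * ψ γ) = f'.1 (c.out * ψ γ) := h2
  rw [hx, mackey_coind_apply_mul ψ V B f, mackey_coind_apply_mul ψ V B f', h3]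

/-- well-definedness of the glueing. -/
lemma mackey_glue_wd (c : G ⧸ (V ⊔ ψ.range))
    (φ : (res (conjComap ψ V c.out) B).ρ.coindV (V.comap ψ).subtype) (v v' : V) (γ γ' : Γ)
    (h : v.1 * ψ γ = v'.1 * ψ γ') :
    B.ρ (conjV V c.out v) (φ.1 γ) = B.ρ (conjV V c.out v') (φ.1 γ') := by
  -- u := γ * γ'⁻¹ ∈ ψ⁻¹ V
  have hu : ψ (γ * γ'⁻¹) = v.1⁻¹ * v'.1 := by
    rw [map_mul, map_inv]
    have : ψ γ = v.1⁻¹ * (v'.1 * ψ γ') := by rw [← h]; group
    rw [this]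
    group
  have huV : γ * γ'⁻¹ ∈ V.comap ψ := by
    show ψ (γ * γ'⁻¹) ∈ V
    rw [hu]
    exact V.mul_mem (V.inv_mem v.2) v'.2
  have h1 := φ.2 ⟨γ * γ'⁻¹, huV⟩ γ'
  have h2 : (V.comap ψ).subtype ⟨γ * γ'⁻¹, huV⟩ * γ' = γ := by
    show γ * γ'⁻¹ * γ' = γ
    group
  rw [h2] at h1
  rw [h1]
  show B.ρ (conjV V c.out v) (B.ρ (conjComap ψ V c.out ⟨γ * γ'⁻¹, huV⟩) (φ.1 γ')) = _
  rw [← Module.End.mul_apply, ← map_mul]
  congr 2
  apply Subtype.ext
  show c.out * v.1 * c.out⁻¹ * (c.out * ψ (γ * γ'⁻¹) * c.out⁻¹) = c.out * v'.1 * c.out⁻¹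
  rw [hu]
  group

theorem mackeyProj_surjective :
    Function.Surjective (fun (f : B.ρ.coindV V.subtype) (c : G ⧸ (V ⊔ ψ.range)) =>
      (mackeyProj ψ V B c.out).hom f) := by
  classical
  intro φ
  choose vx γx hx using mackey_exists_decomp ψ V
  -- the glued function
  let F : G → B := fun x => B.ρ (conjV V ((x : G ⧸ (V ⊔ ψ.range)).out) (vx x))
    ((φ (x : G ⧸ (V ⊔ ψ.range))).1 (γx x))
  -- key formula
  have key : ∀ (c : G ⧸ (V ⊔ ψ.range)) (v : V) (γ : Γ),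
      F (c.out * v.1 * ψ γ) = B.ρ (conjV V c.out v) ((φ c).1 γ) := by
    intro c v γ
    set x := c.out * v.1 * ψ γ with hxdef
    have hc : (x : G ⧸ (V ⊔ ψ.range)) = c := by
      have h1 : c.out⁻¹ * x ∈ V ⊔ ψ.range := by
        have : c.out⁻¹ * x = v.1 * ψ γ := by rw [hxdef]; group
        rw [this]
        exact (V ⊔ ψ.range).mul_mem (Subgroup.mem_sup_left v.2)
          (Subgroup.mem_sup_right ⟨γ, rfl⟩)
      have h2 : ((c.out : G) : G ⧸ (V ⊔ ψ.range)) = (x : G ⧸ (V ⊔ ψ.range)) :=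
        QuotientGroup.eq.2 h1
      rw [← h2]
      exact QuotientGroup.out_eq' c
    have h3 := hx x
    show B.ρ (conjV V ((x : G ⧸ (V ⊔ ψ.range)).out) (vx x))
      ((φ (x : G ⧸ (V ⊔ ψ.range))).1 (γx x)) = _
    -- rewrite the coset of x to c
    have h4 : ∀ (c' : G ⧸ (V ⊔ ψ.range)) (hc' : c' = c), x = c'.out * (vx x).1 * ψ (γx x) →
        B.ρ (conjV V c'.out (vx x)) ((φ c').1 (γx x)) = B.ρ (conjV V c.out v) ((φ c).1 γ) := by
      intro c' hc' h5
      subst hc'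
      apply mackey_glue_wd ψ V B c' (φ c') (vx x) v (γx x) γ
      have h6 : c'.out * (vx x).1 * ψ (γx x) = c'.out * v.1 * ψ γ := h5.symm.trans hxdef
      have h7 : c'.out * ((vx x).1 * ψ (γx x)) = c'.out * (v.1 * ψ γ) := by
        rw [← mul_assoc, ← mul_assoc]; exact h6
      exact mul_left_cancel h7
    exact h4 _ hc h3
  have hFmem : F ∈ B.ρ.coindV V.subtype := by
    intro w x
    show F (w.1 * x) = B.ρ w (F x)
    have h1 := hx x
    set c : G ⧸ (V ⊔ ψ.range) := (x : G ⧸ (V ⊔ ψ.range)) with hc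
    have h2 : w.1 * x = c.out * (conjV V c.out⁻¹ w * vx x : V).1 * ψ (γx x) := by
      conv_lhs => rw [h1]
      show w.1 * (c.out * (vx x).1 * ψ (γx x)) =
        c.out * (c.out⁻¹ * w.1 * c.out⁻¹⁻¹ * (vx x).1) * ψ (γx x)
      group
    rw [h2, key c _ (γx x)]
    have h3 : F x = B.ρ (conjV V c.out (vx x)) ((φ c).1 (γx x)) := by
      conv_lhs => rw [h1]
      exact key c (vx x) (γx x)
    rw [h3, ← Module.End.mul_apply, ← map_mul]
    congr 2
    apply Subtype.ext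
    show c.out * (c.out⁻¹ * w.1 * c.out⁻¹⁻¹ * (vx x).1) * c.out⁻¹ =
      w.1 * (c.out * (vx x).1 * c.out⁻¹)
    group
  refine ⟨⟨F, hFmem⟩, ?_⟩
  funext c
  apply Subtype.ext
  funext γ
  show F (c.out * ψ γ) = (φ c).1 γ
  have h1 := key c 1 γ
  have h2 : c.out * ((1 : V) : G) * ψ γ = c.out * ψ γ := by simp
  rw [h2] at h1
  rw [h1]
  have h3 : conjV V c.out 1 = 1 := by
    apply Subtype.ext
    show c.out * ((1 : V) : G) * c.out⁻¹ = 1
    simp
  rw [h3, map_one]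
  rfl

/-- **Module-level Mackey decomposition** (normal `V`): the projections at the representatives
of `G ⧸ (V ⊔ ψ.range)` are jointly bijective. -/
theorem mackeyProj_bijective :
    Function.Bijective (fun (f : B.ρ.coindV V.subtype) (c : G ⧸ (V ⊔ ψ.range)) =>
      (mackeyProj ψ V B c.out).hom f) :=
  ⟨mackeyProj_injective ψ V B, mackeyProj_surjective ψ V B⟩

end Bijective

end Fermat.Agent.PT
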