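/-
S55 engine (P4)(b3),(c),(d) (helper15): the Mackey–Shapiro transfer for a normal open subgroup.

`𝔏 : LocSystem 𝔉` a system of local groups over `(G, 𝔉)`, `V ≤ G` a normal member of `𝔉`,
`B : Rep k V` smooth.  Then the localisation map of `(𝔏, Coind_V^G B)` is isomorphic to the
localisation map of `(𝔏.restrictNormal V, B)`:

* `mackeyLoc` : for one local group `ψ : Γ →* G` and `g : G`, the map
  `Hlc(Γ, Res_ψ Coind_V^G B) → Hlc(ψ⁻¹V, Res_{conj g ∘ ψ} B)` (restrict to `ψ⁻¹ V`, evaluate at `g`);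
  `mackeyLoc_bijective` : the product over representatives `g_c` of `G ⧸ V·ψ(Γ)` is bijective;
* `mackeyLocAll`, `mackeyLocAll_bijective` : all places together;
* `mackey_square` : `mackeyLocAll ∘ locRes 𝔏 (Coind B) = locRes (𝔏.restrictNormal V) B ∘ HlcShapiro`;
* dimension corollaries `finrank_ker_locRes_coind`, `finrank_range_locRes_coind`, ….
-/
import Fermat.Agent.CFT.PT.MackeyModule
import Fermat.Agent.CFT.PT.InnerTrivial
import Fermat.Agent.CFT.PT.SmoothProd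
import Fermat.Agent.CFT.PT.Contracts

set_option autoImplicit false

namespace Fermat.Agent.PT

open CategoryTheory groupCohomology Rep

universe u

variable {k G : Type u} [CommRing k] [Group G]

/-- smoothness is inherited along compatible maps. -/
theorem IsSmooth.res_of_compat {H : Type u} [Group H] {𝔉H : LevelFamily H} {𝔉G : LevelFamily G}
    {ψ : H →* G} (hψ : 𝔉H.Compat ψ 𝔉G) {A : Rep.{u} k G} (hA : IsSmooth 𝔉G A) :
    IsSmooth 𝔉H (res ψ A) := by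
  intro a
  obtain ⟨U, hU, hUa⟩ := hA a
  obtain ⟨W, hW, hWU⟩ := hψ U hU
  exact ⟨W, hW, fun w hw => hUa (ψ w) (hWU hw)⟩

section Local

variable {Γ : Type u} [Group Γ] (𝔉Γ : LevelFamily Γ) (ψ : Γ →* G) (V : Subgroup G) [V.Normal]
  (B : Rep.{u} k V)

/-- restrict to `ψ⁻¹ V` and evaluate at `g`. -/
noncomputable def mackeyLoc (g : G) (n : ℕ) :
    Hlc 𝔉Γ (res ψ (coind V.subtype B)) n →ₗ[k]
      Hlc (𝔉Γ.restrict (V.comap ψ)) (res (conjComap ψ V g) B) n :=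
  (HlcShapiro 𝔉Γ (V.comap ψ) (res (conjComap ψ V g) B) n).hom ∘ₗ
    (HlcMap (MonoidHom.id Γ) (mackeyProj ψ V B g) 𝔉Γ.compat_id n).hom

/-- the cocycle "restrict to `ψ⁻¹ V`, evaluate at `g`". -/
def mackeyCochain (g : G) (n : ℕ) (φ : (Fin n → Γ) → (res ψ (coind V.subtype B))) :
    (Fin n → ↥(V.comap ψ)) → (res (conjComap ψ V g) B) :=
  fun u => (φ ((V.comap ψ).subtype ∘ u)).1 g

theorem mackeyCochain_eq (g : G) (n : ℕ) (φ : (Fin n → Γ) → (res ψ (coind V.subtype B))) :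
    mackeyCochain ψ V B g n φ =
      ((cochainsMap (V.comap ψ).subtype (coindEv (V.comap ψ) (res (conjComap ψ V g) B))).f n).hom
        (((cochainsMap (MonoidHom.id Γ) (mackeyProj ψ V B g)).f n).hom φ) := by
  funext u
  show (φ ((V.comap ψ).subtype ∘ u)).1 g = (φ ((V.comap ψ).subtype ∘ u)).1 (g * ψ 1)
  rw [map_one, mul_one]

theorem mackeyCochain_mem_lcCocycles (g : G) (n : ℕ)
    {φ : (Fin n → Γ) → (res ψ (coind V.subtype B))}
    (hφ : φ ∈ lcCocycles 𝔉Γ (res ψ (coind V.subtype B)) n) :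
    mackeyCochain ψ V B g n φ ∈
      lcCocycles (𝔉Γ.restrict (V.comap ψ)) (res (conjComap ψ V g) B) n := by
  rw [mackeyCochain_eq]
  exact cochainsMap_mem_lcCocycles _ _ (𝔉Γ.compat_subtype _)
    (cochainsMap_mem_lcCocycles _ _ 𝔉Γ.compat_id hφ)

/-- `mackeyLoc` on classes of cocycles. -/
theorem mackeyLoc_lcπ (g : G) (n : ℕ) (φ : lcCocycles 𝔉Γ (res ψ (coind V.subtype B)) n) :
    mackeyLoc 𝔉Γ ψ V B g n (lcπ 𝔉Γ _ n φ) =
      lcπ (𝔉Γ.restrict (V.comap ψ)) (res (conjComap ψ V g) B) n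
        ⟨mackeyCochain ψ V B g n φ.1, mackeyCochain_mem_lcCocycles 𝔉Γ ψ V B g n φ.2⟩ := by
  unfold mackeyLoc
  rw [LinearMap.comp_apply, HlcMap_lcπ, HlcShapiro_lcπ]
  congr 1
  apply Subtype.ext
  exact (mackeyCochain_eq ψ V B g n φ.1).symm

/-- **local Mackey–Shapiro**: the product over the representatives of `G ⧸ V·ψ(Γ)` of the maps
"restrict to `ψ⁻¹ V`, evaluate at `g_c`" is bijective. -/
theorem mackeyLoc_bijective (hfinΓ : 𝔉Γ.FiniteIndex) (hopen : IsOpenFor 𝔉Γ (V.comap ψ))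
    [Finite (G ⧸ (V ⊔ ψ.range))]
    (hBsm : ∀ g, IsSmooth (𝔉Γ.restrict (V.comap ψ)) (res (conjComap ψ V g) B)) (n : ℕ) :
    Function.Bijective (fun (x : Hlc 𝔉Γ (res ψ (coind V.subtype B)) n)
      (c : G ⧸ (V ⊔ ψ.range)) => mackeyLoc 𝔉Γ ψ V B (Quotient.out c) n x) := by
  have h1 := HlcPiMap_bijective 𝔉Γ (p := fun c : G ⧸ (V ⊔ ψ.range) =>
    mackeyProj ψ V B (Quotient.out c)) (mackeyProj_bijective ψ V B) n
  have h2 : ∀ c : G ⧸ (V ⊔ ψ.range), Function.Bijective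
      (HlcShapiro 𝔉Γ (V.comap ψ) (res (conjComap ψ V (Quotient.out c)) B) n).hom :=
    fun c => HlcShapiro_bijective hfinΓ hopen n _ (hBsm _)
  constructor
  · intro x x' hxx'
    apply h1.1
    funext c
    exact (h2 c).1 (congrFun hxx' c)
  · intro y
    have hy : ∀ c, ∃ z, (HlcShapiro 𝔉Γ (V.comap ψ)
        (res (conjComap ψ V (Quotient.out c)) B) n).hom z = y c := fun c => (h2 c).2 (y c)
    choose z hz using hy
    obtain ⟨x, hx⟩ := h1.2 z
    refine ⟨x, funext fun c => ?_⟩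
    show (HlcShapiro 𝔉Γ (V.comap ψ) (res (conjComap ψ V (Quotient.out c)) B) n).hom
      ((HlcMap (MonoidHom.id Γ) (mackeyProj ψ V B (Quotient.out c)) 𝔉Γ.compat_id n).hom x) = y c
    rw [← hz c, ← hx]
    rfl

end Local

/-- conjugating after a compatible map is compatible with the restricted level families. -/
theorem compat_conjComap {Γ : Type u} [Group Γ] {𝔉Γ : LevelFamily Γ} {𝔉 : LevelFamily G}
    {ψ : Γ →* G} (hψ : 𝔉Γ.Compat ψ 𝔉) (V : Subgroup G) [V.Normal] (g : G) :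
    (𝔉Γ.restrict (V.comap ψ)).Compat (conjComap ψ V g) (𝔉.restrict V) := by
  rintro W ⟨U, hU, rfl⟩
  obtain ⟨U', hU', hle⟩ := hψ U hU
  refine ⟨U'.subgroupOf (V.comap ψ), ⟨U', hU', rfl⟩, ?_⟩
  intro u hu
  have h1 : ψ (u : Γ) ∈ U := hle hu
  have hn : U.Normal := 𝔉.normal U hU
  change (conjComap ψ V g u : G) ∈ U
  rw [conjComap_coe]
  exact hn.conj_mem _ h1 _

section Square

variable {R : Type*} [CommRing R] {M N M' N' : Type*} [AddCommGroup M] [Module R M]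
  [AddCommGroup N] [Module R N] [AddCommGroup M'] [Module R M'] [AddCommGroup N'] [Module R N']

/-- isomorphic arrows have isomorphic kernels. -/
noncomputable def kerEquivOfSquare (f : M →ₗ[R] N) (f' : M' →ₗ[R] N') (e₁ : M ≃ₗ[R] M')
    (e₂ : N ≃ₗ[R] N') (h : ∀ x, e₂ (f x) = f' (e₁ x)) :
    LinearMap.ker f ≃ₗ[R] LinearMap.ker f' :=
  LinearEquiv.ofSubmodules e₁ (LinearMap.ker f) (LinearMap.ker f') (by
    ext x'
    constructor
    · rintro ⟨x, hx, rfl⟩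
      have hx0 : f x = 0 := hx
      show f' (e₁ x) = 0
      rw [← h, hx0, map_zero]
    · intro hx'
      have hx0 : f' x' = 0 := hx'
      refine ⟨e₁.symm x', ?_, e₁.apply_symm_apply x'⟩
      show f (e₁.symm x') = 0
      apply e₂.injective
      rw [h, e₁.apply_symm_apply, hx0, map_zero])

@[simp] theorem kerEquivOfSquare_coe (f : M →ₗ[R] N) (f' : M' →ₗ[R] N') (e₁ : M ≃ₗ[R] M')
    (e₂ : N ≃ₗ[R] N') (h : ∀ x, e₂ (f x) = f' (e₁ x)) (x : LinearMap.ker f) :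
    ((kerEquivOfSquare f f' e₁ e₂ h x : LinearMap.ker f') : M') = e₁ x := rfl

/-- isomorphic arrows have isomorphic ranges. -/
noncomputable def rangeEquivOfSquare (f : M →ₗ[R] N) (f' : M' →ₗ[R] N') (e₁ : M ≃ₗ[R] M')
    (e₂ : N ≃ₗ[R] N') (h : ∀ x, e₂ (f x) = f' (e₁ x)) :
    LinearMap.range f ≃ₗ[R] LinearMap.range f' :=
  LinearEquiv.ofSubmodules e₂ (LinearMap.range f) (LinearMap.range f') (by
    ext y'
    constructor
    · rintro ⟨y, ⟨x, rfl⟩, rfl⟩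
      exact ⟨e₁ x, (h x).symm⟩
    · rintro ⟨x', rfl⟩
      refine ⟨f (e₁.symm x'), ⟨_, rfl⟩, ?_⟩
      show e₂ (f (e₁.symm x')) = f' x'
      rw [h, e₁.apply_symm_apply])

@[simp] theorem rangeEquivOfSquare_coe (f : M →ₗ[R] N) (f' : M' →ₗ[R] N') (e₁ : M ≃ₗ[R] M')
    (e₂ : N ≃ₗ[R] N') (h : ∀ x, e₂ (f x) = f' (e₁ x)) (y : LinearMap.range f) :
    ((rangeEquivOfSquare f f' e₁ e₂ h y : LinearMap.range f') : N') = e₂ y := rfl

end Square

section Global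

variable {𝔉 : LevelFamily G} (𝔏 : LocSystem 𝔉) (V : Subgroup G) [V.Normal] (B : Rep.{u} k V)

/-- all local Mackey–Shapiro maps together: the component at `(v, c)` is "restrict the class at `v`
to `ψ_v⁻¹ V` and evaluate at the representative of `c`". -/
noncomputable def mackeyLocAll (n : ℕ) :
    (∀ v : 𝔏.ι, Hlc (𝔏.fam v) (𝔏.coeff (coind V.subtype B) v) n) →ₗ[k]
      ∀ x : (𝔏.restrictNormal V).ι,
        Hlc ((𝔏.restrictNormal V).fam x) ((𝔏.restrictNormal V).coeff B x) n :=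
  LinearMap.pi fun x =>
    mackeyLoc (𝔏.fam x.1) (𝔏.ψ x.1) V B (Quotient.out x.2) n ∘ₗ LinearMap.proj x.1

theorem mackeyLocAll_apply (n : ℕ)
    (y : ∀ v : 𝔏.ι, Hlc (𝔏.fam v) (𝔏.coeff (coind V.subtype B) v) n)
    (x : (𝔏.restrictNormal V).ι) :
    mackeyLocAll 𝔏 V B n y x =
      mackeyLoc (𝔏.fam x.1) (𝔏.ψ x.1) V B (Quotient.out x.2) n (y x.1) := rfl

variable {V} in
omit [V.Normal] in
theorem finite_quotient_sup_range (hfin : 𝔉.FiniteIndex) (hV : V ∈ 𝔉.sets) (v : 𝔏.ι) :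
    Finite (G ⧸ (V ⊔ (𝔏.ψ v).range)) := by
  have h1 : V.FiniteIndex := hfin V hV
  have h2 : (V ⊔ (𝔏.ψ v).range).FiniteIndex := Subgroup.finiteIndex_of_le le_sup_left
  exact Subgroup.finite_quotient_of_finiteIndex

variable {V B} in
/-- **Mackey–Shapiro for the local terms**: `∏_v Hlc^n(G_v, Coind_V^G B) ≅ ∏_{(v,c)} Hlc^n(ψ_v⁻¹V, B)`. -/
theorem mackeyLocAll_bijective (hfin : 𝔉.FiniteIndex) (hV : V ∈ 𝔉.sets)
    (hfinL : ∀ v, (𝔏.fam v).FiniteIndex) (hB : IsSmooth (𝔉.restrict V) B) (n : ℕ) :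
    Function.Bijective (mackeyLocAll 𝔏 V B n) := by
  have hloc : ∀ v : 𝔏.ι, Function.Bijective
      (fun (x : Hlc (𝔏.fam v) (res (𝔏.ψ v) (coind V.subtype B)) n)
        (c : G ⧸ (V ⊔ (𝔏.ψ v).range)) =>
          mackeyLoc (𝔏.fam v) (𝔏.ψ v) V B (Quotient.out c) n x) := by
    intro v
    have := finite_quotient_sup_range 𝔏 hfin hV v
    exact mackeyLoc_bijective (𝔏.fam v) (𝔏.ψ v) V B (hfinL v) (𝔏.compat v V hV)
      (fun g => IsSmooth.res_of_compat (compat_conjComap (𝔏.compat v) V g) hB) n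
  constructor
  · intro y y' hyy'
    funext v
    apply (hloc v).1
    funext c
    exact congrFun hyy' ⟨v, c⟩
  · intro z
    have hz : ∀ v : 𝔏.ι, ∃ y : Hlc (𝔏.fam v) (res (𝔏.ψ v) (coind V.subtype B)) n,
        (fun c : G ⧸ (V ⊔ (𝔏.ψ v).range) =>
          mackeyLoc (𝔏.fam v) (𝔏.ψ v) V B (Quotient.out c) n y) = fun c => z ⟨v, c⟩ :=
      fun v => (hloc v).2 fun c => z ⟨v, c⟩
    choose y hy using hz
    refine ⟨y, ?_⟩
    funext x
    obtain ⟨v, c⟩ := x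
    exact congrFun (hy v) c

variable {V B} in
/-- **the Mackey–Shapiro square**: localisation of `Coind_V^G B` over `𝔏` corresponds to
localisation of `B` over `𝔏.restrictNormal V` under the Shapiro isomorphisms. (Inner automorphisms
act trivially on `Hlc`, so evaluating at `g_c` instead of `1` does not matter.) -/
theorem mackey_square (hfin : 𝔉.FiniteIndex) (hV : V ∈ 𝔉.sets)
    (hB : IsSmooth (𝔉.restrict V) B) (n : ℕ) (y : Hlc 𝔉 (coind V.subtype B) n) :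
    mackeyLocAll 𝔏 V B n (locRes 𝔏 (coind V.subtype B) n y) =
      locRes (𝔏.restrictNormal V) B n ((HlcShapiro 𝔉 V B n).hom y) := by
  funext x
  obtain ⟨v, c⟩ := x
  have hsm : IsSmooth 𝔉 (coind V.subtype B) := isSmooth_coind hfin ⟨V, hV, le_rfl⟩ hB
  have hconj := HlcConj_apply hfin (Quotient.out c) n (coind V.subtype B) hsm y
  obtain ⟨Φ, rfl⟩ := lcπ_surjective 𝔉 (coind V.subtype B) n y
  rw [mackeyLocAll_apply]
  conv_lhs => rw [← hconj]
  rw [HlcConj, HlcMap_lcπ, locRes_lcπ, mackeyLoc_lcπ, HlcShapiro_lcπ, locRes_lcπ]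
  congr 1
  apply Subtype.ext
  funext u
  show (Φ.1 (fun i => conjHom (Quotient.out c) (𝔏.ψ v (u i : 𝔏.Gv v)))).1
      (Quotient.out c * (Quotient.out c)⁻¹) =
    (Φ.1 (fun i => V.subtype (conjComap (𝔏.ψ v) V (Quotient.out c) (u i)))).1 1
  rw [mul_inv_cancel]
  rfl

/-! ### (d): the two localisation arrows are isomorphic -/

variable {V B} in
/-- the Mackey–Shapiro equivalence of the local terms. -/
noncomputable def mackeyLocAllEquiv (hfin : 𝔉.FiniteIndex) (hV : V ∈ 𝔉.sets)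
    (hfinL : ∀ v, (𝔏.fam v).FiniteIndex) (hB : IsSmooth (𝔉.restrict V) B) (n : ℕ) :
    (∀ v : 𝔏.ι, Hlc (𝔏.fam v) (𝔏.coeff (coind V.subtype B) v) n) ≃ₗ[k]
      ∀ x : (𝔏.restrictNormal V).ι,
        Hlc ((𝔏.restrictNormal V).fam x) ((𝔏.restrictNormal V).coeff B x) n :=
  LinearEquiv.ofBijective (mackeyLocAll 𝔏 V B n) (mackeyLocAll_bijective 𝔏 hfin hV hfinL hB n)

variable {V B} in
@[simp] theorem mackeyLocAllEquiv_apply (hfin : 𝔉.FiniteIndex) (hV : V ∈ 𝔉.sets)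
    (hfinL : ∀ v, (𝔏.fam v).FiniteIndex) (hB : IsSmooth (𝔉.restrict V) B) (n : ℕ)
    (y : ∀ v : 𝔏.ι, Hlc (𝔏.fam v) (𝔏.coeff (coind V.subtype B) v) n) :
    mackeyLocAllEquiv 𝔏 hfin hV hfinL hB n y = mackeyLocAll 𝔏 V B n y := rfl

variable {V B} in
/-- the square in terms of the two equivalences. -/
theorem mackey_square' (hfin : 𝔉.FiniteIndex) (hV : V ∈ 𝔉.sets)
    (hfinL : ∀ v, (𝔏.fam v).FiniteIndex) (hB : IsSmooth (𝔉.restrict V) B) (n : ℕ)
    (y : Hlc 𝔉 (coind V.subtype B) n) :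
    mackeyLocAllEquiv 𝔏 hfin hV hfinL hB n (locRes 𝔏 (coind V.subtype B) n y) =
      locRes (𝔏.restrictNormal V) B n (shapEquiv hfin ⟨V, hV, le_rfl⟩ B hB n y) :=
  mackey_square 𝔏 hfin hV hB n y

variable {V B} in
/-- `Ш^n(𝔏, Coind_V^G B) ≅ Ш^n(𝔏|V, B)`. -/
noncomputable def mackeyKerEquiv (hfin : 𝔉.FiniteIndex) (hV : V ∈ 𝔉.sets)
    (hfinL : ∀ v, (𝔏.fam v).FiniteIndex) (hB : IsSmooth (𝔉.restrict V) B) (n : ℕ) :
    LinearMap.ker (locRes 𝔏 (coind V.subtype B) n) ≃ₗ[k]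
      LinearMap.ker (locRes (𝔏.restrictNormal V) B n) :=
  kerEquivOfSquare _ _ (shapEquiv hfin ⟨V, hV, le_rfl⟩ B hB n)
    (mackeyLocAllEquiv 𝔏 hfin hV hfinL hB n) (mackey_square' 𝔏 hfin hV hfinL hB n)

variable {V B} in
/-- the images of the two localisation maps are isomorphic. -/
noncomputable def mackeyRangeEquiv (hfin : 𝔉.FiniteIndex) (hV : V ∈ 𝔉.sets)
    (hfinL : ∀ v, (𝔏.fam v).FiniteIndex) (hB : IsSmooth (𝔉.restrict V) B) (n : ℕ) :
    LinearMap.range (locRes 𝔏 (coind V.subtype B) n) ≃ₗ[k]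
      LinearMap.range (locRes (𝔏.restrictNormal V) B n) :=
  rangeEquivOfSquare _ _ (shapEquiv hfin ⟨V, hV, le_rfl⟩ B hB n)
    (mackeyLocAllEquiv 𝔏 hfin hV hfinL hB n) (mackey_square' 𝔏 hfin hV hfinL hB n)

variable {V B} in
omit [V.Normal] in
/-- `h^n(G, Coind_V^G B) = h^n(V, B)`. -/
theorem finrank_Hlc_coind (hfin : 𝔉.FiniteIndex) (hV : V ∈ 𝔉.sets)
    (hB : IsSmooth (𝔉.restrict V) B) (n : ℕ) :
    Module.finrank k (Hlc 𝔉 (coind V.subtype B) n) =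
      Module.finrank k (Hlc (𝔉.restrict V) B n) :=
  (shapEquiv hfin ⟨V, hV, le_rfl⟩ B hB n).finrank_eq

variable {V B} in
/-- `l^n(𝔏, Coind_V^G B) = l^n(𝔏|V, B)`. -/
theorem finrank_locProd_coind (hfin : 𝔉.FiniteIndex) (hV : V ∈ 𝔉.sets)
    (hfinL : ∀ v, (𝔏.fam v).FiniteIndex) (hB : IsSmooth (𝔉.restrict V) B) (n : ℕ) :
    Module.finrank k (∀ v : 𝔏.ι, Hlc (𝔏.fam v) (𝔏.coeff (coind V.subtype B) v) n) =
      Module.finrank k (∀ x : (𝔏.restrictNormal V).ι,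
        Hlc ((𝔏.restrictNormal V).fam x) ((𝔏.restrictNormal V).coeff B x) n) :=
  (mackeyLocAllEquiv 𝔏 hfin hV hfinL hB n).finrank_eq

variable {V B} in
/-- `s^n(𝔏, Coind_V^G B) = s^n(𝔏|V, B)`. -/
theorem finrank_ker_locRes_coind (hfin : 𝔉.FiniteIndex) (hV : V ∈ 𝔉.sets)
    (hfinL : ∀ v, (𝔏.fam v).FiniteIndex) (hB : IsSmooth (𝔉.restrict V) B) (n : ℕ) :
    Module.finrank k (LinearMap.ker (locRes 𝔏 (coind V.subtype B) n)) =
      Module.finrank k (LinearMap.ker (locRes (𝔏.restrictNormal V) B n)) :=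
  (mackeyKerEquiv 𝔏 hfin hV hfinL hB n).finrank_eq

variable {V B} in
/-- `rank locRes^n(𝔏, Coind_V^G B) = rank locRes^n(𝔏|V, B)`. -/
theorem finrank_range_locRes_coind (hfin : 𝔉.FiniteIndex) (hV : V ∈ 𝔉.sets)
    (hfinL : ∀ v, (𝔏.fam v).FiniteIndex) (hB : IsSmooth (𝔉.restrict V) B) (n : ℕ) :
    Module.finrank k (LinearMap.range (locRes 𝔏 (coind V.subtype B) n)) =
      Module.finrank k (LinearMap.range (locRes (𝔏.restrictNormal V) B n)) :=
  (mackeyRangeEquiv 𝔏 hfin hV hfinL hB n).finrank_eq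

variable {V B} in
/-- injectivity / surjectivity of the localisation map transfer. -/
theorem locRes_coind_injective_iff (hfin : 𝔉.FiniteIndex) (hV : V ∈ 𝔉.sets)
    (hfinL : ∀ v, (𝔏.fam v).FiniteIndex) (hB : IsSmooth (𝔉.restrict V) B) (n : ℕ) :
    Function.Injective (locRes 𝔏 (coind V.subtype B) n) ↔
      Function.Injective (locRes (𝔏.restrictNormal V) B n) := by
  have hsq := mackey_square' 𝔏 hfin hV hfinL hB n
  constructor
  · intro h y y' hyy'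
    have h1 : (shapEquiv hfin ⟨V, hV, le_rfl⟩ B hB n).symm y =
        (shapEquiv hfin ⟨V, hV, le_rfl⟩ B hB n).symm y' := by
      apply h
      apply (mackeyLocAllEquiv 𝔏 hfin hV hfinL hB n).injective
      rw [hsq, hsq, LinearEquiv.apply_symm_apply, LinearEquiv.apply_symm_apply, hyy']
    exact (shapEquiv hfin ⟨V, hV, le_rfl⟩ B hB n).symm.injective h1
  · intro h y y' hyy'
    apply (shapEquiv hfin ⟨V, hV, le_rfl⟩ B hB n).injective
    apply h
    rw [← hsq, ← hsq, hyy']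

variable {V B} in
theorem locRes_coind_surjective_iff (hfin : 𝔉.FiniteIndex) (hV : V ∈ 𝔉.sets)
    (hfinL : ∀ v, (𝔏.fam v).FiniteIndex) (hB : IsSmooth (𝔉.restrict V) B) (n : ℕ) :
    Function.Surjective (locRes 𝔏 (coind V.subtype B) n) ↔
      Function.Surjective (locRes (𝔏.restrictNormal V) B n) := by
  have hsq := mackey_square' 𝔏 hfin hV hfinL hB n
  constructor
  · intro h z
    obtain ⟨y, hy⟩ := h ((mackeyLocAllEquiv 𝔏 hfin hV hfinL hB n).symm z)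
    refine ⟨shapEquiv hfin ⟨V, hV, le_rfl⟩ B hB n y, ?_⟩
    rw [← hsq, hy, LinearEquiv.apply_symm_apply]
  · intro h z
    obtain ⟨y, hy⟩ := h (mackeyLocAllEquiv 𝔏 hfin hV hfinL hB n z)
    refine ⟨(shapEquiv hfin ⟨V, hV, le_rfl⟩ B hB n).symm y, ?_⟩
    apply (mackeyLocAllEquiv 𝔏 hfin hV hfinL hB n).injective
    rw [hsq, LinearEquiv.apply_symm_apply, hy]

end Global

end Fermat.Agent.PT
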