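/-
S55 engine (P4)(d'), (helper15): the compactly supported (cone) cohomology of `Coind_V^G B` over `𝔏`
has the same dimension as that of `B` over `𝔏.restrictNormal V` (coefficients in a field).

`dim Hcc^n = dim ∏_v Hlc^n(G_v) - rank locRes^n + dim ker locRes^{n+1}` (`baseCount_finrank_Hcc`), and
the three terms on the right transfer by `PT/Mackey.lean`.
-/
import Fermat.Agent.CFT.PT.Mackey
import Fermat.Agent.CFT.PT.BaseCount

set_option autoImplicit false

namespace Fermat.Agent.PT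

open CategoryTheory groupCohomology Rep Module

universe u

variable {k G : Type u} [Field k] [Group G] {𝔉 : LevelFamily G} (𝔏 : LocSystem 𝔉)
  {V : Subgroup G} [V.Normal] {B : Rep.{u} k V}

/-- the index set of `𝔏.restrictNormal V` is finite when `𝔏.ι` is and `V` has finite index. -/
theorem finite_restrictNormal_ι [Finite 𝔏.ι] (hfin : 𝔉.FiniteIndex) (hV : V ∈ 𝔉.sets) :
    Finite (𝔏.restrictNormal V).ι := by
  have h : ∀ v : 𝔏.ι, Finite (G ⧸ (V ⊔ (𝔏.ψ v).range)) :=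
    fun v => finite_quotient_sup_range 𝔏 hfin hV v
  show Finite (Σ v : 𝔏.ι, G ⧸ (V ⊔ (𝔏.ψ v).range))
  infer_instance

/-- finiteness of the local terms transfers from `(𝔏.restrictNormal V, B)` to
`(𝔏, Coind_V^G B)`. -/
theorem finite_Hlc_loc_coind [Finite 𝔏.ι] (hfin : 𝔉.FiniteIndex) (hV : V ∈ 𝔉.sets)
    (hfinL : ∀ v, (𝔏.fam v).FiniteIndex) (hB : IsSmooth (𝔉.restrict V) B) (n : ℕ)
    (hloc : ∀ x : (𝔏.restrictNormal V).ι,
      Module.Finite k (Hlc ((𝔏.restrictNormal V).fam x) ((𝔏.restrictNormal V).coeff B x) n))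
    (v : 𝔏.ι) : Module.Finite k (Hlc (𝔏.fam v) (𝔏.coeff (coind V.subtype B) v) n) := by
  classical
  have := finite_restrictNormal_ι 𝔏 hfin hV
  have h1 : Module.Finite k (∀ x : (𝔏.restrictNormal V).ι,
      Hlc ((𝔏.restrictNormal V).fam x) ((𝔏.restrictNormal V).coeff B x) n) := Module.Finite.pi
  have h2 : Module.Finite k (∀ v : 𝔏.ι, Hlc (𝔏.fam v) (𝔏.coeff (coind V.subtype B) v) n) :=
    Module.Finite.equiv (mackeyLocAllEquiv 𝔏 hfin hV hfinL hB n).symm
  exact Module.Finite.of_surjective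
    (LinearMap.proj (R := k)
      (φ := fun v : 𝔏.ι => Hlc (𝔏.fam v) (𝔏.coeff (coind V.subtype B) v) n) v)
    (LinearMap.proj_surjective v)

/-- **`h_c^n(𝔏, Coind_V^G B) = h_c^n(𝔏|V, B)`**, with finiteness on both sides, given finiteness of
the local terms in degree `n` and of `Ш^{n+1}` at level `V`. -/
theorem finrank_Hcc_coind [Finite 𝔏.ι] (hfin : 𝔉.FiniteIndex) (hV : V ∈ 𝔉.sets)
    (hfinL : ∀ v, (𝔏.fam v).FiniteIndex) (hB : IsSmooth (𝔉.restrict V) B) (n : ℕ)
    (hloc : ∀ x : (𝔏.restrictNormal V).ι,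
      Module.Finite k (Hlc ((𝔏.restrictNormal V).fam x) ((𝔏.restrictNormal V).coeff B x) n))
    (hker : Module.Finite k (LinearMap.ker (locRes (𝔏.restrictNormal V) B (n + 1)))) :
    Module.Finite k (Hcc 𝔏 (coind V.subtype B) n) ∧
      Module.Finite k (Hcc (𝔏.restrictNormal V) B n) ∧
      finrank k (Hcc 𝔏 (coind V.subtype B) n) = finrank k (Hcc (𝔏.restrictNormal V) B n) := by
  have := finite_restrictNormal_ι 𝔏 hfin hV
  have hloc' := finite_Hlc_loc_coind 𝔏 hfin hV hfinL hB n hloc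
  have hker' : Module.Finite k (LinearMap.ker (locRes 𝔏 (coind V.subtype B) (n + 1))) :=
    Module.Finite.equiv (mackeyKerEquiv 𝔏 hfin hV hfinL hB (n + 1)).symm
  obtain ⟨f1, e1⟩ := baseCount_finrank_Hcc 𝔏 (coind V.subtype B) n
  obtain ⟨f2, e2⟩ := baseCount_finrank_Hcc (𝔏.restrictNormal V) B n
  refine ⟨f1, f2, ?_⟩
  have a1 := finrank_range_locRes_coind 𝔏 hfin hV hfinL hB n
  have a2 := finrank_locProd_coind 𝔏 hfin hV hfinL hB n
  have a3 := finrank_ker_locRes_coind 𝔏 hfin hV hfinL hB (n + 1)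
  omega

end Fermat.Agent.PT
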