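import Mathlib
import Fermat.Agent.CFT.PT.BaseCountLe
import Fermat.Agent.CFT.PT.MackeyHcc

/-!
# S55 (P12), part 4: the base count transported to the induced modules `I_V(T)`, `I_V(k)`

At an arithmetic cyclotomic level `V` (open normal in `G_S`, `μ_p` trivial on `V`), through
helper15's Shapiro–Mackey transport `finrank_Hcc_coind` (`PT/MackeyHcc.lean`): the three
inequalities `(R4)`, `(BASE_1)`, `(BASE_2)` consumed by the duality induction, over
`(Γℚ, famS S, locS S)` with `I_V(T) = coind_V res_V μ_p` and `I_V(k) = coind_V res_V 𝔽_p`: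

`dim H_c^3(I_V T) ≤ 1`, `dim H_c^2(I_V T) ≤ dim H^1(I_V k)`, `dim H_c^1(I_V T) ≤ dim H^2(I_V k)`.
-/

set_option autoImplicit false

namespace Fermat.Agent.PT

open CategoryTheory groupCohomology Rep ExtCitation Module

local notation "Γℚ" => (AlgebraicClosure ℚ ≃ₐ[ℚ] AlgebraicClosure ℚ)

variable {p : ℕ} [Fact p.Prime] {S : Finset Nat.Primes}

theorem baseCount_res_trivRep_eq {G : Type} [Group G] (V : Subgroup G) :
    Rep.res V.subtype (trivRep p G) = trivRep p ↥V := rfl

theorem baseCount_isSmooth_trivRep {G : Type} [Group G] (𝔉 : LevelFamily G) :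
    IsSmooth 𝔉 (trivRep p G) := by
  intro a
  obtain ⟨U, hU⟩ := 𝔉.nonempty
  exact ⟨U, hU, fun u _ => rfl⟩

/-- **`(R4)`, `(BASE_1)`, `(BASE_2)` for the induced modules** `I_V(T) = coind_V res_V μ_p`,
`I_V(k) = coind_V res_V 𝔽_p` over `(Γℚ, famS S, locS S)`, `V` a cyclotomic level, from the
(weakened) contracts. -/
theorem baseCount_coind_le (hpS : pPrime p ∈ S)
    (g0 : GlobalOut0 p S) (g1 : GlobalOut1 p S) (g2 : GlobalOut2Le p S) (g3 : GlobalOut3Le p S)
    (g4 : GlobalOut4Le p S) (l0 : LocalOut0 p S) (l2 : LocalOut2 p S) (l3 : LocalOut3 p S)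
    (V : Subgroup Γℚ) (hV : IsCycloLevel p S V) :
    (Module.Finite (ZMod p) (Hcc (locS S) (coind V.subtype (res V.subtype (cycloRep p))) 0) ∧
      Module.Finite (ZMod p) (Hcc (locS S) (coind V.subtype (res V.subtype (cycloRep p))) 1) ∧
      Module.Finite (ZMod p) (Hcc (locS S) (coind V.subtype (res V.subtype (cycloRep p))) 2)) ∧
    finrank (ZMod p) (Hcc (locS S) (coind V.subtype (res V.subtype (cycloRep p))) 2) ≤ 1 ∧
    finrank (ZMod p) (Hcc (locS S) (coind V.subtype (res V.subtype (cycloRep p))) 1) ≤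
      finrank (ZMod p)
        (Hlc (famS S) (coind V.subtype (res V.subtype (trivRep p Γℚ))) 1) ∧
    finrank (ZMod p) (Hcc (locS S) (coind V.subtype (res V.subtype (cycloRep p))) 0) ≤
      finrank (ZMod p)
        (Hlc (famS S) (coind V.subtype (res V.subtype (trivRep p Γℚ))) 2) := by
  haveI := hV.normal
  haveI : Finite (locS S).ι := (inferInstance : Finite ↥S)
  have hfin : (famS S).FiniteIndex := baseCount_famS_finiteIndex S
  have hfinL : ∀ v, ((locS S).fam v).FiniteIndex := fun v => famLoc_finiteIndex v.1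
  have e : res V.subtype (cycloRep p) = trivRep p ↥V :=
    baseCount_res_cycloRep_eq p V.subtype (fun u => hV.2 u u.2)
  have hopen : ∀ x : (locSV S V).ι,
      IsOpenFor (famLoc x.1.1) (V.comap (primeLocalToGlobal x.1.1)) := fun x =>
    famLoc_compat_famS x.1.1 S V hV.1
  have hB : IsSmooth ((famS S).restrict V) (res V.subtype (cycloRep p)) := by
    rw [e]
    exact baseCount_isSmooth_trivRep _
  have L0 : ∀ i, i ≤ 2 → ∀ x : ((locS S).restrictNormal V).ι, Module.Finite (ZMod p)
      (Hlc (((locS S).restrictNormal V).fam x)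
        (((locS S).restrictNormal V).coeff (res V.subtype (cycloRep p)) x) i) := by
    rw [e]
    exact fun i hi x => l0 x.1.1 x.1.2 _ (hopen x) i hi
  have K : ∀ i, i ≤ 3 → Module.Finite (ZMod p)
      (LinearMap.ker (locRes ((locS S).restrictNormal V) (res V.subtype (cycloRep p)) i)) := by
    rw [e]
    intro i hi
    by_cases h3 : i = 3
    · subst h3
      have := g1 V ⟨V, hV.1, le_rfl⟩ hV.2
      haveI : Subsingleton (LinearMap.ker (locRes ((locS S).restrictNormal V) (trivRep p ↥V) 3)) :=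
        ⟨fun a b => Subtype.ext (Subsingleton.elim _ _)⟩
      infer_instance
    · have := g0 V hV i (by omega)
      infer_instance
  obtain ⟨-, c2, c1, c0⟩ := baseCount_arith_le hpS g0 g1 g2 g3 g4 l0 l2 l3 V hV
  have t0 := finrank_Hcc_coind (locS S) hfin hV.1 hfinL hB 0 (L0 0 (by norm_num)) (K 1 (by norm_num))
  have t1 := finrank_Hcc_coind (locS S) hfin hV.1 hfinL hB 1 (L0 1 (by norm_num)) (K 2 (by norm_num))
  have t2 := finrank_Hcc_coind (locS S) hfin hV.1 hfinL hB 2 (L0 2 (by norm_num)) (K 3 (by norm_num))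
  have e' : ∀ i, finrank (ZMod p) (Hcc ((locS S).restrictNormal V) (res V.subtype (cycloRep p)) i) =
      finrank (ZMod p) (Hcc (locSV S V) (trivRep p ↥V) i) := fun i =>
    congrArg (fun B : Rep (ZMod p) ↥V =>
      finrank (ZMod p) (Hcc ((locS S).restrictNormal V) B i)) e
  have s : ∀ i, finrank (ZMod p)
      (Hlc (famS S) (coind V.subtype (res V.subtype (trivRep p Γℚ))) i) =
        finrank (ZMod p) (Hlc ((famS S).restrict V) (trivRep p ↥V) i) := fun i =>
    finrank_Hlc_coind hfin hV.1 (baseCount_isSmooth_trivRep _) i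
  refine ⟨⟨t0.1, t1.1, t2.1⟩, ?_, ?_, ?_⟩
  · rw [t2.2.2, e']
    exact c2
  · rw [t1.2.2, e', s 1]
    exact c1
  · rw [t0.2.2, e', s 2]
    exact c0

end Fermat.Agent.PT
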