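import Fermat.Agent.CFT.PT.DualInduct
import Fermat.Agent.CFT.PT.SmoothZero
import Fermat.Agent.CFT.PT.SmoothFun

/-!
# S55 (P9): the duality map in degree `0` (R4)

* `pairingHom β b : A ⟶ T` for an invariant `b ∈ B^G`: `a ↦ β a b`.
* `ccCupH_zero` : cup product with a degree-`0` class is the coefficient map of `pairingHom`.
* `HccMap_surjective_of_subsingleton` : right exactness of `Hcc^n` when `Hlc^{n+1}` vanishes
  globally (on the quotient) and locally (on the kernel).
* `dualityMap_zero_injective` : `β^0` is injective for every right-nondegenerate pairing into a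
  one-dimensional `T` (no induction needed).
* `EffData.beta0_surj`, `betaZero_bijective` : surjectivity from a presentation.
-/

set_option autoImplicit false

namespace Fermat.Agent.PT

open CategoryTheory groupCohomology Rep Module

universe u

variable {k G : Type u}

section PairingHom

variable [CommRing k] [Group G] {A B T : Rep.{u} k G} (β : RepPairing A B T)

/-- for an invariant `b`, the morphism `a ↦ β a b`. -/
noncomputable def pairingHom (b : B.ρ.invariants) : A ⟶ T :=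
  Rep.ofHom ⟨β.toLin.flip b.1, fun g => by
    ext a
    change β.toLin (A.ρ g a) b.1 = T.ρ g (β.toLin a b.1)
    rw [← β.map_ρ g a b.1, b.2 g]⟩

@[simp] theorem pairingHom_hom_apply (b : B.ρ.invariants) (a : A) :
    (pairingHom β b).hom a = β.toLin a b.1 := rfl

/-- cup product with a constant `0`-cochain with invariant value. -/
theorem cupN_constCochain₀ {m : ℕ} (h : m + 0 = m) (b : B.ρ.invariants) (f : (Fin m → G) → A) :
    cupN β h f (constCochain₀ B b.1) = coeffMap (pairingHom β b) m f := by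
  funext x
  change β.toLin (f _) (B.ρ _ b.1) = β.toLin (f x) b.1
  rw [b.2]
  congr 2

end PairingHom

section ConeZero

variable [CommRing k] [Group G] {𝔉 : LevelFamily G} (𝔏 : LocSystem 𝔉) {A B T : Rep.{u} k G}
  (β : RepPairing A B T)

/-- an invariant of `B` is an invariant of the local coefficient module. -/
def locInvariant (b : B.ρ.invariants) (v : 𝔏.ι) : (𝔏.coeff B v).ρ.invariants :=
  ⟨b.1, fun g => b.2 (𝔏.ψ v g)⟩

theorem coneCup_constCochain₀ {m : ℕ} (h : m + 0 = m) (b : B.ρ.invariants) (z : ConeAmb 𝔏 A m) :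
    coneCup 𝔏 β h z (constCochain₀ B b.1) = coneMap 𝔏 (pairingHom β b) m z := by
  refine Prod.ext ?_ (funext fun v => ?_)
  · exact cupN_constCochain₀ β _ b z.1
  · rw [coneCup_snd, coneMap_snd]
    exact cupN_constCochain₀ (𝔏.pairing β v) h (locInvariant 𝔏 b v) (z.2 v)

/-- **cup product with a class of degree `0`** is the coefficient map of `pairingHom`. -/
theorem ccCupH_zero {m : ℕ} (h : m + 0 = m) (b : B.ρ.invariants) (z : Hcc 𝔏 A m) :
    ccCupH 𝔏 β h z ((Hlc0Equiv 𝔉 B).symm b) = HccMap 𝔏 (pairingHom β b) m z := by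
  obtain ⟨w, rfl⟩ := ccπ_surjective 𝔏 A m z
  rw [Hlc0Equiv_symm_apply, ccCupH_ccπ_lcπ, HccMap_ccπ]
  congr 1
  apply Subtype.ext
  exact coneCup_constCochain₀ 𝔏 β h b w.1

end ConeZero

section RightExact

variable [CommRing k] [Group G] {𝔉 : LevelFamily G} {𝔏 : LocSystem 𝔉}
  {X : ShortComplex (Rep.{u} k G)}

/-- the restriction of a short exact sequence to a local group is short exact. -/
theorem betaZero_resSC_shortExact {H : Type u} [Group H] (ψ : H →* G) (hX : X.ShortExact) :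
    (X.map (resFunctor ψ)).ShortExact := by
  have hinj : Function.Injective X.f.hom := (Rep.mono_iff_injective X.f).1 hX.mono_f
  have hsurj : Function.Surjective X.g.hom := (Rep.epi_iff_surjective X.g).1 hX.epi_g
  have hM : Mono (X.map (resFunctor ψ)).f :=
    (Rep.mono_iff_injective (X.map (resFunctor ψ)).f).2 hinj
  have hP : Epi (X.map (resFunctor ψ)).g :=
    (Rep.epi_iff_surjective (X.map (resFunctor ψ)).g).2 hsurj
  have hE : (X.map (resFunctor ψ)).Exact := by
    rw [← ShortComplex.exact_map_iff_of_faithful _ (forget₂ (Rep.{u} k H) (ModuleCat.{u} k)),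
      ShortComplex.moduleCat_exact_iff]
    intro x₂ hx₂
    exact exists_of_shortExact_of_g_eq_zero hX x₂ hx₂
  exact { exact := hE, mono_f := hM, epi_g := hP }

/-- **right exactness of `Hcc^n`** when `Hlc^{n+1}` of the quotient vanishes globally and
`Hlc^{n+1}` of the kernel vanishes locally. -/
theorem HccMap_surjective_of_subsingleton (H : ConeLESHyp 𝔏 X) (n : ℕ)
    (hG : Subsingleton (Hlc 𝔉 X.X₃ (n + 1)))
    (hL : ∀ v, Subsingleton (Hlc (𝔏.fam v) (𝔏.coeff X.X₁ v) (n + 1))) :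
    Function.Surjective (HccMap 𝔏 X.g n) := by
  intro z
  obtain ⟨y, rfl⟩ := exists_ccδ_eq_of_ccToH_eq_zero 𝔏 X.X₃ n z (Subsingleton.elim _ _)
  have hloc : ∀ v, ∃ y' : Hlc (𝔏.fam v) (𝔏.coeff X.X₂ v) n,
      HlcCoeff (𝔏.coeffHom X.g v) (𝔏.fam v) n y' = y v := by
    intro v
    have hXv := betaZero_resSC_shortExact (𝔏.ψ v) H.shortExact
    have hsm : IsSmooth (𝔏.fam v) (X.map (resFunctor (𝔏.ψ v))).X₂ := H.smooth.loc v
    have := hL v
    exact exists_lcH₂₃_eq (X := X.map (resFunctor (𝔏.ψ v))) (H.finLoc v) hXv hsm n (n + 1) rfl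
      (y v) (Subsingleton.elim (α := Hlc (𝔏.fam v) (𝔏.coeff X.X₁ v) (n + 1)) _ _)
  choose y' hy' using hloc
  refine ⟨ccδ 𝔏 X.X₂ n y', ?_⟩
  rw [HccMap_ccδ]
  congr 1
  funext v
  exact hy' v

end RightExact

section BetaZero

variable [Field k] [Group G] {𝔉 : LevelFamily G} (𝔏 : LocSystem 𝔉) {T : Rep.{u} k G}
  (τ : Hcc 𝔏 T 2 →ₗ[k] k)

/-- hypothesis shape: `H^3` of the local groups vanishes on finite-dimensional smooth modules. -/
def LocH3Vanish : Prop :=
  ∀ K : Rep.{u} k G, Module.Finite k K → IsSmooth 𝔉 K →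
    ∀ v, Subsingleton (Hlc (𝔏.fam v) (𝔏.coeff K v) 3)

/-- hypothesis shape: `H^3` of the global group vanishes on finite-dimensional smooth modules. -/
def GlobH3Vanish (𝔉 : LevelFamily G) : Prop :=
  ∀ K : Rep.{u} k G, Module.Finite k K → IsSmooth 𝔉 K → Subsingleton (Hlc 𝔉 K 3)

variable {A B : Rep.{u} k G} (β : RepPairing A B T)

theorem dualityMap_zero_apply (b : B.ρ.invariants) (z : Hcc 𝔏 A 2) :
    dualityMap 𝔏 τ β (show 2 + 0 = 2 by omega) ((Hlc0Equiv 𝔉 B).symm b) z =
      τ (HccMap 𝔏 (pairingHom β b) 2 z) := by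
  rw [dualityMap_apply, ccCupH_zero]

variable {𝔏 τ}

/-- **`β^0` is injective** for every right-nondegenerate pairing into a one-dimensional `T`,
as soon as `τ ≠ 0` and `H^3` vanishes (globally on `T`, locally on finite smooth modules). -/
theorem dualityMap_zero_injective [Module.Finite k A] (hA : IsSmooth 𝔉 A)
    (hT : finrank k T = 1) (hτ : τ ≠ 0) (hfin : 𝔉.FiniteIndex) (hfinv : 𝔏.FiniteIndex)
    (hG3 : Subsingleton (Hlc 𝔉 T 3)) (hL3 : LocH3Vanish (k := k) 𝔏)
    (hnd : ∀ b : B, (∀ a, β.toLin a b = 0) → b = 0) :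
    Function.Injective (dualityMap 𝔏 τ β (show 2 + 0 = 2 by omega)) := by
  rw [injective_iff_map_eq_zero]
  intro x hx
  obtain ⟨b, rfl⟩ := (Hlc0Equiv 𝔉 B).symm.surjective x
  by_contra hne
  have hb : b.1 ≠ 0 := by
    intro h0
    apply hne
    have : b = 0 := Subtype.ext h0
    rw [this, map_zero]
  -- the morphism `φ = β(-, b)` is nonzero, hence surjective
  have hex : ∃ a, β.toLin a b.1 ≠ 0 := by
    by_contra hcon
    exact hb (hnd b.1 fun a => not_not.1 fun h => hcon ⟨a, h⟩)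
  obtain ⟨a₀, ha₀⟩ := hex
  set φ : A ⟶ T := pairingHom β b with hφ
  have hsurj : Function.Surjective φ.hom := by
    intro t
    obtain ⟨c, hc⟩ := (finrank_eq_one_iff_of_nonzero' (β.toLin a₀ b.1) ha₀).1 hT t
    exact ⟨c • a₀, by rw [map_smul, pairingHom_hom_apply, hc]⟩
  -- the short exact sequence `0 → ker φ → A → T → 0`
  let X : ShortComplex (Rep.{u} k G) :=
    ShortComplex.mk (Limits.kernel.ι φ) φ (Limits.kernel.condition φ)
  have hXse : X.ShortExact :=
    { exact := ShortComplex.exact_kernel φ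
      mono_f := inferInstanceAs (Mono (Limits.kernel.ι φ))
      epi_g := (Rep.epi_iff_surjective φ).2 hsurj }
  have hH : ConeLESHyp 𝔏 X :=
    { shortExact := hXse, finG := hfin, finLoc := hfinv, smooth := hA }
  have hinjι : Function.Injective (Limits.kernel.ι φ).hom :=
    (Rep.mono_iff_injective _).1 inferInstance
  let K : Rep.{u} k G := Limits.kernel φ
  have hKfin : Module.Finite k K :=
    Module.Finite.of_injective (Limits.kernel.ι φ).hom.toLinearMap hinjι
  have hKsm : IsSmooth 𝔉 K := IsSmooth.of_injective (Limits.kernel.ι φ) hinjι hA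
  have hs2 : Function.Surjective (HccMap 𝔏 φ 2) :=
    HccMap_surjective_of_subsingleton (X := X) hH 2 hG3 (hL3 K hKfin hKsm)
  -- a class on which `τ` does not vanish
  have hw : ∃ w, τ w ≠ 0 := by
    by_contra hcon
    exact hτ (LinearMap.ext fun w => not_not.1 fun h => hcon ⟨w, h⟩)
  obtain ⟨w, hw⟩ := hw
  obtain ⟨z, rfl⟩ := hs2 w
  apply hw
  rw [← dualityMap_zero_apply 𝔏 τ β b z, hx, LinearMap.zero_apply]

/-- **(R4), surjectivity step**: from a presentation (an effacing datum) whose middle pair has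
`β^0` surjective and whose third pair has `β^0` injective, and right exactness of `Hcc^2`. -/
theorem EffData.beta0_surj (E : EffData 𝔏 A B β)
    (hIs : Function.Surjective (dualityMap 𝔏 τ E.β₂ (show 2 + 0 = 2 by omega)))
    (hQ : Function.Injective (dualityMap 𝔏 τ E.β₁ (show 2 + 0 = 2 by omega)))
    (hsurj : Function.Surjective (HccMap 𝔏 E.g' 2)) :
    Function.Surjective (dualityMap 𝔏 τ β (show 2 + 0 = 2 by omega)) := by
  intro φ
  obtain ⟨y, hy⟩ := hIs ((HccMap 𝔏 E.g' 2).dualMap φ)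
  have h0 : HlcCoeff E.g 𝔉 0 y = 0 := by
    apply hQ
    rw [dualityMap_natural 𝔏 τ E.β₂ E.β₁ E.f' E.g E.h₁ _ y, hy, map_zero]
    refine LinearMap.ext fun z => ?_
    rw [LinearMap.dualMap_apply, LinearMap.dualMap_apply, LinearMap.zero_apply,
      HccMap_g_f (𝔏 := 𝔏) (X := E.X) 2 z, map_zero]
  obtain ⟨x, rfl⟩ := exists_lcH₁₂_eq (X := E.Y) E.hX.finG E.hY E.hsmY 0 y h0
  refine ⟨x, ?_⟩
  apply dual_injective_of_surjective _ hsurj
  rw [← hy]
  exact (dualityMap_natural 𝔏 τ β E.β₂ E.g' E.f E.h₃ _ x).symm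

/-- **(R4)**: `β^0` is bijective for a dual pair admitting a presentation whose middle pair
satisfies the base inequality `dim Hcc^2(I') ≤ dim Hlc^0(I)`. -/
theorem betaZero_bijective (hT : finrank k T = 1) (hτ : τ ≠ 0) (hTsm : IsSmooth 𝔉 T)
    (hG3 : GlobH3Vanish (k := k) 𝔉) (hL3 : LocH3Vanish (k := k) 𝔏)
    (E : EffData 𝔏 A B β) [Module.Finite k A] (hA : IsSmooth 𝔉 A)
    [Module.Finite k E.I'] [Module.Finite k E.Q'] (hQ' : IsSmooth 𝔉 E.Q')
    (hnd : ∀ b : B, (∀ a, β.toLin a b = 0) → b = 0)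
    (hnd₂ : ∀ b : E.I, (∀ a, E.β₂.toLin a b = 0) → b = 0)
    (hnd₁ : ∀ b : E.Q, (∀ a, E.β₁.toLin a b = 0) → b = 0)
    [Module.Finite k (Hlc 𝔉 E.I 0)] [Module.Finite k (Hcc 𝔏 E.I' 2)]
    (hle : finrank k (Hcc 𝔏 E.I' 2) ≤ finrank k (Hlc 𝔉 E.I 0)) :
    Function.Bijective (dualityMap 𝔏 τ β (show 2 + 0 = 2 by omega)) := by
  have hTfin : Module.Finite k T := Module.finite_of_finrank_pos (by rw [hT]; exact one_pos)
  have hGT : Subsingleton (Hlc 𝔉 T 3) := hG3 T hTfin hTsm
  have hinj := fun {A' B' : Rep.{u} k G} (β' : RepPairing A' B' T) (_ : Module.Finite k A')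
      (hA' : IsSmooth 𝔉 A') (hnd' : ∀ b : B', (∀ a, β'.toLin a b = 0) → b = 0) =>
    dualityMap_zero_injective (𝔏 := 𝔏) (τ := τ) β' hA' hT hτ E.hX.finG E.hX.finLoc hGT hL3 hnd'
  refine ⟨hinj β inferInstance hA hnd, ?_⟩
  have hI := dualInduct_bijective_of_le
    (dualityMap 𝔏 τ E.β₂ (show 2 + 0 = 2 by omega))
    (hinj E.β₂ inferInstance E.hX.smooth hnd₂) hle
  refine E.beta0_surj β hI.2 (hinj E.β₁ inferInstance hQ' hnd₁) ?_
  exact HccMap_surjective_of_subsingleton (X := E.X) E.hX 2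
    (hG3 A inferInstance hA) (hL3 E.Q' inferInstance hQ')

end BetaZero

end Fermat.Agent.PT
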