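/-
S55 engine (GT5): passage from the finite levels `H^n(G ⧸ U, A^U)` to level-constant cohomology
`Hlc^n(𝔉, A)`: torsion, divisibility, injectivity of inflation, torsion of the limit.

Everything is generic in `(G, 𝔉, A : Rep k G)`; the application is `k = ℤ`, `r = p`.
-/
import Fermat.Agent.CFT.PT.FiniteLevelNat

set_option autoImplicit false

namespace Fermat.Agent.PT

open CategoryTheory groupCohomology Rep

universe u

variable {k G : Type u} [CommRing k] [Group G] (𝔉 : LevelFamily G) (A : Rep.{u} k G)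

/-- the finite level `H^n(G ⧸ U, A^U)`. -/
noncomputable abbrev Hfin (U : ↥𝔉.sets) (n : ℕ) : ModuleCat.{u} k :=
  groupCohomology (A.quotientToInvariants (U : Subgroup G)) n

section Transition

variable {A} {U V W : Subgroup G} [U.Normal] [V.Normal] [W.Normal]

theorem quotMap_quotMap (hVU : V ≤ U) (hWV : W ≤ V) (x : G ⧸ W) :
    quotMap hVU (quotMap hWV x) = quotMap (hWV.trans hVU) x :=
  QuotientGroup.induction_on x fun _ => rfl

variable (A) in
theorem cochainsMap_quotMap_comp (hVU : V ≤ U) (hWV : W ≤ V) :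
    cochainsMap (quotMap hVU) (invIncl A hVU) ≫ cochainsMap (quotMap hWV) (invIncl A hWV) =
      cochainsMap (quotMap (hWV.trans hVU)) (invIncl A (hWV.trans hVU)) := by
  ext n f : 3
  funext g
  apply Subtype.ext
  change ((f fun i => quotMap hVU (quotMap hWV (g i))) : A) =
    (f fun i => quotMap (hWV.trans hVU) (g i))
  have h : (fun i => quotMap hVU (quotMap hWV (g i))) =
      fun i => quotMap (hWV.trans hVU) (g i) := funext fun i => quotMap_quotMap hVU hWV (g i)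
  rw [h]

variable (A) in
/-- transitivity of the transition maps. -/
theorem inflUV_comp (hVU : V ≤ U) (hWV : W ≤ V) (n : ℕ) :
    inflUV A hVU n ≫ inflUV A hWV n = inflUV A (hWV.trans hVU) n :=
  (HomologicalComplex.homologyMap_comp _ _ n).symm.trans
    (congrArg (fun f => HomologicalComplex.homologyMap f n) (cochainsMap_quotMap_comp A hVU hWV))

variable (A) in
theorem inflUV_inflUV_apply (hVU : V ≤ U) (hWV : W ≤ V) (n : ℕ)
    (y : groupCohomology (A.quotientToInvariants U) n) :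
    (inflUV A hWV n).hom ((inflUV A hVU n).hom y) = (inflUV A (hWV.trans hVU) n).hom y :=
  congr($(inflUV_comp A hVU hWV n) y)

end Transition

section Toolkit

/-- a common refinement of two levels. -/
theorem exists_level_le_inf (U V : ↥𝔉.sets) :
    ∃ W : ↥𝔉.sets, (W : Subgroup G) ≤ U ∧ (W : Subgroup G) ≤ V := by
  obtain ⟨W, hW, hWle⟩ := 𝔉.directed U U.2 V V.2
  exact ⟨⟨W, hW⟩, hWle.trans inf_le_left, hWle.trans inf_le_right⟩

/-- **(LT0)** two classes of finite levels with the same image in `Hlc` agree at a common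
smaller level. -/
theorem exists_inflUV_eq_inflUV {U V : ↥𝔉.sets} (n : ℕ) (y : Hfin 𝔉 A U (n + 1))
    (y' : Hfin 𝔉 A V (n + 1))
    (h : (HlcInfl 𝔉 A U (n + 1)).hom y = (HlcInfl 𝔉 A V (n + 1)).hom y') :
    ∃ (W : ↥𝔉.sets) (hWU : (W : Subgroup G) ≤ U) (hWV : (W : Subgroup G) ≤ V),
      (inflUV A hWU (n + 1)).hom y = (inflUV A hWV (n + 1)).hom y' := by
  obtain ⟨W₀, hW₀U, hW₀V⟩ := exists_level_le_inf 𝔉 U V
  have h0 : (HlcInfl 𝔉 A W₀ (n + 1)).hom
      ((inflUV A hW₀U (n + 1)).hom y - (inflUV A hW₀V (n + 1)).hom y') = 0 := by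
    rw [map_sub, HlcInfl_inflUV_apply, HlcInfl_inflUV_apply, h, sub_self]
  obtain ⟨W, hWW₀, hW⟩ := exists_inflUV_eq_zero 𝔉 A W₀ n _ h0
  refine ⟨W, hWW₀.trans hW₀U, hWW₀.trans hW₀V, ?_⟩
  rw [map_sub, sub_eq_zero] at hW
  rw [← inflUV_inflUV_apply A hW₀U hWW₀, ← inflUV_inflUV_apply A hW₀V hWW₀]
  exact hW

/-- **(LT1)** torsion-freeness passes to the limit: if cofinally many finite levels have no
`r`-torsion in degree `n + 1`, neither has `Hlc`. -/
theorem eq_zero_of_smul_eq_zero_of_cofinal (r : k) (n : ℕ)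
    (h : ∀ U : ↥𝔉.sets, ∃ V : ↥𝔉.sets, (V : Subgroup G) ≤ U ∧
      ∀ y : Hfin 𝔉 A V (n + 1), r • y = 0 → y = 0)
    (x : Hlc 𝔉 A (n + 1)) (hx : r • x = 0) : x = 0 := by
  obtain ⟨U, y, rfl⟩ := exists_HlcInfl_eq 𝔉 A (n + 1) x
  have h1 : (HlcInfl 𝔉 A U (n + 1)).hom (r • y) = 0 := by
    rw [map_smul]
    exact hx
  obtain ⟨V, hVU, hV⟩ := exists_inflUV_eq_zero 𝔉 A U n (r • y) h1
  obtain ⟨W, hWV, hW⟩ := h V
  have h2 : r • (inflUV A hWV (n + 1)).hom ((inflUV A hVU (n + 1)).hom y) = 0 := by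
    rw [← map_smul, ← map_smul, hV, map_zero]
  have h3 := hW _ h2
  rw [← HlcInfl_inflUV_apply 𝔉 A hVU, ← HlcInfl_inflUV_apply 𝔉 A hWV, h3, map_zero]

/-- **(LT2)** if all transition maps out of the level `U` are injective in degree `n + 1`, then the
inflation from `U` to `Hlc` is injective. -/
theorem HlcInfl_injective_of_forall (U : ↥𝔉.sets) (n : ℕ)
    (h : ∀ (V : ↥𝔉.sets) (hVU : (V : Subgroup G) ≤ U),
      Function.Injective (inflUV A hVU (n + 1)).hom) :
    Function.Injective (HlcInfl 𝔉 A U (n + 1)).hom := by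
  rw [injective_iff_map_eq_zero]
  intro y hy
  obtain ⟨V, hVU, hV⟩ := exists_inflUV_eq_zero 𝔉 A U n y hy
  exact (injective_iff_map_eq_zero _).1 (h V hVU) y hV

/-- **(LT3)** divisibility passes to the limit: if every class of every finite level becomes
divisible by `r` at a smaller level, then `Hlc` is `r`-divisible. -/
theorem exists_smul_eq_of_levels (r : k) (n : ℕ)
    (h : ∀ (U : ↥𝔉.sets) (y : Hfin 𝔉 A U n), ∃ (V : ↥𝔉.sets) (hVU : (V : Subgroup G) ≤ U)
      (z : Hfin 𝔉 A V n), r • z = (inflUV A hVU n).hom y)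
    (x : Hlc 𝔉 A n) : ∃ z : Hlc 𝔉 A n, r • z = x := by
  obtain ⟨U, y, rfl⟩ := exists_HlcInfl_eq 𝔉 A n x
  obtain ⟨V, hVU, z, hz⟩ := h U y
  refine ⟨(HlcInfl 𝔉 A V n).hom z, ?_⟩
  rw [← map_smul, hz, HlcInfl_inflUV_apply]

/-- **(LT4)** the `r`-torsion of `Hlc` comes from the `r`-torsion of the finite levels. -/
theorem exists_HlcInfl_eq_of_smul_eq_zero (r : k) (n : ℕ) (x : Hlc 𝔉 A (n + 1))
    (hx : r • x = 0) :
    ∃ (U : ↥𝔉.sets) (y : Hfin 𝔉 A U (n + 1)), r • y = 0 ∧ (HlcInfl 𝔉 A U (n + 1)).hom y = x := by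
  obtain ⟨U, y, rfl⟩ := exists_HlcInfl_eq 𝔉 A (n + 1) x
  have h1 : (HlcInfl 𝔉 A U (n + 1)).hom (r • y) = 0 := by
    rw [map_smul]
    exact hx
  obtain ⟨V, hVU, hV⟩ := exists_inflUV_eq_zero 𝔉 A U n (r • y) h1
  refine ⟨V, (inflUV A hVU (n + 1)).hom y, ?_, HlcInfl_inflUV_apply 𝔉 A hVU (n + 1) y⟩
  rw [← map_smul, hV]

/-- every class can be represented at a level below any given level. -/
theorem exists_HlcInfl_eq_le (n : ℕ) (x : Hlc 𝔉 A n) (U₀ : ↥𝔉.sets) :
    ∃ (U : ↥𝔉.sets) (_ : (U : Subgroup G) ≤ U₀) (y : Hfin 𝔉 A U n),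
      (HlcInfl 𝔉 A U n).hom y = x := by
  obtain ⟨U, y, rfl⟩ := exists_HlcInfl_eq 𝔉 A n x
  obtain ⟨W, hWU, hWU₀⟩ := exists_level_le_inf 𝔉 U U₀
  exact ⟨W, hWU₀, (inflUV A hWU n).hom y, HlcInfl_inflUV_apply 𝔉 A hWU n y⟩

end Toolkit

end Fermat.Agent.PT
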