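/-
S55 engine (GT5): coprime-torsion modules and the comparison of the `r`-primary torsion of `Hlc`
along a sub-representation whose quotient is coprime-torsion.

* `IsCoprimeTorsion r M` : every element of `M` is killed by a scalar coprime to `r`.
* `IsCoprimeIso r f` : the kernel and the cokernel of the linear map `f` are coprime-torsion; such
  a map is bijective on `r ^ j`-torsion (`IsCoprimeIso.eq_zero`, `IsCoprimeIso.exists_eq`,
  `IsCoprimeIso.torsionEquiv`).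
* `isCoprimeTorsion_Hlc` : `Hlc` of a coprime-torsion representation is coprime-torsion
  (finite index family).
* `exists_nsmul_eq_zero_Hlc_succ` : `Hlc` in positive degrees is torsion (finite index family).
* `isCoprimeIso_lcH₁₂` : for `0 → B → A → Q → 0` with `Q` coprime-torsion, `Hlcⁿ(B) → Hlcⁿ(A)`
  is a coprime isomorphism, for every `n`.
* over `ℤ`, for a prime `p`: the same in degrees `≥ 2` if `Q` is only uniquely `p`-divisible
  (`isCoprimeIso_lcH₁₂_of_bijective`), and surjectivity on torsion in every degree.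
-/
import Fermat.Agent.CFT.PT.FiniteLevelLimit
import Fermat.Agent.CFT.PT.SmoothZero
import Fermat.Agent.CFT.Coh.IndexKill

set_option autoImplicit false

namespace Fermat.Agent.PT

open CategoryTheory groupCohomology Rep

universe u

section Algebra

variable {k : Type*} [CommRing k]

/-- every element is killed by a scalar coprime to `r`. -/
def IsCoprimeTorsion (r : k) (M : Type*) [AddCommGroup M] [Module k M] : Prop :=
  ∀ x : M, ∃ s : k, IsCoprime s r ∧ s • x = 0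

variable {r : k}

theorem eq_zero_of_isCoprime_of_smul_eq_zero {M : Type*} [AddCommGroup M] [Module k M] {s t : k}
    (h : IsCoprime s t) {x : M} (hs : s • x = 0) (ht : t • x = 0) : x = 0 := by
  obtain ⟨a, b, hab⟩ := h
  have h1 : x = (a * s + b * t) • x := by rw [hab, one_smul]
  rw [h1, add_smul, mul_smul, mul_smul, hs, ht, smul_zero, smul_zero, add_zero]

namespace IsCoprimeTorsion

variable {M N : Type*} [AddCommGroup M] [Module k M] [AddCommGroup N] [Module k N]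

theorem eq_zero_of_pow_smul (h : IsCoprimeTorsion r M) {x : M} (j : ℕ) (hx : r ^ j • x = 0) :
    x = 0 := by
  obtain ⟨s, hs, hsx⟩ := h x
  exact eq_zero_of_isCoprime_of_smul_eq_zero (hs.pow_right (n := j)) hsx hx

theorem exists_smul_eq (h : IsCoprimeTorsion r M) (x : M) (j : ℕ) : ∃ y : M, r ^ j • y = x := by
  obtain ⟨s, hs, hsx⟩ := h x
  obtain ⟨a, b, hab⟩ := hs.pow_right (n := j)
  refine ⟨b • x, ?_⟩
  have h1 : x = (a * s + b * r ^ j) • x := by rw [hab, one_smul]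
  conv_rhs => rw [h1]
  rw [add_smul, mul_smul a, hsx, smul_zero, zero_add, mul_comm, mul_smul]

theorem of_surjective (h : IsCoprimeTorsion r M) (f : M →ₗ[k] N) (hf : Function.Surjective f) :
    IsCoprimeTorsion r N := by
  intro y
  obtain ⟨x, rfl⟩ := hf y
  obtain ⟨s, hs, hsx⟩ := h x
  exact ⟨s, hs, by rw [← map_smul, hsx, map_zero]⟩

theorem of_injective (h : IsCoprimeTorsion r N) (f : M →ₗ[k] N) (hf : Function.Injective f) :
    IsCoprimeTorsion r M := by
  intro x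
  obtain ⟨s, hs, hsx⟩ := h (f x)
  exact ⟨s, hs, hf (by rw [map_smul, hsx, map_zero])⟩

theorem exists_forall_smul_eq_zero (h : IsCoprimeTorsion r M) {ι : Type*} [Finite ι]
    (x : ι → M) : ∃ s : k, IsCoprime s r ∧ ∀ i, s • x i = 0 := by
  classical
  haveI := Fintype.ofFinite ι
  choose s hs hsx using fun i => h (x i)
  refine ⟨∏ i, s i, IsCoprime.prod_left fun i _ => hs i, fun i => ?_⟩
  rw [← Finset.mul_prod_erase Finset.univ s (Finset.mem_univ i), mul_comm, mul_smul, hsx i,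
    smul_zero]

end IsCoprimeTorsion

variable {X Y T T' : Type*} [AddCommGroup X] [Module k X] [AddCommGroup Y] [Module k Y]
  [AddCommGroup T] [Module k T] [AddCommGroup T'] [Module k T']

/-- a linear map whose kernel and cokernel are coprime-torsion. -/
def IsCoprimeIso (r : k) (f : X →ₗ[k] Y) : Prop :=
  (∀ x, f x = 0 → ∃ s : k, IsCoprime s r ∧ s • x = 0) ∧
    ∀ y, ∃ s : k, IsCoprime s r ∧ ∃ x, f x = s • y

namespace IsCoprimeIso

variable {f : X →ₗ[k] Y}

/-- injectivity on `r`-primary torsion. -/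
theorem eq_zero (h : IsCoprimeIso r f) {x : X} (j : ℕ) (hx : r ^ j • x = 0) (hfx : f x = 0) :
    x = 0 := by
  obtain ⟨s, hs, hsx⟩ := h.1 x hfx
  exact eq_zero_of_isCoprime_of_smul_eq_zero (hs.pow_right (n := j)) hsx hx

/-- surjectivity on `r ^ j`-torsion. -/
theorem exists_eq (h : IsCoprimeIso r f) {y : Y} (j : ℕ) (hy : r ^ j • y = 0) :
    ∃ x, r ^ j • x = 0 ∧ f x = y := by
  obtain ⟨s, hs, x, hx⟩ := h.2 y
  have h1 : f (r ^ j • x) = 0 := by rw [map_smul, hx, smul_comm, hy, smul_zero]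
  obtain ⟨s', hs', hs'x⟩ := h.1 _ h1
  obtain ⟨a, b, hab⟩ := (hs'.mul_left hs).pow_right (n := j)
  refine ⟨a • s' • x, ?_, ?_⟩
  · rw [smul_comm (r ^ j) a, smul_comm (r ^ j) s', hs'x, smul_zero]
  · rw [map_smul, map_smul, hx]
    have h2 : y = (a * (s' * s) + b * r ^ j) • y := by rw [hab, one_smul]
    conv_rhs => rw [h2]
    rw [add_smul, mul_smul b, hy, smul_zero, add_zero, mul_smul, mul_smul]

/-- `f` has no kernel on torsion-free... : if `Y` has no `r`-torsion then neither has `X`. -/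
theorem eq_zero_of_forall (h : IsCoprimeIso r f) (hY : ∀ y : Y, r • y = 0 → y = 0) {x : X}
    (hx : r • x = 0) : x = 0 := by
  refine h.eq_zero 1 (by rwa [pow_one]) (hY _ ?_)
  rw [← map_smul, hx, map_zero]

/-- if `X` has no `r`-torsion then neither has `Y`. -/
theorem eq_zero_of_forall' (h : IsCoprimeIso r f) (hX : ∀ x : X, r • x = 0 → x = 0) {y : Y}
    (hy : r • y = 0) : y = 0 := by
  obtain ⟨x, hx, rfl⟩ := h.exists_eq 1 (by rwa [pow_one])
  rw [hX x (by rwa [pow_one] at hx), map_zero]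

/-- the induced isomorphism on `r ^ j`-torsion. -/
noncomputable def torsionEquiv (h : IsCoprimeIso r f) (j : ℕ) :
    Submodule.torsionBy k X (r ^ j) ≃ₗ[k] Submodule.torsionBy k Y (r ^ j) :=
  LinearEquiv.ofBijective
    (f.restrict (p := Submodule.torsionBy k X (r ^ j)) (q := Submodule.torsionBy k Y (r ^ j))
      fun x hx => by
        rw [Submodule.mem_torsionBy_iff] at hx ⊢
        rw [← map_smul, hx, map_zero])
    ⟨by
      rw [injective_iff_map_eq_zero]
      intro x hx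
      have h1 : f x.1 = 0 := congrArg Subtype.val hx
      exact Subtype.ext (h.eq_zero j ((Submodule.mem_torsionBy_iff _ _).1 x.2) h1),
    fun y => by
      obtain ⟨x, hx, hxy⟩ := h.exists_eq j ((Submodule.mem_torsionBy_iff _ _).1 y.2)
      exact ⟨⟨x, (Submodule.mem_torsionBy_iff _ _).2 hx⟩, Subtype.ext hxy⟩⟩

theorem coe_torsionEquiv (h : IsCoprimeIso r f) (j : ℕ) (x : Submodule.torsionBy k X (r ^ j)) :
    ((h.torsionEquiv j x : Submodule.torsionBy k Y (r ^ j)) : Y) = f x.1 := rfl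

end IsCoprimeIso

/-- an exact sequence `T' → X → Y → T` with coprime-torsion ends. -/
theorem isCoprimeIso_of_exact (δ : T' →ₗ[k] X) (f : X →ₗ[k] Y) (g : Y →ₗ[k] T)
    (h1 : ∀ x, f x = 0 → ∃ t, δ t = x) (h2 : ∀ y, g y = 0 → ∃ x, f x = y)
    (hT' : IsCoprimeTorsion r T') (hT : IsCoprimeTorsion r T) : IsCoprimeIso r f := by
  refine ⟨fun x hx => ?_, fun y => ?_⟩
  · obtain ⟨t, rfl⟩ := h1 x hx
    obtain ⟨s, hs, hst⟩ := hT' t
    exact ⟨s, hs, by rw [← map_smul, hst, map_zero]⟩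
  · obtain ⟨s, hs, hsy⟩ := hT (g y)
    obtain ⟨x, hx⟩ := h2 (s • y) (by rw [map_smul, hsy])
    exact ⟨s, hs, x, hx⟩

/-- an exact sequence `0 → X → Y → T` with coprime-torsion end. -/
theorem isCoprimeIso_of_injective_of_exact (f : X →ₗ[k] Y) (g : Y →ₗ[k] T)
    (h1 : Function.Injective f) (h2 : ∀ y, g y = 0 → ∃ x, f x = y)
    (hT : IsCoprimeTorsion r T) : IsCoprimeIso r f := by
  refine ⟨fun x hx => ⟨1, isCoprime_one_left, ?_⟩, fun y => ?_⟩
  · rw [one_smul]
    exact h1 (hx.trans (map_zero f).symm)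
  · obtain ⟨s, hs, hsy⟩ := hT (g y)
    obtain ⟨x, hx⟩ := h2 (s • y) (by rw [map_smul, hsy])
    exact ⟨s, hs, x, hx⟩

end Algebra

section HlcTorsion

variable {k G : Type u} [CommRing k] [Group G] (𝔉 : LevelFamily G)

/-- a cochain of a finite-index level with values in a coprime-torsion module is killed by one
scalar coprime to `r`. -/
theorem IsLevel.exists_smul_eq_zero {A : Rep.{u} k G} {n : ℕ} {U : Subgroup G} [U.FiniteIndex]
    {f : (Fin n → G) → A} (hf : IsLevel A n U f) (r : k) (hA : IsCoprimeTorsion r A) :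
    ∃ s : k, IsCoprime s r ∧ s • f = 0 := by
  haveI : Finite (G ⧸ U) := Subgroup.finite_quotient_of_finiteIndex
  obtain ⟨s, hs, hsx⟩ := hA.exists_forall_smul_eq_zero
    (fun q : Fin n → G ⧸ U => f fun i => (q i).out)
  refine ⟨s, hs, funext fun g => ?_⟩
  have h1 : f g = f fun i => ((g i : G ⧸ U)).out := hf.1 _ _ fun i =>
    QuotientGroup.eq.1 (QuotientGroup.out_eq' _).symm
  change s • f g = 0
  rw [h1]
  exact hsx fun i => (g i : G ⧸ U)

/-- **(PC2)** `Hlc` of a coprime-torsion representation is coprime-torsion. -/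
theorem isCoprimeTorsion_Hlc (hfin : 𝔉.FiniteIndex) (r : k) (A : Rep.{u} k G)
    (hA : IsCoprimeTorsion r A) (n : ℕ) : IsCoprimeTorsion r (Hlc 𝔉 A n) := by
  intro x
  obtain ⟨c, rfl⟩ := lcπ_surjective 𝔉 A n x
  obtain ⟨U, hU, hc⟩ := c.2.1
  haveI := hfin U hU
  obtain ⟨s, hs, hsc⟩ := hc.exists_smul_eq_zero r hA
  refine ⟨s, hs, ?_⟩
  have h1 : s • c = 0 := Subtype.ext hsc
  rw [← map_smul, h1, map_zero]

/-- `Hlc` in positive degrees is torsion (finite index family). -/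
theorem exists_nsmul_eq_zero_Hlc_succ (hfin : 𝔉.FiniteIndex) (A : Rep.{u} k G) (n : ℕ)
    (x : Hlc 𝔉 A (n + 1)) : ∃ N : ℕ, N ≠ 0 ∧ N • x = 0 := by
  obtain ⟨U, y, rfl⟩ := exists_HlcInfl_eq 𝔉 A (n + 1) x
  haveI := hfin U U.2
  haveI : Finite (G ⧸ (U : Subgroup G)) := Subgroup.finite_quotient_of_finiteIndex
  refine ⟨Nat.card (G ⧸ (U : Subgroup G)), Nat.card_pos.ne', ?_⟩
  rw [← map_nsmul, Fermat.Agent.CFT.natCard_nsmul_eq_zero, map_zero]

end HlcTorsion

section Compare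

variable {k G : Type u} [CommRing k] [Group G] {𝔉 : LevelFamily G}
  {X : ShortComplex (Rep.{u} k G)} (hfin : 𝔉.FiniteIndex) (hX : X.ShortExact)
  (hsm : IsSmooth 𝔉 X.X₂)

include hX in
/-- `Hlc⁰(X₁) → Hlc⁰(X₂)` is injective. -/
theorem lcH₁₂_zero_injective : Function.Injective (lcH₁₂ 𝔉 X 0).hom := by
  rw [injective_iff_map_eq_zero]
  intro x hx
  have h1 := coe_Hlc0Equiv_HlcMap (MonoidHom.id G) X.f 𝔉.compat_id x
  rw [hx, map_zero] at h1
  have hinj : Function.Injective X.f.hom :=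
    (Rep.mono_iff_injective X.f).1 hX.mono_f
  have h2 : ((Hlc0Equiv 𝔉 X.X₁ x : X.X₁.ρ.invariants) : X.X₁) = 0 :=
    hinj (h1.symm.trans (map_zero _).symm)
  exact (Hlc0Equiv 𝔉 X.X₁).injective (Subtype.ext (h2.trans (by simp)))

include hfin hX hsm in
/-- **(PC3)** if the quotient `X₃` of `0 → X₁ → X₂ → X₃ → 0` is coprime-torsion, then
`Hlcⁿ(X₁) → Hlcⁿ(X₂)` has coprime-torsion kernel and cokernel, for every `n`. -/
theorem isCoprimeIso_lcH₁₂ (r : k) (hQ : IsCoprimeTorsion r X.X₃) (n : ℕ) :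
    IsCoprimeIso r (lcH₁₂ 𝔉 X n).hom := by
  cases n with
  | zero =>
    exact isCoprimeIso_of_injective_of_exact _ (lcH₂₃ 𝔉 X 0).hom (lcH₁₂_zero_injective hX)
      (fun y hy => exists_lcH₁₂_eq hfin hX hsm 0 y hy) (isCoprimeTorsion_Hlc 𝔉 hfin r _ hQ 0)
  | succ m =>
    exact isCoprimeIso_of_exact (lcδ hfin hX hsm m (m + 1) rfl).hom _ (lcH₂₃ 𝔉 X (m + 1)).hom
      (fun x hx => exists_lcδ_eq hfin hX hsm m (m + 1) rfl x hx)
      (fun y hy => exists_lcH₁₂_eq hfin hX hsm (m + 1) y hy)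
      (isCoprimeTorsion_Hlc 𝔉 hfin r _ hQ m) (isCoprimeTorsion_Hlc 𝔉 hfin r _ hQ (m + 1))

include hfin hX hsm in
/-- **(PC3), injectivity on `r`-primary torsion.** -/
theorem eq_zero_of_lcH₁₂_eq_zero_of_coprimeTorsion (r : k) (hQ : IsCoprimeTorsion r X.X₃)
    (n : ℕ) (x : Hlc 𝔉 X.X₁ n) (j : ℕ) (hx : r ^ j • x = 0)
    (h : (lcH₁₂ 𝔉 X n).hom x = 0) : x = 0 :=
  (isCoprimeIso_lcH₁₂ hfin hX hsm r hQ n).eq_zero j hx h

include hfin hX hsm in
/-- **(PC3), surjectivity on `r ^ j`-torsion.** -/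
theorem exists_lcH₁₂_eq_of_coprimeTorsion (r : k) (hQ : IsCoprimeTorsion r X.X₃)
    (n : ℕ) (y : Hlc 𝔉 X.X₂ n) (j : ℕ) (hy : r ^ j • y = 0) :
    ∃ x : Hlc 𝔉 X.X₁ n, r ^ j • x = 0 ∧ (lcH₁₂ 𝔉 X n).hom x = y :=
  (isCoprimeIso_lcH₁₂ hfin hX hsm r hQ n).exists_eq j hy

end Compare

section UniquelyDivisible

variable {k G : Type u} [CommRing k] [Group G]

theorem bijective_pow_smul {M : Type*} [AddCommGroup M] [Module k M] {r : k}
    (h : Function.Bijective fun x : M => r • x) (j : ℕ) :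
    Function.Bijective fun x : M => r ^ j • x := by
  induction j with
  | zero =>
    have h0 : (fun x : M => r ^ 0 • x) = id := by
      funext x
      simp
    rw [h0]
    exact Function.bijective_id
  | succ j ih =>
    have h1 : (fun x : M => r ^ (j + 1) • x) = (fun x => r ^ j • x) ∘ fun x => r • x := by
      funext x
      simp [pow_succ, mul_smul]
    rw [h1]
    exact ih.comp h

/-- multiplication by `r` as an endomorphism of `A`. -/
noncomputable def repSmul (r : k) (A : Rep.{u} k G) : A ⟶ A :=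
  Rep.ofHom ⟨r • LinearMap.id, fun g => by
    apply LinearMap.ext
    intro a
    change r • A.ρ g a = A.ρ g (r • a)
    rw [map_smul]⟩

theorem repSmul_apply (r : k) (A : Rep.{u} k G) (a : A) : (repSmul r A).hom a = r • a := rfl

/-- the inverse of multiplication by `r`, if the latter is bijective. -/
noncomputable def repInvSmul (r : k) (A : Rep.{u} k G)
    (h : Function.Bijective fun a : A => r • a) : A ⟶ A :=
  Rep.ofHom ⟨((LinearEquiv.ofBijective (r • (LinearMap.id : A →ₗ[k] A)) h).symm : A →ₗ[k] A),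
    fun g => by
      apply LinearMap.ext
      intro a
      change (LinearEquiv.ofBijective (r • (LinearMap.id : A →ₗ[k] A)) h).symm (A.ρ g a) =
        A.ρ g ((LinearEquiv.ofBijective (r • (LinearMap.id : A →ₗ[k] A)) h).symm a)
      rw [LinearEquiv.symm_apply_eq]
      change A.ρ g a =
        r • A.ρ g ((LinearEquiv.ofBijective (r • (LinearMap.id : A →ₗ[k] A)) h).symm a)
      rw [← map_smul]
      congr 1
      exact ((LinearEquiv.ofBijective (r • (LinearMap.id : A →ₗ[k] A)) h).apply_symm_apply a).symm⟩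

theorem smul_repInvSmul_apply (r : k) (A : Rep.{u} k G)
    (h : Function.Bijective fun a : A => r • a) (a : A) :
    r • (repInvSmul r A h).hom a = a :=
  (LinearEquiv.ofBijective (r • (LinearMap.id : A →ₗ[k] A)) h).apply_symm_apply a

theorem repInvSmul_smul_apply (r : k) (A : Rep.{u} k G)
    (h : Function.Bijective fun a : A => r • a) (a : A) :
    (repInvSmul r A h).hom (r • a) = a :=
  (LinearEquiv.ofBijective (r • (LinearMap.id : A →ₗ[k] A)) h).symm_apply_apply a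

variable (𝔉 : LevelFamily G)

/-- `Hlc` of multiplication by `r` is multiplication by `r`. -/
theorem HlcMap_repSmul (r : k) (A : Rep.{u} k G) (n : ℕ) (x : Hlc 𝔉 A n) :
    (HlcMap (MonoidHom.id G) (repSmul r A) 𝔉.compat_id n).hom x = r • x := by
  obtain ⟨c, rfl⟩ := lcπ_surjective 𝔉 A n x
  rw [HlcMap_lcπ, ← map_smul]
  rfl

/-- if multiplication by `r` is bijective on `A`, it is bijective on `Hlc 𝔉 A n`. -/
theorem bijective_smul_Hlc (r : k) (A : Rep.{u} k G)
    (h : Function.Bijective fun a : A => r • a) (n : ℕ) :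
    Function.Bijective fun x : Hlc 𝔉 A n => r • x := by
  have h1 : ∀ x : Hlc 𝔉 A n,
      (HlcMap (MonoidHom.id G) (repInvSmul r A h) 𝔉.compat_id n).hom (r • x) = x := by
    intro x
    obtain ⟨c, rfl⟩ := lcπ_surjective 𝔉 A n x
    rw [← map_smul, HlcMap_lcπ]
    congr 1
    apply Subtype.ext
    funext g
    exact repInvSmul_smul_apply r A h (c.1 g)
  have h2 : ∀ x : Hlc 𝔉 A n,
      r • (HlcMap (MonoidHom.id G) (repInvSmul r A h) 𝔉.compat_id n).hom x = x := by
    intro x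
    obtain ⟨c, rfl⟩ := lcπ_surjective 𝔉 A n x
    rw [HlcMap_lcπ, ← map_smul]
    congr 1
    apply Subtype.ext
    funext g
    exact smul_repInvSmul_apply r A h (c.1 g)
  refine ⟨fun x y hxy => ?_, fun x => ⟨_, h2 x⟩⟩
  have h3 : r • x = r • y := hxy
  rw [← h1 x, h3, h1 y]

variable {𝔉} {X : ShortComplex (Rep.{u} k G)} (hfin : 𝔉.FiniteIndex) (hX : X.ShortExact)
  (hsm : IsSmooth 𝔉 X.X₂)

include hfin hX hsm in
/-- if the quotient `X₃` is uniquely `r`-divisible, `Hlcⁿ(X₁) → Hlcⁿ(X₂)` is onto on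
`r ^ j`-torsion, for every `n`. -/
theorem exists_lcH₁₂_eq_of_bijective (r : k) (hQ : Function.Bijective fun a : X.X₃ => r • a)
    (n : ℕ) (y : Hlc 𝔉 X.X₂ n) (j : ℕ) (hy : r ^ j • y = 0) :
    ∃ x : Hlc 𝔉 X.X₁ n, r ^ j • x = 0 ∧ (lcH₁₂ 𝔉 X n).hom x = y := by
  have hbij : ∀ m, Function.Bijective fun x : Hlc 𝔉 X.X₃ m => r ^ j • x := fun m =>
    bijective_pow_smul (bijective_smul_Hlc 𝔉 r X.X₃ hQ m) j
  have h1 : (lcH₂₃ 𝔉 X n).hom y = 0 := by
    apply (hbij n).1
    change r ^ j • (lcH₂₃ 𝔉 X n).hom y = r ^ j • (0 : Hlc 𝔉 X.X₃ n)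
    rw [← map_smul, hy, map_zero, smul_zero]
  obtain ⟨x₀, hx₀⟩ := exists_lcH₁₂_eq hfin hX hsm n y h1
  have h2 : (lcH₁₂ 𝔉 X n).hom (r ^ j • x₀) = 0 := by rw [map_smul, hx₀, hy]
  cases n with
  | zero =>
    refine ⟨x₀, ?_, hx₀⟩
    exact lcH₁₂_zero_injective hX (h2.trans (map_zero _).symm)
  | succ m =>
    obtain ⟨t, ht⟩ := exists_lcδ_eq hfin hX hsm m (m + 1) rfl _ h2
    obtain ⟨t', ht'⟩ := (hbij m).2 t
    refine ⟨x₀ - (lcδ hfin hX hsm m (m + 1) rfl).hom t', ?_, ?_⟩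
    · have h3 : r ^ j • t' = t := ht'
      rw [smul_sub, ← map_smul, h3, ht, sub_self]
    · rw [map_sub, lcδ_lcH₁₂_apply, sub_zero, hx₀]

end UniquelyDivisible

section IntPrime

/-- over `ℤ`, coprime-torsion in terms of natural numbers. -/
theorem isCoprimeTorsion_int_iff {M : Type*} [AddCommGroup M] [Module ℤ M] (p : ℕ) :
    IsCoprimeTorsion (p : ℤ) M ↔ ∀ x : M, ∃ m : ℕ, Nat.Coprime m p ∧ m • x = 0 := by
  constructor
  · intro h x
    obtain ⟨s, hs, hsx⟩ := h x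
    refine ⟨s.natAbs, ?_, ?_⟩
    · have h1 : IsCoprime ((s.natAbs : ℕ) : ℤ) (p : ℤ) := by
        rcases Int.natAbs_eq s with h2 | h2
        · rw [← h2]
          exact hs
        · have h3 : ((s.natAbs : ℕ) : ℤ) = -s := by omega
          rw [h3]
          exact hs.neg_left
      exact Nat.isCoprime_iff_coprime.1 h1
    · rw [← Nat.cast_smul_eq_nsmul ℤ]
      rcases Int.natAbs_eq s with h2 | h2
      · rw [← h2]
        exact hsx
      · have h3 : ((s.natAbs : ℕ) : ℤ) = -s := by omega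
        rw [h3, neg_smul, hsx, neg_zero]
  · intro h x
    obtain ⟨m, hm, hmx⟩ := h x
    exact ⟨(m : ℤ), Nat.isCoprime_iff_coprime.2 hm, by rw [Nat.cast_smul_eq_nsmul ℤ, hmx]⟩

theorem injective_pow_nsmul {M : Type*} [AddCommGroup M] {p : ℕ}
    (h : Function.Injective fun x : M => p • x) (e : ℕ) :
    Function.Injective fun x : M => p ^ e • x := by
  induction e with
  | zero =>
    intro x y hxy
    simpa using hxy
  | succ e ih =>
    intro x y hxy
    have h1 : p ^ e • (p • x) = p ^ e • (p • y) := by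
      rw [← mul_smul, ← mul_smul, ← pow_succ]
      exact hxy
    exact h (ih h1)

namespace IsCoprimeIso

variable {X Y : Type*} [AddCommGroup X] [Module ℤ X] [AddCommGroup Y] [Module ℤ Y]
  {f : X →ₗ[ℤ] Y} {p : ℕ}

/-- injectivity on `p`-primary torsion, natural number form. -/
theorem eq_zero_nat (h : IsCoprimeIso (p : ℤ) f) {x : X} (j : ℕ) (hx : p ^ j • x = 0)
    (hfx : f x = 0) : x = 0 := by
  refine h.eq_zero j ?_ hfx
  rw [← Nat.cast_pow, Nat.cast_smul_eq_nsmul ℤ, hx]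

/-- surjectivity on `p ^ j`-torsion, natural number form. -/
theorem exists_eq_nat (h : IsCoprimeIso (p : ℤ) f) {y : Y} (j : ℕ) (hy : p ^ j • y = 0) :
    ∃ x, p ^ j • x = 0 ∧ f x = y := by
  obtain ⟨x, hx, hxy⟩ := h.exists_eq (y := y) j (by
    rw [← Nat.cast_pow, Nat.cast_smul_eq_nsmul ℤ]
    exact hy)
  refine ⟨x, ?_, hxy⟩
  rw [← Nat.cast_pow, Nat.cast_smul_eq_nsmul ℤ] at hx
  exact hx

end IsCoprimeIso

variable {G : Type} [Group G] {𝔉 : LevelFamily G}

/-- over `ℤ`: if `p` is bijective on `A`, it is bijective on `Hlc 𝔉 A n` (natural number form). -/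
theorem bijective_nsmul_Hlc (p : ℕ) (A : Rep.{0} ℤ G)
    (hA : Function.Bijective fun a : A => p • a) (n : ℕ) :
    Function.Bijective fun x : Hlc 𝔉 A n => p • x := by
  have h1 := bijective_smul_Hlc 𝔉 (p : ℤ) A
    (by simpa only [Nat.cast_smul_eq_nsmul] using hA) n
  simpa only [Nat.cast_smul_eq_nsmul] using h1

/-- over `ℤ`: in positive degrees, `Hlc` of a uniquely `p`-divisible representation is
coprime-to-`p` torsion. -/
theorem isCoprimeTorsion_Hlc_succ_of_bijective (hfin : 𝔉.FiniteIndex) {p : ℕ} (hp : p.Prime)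
    (A : Rep.{0} ℤ G) (hA : Function.Bijective fun a : A => p • a) (n : ℕ) :
    IsCoprimeTorsion (p : ℤ) (Hlc 𝔉 A (n + 1)) := by
  rw [isCoprimeTorsion_int_iff]
  intro x
  obtain ⟨N, hN0, hN⟩ := exists_nsmul_eq_zero_Hlc_succ 𝔉 hfin A n x
  obtain ⟨e, N', hN', rfl⟩ := Nat.exists_eq_pow_mul_and_not_dvd hN0 p hp.ne_one
  refine ⟨N', ((Nat.Prime.coprime_iff_not_dvd hp).2 hN').symm, ?_⟩
  apply injective_pow_nsmul (bijective_nsmul_Hlc p A hA (n + 1)).1 e
  beta_reduce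
  rw [smul_zero, ← mul_smul]
  exact hN

variable {X : ShortComplex (Rep.{0} ℤ G)} (hfin : 𝔉.FiniteIndex) (hX : X.ShortExact)
  (hsm : IsSmooth 𝔉 X.X₂)

include hfin hX hsm in
/-- over `ℤ`: if the quotient `X₃` is uniquely `p`-divisible then `Hlcⁿ(X₁) → Hlcⁿ(X₂)` has
coprime-to-`p` torsion kernel and cokernel in all degrees `n ≥ 2`. -/
theorem isCoprimeIso_lcH₁₂_of_bijective {p : ℕ} (hp : p.Prime)
    (hQ : Function.Bijective fun a : X.X₃ => p • a) (n : ℕ) :
    IsCoprimeIso (p : ℤ) (lcH₁₂ 𝔉 X (n + 2)).hom :=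
  isCoprimeIso_of_exact (lcδ hfin hX hsm (n + 1) (n + 2) rfl).hom _ (lcH₂₃ 𝔉 X (n + 2)).hom
    (fun x hx => exists_lcδ_eq hfin hX hsm (n + 1) (n + 2) rfl x hx)
    (fun y hy => exists_lcH₁₂_eq hfin hX hsm (n + 2) y hy)
    (isCoprimeTorsion_Hlc_succ_of_bijective hfin hp _ hQ n)
    (isCoprimeTorsion_Hlc_succ_of_bijective hfin hp _ hQ (n + 1))

include hfin hX hsm in
/-- over `ℤ`: if the quotient `X₃` is uniquely `p`-divisible, `Hlcⁿ(X₁) → Hlcⁿ(X₂)` is onto on
`p ^ j`-torsion, for every `n` (natural number form). -/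
theorem exists_lcH₁₂_eq_of_bijective_nat {p : ℕ}
    (hQ : Function.Bijective fun a : X.X₃ => p • a)
    (n : ℕ) (y : Hlc 𝔉 X.X₂ n) (j : ℕ) (hy : p ^ j • y = 0) :
    ∃ x : Hlc 𝔉 X.X₁ n, p ^ j • x = 0 ∧ (lcH₁₂ 𝔉 X n).hom x = y := by
  obtain ⟨x, hx, hxy⟩ := exists_lcH₁₂_eq_of_bijective hfin hX hsm (p : ℤ)
    (by simpa only [Nat.cast_smul_eq_nsmul] using hQ) n y j (by
      rw [← Nat.cast_pow, Nat.cast_smul_eq_nsmul ℤ]
      exact hy)
  refine ⟨x, ?_, hxy⟩
  rw [← Nat.cast_pow, Nat.cast_smul_eq_nsmul ℤ] at hx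
  exact hx

end IntPrime

section NatForms

variable {k G : Type u} [CommRing k] [Group G] (𝔉 : LevelFamily G) (A : Rep.{u} k G)

/-- **(LT1)**, natural number form. -/
theorem eq_zero_of_smul_eq_zero_of_cofinal_nat (p n : ℕ)
    (h : ∀ U : ↥𝔉.sets, ∃ V : ↥𝔉.sets, (V : Subgroup G) ≤ U ∧
      ∀ y : Hfin 𝔉 A V (n + 1), p • y = 0 → y = 0)
    (x : Hlc 𝔉 A (n + 1)) (hx : p • x = 0) : x = 0 := by
  refine eq_zero_of_smul_eq_zero_of_cofinal 𝔉 A (p : k) n (fun U => ?_) x ?_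
  · obtain ⟨V, hVU, hV⟩ := h U
    refine ⟨V, hVU, fun y hy => hV y ?_⟩
    rw [Nat.cast_smul_eq_nsmul k] at hy
    exact hy
  · rw [Nat.cast_smul_eq_nsmul k]
    exact hx

/-- **(LT3)**, natural number form. -/
theorem exists_smul_eq_of_levels_nat (p n : ℕ)
    (h : ∀ (U : ↥𝔉.sets) (y : Hfin 𝔉 A U n), ∃ (V : ↥𝔉.sets) (hVU : (V : Subgroup G) ≤ U)
      (z : Hfin 𝔉 A V n), p • z = (inflUV A hVU n).hom y)
    (x : Hlc 𝔉 A n) : ∃ z : Hlc 𝔉 A n, p • z = x := by
  obtain ⟨z, hz⟩ := exists_smul_eq_of_levels 𝔉 A (p : k) n (fun U y => by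
    obtain ⟨V, hVU, z, hz⟩ := h U y
    refine ⟨V, hVU, z, ?_⟩
    rw [Nat.cast_smul_eq_nsmul k]
    exact hz) x
  refine ⟨z, ?_⟩
  rw [Nat.cast_smul_eq_nsmul k] at hz
  exact hz

/-- **(LT4)**, natural number form. -/
theorem exists_HlcInfl_eq_of_smul_eq_zero_nat (p n : ℕ) (x : Hlc 𝔉 A (n + 1))
    (hx : p • x = 0) :
    ∃ (U : ↥𝔉.sets) (y : Hfin 𝔉 A U (n + 1)), p • y = 0 ∧ (HlcInfl 𝔉 A U (n + 1)).hom y = x := by
  obtain ⟨U, y, hy, hyx⟩ := exists_HlcInfl_eq_of_smul_eq_zero 𝔉 A (p : k) n x (by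
    rw [Nat.cast_smul_eq_nsmul k]
    exact hx)
  refine ⟨U, y, ?_, hyx⟩
  rw [Nat.cast_smul_eq_nsmul k] at hy
  exact hy

end NatForms

end Fermat.Agent.PT
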