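import Mathlib
import Fermat.Agent.CFT.PT.ConeFunct
import Fermat.Agent.CFT.PT.SmoothLES

/-!
# S55 engine (E5), part 4: the long exact sequence of cone cohomology in the coefficients

For a short exact sequence `0 ⟶ X₁ ⟶ X₂ ⟶ X₃ ⟶ 0` of `Rep k G` with `X₂` smooth, all members of
`𝔉` and of the local families of finite index:

* lifting lemmas `exists_lcCochains_lift`, `exists_lcCochains_factor`, `exists_coneCochains_lift`,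
  `exists_coneCochains_factor`, `exists_coneCoboundaries_lift`, `mem_coneCoboundaries_succ`;
* the connecting map `ccΔ : Hcc 𝔏 X.X₃ n →ₗ[k] Hcc 𝔏 X.X₁ (n + 1)` with its description on
  representatives `ccΔ_ccπ`;
* the six exactness statements of
  `Hcc^n(X₁) → Hcc^n(X₂) → Hcc^n(X₃) → Hcc^{n+1}(X₁) → Hcc^{n+1}(X₂) → Hcc^{n+1}(X₃)`.
-/

set_option autoImplicit false

namespace Fermat.Agent.PT

open CategoryTheory groupCohomology Rep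

universe u

variable {k G : Type u} [CommRing k] [Group G]

/-! ### lifting cochains -/

section Lifting

variable {𝔉 : LevelFamily G} {A₁ A₂ A₃ : Rep.{u} k G} (f : A₁ ⟶ A₂) (g : A₂ ⟶ A₃)

theorem exists_lcCochains_lift (hfin : 𝔉.FiniteIndex) (hsm : IsSmooth 𝔉 A₂)
    (hg : Function.Surjective g.hom) {n : ℕ} {c : (Fin n → G) → A₃}
    (hc : c ∈ lcCochains 𝔉 A₃ n) : ∃ c' ∈ lcCochains 𝔉 A₂ n, coeffMap g n c' = c := by
  obtain ⟨c', hc', h⟩ := exists_lift_isLCFun (𝔉 := 𝔉.sets) A₂.ρ A₃.ρ 𝔉.nonempty 𝔉.directed hfin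
    g.hom hg hsm c hc
  exact ⟨c', hc', funext h⟩

theorem exists_lcCochains_factor (hf : Function.Injective f.hom)
    (hex : ∀ a, g.hom a = 0 → ∃ a', f.hom a' = a) {n : ℕ} {c : (Fin n → G) → A₂}
    (hc : c ∈ lcCochains 𝔉 A₂ n) (h0 : coeffMap g n c = 0) :
    ∃ c' ∈ lcCochains 𝔉 A₁ n, coeffMap f n c' = c := by
  obtain ⟨c', hc', h⟩ := exists_factor_isLCFun (𝔉 := 𝔉.sets) A₁.ρ A₂.ρ f.hom hf
    (fun u a => Rep.hom_comm_apply f u a) c hc (fun x => hex _ (congrFun h0 x))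
  exact ⟨c', hc', funext h⟩

theorem coeffMap_injective (hf : Function.Injective f.hom) (n : ℕ) :
    Function.Injective (coeffMap f n) := by
  intro c c' h
  funext x
  exact hf (congrFun h x)

theorem exists_isLcCoboundary_lift (hfin : 𝔉.FiniteIndex) (hsm : IsSmooth 𝔉 A₂)
    (hg : Function.Surjective g.hom) {n : ℕ} {c : (Fin n → G) → A₃}
    (hc : IsLcCoboundary 𝔉 A₃ n c) :
    ∃ c', IsLcCoboundary 𝔉 A₂ n c' ∧ coeffMap g n c' = c := by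
  cases n with
  | zero =>
    have h0 : c = 0 := hc
    exact ⟨0, isLcCoboundary_zero 𝔉 A₂ 0, by rw [map_zero, h0]⟩
  | succ n =>
    obtain ⟨h, hh, rfl⟩ := hc
    obtain ⟨h', hh', rfl⟩ := exists_lcCochains_lift g hfin hsm hg hh
    exact ⟨_, isLcCoboundary_d hh', coeffMap_d g n h'⟩

end Lifting

section LocalHyp

variable {𝔉 : LevelFamily G} (𝔏 : LocSystem 𝔉)

/-- all members of all local families have finite index -/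
def LocSystem.FiniteIndex : Prop := ∀ v, (𝔏.fam v).FiniteIndex

variable {𝔏} in
theorem IsSmooth.loc {A : Rep.{u} k G} (hA : IsSmooth 𝔉 A) (v : 𝔏.ι) :
    IsSmooth (𝔏.fam v) (𝔏.coeff A v) := by
  intro a
  obtain ⟨U, hU, hUa⟩ := hA a
  obtain ⟨V, hV, hVU⟩ := 𝔏.compat v U hU
  exact ⟨V, hV, fun u hu => hUa (𝔏.ψ v u) (hVU hu)⟩

end LocalHyp

/-! ### lifting cone cochains -/

section ConeLifting

variable {𝔉 : LevelFamily G} (𝔏 : LocSystem 𝔉) {A A₁ A₂ A₃ : Rep.{u} k G} (f : A₁ ⟶ A₂)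
  (g : A₂ ⟶ A₃)

theorem mem_coneCoboundaries_succ {n : ℕ} {z : ConeAmb 𝔏 A (n + 1)} :
    z ∈ coneCoboundaries 𝔏 A (n + 1) ↔ ∃ w ∈ coneCochains 𝔏 A n, coneD 𝔏 A n w = z := by
  constructor
  · rintro ⟨a', ha', h1, h2⟩
    choose b hb hdb using h2
    refine ⟨(a', b), mem_coneCochains.2 ⟨ha', hb⟩, Prod.ext h1 (funext fun v => ?_)⟩
    rw [coneD_snd, hdb v]
    abel
  · rintro ⟨w, hw, rfl⟩
    exact coneD_mem_coneCoboundaries hw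

theorem coneMap_injective (hf : Function.Injective f.hom) (n : ℕ) :
    Function.Injective (coneMap 𝔏 f n) := by
  intro z z' h
  refine Prod.ext (coeffMap_injective f hf _ (congrArg Prod.fst h)) (funext fun v => ?_)
  exact coeffMap_injective (𝔏.coeffHom f v) hf _ (congrFun (congrArg Prod.snd h) v)

theorem exists_coneCochains_lift (hfin : 𝔉.FiniteIndex) (hfinv : 𝔏.FiniteIndex)
    (hsm : IsSmooth 𝔉 A₂) (hg : Function.Surjective g.hom) {n : ℕ} {z : ConeAmb 𝔏 A₃ n}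
    (hz : z ∈ coneCochains 𝔏 A₃ n) : ∃ z' ∈ coneCochains 𝔏 A₂ n, coneMap 𝔏 g n z' = z := by
  rw [mem_coneCochains] at hz
  obtain ⟨a, ha, h1⟩ := exists_lcCochains_lift g hfin hsm hg hz.1
  have h2 : ∀ v, ∃ b ∈ lcCochains (𝔏.fam v) (𝔏.coeff A₂ v) n,
      coeffMap (𝔏.coeffHom g v) n b = z.2 v := fun v =>
    exists_lcCochains_lift (𝔏.coeffHom g v) (hfinv v) (hsm.loc v) hg (hz.2 v)
  choose b hb hb2 using h2
  exact ⟨(a, b), mem_coneCochains.2 ⟨ha, hb⟩, Prod.ext h1 (funext hb2)⟩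

theorem exists_coneCochains_factor (hf : Function.Injective f.hom)
    (hex : ∀ a, g.hom a = 0 → ∃ a', f.hom a' = a) {n : ℕ} {z : ConeAmb 𝔏 A₂ n}
    (hz : z ∈ coneCochains 𝔏 A₂ n) (h0 : coneMap 𝔏 g n z = 0) :
    ∃ z' ∈ coneCochains 𝔏 A₁ n, coneMap 𝔏 f n z' = z := by
  rw [mem_coneCochains] at hz
  obtain ⟨a, ha, h1⟩ := exists_lcCochains_factor f g hf hex hz.1 (congrArg Prod.fst h0)
  have h2 : ∀ v, ∃ b ∈ lcCochains (𝔏.fam v) (𝔏.coeff A₁ v) n,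
      coeffMap (𝔏.coeffHom f v) n b = z.2 v := fun v =>
    exists_lcCochains_factor (𝔏.coeffHom f v) (𝔏.coeffHom g v) hf hex (hz.2 v)
      (congrFun (congrArg Prod.snd h0) v)
  choose b hb hb2 using h2
  exact ⟨(a, b), mem_coneCochains.2 ⟨ha, hb⟩, Prod.ext h1 (funext hb2)⟩

theorem exists_coneCoboundaries_lift (hfin : 𝔉.FiniteIndex) (hfinv : 𝔏.FiniteIndex)
    (hsm : IsSmooth 𝔉 A₂) (hg : Function.Surjective g.hom) {n : ℕ} {z : ConeAmb 𝔏 A₃ n}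
    (hz : z ∈ coneCoboundaries 𝔏 A₃ n) :
    ∃ z' ∈ coneCoboundaries 𝔏 A₂ n, coneMap 𝔏 g n z' = z := by
  obtain ⟨a', ha', h1, h2⟩ := hz
  obtain ⟨a, ha, rfl⟩ := exists_lcCochains_lift g hfin hsm hg ha'
  have h3 : ∀ v, ∃ c, IsLcCoboundary (𝔏.fam v) (𝔏.coeff A₂ v) n c ∧
      coeffMap (𝔏.coeffHom g v) n c = resLoc 𝔏 A₃ v n (coeffMap g n a) - z.2 v := fun v =>
    exists_isLcCoboundary_lift (𝔏.coeffHom g v) (hfinv v) (hsm.loc v) hg (h2 v)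
  choose c hc hc2 using h3
  refine ⟨((inhomogeneousCochains.d A₂ n).hom a, fun v => resLoc 𝔏 A₂ v n a - c v),
    ⟨a, ha, rfl, fun v => ?_⟩, Prod.ext ?_ (funext fun v => ?_)⟩
  · change IsLcCoboundary _ _ n (resLoc 𝔏 A₂ v n a - (resLoc 𝔏 A₂ v n a - c v))
    rw [sub_sub_cancel]
    exact hc v
  · rw [coneMap_fst, ← h1]
    exact coeffMap_d g n a
  · rw [coneMap_snd]
    change coeffMap (𝔏.coeffHom g v) n (resLoc 𝔏 A₂ v n a - c v) = z.2 v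
    rw [map_sub, hc2 v, ← resLoc_coeffMap]
    abel

end ConeLifting

/-! ### linear maps from linear relations -/

section RelLift

variable {R P Q : Type*} [Ring R] [AddCommGroup P] [Module R P] [AddCommGroup Q] [Module R Q]

/-- a total linear relation `S ⊆ P × Q` which is single-valued modulo `N` defines a linear map
`P → Q ⧸ N`. -/
noncomputable def relLift (S : Submodule R (P × Q)) (N : Submodule R Q)
    (htot : ∀ p, ∃ q, (p, q) ∈ S) (hN : ∀ q, ((0 : P), q) ∈ S → q ∈ N) : P →ₗ[R] Q ⧸ N :=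
  linDescend ((LinearMap.fst R P Q).domRestrict S)
    (by
      intro p
      obtain ⟨q, h⟩ := htot p
      exact ⟨⟨(p, q), h⟩, rfl⟩)
    (N.mkQ ∘ₗ (LinearMap.snd R P Q).domRestrict S)
    (by
      rintro ⟨⟨p, q⟩, h⟩ h0
      rw [LinearMap.mem_ker] at h0 ⊢
      have h0' : p = 0 := h0
      subst h0'
      rw [LinearMap.comp_apply]
      exact (Submodule.Quotient.mk_eq_zero N).2 (hN q h))

theorem relLift_apply (S : Submodule R (P × Q)) (N : Submodule R Q)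
    (htot : ∀ p, ∃ q, (p, q) ∈ S) (hN : ∀ q, ((0 : P), q) ∈ S → q ∈ N) {p : P} {q : Q}
    (h : (p, q) ∈ S) : relLift S N htot hN p = Submodule.Quotient.mk q :=
  linDescend_apply ((LinearMap.fst R P Q).domRestrict S) _
    (N.mkQ ∘ₗ (LinearMap.snd R P Q).domRestrict S) _ (⟨(p, q), h⟩ : S)

end RelLift

/-! ### the connecting homomorphism -/

section Connecting

variable {𝔉 : LevelFamily G} (𝔏 : LocSystem 𝔉) (X : ShortComplex (Rep.{u} k G))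

/-- the hypotheses for the long exact sequence in the coefficients -/
structure ConeLESHyp : Prop where
  shortExact : X.ShortExact
  finG : 𝔉.FiniteIndex
  finLoc : 𝔏.FiniteIndex
  smooth : IsSmooth 𝔉 X.X₂

variable {𝔏 X}

theorem ConeLESHyp.inj (H : ConeLESHyp 𝔏 X) : Function.Injective X.f.hom :=
  (Rep.mono_iff_injective X.f).1 H.shortExact.mono_f

theorem ConeLESHyp.surj (H : ConeLESHyp 𝔏 X) : Function.Surjective X.g.hom :=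
  (Rep.epi_iff_surjective X.g).1 H.shortExact.epi_g

theorem ConeLESHyp.ex (H : ConeLESHyp 𝔏 X) (a : X.X₂) (ha : X.g.hom a = 0) :
    ∃ a' : X.X₁, X.f.hom a' = a :=
  exists_of_shortExact_of_g_eq_zero H.shortExact a ha

theorem coeffMap_g_f (n : ℕ) (c : (Fin n → G) → X.X₁) :
    coeffMap X.g n (coeffMap X.f n c) = 0 := by
  funext x
  have h2 : (X.f ≫ X.g).hom (c x) = 0 := by
    rw [X.zero]
    rfl
  exact h2

theorem coneMap_g_f (n : ℕ) (z : ConeAmb 𝔏 X.X₁ n) :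
    coneMap 𝔏 X.g n (coneMap 𝔏 X.f n z) = 0 := by
  refine Prod.ext (coeffMap_g_f _ z.1) (funext fun v => ?_)
  funext x
  have h2 : (X.f ≫ X.g).hom (z.2 v x) = 0 := by
    rw [X.zero]
    rfl
  exact h2

variable (𝔏 X) in
/-- the linear relation defining the connecting homomorphism: `(z₃, z₁)` such that some cone
cochain `z₂` of `X₂` lifts `z₃` and has `coneD z₂ = f z₁`. -/
def ccΔRel (n : ℕ) : Submodule k (coneCocycles 𝔏 X.X₃ n × coneCocycles 𝔏 X.X₁ (n + 1)) where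
  carrier := {p | ∃ z₂ ∈ coneCochains 𝔏 X.X₂ n, coneMap 𝔏 X.g n z₂ = p.1.1 ∧
    coneMap 𝔏 X.f (n + 1) p.2.1 = coneD 𝔏 X.X₂ n z₂}
  add_mem' := by
    rintro p p' ⟨z, hz, h1, h2⟩ ⟨z', hz', h1', h2'⟩
    refine ⟨z + z', Submodule.add_mem _ hz hz', ?_, ?_⟩
    · rw [map_add, h1, h1']
      rfl
    · rw [map_add, ← h2, ← h2', ← map_add]
      rfl
  zero_mem' := ⟨0, Submodule.zero_mem _, map_zero _, by
    rw [map_zero]
    exact map_zero _⟩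
  smul_mem' := by
    rintro r p ⟨z, hz, h1, h2⟩
    refine ⟨r • z, Submodule.smul_mem _ _ hz, ?_, ?_⟩
    · rw [map_smul, h1]
      rfl
    · rw [map_smul, ← h2, ← map_smul]
      rfl

theorem mem_ccΔRel {n : ℕ} {p : coneCocycles 𝔏 X.X₃ n × coneCocycles 𝔏 X.X₁ (n + 1)} :
    p ∈ ccΔRel 𝔏 X n ↔ ∃ z₂ ∈ coneCochains 𝔏 X.X₂ n, coneMap 𝔏 X.g n z₂ = p.1.1 ∧
      coneMap 𝔏 X.f (n + 1) p.2.1 = coneD 𝔏 X.X₂ n z₂ := Iff.rfl

/-- every cone cocycle of `X₃` is related to some cone cocycle of `X₁` -/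
theorem ConeLESHyp.exists_rel (H : ConeLESHyp 𝔏 X) {n : ℕ} (z₃ : coneCocycles 𝔏 X.X₃ n) :
    ∃ z₁ : coneCocycles 𝔏 X.X₁ (n + 1), (z₃, z₁) ∈ ccΔRel 𝔏 X n := by
  obtain ⟨z₂, hz₂, hg⟩ := exists_coneCochains_lift 𝔏 X.g H.finG H.finLoc H.smooth H.surj z₃.2.1
  have hD₂ : coneD 𝔏 X.X₂ n z₂ ∈ coneCochains 𝔏 X.X₂ (n + 1) := coneD_mem_coneCochains hz₂
  have h0 : coneMap 𝔏 X.g (n + 1) (coneD 𝔏 X.X₂ n z₂) = 0 := by
    rw [← coneD_coneMap, hg, LinearMap.mem_ker.1 z₃.2.2]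
  obtain ⟨z₁, hz₁, hf⟩ := exists_coneCochains_factor 𝔏 X.f X.g H.inj H.ex hD₂ h0
  have hz₁c : z₁ ∈ coneCocycles 𝔏 X.X₁ (n + 1) := by
    refine ⟨hz₁, LinearMap.mem_ker.2 (coneMap_injective 𝔏 X.f H.inj _ ?_)⟩
    rw [← coneD_coneMap, hf, coneD_coneD, map_zero]
  exact ⟨⟨z₁, hz₁c⟩, z₂, hz₂, hg, hf⟩

/-- a cone cocycle of `X₁` related to `0` is a coboundary -/
theorem ConeLESHyp.rel_zero (H : ConeLESHyp 𝔏 X) {n : ℕ} {z₁ : coneCocycles 𝔏 X.X₁ (n + 1)}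
    (h : ((0 : coneCocycles 𝔏 X.X₃ n), z₁) ∈ ccΔRel 𝔏 X n) :
    z₁.1 ∈ coneCoboundaries 𝔏 X.X₁ (n + 1) := by
  obtain ⟨z₂, hz₂, hg, hf⟩ := h
  obtain ⟨w₁, hw₁, rfl⟩ := exists_coneCochains_factor 𝔏 X.f X.g H.inj H.ex hz₂ hg
  rw [coneD_coneMap] at hf
  rw [coneMap_injective 𝔏 X.f H.inj _ hf]
  exact coneD_mem_coneCoboundaries hw₁

/-- a coboundary of `X₃` is related to `0` -/
theorem ConeLESHyp.rel_of_coboundary (H : ConeLESHyp 𝔏 X) {n : ℕ} {z₃ : coneCocycles 𝔏 X.X₃ n}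
    (h : z₃.1 ∈ coneCoboundaries 𝔏 X.X₃ n) :
    (z₃, (0 : coneCocycles 𝔏 X.X₁ (n + 1))) ∈ ccΔRel 𝔏 X n := by
  obtain ⟨z₂, hz₂, hg⟩ := exists_coneCoboundaries_lift 𝔏 X.g H.finG H.finLoc H.smooth H.surj h
  have hc := coneCoboundaries_le_coneCocycles 𝔏 X.X₂ n hz₂
  refine ⟨z₂, hc.1, hg, ?_⟩
  rw [LinearMap.mem_ker.1 hc.2]
  exact map_zero _

/-- auxiliary: the connecting map on cocycles -/
noncomputable def ccΔAux (H : ConeLESHyp 𝔏 X) (n : ℕ) :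
    coneCocycles 𝔏 X.X₃ n →ₗ[k] Hcc 𝔏 X.X₁ (n + 1) :=
  relLift (ccΔRel 𝔏 X n) ((coneCoboundaries 𝔏 X.X₁ (n + 1)).comap
    (coneCocycles 𝔏 X.X₁ (n + 1)).subtype) (fun z₃ => H.exists_rel z₃) (fun _ h => H.rel_zero h)

theorem ccΔAux_of_rel (H : ConeLESHyp 𝔏 X) {n : ℕ} {z₃ : coneCocycles 𝔏 X.X₃ n}
    {z₁ : coneCocycles 𝔏 X.X₁ (n + 1)} (h : (z₃, z₁) ∈ ccΔRel 𝔏 X n) :
    ccΔAux H n z₃ = ccπ 𝔏 X.X₁ (n + 1) z₁ :=
  relLift_apply _ _ _ _ h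

/-- **the connecting homomorphism** `Hcc^n(X₃) → Hcc^{n+1}(X₁)` -/
noncomputable def ccΔ (H : ConeLESHyp 𝔏 X) (n : ℕ) : Hcc 𝔏 X.X₃ n →ₗ[k] Hcc 𝔏 X.X₁ (n + 1) :=
  Submodule.liftQ _ (ccΔAux H n) (by
    intro z₃ hz₃
    rw [LinearMap.mem_ker, ccΔAux_of_rel H (H.rel_of_coboundary hz₃), map_zero])

/-- the connecting homomorphism on representatives -/
theorem ccΔ_ccπ (H : ConeLESHyp 𝔏 X) {n : ℕ} {z₃ : coneCocycles 𝔏 X.X₃ n}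
    {z₁ : coneCocycles 𝔏 X.X₁ (n + 1)} (h : (z₃, z₁) ∈ ccΔRel 𝔏 X n) :
    ccΔ H n (ccπ 𝔏 X.X₃ n z₃) = ccπ 𝔏 X.X₁ (n + 1) z₁ :=
  ccΔAux_of_rel H h

/-! ### exactness -/

theorem HccMap_g_f (n : ℕ) (z : Hcc 𝔏 X.X₁ n) : HccMap 𝔏 X.g n (HccMap 𝔏 X.f n z) = 0 := by
  obtain ⟨w, rfl⟩ := ccπ_surjective 𝔏 X.X₁ n z
  rw [HccMap_ccπ, HccMap_ccπ]
  have h : coneMapZ 𝔏 X.g n (coneMapZ 𝔏 X.f n w) = 0 := Subtype.ext (coneMap_g_f n w.1)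
  rw [h, map_zero]

theorem exists_HccMap_f_eq (H : ConeLESHyp 𝔏 X) (n : ℕ) (z : Hcc 𝔏 X.X₂ n)
    (hz : HccMap 𝔏 X.g n z = 0) : ∃ z₁ : Hcc 𝔏 X.X₁ n, HccMap 𝔏 X.f n z₁ = z := by
  obtain ⟨w, rfl⟩ := ccπ_surjective 𝔏 X.X₂ n z
  rw [HccMap_ccπ, ccπ_eq_zero_iff] at hz
  obtain ⟨w', hw', hg⟩ := exists_coneCoboundaries_lift 𝔏 X.g H.finG H.finLoc H.smooth H.surj hz
  have hw'c := coneCoboundaries_le_coneCocycles 𝔏 X.X₂ n hw'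
  have h0 : coneMap 𝔏 X.g n (w.1 - w') = 0 := by
    rw [map_sub, hg, coneMapZ_coe, sub_self]
  obtain ⟨w₁, hw₁, hf⟩ := exists_coneCochains_factor 𝔏 X.f X.g H.inj H.ex
    (Submodule.sub_mem _ w.2.1 hw'c.1) h0
  have hw₁c : w₁ ∈ coneCocycles 𝔏 X.X₁ n := by
    refine ⟨hw₁, LinearMap.mem_ker.2 (coneMap_injective 𝔏 X.f H.inj _ ?_)⟩
    rw [← coneD_coneMap, hf, map_sub, LinearMap.mem_ker.1 w.2.2, LinearMap.mem_ker.1 hw'c.2,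
      sub_zero, map_zero]
  refine ⟨ccπ 𝔏 X.X₁ n ⟨w₁, hw₁c⟩, ?_⟩
  rw [HccMap_ccπ, ccπ_eq_ccπ_iff, coneMapZ_coe]
  change coneMap 𝔏 X.f n w₁ - w.1 ∈ _
  rw [hf, sub_sub_cancel_left]
  exact Submodule.neg_mem _ hw'

theorem ccΔ_HccMap_g (H : ConeLESHyp 𝔏 X) (n : ℕ) (z : Hcc 𝔏 X.X₂ n) :
    ccΔ H n (HccMap 𝔏 X.g n z) = 0 := by
  obtain ⟨w, rfl⟩ := ccπ_surjective 𝔏 X.X₂ n z
  rw [HccMap_ccπ]
  have h : (coneMapZ 𝔏 X.g n w, (0 : coneCocycles 𝔏 X.X₁ (n + 1))) ∈ ccΔRel 𝔏 X n := by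
    refine ⟨w.1, w.2.1, rfl, ?_⟩
    rw [LinearMap.mem_ker.1 w.2.2]
    exact map_zero _
  rw [ccΔ_ccπ H h, map_zero]

theorem exists_HccMap_g_eq (H : ConeLESHyp 𝔏 X) (n : ℕ) (z : Hcc 𝔏 X.X₃ n)
    (hz : ccΔ H n z = 0) : ∃ z₂ : Hcc 𝔏 X.X₂ n, HccMap 𝔏 X.g n z₂ = z := by
  obtain ⟨w₃, rfl⟩ := ccπ_surjective 𝔏 X.X₃ n z
  obtain ⟨w₁, hrel⟩ := H.exists_rel w₃
  rw [ccΔ_ccπ H hrel, ccπ_eq_zero_iff, mem_coneCoboundaries_succ] at hz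
  obtain ⟨u₁, hu₁, hu₁d⟩ := hz
  obtain ⟨w₂, hw₂, hg, hf⟩ := hrel
  have hc : w₂ - coneMap 𝔏 X.f n u₁ ∈ coneCocycles 𝔏 X.X₂ n := by
    refine ⟨Submodule.sub_mem _ hw₂ (coneMap_mem_coneCochains hu₁), LinearMap.mem_ker.2 ?_⟩
    rw [map_sub, coneD_coneMap, hu₁d, hf, sub_self]
  refine ⟨ccπ 𝔏 X.X₂ n ⟨_, hc⟩, ?_⟩
  rw [HccMap_ccπ]
  congr 1
  apply Subtype.ext
  change coneMap 𝔏 X.g n (w₂ - coneMap 𝔏 X.f n u₁) = w₃.1
  rw [map_sub, coneMap_g_f, sub_zero, hg]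

theorem HccMap_f_ccΔ (H : ConeLESHyp 𝔏 X) (n : ℕ) (z : Hcc 𝔏 X.X₃ n) :
    HccMap 𝔏 X.f (n + 1) (ccΔ H n z) = 0 := by
  obtain ⟨w₃, rfl⟩ := ccπ_surjective 𝔏 X.X₃ n z
  obtain ⟨w₁, hrel⟩ := H.exists_rel w₃
  rw [ccΔ_ccπ H hrel, HccMap_ccπ, ccπ_eq_zero_iff, coneMapZ_coe]
  obtain ⟨w₂, hw₂, -, hf⟩ := hrel
  rw [hf]
  exact coneD_mem_coneCoboundaries hw₂

theorem exists_ccΔ_eq (H : ConeLESHyp 𝔏 X) (n : ℕ) (z : Hcc 𝔏 X.X₁ (n + 1))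
    (hz : HccMap 𝔏 X.f (n + 1) z = 0) : ∃ z₃ : Hcc 𝔏 X.X₃ n, ccΔ H n z₃ = z := by
  obtain ⟨w₁, rfl⟩ := ccπ_surjective 𝔏 X.X₁ (n + 1) z
  rw [HccMap_ccπ, ccπ_eq_zero_iff, mem_coneCoboundaries_succ] at hz
  obtain ⟨w₂, hw₂, hd⟩ := hz
  have hc : coneMap 𝔏 X.g n w₂ ∈ coneCocycles 𝔏 X.X₃ n := by
    refine ⟨coneMap_mem_coneCochains hw₂, LinearMap.mem_ker.2 ?_⟩
    rw [coneD_coneMap, hd, coneMapZ_coe, coneMap_g_f]
  refine ⟨ccπ 𝔏 X.X₃ n ⟨_, hc⟩, ?_⟩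
  exact ccΔ_ccπ H ⟨w₂, hw₂, rfl, hd.symm⟩

end Connecting

end Fermat.Agent.PT
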