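import Mathlib
import Fermat.Agent.CFT.PT.ConeLES
import Fermat.Agent.CFT.PT.SmoothDelta

/-!
# S55 engine (E5), part 5: adjointness and `δ`-compatibility of the cup products

* `RepPairing.Adj β β' φ φ'` : `β (φ a) b = β' a (φ' b)`; then
  `cupN_adj`, `cupH_adj : cupH β (φ_* x) y = cupH β' x (φ'_* y)`, `coneCup_adj`,
  `ccCupH_adj : ccCupH β (HccMap φ z) y = ccCupH β' z (HlcCoeff φ' y)`.
* `exists_lcδ_rep` : representatives for helper14's connecting homomorphism `lcδ`.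
* for short exact sequences `X`, `Y` of coefficients and pairings `β₁ : X₁ × Y₃ → C`,
  `β₂ : X₂ × Y₂ → C`, `β₃ : X₃ × Y₁ → C` with `β₂ (f a) b = β₁ a (g' b)` and
  `β₃ (g a) b = β₂ a (f' b)`:
  `lcδ_cupH : lcδ x ∪₁ y + (-1)^m • x ∪₃ lcδ y = 0` and
  `ccΔ_ccCupH : ccΔ z ∪₁ y + (-1)^(m+1) • z ∪₃ lcδ y = 0`.
-/

set_option autoImplicit false

namespace Fermat.Agent.PT

open CategoryTheory groupCohomology Rep

universe u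

variable {k G : Type u} [CommRing k] [Group G]

section Adjoint

variable {A A' B B' C : Rep.{u} k G}

/-- adjointness of two pairings along coefficient maps: `β (φ a) b = β' a (φ' b)` -/
def RepPairing.Adj (β : RepPairing A' B C) (β' : RepPairing A B' C) (φ : A ⟶ A') (φ' : B ⟶ B') :
    Prop :=
  ∀ (a : A) (b : B), β.toLin (φ.hom a) b = β'.toLin a (φ'.hom b)

variable (β : RepPairing A' B C) (β' : RepPairing A B' C) (φ : A ⟶ A') (φ' : B ⟶ B')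

theorem cup_adj (hβ : β.Adj β' φ φ') (m n : ℕ) (f : (Fin m → G) → A) (g : (Fin n → G) → B) :
    cup β m n (coeffMap φ m f) g = cup β' m n f (coeffMap φ' n g) := by
  funext x
  rw [cup_apply, cup_apply, coeffMap_apply, coeffMap_apply, hβ]
  congr 1
  exact Rep.hom_comm_apply φ' (tupProd (tupFst m n x)) (g (tupSnd m n x))

theorem cupN_adj (hβ : β.Adj β' φ φ') {m n N : ℕ} (h : m + n = N) (f : (Fin m → G) → A)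
    (g : (Fin n → G) → B) :
    cupN β h (coeffMap φ m f) g = cupN β' h f (coeffMap φ' n g) := by
  subst h
  exact cup_adj β β' φ φ' hβ m n f g

theorem cupH_adj (𝔉 : LevelFamily G) (hβ : β.Adj β' φ φ') {m n N : ℕ} (h : m + n = N)
    (x : Hlc 𝔉 A m) (y : Hlc 𝔉 B n) :
    cupH 𝔉 β h (HlcCoeff φ 𝔉 m x) y = cupH 𝔉 β' h x (HlcCoeff φ' 𝔉 n y) := by
  obtain ⟨c, rfl⟩ := lcπ_surjective 𝔉 A m x
  obtain ⟨c', rfl⟩ := lcπ_surjective 𝔉 B n y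
  rw [HlcCoeff_lcπ, HlcCoeff_lcπ, cupH_lcπ, cupH_lcπ]
  congr 1
  apply Subtype.ext
  exact cupN_adj β β' φ φ' hβ h c.1 c'.1

variable {𝔉 : LevelFamily G} (𝔏 : LocSystem 𝔉)

theorem coneCup_adj (hβ : β.Adj β' φ φ') {m n N : ℕ} (h : m + n = N) (z : ConeAmb 𝔏 A m)
    (g : (Fin n → G) → B) :
    coneCup 𝔏 β h (coneMap 𝔏 φ m z) g = coneCup 𝔏 β' h z (coeffMap φ' n g) := by
  refine Prod.ext ?_ (funext fun v => ?_)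
  · exact cupN_adj β β' φ φ' hβ _ z.1 g
  · exact cupN_adj (𝔏.pairing β v) (𝔏.pairing β' v) (𝔏.coeffHom φ v) (𝔏.coeffHom φ' v)
      (fun a b => hβ a b) h (z.2 v) (resLoc 𝔏 B v n g)

theorem ccCupH_adj (hβ : β.Adj β' φ φ') {m n N : ℕ} (h : m + n = N) (z : Hcc 𝔏 A m)
    (y : Hlc 𝔉 B n) :
    ccCupH 𝔏 β h (HccMap 𝔏 φ m z) y = ccCupH 𝔏 β' h z (HlcCoeff φ' 𝔉 n y) := by
  obtain ⟨w, rfl⟩ := ccπ_surjective 𝔏 A m z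
  obtain ⟨c, rfl⟩ := lcπ_surjective 𝔉 B n y
  rw [HccMap_ccπ, HlcCoeff_lcπ, ccCupH_ccπ_lcπ, ccCupH_ccπ_lcπ]
  congr 1
  apply Subtype.ext
  exact coneCup_adj β β' φ φ' 𝔏 hβ h w.1 c.1

end Adjoint

section DeltaRep

variable {𝔉 : LevelFamily G} {Y : ShortComplex (Rep.{u} k G)} (hfin : 𝔉.FiniteIndex)
  (hY : Y.ShortExact) (hsm : IsSmooth 𝔉 Y.X₂)

/-- representatives for the connecting homomorphism `lcδ` -/
theorem exists_lcδ_rep (n : ℕ) (c₃ : lcCocycles 𝔉 Y.X₃ n) :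
    ∃ (y₂ : (Fin n → G) → Y.X₂) (c₁ : lcCocycles 𝔉 Y.X₁ (n + 1)),
      y₂ ∈ lcCochains 𝔉 Y.X₂ n ∧ coeffMap Y.g n y₂ = c₃.1 ∧
      coeffMap Y.f (n + 1) c₁.1 = (inhomogeneousCochains.d Y.X₂ n).hom y₂ ∧
      (lcδ hfin hY hsm n (n + 1) rfl).hom (lcπ 𝔉 Y.X₃ n c₃) = lcπ 𝔉 Y.X₁ (n + 1) c₁ := by
  have hinj : Function.Injective Y.f.hom := (Rep.mono_iff_injective Y.f).1 hY.mono_f
  have hsurj : Function.Surjective Y.g.hom := (Rep.epi_iff_surjective Y.g).1 hY.epi_g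
  obtain ⟨y₂, hy₂, hg⟩ := exists_lcCochains_lift Y.g hfin hsm hsurj c₃.2.1
  have h0 : coeffMap Y.g (n + 1) ((inhomogeneousCochains.d Y.X₂ n).hom y₂) = 0 := by
    rw [coeffMap_d, hg, LinearMap.mem_ker.1 c₃.2.2]
  obtain ⟨x₁, hx₁, hf⟩ := exists_lcCochains_factor Y.f Y.g hinj
    (fun a ha => exists_of_shortExact_of_g_eq_zero hY a ha) (d_mem_lcCochains 𝔉 hy₂) h0
  have hd := d_eq_zero_of_comp_eq_d hY y₂ x₁ (fun x => congrFun hf x)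
  refine ⟨y₂, ⟨x₁, hx₁, LinearMap.mem_ker.2 hd⟩, hy₂, hg, hf, ?_⟩
  exact lcδ_lcπ hfin hY hsm n c₃ y₂ hy₂ (fun x => congrFun hg x) x₁ hx₁ (fun x => congrFun hf x)

end DeltaRep

section DeltaCup

variable {𝔉 : LevelFamily G} {X Y : ShortComplex (Rep.{u} k G)} {C : Rep.{u} k G}
  (β₁ : RepPairing X.X₁ Y.X₃ C) (β₂ : RepPairing X.X₂ Y.X₂ C) (β₃ : RepPairing X.X₃ Y.X₁ C)

/-- **`δ`-compatibility of the cup product on `Hlc`**: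
`δ x ∪ y + (-1)^m x ∪ δ y = 0` for `x ∈ Hlc^m(X₃)`, `y ∈ Hlc^n(Y₃)`. -/
theorem lcδ_cupH (hfin : 𝔉.FiniteIndex) (hX : X.ShortExact) (hsmX : IsSmooth 𝔉 X.X₂)
    (hY : Y.ShortExact) (hsmY : IsSmooth 𝔉 Y.X₂) (h₁ : β₂.Adj β₁ X.f Y.g)
    (h₃ : β₃.Adj β₂ X.g Y.f)
    {m n N : ℕ} (h : m + n = N) (x : Hlc 𝔉 X.X₃ m) (y : Hlc 𝔉 Y.X₃ n) :
    cupH 𝔉 β₁ (show m + 1 + n = N + 1 by omega) ((lcδ hfin hX hsmX m (m + 1) rfl).hom x) y +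
      (-1 : k) ^ m • cupH 𝔉 β₃ (show m + (n + 1) = N + 1 by omega) x
        ((lcδ hfin hY hsmY n (n + 1) rfl).hom y) = 0 := by
  obtain ⟨c₃, rfl⟩ := lcπ_surjective 𝔉 X.X₃ m x
  obtain ⟨d₃, rfl⟩ := lcπ_surjective 𝔉 Y.X₃ n y
  obtain ⟨x₂, c₁, hx₂, hxg, hxf, hxδ⟩ := exists_lcδ_rep hfin hX hsmX m c₃
  obtain ⟨y₂, d₁, hy₂, hyg, hyf, hyδ⟩ := exists_lcδ_rep hfin hY hsmY n d₃
  rw [hxδ, hyδ, cupH_lcπ, cupH_lcπ, ← map_smul, ← map_add, lcπ_eq_zero_iff']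
  refine ⟨cupN β₂ h x₂ y₂, cupN_mem_lcCochains 𝔉 β₂ h hx₂ hy₂, ?_⟩
  rw [d_cupN, ← hxf, ← hyf, cupN_adj β₂ β₁ X.f Y.g h₁, hyg]
  have e : cupN β₂ (show m + (n + 1) = N + 1 by omega) x₂ (coeffMap Y.f (n + 1) d₁.1) =
      cupN β₃ (show m + (n + 1) = N + 1 by omega) c₃.1 d₁.1 := by
    rw [← hxg]
    exact (cupN_adj β₃ β₂ X.g Y.f h₃ _ x₂ d₁.1).symm
  rw [e]
  rfl

variable (𝔏 : LocSystem 𝔉)

/-- **`δ`-compatibility of the cup product `Hcc × Hlc → Hcc`**: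
`Δ z ∪ y + (-1)^(m+1) z ∪ δ y = 0` for `z ∈ Hcc^m(X₃)`, `y ∈ Hlc^n(Y₃)`. -/
theorem ccΔ_ccCupH (H : ConeLESHyp 𝔏 X) (hY : Y.ShortExact) (hsmY : IsSmooth 𝔉 Y.X₂)
    (h₁ : β₂.Adj β₁ X.f Y.g)
    (h₃ : β₃.Adj β₂ X.g Y.f)
    {m n N : ℕ} (h : m + n = N) (z : Hcc 𝔏 X.X₃ m) (y : Hlc 𝔉 Y.X₃ n) :
    ccCupH 𝔏 β₁ (show m + 1 + n = N + 1 by omega) (ccΔ H m z) y +
      (-1 : k) ^ (m + 1) • ccCupH 𝔏 β₃ (show m + (n + 1) = N + 1 by omega) z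
        ((lcδ H.finG hY hsmY n (n + 1) rfl).hom y) = 0 := by
  obtain ⟨w₃, rfl⟩ := ccπ_surjective 𝔏 X.X₃ m z
  obtain ⟨d₃, rfl⟩ := lcπ_surjective 𝔉 Y.X₃ n y
  obtain ⟨w₁, hrel⟩ := H.exists_rel w₃
  obtain ⟨y₂, d₁, hy₂, hyg, hyf, hyδ⟩ := exists_lcδ_rep H.finG hY hsmY n d₃
  rw [ccΔ_ccπ H hrel, hyδ, ccCupH_ccπ_lcπ, ccCupH_ccπ_lcπ, ← map_smul, ← map_add,
    ccπ_eq_zero_iff]
  obtain ⟨w₂, hw₂, hwg, hwf⟩ := hrel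
  have hcob := coneD_mem_coneCoboundaries (coneCup_mem_coneCochains (β := β₂) h hw₂ hy₂)
  rw [coneD_coneCup, ← hwf, ← hyf, coneCup_adj β₂ β₁ X.f Y.g 𝔏 h₁, hyg] at hcob
  have e : coneCup 𝔏 β₂ (show m + (n + 1) = N + 1 by omega) w₂ (coeffMap Y.f (n + 1) d₁.1) =
      coneCup 𝔏 β₃ (show m + (n + 1) = N + 1 by omega) w₃.1 d₁.1 := by
    rw [← hwg]
    exact (coneCup_adj β₃ β₂ X.g Y.f 𝔏 h₃ _ w₂ d₁.1).symm
  rw [e] at hcob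
  exact hcob

end DeltaCup

end Fermat.Agent.PT
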