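import Mathlib
import Fermat.Agent.CFT.PT.ChangeOfRing
import Fermat.Agent.CFT.PT.SmoothZero
import Fermat.Agent.CFT.PT.ConeCupDelta

/-!
# S55 global bridge (GT6), part 1: Bockstein classes with explicit cocycles

For a commutative ring `k`, `m : ℕ` a non-zero-divisor in `k`, and a quotient `q : k → R₃` with
kernel `m k` and a set-theoretic section `sec` (`BockData k R₃`; e.g. `k = ℤ`, `R₃ = ZMod p`):

* `bockSC D : ShortComplex (Rep k G)` : `0 → k --m--> k --q--> R₃ → 0` with trivial actions,
  `bockSC_shortExact`;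
* `bock D hfin n : Hlc 𝔉 (trivial R₃) n →ₗ Hlc 𝔉 (trivial k) (n+1)` (the connecting map `lcδ`);
* `exists_bock_rep` : for a level-constant `1`-cocycle `χ` the class `bock [χ]` is represented by
  the carry cocycle `c` with `m * c (g, h) = sec χ(h) - sec χ(g h) + sec χ(g)`.
* `d_one_apply` : the differential in degree `1`; `trivHom` : morphisms of trivial representations.
-/

set_option autoImplicit false

namespace Fermat.Agent.PT

open CategoryTheory groupCohomology Rep

variable {k G : Type} [CommRing k] [Group G]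

/-! ### the differential in degree one -/

theorem d_one_apply (A : Rep.{0} k G) (f : (Fin 1 → G) → A) (g : Fin 2 → G) :
    (inhomogeneousCochains.d A 1).hom f g =
      A.ρ (g 0) (f fun _ => g 1) - f (fun _ => g 0 * g 1) + f fun _ => g 0 := by
  rw [inhomogeneousCochains.d_hom_apply, Fin.sum_univ_two]
  have h0 : Fin.contractNth (0 : Fin 2) (· * ·) g = fun _ => g 0 * g 1 := by
    funext i
    rw [Subsingleton.elim i 0]
    simp [Fin.contractNth]
  have h1 : Fin.contractNth (1 : Fin 2) (· * ·) g = fun _ => g 0 := by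
    funext i
    rw [Subsingleton.elim i 0]
    simp [Fin.contractNth]
  have h2 : (fun i : Fin 1 => g i.succ) = fun _ => g 1 := by
    funext i
    rw [Subsingleton.elim i 0]
    rfl
  rw [h0, h1, h2]
  simp only [Fin.val_zero, Fin.val_one, zero_add, pow_one, neg_smul, one_smul]
  norm_num
  abel

/-! ### morphisms of trivial representations -/

section TrivHom

variable {V W : Type} [AddCommGroup V] [Module k V] [AddCommGroup W] [Module k W]

/-- the morphism of trivial representations induced by a linear map -/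
noncomputable def trivHom (φ : V →ₗ[k] W) : Rep.trivial k G V ⟶ Rep.trivial k G W :=
  Rep.ofHom ⟨φ, fun _ => rfl⟩

@[simp] theorem trivHom_hom_apply (φ : V →ₗ[k] W) (v : V) :
    (trivHom (G := G) φ).hom v = φ v := rfl

theorem isSmooth_trivial (𝔉 : LevelFamily G) : IsSmooth 𝔉 (Rep.trivial k G V) := by
  intro a
  obtain ⟨U, hU⟩ := 𝔉.nonempty
  exact ⟨U, hU, fun _ _ => rfl⟩

end TrivHom

/-! ### Bockstein data -/

/-- data for a Bockstein sequence `0 → k --m--> k --q--> R₃ → 0` -/
structure BockData (k : Type) [CommRing k] (R₃ : Type) [AddCommGroup R₃] [Module k R₃] where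
  /-- the modulus -/
  m : ℕ
  /-- the quotient map -/
  q : k →ₗ[k] R₃
  /-- a set-theoretic section -/
  sec : R₃ → k
  m_inj : ∀ a : k, (m : k) * a = 0 → a = 0
  q_sec : ∀ r, q (sec r) = r
  sec_zero : sec 0 = 0
  q_eq_zero : ∀ a, q a = 0 ↔ ∃ b, a = (m : k) * b

section Bock

variable {R₃ : Type} [AddCommGroup R₃] [Module k R₃] (D : BockData k R₃)

theorem BockData.q_m_mul (a : k) : D.q ((D.m : k) * a) = 0 :=
  (D.q_eq_zero _).2 ⟨a, rfl⟩

variable (G) in
/-- the Bockstein short complex of trivial representations -/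
noncomputable abbrev bockSC : ShortComplex (Rep.{0} k G) :=
  ShortComplex.mk (trivHom (G := G) (LinearMap.lsmul k k (D.m : k))) (trivHom (G := G) D.q) (by
    apply Rep.hom_ext
    apply Representation.IntertwiningMap.ext
    apply LinearMap.ext
    intro a
    exact D.q_m_mul a)

theorem bockSC_f_apply (a : k) : (bockSC G D).f.hom a = (D.m : k) * a := rfl

theorem bockSC_g_apply (a : k) : (bockSC G D).g.hom a = D.q a := rfl

theorem bockSC_shortExact : (bockSC G D).ShortExact :=
  rep_shortExact_of_elementwise (bockSC G D)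
    (by
      intro (a : k) (b : k) h
      have h' : (D.m : k) * a = (D.m : k) * b := h
      have := D.m_inj (a - b) (by rw [mul_sub, h', sub_self])
      exact sub_eq_zero.1 this)
    (fun r => ⟨D.sec r, D.q_sec r⟩)
    (fun a ha => by
      obtain ⟨b, hb⟩ := (D.q_eq_zero a).1 ha
      exact ⟨b, hb.symm⟩)

variable {𝔉 : LevelFamily G} (hfin : 𝔉.FiniteIndex)

/-- the Bockstein homomorphism -/
noncomputable def bock (n : ℕ) :
    Hlc 𝔉 (Rep.trivial k G R₃) n →ₗ[k] Hlc 𝔉 (Rep.trivial k G k) (n + 1) :=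
  (lcδ hfin (bockSC_shortExact D) (isSmooth_trivial (V := k) 𝔉) n (n + 1) rfl).hom

/-- the class `bock [χ]` of a `1`-cocycle is represented by the carry cocycle. -/
theorem exists_bock_rep (χ : lcCocycles 𝔉 (Rep.trivial k G R₃) 1) :
    ∃ c : lcCocycles 𝔉 (Rep.trivial k G k) 2,
      (∀ g : Fin 2 → G, (D.m : k) * c.1 g =
        D.sec (χ.1 fun _ => g 1) - D.sec (χ.1 fun _ => g 0 * g 1) + D.sec (χ.1 fun _ => g 0)) ∧
      bock D hfin 1 (lcπ 𝔉 _ 1 χ) = lcπ 𝔉 _ 2 c := by
  -- the lift `sec ∘ χ` is level-constant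
  have hy : (fun g => D.sec (χ.1 g)) ∈ lcCochains 𝔉 (Rep.trivial k G k) 1 := by
    obtain ⟨U, hU, hχ⟩ := χ.2.1
    exact ⟨U, hU, fun g h hgh => by
      change D.sec (χ.1 g) = D.sec (χ.1 h)
      rw [hχ.1 g h hgh], fun _ _ _ => rfl⟩
  have hg : coeffMap (bockSC G D).g 1 (fun g => D.sec (χ.1 g)) = χ.1 := by
    funext g
    exact D.q_sec _
  have h0 : coeffMap (bockSC G D).g 2
      ((inhomogeneousCochains.d (bockSC G D).X₂ 1).hom fun g => D.sec (χ.1 g)) = 0 := by
    rw [coeffMap_d, hg]
    exact LinearMap.mem_ker.1 χ.2.2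
  have hinj : Function.Injective (bockSC G D).f.hom :=
    (Rep.mono_iff_injective _).1 (bockSC_shortExact D).mono_f
  obtain ⟨x₁, hx₁, hf⟩ := exists_lcCochains_factor (bockSC G D).f (bockSC G D).g hinj
    (fun a ha => exists_of_shortExact_of_g_eq_zero (bockSC_shortExact D) a ha)
    (d_mem_lcCochains 𝔉 hy) h0
  have hd := d_eq_zero_of_comp_eq_d (bockSC_shortExact D) (fun g => D.sec (χ.1 g)) x₁
    (fun x => congrFun hf x)
  refine ⟨⟨x₁, hx₁, LinearMap.mem_ker.2 hd⟩, fun g => ?_, ?_⟩
  · have h1 := congrFun hf g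
    rw [d_one_apply] at h1
    exact h1
  · exact lcδ_lcπ hfin (bockSC_shortExact D) (isSmooth_trivial (V := k) 𝔉) 1 χ
      (fun g => D.sec (χ.1 g)) hy (fun x => congrFun hg x) x₁ hx₁ (fun x => congrFun hf x)

end Bock

end Fermat.Agent.PT
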