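import Mathlib
import Fermat.Agent.CFT.PT.Bockstein
import Fermat.Agent.CFT.PT.ConeFunct

/-!
# S55 global bridge (GT6), part 2: `Ш¹ ≤ Hlc¹(E)/m` via the Bockstein cup pairing

For a Bockstein datum `0 → k --m--> k → R₃ → 0`, a local system `𝔏` over `(G, 𝔉)` and a short exact
sequence `X = (E → J → C)` of representations (`J` smooth):

* `smulPairing M : RepPairing (trivial k) M M`, `cupN_two_zero`;
* `bockCup D hfin M : Hlc¹(R₃) →ₗ Hlc⁰(M) →ₗ Hlc²(M)`, `Λ_χ(x) = (bock χ) ∪ x`, with `m • Λ = 0`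
  (`m_smul_bockCup`) and naturality in `M` (`HlcCoeff_bockCup`);
* `HlcMap_bockCup_eq_zero` : for `χ ∈ Ш¹ = ker (locRes 𝔏 (trivial R₃) 1)` every localisation of
  `Λ_χ(y)` vanishes (for arbitrary local coefficient maps);
* `shaPair` : from `Hlc¹(J) = 0` and local detection of the `m`-torsion of `Hlc²(J)` the descended
  pairing `Ш¹ →ₗ Hlc¹(E) →ₗ Hlc²(C)`, `shaPair χ (δ x) = Λ_χ(x)` (`shaPair_lcδ`), with `m`-torsion
  values (`m_smul_shaPair`) and injective if `Λ` is nondegenerate (`shaPair_eq_zero`);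
* `sha1B_card_le_of_pairing` : the counting lemma, and `sha1B_card_le` :
  `|Ш¹| ≤ |Hlc¹(E) / p|` if `Hlc²(C)[p]` has at most `p` elements.
-/

set_option autoImplicit false

namespace Fermat.Agent.PT

open CategoryTheory groupCohomology Rep

/-! ### counting -/

theorem sha1B_card_linHom_le {Wb Tp : Type*} [AddCommGroup Wb] [AddCommGroup Tp] (p : ℕ)
    [Fact p.Prime] [Module (ZMod p) Wb] [Module (ZMod p) Tp] [Finite Wb] [Finite Tp]
    (hcard : Nat.card Tp ≤ p) :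
    Finite (Wb →+ Tp) ∧ Nat.card (Wb →+ Tp) ≤ Nat.card Wb := by
  have hp : p.Prime := Fact.out
  have h1 : Nat.card Tp = p ^ Module.finrank (ZMod p) Tp := by
    rw [Module.natCard_eq_pow_finrank (K := ZMod p) (V := Tp), Nat.card_zmod]
  have h2 : Nat.card Wb = p ^ Module.finrank (ZMod p) Wb := by
    rw [Module.natCard_eq_pow_finrank (K := ZMod p) (V := Wb), Nat.card_zmod]
  have h3 : Nat.card (Wb →ₗ[ZMod p] Tp) = p ^ Module.finrank (ZMod p) (Wb →ₗ[ZMod p] Tp) := by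
    rw [Module.natCard_eq_pow_finrank (K := ZMod p) (V := Wb →ₗ[ZMod p] Tp), Nat.card_zmod]
  have h4 : Module.finrank (ZMod p) (Wb →ₗ[ZMod p] Tp) =
      Module.finrank (ZMod p) Wb * Module.finrank (ZMod p) Tp :=
    Module.finrank_linearMap (ZMod p) (ZMod p) Wb Tp
  have hTrank : Module.finrank (ZMod p) Tp ≤ 1 := by
    rw [h1] at hcard
    exact (Nat.pow_le_pow_iff_right hp.one_lt).1 (by simpa using hcard)
  have hfinL : Finite (Wb →ₗ[ZMod p] Tp) := Module.finite_of_finite (ZMod p)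
  have hfin : Finite (Wb →+ Tp) :=
    Finite.of_injective _ (AddMonoidHom.toZModLinearMap_injective p (M := Wb) (M₁ := Tp))
  refine ⟨hfin, ?_⟩
  calc Nat.card (Wb →+ Tp) ≤ Nat.card (Wb →ₗ[ZMod p] Tp) :=
        Nat.card_le_card_of_injective _ (AddMonoidHom.toZModLinearMap_injective p)
    _ = p ^ (Module.finrank (ZMod p) Wb * Module.finrank (ZMod p) Tp) := by rw [h3, h4]
    _ ≤ p ^ Module.finrank (ZMod p) Wb := by
        apply Nat.pow_le_pow_right hp.pos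
        calc Module.finrank (ZMod p) Wb * Module.finrank (ZMod p) Tp
            ≤ Module.finrank (ZMod p) Wb * 1 := Nat.mul_le_mul_left _ hTrank
          _ = Module.finrank (ZMod p) Wb := mul_one _
    _ = Nat.card Wb := h2.symm

/-- homomorphisms from a finite group of exponent `p` to a group of exponent `p` with at most `p`
elements: there are at most `|W|` of them. -/
theorem sha1B_card_addHom_le {Wb Tp : Type*} [AddCommGroup Wb] [AddCommGroup Tp] (p : ℕ)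
    [Fact p.Prime] (hW : ∀ w : Wb, p • w = 0) (hT : ∀ t : Tp, p • t = 0) [Finite Wb] [Finite Tp]
    (hcard : Nat.card Tp ≤ p) :
    Finite (Wb →+ Tp) ∧ Nat.card (Wb →+ Tp) ≤ Nat.card Wb :=
  @sha1B_card_linHom_le Wb Tp _ _ p _ (AddCommGroup.zmodModule hW) (AddCommGroup.zmodModule hT)
    _ _ hcard

/-- **counting lemma**: a left-nondegenerate biadditive pairing `Sh × W → T` with `p`-torsion
values, where `T[p]` has at most `p` elements and `W / p W` is finite, gives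
`|Sh| ≤ |W / p W|`. -/
theorem sha1B_card_le_of_pairing {Sh W T : Type*} [AddCommGroup Sh] [AddCommGroup W]
    [AddCommGroup T] (p : ℕ) [Fact p.Prime] (Φ : Sh →+ W →+ T)
    (hinj : ∀ s, (∀ w, Φ s w = 0) → s = 0) (htors : ∀ s w, p • Φ s w = 0)
    (hT : ∀ F : Finset T, (∀ c ∈ F, p • c = 0) → F.card ≤ p)
    [Finite (W ⧸ (nsmulAddMonoidHom p : W →+ W).range)] :
    Nat.card Sh ≤ Nat.card (W ⧸ (nsmulAddMonoidHom p : W →+ W).range) := by
  classical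
  have hTp_mem : ∀ t : T, t ∈ (nsmulAddMonoidHom p : T →+ T).ker ↔ p • t = 0 := fun t => Iff.rfl
  have hTp_tors : ∀ t : (nsmulAddMonoidHom p : T →+ T).ker, p • t = 0 :=
    fun t => Subtype.ext ((hTp_mem t.1).1 t.2)
  have hWb_tors : ∀ w : W ⧸ (nsmulAddMonoidHom p : W →+ W).range, p • w = 0 := by
    intro w
    obtain ⟨w, rfl⟩ := QuotientAddGroup.mk_surjective w
    rw [← QuotientAddGroup.mk_nsmul]
    exact (QuotientAddGroup.eq_zero_iff _).2 ⟨w, rfl⟩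
  -- `T[p]` is finite of cardinality `≤ p`
  have hTfin : Finite (nsmulAddMonoidHom p : T →+ T).ker := by
    by_contra hinf
    rw [not_finite_iff_infinite] at hinf
    obtain ⟨s, hs⟩ := Infinite.exists_subset_card_eq (nsmulAddMonoidHom p : T →+ T).ker (p + 1)
    have := hT (s.map (Function.Embedding.subtype _)) (by
      intro c hc
      obtain ⟨t, -, rfl⟩ := Finset.mem_map.1 hc
      exact (hTp_mem t.1).1 t.2)
    rw [Finset.card_map, hs] at this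
    omega
  have hTcard : Nat.card (nsmulAddMonoidHom p : T →+ T).ker ≤ p := by
    have : Fintype (nsmulAddMonoidHom p : T →+ T).ker := Fintype.ofFinite _
    have := hT ((Finset.univ : Finset (nsmulAddMonoidHom p : T →+ T).ker).map
      (Function.Embedding.subtype _)) (by
      intro c hc
      obtain ⟨t, -, rfl⟩ := Finset.mem_map.1 hc
      exact (hTp_mem t.1).1 t.2)
    rwa [Finset.card_map, Finset.card_univ, ← Nat.card_eq_fintype_card] at this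
  obtain ⟨hfin, hle⟩ := sha1B_card_addHom_le p hWb_tors hTp_tors hTcard
  -- the map to homomorphisms
  let ι : Sh → ((W ⧸ (nsmulAddMonoidHom p : W →+ W).range) →+
      (nsmulAddMonoidHom p : T →+ T).ker) :=
    fun s => QuotientAddGroup.lift _
      ((Φ s).codRestrict (nsmulAddMonoidHom p : T →+ T).ker
        (fun w => (hTp_mem _).2 (htors s w))) (by
        rintro _ ⟨w, rfl⟩
        rw [AddMonoidHom.mem_ker]
        apply Subtype.ext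
        change Φ s (p • w) = 0
        rw [map_nsmul]
        exact htors s w)
  have hι : Function.Injective ι := by
    intro s s' hss'
    have h0 : ∀ w, Φ (s - s') w = 0 := by
      intro w
      have := congrArg (fun f : (W ⧸ (nsmulAddMonoidHom p : W →+ W).range) →+
        (nsmulAddMonoidHom p : T →+ T).ker => ((f (QuotientAddGroup.mk w) :
          (nsmulAddMonoidHom p : T →+ T).ker) : T)) hss'
      change Φ s w = Φ s' w at this
      rw [map_sub, AddMonoidHom.sub_apply, this, sub_self]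
    exact sub_eq_zero.1 (hinj _ h0)
  exact (Nat.card_le_card_of_injective ι hι).trans hle

variable {k G : Type} [CommRing k] [Group G]

/-! ### the scalar pairing `k × M → M` -/

/-- the scalar multiplication pairing `k ⊗ M → M` (trivial action on `k`) -/
def smulPairing (M : Rep.{0} k G) : RepPairing (Rep.trivial k G k) M M where
  toLin := LinearMap.lsmul k M
  map_ρ g a b := by
    change (a : k) • M.ρ g b = M.ρ g ((a : k) • b)
    rw [map_smul]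

@[simp] theorem smulPairing_toLin_apply (M : Rep.{0} k G) (a : k) (b : M) :
    (smulPairing M).toLin a b = a • b := rfl

theorem smulPairing_compat {M M' : Rep.{0} k G} (φ : M ⟶ M') :
    (smulPairing M).Compat (smulPairing M') (MonoidHom.id G) (𝟙 _) φ φ := by
  intro a b
  change (a : k) • φ.hom b = φ.hom ((a : k) • b)
  rw [map_smul]

/-! ### the cup product in degrees `(2, 0)` -/

theorem tupProd_two (g : Fin 2 → G) : tupProd g = g 0 * g 1 := by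
  simp [tupProd, List.ofFn_succ]

theorem cupN_two_zero {A B C : Rep.{0} k G} (β : RepPairing A B C) (c : (Fin 2 → G) → A)
    (x : (Fin 0 → G) → B) (g : Fin 2 → G) :
    cupN β (rfl : 2 + 0 = 2) c x g = β.toLin (c g) (B.ρ (g 0 * g 1) (x default)) := by
  have h1 : tupFst 2 0 g = g := rfl
  change β.toLin (c (tupFst 2 0 g)) (B.ρ (tupProd (tupFst 2 0 g)) (x (tupSnd 2 0 g))) = _
  rw [h1, tupProd_two, Subsingleton.elim (tupSnd 2 0 g) default]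

/-! ### the Bockstein cup pairing -/

section BockCup

variable {R₃ : Type} [AddCommGroup R₃] [Module k R₃] (D : BockData k R₃)
  {𝔉 : LevelFamily G} (hfin : 𝔉.FiniteIndex)

theorem BockData.m_smul (r : R₃) : (D.m : k) • r = 0 := by
  rw [← D.q_sec r, ← map_smul, smul_eq_mul, D.q_m_mul]

/-- `Λ_χ(x) = (bock χ) ∪ x : Hlc¹(R₃) × Hlc⁰(M) → Hlc²(M)` -/
noncomputable def bockCup (M : Rep.{0} k G) :
    Hlc 𝔉 (Rep.trivial k G R₃) 1 →ₗ[k] Hlc 𝔉 M 0 →ₗ[k] Hlc 𝔉 M 2 :=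
  (cupH 𝔉 (smulPairing M) (rfl : 2 + 0 = 2)) ∘ₗ (bock D hfin 1)

theorem bockCup_apply (M : Rep.{0} k G) (χ : Hlc 𝔉 (Rep.trivial k G R₃) 1) (x : Hlc 𝔉 M 0) :
    bockCup D hfin M χ x = cupH 𝔉 (smulPairing M) (rfl : 2 + 0 = 2) (bock D hfin 1 χ) x := rfl

/-- classes with values in `R₃` are killed by `m` -/
theorem m_smul_Hlc_trivial (n : ℕ) (χ : Hlc 𝔉 (Rep.trivial k G R₃) n) : (D.m : k) • χ = 0 := by
  obtain ⟨c, rfl⟩ := lcπ_surjective 𝔉 _ n χ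
  rw [← map_smul]
  have : (D.m : k) • c = 0 := by
    apply Subtype.ext
    funext g
    exact D.m_smul (c.1 g)
  rw [this, map_zero]

theorem m_smul_bockCup (M : Rep.{0} k G) (χ : Hlc 𝔉 (Rep.trivial k G R₃) 1) (x : Hlc 𝔉 M 0) :
    (D.m : k) • bockCup D hfin M χ x = 0 := by
  rw [← LinearMap.smul_apply, ← map_smul, m_smul_Hlc_trivial, map_zero, LinearMap.zero_apply]

/-- naturality of the Bockstein cup pairing in the coefficient module -/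
theorem HlcCoeff_bockCup {M M' : Rep.{0} k G} (φ : M ⟶ M')
    (χ : Hlc 𝔉 (Rep.trivial k G R₃) 1) (x : Hlc 𝔉 M 0) :
    HlcCoeff φ 𝔉 2 (bockCup D hfin M χ x) = bockCup D hfin M' χ (HlcCoeff φ 𝔉 0 x) := by
  rw [bockCup_apply, bockCup_apply,
    HlcCoeff_cupH (smulPairing M) (smulPairing M') (𝟙 _) φ φ (smulPairing_compat φ), HlcCoeff_id]

/-! ### local vanishing -/

variable (𝔏 : LocSystem 𝔉)

/-- a level-constant `1`-cocycle with trivial coefficients whose class is locally trivial vanishes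
on the local groups -/
theorem apply_eq_zero_of_locRes_eq_zero {V : Type} [AddCommGroup V] [Module k V]
    (χ : lcCocycles 𝔉 (Rep.trivial k G V) 1)
    (hχ : locRes 𝔏 (Rep.trivial k G V) 1 (lcπ 𝔉 _ 1 χ) = 0) (v : 𝔏.ι) (y : Fin 1 → 𝔏.Gv v) :
    χ.1 (𝔏.ψ v ∘ y) = 0 := by
  have h1 := congrFun hχ v
  rw [locRes_lcπ] at h1
  obtain ⟨g, -, hg⟩ := (lcπ_eq_zero_iff (𝔏.fam v) _ 0 _).1 h1
  have h2 := congrFun hg y
  rw [eq_constCochain₀ _ g, d_constCochain₀_apply] at h2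
  change (g default - g default : V) = χ.1 (𝔏.ψ v ∘ y) at h2
  rw [← h2, sub_self]

/-- the carry cocycle of a locally trivial class vanishes on the local groups -/
theorem bock_rep_loc_eq_zero (χ : lcCocycles 𝔉 (Rep.trivial k G R₃) 1)
    (hχ : locRes 𝔏 (Rep.trivial k G R₃) 1 (lcπ 𝔉 _ 1 χ) = 0)
    (c : (Fin 2 → G) → k)
    (hc : ∀ g : Fin 2 → G, (D.m : k) * c g =
        D.sec (χ.1 fun _ => g 1) - D.sec (χ.1 fun _ => g 0 * g 1) + D.sec (χ.1 fun _ => g 0))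
    (v : 𝔏.ι) (x : Fin 2 → 𝔏.Gv v) : c (𝔏.ψ v ∘ x) = 0 := by
  apply D.m_inj
  rw [hc]
  have e1 : (fun _ : Fin 1 => (𝔏.ψ v ∘ x) 1) = 𝔏.ψ v ∘ fun _ => x 1 := rfl
  have e2 : (fun _ : Fin 1 => (𝔏.ψ v ∘ x) 0 * (𝔏.ψ v ∘ x) 1) = 𝔏.ψ v ∘ fun _ => x 0 * x 1 := by
    funext i
    simp
  have e3 : (fun _ : Fin 1 => (𝔏.ψ v ∘ x) 0) = 𝔏.ψ v ∘ fun _ => x 0 := rfl
  rw [e1, e2, e3, apply_eq_zero_of_locRes_eq_zero 𝔏 χ hχ, apply_eq_zero_of_locRes_eq_zero 𝔏 χ hχ,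
    apply_eq_zero_of_locRes_eq_zero 𝔏 χ hχ, D.sec_zero]
  ring

/-- **local vanishing**: for a locally trivial `χ`, all localisations of `(bock χ) ∪ y` vanish,
for any local coefficient maps. -/
theorem HlcMap_bockCup_eq_zero (M : Rep.{0} k G) (χ : Hlc 𝔉 (Rep.trivial k G R₃) 1)
    (hχ : locRes 𝔏 (Rep.trivial k G R₃) 1 χ = 0) (y : Hlc 𝔉 M 0) (v : 𝔏.ι)
    {T : Rep.{0} k (𝔏.Gv v)} (φ : res (𝔏.ψ v) M ⟶ T) :
    (HlcMap (𝔏.ψ v) φ (𝔏.compat v) 2).hom (bockCup D hfin M χ y) = 0 := by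
  obtain ⟨χc, rfl⟩ := lcπ_surjective 𝔉 _ 1 χ
  obtain ⟨yc, rfl⟩ := lcπ_surjective 𝔉 _ 0 y
  obtain ⟨c, hc, hbc⟩ := exists_bock_rep D hfin χc
  rw [bockCup_apply, hbc, cupH_lcπ, HlcMap_lcπ]
  have h0 : ((cochainsMap (𝔏.ψ v) φ).f 2).hom (cupZ 𝔉 (smulPairing M) (rfl : 2 + 0 = 2) c yc).1 =
      0 := by
    funext x
    rw [cochainsMap_f_hom_apply, cupZ_coe, cupN_two_zero, smulPairing_toLin_apply,
      bock_rep_loc_eq_zero D 𝔏 χc hχ c.1 hc v x, zero_smul, map_zero]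
    rfl
  have h1 : (⟨((cochainsMap (𝔏.ψ v) φ).f 2).hom
      (cupZ 𝔉 (smulPairing M) (rfl : 2 + 0 = 2) c yc).1,
      cochainsMap_mem_lcCocycles (𝔏.ψ v) φ (𝔏.compat v)
        (cupZ 𝔉 (smulPairing M) (rfl : 2 + 0 = 2) c yc).2⟩ : lcCocycles (𝔏.fam v) T 2) = 0 :=
    Subtype.ext h0
  rw [h1, map_zero]

/-! ### the descended pairing `Ш¹ × Hlc¹(E) → Hlc²(C)` -/

section ShaPair

variable {X : ShortComplex (Rep.{0} k G)} (hX : X.ShortExact) (hsm : IsSmooth 𝔉 X.X₂)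
  {Lv : ∀ v : 𝔏.ι, Rep.{0} k (𝔏.Gv v)} (lam : ∀ v, res (𝔏.ψ v) X.X₂ ⟶ Lv v)

include lam in
/-- for `χ ∈ Ш¹` the class `Λ_χ(y)`, `y ∈ Hlc⁰(J)`, vanishes (local detection on `Hlc²(J)[m]`) -/
theorem bockCup_mid_eq_zero
    (hJ : ∀ z : Hlc 𝔉 X.X₂ 2, (D.m : k) • z = 0 →
      (∀ v, (HlcMap (𝔏.ψ v) (lam v) (𝔏.compat v) 2).hom z = 0) → z = 0)
    (χ : Hlc 𝔉 (Rep.trivial k G R₃) 1) (hχ : locRes 𝔏 (Rep.trivial k G R₃) 1 χ = 0)
    (y : Hlc 𝔉 X.X₂ 0) : bockCup D hfin X.X₂ χ y = 0 :=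
  hJ _ (m_smul_bockCup D hfin _ χ y)
    (fun v => HlcMap_bockCup_eq_zero D hfin 𝔏 X.X₂ χ hχ y v (lam v))

include lam in
theorem bockCup_g_eq_zero
    (hJ : ∀ z : Hlc 𝔉 X.X₂ 2, (D.m : k) • z = 0 →
      (∀ v, (HlcMap (𝔏.ψ v) (lam v) (𝔏.compat v) 2).hom z = 0) → z = 0)
    (χ : Hlc 𝔉 (Rep.trivial k G R₃) 1) (hχ : locRes 𝔏 (Rep.trivial k G R₃) 1 χ = 0)
    (y : Hlc 𝔉 X.X₂ 0) : bockCup D hfin X.X₃ χ ((lcH₂₃ 𝔉 X 0).hom y) = 0 := by
  change bockCup D hfin X.X₃ χ (HlcCoeff X.g 𝔉 0 y) = 0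
  rw [← HlcCoeff_bockCup, bockCup_mid_eq_zero D hfin 𝔏 lam hJ χ hχ y, map_zero]

/-- the connecting map `Hlc⁰(C) → Hlc¹(E)` is surjective if `Hlc¹(J) = 0` -/
theorem lcδ_zero_surjective (h1 : ∀ y : Hlc 𝔉 X.X₂ 1, y = 0) :
    Function.Surjective (lcδ hfin hX hsm 0 1 rfl).hom := fun x =>
  exists_lcδ_eq hfin hX hsm 0 1 rfl x (h1 _)

/-- **the descended Bockstein pairing** `Ш¹ × Hlc¹(E) → Hlc²(C)`, `(χ, δ x) ↦ (bock χ) ∪ x`. -/
noncomputable def shaPair (h1 : ∀ y : Hlc 𝔉 X.X₂ 1, y = 0)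
    (hJ : ∀ z : Hlc 𝔉 X.X₂ 2, (D.m : k) • z = 0 →
      (∀ v, (HlcMap (𝔏.ψ v) (lam v) (𝔏.compat v) 2).hom z = 0) → z = 0) :
    LinearMap.ker (locRes 𝔏 (Rep.trivial k G R₃) 1) →ₗ[k] Hlc 𝔉 X.X₁ 1 →ₗ[k] Hlc 𝔉 X.X₃ 2 :=
  (linDescend (lcδ hfin hX hsm 0 1 rfl).hom (lcδ_zero_surjective hfin hX hsm h1)
    ((bockCup D hfin X.X₃).domRestrict (LinearMap.ker (locRes 𝔏 (Rep.trivial k G R₃) 1))).flip
    (by
      intro x hx
      rw [LinearMap.mem_ker] at hx ⊢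
      obtain ⟨y, rfl⟩ := exists_lcH₂₃_eq hfin hX hsm 0 1 rfl x hx
      apply LinearMap.ext
      intro χ
      rw [LinearMap.flip_apply, LinearMap.domRestrict_apply, LinearMap.zero_apply]
      exact bockCup_g_eq_zero D hfin 𝔏 lam hJ χ.1 (LinearMap.mem_ker.1 χ.2) y)).flip

theorem shaPair_lcδ (h1 : ∀ y : Hlc 𝔉 X.X₂ 1, y = 0)
    (hJ : ∀ z : Hlc 𝔉 X.X₂ 2, (D.m : k) • z = 0 →
      (∀ v, (HlcMap (𝔏.ψ v) (lam v) (𝔏.compat v) 2).hom z = 0) → z = 0)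
    (χ : LinearMap.ker (locRes 𝔏 (Rep.trivial k G R₃) 1)) (x : Hlc 𝔉 X.X₃ 0) :
    shaPair D hfin 𝔏 hX hsm lam h1 hJ χ ((lcδ hfin hX hsm 0 1 rfl).hom x) =
      bockCup D hfin X.X₃ χ.1 x := by
  unfold shaPair
  rw [LinearMap.flip_apply, linDescend_apply]
  rfl

theorem m_smul_shaPair (h1 : ∀ y : Hlc 𝔉 X.X₂ 1, y = 0)
    (hJ : ∀ z : Hlc 𝔉 X.X₂ 2, (D.m : k) • z = 0 →
      (∀ v, (HlcMap (𝔏.ψ v) (lam v) (𝔏.compat v) 2).hom z = 0) → z = 0)
    (χ : LinearMap.ker (locRes 𝔏 (Rep.trivial k G R₃) 1)) (w : Hlc 𝔉 X.X₁ 1) :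
    (D.m : k) • shaPair D hfin 𝔏 hX hsm lam h1 hJ χ w = 0 := by
  obtain ⟨x, rfl⟩ := lcδ_zero_surjective hfin hX hsm h1 w
  rw [shaPair_lcδ]
  exact m_smul_bockCup D hfin _ _ _

/-- nondegeneracy of `Λ` implies injectivity of the descended pairing -/
theorem shaPair_eq_zero (h1 : ∀ y : Hlc 𝔉 X.X₂ 1, y = 0)
    (hJ : ∀ z : Hlc 𝔉 X.X₂ 2, (D.m : k) • z = 0 →
      (∀ v, (HlcMap (𝔏.ψ v) (lam v) (𝔏.compat v) 2).hom z = 0) → z = 0)
    (hnd : ∀ χ : Hlc 𝔉 (Rep.trivial k G R₃) 1, χ ≠ 0 →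
      ∃ x : Hlc 𝔉 X.X₃ 0, bockCup D hfin X.X₃ χ x ≠ 0)
    (χ : LinearMap.ker (locRes 𝔏 (Rep.trivial k G R₃) 1))
    (hχ : ∀ w, shaPair D hfin 𝔏 hX hsm lam h1 hJ χ w = 0) : χ = 0 := by
  by_contra hne
  have hne' : χ.1 ≠ 0 := fun h => hne (Subtype.ext h)
  obtain ⟨x, hx⟩ := hnd χ.1 hne'
  apply hx
  rw [← shaPair_lcδ D hfin 𝔏 hX hsm lam h1 hJ χ x]
  exact hχ _

include hfin hX hsm lam in
/-- **`|Ш¹| ≤ |Hlc¹(E) / p|`**: from `Hlc¹(J) = 0`, local detection of `Hlc²(J)[p]`, nondegeneracy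
of the Bockstein cup pairing and `|Hlc²(C)[p]| ≤ p`. -/
theorem sha1B_card_le [Fact D.m.Prime] (h1 : ∀ y : Hlc 𝔉 X.X₂ 1, y = 0)
    (hJ : ∀ z : Hlc 𝔉 X.X₂ 2, (D.m : k) • z = 0 →
      (∀ v, (HlcMap (𝔏.ψ v) (lam v) (𝔏.compat v) 2).hom z = 0) → z = 0)
    (hnd : ∀ χ : Hlc 𝔉 (Rep.trivial k G R₃) 1, χ ≠ 0 →
      ∃ x : Hlc 𝔉 X.X₃ 0, bockCup D hfin X.X₃ χ x ≠ 0)
    (hC : ∀ s : Finset (Hlc 𝔉 X.X₃ 2), (∀ c ∈ s, D.m • c = 0) → s.card ≤ D.m)
    [Finite (Hlc 𝔉 X.X₁ 1 ⧸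
      (nsmulAddMonoidHom D.m : Hlc 𝔉 X.X₁ 1 →+ Hlc 𝔉 X.X₁ 1).range)] :
    Nat.card (LinearMap.ker (locRes 𝔏 (Rep.trivial k G R₃) 1)) ≤
      Nat.card (Hlc 𝔉 X.X₁ 1 ⧸
        (nsmulAddMonoidHom D.m : Hlc 𝔉 X.X₁ 1 →+ Hlc 𝔉 X.X₁ 1).range) := by
  refine sha1B_card_le_of_pairing D.m
    (LinearMap.toAddMonoidHom'.comp (shaPair D hfin 𝔏 hX hsm lam h1 hJ).toAddMonoidHom)
    (fun χ hχ => shaPair_eq_zero D hfin 𝔏 hX hsm lam h1 hJ hnd χ hχ)
    (fun χ w => ?_) hC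
  rw [← Nat.cast_smul_eq_nsmul k]
  exact m_smul_shaPair D hfin 𝔏 hX hsm lam h1 hJ χ w

end ShaPair

end BockCup

end Fermat.Agent.PT
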