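import Mathlib
import Fermat.Agent.CFT.PT.ShaOneBound
import Fermat.Agent.CFT.PT.SmoothRestrict
import Fermat.Agent.CFT.PT.SmoothShapiro
import Fermat.Agent.CFT.PT.CoprimeTorsion

/-!
# S55 global bridge (GT6), part 3: nondegeneracy of the Bockstein cup pairing

For a level-constant `1`-cocycle `χ : G → R₃` (a homomorphism, `cocycleHom χ`) with kernel `U`,
`σ ∈ G` with `sec (χ σ) = 1`, and a representation `M` with `Hlc¹(U, M) = 0`:
if `x ∈ M^G` is not a `σ`-norm `∑_{i<m} σ^i b` of a `U`-invariant `b`, then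
`(bock χ) ∪ x ≠ 0` in `Hlc²(G, M)` (`bockCup_lcπ_ne_zero`).  The proof is a cochain computation:
a trivialising `1`-cochain restricted to `U` is a cocycle, hence a coboundary; after correcting it,
it descends to `G/U` and summing the trivialisation relation over the powers of `σ` exhibits `x` as a
norm (`eq_norm_of_trivialisation`).
-/

set_option autoImplicit false

namespace Fermat.Agent.PT

open CategoryTheory groupCohomology Rep

/-- **descent of a trivialisation to a cyclic quotient**: if `ef : G → M` satisfies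
`g • ef h - ef (g h) + ef g = c g h • x` with `c` vanishing as soon as one argument lies in the normal
subgroup `U`, `ef` vanishes on `U`, `σ ^ m ∈ U` and `∑_{i<m} c (σ^i) σ = 1`, then `x` is the
`σ`-norm of the `U`-invariant element `ef σ`. -/
theorem eq_norm_of_trivialisation {k G M : Type*} [CommRing k] [Group G] [AddCommGroup M]
    [Module k M] (ρ : Representation k G M) (U : Subgroup G) [U.Normal] (c : G → G → k)
    (ef : G → M) (x : M) (σ : G) (m : ℕ)
    (hR : ∀ g h, ρ g (ef h) - ef (g * h) + ef g = c g h • x)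
    (hc1 : ∀ g, ∀ u ∈ U, c g u = 0) (hc2 : ∀ u ∈ U, ∀ g, c u g = 0)
    (he0 : ∀ u ∈ U, ef u = 0) (hσm : σ ^ m ∈ U)
    (hsum : ∑ i ∈ Finset.range m, c (σ ^ i) σ = 1) :
    (∀ u ∈ U, ρ u (ef σ) = ef σ) ∧ x = ∑ i ∈ Finset.range m, ρ (σ ^ i) (ef σ) := by
  -- `ef` is right `U`-invariant
  have h1 : ∀ g, ∀ u ∈ U, ef (g * u) = ef g := by
    intro g u hu
    have h := hR g u
    rw [he0 u hu, map_zero, hc1 g u hu, zero_smul, zero_sub, neg_add_eq_zero] at h
    exact h
  -- `ef (u g) = u • ef g`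
  have h2 : ∀ u ∈ U, ∀ g, ef (u * g) = ρ u (ef g) := by
    intro u hu g
    have h := hR u g
    rw [he0 u hu, add_zero, hc2 u hu g, zero_smul, sub_eq_zero] at h
    exact h.symm
  -- values are `U`-invariant
  have h3 : ∀ u ∈ U, ∀ g, ρ u (ef g) = ef g := by
    intro u hu g
    rw [← h2 u hu g]
    have : u * g = g * (g⁻¹ * u * g) := by group
    rw [this]
    apply h1
    have := (inferInstance : U.Normal).conj_mem u hu g⁻¹
    simpa using this
  refine ⟨fun u hu => h3 u hu σ, ?_⟩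
  -- sum the relation over the powers of `σ`
  have h4 : ∀ i : ℕ, ρ (σ ^ i) (ef σ) - (ef (σ ^ (i + 1)) - ef (σ ^ i)) = c (σ ^ i) σ • x := by
    intro i
    rw [← hR (σ ^ i) σ, pow_succ]
    abel
  have h5 : ∑ i ∈ Finset.range m, (ρ (σ ^ i) (ef σ) - (ef (σ ^ (i + 1)) - ef (σ ^ i))) =
      ∑ i ∈ Finset.range m, c (σ ^ i) σ • x := Finset.sum_congr rfl fun i _ => h4 i
  rw [Finset.sum_sub_distrib, Finset.sum_range_sub (fun i => ef (σ ^ i)), ← Finset.sum_smul,
    hsum, one_smul, he0 _ hσm, pow_zero, he0 1 U.one_mem, sub_zero, sub_zero] at h5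
  exact h5.symm

variable {k G : Type} [CommRing k] [Group G] {𝔉 : LevelFamily G}

/-! ### `1`-cocycles with trivial coefficients are homomorphisms -/

section CocycleHom

variable {V : Type} [AddCommGroup V] [Module k V] (χ : lcCocycles 𝔉 (Rep.trivial k G V) 1)

theorem cocycle_trivial_mul (g h : G) :
    χ.1 (fun _ => g * h) = χ.1 (fun _ => g) + χ.1 (fun _ => h) := by
  have h1 := congrFun (LinearMap.mem_ker.1 χ.2.2) ![g, h]
  rw [d_one_apply] at h1
  change (χ.1 (fun _ => h) : V) - χ.1 (fun _ => g * h) + χ.1 (fun _ => g) = 0 at h1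
  have h2 : χ.1 (fun _ => g * h) = χ.1 (fun _ => h) + χ.1 (fun _ => g) := by
    rw [eq_comm, ← sub_eq_zero, ← h1]
    abel
  rw [h2, add_comm]

theorem cocycle_trivial_one : χ.1 (fun _ => (1 : G)) = 0 := by
  have h := cocycle_trivial_mul χ 1 1
  rw [mul_one] at h
  exact left_eq_add.1 h

/-- a `1`-cocycle with trivial coefficients, as a homomorphism -/
def cocycleHom : G →* Multiplicative V where
  toFun g := Multiplicative.ofAdd (χ.1 fun _ => g)
  map_one' := by rw [cocycle_trivial_one]; rfl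
  map_mul' g h := by rw [cocycle_trivial_mul]; rfl

theorem mem_ker_cocycleHom (g : G) : g ∈ (cocycleHom χ).ker ↔ χ.1 (fun _ => g) = 0 := Iff.rfl

theorem cocycle_trivial_pow (g : G) (n : ℕ) : χ.1 (fun _ => g ^ n) = n • χ.1 (fun _ => g) := by
  induction n with
  | zero => rw [pow_zero, zero_smul, cocycle_trivial_one]
  | succ n ih => rw [pow_succ, cocycle_trivial_mul, ih, succ_nsmul]

/-- the kernel of a level-constant cocycle is open -/
theorem isOpenFor_ker_cocycleHom : IsOpenFor 𝔉 (cocycleHom χ).ker := by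
  obtain ⟨U, hU, hχ⟩ := χ.2.1
  refine ⟨U, hU, fun u hu => ?_⟩
  rw [mem_ker_cocycleHom, ← cocycle_trivial_one χ]
  exact (hχ.1 (fun _ => 1) (fun _ => u) (fun _ => by simpa using hu)).symm

end CocycleHom

/-! ### the carry cocycle -/

section Carry

variable {R₃ : Type} [AddCommGroup R₃] [Module k R₃] (D : BockData k R₃)
  (χ : lcCocycles 𝔉 (Rep.trivial k G R₃) 1) (c : (Fin 2 → G) → k)
  (hc : ∀ g : Fin 2 → G, (D.m : k) * c g =
    D.sec (χ.1 fun _ => g 1) - D.sec (χ.1 fun _ => g 0 * g 1) + D.sec (χ.1 fun _ => g 0))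

include hc

theorem carry_apply (g h : G) : (D.m : k) * c ![g, h] =
    D.sec (χ.1 fun _ => h) - D.sec (χ.1 fun _ => g * h) + D.sec (χ.1 fun _ => g) :=
  hc ![g, h]

theorem carry_right_eq_zero (g : G) {u : G} (hu : u ∈ (cocycleHom χ).ker) : c ![g, u] = 0 := by
  apply D.m_inj
  rw [carry_apply D χ c hc, cocycle_trivial_mul, (mem_ker_cocycleHom χ u).1 hu, add_zero,
    D.sec_zero]
  ring

theorem carry_left_eq_zero {u : G} (hu : u ∈ (cocycleHom χ).ker) (g : G) : c ![u, g] = 0 := by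
  apply D.m_inj
  rw [carry_apply D χ c hc, cocycle_trivial_mul, (mem_ker_cocycleHom χ u).1 hu, zero_add,
    D.sec_zero]
  ring

theorem carry_sum_eq_one (σ : G) (hσ : D.sec (χ.1 fun _ => σ) = 1) :
    ∑ i ∈ Finset.range D.m, c ![σ ^ i, σ] = 1 := by
  have hm : χ.1 (fun _ => σ ^ D.m) = 0 := by
    rw [cocycle_trivial_pow, ← Nat.cast_smul_eq_nsmul k, D.m_smul]
  have h1 : (D.m : k) * ∑ i ∈ Finset.range D.m, c ![σ ^ i, σ] =
      ∑ i ∈ Finset.range D.m, ((1 : k) - (D.sec (χ.1 fun _ => σ ^ (i + 1)) -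
        D.sec (χ.1 fun _ => σ ^ i))) := by
    rw [Finset.mul_sum]
    refine Finset.sum_congr rfl fun i _ => ?_
    rw [carry_apply D χ c hc, hσ, pow_succ]
    ring
  rw [Finset.sum_sub_distrib, Finset.sum_range_sub (fun i => D.sec (χ.1 fun _ => σ ^ i)), hm,
    pow_zero, cocycle_trivial_one, sub_self, sub_zero, Finset.sum_const, Finset.card_range,
    nsmul_eq_mul, mul_one] at h1
  have h2 : (D.m : k) * (∑ i ∈ Finset.range D.m, c ![σ ^ i, σ] - 1) = 0 := by
    rw [mul_sub, h1, mul_one, sub_self]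
  exact sub_eq_zero.1 (D.m_inj _ h2)

end Carry

/-! ### nondegeneracy -/

section Nondeg

variable {R₃ : Type} [AddCommGroup R₃] [Module k R₃] (D : BockData k R₃)

/-- the cochain computation: a trivialisation `e` of `c ∪ x` whose restriction to `U = ker χ` is the
coboundary of `a` exhibits `x` as a `σ`-norm of a `U`-invariant element. -/
theorem exists_norm_of_cup_trivialisation (χ : lcCocycles 𝔉 (Rep.trivial k G R₃) 1)
    (c : (Fin 2 → G) → k)
    (hc : ∀ g : Fin 2 → G, (D.m : k) * c g =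
      D.sec (χ.1 fun _ => g 1) - D.sec (χ.1 fun _ => g 0 * g 1) + D.sec (χ.1 fun _ => g 0))
    (M : Rep.{0} k G) (σ : G) (hσ : D.sec (χ.1 fun _ => σ) = 1)
    (e : (Fin 1 → G) → M) (x : M)
    (hR0 : ∀ g h : G, M.ρ g (e fun _ => h) - e (fun _ => g * h) + e (fun _ => g) =
      c ![g, h] • x)
    (a : M) (ha : ∀ u ∈ (cocycleHom χ).ker, e (fun _ => u) = M.ρ u a - a) :
    ∃ b : M, (∀ u ∈ (cocycleHom χ).ker, M.ρ u b = b) ∧
      x = ∑ i ∈ Finset.range D.m, M.ρ (σ ^ i) b := by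
  have hmul : ∀ g h : G, M.ρ (g * h) a = M.ρ g (M.ρ h a) := by
    intro g h
    rw [map_mul]
    rfl
  obtain ⟨hb, hx⟩ := eq_norm_of_trivialisation M.ρ (cocycleHom χ).ker (fun g h => c ![g, h])
    (fun g => e (fun _ => g) - (M.ρ g a - a)) x σ D.m
    (by
      intro g h
      change M.ρ g (e (fun _ => h) - (M.ρ h a - a)) -
        (e (fun _ => g * h) - (M.ρ (g * h) a - a)) +
        (e (fun _ => g) - (M.ρ g a - a)) = c ![g, h] • x
      rw [← hR0, hmul, map_sub, map_sub]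
      abel)
    (fun g u hu => carry_right_eq_zero D χ c hc g hu)
    (fun u hu g => carry_left_eq_zero D χ c hc hu g)
    (fun u hu => by
      change e (fun _ => u) - (M.ρ u a - a) = 0
      rw [ha u hu, sub_self])
    (by
      rw [mem_ker_cocycleHom, cocycle_trivial_pow, ← Nat.cast_smul_eq_nsmul k, D.m_smul])
    (carry_sum_eq_one D χ c hc σ hσ)
  exact ⟨_, hb, hx⟩

variable (hfin : 𝔉.FiniteIndex)

/-- **nondegeneracy of the Bockstein cup pairing** at a cocycle `χ`: if every class of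
`Hlc¹(ker χ, M)` is killed by an integer prime to `m` and the invariant `x` is not a `σ`-norm from
`M^{ker χ}`, where `sec (χ σ) = 1`, then `(bock χ) ∪ x ≠ 0`. -/
theorem bockCup_lcπ_ne_zero (χ : lcCocycles 𝔉 (Rep.trivial k G R₃) 1) (M : Rep.{0} k G)
    (σ : G) (hσ : D.sec (χ.1 fun _ => σ) = 1)
    (hU1 : ∀ y : Hlc (𝔉.restrict (cocycleHom χ).ker) (res (cocycleHom χ).ker.subtype M) 1,
      ∃ n : ℕ, Nat.Coprime n D.m ∧ n • y = 0)
    (x : M.ρ.invariants)
    (hxN : ∀ b : M, (∀ u ∈ (cocycleHom χ).ker, M.ρ u b = b) →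
      x.1 ≠ ∑ i ∈ Finset.range D.m, M.ρ (σ ^ i) b) :
    bockCup D hfin M (lcπ 𝔉 _ 1 χ) ((Hlc0Equiv 𝔉 M).symm x) ≠ 0 := by
  intro h0
  obtain ⟨c, hc, hbc⟩ := exists_bock_rep D hfin χ
  rw [bockCup_apply, hbc, Hlc0Equiv_symm_apply, cupH_lcπ, lcπ_eq_zero_iff] at h0
  obtain ⟨e, he, hde⟩ := h0
  -- the trivialisation relation
  have hR0 : ∀ g h : G, M.ρ g (e fun _ => h) - e (fun _ => g * h) + e (fun _ => g) =
      c.1 ![g, h] • x.1 := by
    intro g h
    have h1 := congrFun hde ![g, h]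
    rw [d_one_apply, cupZ_coe, cupN_two_zero, smulPairing_toLin_apply] at h1
    change M.ρ g (e fun _ => h) - e (fun _ => g * h) + e (fun _ => g) =
      c.1 ![g, h] • M.ρ (g * h) x.1 at h1
    rw [h1, x.2 (g * h)]
  -- the restriction of `e` to `U` is a cocycle
  have heU : ((cochainsMap (cocycleHom χ).ker.subtype
      (𝟙 (res (cocycleHom χ).ker.subtype M))).f 1).hom e ∈
      lcCocycles (𝔉.restrict (cocycleHom χ).ker) (res (cocycleHom χ).ker.subtype M) 1 := by
    refine ⟨cochainsMap_mem_lcCochains _ _ (𝔉.compat_subtype _) he, LinearMap.mem_ker.2 ?_⟩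
    funext y
    rw [d_one_apply]
    change M.ρ (y 0 : G) (e fun _ => (y 1 : G)) - e (fun _ => ((y 0 : G) * (y 1 : G))) +
      e (fun _ => (y 0 : G)) = 0
    rw [hR0, carry_right_eq_zero D χ c.1 hc _ (y 1).2, zero_smul]
  -- a prime-to-`m` multiple of it is a coboundary
  obtain ⟨n, hn, hny⟩ := hU1 (lcπ _ _ 1 ⟨_, heU⟩)
  rw [← map_nsmul, lcπ_eq_zero_iff] at hny
  obtain ⟨a0, -, ha0⟩ := hny
  have ha : ∀ u : G, u ∈ (cocycleHom χ).ker →
      n • e (fun _ => u) = M.ρ u (a0 default) - a0 default := by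
    intro u hu
    have h3 := congrFun ha0 (fun _ => (⟨u, hu⟩ : (cocycleHom χ).ker))
    rw [eq_constCochain₀ _ a0, d_constCochain₀_apply] at h3
    exact h3.symm
  -- apply the cochain computation to `n • e`, `n • x`
  obtain ⟨b, hb, hx⟩ := exists_norm_of_cup_trivialisation D χ c.1 hc M σ hσ
    (fun g => n • e g) (n • x.1)
    (by
      intro g h
      change M.ρ g (n • e fun _ => h) - n • e (fun _ => g * h) + n • e (fun _ => g) =
        c.1 ![g, h] • n • x.1
      rw [map_nsmul, ← smul_sub, ← smul_add, hR0, smul_comm])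
    (a0 default) ha
  -- Bezout
  obtain ⟨r, t, hrt⟩ := Nat.isCoprime_iff_coprime.2 hn
  have hNx : ∑ i ∈ Finset.range D.m, M.ρ (σ ^ i) x.1 = D.m • x.1 := by
    rw [Finset.sum_congr rfl fun i _ => x.2 (σ ^ i), Finset.sum_const, Finset.card_range]
  refine hxN (r • b + t • x.1) (fun u hu => ?_) ?_
  · rw [map_add, map_zsmul, map_zsmul, hb u hu, x.2 u]
  · have h4 : ∑ i ∈ Finset.range D.m, M.ρ (σ ^ i) (r • b + t • x.1) =
        r • ∑ i ∈ Finset.range D.m, M.ρ (σ ^ i) b +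
          t • ∑ i ∈ Finset.range D.m, M.ρ (σ ^ i) x.1 := by
      rw [Finset.smul_sum, Finset.smul_sum, ← Finset.sum_add_distrib]
      refine Finset.sum_congr rfl fun i _ => ?_
      rw [map_add, map_zsmul, map_zsmul]
    rw [h4, ← hx, hNx, ← natCast_zsmul, ← natCast_zsmul, smul_smul, smul_smul, ← add_smul, hrt,
      one_smul]

end Nondeg

/-! ### the case `k = ℤ`, `R₃ = ZMod p` -/

/-- in a torsion group without `p`-torsion every element is killed by an integer prime to `p`. -/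
theorem exists_coprime_nsmul_eq_zero {A : Type*} [AddCommGroup A] {p : ℕ} (hp : p.Prime)
    (hp0 : ∀ a : A, p • a = 0 → a = 0) (a : A) {N : ℕ} (hN : N ≠ 0) (ha : N • a = 0) :
    ∃ n : ℕ, Nat.Coprime n p ∧ n • a = 0 := by
  obtain ⟨e, n, hn, rfl⟩ := Nat.exists_eq_pow_mul_and_not_dvd hN p hp.ne_one
  refine ⟨n, ((Nat.Prime.coprime_iff_not_dvd hp).2 hn).symm, ?_⟩
  have h : ∀ (e : ℕ) (b : A), p ^ e • b = 0 → b = 0 := by
    intro e
    induction e with
    | zero => intro b hb; simpa using hb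
    | succ e ih =>
      intro b hb
      apply ih
      apply hp0
      rw [← mul_smul, ← pow_succ']
      exact hb
  apply h e
  rw [← mul_smul]
  exact ha

section ZModP

variable (p : ℕ) [Fact p.Prime]

/-- the Bockstein datum `0 → ℤ --p--> ℤ → ZMod p → 0` -/
noncomputable def bockDataZMod : BockData ℤ (ZMod p) where
  m := p
  q := (Int.castAddHom (ZMod p)).toIntLinearMap
  sec r := (r.val : ℤ)
  m_inj a h := by
    have hp : (p : ℤ) ≠ 0 := by exact_mod_cast (Fact.out : p.Prime).ne_zero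
    exact (mul_eq_zero.1 h).resolve_left hp
  q_sec r := by
    haveI : NeZero p := ⟨(Fact.out : p.Prime).ne_zero⟩
    change (((r.val : ℕ) : ℤ) : ZMod p) = r
    rw [Int.cast_natCast, ZMod.natCast_zmod_val]
  sec_zero := by simp
  q_eq_zero a := by
    change ((a : ZMod p) = 0) ↔ _
    rw [ZMod.intCast_zmod_eq_zero_iff_dvd]
    exact ⟨fun ⟨b, hb⟩ => ⟨b, hb⟩, fun ⟨b, hb⟩ => ⟨b, hb⟩⟩

@[simp] theorem bockDataZMod_m : (bockDataZMod p).m = p := rfl

variable {p}

/-- a nonzero class of `Hlc¹(G, ZMod p)` is represented by a cocycle taking the value `1`. -/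
theorem exists_apply_eq_one_of_ne_zero (χ : lcCocycles 𝔉 (Rep.trivial ℤ G (ZMod p)) 1)
    (hχ : χ ≠ 0) : ∃ σ : G, χ.1 (fun _ => σ) = 1 := by
  haveI : NeZero p := ⟨(Fact.out : p.Prime).ne_zero⟩
  have h1 : ∃ g : G, χ.1 (fun _ => g) ≠ 0 := by
    by_contra h
    simp only [not_exists, not_not] at h
    apply hχ
    apply Subtype.ext
    funext y
    have hy : y = fun _ => y 0 := funext fun i => by rw [Subsingleton.elim i 0]
    rw [hy]
    exact h (y 0)
  obtain ⟨g₀, hg₀⟩ := h1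
  refine ⟨g₀ ^ ((χ.1 fun _ => g₀)⁻¹ : ZMod p).val, ?_⟩
  rw [cocycle_trivial_pow, nsmul_eq_mul, ZMod.natCast_zmod_val]
  exact inv_mul_cancel₀ hg₀

theorem index_ker_cocycleHom_of_apply_eq_one (χ : lcCocycles 𝔉 (Rep.trivial ℤ G (ZMod p)) 1)
    (σ : G) (hσ : χ.1 (fun _ => σ) = 1) : (cocycleHom χ).ker.index = p := by
  haveI : NeZero p := ⟨(Fact.out : p.Prime).ne_zero⟩
  have hsurj : Function.Surjective (cocycleHom χ) := by
    intro t
    refine ⟨σ ^ (Multiplicative.toAdd t).val, ?_⟩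
    change Multiplicative.ofAdd (χ.1 fun _ => σ ^ (Multiplicative.toAdd t).val) = t
    rw [cocycle_trivial_pow, hσ, nsmul_eq_mul, mul_one, ZMod.natCast_zmod_val]
    rfl
  rw [Subgroup.index_ker, MonoidHom.range_eq_top.2 hsurj, Subgroup.card_top,
    Nat.card_congr Multiplicative.toAdd, Nat.card_zmod]

variable (hfin : 𝔉.FiniteIndex)

/-- **nondegeneracy of the Bockstein cup pairing for `ZMod p`** from the finite-level inputs:
for every open normal subgroup `U` of index `p`: `Hlc¹(U, M)` has no `p`-torsion and some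
`G`-invariant is not a norm from `M^U`. -/
theorem bockCup_nondeg_zmod (M : Rep.{0} ℤ G)
    (hH3 : ∀ U : Subgroup G, U.Normal → IsOpenFor 𝔉 U → U.index = p →
      (∀ y : Hlc (𝔉.restrict U) (res U.subtype M) 1, p • y = 0 → y = 0) ∧
      ∀ σ : G, σ ∉ U → ∃ x : M, (∀ g, M.ρ g x = x) ∧ ∀ b : M, (∀ u ∈ U, M.ρ u b = b) →
        x ≠ ∑ i ∈ Finset.range p, M.ρ (σ ^ i) b)
    (χ : Hlc 𝔉 (Rep.trivial ℤ G (ZMod p)) 1) (hχ : χ ≠ 0) :
    ∃ x : Hlc 𝔉 M 0, bockCup (bockDataZMod p) hfin M χ x ≠ 0 := by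
  haveI : Fact (1 < p) := ⟨(Fact.out : p.Prime).one_lt⟩
  obtain ⟨χc, rfl⟩ := lcπ_surjective 𝔉 _ 1 χ
  have hχc : χc ≠ 0 := fun h => hχ (by rw [h, map_zero])
  obtain ⟨σ, hσ⟩ := exists_apply_eq_one_of_ne_zero χc hχc
  have hσU : σ ∉ (cocycleHom χc).ker := by
    rw [mem_ker_cocycleHom, hσ]
    exact one_ne_zero
  obtain ⟨hU1, hx⟩ := hH3 (cocycleHom χc).ker inferInstance (isOpenFor_ker_cocycleHom χc)
    (index_ker_cocycleHom_of_apply_eq_one χc σ hσ)
  obtain ⟨x, hxG, hxN⟩ := hx σ hσU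
  refine ⟨(Hlc0Equiv 𝔉 M).symm ⟨x, hxG⟩,
    bockCup_lcπ_ne_zero (bockDataZMod p) hfin χc M σ ?_ ?_ ⟨x, hxG⟩ hxN⟩
  · change (((χc.1 fun _ => σ).val : ℕ) : ℤ) = 1
    rw [hσ, ZMod.val_one]
    rfl
  · intro y
    obtain ⟨N, hN, hNy⟩ := exists_nsmul_eq_zero_Hlc_succ (𝔉.restrict (cocycleHom χc).ker)
      (hfin.restrict _) _ 0 y
    exact exists_coprime_nsmul_eq_zero (Fact.out : p.Prime) hU1 y hN hNy

end ZModP

end Fermat.Agent.PT
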