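/-
S55 engine (K6), model-free part (helper28): identification of a finite level
`H^n(G ⧸ N, A^N)` with `H^n(Q, A')` for `π : G ↠ Q` with kernel `N` and an injective morphism
`φ : Res_π A' ⟶ A` whose image is the `N`-invariants.
-/
import Fermat.Agent.CFT.Coh.H2InfResGen
import Fermat.Agent.CFT.PT.FiniteLevelLimit

set_option autoImplicit false

namespace Fermat.Agent.PT

open CategoryTheory groupCohomology Rep

universe u

variable {k G Q : Type u} [CommRing k] [Group G] [Group Q]
  {A : Rep.{u} k G} {A' : Rep.{u} k Q}

/-- transport of the finite level along an equality of subgroups. -/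
noncomputable def lvlId_congr {N N' : Subgroup G} [hN : N.Normal] [hN' : N'.Normal] (h : N = N')
    (n : ℕ) :
    groupCohomology (A.quotientToInvariants N) n ≃ₗ[k]
      groupCohomology (A.quotientToInvariants N') n := by
  subst h
  exact LinearEquiv.refl _ _

/-- **(K6), model-free**: for `π : G ↠ Q` with kernel `N` and `φ : Res_π A' ⟶ A` injective with
image the `N`-invariants, `H^n(Q, A') ≃ H^n(G ⧸ N, A^N)`. -/
noncomputable def lvlId_equiv (π : G →* Q) (φ : res π A' ⟶ A) (hπ : Function.Surjective π)
    (N : Subgroup G) [N.Normal] (hker : π.ker = N)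
    (hinj : Function.Injective φ.hom)
    (hrange : ∀ a : A, (∀ s ∈ N, A.ρ s a = a) → ∃ a' : A', φ.hom a' = a) (n : ℕ) :
    groupCohomology A' n ≃ₗ[k] groupCohomology (A.quotientToInvariants N) n :=
  (LinearEquiv.ofBijective
    (groupCohomology.map (Fermat.Agent.CFT.quotEquiv π hπ).toMonoidHom
      (Fermat.Agent.CFT.toInvHom π φ hπ) n).hom
    (Fermat.Agent.CFT.map_toInvHom_bijective π φ hπ hinj
      (fun a ha => hrange a fun s hs => ha s (hker ▸ hs)) n)).trans
    (lvlId_congr hker n)

end Fermat.Agent.PT
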