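/-
S55 engine (K6), Cc half, model-free core (helper28).

`𝕁` a `Γℚ`-module (multiplicative), `𝕂 ≤ 𝕁` a subgroup, `L ≤ F` finite subfields of `Qb`, `F/ℚ`
normal, `ιL : J_L → 𝕁`, `ιF : J_F → 𝕁` compatible homomorphisms out of the finite-level idele
groups (`ℚ`-model).  If the class of `ιF y` in `𝕁 ⧸ 𝕂` is fixed by `L.fixingSubgroup`, then
`ιF y ∈ ιL(J_L) · 𝕂` (Hilbert 90 at finite level, through `mem_range_relClass_iff`).
-/
import Fermat.Agent.CFT.PT.SUnitsH1Fin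
import Fermat.Agent.CFT.Idele.Devissage
import Fermat.Agent.CFT.Idele.RelativeTower
import Fermat.Agent.CFT.PT.LevelIdent

set_option autoImplicit false

namespace Fermat.Agent.PT

open IsDedekindDomain IsDedekindDomain.HeightOneSpectrum NumberField Fermat.Agent.CFT
  Fermat.Agent.CFT.S14 IntermediateField
open scoped Fermat.Agent.CFT.IdeleAct

local notation "Qb" => AlgebraicClosure ℚ
local notation "Γℚ" => (AlgebraicClosure ℚ ≃ₐ[ℚ] AlgebraicClosure ℚ)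

attribute [local instance] sUF_isAlgebraicQb sUF_isAlgClosureQb sUF_isGaloisQb sUF_numberField
  sUF_algebra sUF_isScalarTower sUF_isScalarTower' sUF_isGalois sUF_normal_alg'

section Core

variable {𝕁 : Type} [CommGroup 𝕁] [MulDistribMulAction Γℚ 𝕁] (𝕂 : Subgroup 𝕁)
  {L F : IntermediateField ℚ Qb} [hLF : Fact (L ≤ F)]
  [FiniteDimensional ℚ L] [FiniteDimensional ℚ F] [Normal ℚ F]

/-- the restriction of `σ ∈ L.fixingSubgroup` to `F`, as an element of `Gal(F/ℚ)`, is the image of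
its restriction in `Gal(F/L)`. -/
theorem clsLvl_restrictNormal_eq (σ : L.fixingSubgroup) :
    (σ.1.restrictNormal F : F ≃ₐ[ℚ] F) = relGalHom ℚ L F (relRestrict hLF.out σ) := by
  ext x
  rfl

/-- **finite-level Hilbert 90 descent**, model-free. -/
theorem clsLvl_exists_of_invariant
    (ιL : ideleGroup ℚ L →* 𝕁) (ιF : ideleGroup ℚ F →* 𝕁)
    (h2 : ∀ z, ιF (relIdele ℚ L F z) = ιL z)
    (h3 : ∀ b : (F : Type)ˣ, ιF (diagIdele (K := ℚ) b) ∈ 𝕂)
    (h4 : ∀ (σ : Γℚ) (y : ideleGroup ℚ F), ιF ((σ.restrictNormal F : F ≃ₐ[ℚ] F) • y) = σ • ιF y)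
    (h6 : ∀ y, ιF y ∈ 𝕂 → y ∈ principalIdeles ℚ F)
    (y : ideleGroup ℚ F) (hinv : ∀ σ ∈ L.fixingSubgroup, σ • ιF y / ιF y ∈ 𝕂) :
    ∃ z : ideleGroup ℚ L, ∃ k ∈ 𝕂, ιF y = ιL z * k := by
  -- the class of `y` in `C_F` is `Gal(F/L)`-invariant
  have hfix : ∀ g ∈ relFixing ℚ L F, g • (y : ideleClass ℚ F) = (y : ideleClass ℚ F) := by
    intro g hg
    obtain ⟨τ, rfl⟩ := exists_relGalHom_eq hg
    obtain ⟨σ, rfl⟩ := relRestrict_surjective hLF.out τ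
    rw [← clsLvl_restrictNormal_eq]
    have h1 : ιF (((σ.1.restrictNormal F : F ≃ₐ[ℚ] F) • y) / y) ∈ 𝕂 := by
      rw [map_div, h4]
      exact hinv σ.1 σ.2
    have h5 := h6 _ h1
    show (((σ.1.restrictNormal F : F ≃ₐ[ℚ] F) • y : ideleGroup ℚ F) : ideleClass ℚ F) = _
    rw [eq_comm, QuotientGroup.eq, ← div_eq_inv_mul]
    exact h5
  obtain ⟨c, hc⟩ := (mem_range_relClass_iff ℚ L F (y : ideleClass ℚ F)).2 hfix
  induction c using QuotientGroup.induction_on with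
  | H z =>
    rw [relClass_mk, QuotientGroup.eq] at hc
    obtain ⟨b, hb⟩ := hc
    refine ⟨z, ιF (diagIdele (K := ℚ) b), h3 b, ?_⟩
    rw [hb, map_mul, map_inv, h2, mul_inv_cancel_left]

end Core

section RepLevel

open CategoryTheory groupCohomology Rep

attribute [local instance] additiveDistribMulAction ideleGroupActionOf ideleClassActionOf
  idClassCommGroup

variable {𝕁 : Type} [CommGroup 𝕁] [MulDistribMulAction Γℚ 𝕁] (𝕂 : Subgroup 𝕁)
  (Cc : Rep.{0} ℤ Γℚ) (q : 𝕁 →* Multiplicative Cc.V)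
  (hqK : ∀ x, q x = 1 ↔ x ∈ 𝕂)
  (hqρ : ∀ (σ : Γℚ) (x : 𝕁), q (σ • x) = Multiplicative.ofAdd (Cc.ρ σ (Multiplicative.toAdd (q x))))
  {L : IntermediateField ℚ Qb} [FiniteDimensional ℚ L]
  (ιL : ideleGroup ℚ L →* 𝕁)
  (h3 : ∀ b : (L : Type)ˣ, ιL (diagIdele (K := ℚ) b) ∈ 𝕂)

include hqK h3 in
theorem clsLvl_lift_aux : principalIdeles ℚ L ≤ (q.comp ιL).ker := by
  rintro _ ⟨b, rfl⟩
  rw [MonoidHom.mem_ker, MonoidHom.comp_apply, hqK]
  exact h3 b

/-- the map `C_L → Cc` induced by `ιL`. -/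
noncomputable def clsLvl_hom : ideleClass ℚ L →* Multiplicative Cc.V :=
  QuotientGroup.lift (principalIdeles ℚ L) (q.comp ιL) (clsLvl_lift_aux 𝕂 Cc q hqK ιL h3)

theorem clsLvl_hom_mk (z : ideleGroup ℚ L) :
    clsLvl_hom 𝕂 Cc q hqK ιL h3 (z : ideleClass ℚ L) = q (ιL z) := rfl

/-- compatibility with the transition maps `C_L → C_F`. -/
theorem clsLvl_hom_relClass {F : IntermediateField ℚ Qb} [hLF : Fact (L ≤ F)]
    [FiniteDimensional ℚ F] (ιF : ideleGroup ℚ F →* 𝕁)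
    (h3F : ∀ b : (F : Type)ˣ, ιF (diagIdele (K := ℚ) b) ∈ 𝕂)
    (h2 : ∀ z, ιF (relIdele ℚ L F z) = ιL z) (c : ideleClass ℚ L) :
    clsLvl_hom 𝕂 Cc q hqK ιF h3F (relClass ℚ L F c) = clsLvl_hom 𝕂 Cc q hqK ιL h3 c := by
  induction c using QuotientGroup.induction_on with
  | H z => rw [relClass_mk, clsLvl_hom_mk, clsLvl_hom_mk, h2]

variable (h6 : ∀ z, ιL z ∈ 𝕂 → z ∈ principalIdeles ℚ L)

include h6 in
theorem clsLvl_hom_injective : Function.Injective (clsLvl_hom 𝕂 Cc q hqK ιL h3) := by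
  rw [injective_iff_map_eq_one]
  intro c hc
  induction c using QuotientGroup.induction_on with
  | H z =>
    rw [clsLvl_hom_mk, hqK] at hc
    exact (QuotientGroup.eq_one_iff z).2 (h6 z hc)

variable (hqs : Function.Surjective q)
  (hinv : ∀ x : 𝕁, (∀ σ ∈ L.fixingSubgroup, σ • x / x ∈ 𝕂) → ∃ z : ideleGroup ℚ L, ∃ k ∈ 𝕂,
    x = ιL z * k)

include hqs hinv hqρ in
/-- the image of `C_L → Cc` contains the `L.fixingSubgroup`-invariants. -/
theorem clsLvl_exists_hom_eq (a : Cc.V) (ha : ∀ σ ∈ L.fixingSubgroup, Cc.ρ σ a = a) :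
    ∃ c : ideleClass ℚ L, clsLvl_hom 𝕂 Cc q hqK ιL h3 c = Multiplicative.ofAdd a := by
  obtain ⟨x, hx⟩ := hqs (Multiplicative.ofAdd a)
  have h1 : ∀ σ ∈ L.fixingSubgroup, σ • x / x ∈ 𝕂 := by
    intro σ hσ
    rw [← hqK, map_div, hqρ, hx, toAdd_ofAdd, ha σ hσ, div_self']
  obtain ⟨z, k, hk, hxz⟩ := hinv x h1
  refine ⟨(z : ideleClass ℚ L), ?_⟩
  rw [clsLvl_hom_mk, ← hx, hxz, map_mul, (hqK k).2 hk, mul_one]

variable {M : IntermediateField ℚ Qb} [hML : Fact (M ≤ L)] [FiniteDimensional ℚ M] [Normal ℚ L]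
  (h4 : ∀ (σ : Γℚ) (z : ideleGroup ℚ L), ιL ((σ.restrictNormal L : L ≃ₐ[ℚ] L) • z) = σ • ιL z)

include hqρ h4 in
theorem clsLvl_hom_smul (σ : M.fixingSubgroup) (c : ideleClass ℚ L) :
    clsLvl_hom 𝕂 Cc q hqK ιL h3 ((relGalHom ℚ M L (relRestrict hML.out σ)) • c) =
      Multiplicative.ofAdd (Cc.ρ σ.1 (Multiplicative.toAdd (clsLvl_hom 𝕂 Cc q hqK ιL h3 c))) := by
  induction c using QuotientGroup.induction_on with
  | H z =>
    rw [← clsLvl_restrictNormal_eq]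
    show clsLvl_hom 𝕂 Cc q hqK ιL h3
      (((σ.1.restrictNormal L : L ≃ₐ[ℚ] L) • z : ideleGroup ℚ L) : ideleClass ℚ L) = _
    rw [clsLvl_hom_mk, clsLvl_hom_mk, h4, hqρ]

/-- the map `C_L → Cc` as a `ℤ`-linear map (for the `ℤ`-module structure carried by `Cc`). -/
noncomputable def clsLvl_lin :
    @LinearMap ℤ ℤ _ _ (RingHom.id ℤ) (Additive (ideleClass ℚ L)) Cc.V _ _ _ Cc.hV2 :=
  @LinearMap.mk ℤ ℤ _ _ (RingHom.id ℤ) (Additive (ideleClass ℚ L)) Cc.V _ _ _ Cc.hV2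
    ⟨fun c => MonoidHom.toAdditiveLeft (clsLvl_hom 𝕂 Cc q hqK ιL h3) c,
      map_add (MonoidHom.toAdditiveLeft (clsLvl_hom 𝕂 Cc q hqK ιL h3))⟩
    (fun n c => by
      have h1 := map_zsmul (MonoidHom.toAdditiveLeft (clsLvl_hom 𝕂 Cc q hqK ιL h3)) n c
      have h2 := int_smul_eq_zsmul Cc.hV2 n
        (MonoidHom.toAdditiveLeft (clsLvl_hom 𝕂 Cc q hqK ιL h3) c)
      exact h1.trans h2.symm)

/-- **(K6), ℂ half, model-free**: the morphism `C_L ⟶ Cc` over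
`π : M.fixingSubgroup ↠ Gal(L/M)`. -/
noncomputable def clsLvl_φ :
    res (relRestrict hML.out) (idClassRep ℚ M L) ⟶ res M.fixingSubgroup.subtype Cc :=
  ConcreteCategory.ofHom (C := Rep.{0} ℤ M.fixingSubgroup)
    (@Representation.IntertwiningMap.mk ℤ M.fixingSubgroup (Additive (ideleClass ℚ L)) Cc.V
      _ _ _ _ _ Cc.hV2 (res (relRestrict hML.out) (idClassRep ℚ M L)).ρ
      (res M.fixingSubgroup.subtype Cc).ρ (clsLvl_lin 𝕂 Cc q hqK ιL h3) (fun σ => by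
        refine DFunLike.ext _ _ fun c => ?_
        exact congrArg Multiplicative.toAdd
          (clsLvl_hom_smul 𝕂 Cc q hqK hqρ ιL h3 h4 σ (Additive.toMul c))))

theorem clsLvl_φ_apply (c : Additive (ideleClass ℚ L)) :
    (clsLvl_φ 𝕂 Cc q hqK hqρ ιL h3 (M := M) h4).hom c =
      Multiplicative.toAdd (clsLvl_hom 𝕂 Cc q hqK ιL h3 (Additive.toMul c)) := rfl

include h6 in
theorem clsLvl_φ_injective :
    Function.Injective (clsLvl_φ 𝕂 Cc q hqK hqρ ιL h3 (M := M) h4).hom := by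
  intro c c' h
  have := clsLvl_hom_injective 𝕂 Cc q hqK ιL h3 h6 (congrArg Multiplicative.ofAdd h)
  exact congrArg Additive.ofMul this

include hqs hinv in
theorem clsLvl_φ_range (a : Cc.V)
    (ha : ∀ s ∈ L.fixingSubgroup.subgroupOf M.fixingSubgroup,
      (res M.fixingSubgroup.subtype Cc).ρ s a = a) :
    ∃ c, (clsLvl_φ 𝕂 Cc q hqK hqρ ιL h3 (M := M) h4).hom c = a := by
  obtain ⟨c, hc⟩ := clsLvl_exists_hom_eq 𝕂 Cc q hqK hqρ ιL h3 hqs hinv a fun σ hσ =>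
    ha ⟨σ, IntermediateField.fixingSubgroup_antitone hML.out hσ⟩ hσ
  exact ⟨Additive.ofMul c, congrArg Multiplicative.toAdd hc⟩

include h6 hqs hinv in
/-- **(K6), Cc half, model-free**: `H^n(Gal(L/M), C_L) ≃ H^n(V ⧸ U, Cc^U)`, `V = M.fixingSubgroup`,
`U = L.fixingSubgroup ∩ V`. -/
noncomputable def clsLvl_equiv
    [(L.fixingSubgroup.subgroupOf M.fixingSubgroup).Normal] (n : ℕ) :
    groupCohomology (idClassRep ℚ M L) n ≃ₗ[ℤ]
      groupCohomology ((res M.fixingSubgroup.subtype Cc).quotientToInvariants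
        (L.fixingSubgroup.subgroupOf M.fixingSubgroup)) n :=
  lvlId_equiv (relRestrict hML.out) (clsLvl_φ 𝕂 Cc q hqK hqρ ιL h3 (M := M) h4)
    (relRestrict_surjective hML.out) _ (relRestrict_ker hML.out)
    (clsLvl_φ_injective 𝕂 Cc q hqK hqρ ιL h3 h6 h4)
    (clsLvl_φ_range 𝕂 Cc q hqK hqρ ιL h3 hqs hinv h4) n

end RepLevel

end Fermat.Agent.PT
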