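/-
CFT, S55 pool, GLOBAL-IDELIC layer, (K0) part 3 (helper27): the FINITE-LEVEL MAPS into the
infinite-level idele group of `PT/IdeleRep.lean`.

For a number field `L` and an embedding `f : L →ₐ[ℚ] Qb`:
* `idLevelHom f : ideleGroup ℚ L →* slProd`, `x ↦ (v ↦ (id ⊗ f)(x v))`; injective;
  `idLevelHom_diagIdele` (principal ideles go to the diagonal);
* `idLevelHom_mem_JFull` (`f(L) ⊆ ℚ_S` ⇒ image in `𝕁`), `idLevelHom_mem_slIntUnits_iff`;
* **Galois descent** `mem_range_idLevelHom_iff`: the image is the set of elements fixed by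
  `Gal(Qb / f(L))` that are integral units almost everywhere
  (`exists_idLevelHom_eq_of_forall_smul_eq` for `F : IntermediateField ℚ Qb`, with `ratVal F`);
* subgroups: `idLevelHom_mem_idK_iff` (↔ principal), `idLevelHom_mem_idJS_iff`,
  `idLevelHom_mem_idU_iff` (↔ `unitIdeleS ℚ L (placesS S)`),
  `idLevelHom_mem_sup_of_mem_ideleGroupS`; `mem_placesS_iff` (`placesS S = sUCI_ratSet S`).
-/
import Fermat.Agent.CFT.PT.IdeleRep
import Fermat.Agent.CFT.Bridge.TensorDescent
import Fermat.Agent.CFT.S14.CycloField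
import Fermat.Agent.CFT.Idele.UnitIdeles

set_option autoImplicit false

namespace Fermat.Agent.PT

open CategoryTheory Fermat.Agent.CFT IntermediateField NumberField IsDedekindDomain
open scoped TensorProduct Fermat.Agent.CFT.TensorGal

local notation "Qb" => AlgebraicClosure ℚ
local notation "Γℚ" => (AlgebraicClosure ℚ ≃ₐ[ℚ] AlgebraicClosure ℚ)

attribute [local instance] Units.mulDistribMulActionRight
attribute [local instance] slQbUnitsAction

noncomputable section

section Level

variable {L : Type} [Field L] [NumberField L] (f : L →ₐ[ℚ] Qb)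

/-- **the finite-level map** `ι_f : J_L → ∏_v (ℚ_v ⊗ Qb)ˣ` along an embedding `f : L → Qb`. -/
def idLevelHom : ideleGroup ℚ L →* slProd where
  toFun x := fun v => Units.map ((slBase v f : semiLocal ℚ L v →ₐ[v.adicCompletion ℚ] slQb v) :
    semiLocal ℚ L v →* slQb v) (x.1 v)
  map_one' := funext fun v => map_one _
  map_mul' x y := funext fun v => map_mul _ _ _

theorem idLevelHom_apply (x : ideleGroup ℚ L) (v : HeightOneSpectrum (𝓞 ℚ)) :
    idLevelHom f x v = Units.map ((slBase v f : semiLocal ℚ L v →ₐ[v.adicCompletion ℚ] slQb v) :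
      semiLocal ℚ L v →* slQb v) (x.1 v) := rfl

theorem idLevelHom_apply_val (x : ideleGroup ℚ L) (v : HeightOneSpectrum (𝓞 ℚ)) :
    ((idLevelHom f x v : (slQb v)ˣ) : slQb v) = slBase v f ((x.1 v : (semiLocal ℚ L v)ˣ) :
      semiLocal ℚ L v) := rfl

theorem idLevelHom_injective : Function.Injective (idLevelHom f) := by
  intro x y h
  apply Subtype.ext
  funext v
  apply Units.ext
  apply slBase_injective v f
  have := congrArg (fun z : (slQb v)ˣ => (z : slQb v)) (congrFun h v)
  exact this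

/-- principal ideles go to principal ideles. -/
theorem idLevelHom_diagIdele (b : Lˣ) :
    idLevelHom f (diagIdele (K := ℚ) b) = slDiag (Units.map (f : L →* Qb) b) := by
  funext v
  apply Units.ext
  rw [idLevelHom_apply_val, diagIdele_apply, slDiag_apply, slIncl_val]
  change slBase v f ((1 : v.adicCompletion ℚ) ⊗ₜ[ℚ] (b : L)) = _
  rw [slBase_tmul]
  rfl

/-- elements of the image of `ι_f` are fixed by `Gal(Qb / f(L))`. -/
theorem smul_idLevelHom_of_mem_fixingSubgroup {u : Γℚ} (hu : u ∈ f.fieldRange.fixingSubgroup)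
    (x : ideleGroup ℚ L) : u • idLevelHom f x = idLevelHom f x := by
  funext v
  apply Units.ext
  rw [slProd_smul_apply, slQb_units_smul_val, idLevelHom_apply_val]
  generalize ((x.1 v : (semiLocal ℚ L v)ˣ) : semiLocal ℚ L v) = z
  induction z using TensorProduct.induction_on with
  | zero => rw [map_zero, smul_zero]
  | tmul a y =>
    rw [slBase_tmul, slQb_smul_tmul]
    congr 1
    exact (IntermediateField.mem_fixingSubgroup_iff _ _).1 hu _ ⟨y, rfl⟩
  | add z w hz hw => rw [map_add, smul_add, hz, hw]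

theorem eventually_idLevelHom_mem_slIntUnits (x : ideleGroup ℚ L) :
    ∀ᶠ v in Filter.cofinite, idLevelHom f x v ∈ slIntUnits v := by
  have hx : ∀ᶠ v in Filter.cofinite, x.1 v ∈ semiLocalUnits ℚ L v := x.2
  filter_upwards [hx] with v hv
  rw [mem_semiLocalUnits_iff] at hv
  rw [mem_slIntUnits_iff]
  refine ⟨isIntegral_slBase f hv.1, ?_⟩
  have : ((idLevelHom f x v)⁻¹ : (slQb v)ˣ) = idLevelHom f x⁻¹ v := by
    rw [map_inv]; rfl
  rw [this, idLevelHom_apply_val]
  exact isIntegral_slBase f hv.2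

theorem map_slBase_mem_slIntUnits_iff (v : HeightOneSpectrum (𝓞 ℚ)) (z : (semiLocal ℚ L v)ˣ) :
    Units.map ((slBase v f : semiLocal ℚ L v →ₐ[v.adicCompletion ℚ] slQb v) :
      semiLocal ℚ L v →* slQb v) z ∈ slIntUnits v ↔ z ∈ semiLocalUnits ℚ L v := by
  rw [mem_semiLocalUnits_iff, mem_slIntUnits_iff]
  have h1 : ∀ w : semiLocal ℚ L v, IsIntegral (v.adicCompletionIntegers ℚ) (slBase v f w) ↔
      IsIntegral (v.adicCompletionIntegers ℚ) w := fun w =>
    isIntegral_algHom_iff ((slBase v f).restrictScalars (v.adicCompletionIntegers ℚ))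
      (slBase_injective v f)
  rw [← map_inv]
  exact and_congr (h1 _) (h1 _)

theorem idLevelHom_mem_slIntUnits_iff (x : ideleGroup ℚ L) (v : HeightOneSpectrum (𝓞 ℚ)) :
    idLevelHom f x v ∈ slIntUnits v ↔ x.1 v ∈ semiLocalUnits ℚ L v :=
  map_slBase_mem_slIntUnits_iff f v (x.1 v)

variable (S : Finset Nat.Primes)

/-- `ι_f` lands in `𝕁 = JFull S` as soon as `f(L) ⊆ ℚ_S`. -/
theorem idLevelHom_mem_JFull (hf : f.fieldRange ≤ QS S) (x : ideleGroup ℚ L) :
    idLevelHom f x ∈ JFull S := by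
  have hfd : FiniteDimensional ℚ f.fieldRange :=
    (AlgEquiv.ofInjectiveField f).toLinearEquiv.finiteDimensional
  have hF : f.fieldRange.IsUnramifiedOutside S := (le_QS_iff S f.fieldRange).1 hf
  refine ⟨⟨(galClosure f.fieldRange).fixingSubgroup,
    ⟨_, IsUnramifiedOutside.galClosure hF, galClosure_fixingSubgroup_normal _, rfl⟩,
    fun u hu => ?_⟩, eventually_idLevelHom_mem_slIntUnits f x⟩
  exact smul_idLevelHom_of_mem_fixingSubgroup f
    (IntermediateField.fixingSubgroup_le (le_galClosure _) hu) x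


/-! ### Galois descent: the image of `ι_f` -/

/-- descent of a single component: a unit of `ℚ_v ⊗ Qb` fixed by `Gal(Qb / f(L))` comes from a unit
of `ℚ_v ⊗ L`. -/
theorem exists_unit_slBase_eq (v : HeightOneSpectrum (𝓞 ℚ)) (t : (slQb v)ˣ)
    (ht : ∀ u ∈ f.fieldRange.fixingSubgroup, u • t = t) :
    ∃ z : (semiLocal ℚ L v)ˣ, Units.map ((slBase v f : semiLocal ℚ L v →ₐ[v.adicCompletion ℚ]
      slQb v) : semiLocal ℚ L v →* slQb v) z = t := by
  have ht' : ∀ u ∈ f.fieldRange.fixingSubgroup,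
      Algebra.TensorProduct.map (AlgHom.id (v.adicCompletion ℚ) (v.adicCompletion ℚ))
        ((u : Qb ≃ₐ[ℚ] Qb) : Qb →ₐ[ℚ] Qb) (t : slQb v) = t := by
    intro u hu
    have h1 := congrArg (fun z : (slQb v)ˣ => (z : slQb v)) (ht u hu)
    exact h1
  obtain ⟨s, s', hss', hs, hs'⟩ := tnD_exists_unit_of_fixed f.fieldRange t ht'
  set e : L ≃ₐ[ℚ] f.fieldRange := AlgEquiv.ofInjectiveField f with he
  set E : semiLocal ℚ L v ≃ₐ[v.adicCompletion ℚ] (v.adicCompletion ℚ) ⊗[ℚ] f.fieldRange :=
    Algebra.TensorProduct.congr AlgEquiv.refl e with hE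
  have hcomp : ∀ z : semiLocal ℚ L v,
      Algebra.TensorProduct.map (AlgHom.id (v.adicCompletion ℚ) (v.adicCompletion ℚ))
        f.fieldRange.val (E z) = slBase v f z := by
    intro z
    induction z using TensorProduct.induction_on with
    | zero => rw [map_zero, map_zero, map_zero]
    | tmul a y =>
      rw [slBase_tmul, hE, Algebra.TensorProduct.congr_apply, Algebra.TensorProduct.map_tmul,
        Algebra.TensorProduct.map_tmul]
      rfl
    | add z w hz hw => rw [map_add, map_add, map_add, hz, hw]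
  have h1 : slBase v f (E.symm s) = (t : slQb v) := by
    rw [← hcomp, AlgEquiv.apply_symm_apply, hs]
  have h2 : slBase v f (E.symm s') = ((t⁻¹ : (slQb v)ˣ) : slQb v) := by
    rw [← hcomp, AlgEquiv.apply_symm_apply, hs']
  have h3 : E.symm s * E.symm s' = 1 := by
    apply slBase_injective v f
    rw [map_mul, h1, h2, Units.mul_inv, map_one]
  exact ⟨⟨E.symm s, E.symm s', h3, (mul_comm _ _).trans h3⟩, Units.ext h1⟩

/-- **the image of `ι_f`** (Galois descent): the elements fixed by `Gal(Qb / f(L))` which are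
integral units almost everywhere. -/
theorem mem_range_idLevelHom_iff (x : slProd) :
    x ∈ (idLevelHom f).range ↔ (∀ u ∈ f.fieldRange.fixingSubgroup, u • x = x) ∧
      ∀ᶠ v in Filter.cofinite, x v ∈ slIntUnits v := by
  constructor
  · rintro ⟨y, rfl⟩
    exact ⟨fun u hu => smul_idLevelHom_of_mem_fixingSubgroup f hu y,
      eventually_idLevelHom_mem_slIntUnits f y⟩
  · rintro ⟨h1, h2⟩
    have hv : ∀ v, ∃ z : (semiLocal ℚ L v)ˣ, Units.map ((slBase v f : semiLocal ℚ L v
        →ₐ[v.adicCompletion ℚ] slQb v) : semiLocal ℚ L v →* slQb v) z = x v := fun v =>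
      exists_unit_slBase_eq f v (x v) fun u hu => congrFun (h1 u hu) v
    choose z hz using hv
    have hmem : z ∈ ideleGroup ℚ L := by
      rw [mem_ideleGroup_iff]
      filter_upwards [h2] with v hv
      rw [← map_slBase_mem_slIntUnits_iff f v, hz v]
      exact hv
    exact ⟨⟨z, hmem⟩, funext fun v => hz v⟩



/-- the inclusion `F → Qb` as a `ℚ`-algebra map for the `ℚ`-algebra structures found by instance
search (`F.val` uses `F.algebra'`, which is only propositionally equal to it). -/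
def ratVal (F : IntermediateField ℚ Qb) : F →ₐ[ℚ] Qb := (F.val : F →+* Qb).toRatAlgHom

@[simp] theorem ratVal_apply (F : IntermediateField ℚ Qb) (y : F) : ratVal F y = (y : Qb) := rfl

theorem fieldRange_ratVal (F : IntermediateField ℚ Qb) : (ratVal F).fieldRange = F := by
  ext y
  constructor
  · rintro ⟨z, rfl⟩
    exact z.2
  · intro hy
    exact ⟨⟨y, hy⟩, rfl⟩

/-- (γ) for an intermediate field: the elements of `𝕁` fixed by `Gal(Qb/F)` are the image of the
ideles of `F`. -/
theorem exists_idLevelHom_eq_of_forall_smul_eq (F : IntermediateField ℚ Qb) [NumberField F]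
    (g : F →ₐ[ℚ] Qb) (hg : ∀ y, g y = (y : Qb))
    {x : slProd} (hx : x ∈ JFull S) (hfix : ∀ u ∈ F.fixingSubgroup, u • x = x) :
    ∃ y : ideleGroup ℚ F, idLevelHom g y = x := by
  have hgF : g.fieldRange = F := by
    ext y
    constructor
    · rintro ⟨z, rfl⟩
      have : g.toRingHom z = g z := rfl
      rw [this, hg]; exact z.2
    · intro hy
      exact ⟨⟨y, hy⟩, hg _⟩
  exact (mem_range_idLevelHom_iff g x).2 ⟨fun u hu => hfix u (by rwa [hgF] at hu), hx.2⟩

/-! ### the subgroups at finite level -/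

/-- (6) `ι_f(J_L) ∩ 𝕂 = ι_f(Lˣ)`. -/
theorem idLevelHom_mem_idK_iff (hf : f.fieldRange ≤ QS S) (y : ideleGroup ℚ L) :
    idLevelHom f y ∈ idK S ↔ y ∈ principalIdeles ℚ L := by
  constructor
  · rintro ⟨c, -, hc⟩
    have hfix : ∀ u ∈ f.fieldRange.fixingSubgroup, u • c = c := by
      intro u hu
      apply slDiag_injective
      rw [slDiag_smul', hc]
      exact smul_idLevelHom_of_mem_fixingSubgroup f hu y
    have hcF : (c : Qb) ∈ f.fieldRange := by
      rw [← InfiniteGalois.fixedField_fixingSubgroup f.fieldRange,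
        IntermediateField.mem_fixedField_iff]
      intro u hu
      exact congrArg (fun z : Qbˣ => (z : Qb)) (hfix u hu)
    obtain ⟨b, hb⟩ := hcF
    have hb0 : b ≠ 0 := by
      rintro rfl
      rw [map_zero] at hb
      exact c.ne_zero hb.symm
    refine ⟨Units.mk0 b hb0, ?_⟩
    apply idLevelHom_injective f
    rw [idLevelHom_diagIdele, ← hc]
    congr 1
    exact Units.ext hb
  · rintro ⟨b, rfl⟩
    rw [idLevelHom_diagIdele]
    exact ⟨_, hf ⟨(b : L), rfl⟩, rfl⟩

theorem idLevelHom_mem_idJS_iff (hf : f.fieldRange ≤ QS S) (y : ideleGroup ℚ L) :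
    idLevelHom f y ∈ idJS S ↔ ∀ v ∉ placesS S, y.1 v = 1 := by
  rw [mem_idJS_iff]
  constructor
  · rintro ⟨-, h⟩ v hv
    have h1 := h v hv
    rw [idLevelHom_apply] at h1
    apply Units.ext
    apply slBase_injective v f
    have h2 := congrArg (fun z : (slQb v)ˣ => (z : slQb v)) h1
    simp only [Units.coe_map, Units.val_one] at h2
    rw [Units.val_one, map_one]
    exact h2
  · intro h
    refine ⟨idLevelHom_mem_JFull f S hf y, fun v hv => ?_⟩
    rw [idLevelHom_apply, h v hv, map_one]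

theorem idLevelHom_mem_idU_iff (hf : f.fieldRange ≤ QS S) (y : ideleGroup ℚ L) :
    idLevelHom f y ∈ idU S ↔ y ∈ unitIdeleS ℚ L (placesS S) := by
  rw [mem_idU_iff, mem_unitIdeleS_iff]
  constructor
  · rintro ⟨-, h1, h2⟩
    refine ⟨fun v hv => (idLevelHom_mem_slIntUnits_iff f y v).1 (h2 v hv), fun v hv => ?_⟩
    have h3 := h1 v hv
    rw [idLevelHom_apply] at h3
    apply Units.ext
    apply slBase_injective v f
    have h4 := congrArg (fun z : (slQb v)ˣ => (z : slQb v)) h3
    simp only [Units.coe_map, Units.val_one] at h4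
    rw [Units.val_one, map_one]
    exact h4
  · rintro ⟨h1, h2⟩
    refine ⟨idLevelHom_mem_JFull f S hf y, fun v hv => ?_,
      fun v hv => (idLevelHom_mem_slIntUnits_iff f y v).2 (h1 v hv)⟩
    rw [idLevelHom_apply, h2 v hv, map_one]

open Classical in
/-- `ι_f(J_{L,S}) ⊆ J_S · 𝕌`. -/
theorem idLevelHom_mem_sup_of_mem_ideleGroupS (hf : f.fieldRange ≤ QS S) {y : ideleGroup ℚ L}
    (hy : y ∈ ideleGroupS ℚ L (placesS S)) : idLevelHom f y ∈ idJS S ⊔ idU S := by
  rw [mem_ideleGroupS_iff] at hy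
  have hmem1 : (fun v => if v ∈ placesS S then y.1 v else 1 : ∀ v, (semiLocal ℚ L v)ˣ) ∈
      ideleGroup ℚ L := by
    rw [mem_ideleGroup_iff]
    have hy' : ∀ᶠ v in Filter.cofinite, y.1 v ∈ semiLocalUnits ℚ L v := y.2
    filter_upwards [hy'] with v hv
    by_cases h : v ∈ placesS S
    · rw [if_pos h]; exact hv
    · rw [if_neg h]; exact one_mem _
  have hmem2 : (fun v => if v ∈ placesS S then 1 else y.1 v : ∀ v, (semiLocal ℚ L v)ˣ) ∈
      ideleGroup ℚ L := by
    rw [mem_ideleGroup_iff]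
    have hy' : ∀ᶠ v in Filter.cofinite, y.1 v ∈ semiLocalUnits ℚ L v := y.2
    filter_upwards [hy'] with v hv
    by_cases h : v ∈ placesS S
    · rw [if_pos h]; exact one_mem _
    · rw [if_neg h]; exact hv
  have hsplit : y = ⟨_, hmem1⟩ * ⟨_, hmem2⟩ := by
    apply Subtype.ext
    funext v
    show y.1 v = (if v ∈ placesS S then y.1 v else 1) * (if v ∈ placesS S then 1 else y.1 v)
    by_cases h : v ∈ placesS S
    · rw [if_pos h, if_pos h, mul_one]
    · rw [if_neg h, if_neg h, one_mul]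
  rw [hsplit, map_mul]
  refine Subgroup.mul_mem_sup ?_ ?_
  · rw [idLevelHom_mem_idJS_iff f S hf]
    intro v hv
    exact if_neg hv
  · rw [idLevelHom_mem_idU_iff f S hf, mem_unitIdeleS_iff]
    refine ⟨fun v hv => ?_, fun v hv => if_pos hv⟩
    show (if v ∈ placesS S then 1 else y.1 v) ∈ semiLocalUnits ℚ L v
    rw [if_neg hv]
    exact hy v hv

/-- `(n : 𝓞 ℚ) ∈ v ↔ natGenerator v ∣ n`. -/
theorem natCast_mem_asIdeal_iff (v : HeightOneSpectrum (𝓞 ℚ)) (n : ℕ) :
    ((n : ℕ) : 𝓞 ℚ) ∈ v.asIdeal ↔ Rat.HeightOneSpectrum.natGenerator v ∣ n := by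
  rw [Rat.HeightOneSpectrum.natGenerator_dvd_iff,
    ← map_natCast (Rat.IsIntegralClosure.intEquiv (𝓞 ℚ)) n, Ideal.apply_mem_of_equiv_iff]

/-- the places of `S`, in the "divides" form (`= sUCI_ratSet S` of helper21). -/
theorem mem_placesS_iff (v : HeightOneSpectrum (𝓞 ℚ)) :
    v ∈ placesS S ↔ ∃ q ∈ S, (((q : Nat.Primes) : ℕ) : 𝓞 ℚ) ∈ v.asIdeal := by
  constructor
  · intro hv
    refine ⟨_, hv, ?_⟩
    rw [natCast_mem_asIdeal_iff]
    exact dvd_refl _
  · rintro ⟨q, hq, hqv⟩
    rw [natCast_mem_asIdeal_iff] at hqv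
    have h1 : Rat.HeightOneSpectrum.natGenerator v = (q : ℕ) :=
      (Nat.prime_dvd_prime_iff_eq (Rat.HeightOneSpectrum.prime_natGenerator v) q.2).1 hqv
    have h2 : Rat.HeightOneSpectrum.primesEquiv v = q := Subtype.ext h1
    show Rat.HeightOneSpectrum.primesEquiv v ∈ S
    rw [h2]; exact hq


end Level

end

end Fermat.Agent.PT
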