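import Fermat.Agent.CFT.PT.IdeleRepLevel
import Fermat.Agent.CFT.PT.IdeleLevel
import Fermat.Agent.CFT.Idele.Relative
import Fermat.Agent.CFT.Idele.ActionGen
import Fermat.Agent.CFT.Bridge.LevelQuot

set_option autoImplicit false
set_option linter.style.haveILetI false
set_option linter.unusedSectionVars false

/-!
# S55 GLOBAL C-side, (K0)/(K6) support (helper29): functoriality and equivariance of the
finite-level maps `ι_F = idL_iota F : ideleGroup ℚ F →* slProd` (helper5's `PT/IdeleRepLevel`)

Ring level (for ANY `f : L →ₐ[ℚ] Qb`, so independent of the chosen definition of `ι`):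
* `idLF_slBase_relSemiLocalMap` : `slBase v f ∘ (ℚ_v ⊗ M → ℚ_v ⊗ L) = slBase v (f ∘ (M → L))`;
* `idLF_slBase_smul` : `slBase v f (γ • z) = g • slBase v f z` whenever `f (γ • y) = g (f y)`.

Idele level, helper27's `idLevelHom f` (`PT/IdeleLevel`): `idLF_idLevelHom_relIdele(_of_eq)` (fact (2)),
`idLF_idLevelHom_smul`, `idLF_idLevelHom_gal_smul` (fact (4)); bridge
`idLF_idLevelHom_ratVal : idLevelHom (ratVal F) = idL_iota F`.

Idele level, helper5's `idL_iota F`:
* **fact (2)** `idLF_iota_relIdele` : `ι_F' (relIdele ℚ F F' y) = ι_F y` for `F ≤ F'`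
  (any algebra structure `F → F'` compatible with the inclusions into `Qb`);
* **fact (4)** `idLF_iota_smul` : `ι_F (γ • x) = g • ι_F x` for a generic group `G` acting on `F`
  (`ideleGroupActionOf`, e.g. `G = Gal(F/M)`, `γ = lvq_pi hU hUV v`, `g = v`), as soon as
  `((γ • y : F) : Qb) = g y`; `idLF_iota_gal_smul` (`G = Gal(F/ℚ)`, `IdeleAct` action),
  `idLF_iota_restrictNormal_smul` (`F/ℚ` normal, `γ = g.restrictNormal F`);
  `idLF_iota_lvq_pi_smul` : the (K6) shape, `γ = lvq_pi hU hUV v ∈ Gal(L/M)`, `g = v ∈ V`.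
-/

namespace Fermat.Agent.PT

open CategoryTheory Fermat.Agent.CFT IntermediateField NumberField IsDedekindDomain
  Fermat.Agent.CFT.S14
open scoped TensorProduct Fermat.Agent.CFT.TensorGal

local notation "Qb" => AlgebraicClosure ℚ
local notation "Γℚ" => (AlgebraicClosure ℚ ≃ₐ[ℚ] AlgebraicClosure ℚ)

attribute [local instance] Units.mulDistribMulActionRight slQbUnitsAction

noncomputable section

section Ring

variable {M L : Type} [Field M] [Field L] [Algebra ℚ M] [Algebra ℚ L] [Algebra M L]
  [IsScalarTower ℚ M L]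

/-- ring level: base change to `Qb` after the base change `ℚ_v ⊗ M → ℚ_v ⊗ L`. -/
theorem idLF_slBase_relTensorMap (v : HeightOneSpectrum (𝓞 ℚ)) (f : L →ₐ[ℚ] Qb)
    (z : (v.adicCompletion ℚ) ⊗[ℚ] M) :
    slBase v f (relTensorMap z) = slBase v (f.comp (IsScalarTower.toAlgHom ℚ M L)) z := by
  induction z using TensorProduct.induction_on with
  | zero => simp
  | tmul a y =>
    rw [relTensorMap_tmul, slBase_tmul, slBase_tmul]
    rfl
  | add x y hx hy => rw [map_add, map_add, hx, hy, map_add]

variable {G : Type} [Group G] [MulSemiringAction G L] [SMulCommClass G ℚ L]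

/-- ring level: base change intertwines the action of `γ` on `ℚ_v ⊗ L` with the action of `g` on
`ℚ_v ⊗ Qb` as soon as `f ∘ γ = g ∘ f`. -/
theorem idLF_slBase_smul (v : HeightOneSpectrum (𝓞 ℚ)) (f : L →ₐ[ℚ] Qb) (γ : G) (g : Γℚ)
    (h : ∀ y : L, f (γ • y) = g (f y)) (z : (v.adicCompletion ℚ) ⊗[ℚ] L) :
    slBase v f (tensorRightHom ℚ (v.adicCompletion ℚ) L G γ z) = g • slBase v f z := by
  induction z using TensorProduct.induction_on with
  | zero => simp
  | tmul a y =>
    rw [tensorRightHom_tmul, slBase_tmul, slBase_tmul, slQb_smul_tmul, h]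
  | add x y hx hy => rw [map_add, map_add, hx, hy, map_add, smul_add]

end Ring

section LevelHom

/-! ### helper27's `idLevelHom f` (generic `L`, `f : L →ₐ[ℚ] Qb`) -/

variable {M L : Type} [Field M] [NumberField M] [Field L] [NumberField L] [Algebra M L]

/-- **fact (2)** for `idLevelHom`: `ι_f ∘ relIdele = ι_{f ∘ (M → L)}`. -/
theorem idLF_idLevelHom_relIdele (f : L →ₐ[ℚ] Qb) (y : ideleGroup ℚ M) :
    idLevelHom f (relIdele ℚ M L y) = idLevelHom (f.comp (IsScalarTower.toAlgHom ℚ M L)) y := by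
  refine slProd_ext fun v => Units.ext ?_
  rw [idLevelHom_apply_val, idLevelHom_apply_val, relIdele_apply, Units.coe_map]
  exact idLF_slBase_relTensorMap v f _

/-- **fact (2)** for `idLevelHom`, with the composite embedding given by an equation. -/
theorem idLF_idLevelHom_relIdele_of_eq (f : L →ₐ[ℚ] Qb) (f' : M →ₐ[ℚ] Qb)
    (h : ∀ a : M, f (algebraMap M L a) = f' a) (y : ideleGroup ℚ M) :
    idLevelHom f (relIdele ℚ M L y) = idLevelHom f' y := by
  have hf : f.comp (IsScalarTower.toAlgHom ℚ M L) = f' := by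
    ext a
    exact h a
  rw [idLF_idLevelHom_relIdele, hf]

variable {G : Type} [Group G] [MulSemiringAction G L] [SMulCommClass G ℚ L]

/-- **fact (4)** for `idLevelHom`, generic group: `ι_f (γ • x) = g • ι_f x` whenever
`f ∘ γ = g ∘ f`. -/
theorem idLF_idLevelHom_smul (f : L →ₐ[ℚ] Qb) (γ : G) (g : Γℚ)
    (h : ∀ y : L, f (γ • y) = g (f y)) (x : ideleGroup ℚ L) :
    letI := ideleGroupActionOf ℚ L G
    idLevelHom f (γ • x) = g • idLevelHom f x := by
  letI := ideleGroupActionOf ℚ L G
  refine slProd_ext fun v => Units.ext ?_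
  rw [slProd_smul_apply, slQb_units_smul_val, idLevelHom_apply_val, idLevelHom_apply_val,
    ideleGroupActionOf_apply]
  exact idLF_slBase_smul v f γ g h _

/-- **fact (4)** for `idLevelHom` and `Gal(L/ℚ)` with the `IdeleAct` action of `Idele/Defs`
(`σ : L ≃ₐ[ℚ] L`, `g : Γℚ` with `f ∘ σ = g ∘ f`). -/
theorem idLF_idLevelHom_gal_smul (f : L →ₐ[ℚ] Qb) (σ : Gal(L/ℚ)) (g : Γℚ)
    (h : ∀ y : L, f (σ y) = g (f y)) (x : ideleGroup ℚ L) :
    letI := ideleGroupAction ℚ L
    idLevelHom f (σ • x) = g • idLevelHom f x := by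
  letI := ideleGroupAction ℚ L
  have h1 := idLF_idLevelHom_smul (G := Gal(L/ℚ)) f σ g h x
  have h2 : MulSemiringAction.toAlgAut Gal(L/ℚ) ℚ L σ = σ := by
    ext y
    rfl
  rw [ideleGroupActionOf_smul, h2] at h1
  exact h1

/-- the two finite-level maps agree: helper27's `idLevelHom (ratVal F)` is helper5's
`idL_iota F`. -/
theorem idLF_idLevelHom_ratVal (F : IntermediateField ℚ Qb) [NumberField F] :
    idLevelHom (ratVal F) = idL_iota F := by
  refine MonoidHom.ext fun x => slProd_ext fun v => Units.ext ?_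
  rw [idLevelHom_apply_val, idL_iota_apply, idL_baseUnits_val]
  generalize ((x.1 v : (semiLocal ℚ ↥F v)ˣ) : semiLocal ℚ ↥F v) = z
  induction z using TensorProduct.induction_on with
  | zero => simp
  | tmul a y =>
    rw [slBase_tmul]
    exact (slBase_tmul v F.val a y).symm
  | add x y hx hy => rw [map_add, hx, hy, ← map_add]

end LevelHom

section Rel

/-- **fact (2)**: `ι_F' ∘ relIdele = ι_F` for intermediate fields `F ≤ F'` of `Qb` (the algebra
structure `F → F'` being any one compatible with the inclusions into `Qb`, as in helper21's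
instance preamble). -/
theorem idLF_iota_relIdele (F F' : IntermediateField ℚ Qb) [NumberField F]
    [NumberField F'] [Algebra F F'] [IsScalarTower ℚ F F']
    (hc : ∀ a : F, ((algebraMap F F' a : F') : Qb) = (a : Qb)) (y : ideleGroup ℚ F) :
    idL_iota F' (relIdele ℚ F F' y) = idL_iota F y := by
  have hf : (F'.val).comp (IsScalarTower.toAlgHom ℚ ↥F ↥F') = F.val := by
    ext a
    exact hc a
  refine slProd_ext fun v => Units.ext ?_
  rw [idL_iota_apply, idL_iota_apply, idL_baseUnits_val, idL_baseUnits_val, relIdele_apply,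
    Units.coe_map]
  show slBase v F'.val (relTensorMap _) = _
  rw [idLF_slBase_relTensorMap]
  exact congrArg (fun f : ↥F →ₐ[ℚ] Qb => slBase v f ((y.1 v : (semiLocal ℚ ↥F v)ˣ) :
    semiLocal ℚ ↥F v)) hf

end Rel

section Equiv

variable (F : IntermediateField ℚ Qb) [NumberField F]
  {G : Type} [Group G] [MulSemiringAction G F] [SMulCommClass G ℚ F]

/-- **fact (4)**, generic group: `ι_F (γ • x) = g • ι_F x` whenever `γ` acts on `F` as `g` does on
`Qb`. -/
theorem idLF_iota_smul (γ : G) (g : Γℚ)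
    (h : ∀ y : F, ((γ • y : F) : Qb) = g (y : Qb)) (x : ideleGroup ℚ F) :
    letI := ideleGroupActionOf ℚ F G
    idL_iota F (γ • x) = g • idL_iota F x := by
  letI := ideleGroupActionOf ℚ F G
  refine slProd_ext fun v => Units.ext ?_
  rw [slProd_smul_apply, slQb_units_smul_val, idL_iota_apply, idL_iota_apply, idL_baseUnits_val,
    idL_baseUnits_val, ideleGroupActionOf_apply]
  exact idLF_slBase_smul v F.val γ g h _

end Equiv

section Gal

variable (F : IntermediateField ℚ Qb) [NumberField F]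

/-- **fact (4)** for `Gal(F/ℚ)` with the `IdeleAct` action of `Idele/Defs`. -/
theorem idLF_iota_gal_smul (σ : Gal(F/ℚ)) (g : Γℚ)
    (h : ∀ y : F, ((σ y : F) : Qb) = g (y : Qb)) (x : ideleGroup ℚ F) :
    letI := ideleGroupAction ℚ F
    idL_iota F (σ • x) = g • idL_iota F x := by
  letI := ideleGroupAction ℚ F
  have h1 := idLF_iota_smul F (G := Gal(F/ℚ)) σ g h x
  have h2 : MulSemiringAction.toAlgAut Gal(F/ℚ) ℚ F σ = σ := by
    ext y
    rfl
  rw [ideleGroupActionOf_smul, h2] at h1
  exact h1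

/-- **fact (4)** for a normal intermediate field `F` of `Qb`: `Γℚ` acts on the level `F` through
`AlgEquiv.restrictNormal`. -/
theorem idLF_iota_restrictNormal_smul [Normal ℚ F] (g : Γℚ) (x : ideleGroup ℚ F) :
    letI := ideleGroupAction ℚ F
    idL_iota F ((AlgEquiv.restrictNormal g F) • x) = g • idL_iota F x :=
  idLF_iota_gal_smul F (AlgEquiv.restrictNormal g F) g
    (fun y => AlgEquiv.restrictNormal_commutes g F y) x

end Gal

section Level

/-- **fact (4) in the (K6) shape**: for `U ∈ famS S`, `U ≤ V`, `M = fixedField V`,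
`L = fixedField U`, the element `v ∈ V` acts on `J_L` through `lvq_pi hU hUV v ∈ Gal(L/M)` as it
acts on `𝕁`. -/
theorem idLF_iota_lvq_pi_smul {S : Finset Nat.Primes} {U V : Subgroup Γℚ}
    (hU : U ∈ (famS S).sets) (hUV : U ≤ V) (v : ↥V) :
    letI := algebraOfLE (lvq_fixedField_le hUV)
    haveI := isScalarTower_of_le (lvq_fixedField_le hUV)
    haveI := lvq_numberField_fixedField S (lvq_isOpenFor_of_mem S hU)
    letI := ideleGroupActionOf ℚ (fixedField U) (fixedField U ≃ₐ[fixedField V] fixedField U)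
    ∀ x : ideleGroup ℚ (fixedField U),
      idL_iota (fixedField U) (lvq_pi hU hUV v • x) = (v : Γℚ) • idL_iota (fixedField U) x := by
  letI := algebraOfLE (lvq_fixedField_le hUV)
  haveI := isScalarTower_of_le (lvq_fixedField_le hUV)
  haveI := lvq_numberField_fixedField S (lvq_isOpenFor_of_mem S hU)
  intro x
  exact idLF_iota_smul (fixedField U) (lvq_pi hU hUV v) (v : Γℚ)
    (fun y => lvq_pi_apply hU hUV v y) x

end Level

end

end Fermat.Agent.PT
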