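/-
S55 engine (K6), ℂ half (helper28): the finite levels of `ℂ = idCRep S = 𝕁/𝕂`.

For `M ≤ L` finite subfields of `ℚ_S` (`L/ℚ` normal), `V = M.fixingSubgroup`,
`U = L.fixingSubgroup`: the morphism `φ : Res_π (idClassRep ℚ M L) ⟶ Res_V ℂ` induced by the
base change of ideles is injective with image the `U`-invariants, hence
`H^n(Gal(L/M), C_L) ≃ H^n(V ⧸ U, ℂ^U)`.
-/
import Fermat.Agent.CFT.PT.IdeleLevelFun
import Fermat.Agent.CFT.PT.ClassLevel
import Fermat.Agent.CFT.Bridge.LevelQuot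
import Fermat.Agent.CFT.Bridge.GlobalLevelInst

set_option autoImplicit false

namespace Fermat.Agent.PT

open IsDedekindDomain IsDedekindDomain.HeightOneSpectrum NumberField Fermat.Agent.CFT
  Fermat.Agent.CFT.S14 IntermediateField CategoryTheory groupCohomology Rep
open scoped Fermat.Agent.CFT.IdeleAct

local notation "Qb" => AlgebraicClosure ℚ
local notation "Γℚ" => (AlgebraicClosure ℚ ≃ₐ[ℚ] AlgebraicClosure ℚ)

attribute [local instance] sUF_isAlgebraicQb sUF_isAlgClosureQb sUF_isGaloisQb sUF_numberField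
  sUF_algebra sUF_isScalarTower sUF_isScalarTower' sUF_isGalois sUF_normal_alg'

variable (S : Finset Nat.Primes)

/-- the action of `Γℚ` on `𝕁 = JFull S`. -/
@[reducible] noncomputable def idLC_action : MulDistribMulAction Γℚ (JFull S) :=
  sqSubAction (JFull S) (isStableSub_JFull S)

attribute [local instance] idLC_action

theorem idLC_coe_smul (σ : Γℚ) (x : JFull S) : ((σ • x : JFull S) : slProd) = σ • (x : slProd) :=
  rfl

/-- `𝕂` as a subgroup of `𝕁`. -/
noncomputable def idLC_K : Subgroup (JFull S) := (idK S).subgroupOf (JFull S)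

theorem idLC_mem_K_iff (x : JFull S) : x ∈ idLC_K S ↔ (x : slProd) ∈ idK S := Subgroup.mem_subgroupOf

/-- the quotient map `𝕁 → ℂ`. -/
noncomputable def idLC_q : JFull S →* Multiplicative (idCRep S).V where
  toFun x := Multiplicative.ofAdd
    (sqMk (JFull S) (idK S) (isStableSub_JFull S) (isStableSub_idK S) x)
  map_one' := rfl
  map_mul' _ _ := rfl

theorem idLC_q_apply (x : JFull S) : idLC_q S x = Multiplicative.ofAdd
    (sqMk (JFull S) (idK S) (isStableSub_JFull S) (isStableSub_idK S) x) := rfl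

theorem idLC_q_eq_one_iff (x : JFull S) : idLC_q S x = 1 ↔ x ∈ idLC_K S := by
  rw [idLC_mem_K_iff, ← sqMk_eq_zero_iff (JFull S) (idK S) (isStableSub_JFull S) (isStableSub_idK S)]
  rfl

theorem idLC_q_smul (σ : Γℚ) (x : JFull S) :
    idLC_q S (σ • x) =
      Multiplicative.ofAdd ((idCRep S).ρ σ (Multiplicative.toAdd (idLC_q S x))) := rfl

theorem idLC_q_surjective : Function.Surjective (idLC_q S) := by
  intro a
  obtain ⟨x, hx⟩ := sqMk_surjective (JFull S) (idK S) (isStableSub_JFull S) (isStableSub_idK S)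
    (Multiplicative.toAdd a)
  exact ⟨x, congrArg Multiplicative.ofAdd hx⟩

section Level

variable {S}
variable (L : IntermediateField ℚ Qb) [FiniteDimensional ℚ L] (hL : L ≤ QS S)

include hL in
theorem idLC_fieldRange_le : (ratVal L).fieldRange ≤ QS S := by
  rw [fieldRange_ratVal]
  exact hL

/-- `ι_L : J_L → 𝕁`. -/
noncomputable def idLC_ι : ideleGroup ℚ L →* JFull S :=
  (idLevelHom (ratVal L)).codRestrict (JFull S)
    (fun x => idLevelHom_mem_JFull (ratVal L) S (idLC_fieldRange_le L hL) x)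

theorem idLC_coe_ι (z : ideleGroup ℚ L) : ((idLC_ι L hL z : JFull S) : slProd) = idLevelHom (ratVal L) z :=
  rfl

/-- (h3) -/
theorem idLC_ι_diagIdele_mem (b : (L : Type)ˣ) : idLC_ι L hL (diagIdele (K := ℚ) b) ∈ idLC_K S := by
  rw [idLC_mem_K_iff, idLC_coe_ι, idLevelHom_diagIdele, mem_idK_iff]
  refine ⟨_, ?_, rfl⟩
  rw [mem_QSU_iff]
  exact hL (b : L).2

/-- (h6) -/
theorem idLC_mem_principal_of_ι_mem (z : ideleGroup ℚ L) (h : idLC_ι L hL z ∈ idLC_K S) :
    z ∈ principalIdeles ℚ L :=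
  (idLevelHom_mem_idK_iff (ratVal L) S (idLC_fieldRange_le L hL) z).1 ((idLC_mem_K_iff S _).1 h)

/-- (h4) -/
theorem idLC_ι_smul [Normal ℚ L] (σ : Γℚ) (z : ideleGroup ℚ L) :
    idLC_ι L hL ((σ.restrictNormal L : L ≃ₐ[ℚ] L) • z) = σ • idLC_ι L hL z := by
  apply Subtype.ext
  rw [idLC_coe_smul, idLC_coe_ι, idLC_coe_ι]
  exact idLF_idLevelHom_gal_smul (ratVal L) (σ.restrictNormal L) σ
    (fun y => AlgEquiv.restrictNormal_commutes σ L y) z

/-- (h2) -/
theorem idLC_ι_relIdele {F : IntermediateField ℚ Qb} [hLF : Fact (L ≤ F)] [FiniteDimensional ℚ F]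
    (hF : F ≤ QS S) (z : ideleGroup ℚ L) :
    idLC_ι F hF (relIdele ℚ L F z) = idLC_ι L hL z := by
  apply Subtype.ext
  rw [idLC_coe_ι, idLC_coe_ι]
  exact idLF_idLevelHom_relIdele_of_eq (ratVal F) (ratVal L) (fun _ => rfl) z

end Level

section Cover

variable {S}

/-- **(F5)** every element of `𝕁` comes from a finite normal level containing a given level. -/
theorem idLC_exists_level (x : JFull S) (L : IntermediateField ℚ Qb) [FiniteDimensional ℚ L]
    (hL : L ≤ QS S) :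
    ∃ (F : IntermediateField ℚ Qb) (_ : FiniteDimensional ℚ F) (_ : Normal ℚ F) (_ : L ≤ F)
      (hF : F ≤ QS S) (y : ideleGroup ℚ F), idLC_ι F hF y = x := by
  obtain ⟨⟨U, ⟨K, hK, -, rfl⟩, hfix⟩, hint⟩ := x.2
  have hLu : L.IsUnramifiedOutside S := (le_QS_iff S L).1 hL
  obtain ⟨F, hle, hFu, hFn⟩ := hasNormalEnlargement S (K ⊔ L) (hK.sup hLu)
  haveI : FiniteDimensional ℚ F := hFu.1
  haveI : IsGalois ℚ F := (InfiniteGalois.normal_iff_isGalois F).1 hFn
  have hF : F ≤ QS S := le_QS_of_isUnramifiedOutside S hFu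
  obtain ⟨y, hy⟩ := exists_idLevelHom_eq_of_forall_smul_eq S F (ratVal F) (fun _ => rfl) x.2
    (fun u hu => hfix u
      (IntermediateField.fixingSubgroup_antitone (le_sup_left.trans hle) hu))
  exact ⟨F, inferInstance, inferInstance, le_sup_right.trans hle, hF, y, Subtype.ext hy⟩

/-- (hinv) an element of `𝕁` whose class in `ℂ` is fixed by `L.fixingSubgroup` lies in
`ι_L(J_L) · 𝕂`. -/
theorem idLC_exists_of_invariant (L : IntermediateField ℚ Qb) [FiniteDimensional ℚ L]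
    (hL : L ≤ QS S) (x : JFull S) (hx : ∀ σ ∈ L.fixingSubgroup, σ • x / x ∈ idLC_K S) :
    ∃ z : ideleGroup ℚ L, ∃ k ∈ idLC_K S, x = idLC_ι L hL z * k := by
  obtain ⟨F, hFfin, hFn, hLF, hF, y, rfl⟩ := idLC_exists_level x L hL
  haveI : Fact (L ≤ F) := ⟨hLF⟩
  exact clsLvl_exists_of_invariant (idLC_K S) (idLC_ι L hL) (idLC_ι F hF)
    (idLC_ι_relIdele L hL hF) (idLC_ι_diagIdele_mem F hF) (idLC_ι_smul F hF)
    (idLC_mem_principal_of_ι_mem F hF) y hx

end Cover

section Final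

variable {S}
variable {M L : IntermediateField ℚ Qb} [hML : Fact (M ≤ L)] [FiniteDimensional ℚ M]
  [FiniteDimensional ℚ L] [Normal ℚ L] (hL : L ≤ QS S)

/-- the map `C_L → ℂ` (multiplicative form). -/
noncomputable def idLC_hom (L : IntermediateField ℚ Qb) [FiniteDimensional ℚ L] (hL : L ≤ QS S) :
    ideleClass ℚ L →* Multiplicative (idCRep S).V :=
  clsLvl_hom (idLC_K S) (idCRep S) (idLC_q S) (idLC_q_eq_one_iff S) (idLC_ι L hL)
    (idLC_ι_diagIdele_mem L hL)

/-- **(K6), ℂ half**: `φ : Res_π (idClassRep ℚ M L) ⟶ Res_V ℂ`, `V = M.fixingSubgroup`,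
`π = relRestrict : V ↠ Gal(L/M)`. -/
noncomputable def idLC_φ :
    res (relRestrict hML.out) (idClassRep ℚ M L) ⟶ res M.fixingSubgroup.subtype (idCRep S) :=
  clsLvl_φ (idLC_K S) (idCRep S) (idLC_q S) (idLC_q_eq_one_iff S) (idLC_q_smul S) (idLC_ι L hL)
    (idLC_ι_diagIdele_mem L hL) (idLC_ι_smul L hL)

theorem idLC_hom_mk (L : IntermediateField ℚ Qb) [FiniteDimensional ℚ L] (hL : L ≤ QS S)
    (z : ideleGroup ℚ L) :
    idLC_hom L hL (z : ideleClass ℚ L) = Multiplicative.ofAdd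
      (sqMk (JFull S) (idK S) (isStableSub_JFull S) (isStableSub_idK S) (idLC_ι L hL z)) := rfl

/-- apply lemma: `φ [z] = class of ι_L z`. -/
theorem idLC_φ_apply_mk (z : ideleGroup ℚ L) :
    (idLC_φ (M := M) hL).hom (Additive.ofMul (z : ideleClass ℚ L)) =
      sqMk (JFull S) (idK S) (isStableSub_JFull S) (isStableSub_idK S) (idLC_ι L hL z) := rfl

theorem idLC_φ_apply (c : Additive (ideleClass ℚ L)) :
    (idLC_φ (M := M) hL).hom c = Multiplicative.toAdd (idLC_hom L hL (Additive.toMul c)) := rfl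

theorem idLC_φ_injective : Function.Injective (idLC_φ (M := M) hL).hom :=
  clsLvl_φ_injective (idLC_K S) (idCRep S) (idLC_q S) (idLC_q_eq_one_iff S) (idLC_q_smul S)
    (idLC_ι L hL) (idLC_ι_diagIdele_mem L hL) (idLC_mem_principal_of_ι_mem L hL) (idLC_ι_smul L hL)

theorem idLC_φ_range (a : (idCRep S).V)
    (ha : ∀ s ∈ L.fixingSubgroup.subgroupOf M.fixingSubgroup,
      (res M.fixingSubgroup.subtype (idCRep S)).ρ s a = a) :
    ∃ c, (idLC_φ (M := M) hL).hom c = a :=
  clsLvl_φ_range (idLC_K S) (idCRep S) (idLC_q S) (idLC_q_eq_one_iff S) (idLC_q_smul S)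
    (idLC_ι L hL) (idLC_ι_diagIdele_mem L hL) (idLC_q_surjective S)
    (idLC_exists_of_invariant L hL) (idLC_ι_smul L hL) a ha

/-- **(K6), ℂ half**: `H^n(Gal(L/M), C_L) ≃ H^n(V ⧸ U, ℂ^U)`. -/
noncomputable def idLC_equiv [(L.fixingSubgroup.subgroupOf M.fixingSubgroup).Normal] (n : ℕ) :
    groupCohomology (idClassRep ℚ M L) n ≃ₗ[ℤ]
      groupCohomology ((res M.fixingSubgroup.subtype (idCRep S)).quotientToInvariants
        (L.fixingSubgroup.subgroupOf M.fixingSubgroup)) n :=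
  clsLvl_equiv (idLC_K S) (idCRep S) (idLC_q S) (idLC_q_eq_one_iff S) (idLC_q_smul S)
    (idLC_ι L hL) (idLC_ι_diagIdele_mem L hL) (idLC_mem_principal_of_ι_mem L hL)
    (idLC_q_surjective S) (idLC_exists_of_invariant L hL) (idLC_ι_smul L hL) n

end Final

section Plug

variable {S}

/-- **(K6), ℂ half, in the shape of `PT/LevelPlug`** (`lvP_eq_zero_of_nsmul`, `lvP_card_le`,
`lvP_subsingleton`): for `V = M.fixingSubgroup` the levels `L.fixingSubgroup ∩ V`, `L ⊇ M` finite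
normal in `ℚ_S`, are cofinal and identified with `idClassRep ℚ M L`. -/
theorem idLC_levels (M : IntermediateField ℚ Qb) [FiniteDimensional ℚ M] (hM : M ≤ QS S)
    (P : ∀ (Q : Type) [Group Q], Rep.{0} ℤ Q → Prop)
    (hP : ∀ (L : IntermediateField ℚ Qb) [Fact (M ≤ L)] [FiniteDimensional ℚ L] [Normal ℚ L],
      L ≤ QS S → P (L ≃ₐ[M] L) (idClassRep ℚ M L))
    (U : ↥((famS S).restrict M.fixingSubgroup).sets) :
    ∃ V : ↥((famS S).restrict M.fixingSubgroup).sets,
      (V : Subgroup M.fixingSubgroup) ≤ U ∧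
      ∃ (Q : Type) (_ : Group Q) (A' : Rep.{0} ℤ Q) (π : M.fixingSubgroup →* Q)
        (φ : res π A' ⟶ res M.fixingSubgroup.subtype (idCRep S)),
        Function.Surjective π ∧ π.ker = (V : Subgroup M.fixingSubgroup) ∧
        Function.Injective φ.hom ∧
        (∀ a : res M.fixingSubgroup.subtype (idCRep S),
          (∀ s ∈ (V : Subgroup M.fixingSubgroup),
            (res M.fixingSubgroup.subtype (idCRep S)).ρ s a = a) → ∃ a' : A', φ.hom a' = a) ∧
        P Q A' := by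
  obtain ⟨U, U₀, ⟨K₀, hK₀, -, rfl⟩, rfl⟩ := U
  have hMu : M.IsUnramifiedOutside S := (le_QS_iff S M).1 hM
  obtain ⟨L, hle, hLu, hLn⟩ := hasNormalEnlargement S (K₀ ⊔ M) (hK₀.sup hMu)
  haveI : FiniteDimensional ℚ L := hLu.1
  haveI : IsGalois ℚ L := (InfiniteGalois.normal_iff_isGalois L).1 hLn
  have hL : L ≤ QS S := le_QS_of_isUnramifiedOutside S hLu
  haveI hML : Fact (M ≤ L) := ⟨le_sup_right.trans hle⟩
  refine ⟨⟨L.fixingSubgroup.subgroupOf M.fixingSubgroup, L.fixingSubgroup, ⟨L, hLu, hLn, rfl⟩, rfl⟩,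
    ?_, L ≃ₐ[M] L, inferInstance, idClassRep ℚ M L, relRestrict hML.out, idLC_φ (M := M) hL,
    relRestrict_surjective hML.out, relRestrict_ker hML.out, idLC_φ_injective hL,
    fun a ha => idLC_φ_range hL a ha, hP L hL⟩
  exact Subgroup.subgroupOf_mono _
    (IntermediateField.fixingSubgroup_antitone (le_sup_left.trans hle))

end Plug

end Fermat.Agent.PT
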