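import Fermat.Agent.CFT.PT.IdeleLevelNorm
import Fermat.Agent.CFT.PT.IdeleLevelC
import Fermat.Agent.CFT.PT.Contracts
import Fermat.Agent.CFT.Bridge.LevelQuot
import Fermat.Agent.CFT.Bridge.LevelQuotRel
import Fermat.Agent.CFT.PT.PlacesGlue

set_option autoImplicit false
set_option linter.unusedSectionVars false
set_option linter.style.haveILetI false

/-!
# S55 (K9), input (hFIℂ): the first inequality for `ℂ = idCRep S` on a cyclic layer of `famS S`

(helper12, second engine for helper17's `PT/CFITransfer.lean`; own prefix `cfiCB_`, no overlap.)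

`M ≤ L` finite subfields of `ℚ_S`, `ζ_p ∈ M`, `L / M` cyclic of odd prime degree `p` with generator
`σb` lifted by `σ ∈ Γℚ`.  Some `G_M`-invariant class of `ℂ` is not `∑_{i<p} σ^i x'` with `x'`
`G_L`-invariant: the class of `ι_M ξ`, `ξ ∉ Mˣ · N J_L` (helper9's `idUN_exists_pow_not_mem`);
the `G_L`-invariants of `ℂ` come from `C_L` (helper28's `idLC_exists_of_invariant`), the norm is
computed by helper9's `idLN_norm_pow_ratVal` and `ι_M⁻¹ 𝕂 = Mˣ` (helper27).

* `cfiCB_sum_ρ_sqMk` (generic), `cfiCB_class_not_norm` (intermediate-field form);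
* **`cfiCB_hFI`** : the hypothesis `hFI` of helper26's `cfiP_hFI_all`, verbatim.
-/

namespace Fermat.Agent.PT

open CategoryTheory Fermat.Agent.CFT Fermat.Agent.CFT.S14 IntermediateField NumberField
  IsDedekindDomain ExtCitation
open scoped TensorProduct Fermat.Agent.CFT.TensorGal Fermat.Agent.CFT.IdeleAct

local notation "Qb" => AlgebraicClosure ℚ
local notation "Γℚ" => (AlgebraicClosure ℚ ≃ₐ[ℚ] AlgebraicClosure ℚ)

attribute [local instance] Units.mulDistribMulActionRight
attribute [local instance] slQbUnitsAction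

noncomputable section

section Generic

variable {G : Type} [Group G] {X : Type} [CommGroup X] [MulDistribMulAction G X]
  (A B : Subgroup X) (hA : IsStableSub G A) (hB : IsStableSub G B)

/-- a sum of translates of a class of `A / B` is the class of the product. -/
theorem cfiCB_sum_ρ_sqMk (s : Finset ℕ) (σ : G) (z : ↥A) :
    ∑ i ∈ s, (sqRep A B hA hB).ρ (σ ^ i) (sqMk A B hA hB z) =
      sqMk A B hA hB ⟨∏ i ∈ s, σ ^ i • (z : X),
        Subgroup.prod_mem _ fun i _ => hA (σ ^ i) _ z.2⟩ := by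
  classical
  induction s using Finset.induction_on with
  | empty =>
    simp only [Finset.sum_empty, Finset.prod_empty]
    exact (sqMk_one A B hA hB).symm
  | insert a s ha ih =>
    rw [Finset.sum_insert ha, ih, sqRep_ρ_sqMk, ← sqMk_mul]
    refine congrArg _ (Subtype.ext ?_)
    exact (Finset.prod_insert (f := fun i => σ ^ i • (z : X)) ha).symm

end Generic

variable (S : Finset Nat.Primes)

section Fields

attribute [local instance] sUF_numberField sUF_algebra sUF_isScalarTower sUF_isScalarTower'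
  idLC_action

variable {M L : IntermediateField ℚ Qb} [hML : Fact (M ≤ L)]
  [FiniteDimensional ℚ M] [FiniteDimensional ℚ L] [IsGalois M L]

/-- **(hFIℂ), intermediate-field form.** -/
theorem cfiCB_class_not_norm {p : ℕ} (hp : p.Prime) (hp2 : p ≠ 2)
    (hL : L.IsUnramifiedOutside S) {ζ : M} (hζ : IsPrimitiveRoot ζ p)
    (hcard : Nat.card Gal(L/M) = p) (σ : Γℚ) (σb : Gal(L/M))
    (h : ∀ y : L, ((σb y : L) : Qb) = σ (y : Qb)) (hgen : ∀ τ, τ ∈ Subgroup.zpowers σb) :
    ∃ x : idCRep S, (∀ g ∈ M.fixingSubgroup, (idCRep S).ρ g x = x) ∧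
      ∀ x' : idCRep S, (∀ u ∈ L.fixingSubgroup, (idCRep S).ρ u x' = x') →
        ∑ i ∈ Finset.range p, (idCRep S).ρ (σ ^ i) x' ≠ x := by
  obtain ⟨ξ, hξ, -⟩ := idUN_exists_pow_not_mem (K := ℚ) (M := M) (L := L) hp hp2 hζ hcard
    (placesS S) (fun w hw x => urVG_hval_placesS S L hL w hw x)
  have hLS : L ≤ QS S := le_QS_of_isUnramifiedOutside S hL
  have hMS : M ≤ QS S := hML.out.trans hLS
  refine ⟨sqMk (JFull S) (idK S) (isStableSub_JFull S) (isStableSub_idK S) (idLC_ι M hMS ξ),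
    fun g hg => ?_, fun x' hx' hsum => hξ ?_⟩
  · rw [sqRep_ρ_sqMk]
    refine congrArg _ (Subtype.ext ?_)
    show g • idLevelHom (ratVal M) ξ = idLevelHom (ratVal M) ξ
    refine smul_idLevelHom_of_mem_fixingSubgroup (ratVal M) ?_ ξ
    rw [fieldRange_ratVal]; exact hg
  · obtain ⟨a, rfl⟩ := sqMk_surjective (JFull S) (idK S) (isStableSub_JFull S)
      (isStableSub_idK S) x'
    have hinv : ∀ u ∈ L.fixingSubgroup, u • a / a ∈ idLC_K S := by
      intro u hu
      have h1 := hx' u hu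
      rw [sqRep_ρ_sqMk, sqMk_eq_iff] at h1
      rw [idLC_mem_K_iff]
      have h2 := (idK S).inv_mem h1
      rw [mul_inv_rev, inv_inv, mul_comm] at h2
      exact h2
    obtain ⟨z, k, hk, hak⟩ := idLC_exists_of_invariant L hLS a hinv
    rw [idLC_mem_K_iff] at hk
    rw [cfiCB_sum_ρ_sqMk, sqMk_eq_iff] at hsum
    -- the product of the translates
    have hprod : ∏ i ∈ Finset.range p, σ ^ i • (a : slProd) =
        idLevelHom (ratVal M) (relIdeleNorm ℚ M L z) *
          ∏ i ∈ Finset.range p, σ ^ i • (k : slProd) := by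
      rw [idLN_norm_pow_ratVal σ σb h hgen z, hcard, ← Finset.prod_mul_distrib]
      refine Finset.prod_congr rfl fun i _ => ?_
      rw [← smul_mul', hak]
      rfl
    have hkprod : ∏ i ∈ Finset.range p, σ ^ i • (k : slProd) ∈ idK S :=
      Subgroup.prod_mem _ fun i _ => isStableSub_idK S (σ ^ i) _ hk
    have h3 : (idLevelHom (ratVal M) (relIdeleNorm ℚ M L z))⁻¹ * idLevelHom (ratVal M) ξ ∈
        idK S := by
      have h4 : (∏ i ∈ Finset.range p, σ ^ i • (a : slProd))⁻¹ *
          idLevelHom (ratVal M) ξ ∈ idK S := hsum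
      have h5 := (idK S).mul_mem hkprod h4
      rw [hprod] at h5
      have h6 : (∏ i ∈ Finset.range p, σ ^ i • (k : slProd)) *
          ((idLevelHom (ratVal M) (relIdeleNorm ℚ M L z) *
            ∏ i ∈ Finset.range p, σ ^ i • (k : slProd))⁻¹ * idLevelHom (ratVal M) ξ) =
          (idLevelHom (ratVal M) (relIdeleNorm ℚ M L z))⁻¹ * idLevelHom (ratVal M) ξ := by
        rw [mul_inv_rev]
        group
      rw [h6] at h5
      exact h5
    rw [← map_inv, ← map_mul,
      idLevelHom_mem_idK_iff (ratVal M) S (idLC_fieldRange_le M hMS)] at h3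
    have h7 : ξ = ((relIdeleNorm ℚ M L z)⁻¹ * ξ) * relIdeleNorm ℚ M L z := by
      rw [mul_comm, mul_inv_cancel_left]
    rw [h7]
    exact Subgroup.mul_mem_sup h3 ⟨z, rfl⟩

end Fields

section Groups

attribute [local instance] sUF_numberField sUF_algebra sUF_isScalarTower sUF_isScalarTower'
  sUF_isAlgebraicQb sUF_isAlgClosureQb sUF_isGaloisQb

variable {S}

/-- **(hFIℂ), group form**: `V' ≤ V` open for `famS S`, `V` cyclo-trivial, `V'` normal in `V` of
odd prime index `p`, `σ ∈ V ∖ V'`. -/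
theorem cfiCB_class_not_norm_of_open {p : ℕ} [hp : Fact p.Prime] (hp2 : p ≠ 2)
    {V V' : Subgroup Γℚ} (hV : IsOpenFor (famS S) V) (hcyc : ∀ s ∈ V, cycloChar p s = 1)
    (hle : V' ≤ V) (hn : (V'.subgroupOf V).Normal)
    (hV' : IsOpenFor (famS S) V') (hidx : V'.relIndex V = p) {σ : Γℚ} (hσV : σ ∈ V)
    (hσV' : σ ∉ V') :
    ∃ x : idCRep S, (∀ g ∈ V, (idCRep S).ρ g x = x) ∧
      ∀ x' : idCRep S, (∀ u ∈ V', (idCRep S).ρ u x' = x') →
        ∑ i ∈ Finset.range p, (idCRep S).ρ (σ ^ i) x' ≠ x := by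
  have hN : IsOpen (V' : Set Γℚ) := lvq_isOpen_of_isOpenFor S hV'
  haveI hML : Fact (fixedField V ≤ fixedField V') := ⟨fixedField_le_of_le hle⟩
  haveI : FiniteDimensional ℚ (fixedField V) := lvq_finiteDimensional_fixedField S hV
  haveI : FiniteDimensional ℚ (fixedField V') := lvq_finiteDimensional_fixedField S hV'
  haveI : IsGalois (fixedField V) (fixedField V') := lvqR_isGalois hle hn hN
  have hcard : Nat.card Gal(fixedField V'/fixedField V) = p := (lvqR_card_gal hle hn hN).trans hidx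
  have hL : (fixedField V').IsUnramifiedOutside S := lvq_isUnramifiedOutside_fixedField S hV'
  have hfixV : (fixedField V).fixingSubgroup = V := lvq_fixingSubgroup_fixedField S hV
  obtain ⟨ζ, hζ⟩ := plg_exists_primitiveRoot p (fixedField V)
    (fun s hs => hcyc s (hfixV ▸ hs))
  obtain ⟨x, hx, hx'⟩ := cfiCB_class_not_norm S hp.out hp2 hL hζ hcard σ
    (lvqR_pi hle hn ⟨σ, hσV⟩) (fun y => lvqR_pi_apply hle hn ⟨σ, hσV⟩ y)
    (lvqR_mem_zpowers hle hn hN hp.out hidx hσV hσV')
  refine ⟨x, fun g hg => hx g (by rwa [hfixV]), fun x' hinv => hx' x' fun u hu => hinv u ?_⟩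
  rwa [lvq_fixingSubgroup_fixedField S hV'] at hu

/-- **(hFIℂ)**, the hypothesis `hFI` of `cfiP_hFI_all`, verbatim. -/
theorem cfiCB_hFI (p : ℕ) [hp : Fact p.Prime] (hp2 : p ≠ 2) :
    ∀ V : Subgroup Γℚ, IsCycloLevel p S V → ∀ V' : Subgroup Γℚ, V' ≤ V →
      (V'.subgroupOf V).Normal → IsOpenFor (famS S) V' → V'.relIndex V = p → ∀ σ ∈ V, σ ∉ V' →
      ∃ x : idCRep S, (∀ g ∈ V, (idCRep S).ρ g x = x) ∧
        ∀ x' : idCRep S, (∀ u ∈ V', (idCRep S).ρ u x' = x') →
          ∑ i ∈ Finset.range p, (idCRep S).ρ (σ ^ i) x' ≠ x :=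
  fun V hV _ hle hn hV' hidx _ hσV hσV' =>
    cfiCB_class_not_norm_of_open hp2 ⟨V, hV.1, le_rfl⟩ hV.2 hle hn hV' hidx hσV hσV'

end Groups

end

end Fermat.Agent.PT
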