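/-
S55, GLOBAL C-side, (K7b) in abstract form (helper26).

Setting: a group `G` with a level family `𝔉` of finite index, a prime `p`, two short exact
sequences of `Rep ℤ G`

  `X : 0 → 𝕌 → ℂ → ℂ_S → 0`   and   `Y : 0 → C' → ℂ_S → Cl_∞ → 0`

(with smooth middle terms, and the middle term of `Y` *equal* to the right term of `X`), with
(a) `Cl_∞` prime-to-`p` torsion, (b) `Hlcⁿ⁺¹(𝕌)` without `p`-torsion for all `n`,
(c) `Hlc¹(ℂ)` without `p`-torsion, (d) `Hlc²(ℂ)[p]` of order at most `p`.  Then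
`Hlc¹(C')` has no `p`-torsion (`csA_CA1`) and `Hlc²(C')[p]` has order at most `p` (`csA_CA5`);
the same after restriction to an arbitrary subgroup `V` (`csA_CA1_res`, `csA_CA5_res`).

All names are prefixed `csA_`.
-/
import Fermat.Agent.CFT.PT.CoprimeTorsion
import Fermat.Agent.CFT.PT.SmoothRestrict

set_option autoImplicit false

namespace Fermat.Agent.PT

open CategoryTheory groupCohomology Rep

section Algebra

/-- Bezout in `ℕ`, in the form used here. -/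
theorem csA_exists_mul_eq {m p : ℕ} (hm : Nat.Coprime m p) (hp : 1 < p) :
    ∃ a t : ℕ, a * m = 1 + t * p := by
  obtain ⟨a, -, ha⟩ := Nat.exists_mul_mod_eq_one_of_coprime hm hp
  refine ⟨a, m * a / p, ?_⟩
  have h1 := Nat.div_add_mod (m * a) p
  rw [ha] at h1
  calc a * m = m * a := mul_comm _ _
    _ = p * (m * a / p) + 1 := h1.symm
    _ = 1 + m * a / p * p := by ring

variable {A : Type*} [AddCommGroup A]

theorem csA_eq_zero_of_coprime {m p : ℕ} (hm : Nat.Coprime m p) (hp : 1 < p) {x : A}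
    (h1 : m • x = 0) (h2 : p • x = 0) : x = 0 := by
  obtain ⟨a, t, hat⟩ := csA_exists_mul_eq hm hp
  have h3 : (a * m) • x = x := by
    rw [hat, add_smul, one_smul, mul_smul, h2, smul_zero, add_zero]
  rw [← h3, mul_smul, h1, smul_zero]

theorem csA_eq_zero_of_pow_nsmul (p : ℕ) (hA : ∀ x : A, p • x = 0 → x = 0) (e : ℕ) {x : A}
    (hx : p ^ e • x = 0) : x = 0 := by
  induction e with
  | zero => simpa using hx
  | succ e ih =>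
    apply ih
    apply hA
    rw [← mul_smul, ← pow_succ']
    exact hx

/-- a torsion element of a group without `p`-torsion is killed by an integer prime to `p`. -/
theorem csA_exists_coprime_nsmul {p : ℕ} (hp : p.Prime) (hA : ∀ x : A, p • x = 0 → x = 0)
    {x : A} {N : ℕ} (hN0 : N ≠ 0) (hN : N • x = 0) :
    ∃ m : ℕ, Nat.Coprime m p ∧ m • x = 0 := by
  obtain ⟨e, N', hN', rfl⟩ := Nat.exists_eq_pow_mul_and_not_dvd hN0 p hp.ne_one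
  refine ⟨N', ((Nat.Prime.coprime_iff_not_dvd hp).2 hN').symm, ?_⟩
  apply csA_eq_zero_of_pow_nsmul p hA e
  rw [← mul_smul]
  exact hN

variable {U₁ C₁ S₁ U₂ : Type*} [AddCommGroup U₁] [AddCommGroup C₁] [AddCommGroup S₁]
  [AddCommGroup U₂] {F₁ F₂ F₃ : Type*} [FunLike F₁ U₁ C₁] [AddMonoidHomClass F₁ U₁ C₁]
  [FunLike F₂ C₁ S₁] [AddMonoidHomClass F₂ C₁ S₁] [FunLike F₃ S₁ U₂] [AddMonoidHomClass F₃ S₁ U₂]

/-- **Claim 2 (lifting of `p`-torsion).** In an exact sequence `U₁ → C₁ → S₁ → U₂` with `U₁`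
torsion without `p`-torsion and `U₂` without `p`-torsion, every `p`-torsion element of `S₁` is the
image of a `p`-torsion element of `C₁`. -/
theorem csA_exists_torsion_lift {p : ℕ} (hp : p.Prime) (f : F₁) (g : F₂) (δ : F₃)
    (hex₁ : ∀ y : C₁, g y = 0 → ∃ u : U₁, f u = y) (hex₂ : ∀ x : S₁, δ x = 0 → ∃ y : C₁, g y = x)
    (htors : ∀ u : U₁, ∃ N : ℕ, N ≠ 0 ∧ N • u = 0)
    (hU₁ : ∀ u : U₁, p • u = 0 → u = 0) (hU₂ : ∀ u : U₂, p • u = 0 → u = 0)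
    (x : S₁) (hx : p • x = 0) : ∃ y : C₁, p • y = 0 ∧ g y = x := by
  have h1 : δ x = 0 := hU₂ _ (by rw [← map_nsmul, hx, map_zero])
  obtain ⟨y, rfl⟩ := hex₂ x h1
  obtain ⟨u, hu⟩ := hex₁ (p • y) (by rw [map_nsmul, hx])
  obtain ⟨N, hN0, hN⟩ := htors u
  obtain ⟨m, hm, hmu⟩ := csA_exists_coprime_nsmul hp hU₁ hN0 hN
  obtain ⟨a, t, hat⟩ := csA_exists_mul_eq hm hp.one_lt
  refine ⟨(a * m) • y, ?_, ?_⟩
  · rw [smul_comm, ← hu, mul_smul, ← map_nsmul, ← map_nsmul, hmu, smul_zero, map_zero]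
  · rw [map_nsmul, hat, add_smul, one_smul, mul_smul, hx, smul_zero, add_zero]

/-- **Claim 1.** In an exact sequence `U₁ → C₁ → S₁ → U₂` with `U₁` torsion without `p`-torsion,
`U₂` and `C₁` without `p`-torsion, `S₁` has no `p`-torsion. -/
theorem csA_noTorsion_of_exact {p : ℕ} (hp : p.Prime) (f : F₁) (g : F₂) (δ : F₃)
    (hex₁ : ∀ y : C₁, g y = 0 → ∃ u : U₁, f u = y) (hex₂ : ∀ x : S₁, δ x = 0 → ∃ y : C₁, g y = x)
    (htors : ∀ u : U₁, ∃ N : ℕ, N ≠ 0 ∧ N • u = 0)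
    (hU₁ : ∀ u : U₁, p • u = 0 → u = 0) (hU₂ : ∀ u : U₂, p • u = 0 → u = 0)
    (hC₁ : ∀ y : C₁, p • y = 0 → y = 0) : ∀ x : S₁, p • x = 0 → x = 0 := by
  intro x hx
  obtain ⟨y, hy, rfl⟩ := csA_exists_torsion_lift hp f g δ hex₁ hex₂ htors hU₁ hU₂ x hx
  rw [hC₁ y hy, map_zero]

omit [AddMonoidHomClass F₂ C₁ S₁] in
/-- the order bound is inherited along a map which is onto on `p`-torsion. -/
theorem csA_card_le_of_torsion_lift {p : ℕ} (g : F₂)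
    (hlift : ∀ x : S₁, p • x = 0 → ∃ y : C₁, p • y = 0 ∧ g y = x)
    (hC : ∀ s : Finset C₁, (∀ c ∈ s, p • c = 0) → s.card ≤ p) :
    ∀ s : Finset S₁, (∀ c ∈ s, p • c = 0) → s.card ≤ p := by
  classical
  intro s hs
  choose! φ hφ using hlift
  have hinj : Set.InjOn φ s := by
    intro x hx x' hx' hxx'
    rw [← (hφ x (hs x hx)).2, hxx', (hφ x' (hs x' hx')).2]
  rw [← Finset.card_image_of_injOn hinj]
  apply hC
  intro c hc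
  obtain ⟨x, hx, rfl⟩ := Finset.mem_image.1 hc
  exact (hφ x (hs x hx)).1

/-- the order bound is inherited along a map which is injective on `p`-torsion. -/
theorem csA_card_le_of_injOn {p : ℕ} (f : F₁)
    (hinj : ∀ x : U₁, p • x = 0 → f x = 0 → x = 0)
    (hY : ∀ s : Finset C₁, (∀ c ∈ s, p • c = 0) → s.card ≤ p) :
    ∀ s : Finset U₁, (∀ c ∈ s, p • c = 0) → s.card ≤ p := by
  classical
  intro s hs
  have hinj' : Set.InjOn f s := by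
    intro x hx x' hx' hxx'
    have h1 := hinj (x - x') (by rw [smul_sub, hs x hx, hs x' hx', sub_zero])
      (by rw [map_sub, hxx', sub_self])
    exact sub_eq_zero.1 h1
  rw [← Finset.card_image_of_injOn hinj']
  apply hY
  intro c hc
  obtain ⟨x, hx, rfl⟩ := Finset.mem_image.1 hc
  rw [← map_nsmul, hs x hx, map_zero]

end Algebra

section Hlc

variable {G : Type} [Group G] {𝔉 : LevelFamily G} (hfin : 𝔉.FiniteIndex) (p : ℕ)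

section StepOne

variable [hp : Fact p.Prime] {X : ShortComplex (Rep.{0} ℤ G)} (hX : X.ShortExact)
  (hsm : IsSmooth 𝔉 X.X₂)

include hfin hX hsm in
/-- **Step 1, lifting.** If `Hlcⁿ⁺¹(X₁)` and `Hlcⁿ⁺²(X₁)` have no `p`-torsion, every `p`-torsion
class of `Hlcⁿ⁺¹(X₃)` comes from a `p`-torsion class of `Hlcⁿ⁺¹(X₂)`. -/
theorem csA_exists_torsion_lift_X₃ (n : ℕ)
    (h1 : ∀ c : Hlc 𝔉 X.X₁ (n + 1), p • c = 0 → c = 0)
    (h2 : ∀ c : Hlc 𝔉 X.X₁ (n + 2), p • c = 0 → c = 0)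
    (x : Hlc 𝔉 X.X₃ (n + 1)) (hx : p • x = 0) :
    ∃ y : Hlc 𝔉 X.X₂ (n + 1), p • y = 0 ∧ (lcH₂₃ 𝔉 X (n + 1)).hom y = x :=
  csA_exists_torsion_lift hp.out (lcH₁₂ 𝔉 X (n + 1)).hom (lcH₂₃ 𝔉 X (n + 1)).hom
    (lcδ hfin hX hsm (n + 1) (n + 2) rfl).hom
    (fun y hy => exists_lcH₁₂_eq hfin hX hsm (n + 1) y hy)
    (fun x hx => exists_lcH₂₃_eq hfin hX hsm (n + 1) (n + 2) rfl x hx)
    (fun u => exists_nsmul_eq_zero_Hlc_succ 𝔉 hfin X.X₁ n u) h1 h2 x hx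

include hfin hX hsm in
/-- **Step 1, no `p`-torsion.** If `Hlcⁿ⁺¹(X₁)`, `Hlcⁿ⁺²(X₁)` and `Hlcⁿ⁺¹(X₂)` have no
`p`-torsion, neither has `Hlcⁿ⁺¹(X₃)`. -/
theorem csA_noTorsion_X₃ (n : ℕ)
    (h1 : ∀ c : Hlc 𝔉 X.X₁ (n + 1), p • c = 0 → c = 0)
    (h2 : ∀ c : Hlc 𝔉 X.X₁ (n + 2), p • c = 0 → c = 0)
    (h3 : ∀ c : Hlc 𝔉 X.X₂ (n + 1), p • c = 0 → c = 0) :
    ∀ c : Hlc 𝔉 X.X₃ (n + 1), p • c = 0 → c = 0 := by
  intro x hx
  obtain ⟨y, hy, rfl⟩ := csA_exists_torsion_lift_X₃ hfin p hX hsm n h1 h2 x hx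
  rw [h3 y hy, map_zero]

include hfin hX hsm in
/-- **Step 1, order bound.** If `Hlcⁿ⁺¹(X₁)`, `Hlcⁿ⁺²(X₁)` have no `p`-torsion and
`Hlcⁿ⁺¹(X₂)[p]` has at most `p` elements, so has `Hlcⁿ⁺¹(X₃)[p]`. -/
theorem csA_card_le_X₃ (n : ℕ)
    (h1 : ∀ c : Hlc 𝔉 X.X₁ (n + 1), p • c = 0 → c = 0)
    (h2 : ∀ c : Hlc 𝔉 X.X₁ (n + 2), p • c = 0 → c = 0)
    (hC : ∀ s : Finset (Hlc 𝔉 X.X₂ (n + 1)), (∀ c ∈ s, p • c = 0) → s.card ≤ p) :
    ∀ s : Finset (Hlc 𝔉 X.X₃ (n + 1)), (∀ c ∈ s, p • c = 0) → s.card ≤ p :=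
  csA_card_le_of_torsion_lift (lcH₂₃ 𝔉 X (n + 1)).hom
    (fun x hx => csA_exists_torsion_lift_X₃ hfin p hX hsm n h1 h2 x hx) hC

end StepOne

section StepTwo

variable {Y : ShortComplex (Rep.{0} ℤ G)} (hY : Y.ShortExact) (hsm : IsSmooth 𝔉 Y.X₂)
  (hQ : ∀ x : Y.X₃, ∃ m : ℕ, Nat.Coprime m p ∧ m • x = 0)

include hfin hY hsm hQ in
/-- **Step 2.** If `Y.X₃` is prime-to-`p` torsion, `Hlcⁿ(Y.X₁) → Hlcⁿ(Y.X₂)` is injective on
`p`-torsion. -/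
theorem csA_eq_zero_of_lcH₁₂_eq_zero (n : ℕ) (x : Hlc 𝔉 Y.X₁ n) (hx : p • x = 0)
    (hfx : (lcH₁₂ 𝔉 Y n).hom x = 0) : x = 0 :=
  (isCoprimeIso_lcH₁₂ hfin hY hsm (p : ℤ) ((@isCoprimeTorsion_int_iff Y.X₃ Y.X₃.hV1 Y.X₃.hV2 p).2 hQ) n).eq_zero_nat 1
    (by rwa [pow_one]) hfx

include hfin hY hsm hQ in
/-- **Step 2.** If `Y.X₃` is prime-to-`p` torsion, `Hlcⁿ(Y.X₁) → Hlcⁿ(Y.X₂)` is onto on
`p`-torsion. -/
theorem csA_exists_lcH₁₂_eq (n : ℕ) (y : Hlc 𝔉 Y.X₂ n) (hy : p • y = 0) :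
    ∃ x : Hlc 𝔉 Y.X₁ n, p • x = 0 ∧ (lcH₁₂ 𝔉 Y n).hom x = y := by
  obtain ⟨x, hx, hxy⟩ := (isCoprimeIso_lcH₁₂ hfin hY hsm (p : ℤ)
    ((@isCoprimeTorsion_int_iff Y.X₃ Y.X₃.hV1 Y.X₃.hV2 p).2 hQ) n).exists_eq_nat 1 (by rwa [pow_one])
  exact ⟨x, by rwa [pow_one] at hx, hxy⟩

include hfin hY hsm hQ in
/-- **Step 2, no `p`-torsion.** -/
theorem csA_noTorsion_X₁ (n : ℕ) (h : ∀ c : Hlc 𝔉 Y.X₂ n, p • c = 0 → c = 0) :
    ∀ c : Hlc 𝔉 Y.X₁ n, p • c = 0 → c = 0 := fun c hc =>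
  csA_eq_zero_of_lcH₁₂_eq_zero hfin p hY hsm hQ n c hc
    (h _ (by rw [← map_nsmul, hc, map_zero]))

include hfin hY hsm hQ in
/-- **Step 2, order bound.** -/
theorem csA_card_le_X₁ (n : ℕ)
    (hC : ∀ s : Finset (Hlc 𝔉 Y.X₂ n), (∀ c ∈ s, p • c = 0) → s.card ≤ p) :
    ∀ s : Finset (Hlc 𝔉 Y.X₁ n), (∀ c ∈ s, p • c = 0) → s.card ≤ p :=
  csA_card_le_of_injOn (lcH₁₂ 𝔉 Y n).hom
    (fun x hx hfx => csA_eq_zero_of_lcH₁₂_eq_zero hfin p hY hsm hQ n x hx hfx) hC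

end StepTwo

section Combined

variable [hp : Fact p.Prime] (X : ShortComplex (Rep.{0} ℤ G)) (hX : X.ShortExact)
  (hsmX : IsSmooth 𝔉 X.X₂) (Y : ShortComplex (Rep.{0} ℤ G)) (hY : Y.ShortExact)
  (hsmY : IsSmooth 𝔉 Y.X₂) (hXY : Y.X₂ = X.X₃)

include hfin hX hsmX hY hsmY hXY in
/-- **(C-A1), abstract form.** `X = (𝕌 → ℂ → ℂ_S)`, `Y = (C' → ℂ_S → Cl_∞)`. -/
theorem csA_CA1 (ha : ∀ x : Y.X₃, ∃ m : ℕ, Nat.Coprime m p ∧ m • x = 0)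
    (hb : ∀ n, ∀ c : Hlc 𝔉 X.X₁ (n + 1), p • c = 0 → c = 0)
    (hc : ∀ c : Hlc 𝔉 X.X₂ 1, p • c = 0 → c = 0) :
    ∀ c : Hlc 𝔉 Y.X₁ 1, p • c = 0 → c = 0 := by
  obtain @⟨Y1, Y2, Y3, f, g, w⟩ := Y
  dsimp only at hXY
  subst hXY
  exact csA_noTorsion_X₁ hfin p hY hsmY ha 1
    (csA_noTorsion_X₃ hfin p hX hsmX 0 (hb 0) (hb 1) hc)

include hfin hX hsmX hY hsmY hXY in
/-- **(C-A5a), abstract form.** -/
theorem csA_CA5 (ha : ∀ x : Y.X₃, ∃ m : ℕ, Nat.Coprime m p ∧ m • x = 0)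
    (hb : ∀ n, ∀ c : Hlc 𝔉 X.X₁ (n + 1), p • c = 0 → c = 0)
    (hd : ∀ s : Finset (Hlc 𝔉 X.X₂ 2), (∀ c ∈ s, p • c = 0) → s.card ≤ p) :
    ∀ s : Finset (Hlc 𝔉 Y.X₁ 2), (∀ c ∈ s, p • c = 0) → s.card ≤ p := by
  obtain @⟨Y1, Y2, Y3, f, g, w⟩ := Y
  dsimp only at hXY
  subst hXY
  exact csA_card_le_X₁ hfin p hY hsmY ha 2
    (csA_card_le_X₃ hfin p hX hsmX 1 (hb 1) (hb 2) hd)

include hfin hX hsmX hY hsmY hXY in
/-- **(C-A1) at a subgroup `V`.** The hypotheses (b), (c) are required at `V`. -/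
theorem csA_CA1_res (V : Subgroup G) (ha : ∀ x : Y.X₃, ∃ m : ℕ, Nat.Coprime m p ∧ m • x = 0)
    (hb : ∀ n, ∀ c : Hlc (𝔉.restrict V) (res V.subtype X.X₁) (n + 1), p • c = 0 → c = 0)
    (hc : ∀ c : Hlc (𝔉.restrict V) (res V.subtype X.X₂) 1, p • c = 0 → c = 0) :
    ∀ c : Hlc (𝔉.restrict V) (res V.subtype Y.X₁) 1, p • c = 0 → c = 0 :=
  csA_CA1 (hfin.restrict V) p (X.map (Rep.resFunctor V.subtype))
    ((Rep.shortExact_res V.subtype).2 hX) (hsmX.res_subtype V)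
    (Y.map (Rep.resFunctor V.subtype)) ((Rep.shortExact_res V.subtype).2 hY)
    (hsmY.res_subtype V) (congrArg (Rep.resFunctor V.subtype).obj hXY) ha hb hc

include hfin hX hsmX hY hsmY hXY in
/-- **(C-A5a) at a subgroup `V`.** The hypotheses (b), (d) are required at `V`. -/
theorem csA_CA5_res (V : Subgroup G) (ha : ∀ x : Y.X₃, ∃ m : ℕ, Nat.Coprime m p ∧ m • x = 0)
    (hb : ∀ n, ∀ c : Hlc (𝔉.restrict V) (res V.subtype X.X₁) (n + 1), p • c = 0 → c = 0)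
    (hd : ∀ s : Finset (Hlc (𝔉.restrict V) (res V.subtype X.X₂) 2),
      (∀ c ∈ s, p • c = 0) → s.card ≤ p) :
    ∀ s : Finset (Hlc (𝔉.restrict V) (res V.subtype Y.X₁) 2),
      (∀ c ∈ s, p • c = 0) → s.card ≤ p :=
  csA_CA5 (hfin.restrict V) p (X.map (Rep.resFunctor V.subtype))
    ((Rep.shortExact_res V.subtype).2 hX) (hsmX.res_subtype V)
    (Y.map (Rep.resFunctor V.subtype)) ((Rep.shortExact_res V.subtype).2 hY)
    (hsmY.res_subtype V) (congrArg (Rep.resFunctor V.subtype).obj hXY) ha hb hd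

end Combined

end Hlc

end Fermat.Agent.PT
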