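import Fermat.Agent.CFT.PT.TopRestrict
import Fermat.Agent.CFT.PT.SmoothZero

/-!
# S55, (C-FI): transfer of the first inequality from `ℂ` to `C' ⊆ ℂ / 𝕌`

Model-free core.  `G` a group, `U ⊴ G` with `G ⧸ U` of prime order `p`, `t : κ → G` a system of
representatives of `G ⧸ U`, `fiT_norm t A a = ∑ k, A.ρ (t k) a`.

Representations `W → X → Y` (exact at `X`, `W → X` injective; think `𝕌 → ℂ → ℂ_S`), `C ↪ Y` (think
`C' = J_S / E_S ⊆ ℂ_S`, with `ℂ_S / C'` torsion prime to `p`).  If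
* `U`-invariants of `Y` lift to `U`-invariants of `X` up to multipliers prime to `p`
  (`Hlc¹(U, 𝕌)` has no `p`-torsion),
* `G`-invariants of `W` are norms of `U`-invariants up to multipliers prime to `p`
  (unit ideles are norms in unramified extensions),
* `x ∈ X^G` is not a norm from `X^U` (first inequality),
then for `m` prime to `p` and `c : C` with `j c = m • q x` the element `c` is `G`-invariant and is not
a norm from `C^U`: `fiT_not_norm`; existence form `fiT_exists_not_norm`.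
-/

set_option autoImplicit false

namespace Fermat.Agent.PT

open CategoryTheory groupCohomology Rep

section Norm

variable {k : Type} [CommRing k] {G : Type} [Group G] {κ : Type*} [Fintype κ] (t : κ → G)

/-- the norm `∑ k, t k • a` attached to a finite family `t` of group elements. -/
noncomputable def fiT_norm (A : Rep.{0} k G) (a : A.V) : A.V := ∑ i, A.ρ (t i) a

theorem fiT_norm_def (A : Rep.{0} k G) (a : A.V) : fiT_norm t A a = ∑ i, A.ρ (t i) a := rfl

theorem fiT_norm_hom {A B : Rep.{0} k G} (f : A ⟶ B) (a : A.V) :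
    f.hom (fiT_norm t A a) = fiT_norm t B (f.hom a) := by
  rw [fiT_norm_def, fiT_norm_def, map_sum]
  exact Finset.sum_congr rfl fun i _ => Rep.hom_comm_apply f (t i) a

theorem fiT_norm_add (A : Rep.{0} k G) (a b : A.V) :
    fiT_norm t A (a + b) = fiT_norm t A a + fiT_norm t A b := by
  rw [fiT_norm_def, fiT_norm_def, fiT_norm_def, ← Finset.sum_add_distrib]
  exact Finset.sum_congr rfl fun i _ => topρ_map_add A (t i) a b

theorem fiT_norm_nsmul (A : Rep.{0} k G) (n : ℕ) (a : A.V) :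
    fiT_norm t A (n • a) = n • fiT_norm t A a := by
  rw [fiT_norm_def, fiT_norm_def, Finset.smul_sum]
  exact Finset.sum_congr rfl fun i _ => map_nsmul (A.ρ (t i)) n a

theorem fiT_norm_zsmul (A : Rep.{0} k G) (n : ℤ) (a : A.V) :
    fiT_norm t A (n • a) = n • fiT_norm t A a := by
  rw [fiT_norm_def, fiT_norm_def, Finset.smul_sum]
  exact Finset.sum_congr rfl fun i _ => map_zsmul (A.ρ (t i)) n a

theorem fiT_norm_of_invariant (A : Rep.{0} k G) (a : A.V) (ha : ∀ g, A.ρ g a = a) :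
    fiT_norm t A a = Fintype.card κ • a := by
  rw [fiT_norm_def, Finset.sum_congr rfl fun i _ => ha (t i), Finset.sum_const, Finset.card_univ]

/-- the norm of a `U`-invariant element is `G`-invariant when `t` represents `G ⧸ U`. -/
theorem fiT_norm_invariant (U : Subgroup G) [U.Normal]
    (ht : Function.Bijective fun i => (t i : G ⧸ U)) (A : Rep.{0} k G) (a : A.V)
    (ha : ∀ u ∈ U, A.ρ u a = a) (g : G) : A.ρ g (fiT_norm t A a) = fiT_norm t A a := by
  classical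
  let e : κ ≃ G ⧸ U := Equiv.ofBijective _ ht
  -- the permutation of `κ` induced by left multiplication by `g`
  let σ : κ ≃ κ := (e.trans (MulAction.toPerm (g : G ⧸ U))).trans e.symm
  have hσ : ∀ i, ((t (σ i) : G) : G ⧸ U) = (g : G ⧸ U) * (t i : G ⧸ U) := by
    intro i
    have : e (σ i) = (g : G ⧸ U) * e i := by
      simp [σ]
    exact this
  rw [fiT_norm_def, map_sum]
  refine (Finset.sum_congr rfl fun i _ => ?_).trans (Equiv.sum_comp σ fun i => A.ρ (t i) a)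
  -- `g * t i = t (σ i) * u` with `u ∈ U`
  have h1 : ((t (σ i))⁻¹ * (g * t i) : G) ∈ U := by
    rw [← QuotientGroup.eq]
    exact hσ i
  have h2 : g * t i = t (σ i) * ((t (σ i))⁻¹ * (g * t i)) := by group
  rw [← topρ_mul_apply, h2, topρ_mul_apply, ha _ h1]

end Norm

section Transfer

variable {k : Type} [CommRing k] {G : Type} [Group G] {κ : Type*} [Fintype κ] (t : κ → G)
  {p : ℕ} (U : Subgroup G) [U.Normal]
  {W X Y C : Rep.{0} k G} (i : W ⟶ X) (q : X ⟶ Y) (j : C ⟶ Y)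

include U in
/-- **transfer of a non-norm**: see the header. -/
theorem fiT_not_norm (ht : Function.Bijective fun l => (t l : G ⧸ U))
    (hcard : Fintype.card κ = p)
    (hi : Function.Injective i.hom) (hex : ∀ x : X.V, q.hom x = 0 → ∃ w : W.V, i.hom w = x)
    (hj : Function.Injective j.hom)
    (hlift : ∀ y : Y.V, (∀ u ∈ U, Y.ρ u y = y) → ∃ m : ℕ, m.Coprime p ∧
      ∃ x : X.V, (∀ u ∈ U, X.ρ u x = x) ∧ q.hom x = m • y)
    (hW : ∀ w : W.V, (∀ g, W.ρ g w = w) → ∃ m : ℕ, m.Coprime p ∧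
      ∃ w' : W.V, (∀ u ∈ U, W.ρ u w' = w') ∧ fiT_norm t W w' = m • w)
    (x : X.V) (hx : ∀ g, X.ρ g x = x)
    (hxN : ∀ x' : X.V, (∀ u ∈ U, X.ρ u x' = x') → fiT_norm t X x' ≠ x)
    (m : ℕ) (hm : m.Coprime p) (c : C.V) (hc : j.hom c = m • q.hom x) :
    (∀ g, C.ρ g c = c) ∧ ∀ c' : C.V, (∀ u ∈ U, C.ρ u c' = c') → fiT_norm t C c' ≠ c := by
  have hcinv : ∀ g, C.ρ g c = c := by
    intro g
    apply hj
    rw [Rep.hom_comm_apply, hc, map_nsmul, ← Rep.hom_comm_apply, hx g]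
  refine ⟨hcinv, fun c' hc' hN => ?_⟩
  -- lift `j c'` up to `m₁`
  have hjc' : ∀ u ∈ U, Y.ρ u (j.hom c') = j.hom c' := fun u hu => by
    rw [← Rep.hom_comm_apply, hc' u hu]
  obtain ⟨m₁, hm₁, x', hx', hqx'⟩ := hlift (j.hom c') hjc'
  -- `q (N x') = q ((m₁ * m) • x)`
  have h1 : q.hom (fiT_norm t X x' - (m₁ * m) • x) = 0 := by
    rw [map_sub, fiT_norm_hom, hqx', fiT_norm_nsmul, ← fiT_norm_hom, hN, hc, map_nsmul, mul_smul,
      sub_self]
  obtain ⟨w, hw⟩ := hex _ h1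
  have hwinv : ∀ g, W.ρ g w = w := by
    intro g
    apply hi
    rw [Rep.hom_comm_apply, hw, map_sub, map_nsmul, hx g,
      fiT_norm_invariant t U ht X x' hx' g]
  obtain ⟨m₂, hm₂, w', hw', hNw'⟩ := hW w hwinv
  -- `(m₂ * m₁ * m) • x` is a norm
  have h2 : (m₂ * (m₁ * m)) • x = fiT_norm t X (m₂ • x' - i.hom w') := by
    have h3 : fiT_norm t X (m₂ • x' - i.hom w') =
        m₂ • fiT_norm t X x' - i.hom (fiT_norm t W w') := by
      rw [fiT_norm_hom, ← fiT_norm_nsmul, sub_eq_add_neg, sub_eq_add_neg, fiT_norm_add]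
      congr 1
      rw [fiT_norm_def, fiT_norm_def, ← Finset.sum_neg_distrib]
      exact Finset.sum_congr rfl fun l _ => map_neg (X.ρ (t l)) _
    rw [h3, hNw', map_nsmul, hw, smul_sub, mul_smul]
    abel
  -- Bézout
  have hcop : Nat.Coprime (m₂ * (m₁ * m)) p := (hm₂.mul_left (hm₁.mul_left hm))
  have hpx : p • x = fiT_norm t X x := by
    rw [fiT_norm_of_invariant t X x hx, hcard]
  have hgcd := Nat.gcd_eq_gcd_ab (m₂ * (m₁ * m)) p
  rw [Nat.Coprime.gcd_eq_one hcop] at hgcd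
  set a := Nat.gcdA (m₂ * (m₁ * m)) p
  set b := Nat.gcdB (m₂ * (m₁ * m)) p
  have hx1 : x = a • ((m₂ * (m₁ * m)) • x) + b • (p • x) := by
    rw [← natCast_zsmul x (m₂ * (m₁ * m)), ← natCast_zsmul x p, smul_smul, smul_smul, ← add_smul,
      mul_comm a, mul_comm b, ← hgcd, Nat.cast_one, one_smul]
  have hx2 : fiT_norm t X (a • (m₂ • x' - i.hom w') + b • x) = x := by
    rw [fiT_norm_add, fiT_norm_zsmul, fiT_norm_zsmul, ← h2, ← hpx]
    exact hx1.symm
  refine hxN _ (fun u hu => ?_) hx2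
  have h4 : X.ρ u (m₂ • x' - i.hom w') = m₂ • x' - i.hom w' := by
    rw [map_sub, map_nsmul, hx' u hu, ← Rep.hom_comm_apply, hw' u hu]
  rw [topρ_map_add, map_zsmul, map_zsmul, h4, hx u]

include U in
/-- **existence form**: if moreover every `G`-invariant of `Y` has a multiple prime to `p` in the
image of `C` (`Y / C` torsion prime to `p`), some `G`-invariant of `C` is not a norm from `C^U`. -/
theorem fiT_exists_not_norm (ht : Function.Bijective fun l => (t l : G ⧸ U))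
    (hcard : Fintype.card κ = p)
    (hi : Function.Injective i.hom) (hex : ∀ x : X.V, q.hom x = 0 → ∃ w : W.V, i.hom w = x)
    (hj : Function.Injective j.hom)
    (hlift : ∀ y : Y.V, (∀ u ∈ U, Y.ρ u y = y) → ∃ m : ℕ, m.Coprime p ∧
      ∃ x : X.V, (∀ u ∈ U, X.ρ u x = x) ∧ q.hom x = m • y)
    (hW : ∀ w : W.V, (∀ g, W.ρ g w = w) → ∃ m : ℕ, m.Coprime p ∧
      ∃ w' : W.V, (∀ u ∈ U, W.ρ u w' = w') ∧ fiT_norm t W w' = m • w)
    (hT : ∀ y : Y.V, (∀ g, Y.ρ g y = y) → ∃ m : ℕ, m.Coprime p ∧ ∃ c : C.V, j.hom c = m • y)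
    (hFI : ∃ x : X.V, (∀ g, X.ρ g x = x) ∧
      ∀ x' : X.V, (∀ u ∈ U, X.ρ u x' = x') → fiT_norm t X x' ≠ x) :
    ∃ c : C.V, (∀ g, C.ρ g c = c) ∧
      ∀ c' : C.V, (∀ u ∈ U, C.ρ u c' = c') → fiT_norm t C c' ≠ c := by
  obtain ⟨x, hx, hxN⟩ := hFI
  have hqx : ∀ g, Y.ρ g (q.hom x) = q.hom x := fun g => by rw [← Rep.hom_comm_apply, hx g]
  obtain ⟨m, hm, c, hc⟩ := hT (q.hom x) hqx
  exact ⟨c, fiT_not_norm t U i q j ht hcard hi hex hj hlift hW x hx hxN m hm c hc⟩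

end Transfer

section Level

variable {k : Type} [CommRing k] {G : Type} [Group G] {κ : Type*} [Fintype κ] (t : κ → G)
  (U : Subgroup G) [U.Normal] {Q : Type} [Group Q] [Fintype Q] (π : G →* Q)

omit [Fintype κ] [U.Normal] [Fintype Q] in
include U in
theorem fiT_comp_bijective (ht : Function.Bijective fun l => (t l : G ⧸ U))
    (hπ : Function.Surjective π) (hker : π.ker = U) : Function.Bijective fun l => π (t l) := by
  constructor
  · intro l l' h
    have h' : π (t l) = π (t l') := h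
    apply ht.1
    change (t l : G ⧸ U) = (t l' : G ⧸ U)
    rw [QuotientGroup.eq, ← hker, MonoidHom.mem_ker, map_mul, map_inv, h', inv_mul_cancel]
  · intro τ
    obtain ⟨g, rfl⟩ := hπ τ
    obtain ⟨l, hl⟩ := ht.2 (g : G ⧸ U)
    refine ⟨l, ?_⟩
    have h1 : ((t l)⁻¹ * g : G) ∈ π.ker := by
      rw [hker, ← QuotientGroup.eq]
      exact hl
    rw [MonoidHom.mem_ker, map_mul, map_inv, inv_mul_eq_one] at h1
    exact h1

omit [U.Normal] in
include U in
/-- **from a finite level**: if `φ : res π A ⟶ X` is injective with image the `U`-invariants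
(`U = ker π`, `π` onto the finite group `Q`) and `a₀ ∈ A^Q` is not a norm of `A`, then `φ a₀` is a
`G`-invariant of `X` which is not a norm from `X^U`. -/
theorem fiT_not_norm_of_level (ht : Function.Bijective fun l => (t l : G ⧸ U))
    (hπ : Function.Surjective π) (hker : π.ker = U)
    {A : Rep.{0} k Q} {X : Rep.{0} k G} (φ : res π A ⟶ X) (hφ : Function.Injective φ.hom)
    (hφU : ∀ x : X.V, (∀ u ∈ U, X.ρ u x = x) → ∃ a : A.V, φ.hom a = x)
    (a₀ : A.V) (ha₀ : ∀ τ, A.ρ τ a₀ = a₀) (hN : ∀ a : A.V, ∑ τ, A.ρ τ a ≠ a₀) :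
    (∀ g, X.ρ g (φ.hom a₀) = φ.hom a₀) ∧
      ∀ x' : X.V, (∀ u ∈ U, X.ρ u x' = x') → fiT_norm t X x' ≠ φ.hom a₀ := by
  have hcomm : ∀ (g : G) (a : A.V), X.ρ g (φ.hom a) = φ.hom (A.ρ (π g) a) := fun g a =>
    (Rep.hom_comm_apply φ g a).symm
  refine ⟨fun g => by rw [hcomm, ha₀], fun x' hx' h => ?_⟩
  obtain ⟨a, rfl⟩ := hφU x' hx'
  apply hN a
  apply hφ
  rw [← h, fiT_norm_def, map_sum]
  rw [← Fintype.sum_bijective _ (fiT_comp_bijective t U π ht hπ hker) (fun l => φ.hom (A.ρ (π (t l)) a))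
    (fun τ => φ.hom (A.ρ τ a)) (fun _ => rfl)]
  exact Finset.sum_congr rfl fun l _ => (hcomm (t l) a).symm

end Level

section Pow

variable {k : Type} [CommRing k] {G : Type} [Group G]

/-- the powers `σ⁰, …, σ^{p-1}` of an element `σ ∉ U` represent `G ⧸ U` when `[G : U] = p` is
prime. -/
theorem fiT_pow_bijective {p : ℕ} (hp : p.Prime) (U : Subgroup G) [U.Normal]
    (hcard : Nat.card (G ⧸ U) = p) (σ : G) (hσ : σ ∉ U) :
    Function.Bijective fun l : Fin p => ((σ ^ (l : ℕ) : G) : G ⧸ U) := by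
  have hfin : Finite (G ⧸ U) := Nat.finite_of_card_ne_zero (hcard ▸ hp.ne_zero)
  have hs : (σ : G ⧸ U) ≠ 1 := fun h => hσ ((QuotientGroup.eq_one_iff σ).1 h)
  have hord : orderOf (σ : G ⧸ U) = p := by
    have h1 : orderOf (σ : G ⧸ U) ∣ p := hcard ▸ orderOf_dvd_natCard _
    rcases (Nat.dvd_prime hp).1 h1 with h | h
    · exact absurd (orderOf_eq_one_iff.1 h) hs
    · exact h
  have hinj : Function.Injective fun l : Fin p => ((σ ^ (l : ℕ) : G) : G ⧸ U) := by
    intro a b hab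
    have hab' : (σ : G ⧸ U) ^ (a : ℕ) = (σ : G ⧸ U) ^ (b : ℕ) := hab
    apply Fin.ext
    exact pow_injOn_Iio_orderOf (by rw [Set.mem_Iio, hord]; exact a.2)
      (by rw [Set.mem_Iio, hord]; exact b.2) hab'
  refine hinj.bijective_of_nat_card_le ?_
  rw [hcard, Nat.card_eq_fintype_card, Fintype.card_fin]

theorem fiT_norm_pow (p : ℕ) (σ : G) (A : Rep.{0} k G) (a : A.V) :
    fiT_norm (fun l : Fin p => σ ^ (l : ℕ)) A a = ∑ l ∈ Finset.range p, A.ρ (σ ^ l) a := by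
  rw [fiT_norm_def]
  exact Fin.sum_univ_eq_sum_range (fun l => A.ρ (σ ^ l) a) p

end Pow

section Lift

variable {k : Type} [CommRing k] {G : Type} [Group G] {𝔉 : LevelFamily G} (hfin : 𝔉.FiniteIndex)
  {X : ShortComplex (Rep.{0} k G)} (hX : X.ShortExact) (hsm : IsSmooth 𝔉 X.X₂)

include hfin hX hsm in
/-- **lifting invariants up to a multiplier prime to `p`**: if `Hlc¹(X₁)` is torsion prime to `p`,
every invariant `y` of `X₃` has a multiple `m • y`, `m` prime to `p`, which lifts to an invariant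
of `X₂`. -/
theorem fiT_exists_lift_invariant (p : ℕ)
    (h1 : ∀ z : Hlc 𝔉 X.X₁ 1, ∃ m : ℕ, m.Coprime p ∧ m • z = 0)
    (y : X.X₃.V) (hy : ∀ g, X.X₃.ρ g y = y) :
    ∃ m : ℕ, m.Coprime p ∧ ∃ x : X.X₂.V, (∀ g, X.X₂.ρ g x = x) ∧ X.g.hom x = m • y := by
  set ybar : Hlc 𝔉 X.X₃ 0 := (Hlc0Equiv 𝔉 X.X₃).symm ⟨y, hy⟩ with hybar
  obtain ⟨m, hm, hmz⟩ := h1 ((lcδ hfin hX hsm 0 1 rfl).hom ybar)
  have h2 : (lcδ hfin hX hsm 0 1 rfl).hom (m • ybar) = 0 := by
    rw [map_nsmul, hmz]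
  obtain ⟨xbar, hxbar⟩ := exists_lcH₂₃_eq hfin hX hsm 0 1 rfl (m • ybar) h2
  refine ⟨m, hm, ((Hlc0Equiv 𝔉 X.X₂ xbar : X.X₂.ρ.invariants) : X.X₂.V),
    fun g => (Hlc0Equiv 𝔉 X.X₂ xbar).2 g, ?_⟩
  have h3 := coe_Hlc0Equiv_HlcMap (MonoidHom.id G) X.g 𝔉.compat_id xbar
  have h4 : (HlcMap (MonoidHom.id G) X.g 𝔉.compat_id 0).hom xbar = m • ybar := hxbar
  rw [h4] at h3
  rw [← h3, map_nsmul, hybar, LinearEquiv.apply_symm_apply]
  rfl

/-- the restriction of a short exact sequence to a subgroup is short exact. -/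
theorem fiT_shortExact_res {H : Type} [Group H] (ψ : H →* G) {X : ShortComplex (Rep.{0} k G)}
    (hX : X.ShortExact) : (X.map (resFunctor ψ)).ShortExact := by
  have hinj : Function.Injective X.f.hom := topShortExact_injective hX
  have hsurj : Function.Surjective X.g.hom := topShortExact_surjective hX
  refine rep_shortExact_of_elementwise (X.map (resFunctor ψ)) hinj hsurj (fun a ha => ?_)
  have hE := hX.exact
  rw [← ShortComplex.exact_map_iff_of_faithful _ (forget₂ (Rep.{0} k G) (ModuleCat.{0} k)),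
    ShortComplex.moduleCat_exact_iff] at hE
  exact hE a ha

include hfin hX hsm in
/-- the hypothesis `hlift` of `fiT_not_norm` from `Hlc¹(U, X₁)` torsion prime to `p`. -/
theorem fiT_hlift_of_Hlc_one (U : Subgroup G) (p : ℕ)
    (h1 : ∀ z : Hlc (𝔉.restrict U) (res U.subtype X.X₁) 1, ∃ m : ℕ, m.Coprime p ∧ m • z = 0)
    (y : X.X₃.V) (hy : ∀ u ∈ U, X.X₃.ρ u y = y) :
    ∃ m : ℕ, m.Coprime p ∧ ∃ x : X.X₂.V, (∀ u ∈ U, X.X₂.ρ u x = x) ∧ X.g.hom x = m • y := by
  obtain ⟨m, hm, x, hx, hxy⟩ := fiT_exists_lift_invariant (𝔉 := 𝔉.restrict U)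
    (X := X.map (resFunctor U.subtype)) (hfin.restrict U) (fiT_shortExact_res U.subtype hX)
    (hsm.res_subtype U) p h1 y (fun u => hy u u.2)
  exact ⟨m, hm, x, fun u hu => hx ⟨u, hu⟩, hxy⟩

include hfin hX hsm in
/-- **(C-FI), assembled**: `X = (𝕌 → ℂ → ℂ_S)` short exact and smooth, `j : C ↪ ℂ_S`, `U ⊴ G` of
index `p` with representatives `t`.  From `Hlc¹(U, 𝕌)` torsion prime to `p`, `𝕌^G ⊆ N(𝕌^U)` up to
multipliers prime to `p`, `ℂ_S / C` torsion prime to `p` (on invariants), and the first inequality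
for `ℂ`: some `G`-invariant of `C` is not a norm from `C^U`. -/
theorem fiT_exists_not_norm_of_Hlc {κ : Type*} [Fintype κ] (t : κ → G) (U : Subgroup G)
    [U.Normal] (p : ℕ) {C : Rep.{0} k G} (j : C ⟶ X.X₃)
    (ht : Function.Bijective fun l => (t l : G ⧸ U)) (hcard : Fintype.card κ = p)
    (hj : Function.Injective j.hom)
    (h1 : ∀ z : Hlc (𝔉.restrict U) (res U.subtype X.X₁) 1, ∃ m : ℕ, m.Coprime p ∧ m • z = 0)
    (hW : ∀ w : X.X₁.V, (∀ g, X.X₁.ρ g w = w) → ∃ m : ℕ, m.Coprime p ∧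
      ∃ w' : X.X₁.V, (∀ u ∈ U, X.X₁.ρ u w' = w') ∧ fiT_norm t X.X₁ w' = m • w)
    (hT : ∀ y : X.X₃.V, (∀ g, X.X₃.ρ g y = y) →
      ∃ m : ℕ, m.Coprime p ∧ ∃ c : C.V, j.hom c = m • y)
    (hFI : ∃ x : X.X₂.V, (∀ g, X.X₂.ρ g x = x) ∧
      ∀ x' : X.X₂.V, (∀ u ∈ U, X.X₂.ρ u x' = x') → fiT_norm t X.X₂ x' ≠ x) :
    ∃ c : C.V, (∀ g, C.ρ g c = c) ∧
      ∀ c' : C.V, (∀ u ∈ U, C.ρ u c' = c') → fiT_norm t C c' ≠ c := by
  have hE := hX.exact
  rw [← ShortComplex.exact_map_iff_of_faithful _ (forget₂ (Rep.{0} k G) (ModuleCat.{0} k)),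
    ShortComplex.moduleCat_exact_iff] at hE
  exact fiT_exists_not_norm t U X.f X.g j ht hcard (topShortExact_injective hX)
    (fun x hx => hE x hx) hj (fiT_hlift_of_Hlc_one hfin hX hsm U p h1) hW hT hFI

end Lift

end Fermat.Agent.PT
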