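/-
S55 engine (helper15): towers of subgroups `H' ≤ H ≤ G` in level-constant cohomology.

* `towerEquiv` : restricting the family `𝔉` first to `H` and then to `H'.subgroupOf H` gives the
  same cohomology as restricting to `H'` directly;
* `tower_eq_zero_of_coprime`, `tower_subsingleton_of_coprime` : **coprime descent**: if `H'` is open
  of index prime to `p` in `H` and `Hlc^n(H', B)` vanishes, then `Hlc^n(H, B)` has no `p`-torsion
  (so it vanishes when `k` has characteristic `p`).
-/
import Fermat.Agent.CFT.PT.SmoothCor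
import Fermat.Agent.CFT.PT.SmoothShapiro
import Fermat.Agent.CFT.Local.OpenSubgroup

set_option autoImplicit false

namespace Fermat.Agent.PT

open CategoryTheory groupCohomology Rep Fermat.Agent.CFT

universe u

variable {k G : Type u} [CommRing k] [Group G] (𝔉 : LevelFamily G) {H H' : Subgroup G}
  (hle : H' ≤ H)

/-- `H'.subgroupOf H ≃* H'` is compatible with the restricted families. -/
theorem tower_compat :
    ((𝔉.restrict H).restrict (H'.subgroupOf H)).Compat
      (Subgroup.subgroupOfEquivOfLe hle).toMonoidHom (𝔉.restrict H') := by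
  rintro W ⟨V, hV, rfl⟩
  refine ⟨(V.subgroupOf H).subgroupOf (H'.subgroupOf H), ⟨V.subgroupOf H, ⟨V, hV, rfl⟩, rfl⟩, ?_⟩
  intro w hw
  exact hw

/-- the inverse direction. -/
theorem tower_compat_symm :
    (𝔉.restrict H').Compat (Subgroup.subgroupOfEquivOfLe hle).symm.toMonoidHom
      ((𝔉.restrict H).restrict (H'.subgroupOf H)) := by
  rintro W ⟨W', ⟨V, hV, rfl⟩, rfl⟩
  refine ⟨V.subgroupOf H', ⟨V, hV, rfl⟩, ?_⟩
  intro w hw
  exact hw

/-- the identity of `B`, as a morphism over `H'.subgroupOf H ≃* H'`. -/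
noncomputable def towerHom (B : Rep.{u} k H) :
    res (Subgroup.subgroupOfEquivOfLe hle).toMonoidHom (res (Subgroup.inclusion hle) B) ⟶
      res (H'.subgroupOf H).subtype B :=
  Rep.ofHom (ρ := (res (Subgroup.subgroupOfEquivOfLe hle).toMonoidHom
      (res (Subgroup.inclusion hle) B)).ρ) (σ := (res (H'.subgroupOf H).subtype B).ρ)
    ⟨LinearMap.id, fun _ => rfl⟩

theorem towerHom_apply (B : Rep.{u} k H) (b : B) : (towerHom hle B).hom b = b := rfl

theorem towerHom_bijective (B : Rep.{u} k H) : Function.Bijective (towerHom hle B).hom :=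
  Function.bijective_id

/-- **tower**: `Hlc^n(H', B) ≅ Hlc^n(H'.subgroupOf H, B)`. -/
noncomputable def towerEquiv (B : Rep.{u} k H) (n : ℕ) :
    Hlc (𝔉.restrict H') (res (Subgroup.inclusion hle) B) n ≃ₗ[k]
      Hlc ((𝔉.restrict H).restrict (H'.subgroupOf H)) (res (H'.subgroupOf H).subtype B) n :=
  LinearEquiv.ofBijective
    (HlcMap (Subgroup.subgroupOfEquivOfLe hle).toMonoidHom (towerHom hle B)
      (tower_compat 𝔉 hle) n).hom
    (openSub_HlcMap_bijective _ (tower_compat 𝔉 hle) (tower_compat_symm 𝔉 hle)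
      (towerHom hle B) (towerHom_bijective hle B) n)

/-- an open subgroup of `G` contained in `H` is open in `H`. -/
theorem IsOpenFor.subgroupOf (hH' : IsOpenFor 𝔉 H') :
    IsOpenFor (𝔉.restrict H) (H'.subgroupOf H) := by
  obtain ⟨V, hV, hVH'⟩ := hH'
  exact ⟨V.subgroupOf H, ⟨V, hV, rfl⟩, fun w hw => hVH' hw⟩

/-- an open subgroup for a family of finite-index subgroups has finite index. -/
theorem IsOpenFor.finiteIndex {𝔉} (hfin : 𝔉.FiniteIndex) {H : Subgroup G} (hH : IsOpenFor 𝔉 H) :
    H.FiniteIndex := by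
  obtain ⟨V, hV, hVH⟩ := hH
  have := hfin V hV
  exact Subgroup.finiteIndex_of_le hVH

variable {𝔉}

/-- **coprime descent**, elementwise. -/
theorem tower_eq_zero_of_coprime (hfin : 𝔉.FiniteIndex) (hH' : IsOpenFor 𝔉 H')
    (B : Rep.{u} k H) (hB : IsSmooth (𝔉.restrict H) B) {p : ℕ}
    (hp : Nat.Coprime p (H'.relIndex H)) (n : ℕ)
    (hzero : Subsingleton (Hlc (𝔉.restrict H') (res (Subgroup.inclusion hle) B) n))
    (x : Hlc (𝔉.restrict H) B n) (hpx : p • x = 0) : x = 0 := by
  have hK : (H'.subgroupOf H).FiniteIndex := by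
    have := hH'.finiteIndex hfin
    infer_instance
  have hsub : Subsingleton (Hlc ((𝔉.restrict H).restrict (H'.subgroupOf H))
      (res (H'.subgroupOf H).subtype B) n) := (towerEquiv 𝔉 hle B n).symm.subsingleton
  have hinj : Function.Injective (HlcShapiro (𝔉.restrict H) (H'.subgroupOf H)
      (res (H'.subgroupOf H).subtype B) n).hom :=
    (HlcShapiro_bijective (hfin.restrict H) (hH'.subgroupOf 𝔉) n _
      (hB.res_subtype (H'.subgroupOf H))).1
  exact eq_zero_of_HlcRes_eq_zero_of_coprime (𝔉.restrict H) (H'.subgroupOf H) B n hinj hp x hpx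
    (Subsingleton.elim _ _)

/-- **coprime descent**: vanishing of `Hlc^n` descends along an open subgroup of index prime to
the characteristic. -/
theorem tower_subsingleton_of_coprime (hfin : 𝔉.FiniteIndex) (hH' : IsOpenFor 𝔉 H')
    (B : Rep.{u} k H) (hB : IsSmooth (𝔉.restrict H) B) {p : ℕ} [CharP k p]
    (hp : Nat.Coprime p (H'.relIndex H)) (n : ℕ)
    (hzero : Subsingleton (Hlc (𝔉.restrict H') (res (Subgroup.inclusion hle) B) n)) :
    Subsingleton (Hlc (𝔉.restrict H) B n) := by
  refine ⟨fun x y => ?_⟩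
  have h : ∀ z : Hlc (𝔉.restrict H) B n, z = 0 := fun z =>
    tower_eq_zero_of_coprime hle hfin hH' B hB hp n hzero z (by
      rw [← Nat.cast_smul_eq_nsmul k, CharP.cast_eq_zero, zero_smul])
  rw [h x, h y]

end Fermat.Agent.PT
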