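/-
S55, GLOBAL C-side, (K9) = (C-FI) plug (helper26): helper24's transfer of the first inequality
(`PT/FirstIneqTransfer.lean`, `fiT_exists_not_norm_of_Hlc`, stated for a group `G` and `U ⊴ G`)
in the shape consumed by helper22's `s55Side_main` (`hFI`): subgroups `V' ≤ V` of the ambient
group, `σ ∈ V ∖ V'`, norm `∑ i < p, σ ^ i`.

* `cfiP_abstract` : for `X = (𝕌 → ℂ → ℂ_S)` short exact and smooth, `j : C ↪ ℂ_S`;
* `cfiP_hFI` : for helper27's `idSeq3 S`, `idSeq2 S`, `C = idC'Rep S = J_S / Ē`.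
-/
import Fermat.Agent.CFT.PT.FirstIneqTransfer
import Fermat.Agent.CFT.PT.CSideAbstract
import Fermat.Agent.CFT.PT.SmoothTower
import Fermat.Agent.CFT.PT.IdeleRep
import Fermat.Agent.CFT.PT.BaseCountArith

set_option autoImplicit false

namespace Fermat.Agent.PT

open CategoryTheory groupCohomology Rep

section Abstract

variable {G : Type} [Group G]

/-- the norm `fiT_norm` of the powers of `⟨σ, _⟩ : V` on a restricted representation. -/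
theorem cfiP_norm_res (V : Subgroup G) (σ : G) (hσV : σ ∈ V) (p : ℕ) (A : Rep.{0} ℤ G) (a : A.V) :
    fiT_norm (fun l : Fin p => (⟨σ, hσV⟩ : ↥V) ^ (l : ℕ)) (res V.subtype A) a =
      ∑ i ∈ Finset.range p, A.ρ (σ ^ i) a := by
  rw [fiT_norm_pow]
  rfl

variable {𝔉 : LevelFamily G} (hfin : 𝔉.FiniteIndex) {X : ShortComplex (Rep.{0} ℤ G)}
  (hX : X.ShortExact) (hsm : IsSmooth 𝔉 X.X₂)

include hfin hX hsm in
/-- **(C-FI), transfer in subgroup form.** -/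
theorem cfiP_abstract (p : ℕ) [hp : Fact p.Prime] (V V' : Subgroup G) (hle : V' ≤ V)
    (hn : (V'.subgroupOf V).Normal) (hidx : V'.relIndex V = p) (σ : G) (hσV : σ ∈ V)
    (hσV' : σ ∉ V') {C : Rep.{0} ℤ G} (j : C ⟶ X.X₃) (hj : Function.Injective j.hom)
    (h1 : ∀ c : Hlc (𝔉.restrict V') (res V'.subtype X.X₁) 1, p • c = 0 → c = 0)
    (hW : ∀ w : X.X₁.V, (∀ g ∈ V, X.X₁.ρ g w = w) → ∃ m : ℕ, m.Coprime p ∧
      ∃ w' : X.X₁.V, (∀ u ∈ V', X.X₁.ρ u w' = w') ∧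
        ∑ i ∈ Finset.range p, X.X₁.ρ (σ ^ i) w' = m • w)
    (hT : ∀ y : X.X₃.V, (∀ g ∈ V, X.X₃.ρ g y = y) →
      ∃ m : ℕ, m.Coprime p ∧ ∃ c : C.V, j.hom c = m • y)
    (hFI : ∃ x : X.X₂.V, (∀ g ∈ V, X.X₂.ρ g x = x) ∧
      ∀ x' : X.X₂.V, (∀ u ∈ V', X.X₂.ρ u x' = x') →
        ∑ i ∈ Finset.range p, X.X₂.ρ (σ ^ i) x' ≠ x) :
    ∃ x : C.V, (∀ g ∈ V, C.ρ g x = x) ∧
      ∀ b : C.V, (∀ u ∈ V', C.ρ u b = b) → x ≠ ∑ i ∈ Finset.range p, C.ρ (σ ^ i) b := by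
  have := hn
  have hcard : Nat.card (↥V ⧸ V'.subgroupOf V) = p := hidx
  have hσ : (⟨σ, hσV⟩ : ↥V) ∉ V'.subgroupOf V := fun h => hσV' h
  -- no `p`-torsion in the doubly restricted `Hlc¹`
  have hnoP : ∀ y : Hlc ((𝔉.restrict V).restrict (V'.subgroupOf V))
      (res (V'.subgroupOf V).subtype (res V.subtype X.X₁)) 1, p • y = 0 → y = 0 := by
    intro y hy
    have hp0 : p • (towerEquiv 𝔉 hle (res V.subtype X.X₁) 1).symm y = 0 := by
      rw [← map_nsmul, hy, map_zero]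
    have h0 := h1 _ hp0
    exact (towerEquiv 𝔉 hle (res V.subtype X.X₁) 1).symm.map_eq_zero_iff.1 h0
  have h1' : ∀ z : Hlc ((𝔉.restrict V).restrict (V'.subgroupOf V))
      (res (V'.subgroupOf V).subtype (X.map (resFunctor V.subtype)).X₁) 1,
      ∃ m : ℕ, m.Coprime p ∧ m • z = 0 := by
    intro z
    obtain ⟨N, hN0, hN⟩ := exists_nsmul_eq_zero_Hlc_succ ((𝔉.restrict V).restrict (V'.subgroupOf V))
      ((hfin.restrict V).restrict (V'.subgroupOf V))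
      (res (V'.subgroupOf V).subtype (res V.subtype X.X₁)) 0 z
    exact csA_exists_coprime_nsmul hp.out hnoP hN0 hN
  obtain ⟨c, hc, hcN⟩ := fiT_exists_not_norm_of_Hlc (𝔉 := 𝔉.restrict V)
    (X := X.map (resFunctor V.subtype)) (hfin.restrict V) (fiT_shortExact_res V.subtype hX)
    (hsm.res_subtype V) (fun l : Fin p => (⟨σ, hσV⟩ : ↥V) ^ (l : ℕ)) (V'.subgroupOf V) p
    (C := res V.subtype C) ((resFunctor V.subtype).map j)
    (fiT_pow_bijective hp.out (V'.subgroupOf V) hcard ⟨σ, hσV⟩ hσ) (Fintype.card_fin p) hj h1'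
    (fun w hw => by
      obtain ⟨m, hm, w', hw', hNw'⟩ := hW w (fun g hg => hw ⟨g, hg⟩)
      exact ⟨m, hm, w', fun u hu => hw' u.1 hu, (cfiP_norm_res V σ hσV p X.X₁ w').trans hNw'⟩)
    (fun y hy => hT y (fun g hg => hy ⟨g, hg⟩))
    (by
      obtain ⟨x, hx, hxN⟩ := hFI
      exact ⟨x, fun g => hx g.1 g.2, fun x' hx' h =>
        hxN x' (fun u hu => hx' ⟨u, hle hu⟩ hu) ((cfiP_norm_res V σ hσV p X.X₂ x').symm.trans h)⟩)
  refine ⟨c, fun g hg => hc ⟨g, hg⟩, fun b hb h => ?_⟩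
  exact hcN b (fun u hu => hb u.1 hu) ((cfiP_norm_res V σ hσV p C b).trans h.symm)

end Abstract

section Inst

local notation "Γℚ" => (AlgebraicClosure ℚ ≃ₐ[ℚ] AlgebraicClosure ℚ)

variable (S : Finset Nat.Primes) (hS : S.Nonempty) (p : ℕ) [Fact p.Prime]

omit [Fact (Nat.Prime p)] in
/-- `ℂ_S / C'` is torsion prime to `p` if `Cl_∞` is. -/
theorem cfiP_hT (ha : ∀ x : idClRep S, ∃ m : ℕ, Nat.Coprime m p ∧ m • x = 0) (y : idCSRep S) :
    ∃ m : ℕ, m.Coprime p ∧ ∃ c : idC'Rep S, (idC'ToCS S).hom c = m • y := by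
  obtain ⟨m, hm, hmy⟩ := ha ((idCSToCl S).hom y)
  have h1 : (idCSToCl S).hom (m • y) = 0 := by
    rw [map_nsmul]
    exact hmy
  obtain ⟨c, hc⟩ := exists_of_shortExact_of_g_eq_zero (idSeq2_shortExact S) (m • y) h1
  exact ⟨m, hm, c, hc⟩

include hS in
/-- **(C-FI) for `C' = J_S / Ē`**, in the shape of the hypothesis `hFI` of `s55Side_main`. -/
theorem cfiP_hFI (V V' : Subgroup Γℚ) (hle : V' ≤ V) (hn : (V'.subgroupOf V).Normal)
    (hidx : V'.relIndex V = p) (σ : Γℚ) (hσV : σ ∈ V) (hσV' : σ ∉ V')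
    (ha : ∀ x : idClRep S, ∃ m : ℕ, Nat.Coprime m p ∧ m • x = 0)
    (hb : ∀ c : Hlc ((famS S).restrict V') (res V'.subtype (idURep S)) 1, p • c = 0 → c = 0)
    (hW : ∀ w : idURep S, (∀ g ∈ V, (idURep S).ρ g w = w) → ∃ m : ℕ, m.Coprime p ∧
      ∃ w' : idURep S, (∀ u ∈ V', (idURep S).ρ u w' = w') ∧
        ∑ i ∈ Finset.range p, (idURep S).ρ (σ ^ i) w' = m • w)
    (hFI : ∃ x : idCRep S, (∀ g ∈ V, (idCRep S).ρ g x = x) ∧
      ∀ x' : idCRep S, (∀ u ∈ V', (idCRep S).ρ u x' = x') →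
        ∑ i ∈ Finset.range p, (idCRep S).ρ (σ ^ i) x' ≠ x) :
    ∃ x : idC'Rep S, (∀ g ∈ V, (idC'Rep S).ρ g x = x) ∧
      ∀ b : idC'Rep S, (∀ u ∈ V', (idC'Rep S).ρ u b = b) →
        x ≠ ∑ i ∈ Finset.range p, (idC'Rep S).ρ (σ ^ i) b :=
  cfiP_abstract (X := idSeq3 S) (baseCount_famS_finiteIndex S) (idSeq3_shortExact S hS)
    (isSmooth_idCRep S) p V V' hle hn hidx σ hσV hσV' (idC'ToCS S) (idC'ToCS_injective S) hb hW
    (fun y _ => cfiP_hT S p ha y) hFI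

include hS in
/-- **(C-FI), the hypothesis `hFI` of `s55Side_main` verbatim**, from the four inputs in universal
form: (a) `Cl_∞` prime-to-`p` torsion, (b₀) `Hlc¹(V', 𝕌)[p] = 0` at open `V'`, (hW) `𝕌^V ⊆ N 𝕌^{V'}`
up to multipliers prime to `p`, (hFIℂ) the first inequality for `ℂ`. -/
theorem cfiP_hFI_all
    (ha : ∀ x : idClRep S, ∃ m : ℕ, Nat.Coprime m p ∧ m • x = 0)
    (hb : ∀ V' : Subgroup Γℚ, IsOpenFor (famS S) V' →
      ∀ c : Hlc ((famS S).restrict V') (res V'.subtype (idURep S)) 1, p • c = 0 → c = 0)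
    (hW : ∀ V : Subgroup Γℚ, IsCycloLevel p S V → ∀ V' : Subgroup Γℚ, V' ≤ V →
      (V'.subgroupOf V).Normal → IsOpenFor (famS S) V' → V'.relIndex V = p → ∀ σ ∈ V, σ ∉ V' →
      ∀ w : idURep S, (∀ g ∈ V, (idURep S).ρ g w = w) → ∃ m : ℕ, m.Coprime p ∧
        ∃ w' : idURep S, (∀ u ∈ V', (idURep S).ρ u w' = w') ∧
          ∑ i ∈ Finset.range p, (idURep S).ρ (σ ^ i) w' = m • w)
    (hFI : ∀ V : Subgroup Γℚ, IsCycloLevel p S V → ∀ V' : Subgroup Γℚ, V' ≤ V →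
      (V'.subgroupOf V).Normal → IsOpenFor (famS S) V' → V'.relIndex V = p → ∀ σ ∈ V, σ ∉ V' →
      ∃ x : idCRep S, (∀ g ∈ V, (idCRep S).ρ g x = x) ∧
        ∀ x' : idCRep S, (∀ u ∈ V', (idCRep S).ρ u x' = x') →
          ∑ i ∈ Finset.range p, (idCRep S).ρ (σ ^ i) x' ≠ x) :
    ∀ V : Subgroup Γℚ, IsCycloLevel p S V → ∀ V' : Subgroup Γℚ, V' ≤ V →
      (V'.subgroupOf V).Normal → IsOpenFor (famS S) V' → V'.relIndex V = p → ∀ σ ∈ V, σ ∉ V' →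
      ∃ x : idC'Rep S, (∀ g ∈ V, (idC'Rep S).ρ g x = x) ∧
        ∀ b : idC'Rep S, (∀ u ∈ V', (idC'Rep S).ρ u b = b) →
          x ≠ ∑ i ∈ Finset.range p, (idC'Rep S).ρ (σ ^ i) b :=
  fun V hV V' hle hn hV' hidx σ hσV hσV' =>
    cfiP_hFI S hS p V V' hle hn hidx σ hσV hσV' ha (hb V' hV')
      (hW V hV V' hle hn hV' hidx σ hσV hσV') (hFI V hV V' hle hn hV' hidx σ hσV hσV')

end Inst

end Fermat.Agent.PT
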