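/-
CFT, S55 pool, GLOBAL-IDELIC layer, (K0) part 4 (helper27): functoriality of the finite-level maps
`idLevelHom f : ideleGroup ℚ L →* slProd` of `PT/IdeleLevel.lean`.

* `idLevelHom_relIdele` (fact (2)): compatibility with `relIdele ℚ M L : J_M → J_L`;
* `idLevelHom_smul` (fact (4)): equivariance along `σ ↦ g` with `f ∘ σ = g ∘ f`
  (action of `Gal(L/ℚ)` on `J_L` = the scoped `IdeleAct` action of `Idele/Defs.lean`);
  `idLevelHom_smul_of` for a generic group acting through `ideleGroupActionOf`;
* `idLevelHom_comp_algEquiv`: change of the embedding.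
-/
import Fermat.Agent.CFT.PT.IdeleLevel
import Fermat.Agent.CFT.Idele.Relative
import Fermat.Agent.CFT.Idele.ActionGen

set_option autoImplicit false

namespace Fermat.Agent.PT

open CategoryTheory Fermat.Agent.CFT IntermediateField NumberField IsDedekindDomain
open scoped TensorProduct Fermat.Agent.CFT.TensorGal Fermat.Agent.CFT.IdeleAct

local notation "Qb" => AlgebraicClosure ℚ
local notation "Γℚ" => (AlgebraicClosure ℚ ≃ₐ[ℚ] AlgebraicClosure ℚ)

attribute [local instance] Units.mulDistribMulActionRight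
attribute [local instance] slQbUnitsAction

noncomputable section

section Tower

variable {M L : Type} [Field M] [NumberField M] [Field L] [NumberField L] [Algebra M L]
  [IsScalarTower ℚ M L]

/-- fact (2): `ι_f ∘ relIdele = ι_{f|M}`. -/
theorem idLevelHom_relIdele (f : L →ₐ[ℚ] Qb) (y : ideleGroup ℚ M) :
    idLevelHom f (relIdele ℚ M L y) = idLevelHom (f.comp (IsScalarTower.toAlgHom ℚ M L)) y := by
  funext v
  apply Units.ext
  rw [idLevelHom_apply_val, idLevelHom_apply_val, relIdele_apply]
  change slBase v f (relSemiLocalMap ℚ M L v ((y.1 v : (semiLocal ℚ M v)ˣ) : semiLocal ℚ M v)) = _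
  generalize ((y.1 v : (semiLocal ℚ M v)ˣ) : semiLocal ℚ M v) = z
  induction z using TensorProduct.induction_on with
  | zero => rw [map_zero, map_zero, map_zero]
  | tmul a m =>
    change slBase v f (relTensorMap (a ⊗ₜ[ℚ] m)) = _
    rw [relTensorMap_tmul, slBase_tmul, slBase_tmul]
    rfl
  | add z w hz hw => rw [map_add, map_add, map_add, hz, hw]

end Tower

section Equivariance

variable {L : Type} [Field L] [NumberField L]

/-- fact (4): `ι_f (σ • x) = g • ι_f x` when `f ∘ σ = g ∘ f`. -/
theorem idLevelHom_smul (f : L →ₐ[ℚ] Qb) (σ : L ≃ₐ[ℚ] L) (g : Γℚ) (h : ∀ y, f (σ y) = g (f y))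
    (x : ideleGroup ℚ L) : idLevelHom f (σ • x) = g • idLevelHom f x := by
  funext v
  apply Units.ext
  rw [slProd_smul_apply, slQb_units_smul_val, idLevelHom_apply_val, idLevelHom_apply_val,
    ideleGroup_smul_apply, units_smul_val]
  generalize ((x.1 v : (semiLocal ℚ L v)ˣ) : semiLocal ℚ L v) = z
  induction z using TensorProduct.induction_on with
  | zero => rw [smul_zero, map_zero, smul_zero]
  | tmul a y =>
    rw [tensorRight_smul_tmul, slBase_tmul, slBase_tmul, slQb_smul_tmul]
    congr 1
    exact h y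
  | add z w hz hw => rw [smul_add, map_add, map_add, smul_add, hz, hw]

/-- fact (4) for a generic group acting on `L` (action `ideleGroupActionOf`). -/
theorem idLevelHom_smul_of {G : Type} [Group G] [MulSemiringAction G L] [SMulCommClass G ℚ L]
    (f : L →ₐ[ℚ] Qb) (τ : G) (g : Γℚ) (h : ∀ y, f (τ • y) = g (f y)) (x : ideleGroup ℚ L) :
    letI := ideleGroupActionOf ℚ L G
    idLevelHom f (τ • x) = g • idLevelHom f x :=
  idLevelHom_smul f (MulSemiringAction.toAlgAut G ℚ L τ) g h x

/-- change of the embedding: `ι_{f ∘ σ} = ι_f ∘ σ`. -/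
theorem idLevelHom_comp_algEquiv (f : L →ₐ[ℚ] Qb) (σ : L ≃ₐ[ℚ] L) (x : ideleGroup ℚ L) :
    idLevelHom (f.comp (σ : L →ₐ[ℚ] L)) x = idLevelHom f (σ • x) := by
  funext v
  apply Units.ext
  rw [idLevelHom_apply_val, idLevelHom_apply_val, ideleGroup_smul_apply, units_smul_val]
  generalize ((x.1 v : (semiLocal ℚ L v)ˣ) : semiLocal ℚ L v) = z
  induction z using TensorProduct.induction_on with
  | zero => rw [smul_zero, map_zero, map_zero]
  | tmul a y =>
    rw [tensorRight_smul_tmul, slBase_tmul, slBase_tmul]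
    rfl
  | add z w hz hw => rw [smul_add, map_add, map_add, hz, hw]

end Equivariance

end

end Fermat.Agent.PT
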