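/-
S55 engine, (K9) = (C-FI), the first inequality for `ℂ = 𝕁 / 𝕂` at a relatively normal layer
(helper17).

Target (`hFI` argument of `cfiP_hFI_all`, `PT/CFIPlug.lean`): for `V' ≤ V` subgroups of `Γℚ`
(`V'` normal in `V` of index `p`, `σ ∈ V ∖ V'`) some `V`-invariant `x` of `ℂ = idCRep S` is not of
the form `∑_{i<p} σ^i x'` with `x'` a `V'`-invariant of `ℂ`.

* `cfi_sum_sqMk`, `cfi_core`, `cfi_not_mem_of_levels`, `cfi_firstIneq_of_levels` : model-free
  (ambient multiplicative `G`-module `X`, stable subgroups `𝕁`, `𝕂`, on top of helper29's `sqRep`):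
  the non-norm class from finite-level data `ι_M : J_M → X`, `ι_L : J_L → X`, `N : J_L → J_M`
  (lifting of invariants, norm compatibility, kernel property, a finite-level non-norm);
* `cfi_prod_eq_prod_range` : `∏_{τ ∈ Gal} F τ = ∏_{i<p} F (σ̄^i)` for a generator `σ̄`;
* `cfi_norm_pow` : `ι_M (N_{L/M} z) = ∏_{i<p} σ^i • ι_L z` for helper27's `idLevelHom`;
* `cfi_exists_not_mem` : a finite-level non-norm idele on a cyclic layer of odd prime degree;
* `cfi_firstIneq_of_layer` : the first inequality for `idCRep S` from a number-field layer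
  `M ⊆ L` (`L / M` cyclic of degree `p`, not necessarily normal over `ℚ`) embedded in `Qb`.
-/
import Fermat.Agent.CFT.PT.SubQuotRep
import Fermat.Agent.CFT.PT.IdeleLevelMaps
import Fermat.Agent.CFT.Idele.FirstIneqRelGen
import Fermat.Agent.CFT.Idele.SecondIneqRelMain

set_option autoImplicit false

namespace Fermat.Agent.PT

open CategoryTheory groupCohomology Rep

section ModelFree

variable {G : Type} [Group G] {X : Type} [CommGroup X] [MulDistribMulAction G X]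

section Core

variable (JS B : Subgroup X) (hJS : IsStableSub G JS) (hB : IsStableSub G B)

/-- the `σ`-norm of a class of `sqRep`. -/
theorem cfi_sum_sqMk (σ : G) (n : ℕ) (y : JS) :
    ∑ i ∈ Finset.range n, (sqRep JS B hJS hB).ρ (σ ^ i) (sqMk JS B hJS hB y) =
      sqMk JS B hJS hB ⟨∏ i ∈ Finset.range n, σ ^ i • (y : X),
        Subgroup.prod_mem _ fun i _ => hJS (σ ^ i) y y.2⟩ := by
  induction n with
  | zero => rfl
  | succ n ih =>
    rw [Finset.sum_range_succ, ih, sqRep_ρ_sqMk, ← sqMk_mul]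
    congr 1
    apply Subtype.ext
    exact (Finset.prod_range_succ (fun i => σ ^ i • (y : X)) n).symm

/-- **(C-FI), core**: `ξ` fixed by `V`, `j ∈ J_S` with `ξ / j ∈ B`; if no `y ∈ J_S` invariant
under `V'` modulo `B` has `σ`-norm `ξ` modulo `B`, then the class of `j` in `J_S / (J_S ⊓ B)` is
`V`-invariant and is not the `σ`-norm of a `V'`-invariant class. -/
theorem cfi_core (V V' : Subgroup G) (σ : G) (p : ℕ) (ξ : X) (hξ : ∀ g ∈ V, g • ξ = ξ)
    (j : X) (hj : j ∈ JS) (hjξ : ξ / j ∈ B)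
    (hnn : ∀ y ∈ JS, (∀ u ∈ V', u • y / y ∈ B) →
      (∏ i ∈ Finset.range p, σ ^ i • y) / ξ ∉ B) :
    ∃ x : sqRep JS B hJS hB, (∀ g ∈ V, (sqRep JS B hJS hB).ρ g x = x) ∧
      ∀ b : sqRep JS B hJS hB, (∀ u ∈ V', (sqRep JS B hJS hB).ρ u b = b) →
        x ≠ ∑ i ∈ Finset.range p, (sqRep JS B hJS hB).ρ (σ ^ i) b := by
  refine ⟨sqMk JS B hJS hB ⟨j, hj⟩, ?_, ?_⟩
  · intro g hg
    rw [sqRep_ρ_sqMk, sqMk_eq_iff]
    show (g • j)⁻¹ * j ∈ B
    have h1 : g • (ξ / j) ∈ B := hB g _ hjξ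
    rw [smul_div', hξ g hg] at h1
    have h2 : (ξ / g • j) * (ξ / j)⁻¹ ∈ B := B.mul_mem h1 (B.inv_mem hjξ)
    have h3 : (ξ / g • j) * (ξ / j)⁻¹ = (g • j)⁻¹ * j := by
      rw [div_eq_mul_inv, div_eq_mul_inv, mul_inv, inv_inv]
      calc ξ * (g • j)⁻¹ * (ξ⁻¹ * j) = (ξ * ξ⁻¹) * ((g • j)⁻¹ * j) := by
            simp only [mul_comm, mul_left_comm, mul_assoc]
        _ = (g • j)⁻¹ * j := by rw [mul_inv_cancel, one_mul]
    rwa [h3] at h2
  · intro b hb hx
    obtain ⟨y, rfl⟩ := sqMk_surjective JS B hJS hB b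
    have hy : ∀ u ∈ V', u • (y : X) / (y : X) ∈ B := by
      intro u hu
      have h1 := hb u hu
      rw [sqRep_ρ_sqMk, sqMk_eq_iff] at h1
      have h1' : (u • (y : X))⁻¹ * (y : X) ∈ B := h1
      have h2 : ((u • (y : X))⁻¹ * (y : X))⁻¹ ∈ B := B.inv_mem h1'
      have h3 : ((u • (y : X))⁻¹ * (y : X))⁻¹ = u • (y : X) / (y : X) := by
        rw [mul_inv, inv_inv, div_eq_mul_inv]
      rwa [h3] at h2
    apply hnn y y.2 hy
    rw [cfi_sum_sqMk, sqMk_eq_iff] at hx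
    have h1 : j⁻¹ * ∏ i ∈ Finset.range p, σ ^ i • (y : X) ∈ B := hx
    have h2 : (j⁻¹ * ∏ i ∈ Finset.range p, σ ^ i • (y : X)) * (ξ / j)⁻¹ ∈ B :=
      B.mul_mem h1 (B.inv_mem hjξ)
    have h3 : (j⁻¹ * ∏ i ∈ Finset.range p, σ ^ i • (y : X)) * (ξ / j)⁻¹ =
        (∏ i ∈ Finset.range p, σ ^ i • (y : X)) / ξ := by
      rw [div_eq_mul_inv, div_eq_mul_inv, mul_inv, inv_inv]
      calc j⁻¹ * (∏ i ∈ Finset.range p, σ ^ i • (y : X)) * (ξ⁻¹ * j)
          = (j⁻¹ * j) * ((∏ i ∈ Finset.range p, σ ^ i • (y : X)) * ξ⁻¹) := by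
            simp only [mul_comm, mul_left_comm, mul_assoc]
        _ = (∏ i ∈ Finset.range p, σ ^ i • (y : X)) * ξ⁻¹ := by rw [inv_mul_cancel, one_mul]
    rwa [h3] at h2

end Core

section Levels

variable (B : Subgroup X) (hB : IsStableSub G B)

include hB in
/-- **(C-FI), transfer from the finite levels**: the non-norm property modulo `B` from the lifting
of `V'`-invariants to the level `L`, the norm compatibility, the kernel property at the level `M`
and a finite-level non-norm. -/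
theorem cfi_not_mem_of_levels {JM JL : Type} [CommGroup JM] [CommGroup JL]
    (ιM : JM →* X) (ιL : JL →* X) (N : JL →* JM) (PU : Subgroup JM)
    (𝕁 : Subgroup X) (V' : Subgroup G) (σ : G) (p : ℕ)
    (hlift : ∀ y ∈ 𝕁, (∀ u ∈ V', u • y / y ∈ B) → ∃ z : JL, y / ιL z ∈ B)
    (hnorm : ∀ z : JL, ∏ i ∈ Finset.range p, σ ^ i • ιL z = ιM (N z))
    (hker : ∀ w : JM, ιM w ∈ B → w ∈ PU)
    (ξ₀ : JM) (hξ₀ : ξ₀ ∉ PU ⊔ N.range)
    (y : X) (hy : y ∈ 𝕁) (hinv : ∀ u ∈ V', u • y / y ∈ B) :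
    (∏ i ∈ Finset.range p, σ ^ i • y) / ιM ξ₀ ∉ B := by
  intro hmem
  obtain ⟨z, hz⟩ := hlift y hy hinv
  have h1 : ∏ i ∈ Finset.range p, σ ^ i • (y / ιL z) ∈ B :=
    Subgroup.prod_mem _ fun i _ => hB (σ ^ i) _ hz
  have h2 : ∏ i ∈ Finset.range p, σ ^ i • (y / ιL z) =
      (∏ i ∈ Finset.range p, σ ^ i • y) / ιM (N z) := by
    rw [← hnorm z, ← Finset.prod_div_distrib]
    exact Finset.prod_congr rfl fun i _ => smul_div' _ _ _
  rw [h2] at h1
  have h3 : ιM (ξ₀ / N z) ∈ B := by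
    have h4 : ((∏ i ∈ Finset.range p, σ ^ i • y) / ιM ξ₀)⁻¹ *
        ((∏ i ∈ Finset.range p, σ ^ i • y) / ιM (N z)) ∈ B := B.mul_mem (B.inv_mem hmem) h1
    have h5 : ((∏ i ∈ Finset.range p, σ ^ i • y) / ιM ξ₀)⁻¹ *
        ((∏ i ∈ Finset.range p, σ ^ i • y) / ιM (N z)) = ιM (ξ₀ / N z) := by
      rw [map_div, inv_div, div_mul_div_cancel]
    rwa [h5] at h4
  have h6 := hker _ h3
  apply hξ₀
  have h7 : ξ₀ = (ξ₀ / N z) * N z := by rw [div_mul_cancel]
  rw [h7]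
  exact Subgroup.mul_mem_sup h6 ⟨z, rfl⟩

/-- **(C-FI) for `𝕁 / B`, model-free**: a `V`-invariant class which is not the `σ`-norm of a
`V'`-invariant class, from finite-level data. -/
theorem cfi_firstIneq_of_levels (𝕁 : Subgroup X) (h𝕁 : IsStableSub G 𝕁)
    {JM JL : Type} [CommGroup JM] [CommGroup JL]
    (ιM : JM →* X) (ιL : JL →* X) (N : JL →* JM) (PU : Subgroup JM)
    (V V' : Subgroup G) (σ : G) (p : ℕ)
    (hιM : ∀ w, ιM w ∈ 𝕁) (hfixM : ∀ g ∈ V, ∀ w, g • ιM w = ιM w)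
    (hlift : ∀ y ∈ 𝕁, (∀ u ∈ V', u • y / y ∈ B) → ∃ z : JL, y / ιL z ∈ B)
    (hnorm : ∀ z : JL, ∏ i ∈ Finset.range p, σ ^ i • ιL z = ιM (N z))
    (hker : ∀ w : JM, ιM w ∈ B → w ∈ PU)
    (ξ₀ : JM) (hξ₀ : ξ₀ ∉ PU ⊔ N.range) :
    ∃ x : sqRep 𝕁 B h𝕁 hB, (∀ g ∈ V, (sqRep 𝕁 B h𝕁 hB).ρ g x = x) ∧
      ∀ x' : sqRep 𝕁 B h𝕁 hB, (∀ u ∈ V', (sqRep 𝕁 B h𝕁 hB).ρ u x' = x') →
        ∑ i ∈ Finset.range p, (sqRep 𝕁 B h𝕁 hB).ρ (σ ^ i) x' ≠ x := by
  obtain ⟨x, hx, hxN⟩ := cfi_core 𝕁 B h𝕁 hB V V' σ p (ιM ξ₀) (fun g hg => hfixM g hg ξ₀)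
    (ιM ξ₀) (hιM ξ₀) (by rw [div_self']; exact B.one_mem)
    (fun y hy hinv => cfi_not_mem_of_levels B hB ιM ιL N PU 𝕁 V' σ p hlift hnorm hker ξ₀ hξ₀
      y hy hinv)
  exact ⟨x, hx, fun x' hx' h => hxN x' hx' h.symm⟩

end Levels

end ModelFree

section Concrete

open Fermat.Agent.CFT IntermediateField NumberField IsDedekindDomain
open scoped TensorProduct Fermat.Agent.CFT.TensorGal Fermat.Agent.CFT.IdeleAct

local notation "Qb" => AlgebraicClosure ℚ
local notation "Γℚ" => (AlgebraicClosure ℚ ≃ₐ[ℚ] AlgebraicClosure ℚ)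

attribute [local instance] Units.mulDistribMulActionRight
attribute [local instance] slQbUnitsAction

/-- reindexing a product over a finite cyclic group by the powers of a generator. -/
theorem cfi_prod_eq_prod_range {Q : Type*} [Group Q] [Fintype Q] {A : Type*} [CommMonoid A]
    (τ : Q) (hgen : ∀ x, x ∈ Subgroup.zpowers τ) (p : ℕ) (hcard : Nat.card Q = p) (F : Q → A) :
    ∏ x, F x = ∏ i ∈ Finset.range p, F (τ ^ i) := by
  classical
  have hord : orderOf τ = p := by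
    rw [orderOf_eq_card_of_forall_mem_zpowers hgen, hcard]
  have himg : Finset.image (fun i => τ ^ i) (Finset.range p) = Finset.univ := by
    rw [← hord]
    exact IsCyclic.image_range_orderOf hgen
  rw [← himg, Finset.prod_image]
  intro a ha b hb hab
  rw [Finset.coe_range, ← hord] at ha hb
  exact pow_injOn_Iio_orderOf ha hb hab

section Layer

variable {M L : Type} [Field M] [NumberField M] [Field L] [NumberField L] [Algebra M L]
  [IsScalarTower ℚ M L] [IsGalois M L]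

/-- the norm compatibility of the finite-level maps on a cyclic layer. -/
theorem cfi_norm_pow (f : L →ₐ[ℚ] Qb) (σ : Γℚ) (σb : Gal(L/M))
    (hσb : ∀ y, f (σb y) = σ (f y)) (hgen : ∀ τ, τ ∈ Subgroup.zpowers σb) (p : ℕ)
    (hcard : Nat.card Gal(L/M) = p) (z : ideleGroup ℚ L) :
    ∏ i ∈ Finset.range p, σ ^ i • idLevelHom f z =
      idLevelHom (f.comp (IsScalarTower.toAlgHom ℚ M L)) (relIdeleNorm ℚ M L z) := by
  have hpow : ∀ (i : ℕ) (y : L), f ((σb ^ i) y) = (σ ^ i) (f y) := by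
    intro i
    induction i with
    | zero => intro y; rw [pow_zero, pow_zero]; rfl
    | succ n ih =>
      intro y
      rw [pow_succ, pow_succ, AlgEquiv.mul_apply, AlgEquiv.mul_apply, ih, hσb]
  rw [← idLevelHom_relIdele, relIdele_relIdeleNorm, map_prod,
    cfi_prod_eq_prod_range σb hgen p hcard]
  refine Finset.prod_congr rfl fun i _ => ?_
  exact (idLevelHom_smul f (relGalHom ℚ M L (σb ^ i)) (σ ^ i) (fun y => hpow i y) z).symm

/-- a finite-level non-norm idele on a cyclic layer of odd prime degree `p` with `ζ_p ∈ M`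
(second inequality: `[J_M : Mˣ · N J_L] = p`). -/
theorem cfi_exists_not_mem {p : ℕ} (hp : p.Prime) (hp2 : p ≠ 2) {ζ : M}
    (hζ : IsPrimitiveRoot ζ p) (hcard : Nat.card Gal(L/M) = p)
    {σb : Gal(L/M)} (hgen : ∀ τ, τ ∈ Subgroup.zpowers σb) :
    ∃ ξ : ideleGroup ℚ M, ξ ∉ principalIdeles ℚ M ⊔ (relIdeleNorm ℚ M L).range := by
  have hidx := (idFRG_cyclic_layer (K := ℚ) hp hp2 hζ hcard hgen).2.2
  rw [sIR_index_range_relClassNorm_eq] at hidx
  have hne : principalIdeles ℚ M ⊔ (relIdeleNorm ℚ M L).range ≠ ⊤ := by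
    intro htop
    rw [htop, Subgroup.index_top] at hidx
    exact hp.one_lt.ne hidx
  by_contra hall
  push Not at hall
  exact hne (eq_top_iff.mpr fun x _ => hall x)

variable (S : Finset Nat.Primes)

/-- **(C-FI) for `ℂ = idCRep S` from a number-field layer** `M ⊆ L` (`L / M` cyclic of odd prime
degree `p`, `ζ_p ∈ M`; `L` need not be normal over `ℚ`) embedded in `Qb` by `f` with
`f(L) ⊆ ℚ_S`: if `V` fixes `f(M)`, `σ` induces the generator `σb` of `Gal(L/M)` and the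
`V'`-invariant classes of `ℂ` come from `J_L`, then some `V`-invariant of `ℂ` is not the `σ`-norm
of a `V'`-invariant. -/
theorem cfi_firstIneq_of_layer {p : ℕ} (hp : p.Prime) (hp2 : p ≠ 2) {ζ : M}
    (hζ : IsPrimitiveRoot ζ p) (hcard : Nat.card Gal(L/M) = p)
    (f : L →ₐ[ℚ] Qb) (hf : f.fieldRange ≤ QS S) (V V' : Subgroup Γℚ) (σ : Γℚ)
    (hV : V ≤ (f.comp (IsScalarTower.toAlgHom ℚ M L)).fieldRange.fixingSubgroup)
    (σb : Gal(L/M)) (hσb : ∀ y, f (σb y) = σ (f y)) (hgen : ∀ τ, τ ∈ Subgroup.zpowers σb)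
    (hlift : ∀ y ∈ JFull S, (∀ u ∈ V', u • y / y ∈ idK S) →
      ∃ z : ideleGroup ℚ L, ∃ k ∈ idK S, y = idLevelHom f z * k) :
    ∃ x : idCRep S, (∀ g ∈ V, (idCRep S).ρ g x = x) ∧
      ∀ x' : idCRep S, (∀ u ∈ V', (idCRep S).ρ u x' = x') →
        ∑ i ∈ Finset.range p, (idCRep S).ρ (σ ^ i) x' ≠ x := by
  obtain ⟨ξ₀, hξ₀⟩ := cfi_exists_not_mem (L := L) hp hp2 hζ hcard hgen
  have hfM : (f.comp (IsScalarTower.toAlgHom ℚ M L)).fieldRange ≤ QS S := by
    refine le_trans ?_ hf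
    rintro _ ⟨y, rfl⟩
    exact ⟨IsScalarTower.toAlgHom ℚ M L y, rfl⟩
  exact cfi_firstIneq_of_levels (idK S) (isStableSub_idK S) (JFull S) (isStableSub_JFull S)
    (idLevelHom (f.comp (IsScalarTower.toAlgHom ℚ M L))) (idLevelHom f) (relIdeleNorm ℚ M L)
    (principalIdeles ℚ M) V V' σ p
    (fun w => idLevelHom_mem_JFull _ S hfM w)
    (fun g hg w => smul_idLevelHom_of_mem_fixingSubgroup _ (hV hg) w)
    (fun y hy hinv => by
      obtain ⟨z, k, hk, hyz⟩ := hlift y hy hinv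
      refine ⟨z, ?_⟩
      rw [hyz, mul_div_cancel_left]
      exact hk)
    (fun z => cfi_norm_pow f σ σb hσb hgen p hcard z)
    (fun w hw => (idLevelHom_mem_idK_iff _ S hfM w).1 hw)
    ξ₀ hξ₀

end Layer

end Concrete

end Fermat.Agent.PT
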