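/-
S55 engine, (K9) = (C-FI): **the first inequality for `ℂ = idCRep S`**, final form (helper17).

`cfi_hFIC S p hp2` is VERBATIM the `hFI` argument of `cfiP_hFI_all` (`PT/CFIPlug.lean`, helper26):
for a cyclo-level `V`, `V' ≤ V` open, normal in `V` of index `p` (odd), `σ ∈ V ∖ V'`, some
`V`-invariant of `ℂ` is not of the form `∑_{i<p} σ^i x'` with `x'` a `V'`-invariant of `ℂ`.

Instantiation of `cfi_firstIneq_of_layer` (`PT/CFITransfer.lean`) at `M = fixedField V`,
`L = fixedField V'` (`L` is NOT normal over `ℚ` in general) with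
* helper20's relatively normal layer `lvqR_pi`, `lvqR_isGalois`, `lvqR_card_gal`,
  `lvqR_mem_zpowers` (`Bridge/LevelQuotRel.lean`);
* helper28's finite-level Hilbert 90 descent `idLC_exists_of_invariant` (`PT/IdeleLevelC.lean`);
* helper4's `fcLv_exists_primitiveRoot` (`Bridge/FundClassLevel.lean`).
-/
import Fermat.Agent.CFT.PT.CFITransfer
import Fermat.Agent.CFT.Bridge.LevelQuotRel
import Fermat.Agent.CFT.Bridge.LevelQuot
import Fermat.Agent.CFT.Bridge.FundClassLevel
import Fermat.Agent.CFT.PT.IdeleLevelC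

set_option autoImplicit false
set_option linter.style.haveILetI false

namespace Fermat.Agent.PT

open CategoryTheory Fermat.Agent.CFT Fermat.Agent.CFT.S14 IntermediateField NumberField
  IsDedekindDomain
open scoped TensorProduct Fermat.Agent.CFT.TensorGal Fermat.Agent.CFT.IdeleAct

local notation "Qb" => AlgebraicClosure ℚ
local notation "Γℚ" => (AlgebraicClosure ℚ ≃ₐ[ℚ] AlgebraicClosure ℚ)

attribute [local instance] Units.mulDistribMulActionRight
attribute [local instance] slQbUnitsAction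

variable (S : Finset Nat.Primes)

/-- the lifting property of `V'`-invariant classes of `ℂ`, at `slProd` level. -/
theorem cfi_hlift {V' : Subgroup Γℚ} (hV' : IsOpenFor (famS S) V') :
    haveI := lvq_numberField_fixedField S hV'
    ∀ y ∈ JFull S, (∀ u ∈ V', u • y / y ∈ idK S) →
      ∃ z : ideleGroup ℚ (fixedField V'), ∃ k ∈ idK S,
        y = idLevelHom (ratVal (fixedField V')) z * k := by
  haveI := lvq_numberField_fixedField S hV'
  haveI := lvq_finiteDimensional_fixedField S hV'
  intro y hy hinv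
  have hfix : (fixedField V').fixingSubgroup = V' := lvq_fixingSubgroup_fixedField S hV'
  obtain ⟨z, k, hk, hyz⟩ := idLC_exists_of_invariant (fixedField V') (lvq_fixedField_le_QS S hV')
    ⟨y, hy⟩ (fun σ hσ => by
      rw [idLC_mem_K_iff]
      exact hinv σ (hfix ▸ hσ))
  refine ⟨z, (k : slProd), (idLC_mem_K_iff S k).1 hk, ?_⟩
  have := congrArg (fun t : JFull S => (t : slProd)) hyz
  simpa [idLC_coe_ι] using this

/-- **(C-FI) for `ℂ = idCRep S`**: the `hFI` input of `cfiP_hFI_all` (`PT/CFIPlug.lean`). -/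
theorem cfi_hFIC (p : ℕ) [hp : Fact p.Prime] (hp2 : p ≠ 2) :
    ∀ V : Subgroup Γℚ, IsCycloLevel p S V → ∀ V' : Subgroup Γℚ, V' ≤ V →
      (V'.subgroupOf V).Normal → IsOpenFor (famS S) V' → V'.relIndex V = p → ∀ σ ∈ V, σ ∉ V' →
      ∃ x : idCRep S, (∀ g ∈ V, (idCRep S).ρ g x = x) ∧
        ∀ x' : idCRep S, (∀ u ∈ V', (idCRep S).ρ u x' = x') →
          ∑ i ∈ Finset.range p, (idCRep S).ρ (σ ^ i) x' ≠ x := by
  intro V hV V' hle hn hV' hidx σ hσV hσV'
  have hVo : IsOpenFor (famS S) V := lvq_isOpenFor_of_mem S hV.1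
  have hN : IsOpen (V' : Set Γℚ) := lvq_isOpen_of_isOpenFor S hV'
  have hML : fixedField V ≤ fixedField V' := fixedField_le_of_le hle
  letI := algebraOfLE hML
  haveI := isScalarTower_of_le hML
  haveI := lvq_numberField_fixedField S hVo
  haveI := lvq_numberField_fixedField S hV'
  haveI := lvqR_isGalois hle hn hN
  obtain ⟨ζ, hζ⟩ := fcLv_exists_primitiveRoot p S hVo hV.2
  have hcard : Nat.card (fixedField V' ≃ₐ[fixedField V] fixedField V') = p :=
    (lvqR_card_gal hle hn hN).trans hidx
  have hfix : (fixedField V).fixingSubgroup = V := lvq_fixingSubgroup_fixedField S hVo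
  refine cfi_firstIneq_of_layer (M := fixedField V) (L := fixedField V') S hp.out hp2 hζ hcard
    (ratVal (fixedField V')) ?_ V V' σ ?_ (lvqR_pi hle hn ⟨σ, hσV⟩) (fun y => rfl)
    (lvqR_mem_zpowers hle hn hN hp.out hidx hσV hσV') (cfi_hlift S hV')
  · rw [fieldRange_ratVal]
    exact lvq_fixedField_le_QS S hV'
  · intro g hg
    rw [← hfix] at hg
    intro x
    obtain ⟨y, hy⟩ := x.2
    rw [← hy]
    exact hg y

end Fermat.Agent.PT
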