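/-
CFT, S55 pool, GLOBAL (K9)/(C-FI), input (hW) (helper24): the invariant unit ideles are norms.

`M ≤ L` number fields (abstract types; `L/M` cyclic, unramified outside `S` in valuation form),
`f : L →ₐ[ℚ] Qb` an embedding with image in `ℚ_S`; `V ⊇ V'` subgroups of `Γℚ` with `Gal(Qb/f(M)) ≤ V`
and `V' ≤ Gal(Qb/f(L))`; `σ : Γℚ` with the norm formula
`ι_M (N_{L/M} c) = ∏_{i<p} σ^i • ι_L c` (helper9's `idLN_norm_pow`).  Then every `V`-invariant
element of `𝕌 = idURep S` is the `σ`-norm of a `V'`-invariant element: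
`cfiU_hW` (= the input (hW) of the plug `PT/CFIPlug.lean`, multiplier `m = 1`).
-/
import Fermat.Agent.CFT.PT.IdeleLevelMaps
import Fermat.Agent.CFT.Idele.UnitIdelesNorm

set_option autoImplicit false

namespace Fermat.Agent.PT

open CategoryTheory Fermat.Agent.CFT IntermediateField NumberField IsDedekindDomain
open scoped TensorProduct Fermat.Agent.CFT.TensorGal Fermat.Agent.CFT.IdeleAct

local notation "Qb" => AlgebraicClosure ℚ
local notation "Γℚ" => (AlgebraicClosure ℚ ≃ₐ[ℚ] AlgebraicClosure ℚ)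

attribute [local instance] Units.mulDistribMulActionRight
attribute [local instance] slQbUnitsAction

section Sum

variable {G : Type} [Group G] {X : Type} [CommGroup X] [MulDistribMulAction G X]
  (A B : Subgroup X) (hA : IsStableSub G A) (hB : IsStableSub G B)

/-- a sum of translates of a class of a subquotient is the class of the product. -/
theorem cfiU_sum_ρ_sqMk (x : A) (g : ℕ → G) (s : Finset ℕ) :
    ∑ i ∈ s, (sqRep A B hA hB).ρ (g i) (sqMk A B hA hB x) =
      sqMk A B hA hB ⟨∏ i ∈ s, g i • (x : X), Subgroup.prod_mem _ fun i _ => hA (g i) x x.2⟩ := by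
  classical
  induction s using Finset.induction_on with
  | empty =>
    rw [Finset.sum_empty]
    exact (sqMk_one A B hA hB).symm
  | insert a t ha ih =>
    rw [Finset.sum_insert ha, ih, sqRep_ρ_sqMk, ← sqMk_mul]
    congr 1
    apply Subtype.ext
    exact (Finset.prod_insert (f := fun i => g i • (x : X)) ha).symm

end Sum

section HW

variable (S : Finset Nat.Primes) (p : ℕ)
  {M L : Type} [Field M] [NumberField M] [Field L] [NumberField L] [Algebra M L]
  [IsScalarTower ℚ M L] [IsGalois M L]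

/-- **(hW)**: the `V`-invariant elements of `𝕌` are `σ`-norms of `V'`-invariant elements. -/
theorem cfiU_hW (f : L →ₐ[ℚ] Qb) (hf : f.fieldRange ≤ QS S) (V V' : Subgroup Γℚ)
    (hV : ∀ g ∈ (f.comp (IsScalarTower.toAlgHom ℚ M L)).fieldRange.fixingSubgroup, g ∈ V)
    (hV' : ∀ u ∈ V', u ∈ f.fieldRange.fixingSubgroup)
    {σb : Gal(L/M)} (hσb : ∀ τ, τ ∈ Subgroup.zpowers σb)
    (hS : ∀ w : HeightOneSpectrum (𝓞 L), primeBelow ℚ L w ∉ placesS S → ∀ x : ℚ,
      w.valuation L (algebraMap ℚ L x) = (primeBelow ℚ L w).valuation ℚ x)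
    (σ : Γℚ)
    (hnorm : ∀ c : ideleGroup ℚ L,
      idLevelHom (f.comp (IsScalarTower.toAlgHom ℚ M L)) (relIdeleNorm ℚ M L c) =
        ∏ i ∈ Finset.range p, σ ^ i • idLevelHom f c)
    (w : idURep S) (hw : ∀ g ∈ V, (idURep S).ρ g w = w) :
    ∃ m : ℕ, m.Coprime p ∧ ∃ w' : idURep S, (∀ u ∈ V', (idURep S).ρ u w' = w') ∧
      ∑ i ∈ Finset.range p, (idURep S).ρ (σ ^ i) w' = m • w := by
  set fM : M →ₐ[ℚ] Qb := f.comp (IsScalarTower.toAlgHom ℚ M L) with hfM
  have hfMle : fM.fieldRange ≤ QS S := by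
    refine le_trans ?_ hf
    rintro _ ⟨y, rfl⟩
    exact ⟨IsScalarTower.toAlgHom ℚ M L y, rfl⟩
  obtain ⟨u, rfl⟩ := sqMk_surjective (idU S) ⊥ (isStableSub_idU S) IsStableSub.bot w
  -- `u` is fixed by `V`
  have hfix : ∀ g ∈ V, g • (u : slProd) = (u : slProd) := by
    intro g hg
    have h1 := hw g hg
    rw [sqRep_ρ_sqMk, sqMk_eq_iff, Subgroup.mem_bot] at h1
    exact (inv_mul_eq_one.1 h1)
  -- `u` comes from an idele of `M`
  have hJ : (u : slProd) ∈ JFull S := idU_le_JFull S u.2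
  obtain ⟨y, hy⟩ := (mem_range_idLevelHom_iff fM (u : slProd)).2
    ⟨fun g hg => hfix g (hV g hg), hJ.2⟩
  have hyU : y ∈ unitIdeleS ℚ M (placesS S) := by
    rw [← idLevelHom_mem_idU_iff fM S hfMle, hy]
    exact u.2
  -- which is a norm of a unit idele of `L`
  obtain ⟨c, hc, hcy⟩ := idUN_exists_relIdeleNorm_eq hσb (placesS S) hS y hyU
  have hcU : idLevelHom f c ∈ idU S := (idLevelHom_mem_idU_iff f S hf c).2 hc
  refine ⟨1, Nat.coprime_one_left p,
    sqMk (idU S) ⊥ (isStableSub_idU S) IsStableSub.bot ⟨idLevelHom f c, hcU⟩, fun u' hu' => ?_, ?_⟩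
  · rw [sqRep_ρ_sqMk]
    congr 1
    apply Subtype.ext
    exact smul_idLevelHom_of_mem_fixingSubgroup f (hV' u' hu') c
  · rw [one_smul, cfiU_sum_ρ_sqMk]
    congr 1
    apply Subtype.ext
    show ∏ i ∈ Finset.range p, σ ^ i • idLevelHom f c = (u : slProd)
    rw [← hnorm, hcy, hy]

end HW

end Fermat.Agent.PT
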