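import Fermat.Agent.CFT.PT.IdeleLevelNorm
import Fermat.Agent.CFT.PT.IdeleLevel
import Fermat.Agent.CFT.PT.Contracts
import Fermat.Agent.CFT.Bridge.LevelQuot
import Fermat.Agent.CFT.Bridge.LevelQuotRel

set_option autoImplicit false
set_option linter.unusedSectionVars false
set_option linter.style.haveILetI false

/-!
# S55 (K9), input (hW): `𝕌^V ⊆ N_{V/V'} 𝕌^{V'}` on a cyclic layer of `famS S`

(helper12, second engine for helper24's `PT/CFIUnits.lean`; own prefix `cfiUB_`, no overlap.)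

`M ≤ L` finite subfields of `Qb`, `L ⊆ ℚ_S`, `L / M` cyclic with generator `σb` lifted by `σ ∈ Γℚ`.
Every `G_M`-invariant element of `𝕌 = idURep S` is `∑_{i < [L:M]} σ^i w'` with `w'` `G_L`-invariant
(unit ideles are norms in unramified extensions, helper9's `idUN_exists_relIdeleNorm_eq`, transported
by the finite-level maps `idLevelHom`).

* `cfiUB_sum_ρ_sqMk`, `cfiUB_units_norm` (intermediate-field form);
* **`cfiUB_hW`** : the hypothesis `hW` of helper26's `cfiP_hFI_all`, verbatim (with `m = 1`).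
-/

namespace Fermat.Agent.PT

open CategoryTheory Fermat.Agent.CFT Fermat.Agent.CFT.S14 IntermediateField NumberField
  IsDedekindDomain
open scoped TensorProduct Fermat.Agent.CFT.TensorGal Fermat.Agent.CFT.IdeleAct

local notation "Qb" => AlgebraicClosure ℚ
local notation "Γℚ" => (AlgebraicClosure ℚ ≃ₐ[ℚ] AlgebraicClosure ℚ)

attribute [local instance] Units.mulDistribMulActionRight
attribute [local instance] slQbUnitsAction

noncomputable section

variable (S : Finset Nat.Primes)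

/-- a sum of translates of a class of `𝕌` is the class of the product. -/
theorem cfiUB_sum_ρ_sqMk (s : Finset ℕ) (σ : Γℚ) (z : ↥(idU S)) :
    ∑ i ∈ s, (idURep S).ρ (σ ^ i) (sqMk (idU S) ⊥ (isStableSub_idU S) IsStableSub.bot z) =
      sqMk (idU S) ⊥ (isStableSub_idU S) IsStableSub.bot
        ⟨∏ i ∈ s, σ ^ i • (z : slProd),
          Subgroup.prod_mem _ fun i _ => isStableSub_idU S (σ ^ i) _ z.2⟩ := by
  classical
  induction s using Finset.induction_on with
  | empty =>
    simp only [Finset.sum_empty, Finset.prod_empty]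
    exact (sqMk_one (idU S) ⊥ (isStableSub_idU S) IsStableSub.bot).symm
  | insert a s ha ih =>
    rw [Finset.sum_insert ha, ih, sqRep_ρ_sqMk, ← sqMk_mul]
    refine congrArg _ (Subtype.ext ?_)
    exact (Finset.prod_insert (f := fun i => σ ^ i • (z : slProd)) ha).symm

section Fields

attribute [local instance] sUF_numberField sUF_algebra sUF_isScalarTower sUF_isScalarTower'

variable {M L : IntermediateField ℚ Qb} [hML : Fact (M ≤ L)]
  [FiniteDimensional ℚ M] [FiniteDimensional ℚ L] [IsGalois M L]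

/-- **(hW), intermediate-field form.** -/
theorem cfiUB_units_norm (hL : L.IsUnramifiedOutside S) (σ : Γℚ) (σb : Gal(L/M))
    (h : ∀ y : L, ((σb y : L) : Qb) = σ (y : Qb)) (hgen : ∀ τ, τ ∈ Subgroup.zpowers σb)
    (w : idURep S) (hw : ∀ g ∈ M.fixingSubgroup, (idURep S).ρ g w = w) :
    ∃ w' : idURep S, (∀ u ∈ L.fixingSubgroup, (idURep S).ρ u w' = w') ∧
      ∑ i ∈ Finset.range (Nat.card Gal(L/M)), (idURep S).ρ (σ ^ i) w' = w := by
  obtain ⟨x, rfl⟩ := sqMk_surjective (idU S) ⊥ (isStableSub_idU S) IsStableSub.bot w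
  have hfix : ∀ g ∈ M.fixingSubgroup, g • (x : slProd) = x := by
    intro g hg
    have h1 := hw g hg
    rw [sqRep_ρ_sqMk, sqMk_eq_iff, Subgroup.mem_bot] at h1
    exact inv_mul_eq_one.1 h1
  have hLS : L ≤ QS S := le_QS_of_isUnramifiedOutside S hL
  have hfL : (ratVal L).fieldRange ≤ QS S := by
    rw [fieldRange_ratVal]; exact hLS
  have hfM : (ratVal M).fieldRange ≤ QS S := by
    rw [fieldRange_ratVal]; exact hML.out.trans hLS
  obtain ⟨y, hy⟩ := exists_idLevelHom_eq_of_forall_smul_eq S M (ratVal M) (fun _ => rfl)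
    x.2.1 hfix
  have hyU : y ∈ unitIdeleS ℚ M (placesS S) :=
    (idLevelHom_mem_idU_iff (ratVal M) S hfM y).1 (by rw [hy]; exact x.2)
  obtain ⟨c, hc, hNc⟩ := idUN_exists_relIdeleNorm_eq (K := ℚ) (M := M) (L := L) hgen (placesS S)
    (fun w hw a => urVG_hval_placesS S L hL w hw a) y hyU
  have hcU : idLevelHom (ratVal L) c ∈ idU S := (idLevelHom_mem_idU_iff (ratVal L) S hfL c).2 hc
  refine ⟨sqMk (idU S) ⊥ (isStableSub_idU S) IsStableSub.bot ⟨idLevelHom (ratVal L) c, hcU⟩,
    fun u hu => ?_, ?_⟩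
  · rw [sqRep_ρ_sqMk]
    refine congrArg _ (Subtype.ext ?_)
    refine smul_idLevelHom_of_mem_fixingSubgroup (ratVal L) ?_ c
    rw [fieldRange_ratVal]; exact hu
  · rw [cfiUB_sum_ρ_sqMk]
    refine congrArg _ (Subtype.ext ?_)
    show ∏ i ∈ Finset.range (Nat.card Gal(L/M)), σ ^ i • idLevelHom (ratVal L) c = (x : slProd)
    rw [← idLN_norm_pow_ratVal σ σb h hgen c, hNc, hy]

end Fields

section Groups

attribute [local instance] sUF_numberField sUF_algebra sUF_isScalarTower sUF_isScalarTower'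
  sUF_isAlgebraicQb sUF_isAlgClosureQb sUF_isGaloisQb

variable {S}

/-- **(hW), group form**: `V' ≤ V` open for `famS S`, `V'` normal in `V` of prime index `p`,
`σ ∈ V ∖ V'`: every `V`-invariant of `𝕌` is the `σ`-norm of a `V'`-invariant. -/
theorem cfiUB_units_norm_of_open {p : ℕ} (hp : p.Prime) {V V' : Subgroup Γℚ}
    (hV : IsOpenFor (famS S) V) (hle : V' ≤ V) (hn : (V'.subgroupOf V).Normal)
    (hV' : IsOpenFor (famS S) V') (hidx : V'.relIndex V = p) {σ : Γℚ} (hσV : σ ∈ V)
    (hσV' : σ ∉ V') (w : idURep S) (hw : ∀ g ∈ V, (idURep S).ρ g w = w) :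
    ∃ w' : idURep S, (∀ u ∈ V', (idURep S).ρ u w' = w') ∧
      ∑ i ∈ Finset.range p, (idURep S).ρ (σ ^ i) w' = w := by
  have hN : IsOpen (V' : Set Γℚ) := lvq_isOpen_of_isOpenFor S hV'
  haveI hML : Fact (fixedField V ≤ fixedField V') := ⟨fixedField_le_of_le hle⟩
  haveI : FiniteDimensional ℚ (fixedField V) := lvq_finiteDimensional_fixedField S hV
  haveI : FiniteDimensional ℚ (fixedField V') := lvq_finiteDimensional_fixedField S hV'
  haveI : IsGalois (fixedField V) (fixedField V') := lvqR_isGalois hle hn hN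
  have hcard : Nat.card Gal(fixedField V'/fixedField V) = p := (lvqR_card_gal hle hn hN).trans hidx
  have hL : (fixedField V').IsUnramifiedOutside S := lvq_isUnramifiedOutside_fixedField S hV'
  obtain ⟨w', hw', hN'⟩ := cfiUB_units_norm S hL σ (lvqR_pi hle hn ⟨σ, hσV⟩)
    (fun y => lvqR_pi_apply hle hn ⟨σ, hσV⟩ y)
    (lvqR_mem_zpowers hle hn hN hp hidx hσV hσV') w
    (fun g hg => hw g (by rwa [lvq_fixingSubgroup_fixedField S hV] at hg))
  refine ⟨w', fun u hu => hw' u (by rwa [lvq_fixingSubgroup_fixedField S hV']), ?_⟩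
  rw [← hcard]
  exact hN'

/-- **(hW)**, the hypothesis of `cfiP_hFI_all`, verbatim (multiplier `m = 1`). -/
theorem cfiUB_hW (p : ℕ) [hp : Fact p.Prime] :
    ∀ V : Subgroup Γℚ, IsCycloLevel p S V → ∀ V' : Subgroup Γℚ, V' ≤ V →
      (V'.subgroupOf V).Normal → IsOpenFor (famS S) V' → V'.relIndex V = p → ∀ σ ∈ V, σ ∉ V' →
      ∀ w : idURep S, (∀ g ∈ V, (idURep S).ρ g w = w) → ∃ m : ℕ, m.Coprime p ∧
        ∃ w' : idURep S, (∀ u ∈ V', (idURep S).ρ u w' = w') ∧
          ∑ i ∈ Finset.range p, (idURep S).ρ (σ ^ i) w' = m • w := by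
  intro V hV V' hle hn hV' hidx σ hσV hσV' w hw
  obtain ⟨w', hw', hN⟩ := cfiUB_units_norm_of_open hp.out ⟨V, hV.1, le_rfl⟩ hle hn hV' hidx
    hσV hσV' w hw
  exact ⟨1, Nat.coprime_one_left p, w', hw', by rw [one_smul]; exact hN⟩

end Groups

end

end Fermat.Agent.PT
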