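import Fermat.Agent.CFT.PT.IdeleLevelMaps
import Fermat.Agent.CFT.Idele.UnitIdelesNorm
import Fermat.Agent.CFT.Bridge.UnramValQGen

/-!
# S55 GLOBAL, (K9)/(C-FI): the idele half at the level of `𝕁 = JFull S`

`M ⊆ L` number fields, `L / M` Galois (`L` NOT necessarily normal over `ℚ`), `f : L →ₐ[ℚ] Qb`,
`ι_L = idLevelHom f`, `ι_M = idLevelHom (f ∘ (M → L))`.

* `idLN_norm`, `idLN_norm_pow` : `ι_M (N_{L/M} x) = ∏_τ τ̃ • ι_L x = ∏_{i<n} σ^i • ι_L x`;
* `idLN_mem_sup_iff` : `ι_L y ∈ 𝕂 · 𝕌 ↔ y ∈ Lˣ · U^S(L)`;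
* `idLN_exists_not_norm` : **first inequality at the level of `𝕁` modulo `𝕂𝕌`**: on a cyclic layer
  `L / M` of odd prime degree `p` with `ζ_p ∈ M`, `L ⊆ ℚ_S`, there is `ξ ∈ J_M` such that for every
  `m` prime to `p` and every `z ∈ J_L`, `ι_M(ξ)^m / ∏_{i<p} σ^i • ι_L(z) ∉ 𝕂 · 𝕌`.
-/

set_option autoImplicit false
set_option linter.unusedSectionVars false

namespace Fermat.Agent.PT

open CategoryTheory Fermat.Agent.CFT IntermediateField NumberField IsDedekindDomain
open scoped TensorProduct Fermat.Agent.CFT.TensorGal Fermat.Agent.CFT.IdeleAct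

local notation "Qb" => AlgebraicClosure ℚ
local notation "Γℚ" => (AlgebraicClosure ℚ ≃ₐ[ℚ] AlgebraicClosure ℚ)

attribute [local instance] Units.mulDistribMulActionRight
attribute [local instance] slQbUnitsAction

noncomputable section

/-- enumeration of a finite cyclic group by the powers of a generator. -/
theorem idLN_prod_univ_eq_prod_range_pow {G β : Type*} [Group G] [Fintype G] [CommMonoid β]
    (g : G) (hg : ∀ x : G, x ∈ Subgroup.zpowers g) (F : G → β) :
    ∏ x : G, F x = ∏ i ∈ Finset.range (Nat.card G), F (g ^ i) := by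
  classical
  have hcard : orderOf g = Nat.card G := orderOf_eq_card_of_forall_mem_zpowers hg
  have himg : Finset.image (fun i => g ^ i) (Finset.range (Nat.card G)) = Finset.univ := by
    rw [← hcard]
    exact IsCyclic.image_range_orderOf hg
  rw [← himg, Finset.prod_image]
  intro i hi j hj hij
  rw [Finset.coe_range, Set.mem_Iio, ← hcard] at hi hj
  exact pow_injOn_Iio_orderOf hi hj hij

section Norm

variable {M L : Type} [Field M] [NumberField M] [Field L] [NumberField L] [Algebra M L]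
  [IsScalarTower ℚ M L] [IsGalois M L]

/-- `ι_M (N_{L/M} x) = ∏_τ τ̃ • ι_L x` for any system of lifts `τ̃ ∈ Γℚ` of the `τ ∈ Gal(L/M)`. -/
theorem idLN_norm (f : L →ₐ[ℚ] Qb) (lift : Gal(L/M) → Γℚ)
    (hlift : ∀ τ y, f (τ y) = lift τ (f y)) (x : ideleGroup ℚ L) :
    idLevelHom (f.comp (IsScalarTower.toAlgHom ℚ M L)) (relIdeleNorm ℚ M L x) =
      ∏ τ : Gal(L/M), lift τ • idLevelHom f x := by
  rw [← idLevelHom_relIdele, relIdele_relIdeleNorm, map_prod]
  exact Finset.prod_congr rfl fun τ _ =>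
    idLevelHom_smul f (relGalHom ℚ M L τ) (lift τ) (hlift τ) x

/-- cyclic form: `ι_M (N_{L/M} x) = ∏_{i < [L:M]} σ^i • ι_L x` for `σ ∈ Γℚ` lifting a generator. -/
theorem idLN_norm_pow (f : L →ₐ[ℚ] Qb) (σ : Γℚ) (σb : Gal(L/M))
    (h : ∀ y, f (σb y) = σ (f y)) (hgen : ∀ τ, τ ∈ Subgroup.zpowers σb)
    (x : ideleGroup ℚ L) :
    idLevelHom (f.comp (IsScalarTower.toAlgHom ℚ M L)) (relIdeleNorm ℚ M L x) =
      ∏ i ∈ Finset.range (Nat.card Gal(L/M)), σ ^ i • idLevelHom f x := by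
  have hpow : ∀ (i : ℕ) (y : L), f ((σb ^ i) y) = (σ ^ i) (f y) := by
    intro i
    induction i with
    | zero => intro y; rfl
    | succ n ih =>
      intro y
      rw [pow_succ, pow_succ, AlgEquiv.mul_apply, AlgEquiv.mul_apply, ih, h]
  rw [← idLevelHom_relIdele, relIdele_relIdeleNorm,
    idLN_prod_univ_eq_prod_range_pow σb hgen, map_prod]
  exact Finset.prod_congr rfl fun i _ =>
    idLevelHom_smul f (relGalHom ℚ M L (σb ^ i)) (σ ^ i) (hpow i) x

end Norm

section Ker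

variable {L : Type} [Field L] [NumberField L] (S : Finset Nat.Primes)

/-- (v) `ι_L y ∈ 𝕂 · 𝕌 ↔ y ∈ Lˣ · U^S(L)`. -/
theorem idLN_mem_sup_iff (hS : S.Nonempty) (f : L →ₐ[ℚ] Qb) (hf : f.fieldRange ≤ QS S)
    (y : ideleGroup ℚ L) :
    idLevelHom f y ∈ idK S ⊔ idU S ↔
      y ∈ principalIdeles ℚ L ⊔ unitIdeleS ℚ L (placesS S) := by
  constructor
  · intro h
    obtain ⟨k, hk, u, hu, hku⟩ := Subgroup.mem_sup.1 h
    -- `u` and `k` are fixed by `Gal(Qb / f(L))`
    have hfix : ∀ g ∈ f.fieldRange.fixingSubgroup, g • u = u := by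
      intro g hg
      have h1 : g • (k * u) = k * u := by
        rw [hku]
        exact smul_idLevelHom_of_mem_fixingSubgroup f hg y
      rw [smul_mul'] at h1
      have h2 : (g • k) / k = u / (g • u) := by
        rw [div_eq_div_iff_mul_eq_mul, h1, mul_comm]
      have h3 : u / (g • u) ∈ idK S := by
        rw [← h2]
        exact (idK S).div_mem (isStableSub_idK S g k hk) hk
      have h4 : u / (g • u) ∈ idU S := (idU S).div_mem hu (isStableSub_idU S g u hu)
      have h5 := eq_one_of_mem_idU_of_mem_idK S hS h4 h3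
      exact (div_eq_one.1 h5).symm
    have hint : ∀ᶠ v in Filter.cofinite, u v ∈ slIntUnits v := ((mem_idU_iff S).1 hu).1.2
    obtain ⟨u', hu'⟩ := (mem_range_idLevelHom_iff f u).2 ⟨hfix, hint⟩
    have hu'S : u' ∈ unitIdeleS ℚ L (placesS S) := by
      rw [← idLevelHom_mem_idU_iff f S hf, hu']
      exact hu
    have hk' : idLevelHom f (y / u') ∈ idK S := by
      rw [map_div, hu', ← hku, mul_div_cancel_right]
      exact hk
    have hk'' := (idLevelHom_mem_idK_iff f S hf _).1 hk'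
    have : y = (y / u') * u' := by rw [div_mul_cancel]
    rw [this]
    exact Subgroup.mul_mem_sup hk'' hu'S
  · intro h
    obtain ⟨a, ha, u, hu, rfl⟩ := Subgroup.mem_sup.1 h
    rw [map_mul]
    exact Subgroup.mul_mem_sup ((idLevelHom_mem_idK_iff f S hf a).2 ha)
      ((idLevelHom_mem_idU_iff f S hf u).2 hu)

end Ker

section FirstIneq

attribute [local instance] sUF_numberField sUF_algebra sUF_isScalarTower sUF_isScalarTower'

variable (S : Finset Nat.Primes) {M L : IntermediateField ℚ Qb} [hML : Fact (M ≤ L)]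
  [FiniteDimensional ℚ M] [FiniteDimensional ℚ L] [IsGalois M L]

/-- the embedding of `M` through `L`. -/
theorem idLN_ratVal_comp :
    (ratVal L).comp (IsScalarTower.toAlgHom ℚ M L) = ratVal M :=
  AlgHom.ext fun _ => rfl

/-- `ι_M (N_{L/M} x) = ∏_{i < [L:M]} σ^i • ι_L x`, intermediate-field form. -/
theorem idLN_norm_pow_ratVal (σ : Γℚ) (σb : Gal(L/M))
    (h : ∀ y : L, ((σb y : L) : Qb) = σ (y : Qb)) (hgen : ∀ τ, τ ∈ Subgroup.zpowers σb)
    (x : ideleGroup ℚ L) :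
    idLevelHom (ratVal M) (relIdeleNorm ℚ M L x) =
      ∏ i ∈ Finset.range (Nat.card Gal(L/M)), σ ^ i • idLevelHom (ratVal L) x := by
  rw [← idLN_ratVal_comp (M := M) (L := L)]
  exact idLN_norm_pow (ratVal L) σ σb h hgen x

/-- **(C-FI) at the level of `𝕁` modulo `𝕂𝕌`**: on a cyclic layer `L / M` of odd prime degree `p`
inside `ℚ_S` with `ζ_p ∈ M`, some idele `ξ` of `M` has the property that no prime-to-`p` power of
`ι_M ξ` is congruent modulo `𝕂 · 𝕌` to a norm `∏_{i<p} σ^i • ι_L z`. -/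
theorem idLN_exists_not_norm {p : ℕ} (hp : p.Prime) (hp2 : p ≠ 2) (hS : S.Nonempty)
    (hL : L.IsUnramifiedOutside S) {ζ : M} (hζ : IsPrimitiveRoot ζ p)
    (hcard : Nat.card Gal(L/M) = p) (σ : Γℚ) (σb : Gal(L/M))
    (h : ∀ y : L, ((σb y : L) : Qb) = σ (y : Qb)) (hgen : ∀ τ, τ ∈ Subgroup.zpowers σb) :
    ∃ ξ : ideleGroup ℚ M, ∀ m : ℕ, ¬ p ∣ m → ∀ z : ideleGroup ℚ L,
      idLevelHom (ratVal M) ξ ^ m / ∏ i ∈ Finset.range p, σ ^ i • idLevelHom (ratVal L) z ∉
        idK S ⊔ idU S := by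
  obtain ⟨ξ, -, hξ⟩ := idUN_exists_pow_not_mem (K := ℚ) (M := M) (L := L) hp hp2 hζ hcard
    (placesS S) (fun w hw x => urVG_hval_placesS S L hL w hw x)
  refine ⟨ξ, fun m hm z hmem => hξ m hm ?_⟩
  have hMS : (ratVal M).fieldRange ≤ QS S := by
    rw [fieldRange_ratVal]
    exact hML.out.trans (le_QS_of_isUnramifiedOutside S hL)
  rw [← hcard, ← idLN_norm_pow_ratVal σ σb h hgen z, ← map_pow, ← map_div,
    idLN_mem_sup_iff S hS (ratVal M) hMS] at hmem
  have h1 : ξ ^ m = (ξ ^ m / relIdeleNorm ℚ M L z) * relIdeleNorm ℚ M L z := by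
    rw [div_mul_cancel]
  rw [h1]
  exact Subgroup.mul_mem_sup hmem ⟨z, rfl⟩

end FirstIneq

end

end Fermat.Agent.PT
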