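/-
CFT, S55 pool, GLOBAL (K9)/(C-FI), input (hW) instantiated (helper24).

`cfiU_hW_holds` : the hypothesis `hW` of helper26's `cfiP_hFI_all` (`PT/CFIPlug.lean`) VERBATIM:
for a cyclo-level `V`, `V' ≤ V` open, normal of index `p` in `V`, `σ ∈ V ∖ V'`, every `V`-invariant
element of `𝕌 = idURep S` is `∑_{i<p} σ^i • w'` with `w'` `V'`-invariant.

From `cfiU_hW` (`PT/CFIUnits.lean`) with `M = fixedField V`, `L = fixedField V'` (not normal over
`ℚ`), helper20's relative layer `lvqR_*`, helper9's norm formula `idLN_norm_pow` and valuation form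
`urVG_hval_placesS`.
-/
import Fermat.Agent.CFT.PT.CFIUnits
import Fermat.Agent.CFT.PT.IdeleLevelNorm
import Fermat.Agent.CFT.Bridge.LevelQuotRel
import Fermat.Agent.CFT.Bridge.LevelQuot
import Fermat.Agent.CFT.PT.Contracts

set_option autoImplicit false
set_option linter.style.haveILetI false

namespace Fermat.Agent.PT

open CategoryTheory Fermat.Agent.CFT Fermat.Agent.CFT.S14 IntermediateField NumberField
  IsDedekindDomain
open scoped TensorProduct Fermat.Agent.CFT.TensorGal Fermat.Agent.CFT.IdeleAct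

local notation "Qb" => AlgebraicClosure ℚ
local notation "Γℚ" => (AlgebraicClosure ℚ ≃ₐ[ℚ] AlgebraicClosure ℚ)

attribute [local instance] Units.mulDistribMulActionRight
attribute [local instance] slQbUnitsAction
attribute [local instance] sUF_numberField sUF_algebra sUF_isScalarTower sUF_isScalarTower'

/-- **(hW)**, in the shape of `cfiP_hFI_all`. -/
theorem cfiU_hW_holds (S : Finset Nat.Primes) (p : ℕ) [hp : Fact p.Prime] :
    ∀ V : Subgroup Γℚ, IsCycloLevel p S V → ∀ V' : Subgroup Γℚ, V' ≤ V →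
      (V'.subgroupOf V).Normal → IsOpenFor (famS S) V' → V'.relIndex V = p → ∀ σ ∈ V, σ ∉ V' →
      ∀ w : idURep S, (∀ g ∈ V, (idURep S).ρ g w = w) → ∃ m : ℕ, m.Coprime p ∧
        ∃ w' : idURep S, (∀ u ∈ V', (idURep S).ρ u w' = w') ∧
          ∑ i ∈ Finset.range p, (idURep S).ρ (σ ^ i) w' = m • w := by
  intro V hV V' hle hn hV' hidx σ hσV hσV' w hw
  have hVo : IsOpenFor (famS S) V := ⟨V, hV.1, le_rfl⟩
  have hN : IsOpen (V' : Set Γℚ) := lvq_isOpen_of_isOpenFor S hV'
  haveI : Fact (fixedField V ≤ fixedField V') := ⟨fixedField_le_of_le hle⟩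
  haveI := lvq_finiteDimensional_fixedField S hVo
  haveI := lvq_finiteDimensional_fixedField S hV'
  haveI : IsGalois (fixedField V) (fixedField V') := lvqR_isGalois hle hn hN
  have hcard : Nat.card (fixedField V' ≃ₐ[fixedField V] fixedField V') = p :=
    (lvqR_card_gal hle hn hN).trans hidx
  have hL : (fixedField V').IsUnramifiedOutside S := lvq_isUnramifiedOutside_fixedField S hV'
  have hf : (ratVal (fixedField V')).fieldRange ≤ QS S := by
    rw [fieldRange_ratVal]
    exact lvq_fixedField_le_QS S hV'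
  refine cfiU_hW S p (M := fixedField V) (L := fixedField V') (ratVal (fixedField V')) hf V V'
    ?_ ?_ (σb := lvqR_pi hle hn ⟨σ, hσV⟩)
    (lvqR_mem_zpowers hle hn hN hp.out hidx hσV hσV')
    (fun w hw x => urVG_hval_placesS S (fixedField V') hL w hw x) σ ?_ w hw
  · -- elements fixing `M` lie in `V`
    intro g hg
    rw [idLN_ratVal_comp, fieldRange_ratVal, lvq_fixingSubgroup_fixedField S hVo] at hg
    exact hg
  · -- `V'` fixes `L`
    intro u hu
    rw [fieldRange_ratVal, lvq_fixingSubgroup_fixedField S hV']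
    exact hu
  · -- the norm formula
    intro c
    have h := idLN_norm_pow (M := fixedField V) (L := fixedField V') (ratVal (fixedField V')) σ
      (lvqR_pi hle hn ⟨σ, hσV⟩) (fun y => lvqR_pi_apply hle hn ⟨σ, hσV⟩ y)
      (lvqR_mem_zpowers hle hn hN hp.out hidx hσV hσV') c
    rw [hcard] at h
    exact h

end Fermat.Agent.PT
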