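/-
S55 engine (helper15), (LT5): the cardinality bound on `r`-torsion passes from the finite levels
`H^{n+1}(G ⧸ U, A^U)` to `Hlc^{n+1}(𝔉, A)`.

* `flC_exists_common_level` : finitely many `r`-torsion classes of `Hlc` come from `r`-torsion classes
  of one common finite level (below any given level);
* `flC_card_le_of_cofinal` : if cofinally many finite levels have at most `N` classes killed by `r`
  in degree `n + 1`, so has `Hlc`;
* `flC_card_le_of_cofinal_nat` : the same with `p • ·`, `p : ℕ`;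
* `flC_card_le_of_natCard_ker` : the input in `Nat.card (nsmulAddMonoidHom p).ker ≤ N` form.
-/
import Fermat.Agent.CFT.PT.FiniteLevelLimit

set_option autoImplicit false

namespace Fermat.Agent.PT

open CategoryTheory groupCohomology Rep

universe u

variable {k G : Type u} [CommRing k] [Group G] (𝔉 : LevelFamily G) (A : Rep.{u} k G)

/-- finitely many `r`-torsion classes of `Hlc` come from `r`-torsion classes of a common finite
level, which can be chosen below any given level. -/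
theorem flC_exists_common_level (r : k) (n : ℕ) (s : Finset (Hlc 𝔉 A (n + 1)))
    (hs : ∀ x ∈ s, r • x = 0) (U₀ : ↥𝔉.sets) :
    ∃ U : ↥𝔉.sets, (U : Subgroup G) ≤ U₀ ∧ ∀ x ∈ s, ∃ y : Hfin 𝔉 A U (n + 1),
      r • y = 0 ∧ (HlcInfl 𝔉 A U (n + 1)).hom y = x := by
  classical
  induction s using Finset.induction_on with
  | empty => exact ⟨U₀, le_rfl, fun x hx => absurd hx (Finset.notMem_empty x)⟩
  | insert a s _ ih =>
    obtain ⟨U, hUU₀, hU⟩ := ih fun x hx => hs x (Finset.mem_insert_of_mem hx)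
    obtain ⟨Ua, ya, hya, hyax⟩ :=
      exists_HlcInfl_eq_of_smul_eq_zero 𝔉 A r n a (hs a (Finset.mem_insert_self a s))
    obtain ⟨W, hWU, hWUa⟩ := exists_level_le_inf 𝔉 U Ua
    refine ⟨W, hWU.trans hUU₀, fun x hx => ?_⟩
    rw [Finset.mem_insert] at hx
    rcases hx with rfl | hx
    · refine ⟨(inflUV A hWUa (n + 1)).hom ya, ?_, ?_⟩
      · rw [← map_smul, hya, map_zero]
      · rw [HlcInfl_inflUV_apply, hyax]
    · obtain ⟨y, hy, hyx⟩ := hU x hx
      refine ⟨(inflUV A hWU (n + 1)).hom y, ?_, ?_⟩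
      · rw [← map_smul, hy, map_zero]
      · rw [HlcInfl_inflUV_apply, hyx]

/-- **(LT5)** the bound on the number of classes killed by `r` passes to the limit. -/
theorem flC_card_le_of_cofinal (r : k) (n N : ℕ)
    (h : ∀ U : ↥𝔉.sets, ∃ V : ↥𝔉.sets, (V : Subgroup G) ≤ U ∧
      ∀ s : Finset (Hfin 𝔉 A V (n + 1)), (∀ y ∈ s, r • y = 0) → s.card ≤ N)
    (s : Finset (Hlc 𝔉 A (n + 1))) (hs : ∀ x ∈ s, r • x = 0) : s.card ≤ N := by
  classical
  obtain ⟨U₀, hU₀⟩ := 𝔉.nonempty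
  obtain ⟨U, -, hU⟩ := flC_exists_common_level 𝔉 A r n s hs ⟨U₀, hU₀⟩
  obtain ⟨V, hVU, hV⟩ := h U
  have hV' : ∀ x ∈ s, ∃ y : Hfin 𝔉 A V (n + 1),
      r • y = 0 ∧ (HlcInfl 𝔉 A V (n + 1)).hom y = x := by
    intro x hx
    obtain ⟨y, hy, hyx⟩ := hU x hx
    refine ⟨(inflUV A hVU (n + 1)).hom y, ?_, ?_⟩
    · rw [← map_smul, hy, map_zero]
    · rw [HlcInfl_inflUV_apply, hyx]
  choose! f hf1 hf2 using hV'
  have hinj : Set.InjOn f (s : Set (Hlc 𝔉 A (n + 1))) := by
    intro x hx x' hx' hxx'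
    rw [← hf2 x hx, ← hf2 x' hx', hxx']
  have hcard : (s.image f).card = s.card := Finset.card_image_of_injOn hinj
  rw [← hcard]
  refine hV (s.image f) fun y hy => ?_
  rw [Finset.mem_image] at hy
  obtain ⟨x, hx, rfl⟩ := hy
  exact hf1 x hx

/-- **(LT5)**, natural number form. -/
theorem flC_card_le_of_cofinal_nat (p n N : ℕ)
    (h : ∀ U : ↥𝔉.sets, ∃ V : ↥𝔉.sets, (V : Subgroup G) ≤ U ∧
      ∀ s : Finset (Hfin 𝔉 A V (n + 1)), (∀ y ∈ s, p • y = 0) → s.card ≤ N)
    (s : Finset (Hlc 𝔉 A (n + 1))) (hs : ∀ x ∈ s, p • x = 0) : s.card ≤ N := by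
  refine flC_card_le_of_cofinal 𝔉 A (p : k) n N (fun U => ?_) s fun x hx => ?_
  · obtain ⟨V, hVU, hV⟩ := h U
    refine ⟨V, hVU, fun t ht => hV t fun y hy => ?_⟩
    have := ht y hy
    rw [Nat.cast_smul_eq_nsmul k] at this
    exact this
  · rw [Nat.cast_smul_eq_nsmul k]
    exact hs x hx

/-- a finite set of elements killed by `p` is bounded by the cardinality of the kernel of `p • ·`. -/
theorem flC_card_le_natCard_ker {M : Type*} [AddCommGroup M] (p : ℕ)
    [Finite (nsmulAddMonoidHom (α := M) p).ker] (s : Finset M) (hs : ∀ y ∈ s, p • y = 0) :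
    s.card ≤ Nat.card (nsmulAddMonoidHom (α := M) p).ker := by
  classical
  have hmem : ∀ y ∈ s, y ∈ (nsmulAddMonoidHom (α := M) p).ker := fun y hy =>
    (AddMonoidHom.mem_ker).2 (hs y hy)
  let g : s → (nsmulAddMonoidHom (α := M) p).ker := fun y => ⟨y.1, hmem y.1 y.2⟩
  have hg : Function.Injective g := fun y y' hyy' => Subtype.ext (congrArg (fun z => z.1) hyy')
  have := Nat.card_le_card_of_injective g hg
  rwa [Nat.card_eq_fintype_card, Fintype.card_coe] at this

/-- **(LT5)**, with the finite-level input in `Nat.card (ker (p • ·)) ≤ N` form. -/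
theorem flC_card_le_of_natCard_ker (p n N : ℕ)
    (h : ∀ U : ↥𝔉.sets, ∃ V : ↥𝔉.sets, (V : Subgroup G) ≤ U ∧
      Finite (nsmulAddMonoidHom (α := Hfin 𝔉 A V (n + 1)) p).ker ∧
      Nat.card (nsmulAddMonoidHom (α := Hfin 𝔉 A V (n + 1)) p).ker ≤ N)
    (s : Finset (Hlc 𝔉 A (n + 1))) (hs : ∀ x ∈ s, p • x = 0) : s.card ≤ N := by
  refine flC_card_le_of_cofinal_nat 𝔉 A p n N (fun U => ?_) s hs
  obtain ⟨V, hVU, hfin, hcard⟩ := h U
  exact ⟨V, hVU, fun t ht => (flC_card_le_natCard_ker p t ht).trans hcard⟩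

end Fermat.Agent.PT
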