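/-
S55 engine (helper15): the plug "finite-level models ⇒ `Hlc`": if cofinally many levels `V` of
`(𝔉, A)` are identified with representations `A'` of quotient groups `Q = G ⧸ V` (helper28's
`lvlId_equiv` shape: `π : G ↠ Q` with kernel `V`, `φ : Res_π A' ⟶ A` injective with image the
`V`-invariants), then

* `lvP_eq_zero_of_nsmul` : no `p`-torsion in `H^{n+1}(Q, A')` at these levels ⇒ none in
  `Hlc^{n+1}(𝔉, A)`  [(C-A1) shape];
* `lvP_card_le` : `|H^{n+1}(Q, A')[p]| ≤ N` at these levels ⇒ the `hC`-shape bound for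
  `Hlc^{n+1}(𝔉, A)`  [(C-A5a) shape];
* `lvP_subsingleton` : vanishing of `H^{n+1}(Q, A')` at these levels ⇒ `Hlc^{n+1}(𝔉, A) = 0`.
-/
import Fermat.Agent.CFT.PT.LevelIdent
import Fermat.Agent.CFT.PT.FiniteLevelCard
import Fermat.Agent.CFT.PT.CoprimeTorsion

set_option autoImplicit false

namespace Fermat.Agent.PT

open CategoryTheory groupCohomology Rep

universe u

variable {k G : Type u} [CommRing k] [Group G] (𝔉 : LevelFamily G) (A : Rep.{u} k G)

/-- **(C-A1) shape**: no `p`-torsion at cofinally many identified levels ⇒ none in `Hlc`. -/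
theorem lvP_eq_zero_of_nsmul (p n : ℕ)
    (h : ∀ U : ↥𝔉.sets, ∃ V : ↥𝔉.sets, (V : Subgroup G) ≤ U ∧
      ∃ (Q : Type u) (_ : Group Q) (A' : Rep.{u} k Q) (π : G →* Q) (φ : res π A' ⟶ A),
        Function.Surjective π ∧ π.ker = (V : Subgroup G) ∧ Function.Injective φ.hom ∧
        (∀ a : A, (∀ s ∈ (V : Subgroup G), A.ρ s a = a) → ∃ a' : A', φ.hom a' = a) ∧
        ∀ y : groupCohomology A' (n + 1), p • y = 0 → y = 0)
    (x : Hlc 𝔉 A (n + 1)) (hx : p • x = 0) : x = 0 := by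
  refine eq_zero_of_smul_eq_zero_of_cofinal_nat 𝔉 A p n (fun U => ?_) x hx
  obtain ⟨V, hVU, Q, _, A', π, φ, hπ, hker, hinj, hrange, hA'⟩ := h U
  refine ⟨V, hVU, fun y hy => ?_⟩
  set e := lvlId_equiv π φ hπ (V : Subgroup G) hker hinj hrange (n + 1) with he
  have h1 : p • e.symm y = 0 := by rw [← map_nsmul, hy, map_zero]
  exact e.symm.map_eq_zero_iff.1 (hA' _ h1)

/-- **(C-A5a) shape**: at most `N` classes killed by `p` at cofinally many identified levels ⇒ the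
same bound in `Hlc`. -/
theorem lvP_card_le (p n N : ℕ)
    (h : ∀ U : ↥𝔉.sets, ∃ V : ↥𝔉.sets, (V : Subgroup G) ≤ U ∧
      ∃ (Q : Type u) (_ : Group Q) (A' : Rep.{u} k Q) (π : G →* Q) (φ : res π A' ⟶ A),
        Function.Surjective π ∧ π.ker = (V : Subgroup G) ∧ Function.Injective φ.hom ∧
        (∀ a : A, (∀ s ∈ (V : Subgroup G), A.ρ s a = a) → ∃ a' : A', φ.hom a' = a) ∧
        Finite (nsmulAddMonoidHom (α := groupCohomology A' (n + 1)) p).ker ∧
        Nat.card (nsmulAddMonoidHom (α := groupCohomology A' (n + 1)) p).ker ≤ N)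
    (s : Finset (Hlc 𝔉 A (n + 1))) (hs : ∀ x ∈ s, p • x = 0) : s.card ≤ N := by
  classical
  refine flC_card_le_of_cofinal_nat 𝔉 A p n N (fun U => ?_) s hs
  obtain ⟨V, hVU, Q, _, A', π, φ, hπ, hker, hinj, hrange, hfin, hcard⟩ := h U
  refine ⟨V, hVU, fun t ht => ?_⟩
  set e := lvlId_equiv π φ hπ (V : Subgroup G) hker hinj hrange (n + 1) with he
  have hinj' : Set.InjOn (fun y => e.symm y) (t : Set (Hfin 𝔉 A V (n + 1))) :=
    fun y _ y' _ hyy' => e.symm.injective hyy'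
  rw [← Finset.card_image_of_injOn hinj']
  refine (flC_card_le_natCard_ker p _ fun z hz => ?_).trans hcard
  rw [Finset.mem_image] at hz
  obtain ⟨y, hy, rfl⟩ := hz
  show p • e.symm y = 0
  rw [← map_nsmul, ht y hy, map_zero]

/-- vanishing at cofinally many identified levels ⇒ `Hlc^{n+1} = 0`. -/
theorem lvP_subsingleton (n : ℕ)
    (h : ∀ U : ↥𝔉.sets, ∃ V : ↥𝔉.sets, (V : Subgroup G) ≤ U ∧
      ∃ (Q : Type u) (_ : Group Q) (A' : Rep.{u} k Q) (π : G →* Q) (φ : res π A' ⟶ A),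
        Function.Surjective π ∧ π.ker = (V : Subgroup G) ∧ Function.Injective φ.hom ∧
        (∀ a : A, (∀ s ∈ (V : Subgroup G), A.ρ s a = a) → ∃ a' : A', φ.hom a' = a) ∧
        Subsingleton (groupCohomology A' (n + 1))) :
    Subsingleton (Hlc 𝔉 A (n + 1)) := by
  refine ⟨fun a b => ?_⟩
  have key : ∀ x : Hlc 𝔉 A (n + 1), x = 0 := fun x => by
    refine lvP_eq_zero_of_nsmul 𝔉 A 0 n (fun U => ?_) x (zero_smul _ _)
    obtain ⟨V, hVU, Q, hQ, A', π, φ, hπ, hker, hinj, hrange, hsub⟩ := h U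
    exact ⟨V, hVU, Q, hQ, A', π, φ, hπ, hker, hinj, hrange, fun y _ => Subsingleton.elim _ _⟩
  rw [key a, key b]

end Fermat.Agent.PT
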