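/-
S55 GLOBAL, C-side (helper15): (C-A1) and (C-A5a) for the infinite-level idele class module
`ℂ = idCRep S` at every open subgroup `V` of `G_S` with trivial cyclotomic character, UNCONDITIONAL:

* `csC_H1_field`, `csC_card_le_field` : at `V = M.fixingSubgroup`, `M ∋ ζ_p` finite in `ℚ_S`, from
  helper28's (K6) `idLC_levels`, the plug `PT/LevelPlug` and finite-level class field theory
  (helper4's `idClassF_H1_eq_zero_of_nsmul`, `fcFin_natCard_torsion_H2_le` with `M₀ = ℚ(ζ_p)`);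
* `csC_fin_card_le` : `|H²(Gal(L/M), C_L)[p]| ≤ p` for `ℚ(ζ_p) ≤ M ≤ L ⊆ Qb`, `L/ℚ` normal;
* `csC_hc`, `csC_hd` : the hypotheses (c), (d) of helper26's `csI_CA1`, `csI_CA5` VERBATIM, at every
  open `V` with trivial cyclotomic character.
-/
import Fermat.Agent.CFT.PT.IdeleLevelC
import Fermat.Agent.CFT.PT.LevelPlug
import Fermat.Agent.CFT.Idele.FundClassFinal
import Fermat.Agent.CFT.PT.PlacesGlue

set_option autoImplicit false
set_option linter.style.haveILetI false

namespace Fermat.Agent.PT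

open IsDedekindDomain IsDedekindDomain.HeightOneSpectrum NumberField Fermat.Agent.CFT
  Fermat.Agent.CFT.S14 IntermediateField CategoryTheory groupCohomology Rep ExtCitation
open scoped Fermat.Agent.CFT.IdeleAct

local notation "Qb" => AlgebraicClosure ℚ
local notation "Γℚ" => (AlgebraicClosure ℚ ≃ₐ[ℚ] AlgebraicClosure ℚ)

attribute [local instance] sUF_isAlgebraicQb sUF_isAlgClosureQb sUF_isGaloisQb sUF_numberField
  sUF_algebra sUF_isScalarTower sUF_isScalarTower' sUF_isGalois sUF_normal_alg'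
  additiveDistribMulAction ideleGroupActionOf ideleClassActionOf idClassCommGroup

variable {S : Finset Nat.Primes} {p : ℕ} [hp : Fact p.Prime]

/-- **(C-A1) for `ℂ` at `V = M.fixingSubgroup`**, `M ∋ ζ_p` finite in `ℚ_S`. -/
theorem csC_H1_field (hp2 : p ≠ 2) (M : IntermediateField ℚ Qb) [FiniteDimensional ℚ M]
    (hM : M ≤ QS S) (hζ : zetaQbar p ∈ M)
    (c : Hlc ((famS S).restrict M.fixingSubgroup) (res M.fixingSubgroup.subtype (idCRep S)) 1)
    (hc : p • c = 0) : c = 0 := by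
  have hζ' : ∃ ζ : M, IsPrimitiveRoot ζ p :=
    ⟨⟨zetaQbar p, hζ⟩, IsPrimitiveRoot.coe_submonoidClass_iff.mp (zetaQbar_spec p)⟩
  refine lvP_eq_zero_of_nsmul ((famS S).restrict M.fixingSubgroup)
    (res M.fixingSubgroup.subtype (idCRep S)) p 0
    (idLC_levels M hM (fun _ _ A' => ∀ y : groupCohomology A' (0 + 1), p • y = 0 → y = 0)
      (fun L _ _ _ _ y hy => idClassF_H1_eq_zero_of_nsmul ℚ M L p hp2 hζ' y hy)) c hc

/-- the finite-level bound `|H²(Gal(L/M), C_L)[p]| ≤ p` for `ℚ(ζ_p) ≤ M ≤ L`, `L/ℚ` normal. -/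
theorem csC_fin_card_le (hp2 : p ≠ 2) (M L : IntermediateField ℚ Qb) [FiniteDimensional ℚ M]
    [hML : Fact (M ≤ L)] [FiniteDimensional ℚ L] [Normal ℚ L] (hζ : zetaQbar p ∈ M) :
    Finite (nsmulAddMonoidHom (α := groupCohomology (idClassRep ℚ M L) 2) p).ker ∧
      Nat.card (nsmulAddMonoidHom (α := groupCohomology (idClassRep ℚ M L) 2) p).ker ≤ p := by
  have h0M : cycloKf p ≤ M := by
    rw [cycloKf, IntermediateField.adjoin_le_iff]
    rintro x rfl
    exact hζ
  haveI : Fact (cycloKf p ≤ M) := ⟨h0M⟩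
  haveI : Fact (cycloKf p ≤ L) := ⟨h0M.trans hML.out⟩
  haveI : IsScalarTower (cycloKf p) M L := IsScalarTower.of_algebraMap_eq (fun _ => rfl)
  haveI : IsGalois ℚ L := ⟨⟩
  have hζ₀ : ∃ ζ : cycloKf p, IsPrimitiveRoot ζ p := ⟨zetaKf p, zetaKf_spec p⟩
  exact fcFin_natCard_torsion_H2_le (cycloKf p) M L p hp2 hζ₀

/-- **(C-A5a) for `ℂ` at `V = M.fixingSubgroup`**, `M ∋ ζ_p` finite in `ℚ_S`. -/
theorem csC_card_le_field (hp2 : p ≠ 2) (M : IntermediateField ℚ Qb) [FiniteDimensional ℚ M]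
    (hM : M ≤ QS S) (hζ : zetaQbar p ∈ M)
    (s : Finset (Hlc ((famS S).restrict M.fixingSubgroup)
      (res M.fixingSubgroup.subtype (idCRep S)) 2))
    (hs : ∀ c ∈ s, p • c = 0) : s.card ≤ p :=
  lvP_card_le ((famS S).restrict M.fixingSubgroup)
    (res M.fixingSubgroup.subtype (idCRep S)) p 1 p
    (idLC_levels M hM (fun _ _ A' =>
        Finite (nsmulAddMonoidHom (α := groupCohomology A' (1 + 1)) p).ker ∧
          Nat.card (nsmulAddMonoidHom (α := groupCohomology A' (1 + 1)) p).ker ≤ p)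
      (fun L _ _ _ _ => csC_fin_card_le hp2 M L hζ)) s hs

section Open

variable {V : Subgroup Γℚ} (hV : IsOpenFor (famS S) V) (hcyc : ∀ s ∈ V, cycloChar p s = 1)

include hV hcyc

/-- **(c) of `csI_CA1`**: `Hlc¹(V, ℂ)[p] = 0` at every open `V` with trivial cyclotomic
character. -/
theorem csC_hc (hp2 : p ≠ 2) :
    ∀ c : Hlc ((famS S).restrict V) (res V.subtype (idCRep S)) 1, p • c = 0 → c = 0 := by
  have e : (fixedField V).fixingSubgroup = V := lvq_fixingSubgroup_fixedField S hV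
  haveI : FiniteDimensional ℚ (fixedField V) := lvq_finiteDimensional_fixedField S hV
  have hζ : zetaQbar p ∈ fixedField V :=
    plg_zetaQbar_mem p (fixedField V) (fun s hs => hcyc s (e ▸ hs))
  have key := csC_H1_field (S := S) hp2 (fixedField V) (lvq_fixedField_le_QS S hV) hζ
  rw [e] at key
  exact key

/-- **(d) of `csI_CA5`**: `|Hlc²(V, ℂ)[p]| ≤ p` at every open `V` with trivial cyclotomic
character. -/
theorem csC_hd (hp2 : p ≠ 2) :
    ∀ s : Finset (Hlc ((famS S).restrict V) (res V.subtype (idCRep S)) 2),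
      (∀ c ∈ s, p • c = 0) → s.card ≤ p := by
  have e : (fixedField V).fixingSubgroup = V := lvq_fixingSubgroup_fixedField S hV
  haveI : FiniteDimensional ℚ (fixedField V) := lvq_finiteDimensional_fixedField S hV
  have hζ : zetaQbar p ∈ fixedField V :=
    plg_zetaQbar_mem p (fixedField V) (fun s hs => hcyc s (e ▸ hs))
  have key := csC_card_le_field (S := S) hp2 (fixedField V) (lvq_fixedField_le_QS S hV) hζ
  rw [e] at key
  exact key

end Open

end Fermat.Agent.PT
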