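/-
S55, GLOBAL C-side, (K7b) plug (helper26): the abstract chase of `PT/CSideAbstract.lean` applied to
helper27's idelic sequences `idSeq3 S = (𝕌 → ℂ → ℂ_S)` and `idSeq2 S = (C' → ℂ_S → Cl_∞)` of
`PT/IdeleRep.lean`, at an arbitrary subgroup `V` of `Γℚ`.

* `csI_CA1` : (a) `Cl_∞` prime-to-`p` torsion, (b) `Hlcⁿ⁺¹(V, 𝕌)[p] = 0`, (c) `Hlc¹(V, ℂ)[p] = 0`
  ⟹ `Hlc¹(V, C')[p] = 0`;
* `csI_CA5` : (a), (b), (d) `#Hlc²(V, ℂ)[p] ≤ p` ⟹ `#Hlc²(V, C')[p] ≤ p`;
* `csI_CA1'`, `csI_CA5'` : the same with (a) in the form `IsCoprimeTorsion (p : ℤ) (idClRep S)`.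
-/
import Fermat.Agent.CFT.PT.CSideAbstract
import Fermat.Agent.CFT.PT.IdeleRep
import Fermat.Agent.CFT.PT.BaseCountArith

set_option autoImplicit false

namespace Fermat.Agent.PT

open CategoryTheory groupCohomology Rep

local notation "Γℚ" => (AlgebraicClosure ℚ ≃ₐ[ℚ] AlgebraicClosure ℚ)

variable (S : Finset Nat.Primes) (hS : S.Nonempty) (p : ℕ) [Fact p.Prime] (V : Subgroup Γℚ)

include hS in
/-- **(C-A1) for `C' = J_S / Ē` at the subgroup `V`.** -/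
theorem csI_CA1 (ha : ∀ x : idClRep S, ∃ m : ℕ, Nat.Coprime m p ∧ m • x = 0)
    (hb : ∀ n, ∀ c : Hlc ((famS S).restrict V) (res V.subtype (idURep S)) (n + 1),
      p • c = 0 → c = 0)
    (hc : ∀ c : Hlc ((famS S).restrict V) (res V.subtype (idCRep S)) 1, p • c = 0 → c = 0) :
    ∀ c : Hlc ((famS S).restrict V) (res V.subtype (idC'Rep S)) 1, p • c = 0 → c = 0 :=
  csA_CA1_res (baseCount_famS_finiteIndex S) p (idSeq3 S) (idSeq3_shortExact S hS)
    (isSmooth_idCRep S) (idSeq2 S) (idSeq2_shortExact S) (isSmooth_idCSRep S) rfl V ha hb hc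

include hS in
/-- **(C-A5a) for `C' = J_S / Ē` at the subgroup `V`.** -/
theorem csI_CA5 (ha : ∀ x : idClRep S, ∃ m : ℕ, Nat.Coprime m p ∧ m • x = 0)
    (hb : ∀ n, ∀ c : Hlc ((famS S).restrict V) (res V.subtype (idURep S)) (n + 1),
      p • c = 0 → c = 0)
    (hd : ∀ s : Finset (Hlc ((famS S).restrict V) (res V.subtype (idCRep S)) 2),
      (∀ c ∈ s, p • c = 0) → s.card ≤ p) :
    ∀ s : Finset (Hlc ((famS S).restrict V) (res V.subtype (idC'Rep S)) 2),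
      (∀ c ∈ s, p • c = 0) → s.card ≤ p :=
  csA_CA5_res (baseCount_famS_finiteIndex S) p (idSeq3 S) (idSeq3_shortExact S hS)
    (isSmooth_idCRep S) (idSeq2 S) (idSeq2_shortExact S) (isSmooth_idCSRep S) rfl V ha hb hd

include hS in
/-- `csI_CA1` with (a) as `IsCoprimeTorsion`. -/
theorem csI_CA1' (ha : IsCoprimeTorsion (p : ℤ) (idClRep S))
    (hb : ∀ n, ∀ c : Hlc ((famS S).restrict V) (res V.subtype (idURep S)) (n + 1),
      p • c = 0 → c = 0)
    (hc : ∀ c : Hlc ((famS S).restrict V) (res V.subtype (idCRep S)) 1, p • c = 0 → c = 0) :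
    ∀ c : Hlc ((famS S).restrict V) (res V.subtype (idC'Rep S)) 1, p • c = 0 → c = 0 :=
  csI_CA1 S hS p V ((isCoprimeTorsion_int_iff p).1 ha) hb hc

include hS in
/-- `csI_CA5` with (a) as `IsCoprimeTorsion`. -/
theorem csI_CA5' (ha : IsCoprimeTorsion (p : ℤ) (idClRep S))
    (hb : ∀ n, ∀ c : Hlc ((famS S).restrict V) (res V.subtype (idURep S)) (n + 1),
      p • c = 0 → c = 0)
    (hd : ∀ s : Finset (Hlc ((famS S).restrict V) (res V.subtype (idCRep S)) 2),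
      (∀ c ∈ s, p • c = 0) → s.card ≤ p) :
    ∀ s : Finset (Hlc ((famS S).restrict V) (res V.subtype (idC'Rep S)) 2),
      (∀ c ∈ s, p • c = 0) → s.card ≤ p :=
  csI_CA5 S hS p V ((isCoprimeTorsion_int_iff p).1 ha) hb hd

end Fermat.Agent.PT
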