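import Mathlib
import Fermat.Agent.CFT.PT.SUnitsCapIdele
import Fermat.Agent.CFT.Idele.IdeleDiv
import Fermat.Agent.CFT.PT.SubQuotRep
import Fermat.Agent.CFT.PT.CoprimeTorsion

set_option autoImplicit false

/-!
# S55 GLOBAL, `Cl_∞` strand, finite level: every `S`-ideal class of a number field `F ⊆ ℚ_S`
dies in `ℚ_S` up to a factor prime to `p`

(helper10)  `p ∈ S`, `F ⊆ Qb` a number field unramified outside `S`, ideles in the `ℚ`-model.

* `clI_exists_pow_mem` : **(TOR)** some power `a ^ n`, `n > 0`, lies in `Fˣ · J_{F,S}`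
  (finiteness of `Cl_S(F)`, helper25's `idDiv_exists_pow_mem`);
* `clI_capitulation_coprime` : **(Cl-fin)** there is `m` prime to `p` and a finite Galois
  `F' ⊇ F` inside `ℚ_S` with `relIdele (a ^ m) ∈ F'ˣ · J_{F',S}` (helper21's `sUCI_capitulation`);
* `clI_exists_pow_mem_of_levels`, `clI_isCoprimeTorsion_sqRep` : the model-free plugs turning
  (Cl-fin) into `IsCoprimeTorsion (p : ℤ) (sqRep 𝕁 (𝕂·JS·𝕌))`.
-/

namespace Fermat.Agent.PT

open CategoryTheory Fermat.Agent.CFT IntermediateField ExtCitation NumberField IsDedekindDomain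

local notation "Qb" => AlgebraicClosure ℚ

section Finite

variable (S : Finset Nat.Primes) (F : IntermediateField ℚ Qb) [NumberField F]

/-- **(TOR)**: every idele of `F` has a positive power in `Fˣ · J_{F,S}`. -/
theorem clI_exists_pow_mem (a : ideleGroup ℚ F) :
    ∃ n : ℕ, 0 < n ∧ a ^ n ∈ principalIdeles ℚ F ⊔ ideleGroupS ℚ F (sUCI_ratSet S) :=
  idDiv_exists_pow_mem ℚ F (sUCI_ratSet S) (sUD_primesOver F S)
    (fun w => (sUCI_primeBelow_mem_ratSet_iff S F w).symm) a

variable {p : ℕ} [Fact p.Prime]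

/-- **(Cl-fin)**: up to a factor `m` prime to `p`, every idele of `F` becomes trivial in
`Cl_S(F')` for a finite Galois `F' ⊇ F` inside `ℚ_S`. -/
theorem clI_capitulation_coprime (hpS : pPrime p ∈ S) (hF : F.IsUnramifiedOutside S)
    (a : ideleGroup ℚ F) :
    ∃ m : ℕ, m.Coprime p ∧
      ∃ F' : IntermediateField ℚ Qb, F ≤ F' ∧ F'.IsUnramifiedOutside S ∧ IsGalois ℚ F' ∧
        F'.fixingSubgroup.Normal ∧
        ∀ [NumberField F'] [Algebra F F'] [IsScalarTower ℚ F F'],
          (∀ x : F, ((algebraMap F F' x : F') : Qb) = (x : Qb)) →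
            relIdele ℚ F F' (a ^ m) ∈
              principalIdeles ℚ F' ⊔ ideleGroupS ℚ F' (sUCI_ratSet S) := by
  have hp : p.Prime := Fact.out
  obtain ⟨n, hn, han⟩ := clI_exists_pow_mem S F a
  obtain ⟨k, m, hm, rfl⟩ := Nat.exists_eq_pow_mul_and_not_dvd hn.ne' p hp.ne_one
  refine ⟨m, ((Nat.Prime.coprime_iff_not_dvd hp).2 hm).symm, ?_⟩
  have h1 : (a ^ m) ^ (p ^ k) ∈ principalIdeles ℚ F ⊔ ideleGroupS ℚ F (sUCI_ratSet S) := by
    rw [← pow_mul, mul_comm m]
    exact han
  exact sUCI_capitulation S F hpS hF k (a ^ m) h1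

end Finite

section Plug

/-- model-free plug: if `A` is covered by the images of level groups `J i` and every element of a
level dies, up to a factor prime to `p`, at a higher level (in subgroups `P j` mapping into `B`),
then every element of `A` has a power prime to `p` in `B`. -/
theorem clI_exists_pow_mem_of_levels {X : Type*} [CommGroup X] (A B : Subgroup X) (p : ℕ)
    {I : Type*} (J : I → Type*) [∀ i, Group (J i)] (ι : ∀ i, J i →* X)
    (P : ∀ i, Subgroup (J i))
    (hcov : ∀ x ∈ A, ∃ i, ∃ a : J i, ι i a = x)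
    (hfin : ∀ i (a : J i), ∃ m : ℕ, m.Coprime p ∧
      ∃ j, ∃ b : J j, ι j b = ι i (a ^ m) ∧ b ∈ P j)
    (hP : ∀ i, ∀ b ∈ P i, ι i b ∈ B) :
    ∀ x ∈ A, ∃ m : ℕ, m.Coprime p ∧ x ^ m ∈ B := by
  intro x hx
  obtain ⟨i, a, rfl⟩ := hcov x hx
  obtain ⟨m, hm, j, b, hb, hbP⟩ := hfin i a
  refine ⟨m, hm, ?_⟩
  rw [← map_pow, ← hb]
  exact hP j b hbP

variable {G : Type} [Group G] {X : Type} [CommGroup X] [MulDistribMulAction G X]

/-- model-free plug: a subquotient `A / (A ⊓ B)` in which every element of `A` has a power prime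
to `p` in `B` is coprime-to-`p` torsion. -/
theorem clI_isCoprimeTorsion_sqRep (A B : Subgroup X) (hA : IsStableSub G A)
    (hB : IsStableSub G B) (p : ℕ) (h : ∀ x ∈ A, ∃ m : ℕ, m.Coprime p ∧ x ^ m ∈ B) :
    IsCoprimeTorsion (p : ℤ) (sqRep A B hA hB) := by
  rw [isCoprimeTorsion_int_iff]
  intro q
  obtain ⟨x, rfl⟩ := sqMk_surjective A B hA hB q
  have e : ∀ n : ℕ, n • sqMk A B hA hB x = sqMk A B hA hB (x ^ n) := by
    intro n
    induction n with
    | zero => rw [zero_smul, pow_zero]; rfl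
    | succ n ih => rw [succ_nsmul, pow_succ, sqMk_mul, ih]
  obtain ⟨m, hm, hxm⟩ := h x x.2
  refine ⟨m, hm, ?_⟩
  rw [e, sqMk_eq_zero_iff]
  exact hxm

end Plug

end Fermat.Agent.PT
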