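import Mathlib
import Fermat.Agent.CFT.PT.IdeleRep
import Fermat.Agent.CFT.PT.ClInfFinite
import Fermat.Agent.CFT.Idele.PCycloArtin
import Fermat.Agent.CFT.Idele.Relative
import Fermat.Agent.CFT.Bridge.TensorDescent
import Fermat.Agent.CFT.Bridge.LevelQuot

set_option autoImplicit false

/-!
# S55 GLOBAL, `Cl_∞` strand: `Cl_∞ = 𝕁 / (J_S · 𝕂 · 𝕌)` is prime-to-`p` torsion

(helper10)  On top of helper27's `PT/IdeleRep.lean` (K0):
* `clR_placesS_eq_ratSet` : `placesS S = sUCI_ratSet S` (the two descriptions of the places over `S`);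
* `clR_mem_idJS_sup_idU` : an element of `𝕁` which is an integral unit outside `S` lies in `J_S · 𝕌`;
* `clR_lvl F : ideleGroup ℚ F →* slProd` the level map of a finite `F ⊆ Qb` (same formula as
  helper27's level map, kept private to this file), `clR_lvl_diag`, `clR_lvl_relIdele` (tower
  compatibility), `clR_exists_lvl_eq` (Galois descent: the elements fixed by `Gal(Qb/F)` and integral
  almost everywhere come from `J_F`);
* `clR_exists_pow_mem` : every `x ∈ 𝕁` has a power prime to `p` in `J_S · 𝕂 · 𝕌` (finiteness of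
  `Cl_S(F)` + `p`-capitulation inside `ℚ_S`, `PT/ClInfFinite.lean`);
* **`clR_isCoprimeTorsion_idClRep`** : `IsCoprimeTorsion (p : ℤ) (idClRep S)` for `p ∈ S`.
-/

namespace Fermat.Agent.PT

open CategoryTheory Fermat.Agent.CFT IntermediateField ExtCitation NumberField IsDedekindDomain
open scoped TensorProduct Fermat.Agent.CFT.TensorGal

local notation "Qb" => AlgebraicClosure ℚ
local notation "Γℚ" => (AlgebraicClosure ℚ ≃ₐ[ℚ] AlgebraicClosure ℚ)

attribute [local instance] slQbUnitsAction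

variable (S : Finset Nat.Primes)

/-- the two descriptions of the places of `ℚ` over `S` agree. -/
theorem clR_placesS_eq_ratSet : placesS S = sUCI_ratSet S := by
  ext v
  change Rat.HeightOneSpectrum.primesEquiv v ∈ S ↔ _
  rw [mem_sUCI_ratSet]
  have hdvd : ∀ q : ℕ, ((q : ℕ) : 𝓞 ℚ) ∈ v.asIdeal ↔ Rat.HeightOneSpectrum.natGenerator v ∣ q := by
    intro q
    rw [pcyc_asIdeal_eq_span v, Ideal.mem_span_singleton]
    constructor
    · intro h
      have h1 := map_dvd (Rat.IsIntegralClosure.intEquiv (𝓞 ℚ)) h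
      rw [map_natCast, map_natCast] at h1
      exact Int.natCast_dvd_natCast.1 h1
    · rintro ⟨c, rfl⟩
      exact ⟨(c : 𝓞 ℚ), by push_cast; rfl⟩
  constructor
  · intro h
    exact ⟨_, h, (hdvd _).2 (dvd_refl _)⟩
  · rintro ⟨q, hq, hqv⟩
    have h1 := (hdvd _).1 hqv
    have h2 : Rat.HeightOneSpectrum.natGenerator v = (q : ℕ) :=
      (Nat.prime_dvd_prime_iff_eq (Rat.HeightOneSpectrum.prime_natGenerator v) q.2).1 h1
    have h3 : Rat.HeightOneSpectrum.primesEquiv v = q := Subtype.ext h2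
    rw [h3]
    exact hq

/-- an element of `𝕁` which is an integral unit at all places outside `S` lies in `J_S · 𝕌`. -/
theorem clR_mem_idJS_sup_idU {x : slProd} (hx : x ∈ JFull S)
    (hx' : ∀ v ∉ placesS S, x v ∈ slIntUnits v) : x ∈ idJS S ⊔ idU S := by
  classical
  obtain ⟨⟨U, hU, hfix⟩, hev⟩ := hx
  have hfixv : ∀ g ∈ U, ∀ v, g • x v = x v := fun g hg v => by
    have := congrFun (hfix g hg) v
    rwa [slProd_smul_apply] at this
  set js : slProd := fun v => if v ∈ placesS S then x v else 1 with hjs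
  set u : slProd := fun v => if v ∈ placesS S then 1 else x v with hu
  have hjs1 : ∀ v, v ∈ placesS S → js v = x v := fun v hv => if_pos hv
  have hjs2 : ∀ v, v ∉ placesS S → js v = 1 := fun v hv => if_neg hv
  have hu1 : ∀ v, v ∈ placesS S → u v = 1 := fun v hv => if_pos hv
  have hu2 : ∀ v, v ∉ placesS S → u v = x v := fun v hv => if_neg hv
  have hxju : x = js * u := by
    funext v
    by_cases hv : v ∈ placesS S
    · rw [slProd_mul_apply, hjs1 v hv, hu1 v hv, mul_one]
    · rw [slProd_mul_apply, hjs2 v hv, hu2 v hv, one_mul]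
  have hjsJ : js ∈ JFull S := by
    refine ⟨⟨U, hU, fun g hg => ?_⟩, ?_⟩
    · funext v
      rw [slProd_smul_apply]
      by_cases hv : v ∈ placesS S
      · rw [hjs1 v hv, hfixv g hg v]
      · rw [hjs2 v hv, smul_one]
    · filter_upwards [hev] with v h1
      by_cases hv : v ∈ placesS S
      · rw [hjs1 v hv]; exact h1
      · rw [hjs2 v hv]; exact one_mem _
  have huJ : u ∈ JFull S := by
    refine ⟨⟨U, hU, fun g hg => ?_⟩, ?_⟩
    · funext v
      rw [slProd_smul_apply]
      by_cases hv : v ∈ placesS S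
      · rw [hu1 v hv, smul_one]
      · rw [hu2 v hv, hfixv g hg v]
    · filter_upwards [hev] with v h1
      by_cases hv : v ∈ placesS S
      · rw [hu1 v hv]; exact one_mem _
      · rw [hu2 v hv]; exact h1
  rw [hxju]
  refine Subgroup.mul_mem_sup ⟨hjsJ, fun v hv => hjs2 v hv⟩ ⟨huJ, fun v hv => hu1 v hv, fun v hv => ?_⟩
  rw [hu2 v hv]
  exact hx' v hv

/-! ### the level maps `J_F → ∏_v (ℚ_v ⊗ Qb)ˣ` -/

section Level

variable (F : IntermediateField ℚ Qb) [NumberField F]

/-- the level map `J_F → ∏_v (ℚ_v ⊗ Qb)ˣ` induced by the inclusion `F ⊆ Qb`. -/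
noncomputable def clR_lvl : ideleGroup ℚ F →* slProd where
  toFun x := fun v => Units.map ((slBase v F.val : semiLocal ℚ F v →* slQb v)) (x.1 v)
  map_one' := by
    funext v
    show Units.map ((slBase v F.val : semiLocal ℚ F v →* slQb v)) 1 = 1
    rw [map_one]
  map_mul' x y := by
    funext v
    show Units.map ((slBase v F.val : semiLocal ℚ F v →* slQb v)) (x.1 v * y.1 v) = _
    rw [map_mul]
    rfl

theorem clR_lvl_apply (x : ideleGroup ℚ F) (v : HeightOneSpectrum (𝓞 ℚ)) :
    clR_lvl F x v = Units.map ((slBase v F.val : semiLocal ℚ F v →* slQb v)) (x.1 v) := rfl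

theorem clR_lvl_val (x : ideleGroup ℚ F) (v : HeightOneSpectrum (𝓞 ℚ)) :
    ((clR_lvl F x v : (slQb v)ˣ) : slQb v) = slBase v F.val ((x.1 v : (semiLocal ℚ F v)ˣ)) := rfl

/-- the level map sends the principal idele of `b` to the diagonal element of `b`. -/
theorem clR_lvl_diag (b : (↥F)ˣ) :
    clR_lvl F (diagIdele (K := ℚ) b) = slDiag (Units.map (F.val : ↥F →* Qb) b) := by
  funext v
  apply Units.ext
  rw [clR_lvl_val, slDiag_apply, slIncl_val, diagIdele_apply]
  show slBase v F.val ((1 : v.adicCompletion ℚ) ⊗ₜ[ℚ] (b : ↥F)) = _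
  rw [slBase_tmul]
  rfl

/-- a local unit at `v` goes to an integral unit at `v`. -/
theorem clR_lvl_mem_slIntUnits (x : ideleGroup ℚ F) (v : HeightOneSpectrum (𝓞 ℚ))
    (h : x.1 v ∈ semiLocalUnits ℚ F v) : clR_lvl F x v ∈ slIntUnits v := by
  rw [mem_semiLocalUnits_iff] at h
  rw [mem_slIntUnits_iff, clR_lvl_apply, ← map_inv]
  exact ⟨isIntegral_slBase F.val h.1, isIntegral_slBase F.val h.2⟩

/-- conversely an integral unit at `v` comes from a local unit at `v`. -/
theorem clR_lvl_mem_semiLocalUnits (x : ideleGroup ℚ F) (v : HeightOneSpectrum (𝓞 ℚ))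
    (h : clR_lvl F x v ∈ slIntUnits v) : x.1 v ∈ semiLocalUnits ℚ F v := by
  rw [mem_slIntUnits_iff, clR_lvl_apply, ← map_inv] at h
  rw [mem_semiLocalUnits_iff]
  have hinj := slBase_injective v F.val
  exact ⟨(isIntegral_algHom_iff ((slBase v F.val).restrictScalars (v.adicCompletionIntegers ℚ))
      hinj).1 h.1,
    (isIntegral_algHom_iff ((slBase v F.val).restrictScalars (v.adicCompletionIntegers ℚ))
      hinj).1 h.2⟩

end Level

/-! ### compatibility with the transition maps -/

section Rel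

variable (F F' : IntermediateField ℚ Qb) [NumberField F] [NumberField F'] [Algebra F F']
  [IsScalarTower ℚ F F']

/-- the level maps are compatible with the transition maps `J_F → J_{F'}`. -/
theorem clR_lvl_relIdele (hc : ∀ x : F, ((algebraMap F F' x : F') : Qb) = (x : Qb))
    (y : ideleGroup ℚ F) : clR_lvl F' (relIdele ℚ F F' y) = clR_lvl F y := by
  funext v
  apply Units.ext
  rw [clR_lvl_val, clR_lvl_val, relIdele_apply]
  show slBase v F'.val (relTensorMap ((y.1 v : (semiLocal ℚ F v)ˣ) : semiLocal ℚ F v)) = _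
  generalize ((y.1 v : (semiLocal ℚ F v)ˣ) : semiLocal ℚ F v) = t
  induction t using TensorProduct.induction_on with
  | zero => rw [map_zero, map_zero, map_zero]
  | tmul a z =>
    rw [relTensorMap_tmul, slBase_tmul, slBase_tmul]
    congr 1
    exact hc z
  | add a b ha hb => rw [map_add, map_add, ha, hb, map_add]

end Rel

/-! ### every element of `𝕁` comes from a finite level -/

section Cover

/-- the action of `Γℚ` on `ℚ_v ⊗ Qb` in the form used by the descent lemmas. -/
theorem clR_smul_eq_map (v : HeightOneSpectrum (𝓞 ℚ)) (g : Γℚ) (t : slQb v) :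
    Algebra.TensorProduct.map (AlgHom.id (v.adicCompletion ℚ) (v.adicCompletion ℚ))
      ((g : Qb ≃ₐ[ℚ] Qb) : Qb →ₐ[ℚ] Qb) t = g • t := by
  induction t using TensorProduct.induction_on with
  | zero => rw [map_zero, smul_zero]
  | tmul a y =>
    rw [Algebra.TensorProduct.map_tmul, slQb_smul_tmul]
    rfl
  | add a b ha hb => rw [map_add, ha, hb, smul_add]

/-- an element of `∏_v (ℚ_v ⊗ Qb)ˣ` fixed by `Gal(Qb/F)` and integral almost everywhere comes from
an idele of `F`. -/
theorem clR_exists_lvl_eq (F : IntermediateField ℚ Qb) [NumberField F] (x : slProd)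
    (hfix : ∀ u ∈ F.fixingSubgroup, u • x = x)
    (hint : ∀ᶠ v in Filter.cofinite, x v ∈ slIntUnits v) :
    ∃ a : ideleGroup ℚ F, clR_lvl F a = x := by
  have h1 : ∀ v, ∃ a : (semiLocal ℚ F v)ˣ,
      Units.map ((slBase v F.val : semiLocal ℚ F v →* slQb v)) a = x v := by
    intro v
    obtain ⟨s, s', hss', hs, -⟩ := tnD_exists_unit_of_fixed (K := ℚ)
      (A := v.adicCompletion ℚ) (Mt := Qb) F (x v) (fun u hu => by
        rw [clR_smul_eq_map]
        have := congrFun (hfix u hu) v
        rw [slProd_smul_apply] at this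
        exact congrArg Units.val this)
    refine ⟨⟨s, s', hss', by rw [mul_comm]; exact hss'⟩, ?_⟩
    apply Units.ext
    exact hs
  choose a ha using h1
  have hmem : a ∈ ideleGroup ℚ F := by
    rw [mem_ideleGroup_iff]
    filter_upwards [hint] with v hv
    rw [← ha v, mem_slIntUnits_iff, ← map_inv] at hv
    rw [mem_semiLocalUnits_iff]
    have hinj := slBase_injective v F.val
    exact ⟨(isIntegral_algHom_iff ((slBase v F.val).restrictScalars
        (v.adicCompletionIntegers ℚ)) hinj).1 hv.1,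
      (isIntegral_algHom_iff ((slBase v F.val).restrictScalars
        (v.adicCompletionIntegers ℚ)) hinj).1 hv.2⟩
  exact ⟨⟨a, hmem⟩, funext fun v => ha v⟩

end Cover

/-! ### `Cl_∞` is prime-to-`p` torsion -/

section Final

variable {p : ℕ} [Fact p.Prime]

/-- the image of `(principal ideles) · J_{F,S}` of a level `F ⊆ ℚ_S` lies in `J_S · 𝕂 · 𝕌`. -/
theorem clR_lvl_mem_of_mem_sup (F : IntermediateField ℚ Qb) [NumberField F]
    (hF : F.IsUnramifiedOutside S) (b : ideleGroup ℚ F)
    (hb : b ∈ principalIdeles ℚ F ⊔ ideleGroupS ℚ F (sUCI_ratSet S))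
    (hJ : clR_lvl F b ∈ JFull S) :
    clR_lvl F b ∈ idJS S ⊔ (idK S ⊔ idU S) := by
  obtain ⟨k, ⟨c, rfl⟩, s, hs, rfl⟩ := Subgroup.mem_sup.1 hb
  have hFQ : F ≤ QS S := le_QS_of_isUnramifiedOutside S hF
  have hk : clR_lvl F (diagIdele (K := ℚ) c) ∈ idK S := by
    rw [clR_lvl_diag]
    exact ⟨_, hFQ (c : ↥F).2, rfl⟩
  have hsJ : clR_lvl F s ∈ JFull S := by
    have h1 : clR_lvl F s = (clR_lvl F (diagIdele (K := ℚ) c))⁻¹ *
        clR_lvl F (diagIdele (K := ℚ) c * s) := by
      rw [map_mul, inv_mul_cancel_left]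
    rw [h1]
    exact mul_mem (inv_mem (idK_le_JFull S hk)) hJ
  have hs' : clR_lvl F s ∈ idJS S ⊔ idU S := by
    refine clR_mem_idJS_sup_idU S hsJ fun v hv => ?_
    refine clR_lvl_mem_slIntUnits F s v ?_
    rw [clR_placesS_eq_ratSet] at hv
    exact (mem_ideleGroupS_iff s).1 hs v hv
  rw [map_mul]
  refine mul_mem ?_ ?_
  · exact (le_sup_left.trans le_sup_right : idK S ≤ idJS S ⊔ (idK S ⊔ idU S)) hk
  · exact (sup_le le_sup_left (le_sup_right.trans le_sup_right) :
      idJS S ⊔ idU S ≤ idJS S ⊔ (idK S ⊔ idU S)) hs'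

/-- every idele of `ℚ_S` has a power prime to `p` in `J_S · 𝕂 · 𝕌`. -/
theorem clR_exists_pow_mem (hpS : pPrime p ∈ S) {x : slProd} (hx : x ∈ JFull S) :
    ∃ m : ℕ, m.Coprime p ∧ x ^ m ∈ idJS S ⊔ (idK S ⊔ idU S) := by
  obtain ⟨⟨U, hU, hfix⟩, hint⟩ := id hx
  have hUo := lvq_isOpenFor_of_mem S hU
  haveI : NumberField (fixedField U) := lvq_numberField_fixedField S hUo
  have hFU : (fixedField U).fixingSubgroup = U := lvq_fixingSubgroup_fixedField S hUo
  have hFur : (fixedField U).IsUnramifiedOutside S := lvq_isUnramifiedOutside_of_mem S hU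
  obtain ⟨a, ha⟩ := clR_exists_lvl_eq (fixedField U) x (fun u hu => hfix u (hFU ▸ hu)) hint
  obtain ⟨m, hm, F', hle, hF'ur, -, -, hcap⟩ :=
    clI_capitulation_coprime S (fixedField U) hpS hFur a
  refine ⟨m, hm, ?_⟩
  haveI : FiniteDimensional ℚ F' := hF'ur.1
  haveI : NumberField F' := { to_charZero := inferInstance, to_finiteDimensional := inferInstance }
  letI : Algebra (fixedField U) F' := S14.algebraOfLE hle
  haveI : IsScalarTower ℚ (fixedField U) F' := S14.isScalarTower_of_le hle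
  have hb := hcap (fun _ => rfl)
  have e : x ^ m = clR_lvl F' (relIdele ℚ (fixedField U) F' (a ^ m)) := by
    rw [clR_lvl_relIdele (fixedField U) F' (fun _ => rfl), map_pow, ha]
  rw [e]
  refine clR_lvl_mem_of_mem_sup S F' hF'ur _ hb ?_
  rw [← e]
  exact pow_mem hx m

/-- **`Cl_∞ = 𝕁 / J_S 𝕂 𝕌` is prime-to-`p` torsion** (hypothesis (a) of (K7b)). -/
theorem clR_isCoprimeTorsion_idClRep (hpS : pPrime p ∈ S) :
    IsCoprimeTorsion (p : ℤ) (idClRep S) :=
  clI_isCoprimeTorsion_sqRep (JFull S) (idJS S ⊔ (idK S ⊔ idU S)) (isStableSub_JFull S)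
    (isStableSub_idJSKU S) p (fun _ hx => clR_exists_pow_mem S hpS hx)

end Final

end Fermat.Agent.PT
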