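import Fermat.Agent.CFT.Coh.LevelTransport
import Fermat.Agent.CFT.PT.FiniteLevelLimit
import Fermat.Agent.CFT.PT.SmoothShapiro

/-!
# S55 engine (K6)/(K7): from finite-level identifications to `Hlc` of an open subgroup

`V ≤ G` open for `𝔉`, `A : Rep k G`.  A *level datum* at `U ∈ 𝔉`, `U ≤ V` is a group `Q`, a
representation `A'` of `Q`, a surjection `π : V → Q` with kernel `U ∩ V` and an injective morphism
`φ : Res_π A' ⟶ Res_V A` whose image is the `U`-invariants (for the arithmetic modules: `Q =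
Gal(L/M)`, `A' =` the finite-level module of `L`).  If every such level carries a datum whose
cohomology vanishes / has no `r`-torsion in degree `n + 1`, the same holds for
`Hlc (𝔉.restrict V) (Res_V A) (n + 1)`.

* `lvlV_exists_level_le` : the levels `U ∈ 𝔉`, `U ≤ V` are cofinal in `𝔉.restrict V`;
* `lvlV_isZero_Hlc` : vanishing;
* `lvlV_eq_zero_of_smul_eq_zero` : absence of `r`-torsion.
-/

set_option autoImplicit false

namespace Fermat.Agent.PT

open CategoryTheory groupCohomology Rep Fermat.Agent.CFT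

universe u

variable {k G : Type u} [CommRing k] [Group G] (𝔉 : LevelFamily G) (V : Subgroup G)

/-- the members of `𝔉` contained in the open subgroup `V` are cofinal in `𝔉.restrict V`. -/
theorem lvlV_exists_level_le (hV : IsOpenFor 𝔉 V) (U₁ : ↥(𝔉.restrict V).sets) :
    ∃ U ∈ 𝔉.sets, U ≤ V ∧ U.subgroupOf V ≤ (U₁ : Subgroup ↥V) := by
  obtain ⟨U₀, hU₀, hU₁⟩ := U₁.2
  obtain ⟨W, hW, hWV⟩ := hV
  obtain ⟨U, hU, hle⟩ := 𝔉.directed U₀ hU₀ W hW
  refine ⟨U, hU, fun x hx => hWV (hle hx).2, ?_⟩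
  rw [hU₁]
  exact Subgroup.subgroupOf_mono V (fun x hx => (hle hx).1)

variable (A : Rep.{u} k G)

/-- **vanishing from the finite levels**: if every level `U ∈ 𝔉`, `U ≤ V` carries a level datum
`(Q, A', π, φ)` with `Hⁿ⁺¹(Q, A') = 0`, then `Hlcⁿ⁺¹(V, A) = 0`. -/
theorem lvlV_isZero_Hlc (hV : IsOpenFor 𝔉 V) (n : ℕ)
    (h : ∀ U ∈ 𝔉.sets, U ≤ V → ∃ (Q : Type u) (_ : Group Q) (A' : Rep.{u} k Q)
      (π : ↥V →* Q) (φ : res π A' ⟶ res V.subtype A),
      Function.Surjective π ∧ π.ker = U.subgroupOf V ∧ Function.Injective φ.hom ∧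
      (∀ a : res V.subtype A, (∀ s ∈ π.ker, (res V.subtype A).ρ s a = a) →
        ∃ a' : A', φ.hom a' = a) ∧
      Subsingleton (groupCohomology A' (n + 1))) :
    Limits.IsZero (Hlc (𝔉.restrict V) (res V.subtype A) (n + 1)) := by
  refine isZero_Hlc_of_cofinal (𝔉.restrict V) (res V.subtype A) (n + 1) fun U₁ => ?_
  obtain ⟨U, hU, hUV, hle⟩ := lvlV_exists_level_le 𝔉 V hV U₁
  obtain ⟨Q, _, A', π, φ, hπ, hker, hinj, hrange, hzero⟩ := h U hU hUV
  have hUn : U.Normal := 𝔉.normal U hU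
  have hUVn : (U.subgroupOf V).Normal := Subgroup.normal_subgroupOf
  refine ⟨⟨U.subgroupOf V, LevelFamily.subgroupOf_mem_restrict V hU⟩, hle, ?_⟩
  have := lvlT_subsingleton π φ hπ hinj hrange (U.subgroupOf V) hker.symm (n + 1) hzero
  exact ModuleCat.isZero_of_subsingleton _

/-- **absence of `r`-torsion from the finite levels**. -/
theorem lvlV_eq_zero_of_smul_eq_zero (hV : IsOpenFor 𝔉 V) (n : ℕ) (r : k)
    (h : ∀ U ∈ 𝔉.sets, U ≤ V → ∃ (Q : Type u) (_ : Group Q) (A' : Rep.{u} k Q)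
      (π : ↥V →* Q) (φ : res π A' ⟶ res V.subtype A),
      Function.Surjective π ∧ π.ker = U.subgroupOf V ∧ Function.Injective φ.hom ∧
      (∀ a : res V.subtype A, (∀ s ∈ π.ker, (res V.subtype A).ρ s a = a) →
        ∃ a' : A', φ.hom a' = a) ∧
      ∀ y : groupCohomology A' (n + 1), r • y = 0 → y = 0)
    (x : Hlc (𝔉.restrict V) (res V.subtype A) (n + 1)) (hx : r • x = 0) : x = 0 := by
  refine eq_zero_of_smul_eq_zero_of_cofinal (𝔉.restrict V) (res V.subtype A) r n (fun U₁ => ?_)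
    x hx
  obtain ⟨U, hU, hUV, hle⟩ := lvlV_exists_level_le 𝔉 V hV U₁
  obtain ⟨Q, _, A', π, φ, hπ, hker, hinj, hrange, htors⟩ := h U hU hUV
  have hUn : U.Normal := 𝔉.normal U hU
  have hUVn : (U.subgroupOf V).Normal := Subgroup.normal_subgroupOf
  exact ⟨⟨U.subgroupOf V, LevelFamily.subgroupOf_mem_restrict V hU⟩, hle,
    lvlT_eq_zero_of_smul_eq_zero π φ hπ hinj hrange (U.subgroupOf V) hker.symm (n + 1) r htors⟩

end Fermat.Agent.PT
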