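import Mathlib
import Fermat.Agent.CFT.PT.IdeleRep
import Fermat.Agent.CFT.PT.IdeleLevel
import Fermat.Agent.CFT.PT.SUnitsH1Fin
import Fermat.Agent.CFT.PT.LevelVanish
import Fermat.Agent.CFT.Bridge.LevelQuot
import Fermat.Agent.CFT.Idele.UnitIdelesCoh

set_option autoImplicit false
set_option linter.unusedSectionVars false
set_option linter.style.haveILetI false

/-!
# S55 (K6), `𝕌` half, and (K7)(b): the unit ideles at the finite levels of `famS S`

(helper12)  `V ≤ Γℚ` open for `famS S`, `U ∈ famS S`, `U ≤ V`, `M = fixedField V`, `L = fixedField U`.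

* `idLU_inertia_eq_bot`, `idLU_primesEquiv_eq`, `idLU_hval` : a finite Galois `L ⊆ ℚ_S` is unramified
  over the TYPE `ℚ` at the places off `placesS S` (valuation form = hypothesis `hS` of (K3));
* generic part, for `ι : ideleGroup ℚ L →* slProd` given componentwise by `slBase v f`
  (= helper27's `idLevelHom f`): `idLU_mem_slIntUnits_iff`, `idLU_apply_eq_one_iff`,
  `idLU_injective`, `idLU_smul` (equivariance), `idLU_mem_idU`, `idLU_mem_unitIdeleS_of_mem_idU`;
* `idLU_φ : res π (idUC_repMul ℚ L G (placesS S)) ⟶ res V.subtype (idURep S)` for `π : V →* G`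
  compatible with `f`, `idLU_φ_injective`, `idLU_φ_range` (image = the `U`-invariants);
* **`idLU_exists_level hU hUV n`** : the level datum `(Gal(L/M), U^S(L), lvq_pi, φ)` with
  `Hⁿ⁺¹(Gal(L/M), U^S(L)) = 0` (helper23's (K3));
* **`idLU_isZero_Hlc hV n`** : `Hlc ((famS S).restrict V) (res V.subtype (idURep S)) (n + 1) = 0`,
  `idLU_eq_zero` (element form), `idLU_eq_zero_of_smul` (the (K7)(b) shape).
-/

namespace Fermat.Agent.PT

open CategoryTheory Fermat.Agent.CFT Fermat.Agent.CFT.S14 IntermediateField NumberField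
  IsDedekindDomain IsDedekindDomain.HeightOneSpectrum
open scoped TensorProduct Fermat.Agent.CFT.TensorGal

local notation "Qb" => AlgebraicClosure ℚ
local notation "Γℚ" => (AlgebraicClosure ℚ ≃ₐ[ℚ] AlgebraicClosure ℚ)

section Hval

variable (S : Finset Nat.Primes) {L : IntermediateField ℚ Qb} [FiniteDimensional ℚ L] [Normal ℚ L]

theorem idLU_numberField (F : IntermediateField ℚ Qb) [FiniteDimensional ℚ F] : NumberField F := { }

attribute [local instance] idLU_numberField

/-- trivial ideal-theoretic inertia in `Gal(L/ℚ)` at a prime over `q ∉ S`. -/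
theorem idLU_inertia_eq_bot (hL : L.IsUnramifiedOutside S) (Q : Ideal (𝓞 L)) [Q.IsPrime]
    {q : Nat.Primes} (hq : q ∉ S) (hqQ : ((q : ℕ) : 𝓞 L) ∈ Q) :
    Ideal.inertia (L ≃ₐ[ℚ] L) Q = ⊥ := by
  rw [eq_bot_iff]
  intro g hg
  rw [Subgroup.mem_bot]
  obtain ⟨P, hP, s, hPQ, hsP, hsτ⟩ := liftsInertia_of_normal L Q g (fun x => hg x)
  have hqP : ((q : ℕ) : 𝓞 Qb) ∈ P := by
    have : ((q : ℕ) : 𝓞 L) ∈ P.comap (algebraMap (𝓞 L) (𝓞 Qb)) := hPQ ▸ hqQ
    simpa using this
  have hI := mem_inertiaSubgroupIn_of_trivial P s hsP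
  have hsL : s ∈ L.fixingSubgroup := hL.2 q hq _ (valSubringOfPrime_liesOverPrime P q hqP) hI
  apply AlgEquiv.ext
  intro x
  apply Subtype.ext
  rw [← hsτ x]
  exact (IntermediateField.mem_fixingSubgroup_iff _ _).mp hsL x x.2

/-- the rational prime of a place of `ℚ`. -/
theorem idLU_primesEquiv_eq (v : HeightOneSpectrum (𝓞 ℚ)) {l : ℕ} (hl : l.Prime)
    (hlv : ((l : ℕ) : 𝓞 ℚ) ∈ v.asIdeal) : Rat.HeightOneSpectrum.primesEquiv v = ⟨l, hl⟩ := by
  apply Subtype.ext
  show Rat.HeightOneSpectrum.natGenerator v = l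
  have h1 : Rat.HeightOneSpectrum.natGenerator v ∣ l := by
    rw [Rat.HeightOneSpectrum.natGenerator_dvd_iff]
    have := Ideal.mem_map_of_mem (Rat.IsIntegralClosure.intEquiv (𝓞 ℚ)) hlv
    simpa using this
  exact (Nat.prime_dvd_prime_iff_eq (Rat.HeightOneSpectrum.prime_natGenerator v) hl).1 h1

/-- **(hval) at the base `ℚ`**: a finite Galois `L ⊆ ℚ_S` is unramified over `ℚ` at the places
off `placesS S`, valuation form (= the hypothesis of (K3)). -/
theorem idLU_hval (hL : L.IsUnramifiedOutside S) (w : HeightOneSpectrum (𝓞 L))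
    (hw : primeBelow ℚ L w ∉ placesS S) (a : ℚ) :
    w.valuation L (algebraMap ℚ L a) = (primeBelow ℚ L w).valuation ℚ a := by
  have := w.isPrime
  obtain ⟨l, hl, hlw⟩ := exists_prime_natCast_mem w.asIdeal w.ne_bot
  have hlv : ((l : ℕ) : 𝓞 ℚ) ∈ (primeBelow ℚ L w).asIdeal := by
    rw [primeBelow, under_asIdeal, Ideal.under, Ideal.mem_comap, map_natCast]
    exact hlw
  have hlS : (⟨l, hl⟩ : Nat.Primes) ∉ S := fun h => hw (by
    show Rat.HeightOneSpectrum.primesEquiv (primeBelow ℚ L w) ∈ S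
    rw [idLU_primesEquiv_eq _ hl hlv]
    exact h)
  have hin : w.asIdeal.inertia (L ≃ₐ[ℚ] L) = ⊥ :=
    idLU_inertia_eq_bot S hL w.asIdeal (q := ⟨l, hl⟩) hlS hlw
  have hlies : w.asIdeal.LiesOver (primeBelow ℚ L w).asIdeal := Ideal.over_under w.asIdeal
  have hgal : IsGalois ℚ L := ⟨⟩
  exact valuation_algebraMap_eq_of_inertia_eq_bot w (primeBelow ℚ L w) hin a

end Hval

/-! ### the finite-level map, generic part -/

section Generic

attribute [local instance] Units.mulDistribMulActionRight slQbUnitsAction ideleGroupActionOf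

variable {S : Finset Nat.Primes} {L : Type} [Field L] [NumberField L] (f : L →ₐ[ℚ] Qb)
  (ι : ideleGroup ℚ L →* slProd)
  (hι : ∀ (x : ideleGroup ℚ L) (v : HeightOneSpectrum (𝓞 ℚ)),
    ((ι x v : (slQb v)ˣ) : slQb v) =
      slBase v f (((x : ∀ v, (semiLocal ℚ L v)ˣ) v : (semiLocal ℚ L v)ˣ) : semiLocal ℚ L v))

include hι in
theorem idLU_val_inv (x : ideleGroup ℚ L) (v : HeightOneSpectrum (𝓞 ℚ)) :
    (((ι x v)⁻¹ : (slQb v)ˣ) : slQb v) =
      slBase v f ((((x : ∀ v, (semiLocal ℚ L v)ˣ) v)⁻¹ : (semiLocal ℚ L v)ˣ) : semiLocal ℚ L v) := by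
  have h := hι x⁻¹ v
  rw [map_inv] at h
  exact h

include hι in
/-- `ι x` is an integral unit at `v` iff `x` is. -/
theorem idLU_mem_slIntUnits_iff (x : ideleGroup ℚ L) (v : HeightOneSpectrum (𝓞 ℚ)) :
    ι x v ∈ slIntUnits v ↔ (x : ∀ v, (semiLocal ℚ L v)ˣ) v ∈ semiLocalUnits ℚ L v := by
  rw [mem_slIntUnits_iff, mem_semiLocalUnits_iff, hι, idLU_val_inv f ι hι]
  have key : ∀ z : semiLocal ℚ L v, IsIntegral (v.adicCompletionIntegers ℚ) (slBase v f z) ↔
      IsIntegral (v.adicCompletionIntegers ℚ) z := fun z =>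
    isIntegral_algHom_iff ((slBase v f).restrictScalars (v.adicCompletionIntegers ℚ))
      (slBase_injective v f)
  rw [key, key]

include hι in
theorem idLU_apply_eq_one_iff (x : ideleGroup ℚ L) (v : HeightOneSpectrum (𝓞 ℚ)) :
    ι x v = 1 ↔ (x : ∀ v, (semiLocal ℚ L v)ˣ) v = 1 := by
  constructor
  · intro h
    apply Units.ext
    apply slBase_injective v f
    rw [← hι, h, Units.val_one, Units.val_one, map_one]
  · intro h
    apply Units.ext
    rw [hι, h, Units.val_one, Units.val_one, map_one]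

include hι in
theorem idLU_injective : Function.Injective ι := by
  rw [injective_iff_map_eq_one]
  intro x hx
  apply Subtype.ext
  funext v
  exact (idLU_apply_eq_one_iff f ι hι x v).1 (by rw [hx]; rfl)

section Equivariance

variable {G : Type} [Group G] [MulSemiringAction G L] [SMulCommClass G ℚ L]

theorem idLU_slBase_smul (v : HeightOneSpectrum (𝓞 ℚ)) (σ : G) (g : Γℚ)
    (h : ∀ y : L, f (σ • y) = g (f y)) (z : semiLocal ℚ L v) :
    slBase v f (tensorRightHom ℚ (v.adicCompletion ℚ) L G σ z) = g • slBase v f z := by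
  induction z using TensorProduct.induction_on with
  | zero => rw [map_zero, map_zero, smul_zero]
  | tmul a y => rw [tensorRightHom_tmul, slBase_tmul, slBase_tmul, slQb_smul_tmul, h]
  | add x y hx hy => rw [map_add, map_add, hx, hy, map_add, smul_add]

include hι in
/-- **equivariance** of the finite-level map along `σ ↦ g`, `f ∘ σ = g ∘ f`. -/
theorem idLU_smul (σ : G) (g : Γℚ) (h : ∀ y : L, f (σ • y) = g (f y)) (x : ideleGroup ℚ L) :
    ι (σ • x) = g • ι x := by
  apply slProd_ext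
  intro v
  apply Units.ext
  rw [hι, ideleGroupActionOf_apply, idLU_slBase_smul f v σ g h, slProd_smul_apply,
    slQb_units_smul_val, hι]

end Equivariance

include hι in
/-- the unit ideles of the level `L` land in `𝕌`. -/
theorem idLU_mem_idU {U₀ : Subgroup Γℚ} (hU₀ : U₀ ∈ (famS S).sets)
    (hfix : ∀ g ∈ U₀, ∀ y : L, g (f y) = f y)
    {x : ideleGroup ℚ L} (hx : x ∈ unitIdeleS ℚ L (placesS S)) : ι x ∈ idU S := by
  rw [mem_unitIdeleS_iff] at hx
  have hint : ∀ v, ι x v ∈ slIntUnits v := fun v => by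
    by_cases hv : v ∈ placesS S
    · rw [(idLU_apply_eq_one_iff f ι hι x v).2 (hx.2 v hv)]
      exact one_mem _
    · exact (idLU_mem_slIntUnits_iff f ι hι x v).2 (hx.1 v hv)
  refine ⟨⟨⟨U₀, hU₀, fun g hg => ?_⟩, Filter.Eventually.of_forall hint⟩, fun v hv => ?_,
    fun v _ => hint v⟩
  · have h1 := idLU_smul f ι hι (G := L ≃ₐ[ℚ] L) 1 g
      (fun y => by rw [one_smul]; exact (hfix g hg y).symm) x
    rw [one_smul] at h1
    exact h1.symm
  · exact (idLU_apply_eq_one_iff f ι hι x v).2 (hx.2 v hv)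

include hι in
theorem idLU_mem_unitIdeleS_of_mem_idU {x : ideleGroup ℚ L} (hx : ι x ∈ idU S) :
    x ∈ unitIdeleS ℚ L (placesS S) := by
  rw [mem_unitIdeleS_iff]
  exact ⟨fun v hv => (idLU_mem_slIntUnits_iff f ι hι x v).1 (hx.2.2 v hv),
    fun v hv => (idLU_apply_eq_one_iff f ι hι x v).1 (hx.2.1 v hv)⟩

/-! ### the morphism of representations -/

section Morphism

variable {V : Subgroup Γℚ} {G : Type} [Group G] [MulSemiringAction G L] [SMulCommClass G ℚ L]
  (π : ↥V →* G) (hπ : ∀ (s : ↥V) (y : L), f (π s • y) = (s : Γℚ) (f y))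
  (hmem : ∀ x : ↥(unitIdeleS ℚ L (placesS S)), ι (x : ideleGroup ℚ L) ∈ idU S)

/-- the group homomorphism `U^S(L) → 𝕌`. -/
noncomputable def idLU_unitHom : ↥(unitIdeleS ℚ L (placesS S)) →* ↥(idU S) :=
  (ι.comp (unitIdeleS ℚ L (placesS S)).subtype).codRestrict (idU S) hmem

theorem idLU_unitHom_coe (x : ↥(unitIdeleS ℚ L (placesS S))) :
    ((idLU_unitHom ι hmem x : ↥(idU S)) : slProd) = ι (x : ideleGroup ℚ L) := rfl

/-- **(K6), 𝕌 half**: the morphism `U^S(L) ⟶ 𝕌` over `π : V → G`. -/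
noncomputable def idLU_φ :
    Rep.res π (idUC_repMul ℚ L G (placesS S)) ⟶ Rep.res V.subtype (idURep S) :=
  letI := unitIdeleSAction ℚ L G (placesS S)
  Rep.ofHom
    { toLinearMap := (MonoidHom.toAdditive
        ((QuotientGroup.mk' ((⊥ : Subgroup slProd).subgroupOf (idU S))).comp
          (idLU_unitHom ι hmem))).toIntLinearMap
      isIntertwining' := fun s => by
        refine LinearMap.ext fun (y : Additive ↥(unitIdeleS ℚ L (placesS S))) => ?_
        change sqMk (idU S) ⊥ (isStableSub_idU S) IsStableSub.bot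
            (idLU_unitHom ι hmem (π s • (Additive.toMul y : ↥(unitIdeleS ℚ L (placesS S))))) =
          sqMk (idU S) ⊥ (isStableSub_idU S) IsStableSub.bot
            ⟨(s : Γℚ) • ((idLU_unitHom ι hmem (Additive.toMul y) : ↥(idU S)) : slProd),
              isStableSub_idU S _ _ (idLU_unitHom ι hmem (Additive.toMul y)).2⟩
        refine congrArg _ (Subtype.ext ?_)
        change ι (((π s • (Additive.toMul y : ↥(unitIdeleS ℚ L (placesS S))) :
            ↥(unitIdeleS ℚ L (placesS S))) : ideleGroup ℚ L)) =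
          (s : Γℚ) • ι ((Additive.toMul y : ↥(unitIdeleS ℚ L (placesS S))) : ideleGroup ℚ L)
        rw [unitIdeleSAction_coe]
        exact idLU_smul f ι hι (π s) (s : Γℚ) (hπ s) _ }

theorem idLU_φ_apply (y : Additive ↥(unitIdeleS ℚ L (placesS S))) :
    (idLU_φ f ι hι π hπ hmem).hom y =
      sqMk (idU S) ⊥ (isStableSub_idU S) IsStableSub.bot
        (idLU_unitHom ι hmem (Additive.toMul y)) := rfl

theorem idLU_φ_injective : Function.Injective (idLU_φ f ι hι π hπ hmem).hom := by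
  rw [injective_iff_map_eq_zero]
  intro (y : Additive ↥(unitIdeleS ℚ L (placesS S))) hy
  rw [idLU_φ_apply, sqMk_eq_zero_iff, Subgroup.mem_bot, idLU_unitHom_coe] at hy
  have h1 : ((Additive.toMul y : ↥(unitIdeleS ℚ L (placesS S))) : ideleGroup ℚ L) = 1 :=
    idLU_injective f ι hι (hy.trans (map_one ι).symm)
  have h2 : (Additive.toMul y : ↥(unitIdeleS ℚ L (placesS S))) = 1 := Subtype.ext h1
  exact congrArg Additive.ofMul h2

/-- the image of `φ` is the `U`-invariants, given the Galois descent `(5)` for `ι`. -/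
theorem idLU_φ_range {U : Subgroup Γℚ} (hUV : U ≤ V) (hker : π.ker = U.subgroupOf V)
    (hdesc : ∀ a : slProd, a ∈ idU S → (∀ u ∈ U, u • a = a) → ∃ y : ideleGroup ℚ L, ι y = a)
    (a : Rep.res V.subtype (idURep S))
    (ha : ∀ s ∈ π.ker, (Rep.res V.subtype (idURep S)).ρ s a = a) :
    ∃ a' : idUC_repMul ℚ L G (placesS S), (idLU_φ f ι hι π hπ hmem).hom a' = a := by
  obtain ⟨x, rfl⟩ := sqMk_surjective (idU S) ⊥ (isStableSub_idU S) IsStableSub.bot a
  have hfix : ∀ u ∈ U, u • (x : slProd) = x := by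
    intro u hu
    have h1 := ha ⟨u, hUV hu⟩ (by rw [hker, Subgroup.mem_subgroupOf]; exact hu)
    change (idURep S).ρ u (sqMk (idU S) ⊥ (isStableSub_idU S) IsStableSub.bot x) = _ at h1
    rw [sqRep_ρ_sqMk, sqMk_eq_iff, Subgroup.mem_bot] at h1
    exact inv_mul_eq_one.1 h1
  obtain ⟨y, hy⟩ := hdesc x x.2 hfix
  have hyU : y ∈ unitIdeleS ℚ L (placesS S) :=
    idLU_mem_unitIdeleS_of_mem_idU f ι hι (by rw [hy]; exact x.2)
  refine ⟨(Additive.ofMul (⟨y, hyU⟩ : ↥(unitIdeleS ℚ L (placesS S))) :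
    Additive ↥(unitIdeleS ℚ L (placesS S))), ?_⟩
  exact (idLU_φ_apply f ι hι π hπ hmem _).trans (congrArg _ (Subtype.ext hy))

end Morphism

end Generic

/-! ### the levels of `famS S` -/

section Level

attribute [local instance] Units.mulDistribMulActionRight slQbUnitsAction ideleGroupActionOf

variable {S : Finset Nat.Primes} {U V : Subgroup Γℚ}

/-- **(K6), 𝕌 half, at the level `U ≤ V`**: the level datum. -/
theorem idLU_exists_level (hU : U ∈ (famS S).sets) (hUV : U ≤ V) (n : ℕ) :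
    ∃ (Q : Type) (_ : Group Q) (A' : Rep.{0} ℤ Q)
      (π : ↥V →* Q) (φ : Rep.res π A' ⟶ Rep.res V.subtype (idURep S)),
      Function.Surjective π ∧ π.ker = U.subgroupOf V ∧ Function.Injective φ.hom ∧
      (∀ a : Rep.res V.subtype (idURep S),
        (∀ s ∈ π.ker, (Rep.res V.subtype (idURep S)).ρ s a = a) → ∃ a' : A', φ.hom a' = a) ∧
      Subsingleton (groupCohomology A' (n + 1)) := by
  letI := algebraOfLE (lvq_fixedField_le hUV)
  haveI hfd : FiniteDimensional ℚ (fixedField U) :=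
    lvq_finiteDimensional_fixedField S (lvq_isOpenFor_of_mem S hU)
  haveI hnf : NumberField (fixedField U) :=
    lvq_numberField_fixedField S (lvq_isOpenFor_of_mem S hU)
  haveI hgal : IsGalois ℚ (fixedField U) := lvq_isGalois_of_mem S hU
  haveI hnorm : Normal ℚ (fixedField U) := hgal.to_normal
  haveI := isScalarTower_of_le (lvq_fixedField_le hUV)
  haveI : FiniteDimensional (fixedField V) (fixedField U) :=
    FiniteDimensional.right ℚ (fixedField V) (fixedField U)
  have hf : (ratVal (fixedField U)).fieldRange ≤ QS S := by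
    rw [fieldRange_ratVal]
    exact lvq_fixedField_le_QS S (lvq_isOpenFor_of_mem S hU)
  have hπ : ∀ (s : ↥V) (y : fixedField U),
      ratVal (fixedField U) (lvq_pi hU hUV s • y) = (s : Γℚ) (ratVal (fixedField U) y) :=
    fun s y => lvq_pi_apply hU hUV s y
  have hmem : ∀ x : ↥(unitIdeleS ℚ (fixedField U) (placesS S)),
      idLevelHom (ratVal (fixedField U)) (x : ideleGroup ℚ (fixedField U)) ∈ idU S := fun x =>
    (idLevelHom_mem_idU_iff (ratVal (fixedField U)) S hf _).2 x.2
  refine ⟨fixedField U ≃ₐ[fixedField V] fixedField U, inferInstance,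
    idUC_repMul ℚ (fixedField U) (fixedField U ≃ₐ[fixedField V] fixedField U) (placesS S),
    lvq_pi hU hUV,
    idLU_φ (ratVal (fixedField U)) (idLevelHom (ratVal (fixedField U)))
      (idLevelHom_apply_val (ratVal (fixedField U))) (lvq_pi hU hUV) hπ hmem,
    lvq_pi_surjective hU hUV, lvq_pi_ker hU hUV, idLU_φ_injective _ _ _ _ _ _, ?_, ?_⟩
  · refine idLU_φ_range _ _ _ _ _ _ hUV (lvq_pi_ker hU hUV) ?_
    intro a ha hfix
    refine exists_idLevelHom_eq_of_forall_smul_eq S (fixedField U) (ratVal (fixedField U))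
      (fun y => rfl) ha.1 fun u hu => hfix u ?_
    rwa [lvq_fixingSubgroup_fixedField S (lvq_isOpenFor_of_mem S hU)] at hu
  · exact idUC_subsingleton_mul ℚ (fixedField U) (fixedField U ≃ₐ[fixedField V] fixedField U)
      (placesS S) (fun w hw a => idLU_hval S (lvq_isUnramifiedOutside_of_mem S hU) w hw a) n

/-- **(K7)(b)**: `Hlcⁿ⁺¹(V, 𝕌) = 0` for every open `V`. -/
theorem idLU_isZero_Hlc (hV : IsOpenFor (famS S) V) (n : ℕ) :
    Limits.IsZero (Hlc ((famS S).restrict V) (Rep.res V.subtype (idURep S)) (n + 1)) :=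
  lvlV_isZero_Hlc (famS S) V (idURep S) hV n fun _ hU hUV => idLU_exists_level hU hUV n

/-- element form. -/
theorem idLU_eq_zero (hV : IsOpenFor (famS S) V) (n : ℕ)
    (c : Hlc ((famS S).restrict V) (Rep.res V.subtype (idURep S)) (n + 1)) : c = 0 :=
  (ModuleCat.subsingleton_of_isZero (idLU_isZero_Hlc hV n)).elim _ _

/-- the (K7)(b) shape. -/
theorem idLU_eq_zero_of_smul (hV : IsOpenFor (famS S) V) (p : ℕ) (n : ℕ)
    (c : Hlc ((famS S).restrict V) (Rep.res V.subtype (idURep S)) (n + 1)) (_ : p • c = 0) :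
    c = 0 := idLU_eq_zero hV n c

end Level

end Fermat.Agent.PT
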