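/-
S55 GLOBAL, C-side, FINAL (helper15): the inputs `hCA1`, `hCA5` of helper22's `s55Side_main`,
VERBATIM and UNCONDITIONAL, for `C' = idC'Rep S = J_S / Ē`:

* `csF_CA1` : `Hlc¹(V', C')[p] = 0`, `csF_CA5` : `|Hlc²(V', C')[p]| ≤ p`, at every open subgroup `V'`
  of `G_S` with trivial cyclotomic character (`p` odd, `p ∈ S`).

Inputs: (a) `clR_isCoprimeTorsion_idClRep` (helper10), (b) `idLU_eq_zero_of_smul` (helper12),
(c), (d) `csC_hc`, `csC_hd` (`PT/CSideC`), transfer `csI_CA1'`, `csI_CA5'` (helper26).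
-/
import Fermat.Agent.CFT.PT.CSideC
import Fermat.Agent.CFT.PT.CSideInst
import Fermat.Agent.CFT.PT.ClInfRep
import Fermat.Agent.CFT.PT.IdeleLevelU

set_option autoImplicit false

namespace Fermat.Agent.PT

open CategoryTheory groupCohomology Rep Fermat.Agent.CFT ExtCitation

local notation "Γℚ" => (AlgebraicClosure ℚ ≃ₐ[ℚ] AlgebraicClosure ℚ)

variable {S : Finset Nat.Primes} {p : ℕ} [Fact p.Prime]

/-- **(C-A1) for `C' = J_S / Ē`**, the `hCA1` of `s55Side_main`. -/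
theorem csF_CA1 (hp2 : p ≠ 2) (hpS : pPrime p ∈ S) :
    ∀ V' : Subgroup Γℚ, IsOpenFor (famS S) V' → (∀ s ∈ V', cycloChar p s = 1) →
      ∀ c : Hlc ((famS S).restrict V') (res V'.subtype (idC'Rep S)) 1, p • c = 0 → c = 0 :=
  fun V' hV' hcyc =>
    csI_CA1' S ⟨_, hpS⟩ p V' (clR_isCoprimeTorsion_idClRep S hpS)
      (fun n c hc => idLU_eq_zero_of_smul hV' p n c hc) (csC_hc hV' hcyc hp2)

/-- **(C-A5a) for `C' = J_S / Ē`**, the `hCA5` of `s55Side_main`. -/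
theorem csF_CA5 (hp2 : p ≠ 2) (hpS : pPrime p ∈ S) :
    ∀ V' : Subgroup Γℚ, IsOpenFor (famS S) V' → (∀ s ∈ V', cycloChar p s = 1) →
      ∀ s : Finset (Hlc ((famS S).restrict V') (res V'.subtype (idC'Rep S)) 2),
        (∀ c ∈ s, p • c = 0) → s.card ≤ p :=
  fun V' hV' hcyc =>
    csI_CA5' S ⟨_, hpS⟩ p V' (clR_isCoprimeTorsion_idClRep S hpS)
      (fun n c hc => idLU_eq_zero_of_smul hV' p n c hc) (csC_hd hV' hcyc hp2)

end Fermat.Agent.PT
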