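/-
S55 [C] chain, ℂ level (helper4, second engine for (c),(d)).

For an open subgroup `V'` of `Γℚ` (for `famS S`) with trivial mod-`p` cyclotomic character, `p` odd:

* `csLC_H1` : `Hlc¹(V', ℂ)[p] = 0`   (input (c) of `csI_CA1`, and `hc` of
  `pTorsionFree_of_cycloTrivial` for (C-W));
* `csLC_H2_card` : at most `p` classes of `Hlc²(V', ℂ)` are killed by `p`   (input (d) of `csI_CA5`);
* `csLC_CA1`, `csLC_CA5` : the same two statements for `C' = idC'Rep S`
  (= `hCA1`, `hCA5` of `s55Side_main`), unconditional.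

Proof: helper15's `lvP_eq_zero_of_nsmul` / `lvP_card_le` along helper28's cofinal identified levels
`idLC_levels`, with the finite-level facts `idClassF_H1_eq_zero_of_nsmul` /
`fcFin_natCard_torsion_H2_le`; then helper26's `csI_CA1'` / `csI_CA5'` with helper10's
`clR_isCoprimeTorsion_idClRep` and helper12's `idLU_eq_zero_of_smul`.
-/
import Mathlib
import Fermat.Agent.CFT.PT.IdeleLevelC
import Fermat.Agent.CFT.PT.LevelPlug
import Fermat.Agent.CFT.Bridge.FundClassLevel
import Fermat.Agent.CFT.PT.CSideInst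
import Fermat.Agent.CFT.PT.ClInfRep
import Fermat.Agent.CFT.PT.IdeleLevelU

set_option autoImplicit false
set_option linter.unusedSectionVars false
set_option linter.style.haveILetI false

open CategoryTheory groupCohomology Rep Fermat.Agent.CFT Fermat.Agent.CFT.S14 IntermediateField
  ExtCitation NumberField

namespace Fermat.Agent.PT

local notation "Qb" => AlgebraicClosure ℚ
local notation "Γℚ" => (AlgebraicClosure ℚ ≃ₐ[ℚ] AlgebraicClosure ℚ)

attribute [local instance] sUF_isAlgebraicQb sUF_isAlgClosureQb sUF_isGaloisQb sUF_numberField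
  sUF_algebra sUF_isScalarTower sUF_isScalarTower' sUF_isGalois sUF_normal_alg'

attribute [local instance] additiveDistribMulAction ideleGroupActionOf ideleClassActionOf
  idClassCommGroup

variable (p : ℕ) [hp : Fact p.Prime] (S : Finset Nat.Primes)

/-- field form of (c): `M` finite in `ℚ_S` containing `ζ_p`, `V = M.fixingSubgroup`. -/
theorem csLC_H1_field (hp2 : p ≠ 2) (M : IntermediateField ℚ Qb) [FiniteDimensional ℚ M]
    (hM : M ≤ QS S) (hζ : ∃ ζ : M, IsPrimitiveRoot ζ p)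
    (c : Hlc ((famS S).restrict M.fixingSubgroup) (res M.fixingSubgroup.subtype (idCRep S)) 1)
    (hc : p • c = 0) : c = 0 := by
  refine lvP_eq_zero_of_nsmul _ _ p 0 (idLC_levels M hM
    (fun Q _ A' => ∀ y : groupCohomology A' 1, p • y = 0 → y = 0) ?_) c hc
  intro L _ _ _ _
  exact idClassF_H1_eq_zero_of_nsmul ℚ M L p hp2 hζ

/-- field form of (d): `M` finite in `ℚ_S` containing `ℚ(ζ_p)`, `V = M.fixingSubgroup`. -/
theorem csLC_H2_card_field (hp2 : p ≠ 2) (M : IntermediateField ℚ Qb) [FiniteDimensional ℚ M]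
    (hM : M ≤ QS S) (h0 : cycloKf p ≤ M)
    (s : Finset (Hlc ((famS S).restrict M.fixingSubgroup)
      (res M.fixingSubgroup.subtype (idCRep S)) 2))
    (hs : ∀ c ∈ s, p • c = 0) : s.card ≤ p := by
  refine lvP_card_le _ _ p 1 p (idLC_levels M hM
    (fun Q _ A' => Finite (nsmulAddMonoidHom (α := groupCohomology A' 2) p).ker ∧
      Nat.card (nsmulAddMonoidHom (α := groupCohomology A' 2) p).ker ≤ p) ?_) s hs
  intro L hML _ _ _
  have h1 : M ≤ L := hML.out
  letI a0 : Algebra (cycloKf p) M := algebraOfLE h0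
  letI a1 : Algebra (cycloKf p) L := algebraOfLE (h0.trans h1)
  haveI : IsScalarTower (cycloKf p) M L := IsScalarTower.of_algebraMap_eq fun _ => rfl
  haveI : IsScalarTower ℚ (cycloKf p) L := isScalarTower_of_le (h0.trans h1)
  haveI : IsGalois ℚ L := ⟨⟩
  haveI : IsGalois (cycloKf p) L := IsGalois.tower_top_of_isGalois ℚ (cycloKf p) L
  exact fcFin_natCard_torsion_H2_le (cycloKf p) M L p hp2 ⟨zetaKf p, zetaKf_spec p⟩

variable {V' : Subgroup Γℚ}

/-- **(c)**: `Hlc¹(V', ℂ)[p] = 0` for `V'` open with trivial mod-`p` cyclotomic character. -/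
theorem csLC_H1 (hp2 : p ≠ 2) (hV' : IsOpenFor (famS S) V')
    (hcyc : ∀ s ∈ V', cycloChar p s = 1)
    (c : Hlc ((famS S).restrict V') (res V'.subtype (idCRep S)) 1) (hc : p • c = 0) : c = 0 := by
  obtain ⟨M, hfin, hM, hζ, rfl⟩ : ∃ M : IntermediateField ℚ Qb, FiniteDimensional ℚ M ∧
      M ≤ QS S ∧ (∃ ζ : M, IsPrimitiveRoot ζ p) ∧ V' = M.fixingSubgroup :=
    ⟨fixedField V', lvq_finiteDimensional_fixedField S hV', lvq_fixedField_le_QS S hV',
      fcLv_exists_primitiveRoot p S hV' hcyc, (lvq_fixingSubgroup_fixedField S hV').symm⟩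
  exact csLC_H1_field p S hp2 M hM hζ c hc

/-- **(d)**: at most `p` classes of `Hlc²(V', ℂ)` are killed by `p`, `V'` open with trivial
mod-`p` cyclotomic character. -/
theorem csLC_H2_card (hp2 : p ≠ 2) (hV' : IsOpenFor (famS S) V')
    (hcyc : ∀ s ∈ V', cycloChar p s = 1)
    (s : Finset (Hlc ((famS S).restrict V') (res V'.subtype (idCRep S)) 2))
    (hs : ∀ c ∈ s, p • c = 0) : s.card ≤ p := by
  obtain ⟨M, hfin, hM, h0, rfl⟩ : ∃ M : IntermediateField ℚ Qb, FiniteDimensional ℚ M ∧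
      M ≤ QS S ∧ cycloKf p ≤ M ∧ V' = M.fixingSubgroup :=
    ⟨fixedField V', lvq_finiteDimensional_fixedField S hV', lvq_fixedField_le_QS S hV',
      fcLv_cycloKf_le p S hV' hcyc, (lvq_fixingSubgroup_fixedField S hV').symm⟩
  exact csLC_H2_card_field p S hp2 M hM h0 s hs

/-- **`hCA1`**: `Hlc¹(V', C')[p] = 0`, `C' = idC'Rep S`, unconditional. -/
theorem csLC_CA1 (hS : S.Nonempty) (hpS : pPrime p ∈ S) (hp2 : p ≠ 2)
    (hV' : IsOpenFor (famS S) V') (hcyc : ∀ s ∈ V', cycloChar p s = 1) :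
    ∀ c : Hlc ((famS S).restrict V') (res V'.subtype (idC'Rep S)) 1, p • c = 0 → c = 0 :=
  csI_CA1' S hS p V' (clR_isCoprimeTorsion_idClRep S hpS)
    (fun n c hc => idLU_eq_zero_of_smul hV' p n c hc)
    (fun c hc => csLC_H1 p S hp2 hV' hcyc c hc)

/-- **`hCA5`**: at most `p` classes of `Hlc²(V', C')` are killed by `p`, `C' = idC'Rep S`,
unconditional. -/
theorem csLC_CA5 (hS : S.Nonempty) (hpS : pPrime p ∈ S) (hp2 : p ≠ 2)
    (hV' : IsOpenFor (famS S) V') (hcyc : ∀ s ∈ V', cycloChar p s = 1) :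
    ∀ s : Finset (Hlc ((famS S).restrict V') (res V'.subtype (idC'Rep S)) 2),
      (∀ c ∈ s, p • c = 0) → s.card ≤ p :=
  csI_CA5' S hS p V' (clR_isCoprimeTorsion_idClRep S hpS)
    (fun n c hc => idLU_eq_zero_of_smul hV' p n c hc)
    (fun s hs => csLC_H2_card p S hp2 hV' hcyc s hs)

end Fermat.Agent.PT
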