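import Fermat.Agent.CFT.PT.TopChaseHlc
import Fermat.Agent.CFT.PT.FiniteLevel
import Fermat.Agent.CFT.Coh.IndexKill

/-!
# S55, GLOBAL TOP: the chases of `TopChase(Hlc).lean` with `p`-primary hypotheses only

`PT/TopChaseHlc.lean` consumes (A1) in the form `Subsingleton (Hlc 𝔉 D.C 1)`, i.e. the *full*
vanishing of `H¹(V, C_S)`.  Class field theory (as formalised here: second inequality in degree
`p`, `p` odd, `μ_p` in the base) only delivers the `p`-primary part `H¹(V, C_S)[p] = 0`.  Since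
`Hlcⁿ⁺¹` is always a torsion group (every class comes from a finite level, which is killed by the
group order), a torsion group without `p`-torsion is (uniquely) `p`-divisible, and this is all the
chases need: injectivity of `j : H²(E) → H²(J)` is replaced by

* (W1) `j e = 0 → ∃ e', j e' = 0 ∧ p • e' = e`   (from `H¹(C)` `p`-divisible),
* (W2) `p • e = 0 → j e = 0 → e = 0`   (from `H¹(C)[p] = 0` and `H¹(J)` `p`-divisible).

All names are prefixed `topChaseP_` (pure algebra) or end in `_pPrimary` (`TopDatum` outputs).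
-/

set_option autoImplicit false

namespace Fermat.Agent.PT

open CategoryTheory groupCohomology Rep

/-! ### `Hlcⁿ⁺¹` is torsion -/

section Torsion

universe u

variable {k G : Type u} [CommRing k] [Group G] (𝔉 : LevelFamily G)

/-- every class of `Hlcⁿ⁺¹(𝔉, A)` is killed by a positive integer (the order of a finite level). -/
theorem topChaseP_exists_pos_nsmul_eq_zero (hfin : 𝔉.FiniteIndex) (A : Rep.{u} k G) (n : ℕ)
    (x : Hlc 𝔉 A (n + 1)) : ∃ m : ℕ, 0 < m ∧ m • x = 0 := by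
  obtain ⟨U, y, rfl⟩ := exists_HlcInfl_eq 𝔉 A (n + 1) x
  have := 𝔉.normal U U.2
  have : (U : Subgroup G).FiniteIndex := hfin U U.2
  have : Finite (G ⧸ (U : Subgroup G)) := Subgroup.finite_quotient_of_finiteIndex
  refine ⟨Nat.card (G ⧸ (U : Subgroup G)), Nat.card_pos, ?_⟩
  rw [← map_nsmul, Fermat.Agent.CFT.natCard_nsmul_eq_zero, map_zero]

end Torsion

/-! ### Pure algebra -/

section Pure

variable (p : ℕ)

/-- no `p`-torsion ⇒ no `p^k`-torsion. -/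
theorem topChaseP_eq_zero_of_pow_nsmul {A : Type*} [AddCommGroup A]
    (hp : ∀ a : A, p • a = 0 → a = 0) (k : ℕ) (a : A) (ha : (p ^ k) • a = 0) : a = 0 := by
  induction k generalizing a with
  | zero => simpa using ha
  | succ k ih =>
    apply ih
    apply hp
    rw [← mul_nsmul', ← pow_succ']
    exact ha

/-- a torsion abelian group without `p`-torsion is `p`-divisible. -/
theorem topChaseP_divisible_of_torsion [Fact p.Prime] {A : Type*} [AddCommGroup A]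
    (htors : ∀ a : A, ∃ m : ℕ, 0 < m ∧ m • a = 0) (hp : ∀ a : A, p • a = 0 → a = 0) (a : A) :
    ∃ a', p • a' = a := by
  have hpp : p.Prime := Fact.out
  obtain ⟨m, hm0, hma⟩ := htors a
  obtain ⟨k, m', hm', rfl⟩ := Nat.exists_eq_pow_mul_and_not_dvd hm0.ne' p hpp.ne_one
  have h1 : m' • a = 0 := by
    apply topChaseP_eq_zero_of_pow_nsmul p hp k
    rw [← mul_nsmul']
    rw [mul_comm] at hma
    rw [mul_comm]
    exact hma
  have hcop : Nat.Coprime p m' := (Nat.Prime.coprime_iff_not_dvd hpp).2 hm'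
  rcases Nat.lt_or_ge 1 m' with h | h
  · obtain ⟨u, -, hu⟩ := Nat.exists_mul_mod_eq_one_of_coprime hcop h
    refine ⟨u • a, ?_⟩
    rw [← mul_nsmul']
    have h2 : p * u = m' * (p * u / m') + 1 := by
      have := Nat.div_add_mod (p * u) m'
      rw [hu] at this
      exact this.symm
    rw [h2, add_nsmul, one_nsmul, mul_comm m', mul_nsmul', h1, smul_zero, zero_add]
  · have hm1 : m' = 1 := by
      have : m' ≠ 0 := by
        rintro rfl
        simp at hm0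
      omega
    rw [hm1, one_nsmul] at h1
    exact ⟨0, by rw [h1, smul_zero]⟩

variable {J C E : Type*} [AddCommGroup J] [AddCommGroup C] [AddCommGroup E]

/-- (W1) from exactness `C₁ -δ→ E₂ -j→ J₂` and `C₁` `p`-divisible. -/
theorem topChaseP_weak_one {C1 : Type*} [AddCommGroup C1] (δ : C1 →+ E) (j : E →+ J)
    (hjδ : ∀ c, j (δ c) = 0) (hex : ∀ e, j e = 0 → ∃ c, δ c = e)
    (hdivC : ∀ c : C1, ∃ c', p • c' = c) (e : E) (he : j e = 0) :
    ∃ e', j e' = 0 ∧ p • e' = e := by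
  obtain ⟨c, rfl⟩ := hex e he
  obtain ⟨c', rfl⟩ := hdivC c
  exact ⟨δ c', hjδ c', by rw [map_nsmul]⟩

/-- (W2) from exactness `J₁ -π→ C₁ -δ→ E₂ -j→ J₂`, `C₁[p] = 0` and `J₁` `p`-divisible. -/
theorem topChaseP_weak_two {J1 C1 : Type*} [AddCommGroup J1] [AddCommGroup C1]
    (π1 : J1 →+ C1) (δ : C1 →+ E) (j : E →+ J)
    (hδπ : ∀ y, δ (π1 y) = 0) (hexC : ∀ c, δ c = 0 → ∃ y, π1 y = c)
    (hex : ∀ e, j e = 0 → ∃ c, δ c = e)
    (htorsC : ∀ c : C1, p • c = 0 → c = 0) (hdivJ : ∀ y : J1, ∃ y', p • y' = y)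
    (e : E) (hpe : p • e = 0) (he : j e = 0) : e = 0 := by
  obtain ⟨c, rfl⟩ := hex e he
  have h1 : δ (p • c) = 0 := by rw [map_nsmul]; exact hpe
  obtain ⟨y, hy⟩ := hexC _ h1
  obtain ⟨y', rfl⟩ := hdivJ y
  have h2 : c - π1 y' = 0 := htorsC _ (by rw [smul_sub, ← map_nsmul, hy, sub_self])
  rw [sub_eq_zero.1 h2, hδπ]

/-- `E₂` is `p`-divisible, with (W1) in place of the injectivity of `j`. -/
theorem topChaseP_divisible_of_exact (j : E →+ J) (π : J →+ C)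
    (hW1 : ∀ e, j e = 0 → ∃ e', j e' = 0 ∧ p • e' = e)
    (hπj : ∀ e, π (j e) = 0) (hex : ∀ y, π y = 0 → ∃ e, j e = y)
    (hdiv : ∀ y : J, ∃ y', p • y' = y)
    (hsurj : ∀ c : C, p • c = 0 → ∃ y : J, p • y = 0 ∧ π y = c) (e : E) :
    ∃ e', p • e' = e := by
  obtain ⟨y', hy', hpy'⟩ := topChase_ker_divisible p π hdiv hsurj (j e) (hπj e)
  obtain ⟨e', rfl⟩ := hex y' hy'
  obtain ⟨e'', -, he''⟩ := hW1 (e - p • e') (by rw [map_sub, map_nsmul, hpy', sub_self])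
  exact ⟨e' + e'', by rw [smul_add, he'']; abel⟩

/-- **(G1), assembled, `p`-primary form**: `H³(V, μ_p) = 0`. -/
theorem topChaseP_H3_eq_zero {M3 E2 E3 J3 : Type*} [AddCommGroup M3] [AddCommGroup E2]
    [AddCommGroup E3] [AddCommGroup J3]
    (d : E2 →+ M3) (i : M3 →+ E3) (j : E2 →+ J) (π : J →+ C) (δ : C →+ E3) (j3 : E3 →+ J3)
    (hM : ∀ m : M3, p • m = 0) (hexM : ∀ m, i m = 0 → ∃ e, d e = m)
    (hW1 : ∀ e, j e = 0 → ∃ e', j e' = 0 ∧ p • e' = e)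
    (hπj : ∀ e, π (j e) = 0) (hexJ : ∀ y, π y = 0 → ∃ e, j e = y)
    (hδπ : ∀ y, δ (π y) = 0) (hexC : ∀ c, δ c = 0 → ∃ y, π y = c)
    (hexE : ∀ e, j3 e = 0 → ∃ c, δ c = e)
    (hJ3 : ∀ y : J3, p • y = 0 → y = 0)
    (hdiv : ∀ y : J, ∃ y', p • y' = y)
    (hsurj : ∀ c : C, p • c = 0 → ∃ y : J, p • y = 0 ∧ π y = c) (m : M3) : m = 0 :=
  topChase_eq_zero_of_kummer p d i hM hexM
    (topChaseP_divisible_of_exact p j π hW1 hπj hexJ hdiv hsurj)
    (topChase_torsion_eq_zero p π δ j3 hδπ hexC hexE hJ3 hdiv hsurj) m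

end Pure

section Image

variable (p : ℕ) {ι : Type*} [Finite ι] {Mv Lv : ι → Type*} [∀ v, AddCommGroup (Mv v)]
  [∀ v, AddCommGroup (Lv v)] {M2 E2 J C : Type*} [AddCommGroup M2] [AddCommGroup E2]
  [AddCommGroup J] [AddCommGroup C]

/-- **(G2'), quotient form, `p`-primary**: the cokernel of `loc` injects into `C₂[p]`. -/
theorem topChaseP_card_quotient_le [∀ v, Finite (Mv v)]
    (loc : M2 →+ ∀ v, Mv v) (iv : ∀ v, Mv v →+ Lv v) (i2 : M2 →+ E2) (j : E2 →+ J)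
    (lam : J →+ ∀ v, Lv v) (π : J →+ C)
    (hsq : ∀ m v, iv v (loc m v) = lam (j (i2 m)) v)
    (hkum : ∀ e : E2, p • e = 0 → ∃ m, i2 m = e)
    (hW1 : ∀ e, j e = 0 → ∃ e', j e' = 0 ∧ p • e' = e)
    (hexJ : ∀ y, π y = 0 → ∃ e, j e = y)
    (hivinj : ∀ v, Function.Injective (iv v))
    (hMv : ∀ v (m : Mv v), p • m = 0)
    (hA4 : ∀ l : ∀ v, Lv v, (∀ v, p • l v = 0) → ∃ y : J, p • y = 0 ∧ lam y = l)
    (hC : ∀ s : Finset C, (∀ c ∈ s, p • c = 0) → s.card ≤ p) :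
    Nat.card ((∀ v, Mv v) ⧸ loc.range) ≤ p := by
  classical
  have hlift : ∀ x : ∀ v, Mv v, ∃ y : J, p • y = 0 ∧ lam y = fun v => iv v (x v) := fun x =>
    hA4 _ fun v => by rw [← map_nsmul, hMv, map_zero]
  choose Y hY1 hY2 using hlift
  let f : ((∀ v, Mv v) ⧸ loc.range) → C := fun q => π (Y (Quotient.out q))
  have hfp : ∀ q, p • f q = 0 := fun q => by
    show p • π (Y (Quotient.out q)) = 0
    rw [← map_nsmul, hY1, map_zero]
  have hfinj : Function.Injective f := by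
    intro q q' hqq'
    have h1 : π (Y (Quotient.out q) - Y (Quotient.out q')) = 0 := by
      rw [map_sub]; exact sub_eq_zero.2 hqq'
    obtain ⟨e0, he0⟩ := hexJ _ h1
    -- correct `e0` by an element of `ker j` to make it `p`-torsion
    obtain ⟨e'', hje'', hpe''⟩ := hW1 (p • e0)
      (by rw [map_nsmul, he0, smul_sub, hY1, hY1, sub_self])
    have he : j (e0 - e'') = Y (Quotient.out q) - Y (Quotient.out q') := by
      rw [map_sub, hje'', sub_zero, he0]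
    have hpe : p • (e0 - e'') = 0 := by rw [smul_sub, hpe'', sub_self]
    obtain ⟨m, hm⟩ := hkum _ hpe
    have h2 : loc m = Quotient.out q - Quotient.out q' := by
      funext v
      apply hivinj v
      rw [hsq, hm, he, map_sub, Pi.sub_apply, hY2, hY2, Pi.sub_apply, map_sub]
    have h3 : (QuotientAddGroup.mk (Quotient.out q) : (∀ v, Mv v) ⧸ loc.range) =
        QuotientAddGroup.mk (Quotient.out q') := by
      rw [QuotientAddGroup.eq]
      have : -Quotient.out q + Quotient.out q' = loc (-m) := by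
        rw [map_neg, h2]; abel
      rw [this]
      exact ⟨-m, rfl⟩
    have h4 : ∀ r : (∀ v, Mv v) ⧸ loc.range, (QuotientAddGroup.mk (Quotient.out r) :
        (∀ v, Mv v) ⧸ loc.range) = r := fun r => Quotient.out_eq r
    rw [← h4 q, ← h4 q', h3]
  have : Finite ((∀ v, Mv v) ⧸ loc.range) := inferInstance
  have := Fintype.ofFinite ((∀ v, Mv v) ⧸ loc.range)
  have h5 := hC (Finset.univ.image f) (fun c hc => by
    obtain ⟨q, -, rfl⟩ := Finset.mem_image.1 hc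
    exact hfp q)
  rw [Finset.card_image_of_injective _ hfinj, Finset.card_univ] at h5
  rwa [Nat.card_eq_fintype_card]

/-- **(G2'), cardinality form, `p`-primary**: `|∏_v H²(V_v, μ_p)| ≤ p · |range locRes²|`. -/
theorem topChaseP_card_le [∀ v, Finite (Mv v)]
    (loc : M2 →+ ∀ v, Mv v) (iv : ∀ v, Mv v →+ Lv v) (i2 : M2 →+ E2) (j : E2 →+ J)
    (lam : J →+ ∀ v, Lv v) (π : J →+ C)
    (hsq : ∀ m v, iv v (loc m v) = lam (j (i2 m)) v)
    (hkum : ∀ e : E2, p • e = 0 → ∃ m, i2 m = e)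
    (hW1 : ∀ e, j e = 0 → ∃ e', j e' = 0 ∧ p • e' = e)
    (hexJ : ∀ y, π y = 0 → ∃ e, j e = y)
    (hivinj : ∀ v, Function.Injective (iv v))
    (hMv : ∀ v (m : Mv v), p • m = 0)
    (hA4 : ∀ l : ∀ v, Lv v, (∀ v, p • l v = 0) → ∃ y : J, p • y = 0 ∧ lam y = l)
    (hC : ∀ s : Finset C, (∀ c ∈ s, p • c = 0) → s.card ≤ p) :
    Nat.card (∀ v, Mv v) ≤ p * Nat.card loc.range := by
  rw [AddSubgroup.card_eq_card_quotient_mul_card_addSubgroup loc.range]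
  exact Nat.mul_le_mul_right _
    (topChaseP_card_quotient_le p loc iv i2 j lam π hsq hkum hW1 hexJ hivinj hMv hA4 hC)

omit [Finite ι] in
/-- **(Ш²), `p`-primary** `locRes² m = 0 ↔ m` dies in `H²(V, E_S)`. -/
theorem topChaseP_loc_eq_zero_iff
    (loc : M2 →+ ∀ v, Mv v) (iv : ∀ v, Mv v →+ Lv v) (i2 : M2 →+ E2) (j : E2 →+ J)
    (lam : J →+ ∀ v, Lv v)
    (hsq : ∀ m v, iv v (loc m v) = lam (j (i2 m)) v)
    (hW2 : ∀ e : E2, p • e = 0 → j e = 0 → e = 0) (hivinj : ∀ v, Function.Injective (iv v))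
    (hM2 : ∀ m : M2, p • m = 0)
    (hlaminj : ∀ y : J, p • y = 0 → lam y = 0 → y = 0) (m : M2) :
    loc m = 0 ↔ i2 m = 0 := by
  constructor
  · intro h
    apply hW2
    · rw [← map_nsmul, hM2, map_zero]
    · apply hlaminj
      · rw [← map_nsmul, ← map_nsmul, hM2, map_zero, map_zero]
      · funext v
        rw [← hsq, h, Pi.zero_apply, map_zero, Pi.zero_apply]
  · intro h
    funext v
    apply hivinj v
    rw [hsq, h, map_zero, map_zero, Pi.zero_apply, Pi.zero_apply, map_zero]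

omit [Finite ι] in
/-- **(Ш²), cardinality, `p`-primary**: `|ker locRes²| = |H¹(V, E_S) / p|`. -/
theorem topChaseP_card_ker_loc {E1 : Type*} [AddCommGroup E1]
    (loc : M2 →+ ∀ v, Mv v) (iv : ∀ v, Mv v →+ Lv v) (d1 : E1 →+ M2) (i2 : M2 →+ E2)
    (j : E2 →+ J) (lam : J →+ ∀ v, Lv v)
    (hsq : ∀ m v, iv v (loc m v) = lam (j (i2 m)) v)
    (hW2 : ∀ e : E2, p • e = 0 → j e = 0 → e = 0) (hivinj : ∀ v, Function.Injective (iv v))
    (hM2 : ∀ m : M2, p • m = 0)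
    (hlaminj : ∀ y : J, p • y = 0 → lam y = 0 → y = 0)
    (hid : ∀ e, i2 (d1 e) = 0) (hexM : ∀ m, i2 m = 0 → ∃ e, d1 e = m)
    (hkerd : ∀ e, d1 e = 0 → ∃ e', p • e' = e) :
    Nat.card loc.ker = Nat.card (E1 ⧸ (topChase_mulP p E1).range) := by
  have h : loc.ker = i2.ker := by
    ext m
    exact topChaseP_loc_eq_zero_iff p loc iv i2 j lam hsq hW2 hivinj hM2 hlaminj m
  rw [h]
  exact topChase_card_ker_eq p d1 i2 hid hexM hM2 hkerd

end Image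

/-! ### The `TopDatum` outputs with `p`-primary hypotheses -/

variable (p : ℕ) {G : Type} [Group G] {𝔉 : LevelFamily G}

namespace TopDatum

variable {p} {𝔏 : LocSystem 𝔉} {μ : Rep.{0} (ZMod p) G} (D : TopDatum p 𝔏 μ)

variable (hfin : 𝔉.FiniteIndex) (hfinL : ∀ v, (𝔏.fam v).FiniteIndex)

theorem jI_δI (i : ℕ) (c : Hlc 𝔉 D.C i) : D.jI (i + 1) (D.δI hfin i c) = 0 :=
  lcδ_lcH₁₂_apply hfin D.hI D.smJ i (i + 1) rfl c

include hfin in
/-- `Hlc¹(C)` has no `p`-torsion ⇒ it is `p`-divisible (it is a torsion group). -/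
theorem divisible_H1C_of_pPrimary [Fact p.Prime]
    (hA1p : ∀ c : Hlc 𝔉 D.C 1, p • c = 0 → c = 0) (c : Hlc 𝔉 D.C 1) : ∃ c', p • c' = c :=
  topChaseP_divisible_of_torsion p (topChaseP_exists_pos_nsmul_eq_zero 𝔉 hfin D.C 0) hA1p c

include hfin in
/-- (W1) for `jI 2`. -/
theorem jI_weak_one [Fact p.Prime] (hA1p : ∀ c : Hlc 𝔉 D.C 1, p • c = 0 → c = 0)
    (e : Hlc 𝔉 D.E 2) (he : D.jI 2 e = 0) : ∃ e', D.jI 2 e' = 0 ∧ p • e' = e :=
  topChaseP_weak_one p (D.δI hfin 1) (D.jI 2) (D.jI_δI hfin 1) (D.exists_δI_eq hfin 1)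
    (D.divisible_H1C_of_pPrimary hfin hA1p) e he

include hfin in
/-- (W2) for `jI 2`. -/
theorem jI_weak_two (hA1p : ∀ c : Hlc 𝔉 D.C 1, p • c = 0 → c = 0)
    (hJ1 : ∀ y : Hlc 𝔉 D.J 1, ∃ y', p • y' = y)
    (e : Hlc 𝔉 D.E 2) (hpe : p • e = 0) (he : D.jI 2 e = 0) : e = 0 :=
  topChaseP_weak_two p (D.πI 1) (D.δI hfin 1) (D.jI 2) (D.δI_πI hfin 1) (D.exists_πI_eq hfin 1)
    (D.exists_δI_eq hfin 1) hA1p hJ1 e hpe he

include hfin in
/-- **(G1), `p`-primary** `Hlc³(μ) = 0`. -/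
theorem subsingleton_H3_pPrimary [Fact p.Prime]
    (hA1p : ∀ c : Hlc 𝔉 D.C 1, p • c = 0 → c = 0)
    (hA2 : ∀ y : Hlc 𝔉 D.J 2, ∃ y', p • y' = y)
    (hA3 : ∀ y : Hlc 𝔉 D.J 3, p • y = 0 → y = 0)
    (hA5 : ∀ c : Hlc 𝔉 D.C 2, p • c = 0 → ∃ y : Hlc 𝔉 D.J 2, p • y = 0 ∧ D.πI 2 y = c) :
    Subsingleton (Hlc 𝔉 μ 3) := by
  refine ⟨fun a b => ?_⟩
  have key : ∀ m : Hlc 𝔉 μ 3, m = 0 := fun m =>
    topChaseP_H3_eq_zero p (D.dK hfin 2) (D.iK 3) (D.jI 2) (D.πI 2) (D.δI hfin 2) (D.jI 3)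
      (fun m => topChase_zmod_nsmul m) (D.exists_dK_eq hfin 2)
      (D.jI_weak_one hfin hA1p) (D.πI_jI 2) (D.exists_jI_eq hfin 2)
      (D.δI_πI hfin 2) (D.exists_πI_eq hfin 2) (D.exists_δI_eq hfin 2) hA3 hA2 hA5 m
  rw [key a, key b]

include hfin hfinL in
/-- **(G2'), cardinality form, `p`-primary**: `|∏_v Hlc²(G_v, μ)| ≤ p · |range locRes²|`. -/
theorem card_le_pPrimary [Fact p.Prime] [Finite 𝔏.ι]
    [∀ v, Finite (Hlc (𝔏.fam v) (𝔏.coeff μ v) 2)]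
    (hA1p : ∀ c : Hlc 𝔉 D.C 1, p • c = 0 → c = 0)
    (hB1 : ∀ v, Subsingleton (Hlc (𝔏.fam v) (D.Lv v) 1))
    (hA4 : ∀ l : ∀ v, Hlc (𝔏.fam v) (D.Lv v) 2, (∀ v, p • l v = 0) →
      ∃ y : Hlc 𝔉 D.J 2, p • y = 0 ∧ D.lamH 2 y = l)
    (hC : ∀ s : Finset (Hlc 𝔉 D.C 2), (∀ c ∈ s, p • c = 0) → s.card ≤ p) :
    Nat.card (∀ v, Hlc (𝔏.fam v) (𝔏.coeff μ v) 2) ≤
      p * Nat.card (LinearMap.range (locRes 𝔏 μ 2)) := by
  rw [← natCard_range_locRes]
  exact topChaseP_card_le p (locRes 𝔏 μ 2).toAddMonoidHom (fun v => D.ivK v 2) (D.iK 2) (D.jI 2)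
    (D.lamH 2) (D.πI 2) (fun m v => D.ivK_locRes 2 m v) (D.exists_iK_eq hfin 2)
    (D.jI_weak_one hfin hA1p) (D.exists_jI_eq hfin 2)
    (fun v => D.ivK_injective hfinL v 1 (hB1 v)) (fun v m => topChase_zmod_nsmul m) hA4 hC

include hfin hfinL in
/-- **(G2'), dimension form, `p`-primary**: `l² ≤ rank locRes² + 1`. -/
theorem finrank_le_pPrimary [Fact p.Prime] [Finite 𝔏.ι]
    [∀ v, Module.Finite (ZMod p) (Hlc (𝔏.fam v) (𝔏.coeff μ v) 2)]
    (hA1p : ∀ c : Hlc 𝔉 D.C 1, p • c = 0 → c = 0)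
    (hB1 : ∀ v, Subsingleton (Hlc (𝔏.fam v) (D.Lv v) 1))
    (hA4 : ∀ l : ∀ v, Hlc (𝔏.fam v) (D.Lv v) 2, (∀ v, p • l v = 0) →
      ∃ y : Hlc 𝔉 D.J 2, p • y = 0 ∧ D.lamH 2 y = l)
    (hC : ∀ s : Finset (Hlc 𝔉 D.C 2), (∀ c ∈ s, p • c = 0) → s.card ≤ p) :
    Module.finrank (ZMod p) (∀ v, Hlc (𝔏.fam v) (𝔏.coeff μ v) 2) ≤
      Module.finrank (ZMod p) (LinearMap.range (locRes 𝔏 μ 2)) + 1 := by
  have : Fintype 𝔏.ι := Fintype.ofFinite _
  have : ∀ v, Finite (Hlc (𝔏.fam v) (𝔏.coeff μ v) 2) := fun v =>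
    Module.finite_of_finite (ZMod p)
  have h := D.card_le_pPrimary hfin hfinL hA1p hB1 hA4 hC
  have h1 : Nat.card (∀ v, Hlc (𝔏.fam v) (𝔏.coeff μ v) 2) =
      p ^ Module.finrank (ZMod p) (∀ v, Hlc (𝔏.fam v) (𝔏.coeff μ v) 2) := by
    rw [Module.natCard_eq_pow_finrank (K := ZMod p), Nat.card_zmod]
  have h2 : Nat.card (LinearMap.range (locRes 𝔏 μ 2)) =
      p ^ Module.finrank (ZMod p) (LinearMap.range (locRes 𝔏 μ 2)) := by
    rw [Module.natCard_eq_pow_finrank (K := ZMod p), Nat.card_zmod]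
  rw [h1, h2, ← pow_succ'] at h
  exact (Nat.pow_le_pow_iff_right (Fact.out : p.Prime).one_lt).1 h

include hfin hfinL in
/-- **(Ш²), `p`-primary** `|ker locRes²| = |Hlc¹(E) / p|`. -/
theorem card_ker_locRes_pPrimary
    (hA1p : ∀ c : Hlc 𝔉 D.C 1, p • c = 0 → c = 0)
    (hJ1 : ∀ y : Hlc 𝔉 D.J 1, ∃ y', p • y' = y)
    (hB1 : ∀ v, Subsingleton (Hlc (𝔏.fam v) (D.Lv v) 1))
    (hA4inj : ∀ y : Hlc 𝔉 D.J 2, p • y = 0 → D.lamH 2 y = 0 → y = 0) :
    Nat.card (LinearMap.ker (locRes 𝔏 μ 2)) =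
      Nat.card (Hlc 𝔉 D.E 1 ⧸ (topChase_mulP p (Hlc 𝔉 D.E 1)).range) := by
  rw [← natCard_ker_locRes]
  exact topChaseP_card_ker_loc p (locRes 𝔏 μ 2).toAddMonoidHom (fun v => D.ivK v 2)
    (D.dK hfin 1) (D.iK 2) (D.jI 2) (D.lamH 2) (fun m v => D.ivK_locRes 2 m v)
    (D.jI_weak_two hfin hA1p hJ1) (fun v => D.ivK_injective hfinL v 1 (hB1 v))
    (fun m => topChase_zmod_nsmul m) hA4inj (D.iK_dK hfin 1) (D.exists_dK_eq hfin 1)
    (D.exists_nsmul_eq_of_dK_eq_zero hfin 1)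

end TopDatum

end Fermat.Agent.PT
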