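import Fermat.Agent.CFT.PT.FiniteLevelLimit
import Fermat.Agent.CFT.PT.SmoothLow
import Fermat.Agent.CFT.PT.SmoothRestrict
import Fermat.Agent.CFT.PT.SmoothLES
import Fermat.Agent.CFT.PT.SmoothCor
import Fermat.Agent.CFT.PT.TopChaseP
import Fermat.Agent.CFT.Coh.InfCoprime

/-!
# S55, GLOBAL TOP (K11): inflation into `Hlc²` is injective on `p`-power torsion

For a level `U ∈ 𝔉`: if `Hlc¹(U, A)` has no `p`-torsion, then a class `y ∈ H²(G ⧸ U, A^U)` of
`p`-power order which dies in `Hlc²(𝔉, A)` is zero (`inflP_eq_zero`).  Only the `p`-part of the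
vanishing of `H¹` is available from class field theory, so `HlcInfl_injective_of_forall` does not
apply.

`inflP_ne_zero_of_transfer`: the transfer of a non-vanishing finite-level class along
`J → ℂ → ℂ_S ← C'` (the infinite-level half of (C-W)).
-/

set_option autoImplicit false

namespace Fermat.Agent.PT

open CategoryTheory groupCohomology Rep

universe u

variable {k G : Type u} [CommRing k] [Group G]

section FiniteSum

/-- for a finite group `S ≤ Γ` and a `1`-cocycle `x : S → M`: `|S| • x` is a coboundary. -/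
theorem inflP_card_nsmul_cocycle {Γ : Type u} [Group Γ] (M : Rep.{u} k Γ) (S : Subgroup Γ)
    [Finite S] (x : S → M) (hx : ∀ s t : S, x (s * t) = M.ρ s (x t) + x s) :
    ∃ a : M, ∀ s : S, Nat.card S • x s = M.ρ s a - a := by
  classical
  have := Fintype.ofFinite S
  refine ⟨-∑ t : S, x t, fun s => ?_⟩
  have h1 : ∑ t : S, x (s * t) = ∑ t : S, x t :=
    Fintype.sum_equiv (Equiv.mulLeft s) _ _ fun _ => rfl
  have h2 : ∑ t : S, x (s * t) = M.ρ s (∑ t : S, x t) + Nat.card S • x s := by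
    simp only [hx, Finset.sum_add_distrib, map_sum]
    rw [Finset.sum_const, Finset.card_univ, Nat.card_eq_fintype_card]
  rw [h1] at h2
  rw [map_neg]
  have h3 : Nat.card S • x s = ∑ t : S, x t - M.ρ s (∑ t : S, x t) := by
    rw [eq_sub_iff_add_eq, add_comm]
    exact h2.symm
  rw [h3]
  abel

end FiniteSum

section Main

variable (𝔉 : LevelFamily G) (A : Rep.{u} k G) (p : ℕ) [Fact p.Prime]

/-- **the finite step**: if `Hlc¹(U, A)` has no `p`-torsion, then for every level `V ≤ U` the group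
`H¹(U ⧸ V, A^V)` (cocycle form) is killed by an integer prime to `p`. -/
theorem inflP_h1ResKilledBy (hfin : 𝔉.FiniteIndex) (U V : Subgroup G) [U.Normal] [V.Normal]
    (hV : V ∈ 𝔉.sets) (hVU : V ≤ U)
    (h1 : ∀ x : Hlc (𝔉.restrict U) (res U.subtype A) 1, p • x = 0 → x = 0) :
    ∃ m : ℕ, Nat.Coprime p m ∧
      Fermat.Agent.CFT.H1ResKilledBy (A.quotientToInvariants V) (quotMap hVU).ker m := by
  have hpp : p.Prime := Fact.out
  have : V.FiniteIndex := hfin V hV
  have : Finite (G ⧸ V) := Subgroup.finite_quotient_of_finiteIndex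
  set Sk : Subgroup (G ⧸ V) := (quotMap hVU).ker with hSk
  have hN0 : Nat.card Sk ≠ 0 := Nat.card_pos.ne'
  obtain ⟨e, m, hm, hNm⟩ := Nat.exists_eq_pow_mul_and_not_dvd hN0 p hpp.ne_one
  refine ⟨m, (Nat.Prime.coprime_iff_not_dvd hpp).2 hm, ?_⟩
  intro x hx
  -- membership of classes of elements of `U` in the kernel
  have hker : ∀ u : ↥U, ((u : G) : G ⧸ V) ∈ Sk := fun u => by
    rw [hSk, MonoidHom.mem_ker, quotMap_mk]
    exact (QuotientGroup.eq_one_iff _).2 u.2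
  -- the inflated cocycle on `U`
  set xt : ↥U → A := fun u =>
    ((x ⟨((u : G) : G ⧸ V), hker u⟩ : A.quotientToInvariants V) : A) with hxt
  have hx1 : x 1 = 0 := by
    have := hx 1 1
    rw [mul_one, Subgroup.coe_one, map_one, Module.End.one_apply] at this
    have h : x 1 + 0 = x 1 + x 1 := by rw [add_zero]; exact this
    exact (add_left_cancel h).symm
  have hxt_coc : xt ∈ cocycles₁ (res U.subtype A) := by
    rw [mem_cocycles₁_iff]
    intro u u'
    have := hx ⟨((u : G) : G ⧸ V), hker u⟩ ⟨((u' : G) : G ⧸ V), hker u'⟩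
    have h2 := congrArg (Subtype.val (p := fun a => a ∈ _)) this
    exact h2
  set W : Subgroup ↥U := V.subgroupOf U with hW
  have hWmem : W ∈ (𝔉.restrict U).sets := ⟨V, hV, rfl⟩
  have hxt_lev : IsLevel₁ (res U.subtype A) W xt := by
    constructor
    · intro g s hs
      have hsV : (s : G) ∈ V := hs
      have : (((g * s : ↥U) : G) : G ⧸ V) = ((g : G) : G ⧸ V) := by
        rw [Subgroup.coe_mul, QuotientGroup.mk_mul, (QuotientGroup.eq_one_iff _).2 hsV, mul_one]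
      simp only [hxt]
      congr 2
      exact Subtype.ext this
    · intro g u hu
      have huV : (u : G) ∈ V := hu
      exact (x ⟨((g : G) : G ⧸ V), hker g⟩).2 ⟨(u : G), huV⟩
  have hxt_mem : xt ∈ lcCocycles₁ (𝔉.restrict U) (res U.subtype A) :=
    ⟨hxt_coc, mem_lcCochains₁.2 ⟨W, hWmem, hxt_lev⟩⟩
  set c := lcπ₁ (𝔉.restrict U) (res U.subtype A) ⟨xt, hxt_mem⟩ with hc
  -- `|Sk| • c = 0`
  obtain ⟨a, ha⟩ := inflP_card_nsmul_cocycle (A.quotientToInvariants V) Sk x hx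
  have hNc : Nat.card Sk • c = 0 := by
    rw [hc, ← map_nsmul, lcπ₁_eq_zero_iff]
    refine ⟨(a : A), mem_lcCochains₀.2 ⟨W, hWmem, fun u hu => ?_⟩, ?_⟩
    · have huV : (u : G) ∈ V := hu
      exact a.2 ⟨(u : G), huV⟩
    · funext u
      have := ha ⟨((u : G) : G ⧸ V), hker u⟩
      have h2 := congrArg (Subtype.val (p := fun a => a ∈ _)) this
      rw [d₀₁_hom_apply]
      exact h2.symm
  -- hence `m • c = 0`
  have hmc : m • c = 0 := by
    apply topChaseP_eq_zero_of_pow_nsmul p h1 e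
    rw [← mul_nsmul', ← hNm]
    exact hNc
  rw [hc, ← map_nsmul, lcπ₁_eq_zero_iff] at hmc
  obtain ⟨b, -, hb⟩ := hmc
  have hb' : ∀ u : ↥U, A.ρ (u : G) b - b = m • xt u := fun u => by
    have := congrFun hb u
    rw [d₀₁_hom_apply] at this
    exact this
  -- `b` is `V`-invariant
  have hbV : ∀ v : ↥V, A.ρ (v : G) b = b := fun v => by
    have h3 := hb' ⟨(v : G), hVU v.2⟩
    have h4 : xt ⟨(v : G), hVU v.2⟩ = 0 := by
      simp only [hxt]
      have : (⟨(((v : G)) : G ⧸ V), hker ⟨(v : G), hVU v.2⟩⟩ : Sk) = 1 :=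
        Subtype.ext ((QuotientGroup.eq_one_iff _).2 v.2)
      rw [this, hx1]
      rfl
    rw [h4, smul_zero, sub_eq_zero] at h3
    exact h3
  refine ⟨⟨b, hbV⟩, fun s => ?_⟩
  obtain ⟨s, hs⟩ := s
  induction s using QuotientGroup.induction_on with | @H g =>
  have hgU : g ∈ U := by
    have : quotMap hVU (g : G ⧸ V) = 1 := hs
    rw [quotMap_mk] at this
    exact (QuotientGroup.eq_one_iff _).1 this
  apply Subtype.ext
  have h5 := hb' ⟨g, hgU⟩
  exact h5.symm

/-- **(K11)(1)** if `Hlc¹(U, A)` has no `p`-torsion, a class of `p`-power order of the finite level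
`H²(G ⧸ U, A^U)` which dies in `Hlc²(𝔉, A)` is zero. -/
theorem inflP_eq_zero (hfin : 𝔉.FiniteIndex) (U : ↥𝔉.sets)
    (h1 : ∀ x : Hlc (𝔉.restrict (U : Subgroup G)) (res (U : Subgroup G).subtype A) 1,
      p • x = 0 → x = 0)
    (y : Hfin 𝔉 A U 2) (j : ℕ) (hpy : p ^ j • y = 0)
    (hy : (HlcInfl 𝔉 A U 2).hom y = 0) : y = 0 := by
  have hUn := 𝔉.normal U U.2
  obtain ⟨V, hVU, hV⟩ := exists_inflUV_eq_zero 𝔉 A U 1 y hy
  have hVn := 𝔉.normal V V.2
  obtain ⟨m, hcop, hkill⟩ := inflP_h1ResKilledBy 𝔉 A p hfin (U : Subgroup G) (V : Subgroup G)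
    V.2 hVU h1
  have hπ : Function.Surjective (quotMap (U := (U : Subgroup G)) (V := (V : Subgroup G)) hVU) := by
    intro q
    induction q using QuotientGroup.induction_on with | @H g =>
    exact ⟨(g : G ⧸ (V : Subgroup G)), rfl⟩
  have hφi : Function.Injective (invIncl A hVU).hom := by
    intro a a' haa'
    apply Subtype.ext
    have h := congrArg (fun z : A.quotientToInvariants (V : Subgroup G) => (z : A)) haa'
    exact h
  have hφr : ∀ a : A.quotientToInvariants (V : Subgroup G),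
      (∀ s ∈ (quotMap hVU).ker, (A.quotientToInvariants (V : Subgroup G)).ρ s a = a) →
      ∃ a' : A.quotientToInvariants (U : Subgroup G), (invIncl A hVU).hom a' = a := by
    intro a ha
    refine ⟨⟨(a : A), fun u => ?_⟩, Subtype.ext rfl⟩
    have hk : ((u : G) : G ⧸ (V : Subgroup G)) ∈ (quotMap hVU).ker := by
      rw [MonoidHom.mem_ker, quotMap_mk]
      exact (QuotientGroup.eq_one_iff _).2 u.2
    have := ha _ hk
    exact congrArg (Subtype.val (p := fun a => a ∈ _)) this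
  have hmy : m • y = 0 :=
    Fermat.Agent.CFT.infGen_nsmul_eq_zero (quotMap hVU) (invIncl A hVU) hπ hφi hφr hkill y hV
  have hd1 : addOrderOf y ∣ m := addOrderOf_dvd_of_nsmul_eq_zero hmy
  have hd2 : addOrderOf y ∣ p ^ j := addOrderOf_dvd_of_nsmul_eq_zero hpy
  have hd3 : addOrderOf y ∣ 1 := by
    have := Nat.dvd_gcd hd2 hd1
    rwa [Nat.Coprime.gcd_eq_one (Nat.Coprime.pow_left j hcop)] at this
  exact AddMonoid.addOrderOf_eq_one_iff.1 (Nat.dvd_one.1 hd3)

end Main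

section Transfer

variable {𝔉 : LevelFamily G} (p : ℕ) [Fact p.Prime]

/-- two coprime integers killing an element kill it. -/
theorem inflP_eq_zero_of_coprime {M : Type*} [AddCommGroup M] {m n : ℕ} (hmn : Nat.Coprime m n)
    (z : M) (hm : m • z = 0) (hn : n • z = 0) : z = 0 := by
  have hd1 : addOrderOf z ∣ m := addOrderOf_dvd_of_nsmul_eq_zero hm
  have hd2 : addOrderOf z ∣ n := addOrderOf_dvd_of_nsmul_eq_zero hn
  have hd3 : addOrderOf z ∣ 1 := by
    have := Nat.dvd_gcd hd1 hd2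
    rwa [Nat.Coprime.gcd_eq_one hmn] at this
  exact AddMonoid.addOrderOf_eq_one_iff.1 (Nat.dvd_one.1 hd3)

/-- a `p`-torsion class which comes from a group without `p`-torsion, all of whose elements are
torsion, vanishes. -/
theorem inflP_eq_zero_of_torsion_image {M N : Type*} [AddCommGroup M] [AddCommGroup N]
    (f : M →+ N) (htors : ∀ u : M, ∃ n : ℕ, 0 < n ∧ n • u = 0)
    (hp : ∀ u : M, p • u = 0 → u = 0) (u : M) (hz : p • f u = 0) : f u = 0 := by
  have hpp : p.Prime := Fact.out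
  obtain ⟨n, hn0, hn⟩ := htors u
  obtain ⟨e, m, hm, rfl⟩ := Nat.exists_eq_pow_mul_and_not_dvd hn0.ne' p hpp.ne_one
  have h1 : m • u = 0 := by
    apply topChaseP_eq_zero_of_pow_nsmul p hp e
    rw [← mul_nsmul']
    exact hn
  have h2 : m • f u = 0 := by rw [← map_nsmul, h1, map_zero]
  exact inflP_eq_zero_of_coprime ((Nat.Prime.coprime_iff_not_dvd hpp).2 hm) _ hz h2

/-- **(K11)(2), the infinite-level half of (C-W)**: `X = (𝕌 → ℂ → ℂ_S)` short exact with `ℂ`
smooth, `π : J → C'`, `a : C' → ℂ_S`, `ι : J → ℂ` with `ι ≫ X.g = π ≫ a`; `Hlc²(𝕌)` and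
`Hlc¹(U₁, ℂ)` without `p`-torsion.  If a `p`-torsion class `y₁` of the finite level
`H²(G ⧸ U₁, J^{U₁})` has non-zero image in `H²(G ⧸ U₁, ℂ^{U₁})`, then its inflation `y₀` to
`Hlc²(J)` is `p`-torsion with `π_* y₀ ≠ 0`. -/
theorem inflP_ne_zero_of_transfer (hfin : 𝔉.FiniteIndex) {X : ShortComplex (Rep.{u} k G)}
    (hX : X.ShortExact) (hsm : IsSmooth 𝔉 X.X₂) {J C' : Rep.{u} k G} (π : J ⟶ C')
    (a : C' ⟶ X.X₃) (ι : J ⟶ X.X₂) (hcomm : ι ≫ X.g = π ≫ a)
    (h𝕌 : ∀ x : Hlc 𝔉 X.X₁ 2, p • x = 0 → x = 0)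
    (U₁ : ↥𝔉.sets)
    (h1 : ∀ x : Hlc (𝔉.restrict (U₁ : Subgroup G)) (res (U₁ : Subgroup G).subtype X.X₂) 1,
      p • x = 0 → x = 0)
    (y₁ : Hfin 𝔉 J U₁ 2) (hpy : p • y₁ = 0)
    (hne : (finMap (MonoidHom.id G) ι (U := (U₁ : Subgroup G)) (V := (U₁ : Subgroup G))
      (le_of_eq (Subgroup.comap_id _).symm) 2).hom y₁ ≠ 0) :
    p • (HlcInfl 𝔉 J U₁ 2).hom y₁ = 0 ∧
      (HlcMap (MonoidHom.id G) π 𝔉.compat_id 2).hom ((HlcInfl 𝔉 J U₁ 2).hom y₁) ≠ 0 := by
  have hUn := 𝔉.normal U₁ U₁.2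
  have hp0 : p • (HlcInfl 𝔉 J U₁ 2).hom y₁ = 0 := by rw [← map_nsmul, hpy, map_zero]
  refine ⟨hp0, fun hπ => hne ?_⟩
  set y₀ := (HlcInfl 𝔉 J U₁ 2).hom y₁ with hy₀
  set z := (HlcMap (MonoidHom.id G) ι 𝔉.compat_id 2).hom y₀ with hz
  -- `g_* z = 0`
  have hgz : (lcH₂₃ 𝔉 X 2).hom z = 0 := by
    have h2 : (HlcMap (MonoidHom.id G) (ι ≫ X.g) 𝔉.compat_id 2).hom y₀ =
        (HlcMap (MonoidHom.id G) (π ≫ a) 𝔉.compat_id 2).hom y₀ := by rw [hcomm]
    rw [HlcMap_id_comp, HlcMap_id_comp] at h2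
    change (HlcMap (MonoidHom.id G) X.g 𝔉.compat_id 2).hom
      ((HlcMap (MonoidHom.id G) ι 𝔉.compat_id 2).hom y₀) =
      (HlcMap (MonoidHom.id G) a 𝔉.compat_id 2).hom
        ((HlcMap (MonoidHom.id G) π 𝔉.compat_id 2).hom y₀) at h2
    rw [hπ, map_zero] at h2
    exact h2
  obtain ⟨u, hu⟩ := exists_lcH₁₂_eq hfin hX hsm 2 z hgz
  have hpz : p • z = 0 := by rw [hz, ← map_nsmul, hp0, map_zero]
  have hz0 : z = 0 := by
    rw [← hu]
    have := inflP_eq_zero_of_torsion_image p (lcH₁₂ 𝔉 X 2).hom.toAddMonoidHom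
      (topChaseP_exists_pos_nsmul_eq_zero 𝔉 hfin X.X₁ 1) h𝕌 u (by
        change p • (lcH₁₂ 𝔉 X 2).hom u = 0
        rw [hu]
        exact hpz)
    exact this
  -- back to the finite level
  have h3 := HlcMap_HlcInfl_apply (MonoidHom.id G) ι 𝔉.compat_id (U := U₁) (V := U₁)
    (le_of_eq (Subgroup.comap_id _).symm) 2 y₁
  rw [← hy₀, ← hz, hz0] at h3
  refine inflP_eq_zero 𝔉 X.X₂ p hfin U₁ h1 _ 1 ?_ h3.symm
  rw [pow_one, ← map_nsmul, hpy, map_zero]

end Transfer

end Fermat.Agent.PT
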