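/-
S55, GLOBAL C-side, (C-W) END-TO-END ASSEMBLY (helper8), abstract in the engine.

* `cwA_hnn` : (K6)-shape level identification `φ : Res_pr A ⟶ C` (injective, image the
  `U`-invariants, `pr : G ↠ Q` with kernel `U`) turns "`a₀` is not a norm in `A`" into the `hnn`
  hypothesis of `cycRep_exists_class` for `C^U`.
* `cwA_exists_of_hnn` : `cycRep_exists_class` + `inflP_ne_zero_of_transfer`: the class
  `y₀ ∈ Hlc²(J)[p]` with `π_* y₀ ≠ 0`.
* `cwA_exists_class` : the two together, `G ⧸ U₁ ≅ Q` of prime order `p`.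
* `cwA_idClass_sum_ne` : (W) in `Rep` form for `idClassRep ℚ M L1`, `M` of degree one over `ℚ`.
* `cwA_exists_class_idClass` : everything with `A = idClassRep ℚ M L1` and (W) discharged.
-/
import Fermat.Agent.CFT.PT.InflPPrimary
import Fermat.Agent.CFT.Coh.CycClassRep
import Fermat.Agent.CFT.Idele.PCycloWClass
import Fermat.Agent.CFT.Idele.Devissage

set_option autoImplicit false
set_option linter.unusedSectionVars false
set_option linter.style.haveILetI false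

namespace Fermat.Agent.PT

open CategoryTheory groupCohomology Rep Fermat.Agent.CFT

section Abstract

variable {G : Type} [Group G]

/-- **(K6) ⟹ `hnn`**: if `φ : Res_pr A ⟶ C` identifies `A` with the `U`-invariants of `C`
(`pr : G ↠ Q` with kernel `U`), and `a₀` is not a norm in `A`, then `φ a₀` is not a norm from
`C^U`. -/
theorem cwA_hnn {Q : Type} [Group Q] [Fintype Q] (A : Rep.{0} ℤ Q) (C : Rep.{0} ℤ G)
    (pr : G →* Q) (hpr : Function.Surjective pr) (U : Subgroup G) [U.Normal]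
    [Fintype (G ⧸ U)] (hker : pr.ker = U) (φ : res pr A ⟶ C)
    (hinj : Function.Injective φ.hom)
    (hrange : ∀ c : C, (∀ u ∈ U, C.ρ u c = c) → ∃ a : A, φ.hom a = c)
    (a₀ : A) (hW : ∀ c : A, ∑ g : Q, A.ρ g c ≠ a₀) :
    ∀ c : C.quotientToInvariants U,
      ((∑ τ : G ⧸ U, (C.quotientToInvariants U).ρ τ c : C.quotientToInvariants U) : C) ≠
        φ.hom a₀ := by
  intro c hc
  obtain ⟨a, ha⟩ := hrange (c : C) (fun u hu => c.2 ⟨u, hu⟩)
  let e : G ⧸ U →* Q := QuotientGroup.lift U pr (fun u hu => by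
    rw [← hker] at hu
    exact hu)
  have he : Function.Bijective e := by
    constructor
    · rw [injective_iff_map_eq_one]
      intro τ hτ
      induction τ using QuotientGroup.induction_on with | @H g =>
      have h1 : pr g = 1 := hτ
      have h2 : g ∈ U := by
        rw [← hker]
        exact h1
      exact (QuotientGroup.eq_one_iff g).2 h2
    · intro q
      obtain ⟨g, hg⟩ := hpr q
      exact ⟨(g : G ⧸ U), hg⟩
  have key : ∀ τ : G ⧸ U,
      (((C.quotientToInvariants U).ρ τ c : C.quotientToInvariants U) : C) =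
        φ.hom (A.ρ (e τ) a) := by
    intro τ
    induction τ using QuotientGroup.induction_on with | @H g =>
    change C.ρ g (c : C) = _
    rw [← ha]
    exact (Rep.hom_comm_apply φ g a).symm
  have hsum : ((∑ τ : G ⧸ U, (C.quotientToInvariants U).ρ τ c : C.quotientToInvariants U) : C) =
      φ.hom (∑ q : Q, A.ρ q a) := by
    rw [Submodule.coe_sum, map_sum]
    rw [← Fintype.sum_bijective e he (fun τ => φ.hom (A.ρ (e τ) a))
      (fun q => φ.hom (A.ρ q a)) (fun _ => rfl)]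
    exact Finset.sum_congr rfl fun τ _ => key τ
  rw [hsum] at hc
  exact hW a (hinj hc)

variable (𝔉 : LevelFamily G) (p : ℕ) [Fact p.Prime]

/-- **(C-W) from `hnn`**: `cycRep_exists_class` + `inflP_ne_zero_of_transfer`. -/
theorem cwA_exists_of_hnn (hfin : 𝔉.FiniteIndex) {X : ShortComplex (Rep.{0} ℤ G)}
    (hX : X.ShortExact) (hsm : IsSmooth 𝔉 X.X₂) {J C' : Rep.{0} ℤ G} (π : J ⟶ C')
    (a : C' ⟶ X.X₃) (ι : J ⟶ X.X₂) (hcomm : ι ≫ X.g = π ≫ a)
    (h𝕌 : ∀ x : Hlc 𝔉 X.X₁ 2, p • x = 0 → x = 0)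
    (U₁ : ↥𝔉.sets)
    (h1 : ∀ x : Hlc (𝔉.restrict (U₁ : Subgroup G)) (res (U₁ : Subgroup G).subtype X.X₂) 1,
      p • x = 0 → x = 0)
    [Fintype (G ⧸ (U₁ : Subgroup G))]
    {σ : G ⧸ (U₁ : Subgroup G)} (hσ : ∀ x, x ∈ Subgroup.zpowers σ)
    (hcard : Fintype.card (G ⧸ (U₁ : Subgroup G)) = p)
    (b : J) (hb : ∀ g, J.ρ g b = b)
    (hnn : ∀ c : X.X₂.quotientToInvariants (U₁ : Subgroup G),
      ((∑ τ : G ⧸ (U₁ : Subgroup G), (X.X₂.quotientToInvariants (U₁ : Subgroup G)).ρ τ c :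
        X.X₂.quotientToInvariants (U₁ : Subgroup G)) : X.X₂) ≠ ι.hom b) :
    ∃ y₀ : Hlc 𝔉 J 2, p • y₀ = 0 ∧
      (HlcMap (MonoidHom.id G) π 𝔉.compat_id 2).hom y₀ ≠ 0 := by
  haveI := 𝔉.normal U₁ U₁.2
  obtain ⟨y₁, hpy, hne⟩ := cycRep_exists_class (𝔉 := 𝔉) U₁ hσ hcard ι b hb hnn
  exact ⟨(HlcInfl 𝔉 J U₁ 2).hom y₁,
    inflP_ne_zero_of_transfer (𝔉 := 𝔉) p hfin hX hsm π a ι hcomm h𝕌 U₁ h1 y₁ hpy hne⟩

/-- **(C-W), abstract end-to-end**: `X = (𝕌 → ℂ → ℂ_S)`, `J → C'`, level `U₁` with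
`G ⧸ U₁ ≅ Q` of order `p`, `φ : Res_pr A ⟶ ℂ` the (K6) identification of `A` (`= C_{L1}`) with
`ℂ^{U₁}`, `a₀ ∈ A` not a norm with `φ a₀ = ι b`, `b ∈ J^G`. -/
theorem cwA_exists_class (hfin : 𝔉.FiniteIndex) {X : ShortComplex (Rep.{0} ℤ G)}
    (hX : X.ShortExact) (hsm : IsSmooth 𝔉 X.X₂) {J C' : Rep.{0} ℤ G} (π : J ⟶ C')
    (a : C' ⟶ X.X₃) (ι : J ⟶ X.X₂) (hcomm : ι ≫ X.g = π ≫ a)
    (h𝕌 : ∀ x : Hlc 𝔉 X.X₁ 2, p • x = 0 → x = 0)
    (U₁ : ↥𝔉.sets)
    (h1 : ∀ x : Hlc (𝔉.restrict (U₁ : Subgroup G)) (res (U₁ : Subgroup G).subtype X.X₂) 1,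
      p • x = 0 → x = 0)
    {Q : Type} [Group Q] [Fintype Q] (hQ : Nat.card Q = p) (A : Rep.{0} ℤ Q)
    (pr : G →* Q) (hpr : Function.Surjective pr) (hker : pr.ker = (U₁ : Subgroup G))
    (φ : res pr A ⟶ X.X₂) (hinj : Function.Injective φ.hom)
    (hrange : ∀ c : X.X₂, (∀ u ∈ (U₁ : Subgroup G), X.X₂.ρ u c = c) → ∃ a' : A, φ.hom a' = c)
    (a₀ : A) (hW : ∀ c : A, ∑ g : Q, A.ρ g c ≠ a₀)
    (b : J) (hb : ∀ g, J.ρ g b = b) (hφb : φ.hom a₀ = ι.hom b) :
    ∃ y₀ : Hlc 𝔉 J 2, p • y₀ = 0 ∧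
      (HlcMap (MonoidHom.id G) π 𝔉.compat_id 2).hom y₀ ≠ 0 := by
  classical
  haveI := 𝔉.normal U₁ U₁.2
  -- `G ⧸ U₁ ≃* Q`
  let e : G ⧸ (U₁ : Subgroup G) →* Q := QuotientGroup.lift (U₁ : Subgroup G) pr (fun u hu => by
    rw [← hker] at hu
    exact hu)
  have he : Function.Bijective e := by
    constructor
    · rw [injective_iff_map_eq_one]
      intro τ hτ
      induction τ using QuotientGroup.induction_on with | @H g =>
      have h1 : pr g = 1 := hτ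
      have h2 : g ∈ (U₁ : Subgroup G) := by
        rw [← hker]
        exact h1
      exact (QuotientGroup.eq_one_iff g).2 h2
    · intro q
      obtain ⟨g, hg⟩ := hpr q
      exact ⟨(g : G ⧸ (U₁ : Subgroup G)), hg⟩
  let E : G ⧸ (U₁ : Subgroup G) ≃* Q := MulEquiv.ofBijective e he
  letI : Fintype (G ⧸ (U₁ : Subgroup G)) := Fintype.ofEquiv Q E.symm.toEquiv
  have hcard : Fintype.card (G ⧸ (U₁ : Subgroup G)) = p := by
    rw [← Nat.card_eq_fintype_card, Nat.card_congr E.toEquiv, hQ]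
  haveI : IsCyclic (G ⧸ (U₁ : Subgroup G)) :=
    isCyclic_of_prime_card (p := p) (by rw [Nat.card_eq_fintype_card]; exact hcard)
  obtain ⟨σ, hσ⟩ := IsCyclic.exists_generator (α := G ⧸ (U₁ : Subgroup G))
  have hnn := cwA_hnn A X.X₂ pr hpr (U₁ : Subgroup G) hker φ hinj hrange a₀ hW
  rw [hφb] at hnn
  exact cwA_exists_of_hnn 𝔉 p hfin hX hsm π a ι hcomm h𝕌 U₁ h1 hσ hcard b hb hnn

end Abstract

section IdClass

open NumberField IsDedekindDomain
open scoped Fermat.Agent.CFT.TensorGal Fermat.Agent.CFT.IdeleAct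

attribute [local instance] additiveDistribMulAction ideleGroupActionOf ideleClassActionOf
  idClassCommGroup

variable (M L1 : Type) [Field M] [NumberField M] [Field L1] [NumberField L1] [Algebra M L1]
  [IsScalarTower ℚ M L1]

/-- for `M` of degree one over `ℚ`, `Gal(L1/M) → Gal(L1/ℚ)` is bijective. -/
theorem cwA_relGalHom_bijective (hM : Function.Surjective (algebraMap ℚ M)) :
    Function.Bijective (relGalHom ℚ M L1) := by
  refine ⟨relGalHom_injective ℚ M L1, fun g => ?_⟩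
  refine ⟨{ (g : L1 ≃+* L1) with
    commutes' := fun x => ?_ }, ?_⟩
  · obtain ⟨r, rfl⟩ := hM x
    change g (algebraMap M L1 (algebraMap ℚ M r)) = algebraMap M L1 (algebraMap ℚ M r)
    rw [← IsScalarTower.algebraMap_apply ℚ M L1]
    exact g.commutes r
  · exact AlgEquiv.ext fun _ => rfl

variable [Fintype Gal(L1/M)]

/-- the norm of `idClassRep ℚ M L1`, `M` of degree one over `ℚ`, is the product of the
`Gal(L1/ℚ)`-conjugates. -/
theorem cwA_idClass_sum (hM : Function.Surjective (algebraMap ℚ M))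
    (c : Additive (ideleClass ℚ L1)) :
    ∑ g : Gal(L1/M), (idClassRep ℚ M L1).ρ g c =
      Additive.ofMul (∏ g : Gal(L1/ℚ), g • Additive.toMul c) := by
  rw [← Fintype.prod_bijective (relGalHom ℚ M L1) (cwA_relGalHom_bijective M L1 hM)
    (fun g => relGalHom ℚ M L1 g • Additive.toMul c) (fun g => g • Additive.toMul c)
    (fun _ => rfl)]
  rw [ofMul_prod]
  exact Finset.sum_congr rfl fun g _ => idClassRep_ρ_apply g c

/-- **(W) in `Rep` form**: in `idClassRep ℚ M L1` (`M` of degree one over `ℚ`, `L1` the degree-`p`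
layer of `ℚ(ζ_{p²})`), the class of the idele `(1 + p)^m`, `p ∤ m`, is not a norm. -/
theorem cwA_idClass_sum_ne {p : ℕ} (hp : p.Prime) (hp2 : p ≠ 2) (E : Type) [Field E]
    [NumberField E] [Algebra L1 E] [IsScalarTower ℚ L1 E] [IsGalois ℚ L1] [IsGalois ℚ E]
    [IsCyclotomicExtension {p ^ 2} ℚ E] (hM : Function.Surjective (algebraMap ℚ M))
    (h1 : Module.finrank ℚ L1 = p) (m : ℕ) (hm : ¬ p ∣ m) (c : idClassRep ℚ M L1) :
    ∑ g : Gal(L1/M), (idClassRep ℚ M L1).ρ g c ≠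
      Additive.ofMul ((baseToIdele ℚ L1 (pcycWIdele (pcycPlace p hp) ^ m) : ideleGroup ℚ L1) :
        ideleClass ℚ L1) := by
  intro h
  have h2 := (cwA_idClass_sum M L1 hM c).symm.trans h
  exact pcycW_prod_smul_ne_of_finrank hp hp2 L1 E h1 m hm (Additive.toMul c)
    (Additive.ofMul.injective h2)

/-- `|Gal(L1/M)| = [L1 : ℚ]` for `M` of degree one over `ℚ`. -/
theorem cwA_natCard_gal [IsGalois ℚ L1] (hM : Function.Surjective (algebraMap ℚ M)) :
    Nat.card Gal(L1/M) = Module.finrank ℚ L1 := by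
  rw [Nat.card_congr (Equiv.ofBijective _ (cwA_relGalHom_bijective M L1 hM)),
    IsGalois.card_aut_eq_finrank]

end IdClass

section Final

open NumberField IsDedekindDomain
open scoped Fermat.Agent.CFT.TensorGal Fermat.Agent.CFT.IdeleAct

attribute [local instance] additiveDistribMulAction ideleGroupActionOf ideleClassActionOf
  idClassCommGroup

variable {G : Type} [Group G] (𝔉 : LevelFamily G)

/-- **(C-W), end-to-end with (W) discharged**: as `cwA_exists_class` with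
`A = idClassRep ℚ M L1` (`M` of degree one over `ℚ`, `L1 ⊆ E = ℚ(ζ_{p²})` of degree `p`) and
`a₀ =` the class of the idele `(1 + p)^m` at `p`, `p ∤ m`. -/
theorem cwA_exists_class_idClass {p : ℕ} [Fact p.Prime] (hp : p.Prime) (hp2 : p ≠ 2)
    (hfin : 𝔉.FiniteIndex) {X : ShortComplex (Rep.{0} ℤ G)}
    (hX : X.ShortExact) (hsm : IsSmooth 𝔉 X.X₂) {J C' : Rep.{0} ℤ G} (π : J ⟶ C')
    (a : C' ⟶ X.X₃) (ι : J ⟶ X.X₂) (hcomm : ι ≫ X.g = π ≫ a)
    (h𝕌 : ∀ x : Hlc 𝔉 X.X₁ 2, p • x = 0 → x = 0)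
    (U₁ : ↥𝔉.sets)
    (h1 : ∀ x : Hlc (𝔉.restrict (U₁ : Subgroup G)) (res (U₁ : Subgroup G).subtype X.X₂) 1,
      p • x = 0 → x = 0)
    (M L1 E : Type) [Field M] [NumberField M] [Field L1] [NumberField L1] [Algebra M L1]
    [IsScalarTower ℚ M L1] [Field E] [NumberField E] [Algebra L1 E] [IsScalarTower ℚ L1 E]
    [IsGalois ℚ L1] [IsGalois ℚ E] [IsCyclotomicExtension {p ^ 2} ℚ E] [Fintype Gal(L1/M)]
    (hM : Function.Surjective (algebraMap ℚ M)) (hL1 : Module.finrank ℚ L1 = p)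
    (pr : G →* Gal(L1/M)) (hpr : Function.Surjective pr) (hker : pr.ker = (U₁ : Subgroup G))
    (φ : res pr (idClassRep ℚ M L1) ⟶ X.X₂) (hinj : Function.Injective φ.hom)
    (hrange : ∀ c : X.X₂, (∀ u ∈ (U₁ : Subgroup G), X.X₂.ρ u c = c) →
      ∃ a' : idClassRep ℚ M L1, φ.hom a' = c)
    (m : ℕ) (hm : ¬ p ∣ m) (b : J) (hb : ∀ g, J.ρ g b = b)
    (hφb : φ.hom (Additive.ofMul
      ((baseToIdele ℚ L1 (pcycWIdele (pcycPlace p hp) ^ m) : ideleGroup ℚ L1) :
        ideleClass ℚ L1)) = ι.hom b) :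
    ∃ y₀ : Hlc 𝔉 J 2, p • y₀ = 0 ∧
      (HlcMap (MonoidHom.id G) π 𝔉.compat_id 2).hom y₀ ≠ 0 :=
  cwA_exists_class 𝔉 p hfin hX hsm π a ι hcomm h𝕌 U₁ h1
    ((cwA_natCard_gal M L1 hM).trans hL1) (idClassRep ℚ M L1) pr hpr hker φ hinj hrange _
    (cwA_idClass_sum_ne M L1 hp hp2 E hM hL1 m hm) b hb hφb

end Final

end Fermat.Agent.PT
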