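/-
S55, GLOBAL C-side, (C-W) assembly (helper8): adapter for a (K6) identification stated over the
subgroup `V = ⊤` (group `↥V`, coefficients `res V.subtype ℂ`, level `U₁.subgroupOf V`).

* `cwA_topHom`, `cwA_topPhi` : `G →* ↥V` for `V = ⊤`, and the transported morphism
  `Res_{pr ∘ topHom} A ⟶ C` from `φ : Res_pr A ⟶ Res_{V ↪ G} C`.
* `cwA_exists_class_top`, `cwA_exists_class_idClass_top` : `cwA_exists_class`,
  `cwA_exists_class_idClass` with the (K6) inputs in that shape.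
-/
import Fermat.Agent.CFT.PT.CWAssembly

set_option autoImplicit false
set_option linter.unusedSectionVars false
set_option linter.style.haveILetI false

namespace Fermat.Agent.PT

open CategoryTheory groupCohomology Rep Fermat.Agent.CFT

section Adapter

variable {G : Type} [Group G]

/-- `G →* ↥V` for `V = ⊤`. -/
def cwA_topHom (V : Subgroup G) (hV : V = ⊤) : G →* ↥V where
  toFun g := ⟨g, hV ▸ Subgroup.mem_top g⟩
  map_one' := rfl
  map_mul' _ _ := rfl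

@[simp] theorem cwA_topHom_coe (V : Subgroup G) (hV : V = ⊤) (g : G) :
    ((cwA_topHom V hV g : ↥V) : G) = g := rfl

theorem cwA_topHom_surjective (V : Subgroup G) (hV : V = ⊤) :
    Function.Surjective (cwA_topHom V hV) := fun v => ⟨(v : G), Subtype.ext rfl⟩

/-- transport of `φ : Res_pr A ⟶ Res_{V ↪ G} C` (`V = ⊤`) to a morphism of `G`-representations. -/
noncomputable def cwA_topPhi {k : Type} [CommRing k] {Q : Type} [Group Q] (A : Rep.{0} k Q)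
    (C : Rep.{0} k G) (V : Subgroup G) (hV : V = ⊤) (pr : ↥V →* Q)
    (φ : res pr A ⟶ res V.subtype C) :
    res (pr.comp (cwA_topHom V hV)) A ⟶ C :=
  ofHom ⟨φ.hom.toLinearMap, fun g => by
    refine LinearMap.ext fun a => ?_
    exact Rep.hom_comm_apply φ (cwA_topHom V hV g) a⟩

@[simp] theorem cwA_topPhi_apply {k : Type} [CommRing k] {Q : Type} [Group Q] (A : Rep.{0} k Q)
    (C : Rep.{0} k G) (V : Subgroup G) (hV : V = ⊤) (pr : ↥V →* Q)
    (φ : res pr A ⟶ res V.subtype C) (a : A) :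
    (cwA_topPhi A C V hV pr φ).hom a = φ.hom a := rfl

theorem cwA_topHom_ker {Q : Type} [Group Q] (V : Subgroup G) (hV : V = ⊤) (pr : ↥V →* Q)
    (U : Subgroup G) (hker : pr.ker = U.subgroupOf V) :
    (pr.comp (cwA_topHom V hV)).ker = U := by
  ext g
  rw [MonoidHom.mem_ker, MonoidHom.comp_apply, ← MonoidHom.mem_ker, hker,
    Subgroup.mem_subgroupOf]
  rfl

variable (𝔉 : LevelFamily G) (p : ℕ) [Fact p.Prime]

/-- `cwA_exists_class` with the (K6) identification given over `↥V`, `V = ⊤`. -/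
theorem cwA_exists_class_top (hfin : 𝔉.FiniteIndex) {X : ShortComplex (Rep.{0} ℤ G)}
    (hX : X.ShortExact) (hsm : IsSmooth 𝔉 X.X₂) {J C' : Rep.{0} ℤ G} (π : J ⟶ C')
    (a : C' ⟶ X.X₃) (ι : J ⟶ X.X₂) (hcomm : ι ≫ X.g = π ≫ a)
    (h𝕌 : ∀ x : Hlc 𝔉 X.X₁ 2, p • x = 0 → x = 0)
    (U₁ : ↥𝔉.sets)
    (h1 : ∀ x : Hlc (𝔉.restrict (U₁ : Subgroup G)) (res (U₁ : Subgroup G).subtype X.X₂) 1,
      p • x = 0 → x = 0)
    (V : Subgroup G) (hV : V = ⊤)
    {Q : Type} [Group Q] [Fintype Q] (hQ : Nat.card Q = p) (A : Rep.{0} ℤ Q)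
    (pr : ↥V →* Q) (hpr : Function.Surjective pr)
    (hker : pr.ker = (U₁ : Subgroup G).subgroupOf V)
    (φ : res pr A ⟶ res V.subtype X.X₂) (hinj : Function.Injective φ.hom)
    (hrange : ∀ c : X.X₂, (∀ u ∈ (U₁ : Subgroup G).subgroupOf V, X.X₂.ρ (u : G) c = c) →
      ∃ a' : A, φ.hom a' = c)
    (a₀ : A) (hW : ∀ c : A, ∑ g : Q, A.ρ g c ≠ a₀)
    (b : J) (hb : ∀ g, J.ρ g b = b) (hφb : φ.hom a₀ = ι.hom b) :
    ∃ y₀ : Hlc 𝔉 J 2, p • y₀ = 0 ∧
      (HlcMap (MonoidHom.id G) π 𝔉.compat_id 2).hom y₀ ≠ 0 :=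
  cwA_exists_class 𝔉 p hfin hX hsm π a ι hcomm h𝕌 U₁ h1 hQ A
    (pr.comp (cwA_topHom V hV)) (hpr.comp (cwA_topHom_surjective V hV))
    (cwA_topHom_ker V hV pr _ hker) (cwA_topPhi A X.X₂ V hV pr φ) hinj
    (fun c hc => hrange c fun u hu => hc (u : G) (Subgroup.mem_subgroupOf.1 hu))
    a₀ hW b hb hφb

end Adapter

section Final

open NumberField IsDedekindDomain
open scoped Fermat.Agent.CFT.TensorGal Fermat.Agent.CFT.IdeleAct

attribute [local instance] additiveDistribMulAction ideleGroupActionOf ideleClassActionOf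
  idClassCommGroup

variable {G : Type} [Group G] (𝔉 : LevelFamily G)

/-- `cwA_exists_class_idClass` with the (K6) identification given over `↥V`, `V = ⊤`. -/
theorem cwA_exists_class_idClass_top {p : ℕ} [Fact p.Prime] (hp : p.Prime) (hp2 : p ≠ 2)
    (hfin : 𝔉.FiniteIndex) {X : ShortComplex (Rep.{0} ℤ G)}
    (hX : X.ShortExact) (hsm : IsSmooth 𝔉 X.X₂) {J C' : Rep.{0} ℤ G} (π : J ⟶ C')
    (a : C' ⟶ X.X₃) (ι : J ⟶ X.X₂) (hcomm : ι ≫ X.g = π ≫ a)
    (h𝕌 : ∀ x : Hlc 𝔉 X.X₁ 2, p • x = 0 → x = 0)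
    (U₁ : ↥𝔉.sets)
    (h1 : ∀ x : Hlc (𝔉.restrict (U₁ : Subgroup G)) (res (U₁ : Subgroup G).subtype X.X₂) 1,
      p • x = 0 → x = 0)
    (V : Subgroup G) (hV : V = ⊤)
    (M L1 E : Type) [Field M] [NumberField M] [Field L1] [NumberField L1] [Algebra M L1]
    [IsScalarTower ℚ M L1] [Field E] [NumberField E] [Algebra L1 E] [IsScalarTower ℚ L1 E]
    [IsGalois ℚ L1] [IsGalois ℚ E] [IsCyclotomicExtension {p ^ 2} ℚ E] [Fintype Gal(L1/M)]
    (hM : Function.Surjective (algebraMap ℚ M)) (hL1 : Module.finrank ℚ L1 = p)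
    (pr : ↥V →* Gal(L1/M)) (hpr : Function.Surjective pr)
    (hker : pr.ker = (U₁ : Subgroup G).subgroupOf V)
    (φ : res pr (idClassRep ℚ M L1) ⟶ res V.subtype X.X₂) (hinj : Function.Injective φ.hom)
    (hrange : ∀ c : X.X₂, (∀ u ∈ (U₁ : Subgroup G).subgroupOf V, X.X₂.ρ (u : G) c = c) →
      ∃ a' : idClassRep ℚ M L1, φ.hom a' = c)
    (m : ℕ) (hm : ¬ p ∣ m) (b : J) (hb : ∀ g, J.ρ g b = b)
    (hφb : φ.hom (Additive.ofMul
      ((baseToIdele ℚ L1 (pcycWIdele (pcycPlace p hp) ^ m) : ideleGroup ℚ L1) :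
        ideleClass ℚ L1)) = ι.hom b) :
    ∃ y₀ : Hlc 𝔉 J 2, p • y₀ = 0 ∧
      (HlcMap (MonoidHom.id G) π 𝔉.compat_id 2).hom y₀ ≠ 0 :=
  cwA_exists_class_top 𝔉 p hfin hX hsm π a ι hcomm h𝕌 U₁ h1 V hV
    ((cwA_natCard_gal M L1 hM).trans hL1) (idClassRep ℚ M L1) pr hpr hker φ hinj hrange _
    (cwA_idClass_sum_ne M L1 hp hp2 E hM hL1 m hm) b hb hφb

end Final

end Fermat.Agent.PT
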