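import Fermat.Agent.CFT.PT.CWLevelW
import Fermat.Agent.CFT.PT.CWAssembly
import Fermat.Agent.CFT.PT.BaseCountArith

set_option autoImplicit false

/-!
# S55 GLOBAL, (C-W) concrete, part B (pre-plug): helper8's `cwA_exists_class_idClass` at
`G = Γℚ`, `𝔉 = famS S`, `U₁ = cwL_U1 p`, `L1 = cwL_L1 p`, `E = cwL_E p`, `M = ℚ`

What remains after this file are exactly the `(K0)`/`(K6)` facts about the concrete idele Reps.
-/

namespace Fermat.Agent.PT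

open CategoryTheory groupCohomology Rep Fermat.Agent.CFT Fermat.Agent.CFT.S14 IntermediateField

local notation "Γℚ" => (AlgebraicClosure ℚ ≃ₐ[ℚ] AlgebraicClosure ℚ)
local notation "Qb" => AlgebraicClosure ℚ

variable (p : ℕ) [hp : Fact p.Prime]

/-- restriction `Γℚ → Gal(L1/ℚ)`. -/
noncomputable def cwL_pr : Γℚ →* Gal(↥(cwL_L1 p)/ℚ) :=
  AlgEquiv.restrictNormalHom (F := ℚ) (K₁ := Qb) ↥(cwL_L1 p)

theorem cwL_pr_apply (s : Γℚ) (x : cwL_L1 p) : ((cwL_pr p s x : cwL_L1 p) : Qb) = s (x : Qb) :=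
  AlgEquiv.restrictNormal_commutes s (cwL_L1 p) x

theorem cwL_pr_surjective : Function.Surjective (cwL_pr p) :=
  AlgEquiv.restrictNormalHom_surjective Qb

theorem cwL_pr_ker : (cwL_pr p).ker = cwL_U1 p := by
  rw [← cwL_L1_fixingSubgroup]
  ext s
  rw [MonoidHom.mem_ker, IntermediateField.mem_fixingSubgroup_iff]
  constructor
  · intro h x hx
    have h1 := cwL_pr_apply p s ⟨x, hx⟩
    rw [h] at h1
    exact h1.symm
  · intro h
    ext x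
    rw [cwL_pr_apply]
    exact h x x.2

/-- **(C-W) at the concrete level**: everything about `Γℚ`, `famS S`, `U₁`, `L1`, `E` and (W)
discharged; the remaining hypotheses are the `(K0)` Reps/maps and the `(K6)` identification
`φ : C_{L1} → ℂ` at `V = ⊤`. -/
theorem cwL_exists_class (S : Finset Nat.Primes) (hpS : (⟨p, hp.out⟩ : Nat.Primes) ∈ S)
    (hp2 : p ≠ 2) {X : ShortComplex (Rep.{0} ℤ Γℚ)}
    (hX : X.ShortExact) (hsm : IsSmooth (famS S) X.X₂) {J C' : Rep.{0} ℤ Γℚ} (π : J ⟶ C')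
    (a : C' ⟶ X.X₃) (ι : J ⟶ X.X₂) (hcomm : ι ≫ X.g = π ≫ a)
    (h𝕌 : ∀ x : Hlc (famS S) X.X₁ 2, p • x = 0 → x = 0)
    (h1 : ∀ x : Hlc ((famS S).restrict (cwL_U1 p)) (res (cwL_U1 p).subtype X.X₂) 1,
      p • x = 0 → x = 0)
    (φ : res (cwL_pr p) (idClassRep ℚ ℚ ↥(cwL_L1 p)) ⟶ X.X₂) (hinj : Function.Injective φ.hom)
    (hrange : ∀ c : X.X₂, (∀ u ∈ cwL_U1 p, X.X₂.ρ u c = c) →
      ∃ a' : idClassRep ℚ ℚ ↥(cwL_L1 p), φ.hom a' = c)
    (m : ℕ) (hm : ¬ p ∣ m) (b : J) (hb : ∀ g, J.ρ g b = b)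
    (hφb : φ.hom (Additive.ofMul
      ((baseToIdele ℚ ↥(cwL_L1 p) (pcycWIdele (pcycPlace p hp.out) ^ m) :
        ideleGroup ℚ ↥(cwL_L1 p)) : ideleClass ℚ ↥(cwL_L1 p))) = ι.hom b) :
    ∃ y₀ : Hlc (famS S) J 2, p • y₀ = 0 ∧
      (HlcMap (MonoidHom.id Γℚ) π (famS S).compat_id 2).hom y₀ ≠ 0 :=
  cwA_exists_class_idClass (famS S) hp.out hp2 (baseCount_famS_finiteIndex S) hX hsm π a ι hcomm h𝕌
    (cwL_U1s p S hpS) h1 ℚ ↥(cwL_L1 p) ↥(cwL_E p) Function.surjective_id (cwL_L1_finrank p hp2)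
    (cwL_pr p) (cwL_pr_surjective p) (cwL_pr_ker p) φ hinj hrange m hm b hb hφb

end Fermat.Agent.PT
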