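import Fermat.Agent.CFT.PT.IdeleRep
import Fermat.Agent.CFT.PT.CWPlug

set_option autoImplicit false

/-!
# S55 GLOBAL, (C-W) concrete, part B1: the `(K0)`-side data of (C-W)

* `cwI_base : baseIdeleGroup ℚ →* slProd` (ideles of `ℚ` inside `∏_v (ℚ_v ⊗ Qb)ˣ`), `Γℚ`-invariant,
  with values in `JFull S`;
* `cwI_iota S : idJSRep S ⟶ idCRep S` (`J_S → 𝕁 → ℂ`) and the commutative square
  `cwI_iota ≫ (ℂ → ℂ_S) = (J_S → C') ≫ (C' → ℂ_S)`;
* `cwI_b p S hpS m : idJSRep S`, the class of the idele `(1+p)^m` at `p`, `1` elsewhere; it is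
  `Γℚ`-invariant.
-/

namespace Fermat.Agent.PT

open CategoryTheory groupCohomology Rep Fermat.Agent.CFT IntermediateField NumberField
  IsDedekindDomain
open scoped TensorProduct

local notation "Γℚ" => (AlgebraicClosure ℚ ≃ₐ[ℚ] AlgebraicClosure ℚ)
local notation "Qb" => AlgebraicClosure ℚ

attribute [local instance] Units.mulDistribMulActionRight slQbUnitsAction

noncomputable section

/-! ### ideles of `ℚ` at infinite level -/

/-- `ℚ_vˣ → (ℚ_v ⊗ Qb)ˣ`, `a ↦ a ⊗ 1`. -/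
def cwI_baseLoc (v : HeightOneSpectrum (𝓞 ℚ)) : (v.adicCompletion ℚ)ˣ →* (slQb v)ˣ :=
  Units.map (algebraMap (v.adicCompletion ℚ) (slQb v) : _ →* _)

theorem cwI_baseLoc_val (v : HeightOneSpectrum (𝓞 ℚ)) (a : (v.adicCompletion ℚ)ˣ) :
    ((cwI_baseLoc v a : (slQb v)ˣ) : slQb v) = (a : v.adicCompletion ℚ) ⊗ₜ[ℚ] (1 : Qb) := by
  rw [cwI_baseLoc, Units.coe_map, MonoidHom.coe_coe, Algebra.TensorProduct.algebraMap_apply,
    Algebra.algebraMap_self, RingHom.id_apply]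

theorem cwI_baseLoc_smul (v : HeightOneSpectrum (𝓞 ℚ)) (g : Γℚ) (a : (v.adicCompletion ℚ)ˣ) :
    g • cwI_baseLoc v a = cwI_baseLoc v a := by
  apply Units.ext
  rw [slQb_units_smul_val, cwI_baseLoc_val, slQb_smul_tmul, map_one]

theorem cwI_baseLoc_mem_slIntUnits {v : HeightOneSpectrum (𝓞 ℚ)} {a : (v.adicCompletion ℚ)ˣ}
    (ha : a ∈ baseLocalUnits ℚ v) : cwI_baseLoc v a ∈ slIntUnits v := by
  rw [mem_baseLocalUnits_iff] at ha
  have hint : ∀ c : v.adicCompletion ℚ, Valued.v c ≤ 1 →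
      IsIntegral (v.adicCompletionIntegers ℚ) (algebraMap (v.adicCompletion ℚ) (slQb v) c) := by
    intro c hc
    have h1 : algebraMap (v.adicCompletion ℚ) (slQb v) c =
        algebraMap (v.adicCompletionIntegers ℚ) (slQb v) ⟨c, hc⟩ := by
      rw [IsScalarTower.algebraMap_apply (v.adicCompletionIntegers ℚ) (v.adicCompletion ℚ)
        (slQb v)]
      rfl
    rw [h1]
    exact isIntegral_algebraMap
  rw [mem_slIntUnits_iff]
  refine ⟨hint _ ha.le, ?_⟩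
  have h2 : ((cwI_baseLoc v a)⁻¹ : (slQb v)ˣ) = cwI_baseLoc v a⁻¹ := (map_inv _ _).symm
  rw [h2]
  refine hint _ ?_
  rw [Units.val_inv_eq_inv_val, map_inv₀, ha, inv_one]

/-- the ideles of `ℚ` inside `∏_v (ℚ_v ⊗ Qb)ˣ`. -/
def cwI_base : baseIdeleGroup ℚ →* slProd where
  toFun x := fun v => cwI_baseLoc v (x.1 v)
  map_one' := by
    funext v
    show cwI_baseLoc v ((1 : baseIdeleGroup ℚ).1 v) = 1
    exact map_one _
  map_mul' x y := by
    funext v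
    show cwI_baseLoc v ((x * y).1 v) = cwI_baseLoc v (x.1 v) * cwI_baseLoc v (y.1 v)
    exact map_mul _ _ _

theorem cwI_base_apply (x : baseIdeleGroup ℚ) (v : HeightOneSpectrum (𝓞 ℚ)) :
    cwI_base x v = cwI_baseLoc v (x.1 v) := rfl

theorem cwI_base_smul (g : Γℚ) (x : baseIdeleGroup ℚ) : g • cwI_base x = cwI_base x := by
  funext v
  rw [slProd_smul_apply, cwI_base_apply, cwI_baseLoc_smul]

variable (S : Finset Nat.Primes)

theorem cwI_base_mem_JFull (x : baseIdeleGroup ℚ) : cwI_base x ∈ JFull S := by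
  rw [mem_JFull_iff]
  refine ⟨?_, ?_⟩
  · obtain ⟨U, hU⟩ := (famS S).nonempty
    exact ⟨U, hU, fun g _ => cwI_base_smul g x⟩
  · have hx : ∀ᶠ v in Filter.cofinite, x.1 v ∈ baseLocalUnits ℚ v := x.2
    filter_upwards [hx] with v hv
    exact cwI_baseLoc_mem_slIntUnits hv

theorem cwI_base_mem_idJS {x : baseIdeleGroup ℚ} (hx : ∀ v ∉ placesS S, x.1 v = 1) :
    cwI_base x ∈ idJS S := by
  rw [mem_idJS_iff]
  refine ⟨cwI_base_mem_JFull S x, fun v hv => ?_⟩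
  rw [cwI_base_apply, hx v hv, map_one]

/-! ### the maps `J_S → ℂ` and the square -/

/-- `J_S → 𝕁 → ℂ`. -/
def cwI_iota : idJSRep S ⟶ idCRep S :=
  sqRepMap (isStableSub_idJS S) IsStableSub.bot (isStableSub_JFull S) (isStableSub_idK S)
    (idJS_le_JFull S) bot_le

theorem cwI_iota_sqMk (x : idJS S) :
    (cwI_iota S).hom (sqMk (idJS S) ⊥ (isStableSub_idJS S) IsStableSub.bot x) =
      sqMk (JFull S) (idK S) (isStableSub_JFull S) (isStableSub_idK S)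
        ⟨(x : slProd), idJS_le_JFull S x.2⟩ := rfl

theorem cwI_hcomm : cwI_iota S ≫ (idSeq3 S).g = idJSToC' S ≫ idC'ToCS S := by
  apply Rep.hom_ext
  apply Representation.IntertwiningMap.ext
  refine LinearMap.ext fun q => ?_
  obtain ⟨x, rfl⟩ := sqMk_surjective (idJS S) ⊥ (isStableSub_idJS S) IsStableSub.bot q
  change (idCToCS S).hom ((cwI_iota S).hom _) = (idC'ToCS S).hom ((idJSToC' S).hom _)
  rw [cwI_iota_sqMk, idCToCS_sqMk, idJSToC'_sqMk, idC'ToCS_sqMk]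

/-! ### the element `b` -/

variable (p : ℕ) [hp : Fact p.Prime]

theorem cwI_pcycPlace_mem (hpS : (⟨p, hp.out⟩ : Nat.Primes) ∈ S) :
    pcycPlace p hp.out ∈ placesS S := by
  show Rat.HeightOneSpectrum.primesEquiv (pcycPlace p hp.out) ∈ S
  have h : Rat.HeightOneSpectrum.primesEquiv (pcycPlace p hp.out) = (⟨p, hp.out⟩ : Nat.Primes) :=
    (Rat.HeightOneSpectrum.primesEquiv (R := 𝓞 ℚ)).apply_symm_apply ⟨p, hp.out⟩
  rw [h]
  exact hpS

/-- the idele `(1 + p)^m` at `p`, `1` elsewhere, of `ℚ`. -/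
def cwI_b0 (m : ℕ) : baseIdeleGroup ℚ := pcycWIdele (pcycPlace p hp.out) ^ m

theorem cwI_b0_apply_of_ne (m : ℕ) {v : HeightOneSpectrum (𝓞 ℚ)} (hv : v ≠ pcycPlace p hp.out) :
    (cwI_b0 p m).1 v = 1 := by
  have h1 : (pcycWIdele (pcycPlace p hp.out)).1 v = 1 := baseIdeleSingle_apply_of_ne hv _
  have h2 : (cwI_b0 p m).1 = (pcycWIdele (pcycPlace p hp.out)).1 ^ m := Subgroup.coe_pow _ _ _
  rw [h2, Pi.pow_apply, h1, one_pow]

theorem cwI_b0_apply_of_notMem (hpS : (⟨p, hp.out⟩ : Nat.Primes) ∈ S) (m : ℕ)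
    {v : HeightOneSpectrum (𝓞 ℚ)} (hv : v ∉ placesS S) : (cwI_b0 p m).1 v = 1 :=
  cwI_b0_apply_of_ne p m fun h => hv (h ▸ cwI_pcycPlace_mem S p hpS)

/-- the idele `(1 + p)^m` at `p`, `1` elsewhere, as an element of `J_S`. -/
def cwI_bJS (hpS : (⟨p, hp.out⟩ : Nat.Primes) ∈ S) (m : ℕ) : idJS S :=
  ⟨cwI_base (cwI_b0 p m), cwI_base_mem_idJS S fun _ hv => cwI_b0_apply_of_notMem S p hpS m hv⟩

/-- the class `b` of the idele `(1 + p)^m` at `p` in `idJSRep S`. -/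
def cwI_b (hpS : (⟨p, hp.out⟩ : Nat.Primes) ∈ S) (m : ℕ) : idJSRep S :=
  sqMk (idJS S) ⊥ (isStableSub_idJS S) IsStableSub.bot (cwI_bJS S p hpS m)

theorem cwI_b_fixed (hpS : (⟨p, hp.out⟩ : Nat.Primes) ∈ S) (m : ℕ) (g : Γℚ) :
    (idJSRep S).ρ g (cwI_b S p hpS m) = cwI_b S p hpS m := by
  rw [cwI_b, sqRep_ρ_sqMk]
  congr 1
  apply Subtype.ext
  exact cwI_base_smul g _

theorem cwI_iota_b (hpS : (⟨p, hp.out⟩ : Nat.Primes) ∈ S) (m : ℕ) :
    (cwI_iota S).hom (cwI_b S p hpS m) =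
      sqMk (JFull S) (idK S) (isStableSub_JFull S) (isStableSub_idK S)
        ⟨cwI_base (cwI_b0 p m), cwI_base_mem_JFull S _⟩ := rfl

end

end Fermat.Agent.PT
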