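import Fermat.Agent.CFT.PT.IdeleRep
import Fermat.Agent.CFT.Bridge.TensorDescent

/-!
# S55 (K0)/(γ): the finite levels of the infinite-level ideles

`F ≤ Q̄` a number field.  `idL_iota F : ideleGroup ℚ F →* slProd` is the componentwise base change
`ℚ_v ⊗ F → ℚ_v ⊗ Q̄`.  It is injective, lands in `JFull S` when `F` is unramified outside `S`,
maps principal ideles to the diagonal, and its image is exactly the set of elements of `JFull S`
fixed by `Gal(Q̄/F)` (`(γ)`); hence `JFull S` is the union of the images of the `idL_iota F`.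
-/

set_option autoImplicit false
set_option linter.style.haveILetI false
set_option linter.unusedSectionVars false

namespace Fermat.Agent.PT

open CategoryTheory Fermat.Agent.CFT IntermediateField NumberField IsDedekindDomain
open scoped TensorProduct Fermat.Agent.CFT.TensorGal

local notation "Qb" => AlgebraicClosure ℚ
local notation "Γℚ" => (AlgebraicClosure ℚ ≃ₐ[ℚ] AlgebraicClosure ℚ)

attribute [local instance] Units.mulDistribMulActionRight slQbUnitsAction

local instance idL_isAlgebraicQbar : Algebra.IsAlgebraic ℚ (AlgebraicClosure ℚ) :=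
  AlgebraicClosure.isAlgebraic ℚ
local instance idL_isAlgClosureQbar : IsAlgClosure ℚ (AlgebraicClosure ℚ) :=
  ⟨inferInstance, inferInstance⟩
local instance idL_isGaloisQbar : IsGalois ℚ (AlgebraicClosure ℚ) :=
  ⟨⟩

noncomputable section

section Action

/-- the action of `Γℚ` on `ℚ_v ⊗ Q̄` is `id ⊗ g`. -/
theorem idL_smul_eq_map (v : HeightOneSpectrum (𝓞 ℚ)) (g : Γℚ) (z : slQb v) :
    g • z = Algebra.TensorProduct.map
      (AlgHom.id (v.adicCompletion ℚ) (v.adicCompletion ℚ)) (g : Qb →ₐ[ℚ] Qb) z := by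
  induction z using TensorProduct.induction_on with
  | zero => simp
  | tmul a y =>
    rw [slQb_smul_tmul, Algebra.TensorProduct.map_tmul]
    rfl
  | add x y hx hy => rw [smul_add, hx, hy, map_add]

end Action

section Iota

variable (F : IntermediateField ℚ Qb) [NumberField F]

/-- base change of units `(ℚ_v ⊗ F)ˣ → (ℚ_v ⊗ Q̄)ˣ`. -/
def idL_baseUnits (v : HeightOneSpectrum (𝓞 ℚ)) : (semiLocal ℚ ↥F v)ˣ →* (slQb v)ˣ :=
  Units.map ((slBase v F.val : semiLocal ℚ ↥F v →ₐ[v.adicCompletion ℚ] slQb v) :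
    semiLocal ℚ ↥F v →* slQb v)

theorem idL_baseUnits_val (v : HeightOneSpectrum (𝓞 ℚ)) (u : (semiLocal ℚ ↥F v)ˣ) :
    ((idL_baseUnits F v u : (slQb v)ˣ) : slQb v) = slBase v F.val (u : semiLocal ℚ ↥F v) := rfl

theorem idL_baseUnits_injective (v : HeightOneSpectrum (𝓞 ℚ)) :
    Function.Injective (idL_baseUnits F v) := by
  intro u u' h
  apply Units.ext
  apply slBase_injective v F.val
  rw [← idL_baseUnits_val, ← idL_baseUnits_val, h]

/-- elements coming from level `F` are fixed by `Gal(Q̄/F)`. -/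
theorem idL_smul_slBase (v : HeightOneSpectrum (𝓞 ℚ)) (g : Γℚ) (hg : g ∈ F.fixingSubgroup)
    (z : semiLocal ℚ ↥F v) : g • slBase v F.val z = slBase v F.val z := by
  induction z using TensorProduct.induction_on with
  | zero => simp
  | tmul a y =>
    rw [slBase_tmul, slQb_smul_tmul]
    congr 1
    exact (IntermediateField.mem_fixingSubgroup_iff F g).1 hg (y : Qb) y.2
  | add x y hx hy => rw [map_add, smul_add, hx, hy]

theorem idL_smul_baseUnits (v : HeightOneSpectrum (𝓞 ℚ)) (g : Γℚ) (hg : g ∈ F.fixingSubgroup)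
    (u : (semiLocal ℚ ↥F v)ˣ) : g • idL_baseUnits F v u = idL_baseUnits F v u := by
  apply Units.ext
  rw [slQb_units_smul_val, idL_baseUnits_val]
  exact idL_smul_slBase F v g hg _

/-- integrality is preserved and reflected by the base change. -/
theorem idL_isIntegral_slBase_iff (v : HeightOneSpectrum (𝓞 ℚ)) (z : semiLocal ℚ ↥F v) :
    IsIntegral (v.adicCompletionIntegers ℚ) (slBase v F.val z) ↔
      IsIntegral (v.adicCompletionIntegers ℚ) z :=
  isIntegral_algHom_iff ((slBase v F.val).restrictScalars (v.adicCompletionIntegers ℚ))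
    (slBase_injective v F.val)

theorem idL_baseUnits_mem_slIntUnits_iff (v : HeightOneSpectrum (𝓞 ℚ))
    (u : (semiLocal ℚ ↥F v)ˣ) :
    idL_baseUnits F v u ∈ slIntUnits v ↔ u ∈ semiLocalUnits ℚ ↥F v := by
  rw [mem_slIntUnits_iff, mem_semiLocalUnits_iff, ← map_inv, idL_baseUnits_val,
    idL_baseUnits_val, idL_isIntegral_slBase_iff, idL_isIntegral_slBase_iff]

/-- **`ι_F`**: the ideles of the number field `F ≤ Q̄` inside `∏_v (ℚ_v ⊗ Q̄)ˣ`. -/
def idL_iota : ideleGroup ℚ ↥F →* slProd where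
  toFun x := fun v => idL_baseUnits F v (x.1 v)
  map_one' := funext fun v => map_one (idL_baseUnits F v)
  map_mul' x y := funext fun v => map_mul (idL_baseUnits F v) (x.1 v) (y.1 v)

theorem idL_iota_apply (x : ideleGroup ℚ ↥F) (v : HeightOneSpectrum (𝓞 ℚ)) :
    idL_iota F x v = idL_baseUnits F v (x.1 v) := rfl

/-- fact 1: `ι_F` is injective. -/
theorem idL_iota_injective : Function.Injective (idL_iota F) := by
  intro x y h
  apply Subtype.ext
  funext v
  exact idL_baseUnits_injective F v (congrFun h v)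

/-- `ι_F x` is fixed by `Gal(Q̄/F)`. -/
theorem idL_smul_iota (g : Γℚ) (hg : g ∈ F.fixingSubgroup) (x : ideleGroup ℚ ↥F) :
    g • idL_iota F x = idL_iota F x :=
  funext fun v => idL_smul_baseUnits F v g hg (x.1 v)

theorem idL_iota_eventually_mem (x : ideleGroup ℚ ↥F) :
    ∀ᶠ v in Filter.cofinite, idL_iota F x v ∈ slIntUnits v := by
  have hx : ∀ᶠ v in Filter.cofinite, x.1 v ∈ semiLocalUnits ℚ ↥F v := x.2
  filter_upwards [hx] with v hv
  exact (idL_baseUnits_mem_slIntUnits_iff F v _).2 hv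

variable (S : Finset Nat.Primes)

/-- `ι_F` lands in `𝕁 = JFull S` when `F` is unramified outside `S`. -/
theorem idL_iota_mem_JFull (hF : F.IsUnramifiedOutside S) (x : ideleGroup ℚ ↥F) :
    idL_iota F x ∈ JFull S := by
  refine ⟨⟨(galClosure F).fixingSubgroup,
    ⟨_, IsUnramifiedOutside.galClosure hF, galClosure_fixingSubgroup_normal _, rfl⟩,
    fun g hg => ?_⟩, idL_iota_eventually_mem F x⟩
  exact idL_smul_iota F g (IntermediateField.fixingSubgroup_antitone (le_galClosure F) hg) x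

/-- fact 3: `ι_F` maps the principal idele of `b ∈ Fˣ` to the diagonal element of `b`. -/
theorem idL_iota_diagIdele (b : (↥F)ˣ) :
    idL_iota F (diagIdele (K := ℚ) b) = slDiag (Units.map (F.val : ↥F →* Qb) b) := by
  funext v
  apply Units.ext
  rw [idL_iota_apply, idL_baseUnits_val, slDiag_apply, slIncl_val]
  show slBase v F.val ((1 : v.adicCompletion ℚ) ⊗ₜ[ℚ] (b : ↥F)) = _
  rw [slBase_tmul]
  rfl

/-- **(γ)**: an element of `∏_v (ℚ_v ⊗ Q̄)ˣ` which is fixed by `Gal(Q̄/F)` and is an integral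
unit almost everywhere comes from a (unique) idele of `F`. -/
theorem idL_exists_iota_eq (x : slProd) (hfix : ∀ g ∈ F.fixingSubgroup, g • x = x)
    (hint : ∀ᶠ v in Filter.cofinite, x v ∈ slIntUnits v) :
    ∃ y : ideleGroup ℚ ↥F, idL_iota F y = x := by
  have hv : ∀ v : HeightOneSpectrum (𝓞 ℚ), ∃ u : (semiLocal ℚ ↥F v)ˣ,
      idL_baseUnits F v u = x v := by
    intro v
    obtain ⟨s, s', hss', hs, hs'⟩ := tnD_exists_unit_of_fixed (A := v.adicCompletion ℚ) F (x v)
      (fun u hu => by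
        rw [← idL_smul_eq_map, ← slQb_units_smul_val, ← slProd_smul_apply, hfix u hu])
    refine ⟨⟨s, s', hss', (mul_comm s' s).trans hss'⟩, Units.ext ?_⟩
    rw [idL_baseUnits_val]
    exact hs
  choose u hu using hv
  refine ⟨⟨u, ?_⟩, funext hu⟩
  rw [mem_ideleGroup_iff]
  filter_upwards [hint] with v hv
  rw [← idL_baseUnits_mem_slIntUnits_iff, hu]
  exact hv

/-- **(γ)**, set form: the elements of `JFull S` fixed by `Gal(Q̄/F)` are the `ι_F y`. -/
theorem idL_mem_range_iota_iff (hF : F.IsUnramifiedOutside S) (x : slProd) :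
    (∃ y : ideleGroup ℚ ↥F, idL_iota F y = x) ↔
      x ∈ JFull S ∧ ∀ g ∈ F.fixingSubgroup, g • x = x := by
  constructor
  · rintro ⟨y, rfl⟩
    exact ⟨idL_iota_mem_JFull F S hF y, fun g hg => idL_smul_iota F g hg y⟩
  · rintro ⟨hx, hfix⟩
    exact idL_exists_iota_eq F x hfix hx.2

end Iota

section Union

variable (S : Finset Nat.Primes)

/-- fact 5: `𝕁` is the union of the images of the `ι_F`, `F` a number field unramified outside
`S` with normal fixing subgroup (a member of `famS S`). -/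
theorem idL_exists_level {x : slProd} (hx : x ∈ JFull S) :
    ∃ F : IntermediateField ℚ Qb, F.IsUnramifiedOutside S ∧ F.fixingSubgroup.Normal ∧
      ∃ (_ : NumberField F) (y : ideleGroup ℚ ↥F), idL_iota F y = x := by
  obtain ⟨⟨U, ⟨K, hK, hn, rfl⟩, hfix⟩, hint⟩ := hx
  haveI : FiniteDimensional ℚ K := hK.1
  haveI : NumberField K := ⟨⟩
  obtain ⟨y, hy⟩ := idL_exists_iota_eq K x hfix hint
  exact ⟨K, hK, hn, inferInstance, y, hy⟩

end Union

section Principal

variable (F : IntermediateField ℚ Qb) [NumberField F]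

/-- if `1 ⊗ c` comes from `ℚ_v ⊗ F` then `c ∈ F`. -/
theorem idL_mem_of_slIncl_eq (v : HeightOneSpectrum (𝓞 ℚ)) (c : Qbˣ)
    (u : (semiLocal ℚ ↥F v)ˣ) (h : idL_baseUnits F v u = slIncl v c) : (c : Qb) ∈ F := by
  rw [← InfiniteGalois.fixedField_fixingSubgroup F, IntermediateField.mem_fixedField_iff]
  intro g hg
  have h1 : g • slIncl v c = slIncl v c := by
    rw [← h]
    exact idL_smul_baseUnits F v g hg u
  rw [← slIncl_smul'] at h1
  have h2 := slIncl_injective v h1
  exact congrArg (fun w : Qbˣ => (w : Qb)) h2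

/-- fact 6: an idele of `F` whose image is diagonal is principal. -/
theorem idL_exists_diagIdele_of_iota_eq_slDiag (y : ideleGroup ℚ ↥F) (c : Qbˣ)
    (h : idL_iota F y = slDiag c) :
    ∃ b : (↥F)ˣ, diagIdele (K := ℚ) b = y ∧ Units.map (F.val : ↥F →* Qb) b = c := by
  obtain ⟨v⟩ : Nonempty (HeightOneSpectrum (𝓞 ℚ)) :=
    ⟨Rat.HeightOneSpectrum.primesEquiv.symm ⟨2, Nat.prime_two⟩⟩
  have hc : (c : Qb) ∈ F := idL_mem_of_slIncl_eq F v c (y.1 v) (by
    rw [← idL_iota_apply, h, slDiag_apply])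
  have hc' : ((c⁻¹ : Qbˣ) : Qb) ∈ F := by
    rw [Units.val_inv_eq_inv_val]
    exact inv_mem hc
  let b : (↥F)ˣ := ⟨⟨(c : Qb), hc⟩, ⟨((c⁻¹ : Qbˣ) : Qb), hc'⟩,
    Subtype.ext (by simp), Subtype.ext (by simp)⟩
  have hb : Units.map (F.val : ↥F →* Qb) b = c := Units.ext rfl
  refine ⟨b, idL_iota_injective F ?_, hb⟩
  rw [idL_iota_diagIdele, hb, h]

end Principal

end

end Fermat.Agent.PT
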