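import Fermat.Agent.CFT.PT.ClassLevel
import Fermat.Agent.CFT.PT.CWAssemblyTop
import Fermat.Agent.CFT.PT.CWIdele
import Fermat.Agent.CFT.PT.IdeleLevel
import Fermat.Agent.CFT.PT.IdeleRepLevel

set_option autoImplicit false

/-!
# S55 GLOBAL, (C-W) concrete, part B2: the final plug

`cwF_exists_class_of_level`: the (C-W) class `y₀ ∈ Hlc²(Γℚ, J_S)[p]` with nonzero image in
`Hlc²(Γℚ, C')`, from helper28's model-free `(K6)` core `clsLvl_φ` at `M = ⊥`, `L = cwL_L1 p`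
(the six facts about `ι_L` as hypotheses), helper8's `cwA_exists_class_idClass_top`, and the
`(K0)`-side data of `CWIdele`.
-/

namespace Fermat.Agent.PT

open CategoryTheory groupCohomology Rep Fermat.Agent.CFT Fermat.Agent.CFT.S14 IntermediateField
  NumberField IsDedekindDomain
open scoped Fermat.Agent.CFT.TensorGal Fermat.Agent.CFT.IdeleAct

local notation "Γℚ" => (AlgebraicClosure ℚ ≃ₐ[ℚ] AlgebraicClosure ℚ)
local notation "Qb" => AlgebraicClosure ℚ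

attribute [local instance] sUF_isAlgebraicQb sUF_isAlgClosureQb sUF_isGaloisQb sUF_numberField
  sUF_algebra sUF_isScalarTower sUF_isScalarTower' sUF_isGalois sUF_normal_alg'

attribute [local instance] additiveDistribMulAction ideleGroupActionOf ideleClassActionOf
  idClassCommGroup

variable (p : ℕ) [hp : Fact p.Prime]

instance cwF_fact_bot_le : Fact ((⊥ : IntermediateField ℚ Qb) ≤ cwL_L1 p) := ⟨bot_le⟩

theorem cwF_surjective_algebraMap_bot :
    Function.Surjective (algebraMap ℚ ↥(⊥ : IntermediateField ℚ Qb)) := by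
  rintro ⟨x, hx⟩
  obtain ⟨r, hr⟩ := IntermediateField.mem_bot.1 hx
  exact ⟨r, Subtype.ext hr⟩

variable (S : Finset Nat.Primes)

/-- **(C-W), concrete, `φ`-form**: the class `y₀` from a `(K6)` identification
`φ : C_{L1} → ℂ` over `π = relRestrict : (⊥).fixingSubgroup → Gal(L1/⊥)` (injective, range = the
`U₁`-invariants, `φ [b₀] = ι b`). -/
theorem cwF_exists_class_of_phi (hp2 : p ≠ 2) (hpS : (⟨p, hp.out⟩ : Nat.Primes) ∈ S)
    (h𝕌 : ∀ x : Hlc (famS S) (idURep S) 2, p • x = 0 → x = 0)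
    (h1 : ∀ x : Hlc ((famS S).restrict (cwL_U1 p)) (res (cwL_U1 p).subtype (idCRep S)) 1,
      p • x = 0 → x = 0)
    (φ : res (relRestrict (cwF_fact_bot_le p).out)
        (idClassRep ℚ ↥(⊥ : IntermediateField ℚ Qb) ↥(cwL_L1 p)) ⟶
      res (⊥ : IntermediateField ℚ Qb).fixingSubgroup.subtype (idCRep S))
    (hinj : Function.Injective φ.hom)
    (hrange : ∀ a : (idCRep S).V,
      (∀ s ∈ (cwL_L1 p).fixingSubgroup.subgroupOf (⊥ : IntermediateField ℚ Qb).fixingSubgroup,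
        (res (⊥ : IntermediateField ℚ Qb).fixingSubgroup.subtype (idCRep S)).ρ s a = a) →
      ∃ c, φ.hom c = a)
    (m : ℕ) (hm : ¬ p ∣ m)
    (hφb : φ.hom (Additive.ofMul
      ((baseToIdele ℚ ↥(cwL_L1 p) (cwI_b0 p m) : ideleGroup ℚ ↥(cwL_L1 p)) :
        ideleClass ℚ ↥(cwL_L1 p))) = (cwI_iota S).hom (cwI_b S p hpS m)) :
    ∃ y₀ : Hlc (famS S) (idJSRep S) 2, p • y₀ = 0 ∧
      (HlcMap (MonoidHom.id Γℚ) (idJSToC' S) (famS S).compat_id 2).hom y₀ ≠ 0 := by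
  have hS : S.Nonempty := ⟨_, hpS⟩
  have hV : (⊥ : IntermediateField ℚ Qb).fixingSubgroup = ⊤ := IntermediateField.fixingSubgroup_bot
  have hker : (relRestrict (cwF_fact_bot_le p).out).ker =
      ((cwL_U1s p S hpS : ↥(famS S).sets) : Subgroup Γℚ).subgroupOf
        (⊥ : IntermediateField ℚ Qb).fixingSubgroup := by
    rw [relRestrict_ker, cwL_L1_fixingSubgroup]
    rfl
  refine cwA_exists_class_idClass_top (famS S) hp.out hp2 (baseCount_famS_finiteIndex S)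
    (idSeq3_shortExact S hS) (isSmooth_idCRep S) (idJSToC' S) (idC'ToCS S) (cwI_iota S)
    (cwI_hcomm S) h𝕌 (cwL_U1s p S hpS) h1 (⊥ : IntermediateField ℚ Qb).fixingSubgroup hV
    ↥(⊥ : IntermediateField ℚ Qb) ↥(cwL_L1 p) ↥(cwL_E p) cwF_surjective_algebraMap_bot
    (cwL_L1_finrank p hp2) (relRestrict (cwF_fact_bot_le p).out)
    (relRestrict_surjective (cwF_fact_bot_le p).out) hker φ hinj
    (fun c hc => hrange c ?_) m hm (cwI_b S p hpS m) (cwI_b_fixed S p hpS m) hφb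
  intro s hs
  rw [cwL_L1_fixingSubgroup] at hs
  exact hc s hs

/-- **(C-W), concrete**: the class `y₀` from the model-free `(K6)` data at `M = ⊥`,
`L = cwL_L1 p`. -/
theorem cwF_exists_class_of_level (hp2 : p ≠ 2) (hpS : (⟨p, hp.out⟩ : Nat.Primes) ∈ S)
    (h𝕌 : ∀ x : Hlc (famS S) (idURep S) 2, p • x = 0 → x = 0)
    (h1 : ∀ x : Hlc ((famS S).restrict (cwL_U1 p)) (res (cwL_U1 p).subtype (idCRep S)) 1,
      p • x = 0 → x = 0)
    {𝕁 : Type} [CommGroup 𝕁] [MulDistribMulAction Γℚ 𝕁] (𝕂 : Subgroup 𝕁)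
    (q : 𝕁 →* Multiplicative (idCRep S).V)
    (hqK : ∀ x, q x = 1 ↔ x ∈ 𝕂)
    (hqρ : ∀ (σ : Γℚ) (x : 𝕁),
      q (σ • x) = Multiplicative.ofAdd ((idCRep S).ρ σ (Multiplicative.toAdd (q x))))
    (hqs : Function.Surjective q)
    (ιL : ideleGroup ℚ ↥(cwL_L1 p) →* 𝕁)
    (h3 : ∀ b : (↥(cwL_L1 p))ˣ, ιL (diagIdele (K := ℚ) b) ∈ 𝕂)
    (h4 : ∀ (σ : Γℚ) (z : ideleGroup ℚ ↥(cwL_L1 p)),
      ιL ((σ.restrictNormal (cwL_L1 p) : ↥(cwL_L1 p) ≃ₐ[ℚ] ↥(cwL_L1 p)) • z) = σ • ιL z)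
    (h6 : ∀ z, ιL z ∈ 𝕂 → z ∈ principalIdeles ℚ ↥(cwL_L1 p))
    (hinv : ∀ x : 𝕁, (∀ σ ∈ (cwL_L1 p).fixingSubgroup, σ • x / x ∈ 𝕂) →
      ∃ z : ideleGroup ℚ ↥(cwL_L1 p), ∃ k ∈ 𝕂, x = ιL z * k)
    (m : ℕ) (hm : ¬ p ∣ m)
    (hb : q (ιL (baseToIdele ℚ ↥(cwL_L1 p) (cwI_b0 p m))) =
      Multiplicative.ofAdd ((cwI_iota S).hom (cwI_b S p hpS m))) :
    ∃ y₀ : Hlc (famS S) (idJSRep S) 2, p • y₀ = 0 ∧
      (HlcMap (MonoidHom.id Γℚ) (idJSToC' S) (famS S).compat_id 2).hom y₀ ≠ 0 :=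
  cwF_exists_class_of_phi p S hp2 hpS h𝕌 h1
    (clsLvl_φ 𝕂 (idCRep S) q hqK hqρ ιL h3 (M := ⊥) h4)
    (clsLvl_φ_injective 𝕂 (idCRep S) q hqK hqρ ιL h3 h6 (M := ⊥) h4)
    (fun a ha => clsLvl_φ_range 𝕂 (idCRep S) q hqK hqρ ιL h3 hqs hinv (M := ⊥) h4 a ha)
    m hm (congrArg Multiplicative.toAdd hb)

/-! ### base ideles through the finite-level maps -/

attribute [local instance] Units.mulDistribMulActionRight slQbUnitsAction

theorem cwF_idLevelHom_baseToIdele {L : Type} [Field L] [NumberField L] (f : L →ₐ[ℚ] Qb)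
    (y : baseIdeleGroup ℚ) : idLevelHom f (baseToIdele ℚ L y) = cwI_base y := by
  funext v
  apply Units.ext
  rw [idLevelHom_apply_val, baseToIdele_apply, cwI_base_apply]
  simp only [Units.coe_map, MonoidHom.coe_coe, cwI_baseLoc]
  exact (slBase v f).commutes _

theorem cwF_idL_iota_baseToIdele (F : IntermediateField ℚ Qb) [NumberField F]
    (y : baseIdeleGroup ℚ) : idL_iota F (baseToIdele ℚ ↥F y) = cwI_base y := by
  funext v
  apply Units.ext
  rw [idL_iota_apply, idL_baseUnits_val, baseToIdele_apply, cwI_base_apply]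
  simp only [Units.coe_map, MonoidHom.coe_coe, cwI_baseLoc]
  exact (slBase v F.val).commutes _

end Fermat.Agent.PT
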