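/-
S55 (C-W), last plug (helper28): helper6's `cwF_exists_class_of_phi` fed with the `(K6)`-ℂ
identification `idLC_φ` at `M = ⊥`, `L = cwL_L1 p`.  Remaining hypotheses: `h𝕌`
(`Hlc²(Γℚ, 𝕌)[p] = 0`) and `h1` (`Hlc¹(U₁, ℂ)[p] = 0`).
-/
import Fermat.Agent.CFT.PT.CWFinal
import Fermat.Agent.CFT.PT.IdeleLevelC

set_option autoImplicit false

namespace Fermat.Agent.PT

open CategoryTheory groupCohomology Rep Fermat.Agent.CFT Fermat.Agent.CFT.S14 IntermediateField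
  NumberField IsDedekindDomain
open scoped Fermat.Agent.CFT.TensorGal Fermat.Agent.CFT.IdeleAct

local notation "Γℚ" => (AlgebraicClosure ℚ ≃ₐ[ℚ] AlgebraicClosure ℚ)
local notation "Qb" => AlgebraicClosure ℚ

attribute [local instance] sUF_isAlgebraicQb sUF_isAlgClosureQb sUF_isGaloisQb sUF_numberField
  sUF_algebra sUF_isScalarTower sUF_isScalarTower' sUF_isGalois sUF_normal_alg'

attribute [local instance] additiveDistribMulAction ideleGroupActionOf ideleClassActionOf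
  idClassCommGroup

variable (p : ℕ) [hp : Fact p.Prime] (S : Finset Nat.Primes)

theorem cwFC_L1_le_QS (hpS : (⟨p, hp.out⟩ : Nat.Primes) ∈ S) : cwL_L1 p ≤ QS S :=
  le_QS_of_isUnramifiedOutside S (cwL_L1_isUnramifiedOutside p S hpS)

/-- **(C-W), concrete, final**: the class `y₀ ∈ Hlc²(Γℚ, J_S)[p]` with nonzero image in
`Hlc²(Γℚ, C')`, from `h𝕌` and `h1` only. -/
theorem cwFC_exists_class (hp2 : p ≠ 2) (hpS : (⟨p, hp.out⟩ : Nat.Primes) ∈ S)
    (h𝕌 : ∀ x : Hlc (famS S) (idURep S) 2, p • x = 0 → x = 0)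
    (h1 : ∀ x : Hlc ((famS S).restrict (cwL_U1 p)) (res (cwL_U1 p).subtype (idCRep S)) 1,
      p • x = 0 → x = 0)
    (m : ℕ) (hm : ¬ p ∣ m) :
    ∃ y₀ : Hlc (famS S) (idJSRep S) 2, p • y₀ = 0 ∧
      (HlcMap (MonoidHom.id Γℚ) (idJSToC' S) (famS S).compat_id 2).hom y₀ ≠ 0 := by
  have hL := cwFC_L1_le_QS p S hpS
  refine cwF_exists_class_of_phi p S hp2 hpS h𝕌 h1
    (idLC_φ (M := (⊥ : IntermediateField ℚ Qb)) (L := cwL_L1 p) hL)
    (idLC_φ_injective hL) (fun a ha => idLC_φ_range hL a ha) m hm ?_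
  rw [idLC_φ_apply_mk, cwI_iota_b]
  refine congrArg _ (Subtype.ext ?_)
  rw [idLC_coe_ι]
  exact cwF_idLevelHom_baseToIdele (ratVal (cwL_L1 p)) (cwI_b0 p m)

end Fermat.Agent.PT
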