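import Fermat.Agent.CFT.PT.CupNat
import Fermat.Agent.CFT.PT.SmoothLES
import Fermat.Prelude.Def_DualSelmer_ExtConditions

/-!
# S55 (P8): the twisted dual `N ↦ N' = N.dualTwist χ = Hom_k(N, k(χ))`

`N.dualTwist χ` is the PRELUDE's `Rep.dualTwist` (so the identification with
`M.dualTwist (cycloChar p)` of the frozen statement is `rfl`), `T := groupCohomology.ofChar χ`
is the prelude's one-dimensional representation `k(χ)`.

* `evalPairing N χ : RepPairing (N.dualTwist χ) N (ofChar χ)` (evaluation), `evalPairingFlip`;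
* `dualTwistMap χ φ : B.dualTwist χ ⟶ A.dualTwist χ` for `φ : A ⟶ B` (transpose), `dualTwistMap_id`,
  `dualTwistMap_comp`, `dualTwistIso`, adjunction formula `dualTwistMap_apply`;
* `dualTwist_shortExact` : short exact sequences go to short exact sequences (reversed);
* `ddHom`, `ddIso : N ≅ (N.dualTwist χ).dualTwist χ` (finite-dimensional `N`);
* perfectness: `evalPairing_left_nondeg`, `evalPairing_right_nondeg`;
* smoothness: `isSmooth_dualTwist`.
-/

set_option autoImplicit false

namespace Fermat.Agent.PT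

open CategoryTheory groupCohomology Rep

universe u

variable {k G : Type u} [Field k] [Group G]

section Basic

variable (N : Rep.{u} k G) (χ : G →* kˣ)

lemma ofChar_ρ_apply (g : G) (x : k) : (ofChar χ).ρ g x = (χ g : k) * x := by
  change ((Representation.trivial k G k).twist χ g) x = _
  rw [Representation.twist_apply_apply]
  simp

lemma ρ_inv_ρ (g : G) (n : N) : N.ρ g⁻¹ (N.ρ g n) = n := by
  have h : N.ρ g⁻¹ * N.ρ g = 1 := by rw [← map_mul, inv_mul_cancel, map_one]
  exact LinearMap.congr_fun h n

lemma ρ_ρ_inv (g : G) (n : N) : N.ρ g (N.ρ g⁻¹ n) = n := by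
  have h : N.ρ g * N.ρ g⁻¹ = 1 := by rw [← map_mul, mul_inv_cancel, map_one]
  exact LinearMap.congr_fun h n

/-- The action on the twisted dual, evaluated. -/
lemma dualTwist_ρ_apply_apply (g : G) (f : Module.Dual k N) (n : N) :
    ((N.dualTwist χ).ρ g f : Module.Dual k N) n = (χ g : k) * f (N.ρ g⁻¹ n) := rfl

/-- The evaluation pairing `N' × N → k(χ)`. -/
noncomputable def evalPairing : RepPairing (N.dualTwist χ) N (ofChar χ) where
  toLin := (LinearMap.id : Module.Dual k N →ₗ[k] Module.Dual k N)
  map_ρ g f n := by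
    rw [ofChar_ρ_apply]
    change ((N.dualTwist χ).ρ g f : Module.Dual k N) (N.ρ g n) = _
    rw [dualTwist_ρ_apply_apply, ρ_inv_ρ]
    rfl

lemma evalPairing_apply (f : Module.Dual k N) (n : N) :
    (evalPairing N χ).toLin f n = f n := rfl

/-- The evaluation pairing `N × N' → k(χ)`. -/
noncomputable def evalPairingFlip : RepPairing N (N.dualTwist χ) (ofChar χ) where
  toLin := (LinearMap.id : Module.Dual k N →ₗ[k] Module.Dual k N).flip
  map_ρ g n f := (evalPairing N χ).map_ρ g f n

lemma evalPairingFlip_apply (n : N) (f : Module.Dual k N) :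
    (evalPairingFlip N χ).toLin n f = f n := rfl

end Basic

section Functor

variable {A B C : Rep.{u} k G} (χ : G →* kˣ)

/-- The transpose `B' ⟶ A'` of a morphism `φ : A ⟶ B`. -/
noncomputable def dualTwistMap (φ : A ⟶ B) : B.dualTwist χ ⟶ A.dualTwist χ :=
  Rep.ofHom ⟨Module.Dual.transpose (R := k) φ.hom.toLinearMap, fun g => by
    refine LinearMap.ext fun f => LinearMap.ext fun a => ?_
    change (χ g : k) * f (B.ρ g⁻¹ (φ.hom a)) = (χ g : k) * f (φ.hom (A.ρ g⁻¹ a))
    rw [Rep.hom_comm_apply]⟩

/-- **Adjunction formula**: `(φ' f)(a) = f (φ a)`. -/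
lemma dualTwistMap_apply (φ : A ⟶ B) (f : Module.Dual k B) (a : A) :
    ((dualTwistMap χ φ).hom f : Module.Dual k A) a = f (φ.hom a) := rfl

lemma evalPairing_dualTwistMap (φ : A ⟶ B) (f : Module.Dual k B) (a : A) :
    (evalPairing A χ).toLin ((dualTwistMap χ φ).hom f) a = (evalPairing B χ).toLin f (φ.hom a) :=
  rfl

@[simp]
lemma dualTwistMap_id : dualTwistMap χ (𝟙 A) = 𝟙 (A.dualTwist χ) := by
  apply Rep.hom_ext
  apply Representation.IntertwiningMap.ext
  rfl

lemma dualTwistMap_comp (φ : A ⟶ B) (ψ : B ⟶ C) :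
    dualTwistMap χ (φ ≫ ψ) = dualTwistMap χ ψ ≫ dualTwistMap χ φ := by
  apply Rep.hom_ext
  apply Representation.IntertwiningMap.ext
  rfl

/-- Isomorphic representations have isomorphic twisted duals. -/
noncomputable def dualTwistIso (e : A ≅ B) : A.dualTwist χ ≅ B.dualTwist χ where
  hom := dualTwistMap χ e.inv
  inv := dualTwistMap χ e.hom
  hom_inv_id := by rw [← dualTwistMap_comp, e.hom_inv_id, dualTwistMap_id]
  inv_hom_id := by rw [← dualTwistMap_comp, e.inv_hom_id, dualTwistMap_id]

lemma dualTwistMap_add (φ ψ : A ⟶ B) :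
    dualTwistMap χ (φ + ψ) = dualTwistMap χ φ + dualTwistMap χ ψ := by
  apply Rep.hom_ext
  apply Representation.IntertwiningMap.ext
  refine LinearMap.ext fun f => LinearMap.ext fun a => ?_
  change f ((φ + ψ).hom a) = f (φ.hom a) + f (ψ.hom a)
  rw [← map_add]
  rfl

lemma dualTwistMap_zero : dualTwistMap χ (0 : A ⟶ B) = 0 := by
  apply Rep.hom_ext
  apply Representation.IntertwiningMap.ext
  refine LinearMap.ext fun f => LinearMap.ext fun a => ?_
  change f ((0 : A ⟶ B).hom a) = 0
  exact map_zero f

end Functor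

section Exact

open ShortComplex

/-- A short complex of representations is short exact as soon as it is so on elements. -/
theorem rep_shortExact_of_elementwise' (Y : ShortComplex (Rep.{u} k G))
    (hinj : Function.Injective Y.f.hom) (hsurj : Function.Surjective Y.g.hom)
    (hex : ∀ a : Y.X₂, Y.g.hom a = 0 → ∃ b : Y.X₁, Y.f.hom b = a) : Y.ShortExact := by
  have hM : Mono Y.f := (Rep.mono_iff_injective Y.f).2 hinj
  have hP : Epi Y.g := (Rep.epi_iff_surjective Y.g).2 hsurj
  have hE : Y.Exact := by
    rw [← ShortComplex.exact_map_iff_of_faithful _ (forget₂ (Rep.{u} k G) (ModuleCat.{u} k)),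
      ShortComplex.moduleCat_exact_iff]
    intro x₂ hx₂
    exact hex x₂ hx₂
  exact { exact := hE, mono_f := hM, epi_g := hP }

variable (χ : G →* kˣ) (X : ShortComplex (Rep.{u} k G))

/-- The twisted dual of a short complex (arrows reversed). -/
noncomputable def dualTwistSC : ShortComplex (Rep.{u} k G) :=
  ShortComplex.mk (dualTwistMap χ X.g) (dualTwistMap χ X.f) (by
    rw [← dualTwistMap_comp, X.zero, dualTwistMap_zero])

variable {X}

/-- The twisted dual is exact: short exact sequences go to short exact sequences. -/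
theorem dualTwistSC_shortExact (hX : X.ShortExact) : (dualTwistSC χ X).ShortExact := by
  have hinj : Function.Injective X.f.hom := (Rep.mono_iff_injective X.f).1 hX.mono_f
  have hsurj : Function.Surjective X.g.hom := (Rep.epi_iff_surjective X.g).1 hX.epi_g
  refine rep_shortExact_of_elementwise' _ ?_ ?_ ?_
  · -- transpose of a surjection is injective
    intro (f : Module.Dual k X.X₃) (f' : Module.Dual k X.X₃) h
    refine LinearMap.ext fun c => ?_
    obtain ⟨b, rfl⟩ := hsurj c
    exact LinearMap.congr_fun h b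
  · -- transpose of an injection is surjective
    intro (f : Module.Dual k X.X₁)
    obtain ⟨r, hr⟩ := LinearMap.exists_leftInverse_of_injective X.f.hom.toLinearMap
      (LinearMap.ker_eq_bot.2 hinj)
    refine ⟨f.comp r, LinearMap.ext fun a => ?_⟩
    change f (r (X.f.hom a)) = f a
    exact congrArg f (LinearMap.congr_fun hr a)
  · -- exactness in the middle
    intro (f : Module.Dual k X.X₂) hf
    obtain ⟨s, hs⟩ := LinearMap.exists_rightInverse_of_surjective X.g.hom.toLinearMap
      (LinearMap.range_eq_top.2 hsurj)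
    refine ⟨f.comp s, LinearMap.ext fun b => ?_⟩
    change f (s (X.g.hom b)) = f b
    have h1 : X.g.hom (s (X.g.hom b) - b) = 0 := by
      rw [map_sub, sub_eq_zero]
      exact LinearMap.congr_fun hs (X.g.hom b)
    obtain ⟨a, ha⟩ := exists_of_shortExact_of_g_eq_zero hX _ h1
    have h2 : f (X.f.hom a) = 0 := LinearMap.congr_fun hf a
    rw [ha, map_sub, sub_eq_zero] at h2
    exact h2

end Exact

section Reflexive

variable (N : Rep.{u} k G) (χ : G →* kˣ)

/-- A morphism of representations which is bijective is an isomorphism. -/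
theorem isIso_of_bijective_hom {A B : Rep.{u} k G} (f : A ⟶ B)
    (h : Function.Bijective f.hom) : IsIso f := by
  have : IsIso ((forget (Rep.{u} k G)).map f) := (isIso_iff_bijective _).2 h
  exact isIso_of_reflects_iso f (forget (Rep.{u} k G))

/-- The canonical map `N ⟶ N''`, `n ↦ (f ↦ f n)`. -/
noncomputable def ddHom : N ⟶ (N.dualTwist χ).dualTwist χ :=
  Rep.ofHom ⟨Module.Dual.eval k N, fun g => by
    refine LinearMap.ext fun n => LinearMap.ext fun f => ?_
    change f (N.ρ g n) =
      (χ g : k) * (((N.dualTwist χ).ρ g⁻¹ f : Module.Dual k N) n)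
    rw [dualTwist_ρ_apply_apply, inv_inv, ← mul_assoc, map_inv, Units.mul_inv, one_mul]⟩

lemma ddHom_apply (n : N) (f : Module.Dual k N) :
    ((ddHom N χ).hom n : Module.Dual k (Module.Dual k N)) f = f n := rfl

lemma ddHom_bijective [FiniteDimensional k N] : Function.Bijective (ddHom N χ).hom :=
  (Module.evalEquiv k N).bijective

/-- `N ≅ N''` for finite-dimensional `N`. -/
noncomputable def ddIso [FiniteDimensional k N] : N ≅ (N.dualTwist χ).dualTwist χ :=
  haveI := isIso_of_bijective_hom (ddHom N χ) (ddHom_bijective N χ)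
  asIso (ddHom N χ)

lemma ddIso_hom [FiniteDimensional k N] : (ddIso N χ).hom = ddHom N χ := rfl

/-- Perfectness of the evaluation pairing, left. -/
lemma evalPairing_left_nondeg (f : Module.Dual k N)
    (h : ∀ n : N, (evalPairing N χ).toLin f n = 0) : f = 0 :=
  LinearMap.ext h

/-- Perfectness of the evaluation pairing, right. -/
lemma evalPairing_right_nondeg (n : N)
    (h : ∀ f : Module.Dual k N, (evalPairing N χ).toLin f n = 0) : n = 0 :=
  (Module.forall_dual_apply_eq_zero_iff k n).1 h

instance finiteDimensional_dualTwist [FiniteDimensional k N] :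
    FiniteDimensional k (N.dualTwist χ) :=
  inferInstanceAs (FiniteDimensional k (Module.Dual k N))

end Reflexive

section Smooth

variable (𝔉 : LevelFamily G) (N : Rep.{u} k G) (χ : G →* kˣ)

/-- If a member of the family acts trivially on `N` and `χ` is trivial on it, it acts trivially
on `N'`. -/
lemma dualTwist_ρ_eq_self_of_trivial {u : G} (hu : ∀ n : N, N.ρ u n = n) (hχ : χ u = 1)
    (f : Module.Dual k N) : (N.dualTwist χ).ρ u f = f := by
  refine LinearMap.ext fun n => ?_
  rw [dualTwist_ρ_apply_apply, hχ, Units.val_one, one_mul]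
  have h := hu (N.ρ u⁻¹ n)
  rw [ρ_ρ_inv] at h
  rw [← h]

/-- The twisted dual of a finite-dimensional smooth representation is smooth, as soon as `χ` is
trivial on some member of the family. -/
theorem isSmooth_dualTwist [FiniteDimensional k N] (hN : IsSmooth 𝔉 N)
    (hχ : ∃ U ∈ 𝔉.sets, ∀ u ∈ U, χ u = 1) : IsSmooth 𝔉 (N.dualTwist χ) := by
  classical
  obtain ⟨U₀, hU₀, hχU₀⟩ := hχ
  let b := Module.finBasis k N
  choose U hU hUb using fun i => hN (b i)
  obtain ⟨W, hW, hWU⟩ := exists_le_of_finset 𝔉.nonempty 𝔉.directed Finset.univ U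
    fun i _ => hU i
  obtain ⟨W', hW', hle⟩ := 𝔉.directed W hW U₀ hU₀
  intro f
  refine ⟨W', hW', fun u hu => ?_⟩
  have h1 : ∀ n : N, N.ρ u n = n := by
    have h2 : N.ρ u = LinearMap.id := by
      refine b.ext fun i => ?_
      exact hUb i u (hWU i (Finset.mem_univ i) (hle hu).1)
    intro n
    rw [h2]
    rfl
  exact dualTwist_ρ_eq_self_of_trivial N χ h1 (hχU₀ u (hle hu).2) f

end Smooth

section Res

variable {H : Type u} [Group H] (ψ : H →* G) (N : Rep.{u} k G) (χ : G →* kˣ)

/-- Restriction commutes with the twisted dual: equality of the representations (on the same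
underlying space `Module.Dual k N`). -/
lemma res_dualTwist_ρ_apply (h : H) (f : Module.Dual k N) :
    (res ψ (N.dualTwist χ)).ρ h f = ((res ψ N).dualTwist (χ.comp ψ)).ρ h f := by
  refine LinearMap.ext fun n => ?_
  change (χ (ψ h) : k) * f (N.ρ (ψ h)⁻¹ n) = (χ (ψ h) : k) * f (N.ρ (ψ h⁻¹) n)
  rw [map_inv ψ h]

/-- Restriction commutes with the twisted dual (the underlying map is the identity). -/
noncomputable def resDualTwistIso :
    res ψ (N.dualTwist χ) ≅ (res ψ N).dualTwist (χ.comp ψ) where
  hom := Rep.ofHom ⟨(LinearMap.id : Module.Dual k N →ₗ[k] Module.Dual k N), fun h =>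
    LinearMap.ext fun f => (res_dualTwist_ρ_apply ψ N χ h f)⟩
  inv := Rep.ofHom ⟨(LinearMap.id : Module.Dual k N →ₗ[k] Module.Dual k N), fun h =>
    LinearMap.ext fun f => (res_dualTwist_ρ_apply ψ N χ h f).symm⟩
  hom_inv_id := by
    apply Rep.hom_ext
    apply Representation.IntertwiningMap.ext
    rfl
  inv_hom_id := by
    apply Rep.hom_ext
    apply Representation.IntertwiningMap.ext
    rfl

lemma resDualTwistIso_hom_apply (f : Module.Dual k N) :
    ((resDualTwistIso ψ N χ).hom.hom f : Module.Dual k N) = f := rfl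

lemma resDualTwistIso_inv_apply (f : Module.Dual k N) :
    ((resDualTwistIso ψ N χ).inv.hom f : Module.Dual k N) = f := rfl

/-- Restriction of `k(χ)` (definitionally). -/
lemma res_ofChar : res ψ (ofChar χ) = ofChar (χ.comp ψ) := rfl

end Res

end Fermat.Agent.PT
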