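import Mathlib
import Fermat.Agent.CFT.PT.SmoothLES
import Fermat.Agent.CFT.PT.SmoothCor
import Fermat.Agent.CFT.PT.SmoothShapiro
import Fermat.Agent.CFT.PT.SmoothLift

set_option autoImplicit false

/-!
# S55 engine, (P11) = (R7): local duality in degree 2, dimension form

For a group `G` with a level family `𝔉` of finite index, a field `k` and a one-dimensional smooth
representation `T`, assume `Hlc³` vanishes on finite-dimensional smooth representations and
`Hlc²(V, T)` is one-dimensional for `V ∈ 𝔉` and for `G`.  Then for every finite-dimensional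
smooth `N` the natural map
`θ_N : Hlc²(G, N) → Hom_k(Hom_G(N, T), Hlc²(G, T))`, `x ↦ (φ ↦ φ_* x)`
is bijective; in particular `dim Hlc²(G, N) = dim Hom_G(N, T)`.
-/

namespace Fermat.Agent.PT

open CategoryTheory groupCohomology Rep

universe u

/-! ### Linear algebra -/

section LinAlg

variable {K : Type*} [Field K] {X Y W : Type*} [AddCommGroup X] [Module K X] [AddCommGroup Y]
  [Module K Y] [AddCommGroup W] [Module K W]

/-- a linear map vanishing on the kernel of `a` factors through `a` (vector spaces). -/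
theorem locD2_exists_comp_eq (a : X →ₗ[K] Y) (ℓ : X →ₗ[K] W)
    (h : LinearMap.ker a ≤ LinearMap.ker ℓ) : ∃ χ : Y →ₗ[K] W, χ ∘ₗ a = ℓ := by
  obtain ⟨g, hg⟩ := LinearMap.exists_extend
    (((LinearMap.ker a).liftQ ℓ h) ∘ₗ (a.quotKerEquivRange.symm : LinearMap.range a →ₗ[K] _))
  refine ⟨g, ?_⟩
  ext x
  have h1 := congrArg (fun f => f (⟨a x, LinearMap.mem_range_self a x⟩ : LinearMap.range a)) hg
  simp only [LinearMap.comp_apply, Submodule.subtype_apply] at h1
  rw [LinearMap.comp_apply, h1]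
  have h2 : a.quotKerEquivRange.symm ⟨a x, LinearMap.mem_range_self a x⟩ =
      Submodule.Quotient.mk x := by
    rw [LinearEquiv.symm_apply_eq]
    rfl
  erw [h2]
  rfl

/-- an injective linear map has a linear retraction (vector spaces). -/
theorem locD2_exists_comp_eq_of_injective (a : X →ₗ[K] Y) (ha : Function.Injective a)
    (ℓ : X →ₗ[K] W) : ∃ χ : Y →ₗ[K] W, χ ∘ₗ a = ℓ :=
  locD2_exists_comp_eq a ℓ (by rw [LinearMap.ker_eq_bot.mpr ha]; exact bot_le)

end LinAlg

section Compare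

variable {K : Type*} [Field K] {FK FP FN EK EP EN : Type*}
  [AddCommGroup FK] [Module K FK] [AddCommGroup FP] [Module K FP] [AddCommGroup FN] [Module K FN]
  [AddCommGroup EK] [Module K EK] [AddCommGroup EP] [Module K EP] [AddCommGroup EN] [Module K EN]

/-- surjectivity step of the comparison of two right exact functors. -/
theorem locD2_compare_surjective (Fπ : FP →ₗ[K] FN) (Eπ : EP →ₗ[K] EN)
    (θP : FP →ₗ[K] EP) (θN : FN →ₗ[K] EN)
    (hπ : ∀ y, θN (Fπ y) = Eπ (θP y)) (hEπ : Function.Surjective Eπ)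
    (hθP : Function.Surjective θP) : Function.Surjective θN := by
  intro z
  obtain ⟨w, rfl⟩ := hEπ z
  obtain ⟨y, rfl⟩ := hθP w
  exact ⟨Fπ y, hπ y⟩

/-- injectivity step of the comparison of two right exact functors. -/
theorem locD2_compare_injective (Fι : FK →ₗ[K] FP) (Fπ : FP →ₗ[K] FN) (Eι : EK →ₗ[K] EP)
    (Eπ : EP →ₗ[K] EN) (θK : FK →ₗ[K] EK) (θP : FP →ₗ[K] EP) (θN : FN →ₗ[K] EN)
    (hι : ∀ w, θP (Fι w) = Eι (θK w)) (hπ : ∀ y, θN (Fπ y) = Eπ (θP y))
    (hF0 : ∀ w, Fπ (Fι w) = 0) (hFπ : Function.Surjective Fπ)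
    (hE : ∀ y, Eπ y = 0 → ∃ z, Eι z = y)
    (hθK : Function.Surjective θK) (hθP : Function.Injective θP) : Function.Injective θN := by
  rw [injective_iff_map_eq_zero]
  intro x hx
  obtain ⟨y, rfl⟩ := hFπ x
  rw [hπ] at hx
  obtain ⟨z, hz⟩ := hE _ hx
  obtain ⟨w, rfl⟩ := hθK z
  rw [← hι] at hz
  rw [← hθP hz, hF0]

end Compare

/-! ### The functor `N ↦ Hlc²(G, N)` on coefficients and the comparison map `θ` -/

section Functor

variable {k G : Type u} [Field k] [Group G] (𝔉 : LevelFamily G)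

/-- the map induced on `Hlc²` by a morphism of coefficients. -/
noncomputable def locD2_F {A B : Rep.{u} k G} (φ : A ⟶ B) : Hlc 𝔉 A 2 →ₗ[k] Hlc 𝔉 B 2 :=
  (HlcMap (MonoidHom.id G) φ 𝔉.compat_id 2).hom

theorem locD2_F_lcπ {A B : Rep.{u} k G} (φ : A ⟶ B) (c : lcCocycles 𝔉 A 2) :
    locD2_F 𝔉 φ (lcπ 𝔉 A 2 c) =
      lcπ 𝔉 B 2 ⟨((cochainsMap (MonoidHom.id G) φ).f 2).hom c.1,
        cochainsMap_mem_lcCocycles (MonoidHom.id G) φ 𝔉.compat_id c.2⟩ :=
  HlcMap_lcπ (MonoidHom.id G) φ 𝔉.compat_id 2 c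

theorem locD2_F_id (A : Rep.{u} k G) (x : Hlc 𝔉 A 2) : locD2_F 𝔉 (𝟙 A) x = x := by
  unfold locD2_F
  rw [HlcMap_id_id]
  rfl

theorem locD2_F_comp {A B C : Rep.{u} k G} (φ : A ⟶ B) (ψ : B ⟶ C) (x : Hlc 𝔉 A 2) :
    locD2_F 𝔉 (φ ≫ ψ) x = locD2_F 𝔉 ψ (locD2_F 𝔉 φ x) := by
  unfold locD2_F
  rw [HlcMap_id_comp]
  rfl

theorem locD2_F_add {A B : Rep.{u} k G} (φ ψ : A ⟶ B) (x : Hlc 𝔉 A 2) :
    locD2_F 𝔉 (φ + ψ) x = locD2_F 𝔉 φ x + locD2_F 𝔉 ψ x := by
  obtain ⟨c, rfl⟩ := lcπ_surjective 𝔉 A 2 x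
  rw [locD2_F_lcπ, locD2_F_lcπ, locD2_F_lcπ, ← map_add]
  congr 1

theorem locD2_F_smul {A B : Rep.{u} k G} (a : k) (φ : A ⟶ B) (x : Hlc 𝔉 A 2) :
    locD2_F 𝔉 (a • φ) x = a • locD2_F 𝔉 φ x := by
  obtain ⟨c, rfl⟩ := lcπ_surjective 𝔉 A 2 x
  rw [locD2_F_lcπ, locD2_F_lcπ, ← map_smul]
  congr 1

theorem locD2_F_zero {A B : Rep.{u} k G} (x : Hlc 𝔉 A 2) :
    locD2_F 𝔉 (0 : A ⟶ B) x = 0 := by
  have h := locD2_F_smul 𝔉 (0 : k) (0 : A ⟶ B) x
  rwa [zero_smul, zero_smul] at h

theorem locD2_F_sum {A B : Rep.{u} k G} {ι : Type*} (s : Finset ι) (φ : ι → (A ⟶ B))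
    (x : Hlc 𝔉 A 2) :
    locD2_F 𝔉 (∑ i ∈ s, φ i) x = ∑ i ∈ s, locD2_F 𝔉 (φ i) x := by
  classical
  induction s using Finset.induction_on with
  | empty => simp [locD2_F_zero]
  | insert a s ha ih => rw [Finset.sum_insert ha, Finset.sum_insert ha, locD2_F_add, ih]

variable (T : Rep.{u} k G)

/-- the comparison map `θ_N : Hlc²(N) → Hom_k(Hom_G(N, T), Hlc²(T))`. -/
noncomputable def locD2_theta (N : Rep.{u} k G) :
    Hlc 𝔉 N 2 →ₗ[k] ((N ⟶ T) →ₗ[k] Hlc 𝔉 T 2) where
  toFun x :=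
    { toFun := fun φ => locD2_F 𝔉 φ x
      map_add' := fun φ ψ => locD2_F_add 𝔉 φ ψ x
      map_smul' := fun a φ => locD2_F_smul 𝔉 a φ x }
  map_add' x y := by
    ext φ
    exact map_add (locD2_F 𝔉 φ) x y
  map_smul' a x := by
    ext φ
    exact map_smul (locD2_F 𝔉 φ) a x

theorem locD2_theta_apply (N : Rep.{u} k G) (x : Hlc 𝔉 N 2) (φ : N ⟶ T) :
    locD2_theta 𝔉 T N x φ = locD2_F 𝔉 φ x := rfl

/-- precomposition `Hom_G(B, T) → Hom_G(A, T)`. -/
noncomputable def locD2_pre {A B : Rep.{u} k G} (ψ : A ⟶ B) : (B ⟶ T) →ₗ[k] (A ⟶ T) where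
  toFun φ := ψ ≫ φ
  map_add' φ φ' := Preadditive.comp_add _ _ _ ψ φ φ'
  map_smul' a φ := Linear.comp_smul _ _ _ ψ a φ

theorem locD2_pre_apply {A B : Rep.{u} k G} (ψ : A ⟶ B) (φ : B ⟶ T) :
    locD2_pre T ψ φ = ψ ≫ φ := rfl

/-- the functor `E(N) = Hom_k(Hom_G(N, T), W)` on morphisms. -/
noncomputable def locD2_E {A B : Rep.{u} k G} (ψ : A ⟶ B) :
    ((A ⟶ T) →ₗ[k] Hlc 𝔉 T 2) →ₗ[k] ((B ⟶ T) →ₗ[k] Hlc 𝔉 T 2) where
  toFun ℓ := ℓ ∘ₗ locD2_pre T ψ
  map_add' _ _ := LinearMap.add_comp _ _ _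
  map_smul' _ _ := LinearMap.smul_comp _ _ _

theorem locD2_E_apply {A B : Rep.{u} k G} (ψ : A ⟶ B) (ℓ : (A ⟶ T) →ₗ[k] Hlc 𝔉 T 2)
    (φ : B ⟶ T) : locD2_E 𝔉 T ψ ℓ φ = ℓ (ψ ≫ φ) := rfl

/-- naturality of `θ`. -/
theorem locD2_theta_natural {A B : Rep.{u} k G} (ψ : A ⟶ B) (x : Hlc 𝔉 A 2) :
    locD2_theta 𝔉 T B (locD2_F 𝔉 ψ x) = locD2_E 𝔉 T ψ (locD2_theta 𝔉 T A x) := by
  ext φ
  rw [locD2_theta_apply, locD2_E_apply, locD2_theta_apply, locD2_F_comp]

end Functor

/-! ### Right exactness of both sides -/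

section Exact

variable {k G : Type u} [Field k] [Group G] {𝔉 : LevelFamily G} (T : Rep.{u} k G)
  {X : ShortComplex (Rep.{u} k G)}

theorem locD2_F_g_surjective (hfin : 𝔉.FiniteIndex) (hX : X.ShortExact)
    (hsm : IsSmooth 𝔉 X.X₂) (h3 : ∀ x : Hlc 𝔉 X.X₁ 3, x = 0) :
    Function.Surjective (locD2_F 𝔉 X.g) := by
  intro x
  exact exists_lcH₂₃_eq hfin hX hsm 2 3 rfl x (h3 _)

theorem locD2_F_g_f (w : Hlc 𝔉 X.X₁ 2) : locD2_F 𝔉 X.g (locD2_F 𝔉 X.f w) = 0 :=
  lcH₁₂_lcH₂₃_apply 2 w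

theorem locD2_pre_g_injective (hX : X.ShortExact) :
    Function.Injective (locD2_pre T X.g) := by
  intro φ φ' h
  have := hX.epi_g
  exact (cancel_epi X.g).mp h

theorem locD2_E_g_surjective (hX : X.ShortExact) :
    Function.Surjective (locD2_E 𝔉 T X.g) := by
  intro ℓ
  obtain ⟨χ, hχ⟩ := locD2_exists_comp_eq_of_injective (locD2_pre T X.g)
    (locD2_pre_g_injective T hX) ℓ
  exact ⟨χ, hχ⟩

theorem locD2_E_exact (hX : X.ShortExact) (y : (X.X₂ ⟶ T) →ₗ[k] Hlc 𝔉 T 2)
    (hy : locD2_E 𝔉 T X.g y = 0) : ∃ z, locD2_E 𝔉 T X.f z = y := by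
  have := hX.epi_g
  refine locD2_exists_comp_eq (locD2_pre T X.f) y ?_
  intro φ hφ
  rw [LinearMap.mem_ker, locD2_pre_apply] at hφ
  rw [LinearMap.mem_ker]
  have h1 : X.g ≫ hX.exact.desc φ hφ = φ := hX.exact.g_desc φ hφ
  rw [← h1]
  have h2 := congrArg (fun ℓ => ℓ (hX.exact.desc φ hφ)) hy
  simpa [locD2_E_apply] using h2

end Exact

/-! ### Finite decompositions -/

section Decomp

variable {k G : Type u} [Field k] [Group G] (𝔉 : LevelFamily G) (T : Rep.{u} k G)

/-- if `P` is a "finite sum of copies of `A`" (`∑ⱼ pⱼ ≫ iⱼ = 𝟙 P`) and `θ_A` is bijective, so is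
`θ_P`. -/
theorem locD2_theta_bijective_of_decomp {A P : Rep.{u} k G} {ι : Type*} [Fintype ι]
    (i : ι → (A ⟶ P)) (p : ι → (P ⟶ A)) (hsum : ∑ j, p j ≫ i j = 𝟙 P)
    (hA : Function.Bijective (locD2_theta 𝔉 T A)) :
    Function.Bijective (locD2_theta 𝔉 T P) := by
  have hF : ∀ x : Hlc 𝔉 P 2, x = ∑ j, locD2_F 𝔉 (i j) (locD2_F 𝔉 (p j) x) := by
    intro x
    conv_lhs => rw [← locD2_F_id 𝔉 P x, ← hsum, locD2_F_sum]
    exact Finset.sum_congr rfl fun j _ => locD2_F_comp 𝔉 _ _ x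
  constructor
  · rw [injective_iff_map_eq_zero]
    intro x hx
    rw [hF x]
    refine Finset.sum_eq_zero fun j _ => ?_
    have h1 : locD2_theta 𝔉 T A (locD2_F 𝔉 (p j) x) = 0 := by
      rw [locD2_theta_natural, hx, map_zero]
    rw [hA.1 (h1.trans (map_zero _).symm), map_zero]
  · intro y
    choose a ha using fun j => hA.2 (locD2_E 𝔉 T (p j) y)
    refine ⟨∑ j, locD2_F 𝔉 (i j) (a j), ?_⟩
    rw [map_sum]
    ext φ
    rw [LinearMap.sum_apply]
    have h2 : ∀ j, locD2_theta 𝔉 T P (locD2_F 𝔉 (i j) (a j)) φ = y (p j ≫ i j ≫ φ) := by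
      intro j
      rw [locD2_theta_natural, ha j, locD2_E_apply, locD2_E_apply]
    rw [Finset.sum_congr rfl fun j _ => h2 j, ← map_sum]
    congr 1
    calc ∑ j, p j ≫ i j ≫ φ = (∑ j, p j ≫ i j) ≫ φ := by
          rw [Preadditive.sum_comp]
          exact Finset.sum_congr rfl fun j _ => (Category.assoc _ _ _).symm
      _ = φ := by rw [hsum, Category.id_comp]

end Decomp

/-! ### Representation-theoretic preliminaries -/

section RepPrelim

open Limits

variable {k G : Type u} [Field k] [Group G]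

/-- a linear map between representations on which `V` acts trivially, as a morphism of
`V`-representations. -/
noncomputable def locD2_trivHom (V : Subgroup G) {M M' : Rep.{u} k G}
    (hM : ∀ v ∈ V, M.ρ v = 1) (hM' : ∀ v ∈ V, M'.ρ v = 1) (f : M.V →ₗ[k] M'.V) :
    res V.subtype M ⟶ res V.subtype M' :=
  (Rep.homLinearEquiv _ _).symm
    { toLinearMap := f
      isIntertwining' := by
        intro v
        ext m
        show f ((M.ρ (V.subtype v)) m) = (M'.ρ (V.subtype v)) (f m)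
        have h1 : M.ρ (V.subtype v) = 1 := hM v.1 v.2
        have h2 : M'.ρ (V.subtype v) = 1 := hM' v.1 v.2
        rw [h1, h2]
        rfl }

/-- `Coind_V Res_V N` is a finite sum of copies of `Coind_V Res_V T` when `V` acts trivially on
`N` and on the one-dimensional `T`. -/
theorem locD2_exists_decomp (V : Subgroup G) {N T : Rep.{u} k G} [Module.Finite k N.V]
    (hN : ∀ v ∈ V, N.ρ v = 1) (hT : ∀ v ∈ V, T.ρ v = 1) (hT1 : Module.finrank k T.V = 1) :
    ∃ (n : ℕ)
      (i : Fin n → (coind V.subtype (res V.subtype T) ⟶ coind V.subtype (res V.subtype N)))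
      (p : Fin n → (coind V.subtype (res V.subtype N) ⟶ coind V.subtype (res V.subtype T))),
      ∑ j, p j ≫ i j = 𝟙 _ := by
  classical
  let b₀ : Module.Basis Unit k T.V := Module.basisUnique Unit hT1
  let bN := Module.finBasis k N.V
  let ιl : Fin (Module.finrank k N.V) → (T.V →ₗ[k] N.V) := fun j =>
    (b₀.coord ()).smulRight (bN j)
  let πl : Fin (Module.finrank k N.V) → (N.V →ₗ[k] T.V) := fun j =>
    (bN.coord j).smulRight (b₀ ())
  have hsum : ∀ m : N.V, ∑ j, ιl j (πl j m) = m := by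
    intro m
    have h1 : ∀ j, ιl j (πl j m) = bN.repr m j • bN j := by
      intro j
      simp only [ιl, πl, LinearMap.smulRight_apply, map_smul, Module.Basis.coord_apply,
        Module.Basis.repr_self, Finsupp.single_eq_same, one_smul]
    rw [Finset.sum_congr rfl fun j _ => h1 j]
    exact bN.sum_repr m
  refine ⟨_, fun j => coindMap V.subtype (locD2_trivHom V hT hN (ιl j)),
    fun j => coindMap V.subtype (locD2_trivHom V hN hT (πl j)), ?_⟩
  apply Rep.hom_ext
  rw [Rep.sum_hom]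
  ext x g
  have key : ∀ (s : Finset (Fin (Module.finrank k N.V))),
      ((∑ i ∈ s, Hom.hom ((coindMap V.subtype (locD2_trivHom V hN hT (πl i))) ≫
        (coindMap V.subtype (locD2_trivHom V hT hN (ιl i))))).toLinearMap x).1 g =
        ∑ i ∈ s, ιl i (πl i (x.1 g)) := by
    intro s
    induction s using Finset.induction_on with
    | empty => simp
    | insert a s ha ih =>
      rw [Finset.sum_insert ha, Finset.sum_insert ha, ← ih]
      rfl
  exact (key Finset.univ).trans (hsum (x.1 g))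

/-- coinduction from a subgroup of finite index preserves finite dimensionality. -/
theorem locD2_coind_finite (V : Subgroup G) [V.FiniteIndex] (B : Rep.{u} k V)
    [Module.Finite k B.V] : Module.Finite k (coind V.subtype B).V := by
  classical
  have : Finite (G ⧸ V) := Subgroup.finite_quotient_of_finiteIndex
  let r : (B.ρ.coindV V.subtype) →ₗ[k] ((G ⧸ V) → B.V) :=
    { toFun := fun f q => f.1 (q.out)⁻¹
      map_add' := fun f f' => rfl
      map_smul' := fun a f => rfl }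
  have hr : Function.Injective r := by
    rw [injective_iff_map_eq_zero]
    intro f hf
    apply Subtype.ext
    funext g
    obtain ⟨v, hv⟩ := QuotientGroup.mk_out_eq_mul V g⁻¹
    have h1 : f.1 ((QuotientGroup.mk g⁻¹ : G ⧸ V).out)⁻¹ = 0 := congrFun hf _
    have h2 : g = V.subtype v * ((QuotientGroup.mk g⁻¹ : G ⧸ V).out)⁻¹ := by
      rw [hv]
      simp
    have h3 := f.2 v ((QuotientGroup.mk g⁻¹ : G ⧸ V).out)⁻¹
    rw [← h2, h1, map_zero] at h3
    exact h3
  exact Module.Finite.of_injective r hr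

/-- `Hom_G(A, B)` embeds linearly into `Hom_k(A, B)`. -/
noncomputable def locD2_homToLin (A B : Rep.{u} k G) : (A ⟶ B) →ₗ[k] (A.V →ₗ[k] B.V) where
  toFun f := f.hom.toLinearMap
  map_add' _ _ := rfl
  map_smul' _ _ := rfl

theorem locD2_homToLin_injective (A B : Rep.{u} k G) :
    Function.Injective (locD2_homToLin A B) := by
  intro f g h
  apply Rep.hom_ext
  ext x
  exact congrArg (fun l => l x) h

/-- `Hom_G(A, B)` is finite-dimensional when `A` and `B` are. -/
theorem locD2_hom_finite (A B : Rep.{u} k G) [Module.Finite k A.V] [Module.Finite k B.V] :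
    Module.Finite k (A ⟶ B) :=
  Module.Finite.of_injective (locD2_homToLin A B) (locD2_homToLin_injective A B)

/-- Frobenius reciprocity as a linear injection. -/
noncomputable def locD2_frobLin (V : Subgroup G) [V.FiniteIndex] (B : Rep.{u} k V)
    (M : Rep.{u} k G) : (coind V.subtype B ⟶ M) →ₗ[k] (B ⟶ res V.subtype M) := by
  classical
  exact
  { toFun := fun f => (coindResAdjunction k V).homEquiv B M f
    map_add' := fun f g => by
      rw [Adjunction.homEquiv_apply, Adjunction.homEquiv_apply, Adjunction.homEquiv_apply,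
        Functor.map_add, Preadditive.comp_add]
    map_smul' := fun a f => by
      rw [Adjunction.homEquiv_apply, Adjunction.homEquiv_apply, Functor.map_smul,
        Linear.comp_smul]
      rfl }

theorem locD2_frobLin_injective (V : Subgroup G) [V.FiniteIndex] (B : Rep.{u} k V)
    (M : Rep.{u} k G) : Function.Injective (locD2_frobLin V B M) := by
  classical
  intro f g h
  exact ((coindResAdjunction k V).homEquiv B M).injective h

/-- the short complex `ker ε → P → N` of a morphism `ε`. -/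
noncomputable def locD2_kerSC {P N : Rep.{u} k G} (ε : P ⟶ N) :
    ShortComplex (Rep.{u} k G) :=
  ShortComplex.mk (kernel.ι ε) ε (kernel.condition ε)

theorem locD2_kerSC_shortExact {P N : Rep.{u} k G} (ε : P ⟶ N) [Epi ε] :
    (locD2_kerSC ε).ShortExact where
  exact := ShortComplex.exact_of_f_is_kernel _ (kernelIsKernel ε)
  mono_f := inferInstanceAs (Mono (kernel.ι ε))
  epi_g := inferInstanceAs (Epi ε)

/-- a finite-dimensional smooth representation is fixed pointwise by a member of the family. -/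
theorem locD2_exists_level (𝔉 : LevelFamily G) (N : Rep.{u} k G) [Module.Finite k N.V]
    (hN : IsSmooth 𝔉 N) : ∃ V ∈ 𝔉.sets, ∀ v ∈ V, N.ρ v = 1 := by
  classical
  obtain ⟨s, hs⟩ := (Module.Finite.fg_top : (⊤ : Submodule k N.V).FG)
  choose U hU hUa using hN
  obtain ⟨W, hW, hWle⟩ := exists_le_of_finset 𝔉.nonempty 𝔉.directed s U (fun a _ => hU a)
  refine ⟨W, hW, fun v hv => ?_⟩
  apply LinearMap.ext_on_range (v := fun a : s => (a : N.V))
  · rw [Subtype.range_coe_subtype]
    exact hs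
  · intro a
    exact hUa a v (hWle a a.2 hv)

end RepPrelim

/-! ### The main theorem -/

section Main

open Limits

variable {k G : Type u} [Field k] [Group G] {𝔉 : LevelFamily G}

/-- the kernel of a morphism from a finite-dimensional smooth representation is
finite-dimensional and smooth. -/
theorem locD2_kernel_finite_smooth {P N : Rep.{u} k G} (ε : P ⟶ N) [Module.Finite k P.V]
    (hP : IsSmooth 𝔉 P) :
    Module.Finite k (kernel ε).V ∧ IsSmooth 𝔉 (kernel ε) := by
  have hinj : Function.Injective (kernel.ι ε).hom :=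
    (Rep.mono_iff_injective (kernel.ι ε)).mp inferInstance
  exact ⟨Module.Finite.of_injective (kernel.ι ε).hom.toLinearMap hinj,
    IsSmooth.of_injective (kernel.ι ε) hinj hP⟩

variable (hfin : 𝔉.FiniteIndex) (T : Rep.{u} k G) (hT : IsSmooth 𝔉 T)
  (hT1 : Module.finrank k T.V = 1)
  (h3 : ∀ N : Rep.{u} k G, Module.Finite k N.V → IsSmooth 𝔉 N → ∀ x : Hlc 𝔉 N 3, x = 0)
  (hL2G : Module.finrank k (Hlc 𝔉 T 2) = 1)

include hfin hT hT1 h3 hL2G in
/-- `θ` is bijective on `Coind_V Res_V T`. -/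
theorem locD2_theta_bijective_coind (V : Subgroup G) (hV : V ∈ 𝔉.sets)
    (hL2V : Module.finrank k (Hlc (𝔉.restrict V) (res V.subtype T) 2) = 1) :
    Function.Bijective (locD2_theta 𝔉 T (coind V.subtype (res V.subtype T))) := by
  classical
  haveI : V.FiniteIndex := hfin V hV
  haveI finT : Module.Finite k T.V := Module.finite_of_finrank_pos (by rw [hT1]; exact one_pos)
  haveI finB : Module.Finite k (res V.subtype T).V := finT
  have hB₀ : IsSmooth (𝔉.restrict V) (res V.subtype T) := hT.res_subtype V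
  have hsmA : IsSmooth 𝔉 (coind V.subtype (res V.subtype T)) :=
    isSmooth_coind hfin (isOpenFor_of_mem hV) hB₀
  haveI finA : Module.Finite k (coind V.subtype (res V.subtype T)).V :=
    locD2_coind_finite V _
  -- dimension of the source
  have dimFA : Module.finrank k (Hlc 𝔉 (coind V.subtype (res V.subtype T)) 2) = 1 := by
    rw [← hL2V]
    exact (shapEquiv hfin (isOpenFor_of_mem hV) (res V.subtype T) hB₀ 2).finrank_eq
  haveI finFA : Module.Finite k (Hlc 𝔉 (coind V.subtype (res V.subtype T)) 2) :=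
    Module.finite_of_finrank_pos (by rw [dimFA]; exact one_pos)
  haveI finFT : Module.Finite k (Hlc 𝔉 T 2) :=
    Module.finite_of_finrank_pos (by rw [hL2G]; exact one_pos)
  -- the counit and its kernel
  let ε : coind V.subtype (res V.subtype T) ⟶ T := (coindResAdjunction k V).counit.app T
  haveI : Epi ε := inferInstanceAs (Epi ((coindResAdjunction k V).counit.app T))
  have hX := locD2_kerSC_shortExact ε
  obtain ⟨finK, smK⟩ := locD2_kernel_finite_smooth (𝔉 := 𝔉) ε hsmA
  have hFε : Function.Surjective (locD2_F 𝔉 ε) :=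
    locD2_F_g_surjective (X := locD2_kerSC ε) hfin hX hsmA (h3 _ finK smK)
  -- `θ` is nonzero
  haveI : Nontrivial (Hlc 𝔉 T 2) := Module.nontrivial_of_finrank_pos (R := k)
    (by rw [hL2G]; exact one_pos)
  obtain ⟨y, hy⟩ := exists_ne (0 : Hlc 𝔉 T 2)
  obtain ⟨x, hx⟩ := hFε y
  have hθx : locD2_theta 𝔉 T _ x ≠ 0 := by
    intro h0
    apply hy
    have := congrArg (fun ℓ => ℓ ε) h0
    simpa [locD2_theta_apply, hx] using this
  have hx0 : x ≠ 0 := by
    rintro rfl
    exact hθx (map_zero _)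
  -- injectivity
  have hinj : Function.Injective (locD2_theta 𝔉 T (coind V.subtype (res V.subtype T))) := by
    rw [injective_iff_map_eq_zero]
    intro w hw
    obtain ⟨c, rfl⟩ := (finrank_eq_one_iff_of_nonzero' x hx0).mp dimFA w
    rw [map_smul, smul_eq_zero] at hw
    rcases hw with hc | h0
    · rw [hc, zero_smul]
    · exact absurd h0 hθx
  -- dimension of the target
  haveI finHom : Module.Finite k (coind V.subtype (res V.subtype T) ⟶ T) :=
    locD2_hom_finite _ _
  have dimHom : Module.finrank k (coind V.subtype (res V.subtype T) ⟶ T) ≤ 1 := by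
    have h1 := LinearMap.finrank_le_finrank_of_injective
      (f := (locD2_homToLin (res V.subtype T) (res V.subtype T)) ∘ₗ
        (locD2_frobLin V (res V.subtype T) T))
      ((locD2_homToLin_injective _ _).comp (locD2_frobLin_injective V _ T))
    have h2 : Module.finrank k ((res V.subtype T).V →ₗ[k] (res V.subtype T).V) = 1 := by
      rw [Module.finrank_linearMap]
      show Module.finrank k T.V * Module.finrank k T.V = 1
      rw [hT1]
    rwa [h2] at h1
  have dimE : Module.finrank k ((coind V.subtype (res V.subtype T) ⟶ T) →ₗ[k] Hlc 𝔉 T 2) ≤ 1 := by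
    rw [Module.finrank_linearMap, hL2G, mul_one]
    exact dimHom
  have dimE' : Module.finrank k ((coind V.subtype (res V.subtype T) ⟶ T) →ₗ[k] Hlc 𝔉 T 2) = 1 := by
    refine le_antisymm dimE ?_
    have := LinearMap.finrank_le_finrank_of_injective hinj
    rwa [dimFA] at this
  exact ⟨hinj, (LinearMap.injective_iff_surjective_of_finrank_eq_finrank
    (dimFA.trans dimE'.symm)).mp hinj⟩

variable (hL2 : ∀ V ∈ 𝔉.sets, (∀ v ∈ V, T.ρ v = 1) →
    Module.finrank k (Hlc (𝔉.restrict V) (res V.subtype T) 2) = 1)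

include hfin hT hT1 h3 hL2G hL2 in
/-- every finite-dimensional smooth `N` is a quotient of a finite-dimensional smooth `P` on which
`θ` is bijective. -/
theorem locD2_exists_presentation (N : Rep.{u} k G) [Module.Finite k N.V]
    (hN : IsSmooth 𝔉 N) :
    ∃ (P : Rep.{u} k G) (ε : P ⟶ N), Epi ε ∧ Module.Finite k P.V ∧ IsSmooth 𝔉 P ∧
      Function.Bijective (locD2_theta 𝔉 T P) := by
  classical
  haveI finT : Module.Finite k T.V := Module.finite_of_finrank_pos (by rw [hT1]; exact one_pos)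
  obtain ⟨V₁, hV₁, hV₁N⟩ := locD2_exists_level 𝔉 N hN
  obtain ⟨V₂, hV₂, hV₂T⟩ := locD2_exists_level 𝔉 T hT
  obtain ⟨V, hV, hVle⟩ := 𝔉.directed V₁ hV₁ V₂ hV₂
  have hVN : ∀ v ∈ V, N.ρ v = 1 := fun v hv => hV₁N v (hVle hv).1
  have hVT : ∀ v ∈ V, T.ρ v = 1 := fun v hv => hV₂T v (hVle hv).2
  haveI : V.FiniteIndex := hfin V hV
  haveI finB : Module.Finite k (res V.subtype N).V := ‹Module.Finite k N.V›
  refine ⟨coind V.subtype (res V.subtype N), (coindResAdjunction k V).counit.app N,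
    inferInstance, locD2_coind_finite V _,
    isSmooth_coind hfin (isOpenFor_of_mem hV) (hN.res_subtype V), ?_⟩
  obtain ⟨n, i, p, hsum⟩ := locD2_exists_decomp V hVN hVT hT1
  exact locD2_theta_bijective_of_decomp 𝔉 T i p hsum
    (locD2_theta_bijective_coind hfin T hT hT1 h3 hL2G V hV (hL2 V hV hVT))

include hfin hT hT1 h3 hL2G hL2 in
/-- `θ_N` is surjective for every finite-dimensional smooth `N`. -/
theorem locD2_theta_surjective (N : Rep.{u} k G) [Module.Finite k N.V]
    (hN : IsSmooth 𝔉 N) : Function.Surjective (locD2_theta 𝔉 T N) := by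
  obtain ⟨P, ε, hε, finP, smP, hP⟩ :=
    locD2_exists_presentation hfin T hT hT1 h3 hL2G hL2 N hN
  have hX := locD2_kerSC_shortExact ε
  exact locD2_compare_surjective (locD2_F 𝔉 ε) (locD2_E 𝔉 T ε)
    (locD2_theta 𝔉 T P) (locD2_theta 𝔉 T N)
    (fun y => locD2_theta_natural 𝔉 T ε y)
    (locD2_E_g_surjective (X := locD2_kerSC ε) T hX) hP.2

include hfin hT hT1 h3 hL2G hL2 in
/-- **Local duality in degree 2**: `θ_N` is bijective for every finite-dimensional smooth `N`. -/
theorem locD2_theta_bijective (N : Rep.{u} k G) [Module.Finite k N.V]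
    (hN : IsSmooth 𝔉 N) : Function.Bijective (locD2_theta 𝔉 T N) := by
  refine ⟨?_, locD2_theta_surjective hfin T hT hT1 h3 hL2G hL2 N hN⟩
  obtain ⟨P, ε, hε, finP, smP, hP⟩ :=
    locD2_exists_presentation hfin T hT hT1 h3 hL2G hL2 N hN
  have hX := locD2_kerSC_shortExact ε
  obtain ⟨finK, smK⟩ := locD2_kernel_finite_smooth (𝔉 := 𝔉) ε smP
  exact locD2_compare_injective (locD2_F 𝔉 (kernel.ι ε)) (locD2_F 𝔉 ε)
    (locD2_E 𝔉 T (kernel.ι ε)) (locD2_E 𝔉 T ε)
    (locD2_theta 𝔉 T (kernel ε)) (locD2_theta 𝔉 T P) (locD2_theta 𝔉 T N)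
    (fun w => locD2_theta_natural 𝔉 T (kernel.ι ε) w)
    (fun y => locD2_theta_natural 𝔉 T ε y)
    (fun w => locD2_F_g_f (X := locD2_kerSC ε) w)
    (locD2_F_g_surjective (X := locD2_kerSC ε) hfin hX smP (h3 _ finK smK))
    (fun y hy => locD2_E_exact (X := locD2_kerSC ε) T hX y hy)
    (locD2_theta_surjective hfin T hT hT1 h3 hL2G hL2 (kernel ε) smK) hP.1

include hfin hT hT1 h3 hL2G hL2 in
/-- `θ_N` as a linear equivalence. -/
noncomputable def locD2_thetaEquiv (N : Rep.{u} k G) [Module.Finite k N.V]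
    (hN : IsSmooth 𝔉 N) : Hlc 𝔉 N 2 ≃ₗ[k] ((N ⟶ T) →ₗ[k] Hlc 𝔉 T 2) :=
  LinearEquiv.ofBijective (locD2_theta 𝔉 T N)
    (locD2_theta_bijective hfin T hT hT1 h3 hL2G hL2 N hN)

include hfin hT hT1 h3 hL2G hL2 in
/-- **Local duality in degree 2, dimension form**: `Hlc²(G, N)` is finite-dimensional of
dimension `dim Hom_G(N, T)`. -/
theorem locD2_finite_and_finrank (N : Rep.{u} k G) [Module.Finite k N.V]
    (hN : IsSmooth 𝔉 N) :
    Module.Finite k (Hlc 𝔉 N 2) ∧
      Module.finrank k (Hlc 𝔉 N 2) = Module.finrank k (N ⟶ T) := by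
  haveI finT : Module.Finite k T.V := Module.finite_of_finrank_pos (by rw [hT1]; exact one_pos)
  haveI finFT : Module.Finite k (Hlc 𝔉 T 2) :=
    Module.finite_of_finrank_pos (by rw [hL2G]; exact one_pos)
  haveI finHom : Module.Finite k (N ⟶ T) := locD2_hom_finite N T
  let e := locD2_thetaEquiv hfin T hT hT1 h3 hL2G hL2 N hN
  refine ⟨Module.Finite.equiv e.symm, ?_⟩
  rw [e.finrank_eq, Module.finrank_linearMap, hL2G, mul_one]

end Main

end Fermat.Agent.PT
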