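import Mathlib
import Fermat.Agent.CFT.PT.LocalDual2B
import Fermat.Agent.CFT.PT.DualTwist
import Fermat.Agent.CFT.PT.SmoothZero

set_option autoImplicit false

/-!
# S55 engine, (P11) complement: `Hom_G(N, k(χ)) = (N')^G` and the `h² = h⁰(N')` form

* `locD2_homInvEquiv N χ : (N ⟶ ofChar χ) ≃ₗ[k] (N.dualTwist χ).ρ.invariants`;
* `locD2_finrank_hom_eq`, `locD2_finrank_hom_res_eq` : `dim Hom = dim Hlc⁰(N')` (also after
  restriction along a group homomorphism, in the shape of `LocSystem.coeff`);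
* `locD2_finrank_two_eq_zero` : local duality in degree 2 in the form
  `dim Hlc²(N) = dim Hlc⁰(N')` for `T = k(χ)`.
-/

namespace Fermat.Agent.PT

open CategoryTheory groupCohomology Rep

universe u

variable {k G : Type u} [Field k] [Group G]

section HomInv

variable (N : Rep.{u} k G) (χ : G →* kˣ)

/-- a morphism `N ⟶ k(χ)` as an element of the dual. -/
noncomputable def locD2_homToDual : (N ⟶ ofChar χ) →ₗ[k] Module.Dual k N.V where
  toFun φ := φ.hom.toLinearMap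
  map_add' _ _ := rfl
  map_smul' _ _ := rfl

theorem locD2_homToDual_apply (φ : N ⟶ ofChar χ) (n : N.V) :
    locD2_homToDual N χ φ n = φ.hom n := rfl

theorem locD2_homToDual_injective : Function.Injective (locD2_homToDual N χ) := by
  intro φ φ' h
  apply Rep.hom_ext
  apply Representation.IntertwiningMap.ext
  exact h

theorem locD2_homToDual_mem (φ : N ⟶ ofChar χ) :
    (locD2_homToDual N χ φ : (N.dualTwist χ).V) ∈ (N.dualTwist χ).ρ.invariants := by
  intro g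
  refine LinearMap.ext fun n => ?_
  rw [dualTwist_ρ_apply_apply]
  have h := Rep.hom_comm_apply φ g (N.ρ g⁻¹ n)
  rw [ρ_ρ_inv] at h
  rw [locD2_homToDual_apply, locD2_homToDual_apply, h]
  exact (ofChar_ρ_apply χ g _).symm

/-- an invariant of the twisted dual as a morphism `N ⟶ k(χ)`. -/
noncomputable def locD2_invToHom (f : (N.dualTwist χ).ρ.invariants) : N ⟶ ofChar χ :=
  (Rep.homLinearEquiv _ _).symm
    { toLinearMap := (f.1 : Module.Dual k N.V)
      isIntertwining' := by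
        intro g
        ext n
        have h := LinearMap.congr_fun (f.2 g) (N.ρ g n)
        rw [dualTwist_ρ_apply_apply, ρ_inv_ρ] at h
        change (f.1 : Module.Dual k N.V) (N.ρ g n) = (ofChar χ).ρ g ((f.1 : Module.Dual k N.V) n)
        rw [ofChar_ρ_apply]
        exact h.symm }

theorem locD2_homToDual_invToHom (f : (N.dualTwist χ).ρ.invariants) :
    locD2_homToDual N χ (locD2_invToHom N χ f) = (f.1 : Module.Dual k N.V) := rfl

/-- `Hom_G(N, k(χ)) ≃ (N')^G`. -/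
noncomputable def locD2_homInvEquiv :
    (N ⟶ ofChar χ) ≃ₗ[k] (N.dualTwist χ).ρ.invariants :=
  LinearEquiv.ofBijective
    ((locD2_homToDual N χ).codRestrict (N.dualTwist χ).ρ.invariants (locD2_homToDual_mem N χ))
    ⟨fun _ _ h => locD2_homToDual_injective N χ (congrArg Subtype.val h),
      fun f => ⟨locD2_invToHom N χ f, Subtype.ext (locD2_homToDual_invToHom N χ f)⟩⟩

theorem locD2_homInvEquiv_apply_coe (φ : N ⟶ ofChar χ) (n : N.V) :
    ((locD2_homInvEquiv N χ φ : (N.dualTwist χ).V) : Module.Dual k N.V) n = φ.hom n := rfl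

/-- `dim Hom_G(N, k(χ)) = dim Hlc⁰(N')`. -/
theorem locD2_finrank_hom_eq (𝔉 : LevelFamily G) :
    Module.finrank k (N ⟶ ofChar χ) = Module.finrank k (Hlc 𝔉 (N.dualTwist χ) 0) :=
  ((locD2_homInvEquiv N χ).trans (Hlc0Equiv 𝔉 (N.dualTwist χ)).symm).finrank_eq

end HomInv

section Res

variable {H : Type u} [Group H] (ψ : H →* G) (N : Rep.{u} k G) (χ : G →* kˣ)

/-- the invariants of `res ψ (N')` and of `(res ψ N)'` agree. -/
noncomputable def locD2_resInvEquiv :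
    ((res ψ N).dualTwist (χ.comp ψ)).ρ.invariants ≃ₗ[k] (res ψ (N.dualTwist χ)).ρ.invariants where
  toFun f := ⟨(f.1 : Module.Dual k N.V), fun h => by
    rw [res_dualTwist_ρ_apply]
    exact f.2 h⟩
  map_add' _ _ := rfl
  map_smul' _ _ := rfl
  invFun f := ⟨(f.1 : Module.Dual k N.V), fun h => by
    rw [← res_dualTwist_ρ_apply]
    exact f.2 h⟩
  left_inv _ := rfl
  right_inv _ := rfl

/-- `dim Hom_H(res N, k(χ ∘ ψ)) = dim Hlc⁰(H, res (N'))`, the shape of `LocSystem.coeff`. -/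
theorem locD2_finrank_hom_res_eq (𝔉H : LevelFamily H) :
    Module.finrank k (res ψ N ⟶ ofChar (χ.comp ψ)) =
      Module.finrank k (Hlc 𝔉H (res ψ (N.dualTwist χ)) 0) :=
  (((locD2_homInvEquiv (res ψ N) (χ.comp ψ)).trans (locD2_resInvEquiv ψ N χ)).trans
    (Hlc0Equiv 𝔉H (res ψ (N.dualTwist χ))).symm).finrank_eq

end Res

section Final

variable {𝔉 : LevelFamily G}

/-- `k(χ)` is one-dimensional. -/
theorem locD2_finrank_ofChar (χ : G →* kˣ) : Module.finrank k (ofChar χ).V = 1 :=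
  Module.finrank_self k

/-- `k(χ)` is smooth as soon as `χ` is trivial on a member of the family. -/
theorem locD2_isSmooth_ofChar (χ : G →* kˣ) (hχ : ∃ U ∈ 𝔉.sets, ∀ u ∈ U, χ u = 1) :
    IsSmooth 𝔉 (ofChar χ) := by
  obtain ⟨U, hU, h⟩ := hχ
  intro a
  refine ⟨U, hU, fun u hu => ?_⟩
  rw [ofChar_ρ_apply, h u hu, Units.val_one, one_mul]

/-- `k(χ)` is trivial on `V` iff `χ` is. -/
theorem locD2_ofChar_ρ_eq_one (χ : G →* kˣ) (v : G) (hv : χ v = 1) : (ofChar χ).ρ v = 1 := by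
  refine LinearMap.ext fun a => ?_
  rw [ofChar_ρ_apply, hv, Units.val_one, one_mul]
  rfl

theorem locD2_char_eq_one_of_ρ (χ : G →* kˣ) (v : G) (hv : (ofChar χ).ρ v = 1) : χ v = 1 := by
  have h := LinearMap.congr_fun hv (1 : k)
  rw [ofChar_ρ_apply, mul_one] at h
  exact Units.ext h

/-- **Local duality in degree 2, `h² = h⁰(N')` form**, for `T = k(χ)`. -/
theorem locD2_finrank_two_eq_zero (hfin : 𝔉.FiniteIndex) (χ : G →* kˣ)
    (hχ : ∃ U ∈ 𝔉.sets, ∀ u ∈ U, χ u = 1)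
    (h3 : ∀ N : Rep.{u} k G, Module.Finite k N.V → IsSmooth 𝔉 N → Subsingleton (Hlc 𝔉 N 3))
    (hL2G : Module.finrank k (Hlc 𝔉 (ofChar χ) 2) = 1)
    (hL2 : ∀ V ∈ 𝔉.sets, (∀ v ∈ V, χ v = 1) →
      Module.finrank k (Hlc (𝔉.restrict V) (res V.subtype (ofChar χ)) 2) = 1)
    (N : Rep.{u} k G) [Module.Finite k N.V] (hN : IsSmooth 𝔉 N) :
    Module.Finite k (Hlc 𝔉 N 2) ∧
      Module.finrank k (Hlc 𝔉 N 2) = Module.finrank k (Hlc 𝔉 (N.dualTwist χ) 0) := by
  have h := locD2_finite_and_finrank hfin (ofChar χ) (locD2_isSmooth_ofChar χ hχ)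
    (locD2_finrank_ofChar χ)
    (fun N' hN' hsm x => (h3 N' hN' hsm).elim x 0) hL2G
    (fun V hV hVT => hL2 V hV fun v hv => locD2_char_eq_one_of_ρ χ v (hVT v hv)) N hN
  exact ⟨h.1, h.2.trans (locD2_finrank_hom_eq N χ 𝔉)⟩

end Final

/-! ### The trivial restriction to `⊤`

The local contracts are stated over `𝔉.restrict U` for open `U`; for `U = ⊤` this is the same as
`𝔉` itself. -/

section Top

open Fermat.Agent.CFT

variable {𝔉 : LevelFamily G}

/-- an isomorphism of coefficients induces a bijection on `Hlc`. -/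
theorem locD2_HlcMap_bijective_of_isIso {A B : Rep.{u} k G} (φ : A ⟶ B) [IsIso φ] (n : ℕ) :
    Function.Bijective (HlcMap (MonoidHom.id G) φ 𝔉.compat_id n).hom := by
  have h1 : HlcMap (MonoidHom.id G) φ 𝔉.compat_id n ≫
      HlcMap (MonoidHom.id G) (inv φ) 𝔉.compat_id n = 𝟙 _ := by
    rw [← HlcMap_id_comp, HlcMap_id_congr 𝔉 (IsIso.hom_inv_id φ), HlcMap_id_id]
  have h2 : HlcMap (MonoidHom.id G) (inv φ) 𝔉.compat_id n ≫
      HlcMap (MonoidHom.id G) φ 𝔉.compat_id n = 𝟙 _ := by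
    rw [← HlcMap_id_comp, HlcMap_id_congr 𝔉 (IsIso.inv_hom_id φ), HlcMap_id_id]
  refine Function.bijective_iff_has_inverse.mpr
    ⟨(HlcMap (MonoidHom.id G) (inv φ) 𝔉.compat_id n).hom, fun x => ?_, fun y => ?_⟩
  · have := congrArg (fun f => f.hom x) h1
    simpa only [ModuleCat.hom_comp, LinearMap.comp_apply, ModuleCat.hom_id,
      LinearMap.id_apply] using this
  · have := congrArg (fun f => f.hom y) h2
    simpa only [ModuleCat.hom_comp, LinearMap.comp_apply, ModuleCat.hom_id,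
      LinearMap.id_apply] using this

/-- the unit `M ⟶ Coind_⊤ Res_⊤ M` is bijective. -/
theorem locD2_coindUnit_top_bijective (M : Rep.{u} k G) :
    Function.Bijective (coindUnit (⊤ : Subgroup G) M).hom := by
  constructor
  · intro m m' h
    have h1 := congrArg (fun f : (res (⊤ : Subgroup G).subtype M).ρ.coindV
      (⊤ : Subgroup G).subtype => f.1 1) h
    have h2 : ∀ x : M.V, ((coindUnit (⊤ : Subgroup G) M).hom x).1 1 = x := by
      intro x
      rw [coindUnit_apply, map_one]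
      rfl
    exact (h2 m).symm.trans (h1.trans (h2 m'))
  · intro (f : (res (⊤ : Subgroup G).subtype M).ρ.coindV (⊤ : Subgroup G).subtype)
    refine ⟨f.1 1, ?_⟩
    apply Subtype.ext
    funext g
    rw [coindUnit_apply]
    have h1 := f.2 ⟨g, Subgroup.mem_top g⟩ 1
    rw [show (⊤ : Subgroup G).subtype ⟨g, Subgroup.mem_top g⟩ * 1 = g from mul_one g] at h1
    rw [h1]
    rfl

/-- restriction to `⊤` is bijective on `Hlc`. -/
theorem locD2_HlcRes_top_bijective (hfin : 𝔉.FiniteIndex) (M : Rep.{u} k G)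
    (hM : IsSmooth 𝔉 M) (n : ℕ) :
    Function.Bijective (HlcRes 𝔉 (⊤ : Subgroup G) M n).hom := by
  obtain ⟨V, hV⟩ := 𝔉.nonempty
  haveI : IsIso (coindUnit (⊤ : Subgroup G) M) :=
    isIso_of_bijective_hom _ (locD2_coindUnit_top_bijective M)
  have h1 : Function.Bijective (HlcUnit 𝔉 (⊤ : Subgroup G) M n).hom :=
    locD2_HlcMap_bijective_of_isIso (coindUnit (⊤ : Subgroup G) M) n
  have h2 := HlcShapiro_bijective hfin (⟨V, hV, le_top⟩ : IsOpenFor 𝔉 (⊤ : Subgroup G)) n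
    (res (⊤ : Subgroup G).subtype M) (hM.res_subtype ⊤)
  rw [← HlcUnit_comp_HlcShapiro]
  rw [ModuleCat.hom_comp]
  exact h2.comp h1

/-- `Hlc(𝔉, M) ≃ Hlc(𝔉|⊤, M|⊤)`. -/
noncomputable def locD2_topEquiv (hfin : 𝔉.FiniteIndex) (M : Rep.{u} k G)
    (hM : IsSmooth 𝔉 M) (n : ℕ) :
    Hlc 𝔉 M n ≃ₗ[k] Hlc (𝔉.restrict (⊤ : Subgroup G)) (res (⊤ : Subgroup G).subtype M) n :=
  LinearEquiv.ofBijective (HlcRes 𝔉 (⊤ : Subgroup G) M n).hom
    (locD2_HlcRes_top_bijective hfin M hM n)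

theorem locD2_finrank_top (hfin : 𝔉.FiniteIndex) (M : Rep.{u} k G) (hM : IsSmooth 𝔉 M) (n : ℕ) :
    Module.finrank k (Hlc 𝔉 M n) =
      Module.finrank k
        (Hlc (𝔉.restrict (⊤ : Subgroup G)) (res (⊤ : Subgroup G).subtype M) n) :=
  (locD2_topEquiv hfin M hM n).finrank_eq

/-- **Local duality in degree 2**, with all dimension hypotheses in the shape of the LOCAL
contracts (over `𝔉.restrict U` for `U` open, including `U = ⊤`). -/
theorem locD2_finrank_two_eq_zero' (hfin : 𝔉.FiniteIndex) (χ : G →* kˣ)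
    (hχ : ∃ U ∈ 𝔉.sets, ∀ u ∈ U, χ u = 1)
    (h3 : ∀ N : Rep.{u} k G, Module.Finite k N.V → IsSmooth 𝔉 N → Subsingleton (Hlc 𝔉 N 3))
    (hL2 : ∀ U : Subgroup G, IsOpenFor 𝔉 U →
      Module.finrank k (Hlc (𝔉.restrict U) (res U.subtype (ofChar χ)) 2) = 1)
    (N : Rep.{u} k G) [Module.Finite k N.V] (hN : IsSmooth 𝔉 N) :
    Module.Finite k (Hlc 𝔉 N 2) ∧
      Module.finrank k (Hlc 𝔉 N 2) = Module.finrank k (Hlc 𝔉 (N.dualTwist χ) 0) := by
  obtain ⟨V, hV⟩ := 𝔉.nonempty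
  refine locD2_finrank_two_eq_zero hfin χ hχ h3 ?_ (fun W hW _ => hL2 W (isOpenFor_of_mem hW))
    N hN
  rw [locD2_finrank_top hfin (ofChar χ) (locD2_isSmooth_ofChar χ hχ) 2]
  exact hL2 ⊤ ⟨V, hV, le_top⟩

/-- **Local duality in degree 2 in the shape of `LocSystem.coeff`**: `H` a (local) group with
structure map `ψ : H →* G`, `χ` a character of the (global) group `G`, `N` a representation of
`G`; hypotheses in the exact shape of the LOCAL contracts `LocalOut2` (for `hL2`). -/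
theorem locD2_finrank_two_eq_zero_res {H : Type u} [Group H] (ψ : H →* G) {𝔉H : LevelFamily H}
    (hfin : 𝔉H.FiniteIndex) (χ : G →* kˣ)
    (hχ : ∃ U ∈ 𝔉H.sets, ∀ u ∈ U, χ (ψ u) = 1)
    (h3 : ∀ N : Rep.{u} k H, Module.Finite k N.V → IsSmooth 𝔉H N → Subsingleton (Hlc 𝔉H N 3))
    (hL2 : ∀ U : Subgroup H, IsOpenFor 𝔉H U →
      Module.finrank k (Hlc (𝔉H.restrict U) (res U.subtype (res ψ (ofChar χ))) 2) = 1)
    (N : Rep.{u} k G) [Module.Finite k N.V] (hN : IsSmooth 𝔉H (res ψ N)) :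
    Module.Finite k (Hlc 𝔉H (res ψ N) 2) ∧
      Module.finrank k (Hlc 𝔉H (res ψ N) 2) =
        Module.finrank k (Hlc 𝔉H (res ψ (N.dualTwist χ)) 0) := by
  haveI : Module.Finite k (res ψ N).V := ‹Module.Finite k N.V›
  obtain ⟨V, hV⟩ := 𝔉H.nonempty
  have hχ' : ∃ U ∈ 𝔉H.sets, ∀ u ∈ U, (χ.comp ψ) u = 1 := hχ
  have hG : Module.finrank k (Hlc 𝔉H (ofChar (χ.comp ψ)) 2) = 1 := by
    rw [locD2_finrank_top hfin (ofChar (χ.comp ψ)) (locD2_isSmooth_ofChar (χ.comp ψ) hχ') 2]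
    exact hL2 ⊤ ⟨V, hV, le_top⟩
  have h := locD2_finite_and_finrank hfin (ofChar (χ.comp ψ))
    (locD2_isSmooth_ofChar (χ.comp ψ) hχ') (locD2_finrank_ofChar (χ.comp ψ))
    (fun N' hN' hsm x => (h3 N' hN' hsm).elim x 0) hG
    (fun W hW _ => hL2 W (isOpenFor_of_mem hW)) (res ψ N) hN
  exact ⟨h.1, h.2.trans (locD2_finrank_hom_res_eq ψ N χ 𝔉H)⟩

end Top

end Fermat.Agent.PT
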