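import Fermat.Agent.CFT.PT.SmoothTowerP
import Fermat.Agent.CFT.PT.LocalDual2Hom

/-!
# `p`-torsion-freeness of `Hlc^n(Γℚ, A)` from the cyclo-trivial open subgroups

(helper22)  Companion of `pTorsionFree_of_cycloTrivial` (`PT/SmoothTowerP.lean`) for the WHOLE group
`Γℚ` with the unrestricted family `famS S` (the shape of the hypothesis `h𝕌` of the (C-W)
assembly): if `Hlc^n(V', A)[p] = 0` for every open `V'` with trivial cyclotomic character, then
`Hlc^n(Γℚ, A)[p] = 0`.

* `smTT_HlcRes_top_bijective`, `smTT_topEquiv` : `Hlc(𝔉, M) ≃ Hlc(𝔉|⊤, M|⊤)` over any commutative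
  ring of coefficients.
-/

set_option autoImplicit false

namespace Fermat.Agent.PT

open CategoryTheory Rep ExtCitation Fermat.Agent.CFT

section Top

universe u

variable {k G : Type u} [CommRing k] [Group G] {𝔉 : LevelFamily G}

/-- an isomorphism of coefficients induces a bijection on `Hlc` (any commutative ring). -/
theorem smTT_HlcMap_bijective_of_isIso {A B : Rep.{u} k G} (φ : A ⟶ B) [IsIso φ] (n : ℕ) :
    Function.Bijective (HlcMap (MonoidHom.id G) φ 𝔉.compat_id n).hom := by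
  have h1 : HlcMap (MonoidHom.id G) φ 𝔉.compat_id n ≫
      HlcMap (MonoidHom.id G) (inv φ) 𝔉.compat_id n = 𝟙 _ := by
    rw [← HlcMap_id_comp, HlcMap_id_congr 𝔉 (IsIso.hom_inv_id φ), HlcMap_id_id]
  have h2 : HlcMap (MonoidHom.id G) (inv φ) 𝔉.compat_id n ≫
      HlcMap (MonoidHom.id G) φ 𝔉.compat_id n = 𝟙 _ := by
    rw [← HlcMap_id_comp, HlcMap_id_congr 𝔉 (IsIso.inv_hom_id φ), HlcMap_id_id]
  refine Function.bijective_iff_has_inverse.mpr
    ⟨(HlcMap (MonoidHom.id G) (inv φ) 𝔉.compat_id n).hom, fun x => ?_, fun y => ?_⟩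
  · have := congrArg (fun f => f.hom x) h1
    simpa only [ModuleCat.hom_comp, LinearMap.comp_apply, ModuleCat.hom_id,
      LinearMap.id_apply] using this
  · have := congrArg (fun f => f.hom y) h2
    simpa only [ModuleCat.hom_comp, LinearMap.comp_apply, ModuleCat.hom_id,
      LinearMap.id_apply] using this

/-- the unit `M ⟶ Coind_⊤ Res_⊤ M` is bijective. -/
theorem smTT_coindUnit_top_bijective (M : Rep.{u} k G) :
    Function.Bijective (coindUnit (⊤ : Subgroup G) M).hom := by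
  constructor
  · intro m m' h
    have h1 := congrArg (fun f : (res (⊤ : Subgroup G).subtype M).ρ.coindV
      (⊤ : Subgroup G).subtype => f.1 1) h
    have h2 : ∀ x : M.V, ((coindUnit (⊤ : Subgroup G) M).hom x).1 1 = x := by
      intro x
      rw [coindUnit_apply, map_one]
      rfl
    exact (h2 m).symm.trans (h1.trans (h2 m'))
  · intro (f : (res (⊤ : Subgroup G).subtype M).ρ.coindV (⊤ : Subgroup G).subtype)
    refine ⟨f.1 1, ?_⟩
    apply Subtype.ext
    funext g
    rw [coindUnit_apply]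
    have h1 := f.2 ⟨g, Subgroup.mem_top g⟩ 1
    rw [show (⊤ : Subgroup G).subtype ⟨g, Subgroup.mem_top g⟩ * 1 = g from mul_one g] at h1
    rw [h1]
    rfl

/-- restriction to `⊤` is bijective on `Hlc`. -/
theorem smTT_HlcRes_top_bijective (hfin : 𝔉.FiniteIndex) (M : Rep.{u} k G)
    (hM : IsSmooth 𝔉 M) (n : ℕ) :
    Function.Bijective (HlcRes 𝔉 (⊤ : Subgroup G) M n).hom := by
  obtain ⟨V, hV⟩ := 𝔉.nonempty
  haveI : IsIso (coindUnit (⊤ : Subgroup G) M) := by
    have : IsIso ((forget (Rep.{u} k G)).map (coindUnit (⊤ : Subgroup G) M)) :=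
      (isIso_iff_bijective _).2 (smTT_coindUnit_top_bijective M)
    exact isIso_of_reflects_iso (coindUnit (⊤ : Subgroup G) M) (forget (Rep.{u} k G))
  have h1 : Function.Bijective (HlcUnit 𝔉 (⊤ : Subgroup G) M n).hom :=
    smTT_HlcMap_bijective_of_isIso (coindUnit (⊤ : Subgroup G) M) n
  have h2 := HlcShapiro_bijective hfin (⟨V, hV, le_top⟩ : IsOpenFor 𝔉 (⊤ : Subgroup G)) n
    (res (⊤ : Subgroup G).subtype M) (hM.res_subtype ⊤)
  rw [← HlcUnit_comp_HlcShapiro]
  rw [ModuleCat.hom_comp]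
  exact h2.comp h1

/-- `Hlc(𝔉, M) ≃ Hlc(𝔉|⊤, M|⊤)`. -/
noncomputable def smTT_topEquiv (hfin : 𝔉.FiniteIndex) (M : Rep.{u} k G)
    (hM : IsSmooth 𝔉 M) (n : ℕ) :
    Hlc 𝔉 M n ≃ₗ[k] Hlc (𝔉.restrict (⊤ : Subgroup G)) (res (⊤ : Subgroup G).subtype M) n :=
  LinearEquiv.ofBijective (HlcRes 𝔉 (⊤ : Subgroup G) M n).hom
    (smTT_HlcRes_top_bijective hfin M hM n)

end Top

local notation "Γℚ" => (AlgebraicClosure ℚ ≃ₐ[ℚ] AlgebraicClosure ℚ)

variable {p : ℕ} [Fact p.Prime] {S : Finset Nat.Primes}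

/-- **from the cyclo-trivial open subgroups to the whole group `Γℚ`** (unrestricted family). -/
theorem pTorsionFree_whole_of_cycloTrivial (hpS : pPrime p ∈ S) (A : Rep.{0} ℤ Γℚ)
    (hA : IsSmooth (famS S) A) (n : ℕ)
    (h : ∀ V' : Subgroup Γℚ, IsOpenFor (famS S) V' → (∀ s ∈ V', cycloChar p s = 1) →
      ∀ c : Hlc ((famS S).restrict V') (res V'.subtype A) n, p • c = 0 → c = 0)
    (c : Hlc (famS S) A n) (hc : p • c = 0) : c = 0 := by
  obtain ⟨U, hU⟩ := (famS S).nonempty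
  have e := smTT_topEquiv (baseCount_famS_finiteIndex S) A hA n
  apply e.injective
  rw [map_zero]
  refine pTorsionFree_of_cycloTrivial hpS A hA n h ⊤ ⟨U, hU, le_top⟩ (e c) ?_
  rw [← map_nsmul, hc, map_zero]

end Fermat.Agent.PT
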