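import Fermat.Agent.CFT.PT.CWFinal
import Fermat.Agent.CFT.PT.IdeleLevelC
import Fermat.Agent.CFT.PT.SmoothTowerTop

set_option autoImplicit false

/-!
# S55 GLOBAL, (C-W): the class `y₀`, from the `[C]`-shaped inputs (b), (c)

`cwH_exists_class`: for `p` odd, `p ∈ S`, the class `y₀ ∈ Hlc²(Γℚ, J_S)[p]` with nonzero image in
`Hlc²(Γℚ, C')` exists as soon as
(b) `Hlc²(V', 𝕌)` and (c) `Hlc¹(V', ℂ)` have no `p`-torsion for the open cyclo-trivial `V'`.
-/

namespace Fermat.Agent.PT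

open CategoryTheory groupCohomology Rep Fermat.Agent.CFT Fermat.Agent.CFT.S14 IntermediateField
  NumberField IsDedekindDomain ExtCitation
open scoped Fermat.Agent.CFT.TensorGal Fermat.Agent.CFT.IdeleAct

local notation "Γℚ" => (AlgebraicClosure ℚ ≃ₐ[ℚ] AlgebraicClosure ℚ)
local notation "Qb" => AlgebraicClosure ℚ

attribute [local instance] sUF_isAlgebraicQb sUF_isAlgClosureQb sUF_isGaloisQb sUF_numberField
  sUF_algebra sUF_isScalarTower sUF_isScalarTower' sUF_isGalois sUF_normal_alg'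

attribute [local instance] additiveDistribMulAction ideleGroupActionOf ideleClassActionOf
  idClassCommGroup

variable (p : ℕ) [hp : Fact p.Prime] (S : Finset Nat.Primes)

theorem cwH_L1_le_QS (hpS : (⟨p, hp.out⟩ : Nat.Primes) ∈ S) : cwL_L1 p ≤ QS S :=
  le_QS_of_isUnramifiedOutside S (cwL_L1_isUnramifiedOutside p S hpS)

/-- **(C-W)**: the `[W]` input of `s55Side_main`, from the `[C]`-shaped inputs (b) (degree 2) and
(c). -/
theorem cwH_exists_class (hp2 : p ≠ 2) (hpS : (⟨p, hp.out⟩ : Nat.Primes) ∈ S)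
    (hb : ∀ V' : Subgroup Γℚ, IsOpenFor (famS S) V' → (∀ s ∈ V', cycloChar p s = 1) →
      ∀ c : Hlc ((famS S).restrict V') (res V'.subtype (idURep S)) 2, p • c = 0 → c = 0)
    (hc : ∀ V' : Subgroup Γℚ, IsOpenFor (famS S) V' → (∀ s ∈ V', cycloChar p s = 1) →
      ∀ c : Hlc ((famS S).restrict V') (res V'.subtype (idCRep S)) 1, p • c = 0 → c = 0) :
    ∃ y₀ : Hlc (famS S) (idJSRep S) 2, p • y₀ = 0 ∧
      (HlcMap (MonoidHom.id Γℚ) (idJSToC' S) (famS S).compat_id 2).hom y₀ ≠ 0 := by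
  have hL := cwH_L1_le_QS p S hpS
  have hm : ¬ p ∣ 1 := fun h => hp.out.one_lt.ne' (Nat.dvd_one.1 h)
  refine cwF_exists_class_of_phi p S hp2 hpS
    (fun x hx => pTorsionFree_whole_of_cycloTrivial hpS (idURep S) (isSmooth_idURep S) 2 hb x hx)
    (fun x hx => pTorsionFree_of_cycloTrivial hpS (idCRep S) (isSmooth_idCRep S) 1 hc
      (cwL_U1 p) ⟨cwL_U1 p, cwL_U1_mem p S hpS, le_rfl⟩ x hx)
    (idLC_φ (M := ⊥) (L := cwL_L1 p) hL) (idLC_φ_injective hL) (idLC_φ_range hL) 1 hm ?_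
  rw [cwI_iota_b]
  change sqMk (JFull S) (idK S) (isStableSub_JFull S) (isStableSub_idK S)
    (idLC_ι (cwL_L1 p) hL (baseToIdele ℚ ↥(cwL_L1 p) (cwI_b0 p 1))) = _
  refine congrArg _ (Subtype.ext ?_)
  rw [idLC_coe_ι]
  exact cwF_idLevelHom_baseToIdele _ _

end Fermat.Agent.PT
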