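import Fermat.Agent.CFT.PT.CWHolds
import Fermat.Agent.CFT.PT.IdeleLevelU

set_option autoImplicit false

/-!
# S55 GLOBAL, (C-W): the class `y₀`, from the single `[C]`-shaped input (c)

`cwH_exists_class_of_c`: `cwH_exists_class` with its input (b) discharged by helper12's
`idLU_eq_zero_of_smul`; the only remaining hypothesis is (c): `Hlc¹(V', ℂ)` has no `p`-torsion
for the open cyclo-trivial `V'`.
-/

namespace Fermat.Agent.PT

open CategoryTheory groupCohomology Rep Fermat.Agent.CFT Fermat.Agent.CFT.S14 IntermediateField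
  NumberField IsDedekindDomain ExtCitation

local notation "Γℚ" => (AlgebraicClosure ℚ ≃ₐ[ℚ] AlgebraicClosure ℚ)

variable (p : ℕ) [hp : Fact p.Prime] (S : Finset Nat.Primes)

/-- **(C-W)**: the `[W]` input of `s55Side_main`, from the `[C]`-shaped input (c) alone. -/
theorem cwH_exists_class_of_c (hp2 : p ≠ 2) (hpS : (⟨p, hp.out⟩ : Nat.Primes) ∈ S)
    (hc : ∀ V' : Subgroup Γℚ, IsOpenFor (famS S) V' → (∀ s ∈ V', cycloChar p s = 1) →
      ∀ c : Hlc ((famS S).restrict V') (res V'.subtype (idCRep S)) 1, p • c = 0 → c = 0) :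
    ∃ y₀ : Hlc (famS S) (idJSRep S) 2, p • y₀ = 0 ∧
      (HlcMap (MonoidHom.id Γℚ) (idJSToC' S) (famS S).compat_id 2).hom y₀ ≠ 0 :=
  cwH_exists_class p S hp2 hpS
    (fun _ hV' _ c hc' => idLU_eq_zero_of_smul hV' p 1 c hc') hc

end Fermat.Agent.PT
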