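import Fermat.Agent.CFT.PT.CWHoldsB
import Fermat.Agent.CFT.PT.CSideC

set_option autoImplicit false

/-!
# S55 GLOBAL, (C-W): the class `y₀`, unconditionally

`cwH_exists_class_holds`: for `p` odd, `p ∈ S`, there is `y₀ ∈ Hlc²(Γℚ, J_S)[p]` with nonzero
image in `Hlc²(Γℚ, C')`: the `[W]` input (`y₀ hy₀ hπ`) of `s55Side_main`, with no hypothesis left
((b) by `idLU_eq_zero_of_smul`, (c) by `csC_hc`).
-/

namespace Fermat.Agent.PT

open CategoryTheory groupCohomology Rep Fermat.Agent.CFT Fermat.Agent.CFT.S14 IntermediateField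
  NumberField IsDedekindDomain ExtCitation

local notation "Γℚ" => (AlgebraicClosure ℚ ≃ₐ[ℚ] AlgebraicClosure ℚ)

variable (p : ℕ) [hp : Fact p.Prime] (S : Finset Nat.Primes)

/-- **(C-W)**: the `[W]` input of `s55Side_main`, unconditionally. -/
theorem cwH_exists_class_holds (hp2 : p ≠ 2) (hpS : (⟨p, hp.out⟩ : Nat.Primes) ∈ S) :
    ∃ y₀ : Hlc (famS S) (idJSRep S) 2, p • y₀ = 0 ∧
      (HlcMap (MonoidHom.id Γℚ) (idJSToC' S) (famS S).compat_id 2).hom y₀ ≠ 0 :=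
  cwH_exists_class_of_c p S hp2 hpS (fun _ hV' hcyc => csC_hc hV' hcyc hp2)

end Fermat.Agent.PT
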