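/-
S55, GLOBAL C-side, (C-W) plug (helper8): base ideles under the base change from a finite level.

`cwQ_slBase_baseToIdele` : for any number field `L` and embedding `f : L →ₐ[ℚ] Qb`, the
`v`-component of `baseToIdele ℚ L y` is sent by `slBase v f` to `y_v ⊗ 1 = cwI_base y v`
(helper6's `cwI_base`), i.e. `ι_L (baseToIdele ℚ L y) = cwI_base y` for the level map
`ι_L = (x ↦ v ↦ Units.map (slBase v f) (x v))`.
-/
import Fermat.Agent.CFT.PT.CWIdele
import Fermat.Agent.CFT.PT.IdeleLevel

set_option autoImplicit false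
set_option linter.unusedSectionVars false

namespace Fermat.Agent.PT

open CategoryTheory Fermat.Agent.CFT IntermediateField NumberField IsDedekindDomain
open scoped TensorProduct

local notation "Qb" => AlgebraicClosure ℚ
local notation "Γℚ" => (AlgebraicClosure ℚ ≃ₐ[ℚ] AlgebraicClosure ℚ)

attribute [local instance] Units.mulDistribMulActionRight slQbUnitsAction

/-- base change of a base idele from a finite level `L` (any embedding `f : L → Qb`): the
`v`-component of `baseToIdele ℚ L y` is sent to `y_v ⊗ 1`. -/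
theorem cwQ_slBase_baseToIdele {L : Type} [Field L] [NumberField L] [Algebra ℚ L]
    (f : L →ₐ[ℚ] Qb) (y : baseIdeleGroup ℚ) (v : HeightOneSpectrum (𝓞 ℚ)) :
    Units.map ((slBase v f : _ →ₐ[v.adicCompletion ℚ] slQb v) : _ →* slQb v)
      ((baseToIdele ℚ L y : ideleGroup ℚ L).1 v) = cwI_base y v := by
  apply Units.ext
  rw [baseToIdele_apply, cwI_base_apply, cwI_baseLoc_val]
  simp only [Units.coe_map, MonoidHom.coe_coe]
  rw [Algebra.TensorProduct.algebraMap_apply, Algebra.algebraMap_self, RingHom.id_apply]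
  change slBase v f (((y.1 v : (v.adicCompletion ℚ)ˣ) : v.adicCompletion ℚ) ⊗ₜ[ℚ] (1 : L)) = _
  rw [slBase_tmul, map_one]

/-- the same for an arbitrary level map `ι` which is componentwise `Units.map (slBase v f)`. -/
theorem cwQ_level_baseToIdele {L : Type} [Field L] [NumberField L] [Algebra ℚ L]
    (f : L →ₐ[ℚ] Qb) (ι : ideleGroup ℚ L →* slProd)
    (hι : ∀ (x : ideleGroup ℚ L) (v : HeightOneSpectrum (𝓞 ℚ)),
      ι x v = Units.map ((slBase v f : _ →ₐ[v.adicCompletion ℚ] slQb v) : _ →* slQb v) (x.1 v))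
    (y : baseIdeleGroup ℚ) : ι (baseToIdele ℚ L y) = cwI_base y :=
  slProd_ext fun v => (hι _ v).trans (cwQ_slBase_baseToIdele f y v)

/-- **`ι_f (baseToIdele ℚ L y) = cwI_base y`** for helper27's `idLevelHom f`. -/
theorem cwQ_idLevelHom_baseToIdele {L : Type} [Field L] [NumberField L] (f : L →ₐ[ℚ] Qb)
    (y : baseIdeleGroup ℚ) : idLevelHom f (baseToIdele ℚ L y) = cwI_base y :=
  cwQ_level_baseToIdele f (idLevelHom f) (fun _ _ => rfl) y

/-- in particular for the idele `(1 + p)^m` at `p` of (C-W). -/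
theorem cwQ_idLevelHom_b0 {L : Type} [Field L] [NumberField L] (f : L →ₐ[ℚ] Qb)
    (p : ℕ) [hp : Fact p.Prime] (m : ℕ) :
    idLevelHom f (baseToIdele ℚ L (pcycWIdele (pcycPlace p hp.out) ^ m)) =
      cwI_base (cwI_b0 p m) :=
  cwQ_idLevelHom_baseToIdele f _

end Fermat.Agent.PT
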