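import Fermat.Agent.CFT.PT.SmoothBridge
import Fermat.Agent.CFT.S14.CycloField
import Fermat.Agent.CFT.S14.FieldL
import Fermat.Agent.CFT.Bridge.SplitField

set_option autoImplicit false

/-!
# S55 GLOBAL, (C-W) concrete, part A: the level `U₁ = G_{L1}` inside `Γℚ`

`L1` is the degree-`p` subfield of `ℚ(ζ_{p²})` inside `Qb = AlgebraicClosure ℚ`; `U₁` its fixing
subgroup, a member of `famS S` as soon as `p ∈ S`, with `Γℚ ⧸ U₁` cyclic of order `p`.
-/

namespace Fermat.Agent.PT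

open CategoryTheory groupCohomology Rep Fermat.Agent.CFT Fermat.Agent.CFT.S14 IntermediateField

local notation "Γℚ" => (AlgebraicClosure ℚ ≃ₐ[ℚ] AlgebraicClosure ℚ)
local notation "Qb" => AlgebraicClosure ℚ

/-! ### inertia at `q` fixes the roots of unity of order prime to `q` -/

/-- An element of the inertia group at a prime `q` fixes every `n`-th root of unity, `q ∤ n`. -/
theorem cwL_inertia_fixes_root {q n : ℕ} (hn : n ≠ 0) (hqn : Nat.Coprime q n)
    (A : ValuationSubring Qb) (hA : A.LiesOverPrime q) {g : Γℚ}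
    (hg : g ∈ A.inertiaSubgroupIn ℚ) {ζ : Qb} (hζ : ζ ^ n = 1) : g ζ = ζ := by
  by_contra hc
  have hζ0 : ζ ≠ 0 := by
    rintro rfl
    rw [zero_pow hn] at hζ
    exact zero_ne_one hζ
  have hn1 : 1 ≤ n := Nat.one_le_iff_ne_zero.2 hn
  have hinv : ζ⁻¹ = ζ ^ (n - 1) := by
    have h1 : ζ ^ (n - 1) * ζ = 1 := by
      rw [← pow_succ, Nat.sub_add_cancel hn1, hζ]
    exact (eq_inv_of_mul_eq_one_left h1).symm
  have hζA : ζ ∈ A := by
    rcases A.mem_or_inv_mem ζ with h | h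
    · exact h
    · have : ζ = (ζ⁻¹) ^ (n - 1) := by
        rw [inv_pow, ← hinv, inv_inv]
      rw [this]
      exact pow_mem h _
  have hζinvA : ζ⁻¹ ∈ A := by
    rw [hinv]
    exact pow_mem hζA _
  have hin := ((mem_inertiaSubgroupIn_iff_forall (K := ℚ)).1 hg).2 ζ hζA
  set ω := g ζ * ζ⁻¹ with hωdef
  have hgζA : g ζ ∈ A := by
    have : g ζ = (g ζ - ζ) + ζ := by ring
    rw [this]
    exact add_mem (ValuationSubring.nonunits_subset hin) hζA
  have hωA : ω ∈ A := mul_mem hgζA hζinvA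
  have hω1 : ω ≠ 1 := by
    intro h
    rw [hωdef, mul_inv_eq_one₀ hζ0] at h
    exact hc h
  have hωn : ω ^ n = 1 := by
    rw [hωdef, mul_pow, ← map_pow, hζ, map_one, inv_pow, hζ, inv_one, mul_one]
  have hωsub : ω - 1 ∈ A.nonunits := by
    have : ω - 1 = (g ζ - ζ) * ζ⁻¹ := by
      rw [hωdef, sub_mul, mul_inv_cancel₀ hζ0]
    rw [this, ValuationSubring.mem_nonunits_iff, map_mul]
    have h1 : A.valuation (g ζ - ζ) < 1 := (ValuationSubring.mem_nonunits_iff (A := A)).1 hin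
    have h2 : A.valuation ζ⁻¹ ≤ 1 := (A.valuation_le_one_iff _).2 hζinvA
    exact mul_lt_one_of_nonneg_of_lt_one_left zero_le h1 h2
  obtain ⟨hmem, hωI⟩ := (A.mem_nonunits_iff_exists_mem_maximalIdeal).1 hωsub
  set ω' : A := ⟨ω, hωA⟩ with hω'def
  have hω'I : ω' - 1 ∈ IsLocalRing.maximalIdeal A := by
    have : (⟨ω - 1, hmem⟩ : A) = ω' - 1 := Subtype.ext rfl
    rwa [this] at hωI
  have hω'n : ω' ^ n = 1 := Subtype.ext hωn
  have hω'1 : ω' - 1 ≠ 0 := by
    intro h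
    exact hω1 (congrArg Subtype.val (sub_eq_zero.1 h))
  have hgeom : ∑ i ∈ Finset.range n, ω' ^ i = 0 := by
    have h := mul_geom_sum ω' n
    rw [hω'n, sub_self] at h
    exact (mul_eq_zero.1 h).resolve_left hω'1
  have hnI : (n : A) ∈ IsLocalRing.maximalIdeal A := by
    have h1 : ∑ i ∈ Finset.range n, (ω' ^ i - 1) ∈ IsLocalRing.maximalIdeal A := by
      refine Ideal.sum_mem _ fun i _ => ?_
      obtain ⟨d, hd⟩ := sub_one_dvd_pow_sub_one ω' i
      rw [hd]
      exact Ideal.mul_mem_right _ _ hω'I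
    rw [Finset.sum_sub_distrib, hgeom, zero_sub, Finset.sum_const, Finset.card_range,
      nsmul_eq_mul, mul_one] at h1
    simpa using neg_mem h1
  have hqI : (q : A) ∈ IsLocalRing.maximalIdeal A := by
    obtain ⟨hmemq, hq⟩ := (A.mem_nonunits_iff_exists_mem_maximalIdeal).1 hA
    have : (⟨(q : Qb), hmemq⟩ : A) = (q : A) := Subtype.ext (by simp)
    rwa [this] at hq
  obtain ⟨a, b, hab⟩ := (Nat.isCoprime_iff_coprime.2 hqn)
  have h1I : (1 : A) ∈ IsLocalRing.maximalIdeal A := by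
    have : (1 : A) = (a : A) * (q : A) + (b : A) * (n : A) := by
      have := congrArg (Int.cast : ℤ → A) hab
      push_cast at this
      exact this.symm
    rw [this]
    exact add_mem (Ideal.mul_mem_left _ _ hqI) (Ideal.mul_mem_left _ _ hnI)
  exact (Ideal.ne_top_iff_one _).1 (IsLocalRing.maximalIdeal.isMaximal A).ne_top h1I


/-! ### the field `ℚ(ζ_{p²})` -/

open IsCyclotomicExtension IsCyclotomicExtension.Rat

variable (p : ℕ) [hp : Fact p.Prime]

instance cwL_neZero_sq : NeZero (p ^ 2) := ⟨pow_ne_zero 2 hp.out.ne_zero⟩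

/-- A chosen primitive `p²`-th root of unity in `Qb`. -/
noncomputable def cwL_zeta2 : Qb :=
  (HasEnoughRootsOfUnity.exists_primitiveRoot Qb (p ^ 2)).choose

theorem cwL_zeta2_spec : IsPrimitiveRoot (cwL_zeta2 p) (p ^ 2) :=
  (HasEnoughRootsOfUnity.exists_primitiveRoot Qb (p ^ 2)).choose_spec

/-- The field `ℚ(ζ_{p²})` inside `Qb`. -/
noncomputable def cwL_E : IntermediateField ℚ Qb :=
  IntermediateField.adjoin ℚ {cwL_zeta2 p}

instance cwL_E_isCyclotomicExtension : IsCyclotomicExtension {p ^ 2} ℚ (cwL_E p) :=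
  (cwL_zeta2_spec p).intermediateField_adjoin_isCyclotomicExtension ℚ

instance cwL_E_finiteDimensional : FiniteDimensional ℚ (cwL_E p) :=
  IsCyclotomicExtension.finiteDimensional {p ^ 2} ℚ (cwL_E p)

instance cwL_E_numberField : NumberField (cwL_E p) :=
  IsCyclotomicExtension.numberField {p ^ 2} ℚ (cwL_E p)

instance cwL_E_isGalois : IsGalois ℚ (cwL_E p) :=
  IsCyclotomicExtension.isGalois {p ^ 2} ℚ (cwL_E p)

theorem cwL_zeta2_mem : cwL_zeta2 p ∈ cwL_E p :=
  IntermediateField.mem_adjoin_simple_self ℚ _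

/-- `s` fixes `ℚ(ζ_{p²})` pointwise iff it fixes `ζ_{p²}`. -/
theorem cwL_mem_fixingSubgroup_E_iff (s : Γℚ) :
    s ∈ (cwL_E p).fixingSubgroup ↔ s (cwL_zeta2 p) = cwL_zeta2 p := by
  constructor
  · intro hs
    exact (IntermediateField.mem_fixingSubgroup_iff _ _).mp hs _ (cwL_zeta2_mem p)
  · intro h1
    have hstab : Subgroup.zpowers s ≤ MulAction.stabilizer Γℚ (cwL_zeta2 p) :=
      Subgroup.zpowers_le.mpr (by rw [MulAction.mem_stabilizer_iff]; exact h1)
    have h2 : cwL_E p ≤ IntermediateField.fixedField (Subgroup.zpowers s) := by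
      rw [cwL_E, IntermediateField.adjoin_le_iff]
      intro x hx
      rw [Set.mem_singleton_iff] at hx
      subst hx
      rintro ⟨t, ht⟩
      exact MulAction.mem_stabilizer_iff.mp (hstab ht)
    exact (IntermediateField.le_iff_le _ _).mp h2 (Subgroup.mem_zpowers s)

/-- `ℚ(ζ_{p²})` is unramified outside `S` as soon as `p ∈ S`. -/
theorem cwL_E_isUnramifiedOutside (S : Finset Nat.Primes) (hpS : (⟨p, hp.out⟩ : Nat.Primes) ∈ S) :
    (cwL_E p).IsUnramifiedOutside S := by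
  refine ⟨inferInstance, fun q hq A hA g hg => ?_⟩
  rw [cwL_mem_fixingSubgroup_E_iff]
  have hqp : Nat.Coprime (q : ℕ) (p ^ 2) := by
    apply Nat.Coprime.pow_right
    rw [Nat.coprime_primes q.2 hp.out]
    intro h
    apply hq
    have : q = ⟨p, hp.out⟩ := Subtype.ext h
    rw [this]
    exact hpS
  exact cwL_inertia_fixes_root (pow_ne_zero 2 hp.out.ne_zero) hqp A hA hg
    (cwL_zeta2_spec p).pow_eq_one

/-- the mod `p²` cyclotomic character. -/
noncomputable def cwL_chi2 : Γℚ →* (ZMod (p ^ 2))ˣ :=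
  (galEquivZMod (p ^ 2) (cwL_E p)).toMonoidHom.comp (AlgEquiv.restrictNormalHom (cwL_E p))

theorem cwL_chi2_surjective : Function.Surjective (cwL_chi2 p) := by
  have h1 : Function.Surjective (AlgEquiv.restrictNormalHom (F := ℚ) (K₁ := Qb) (cwL_E p)) :=
    AlgEquiv.restrictNormalHom_surjective Qb
  exact (galEquivZMod (p ^ 2) (cwL_E p)).surjective.comp h1

/-- `ζ_{p²}` as an element of `cwL_E p`. -/
noncomputable def cwL_zetaE : cwL_E p := ⟨cwL_zeta2 p, cwL_zeta2_mem p⟩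

theorem cwL_zetaE_spec : IsPrimitiveRoot (cwL_zetaE p) (p ^ 2) :=
  IsPrimitiveRoot.coe_submonoidClass_iff.mp (cwL_zeta2_spec p)

/-- the defining property of `cwL_chi2`. -/
theorem cwL_map_zeta2 (s : Γℚ) :
    s (cwL_zeta2 p) = cwL_zeta2 p ^ ((cwL_chi2 p s : (ZMod (p ^ 2))ˣ) : ZMod (p ^ 2)).val := by
  have h1 := galEquivZMod_apply_of_pow_eq (p ^ 2) (cwL_E p)
    (AlgEquiv.restrictNormal s (cwL_E p)) (cwL_zetaE_spec p).pow_eq_one
  have h2 : ((AlgEquiv.restrictNormal s (cwL_E p) (cwL_zetaE p) : cwL_E p) : Qb)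
      = s (cwL_zeta2 p) := AlgEquiv.restrictNormal_commutes s (cwL_E p) (cwL_zetaE p)
  rw [h1] at h2
  rw [← h2]
  rfl

theorem cwL_chi2_eq_one_iff (s : Γℚ) :
    cwL_chi2 p s = 1 ↔ s (cwL_zeta2 p) = cwL_zeta2 p := by
  have hlt : 1 < p ^ 2 := Nat.one_lt_pow (by norm_num) hp.out.one_lt
  have : Fact (1 < p ^ 2) := ⟨hlt⟩
  constructor
  · intro h
    rw [cwL_map_zeta2, h, Units.val_one, ZMod.val_one, pow_one]
  · intro h
    rw [cwL_map_zeta2] at h
    have h3 := (cwL_zeta2_spec p).pow_inj (ZMod.val_lt _) hlt (by rw [h, pow_one])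
    apply Units.ext
    apply ZMod.val_injective
    rw [h3, Units.val_one, ZMod.val_one]

theorem cwL_chi2_ker : (cwL_chi2 p).ker = (cwL_E p).fixingSubgroup := by
  ext s
  rw [MonoidHom.mem_ker, cwL_chi2_eq_one_iff, cwL_mem_fixingSubgroup_E_iff]

/-! ### the level `U₁` and the field `L1` -/

/-- the open normal subgroup `U₁ = G_{L1}` of `Γℚ`: the kernel of `χ₂ ^ (p - 1)`. -/
noncomputable def cwL_U1 : Subgroup Γℚ :=
  ((powMonoidHom (p - 1) : (ZMod (p ^ 2))ˣ →* (ZMod (p ^ 2))ˣ).comp (cwL_chi2 p)).ker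

instance cwL_U1_normal : (cwL_U1 p).Normal := MonoidHom.normal_ker _

theorem cwL_mem_U1_iff (s : Γℚ) : s ∈ cwL_U1 p ↔ cwL_chi2 p s ^ (p - 1) = 1 := by
  rw [cwL_U1, MonoidHom.mem_ker, MonoidHom.comp_apply, powMonoidHom_apply]

theorem cwL_E_fixingSubgroup_le : (cwL_E p).fixingSubgroup ≤ cwL_U1 p := by
  intro s hs
  rw [← cwL_chi2_ker, MonoidHom.mem_ker] at hs
  rw [cwL_mem_U1_iff, hs, one_pow]

theorem cwL_U1_isOpen : IsOpen (cwL_U1 p : Set Γℚ) :=
  Subgroup.isOpen_mono (cwL_E_fixingSubgroup_le p) (cwL_E p).fixingSubgroup_isOpen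

/-- `[Γℚ : U₁] = p` for `p` odd. -/
theorem cwL_U1_index (hp2 : p ≠ 2) : (cwL_U1 p).index = p := by
  have : IsCyclic (ZMod (p ^ 2))ˣ := ZMod.isCyclic_units_of_prime_pow p hp.out hp2 2
  have hp1 : 0 < p - 1 := Nat.sub_pos_of_lt hp.out.one_lt
  have hrange : ((powMonoidHom (p - 1) : (ZMod (p ^ 2))ˣ →* (ZMod (p ^ 2))ˣ).comp
      (cwL_chi2 p)).range = (powMonoidHom (p - 1) : (ZMod (p ^ 2))ˣ →* (ZMod (p ^ 2))ˣ).range := by
    rw [MonoidHom.range_comp, MonoidHom.range_eq_top.2 (cwL_chi2_surjective p),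
      ← MonoidHom.range_eq_map]
  rw [cwL_U1, Subgroup.index_ker, hrange, IsCyclic.card_powMonoidHom_range,
    Nat.card_eq_fintype_card, ZMod.card_units_eq_totient, Nat.totient_prime_pow hp.out (by norm_num)]
  have h1 : p ^ (2 - 1) * (p - 1) = p * (p - 1) := by norm_num
  rw [h1, Nat.gcd_mul_left_left, Nat.mul_div_cancel _ hp1]

/-- the degree-`p` subfield `L1` of `ℚ(ζ_{p²})`. -/
noncomputable def cwL_L1 : IntermediateField ℚ Qb := IntermediateField.fixedField (cwL_U1 p)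

theorem cwL_L1_fixingSubgroup : (cwL_L1 p).fixingSubgroup = cwL_U1 p :=
  fixingSubgroup_fixedField_of_isOpen (cwL_U1 p) (cwL_U1_isOpen p)

theorem cwL_L1_le_E : cwL_L1 p ≤ cwL_E p := by
  have h := IntermediateField.fixedField_antitone (cwL_E_fixingSubgroup_le p)
  rwa [InfiniteGalois.fixedField_fixingSubgroup] at h

instance cwL_L1_finiteDimensional : FiniteDimensional ℚ (cwL_L1 p) :=
  finiteDimensional_fixedField_of_isOpen (cwL_U1 p) (cwL_U1_isOpen p)

instance cwL_L1_numberField : NumberField (cwL_L1 p) where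
  to_charZero := inferInstance
  to_finiteDimensional := inferInstance

instance cwL_L1_isGalois : IsGalois ℚ (cwL_L1 p) :=
  isGalois_fixedField_of_isOpen (cwL_U1 p) (cwL_U1_isOpen p)

instance cwL_L1_fixingSubgroup_normal : (cwL_L1 p).fixingSubgroup.Normal := by
  rw [cwL_L1_fixingSubgroup]
  infer_instance

/-- `[L1 : ℚ] = p` for `p` odd. -/
theorem cwL_L1_finrank (hp2 : p ≠ 2) : Module.finrank ℚ (cwL_L1 p) = p := by
  have : IsGalois ℚ Qb := ⟨⟩
  rw [IntermediateField.finrank_eq_fixingSubgroup_index (F := ℚ) Qb (cwL_L1 p),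
    cwL_L1_fixingSubgroup, cwL_U1_index p hp2]

theorem cwL_L1_isUnramifiedOutside (S : Finset Nat.Primes)
    (hpS : (⟨p, hp.out⟩ : Nat.Primes) ∈ S) : (cwL_L1 p).IsUnramifiedOutside S :=
  (cwL_E_isUnramifiedOutside p S hpS).of_le (cwL_L1_le_E p)

/-- `U₁` is a level of `famS S` as soon as `p ∈ S`. -/
theorem cwL_U1_mem (S : Finset Nat.Primes) (hpS : (⟨p, hp.out⟩ : Nat.Primes) ∈ S) :
    cwL_U1 p ∈ (famS S).sets :=
  ⟨cwL_L1 p, cwL_L1_isUnramifiedOutside p S hpS, inferInstance, cwL_L1_fixingSubgroup p⟩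

/-! ### the quotient `Γℚ ⧸ U₁` is cyclic of order `p` -/

instance cwL_U1_finiteIndex : (cwL_U1 p).FiniteIndex := by
  have : IsGalois ℚ Qb := ⟨⟩
  have : (cwL_E p).fixingSubgroup.FiniteIndex := by
    refine ⟨?_⟩
    rw [← IntermediateField.finrank_eq_fixingSubgroup_index (F := ℚ) Qb (cwL_E p)]
    exact Module.finrank_pos.ne'
  exact Subgroup.finiteIndex_of_le (cwL_E_fixingSubgroup_le p)

noncomputable instance cwL_U1_fintypeQuotient : Fintype (Γℚ ⧸ cwL_U1 p) :=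
  Subgroup.fintypeQuotientOfFiniteIndex

theorem cwL_natCard_quotient (hp2 : p ≠ 2) : Nat.card (Γℚ ⧸ cwL_U1 p) = p := by
  rw [← Subgroup.index_eq_card, cwL_U1_index p hp2]

theorem cwL_card_quotient (hp2 : p ≠ 2) : Fintype.card (Γℚ ⧸ cwL_U1 p) = p := by
  rw [← Nat.card_eq_fintype_card, cwL_natCard_quotient p hp2]

theorem cwL_isCyclic_quotient (hp2 : p ≠ 2) : IsCyclic (Γℚ ⧸ cwL_U1 p) :=
  isCyclic_of_prime_card (cwL_natCard_quotient p hp2)

/-- a generator of `Γℚ ⧸ U₁`, in the shape consumed by `cycRep_exists_class`. -/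
theorem cwL_exists_generator (hp2 : p ≠ 2) :
    ∃ σ : Γℚ ⧸ cwL_U1 p, ∀ x, x ∈ Subgroup.zpowers σ :=
  (cwL_isCyclic_quotient p hp2).exists_generator

/-- `U₁` as a member of `famS S`. -/
noncomputable def cwL_U1s (S : Finset Nat.Primes) (hpS : (⟨p, hp.out⟩ : Nat.Primes) ∈ S) :
    ↥(famS S).sets := ⟨cwL_U1 p, cwL_U1_mem p S hpS⟩

/-! ### `L1 ≤ E` as a tower of number fields -/

noncomputable instance cwL_algebra_L1_E : Algebra (cwL_L1 p) (cwL_E p) :=
  algebraOfLE (cwL_L1_le_E p)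

instance cwL_isScalarTower_L1_E : IsScalarTower ℚ (cwL_L1 p) (cwL_E p) :=
  isScalarTower_of_le (cwL_L1_le_E p)

end Fermat.Agent.PT
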