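import Fermat.Agent.CFT.PT.CWLevel
import Fermat.Agent.CFT.Idele.PCycloWPow

set_option autoImplicit false

/-!
# S55 GLOBAL, (C-W) concrete, part A2: (W) at the level `L1 = cwL_L1 p`

The idele `(1 + p at p, 1 elsewhere)` of `ℚ` (and each of its prime-to-`p` powers) is not in
`ℚˣ · N_{L1/ℚ} J_{L1}` for `L1 = cwL_L1 p ≤ Qb`, the degree-`p` subfield of `ℚ(ζ_{p²})`.
-/

namespace Fermat.Agent.PT

open Fermat.Agent.CFT

variable (p : ℕ) [hp : Fact p.Prime]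

/-- (W), idele form, for `L1 = cwL_L1 p`. -/
theorem cwL_W_idele (hp2 : p ≠ 2) (m : ℕ) (hm : ¬ p ∣ m) :
    pcycWIdele (pcycPlace p hp.out) ^ m ∉
      (diagBase ℚ).range ⊔ (ideleNorm ℚ (cwL_L1 p)).range :=
  pcycW_pow_not_mem_of_finrank hp.out hp2 (cwL_L1 p) (cwL_E p) (cwL_L1_finrank p hp2) m hm

/-- (W), class form, for `L1 = cwL_L1 p`. -/
theorem cwL_W_class (hp2 : p ≠ 2) (m : ℕ) (hm : ¬ p ∣ m) :
    ((pcycWIdele (pcycPlace p hp.out) ^ m : baseIdeleGroup ℚ) : baseIdeleClass ℚ) ∉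
      (classNorm ℚ (cwL_L1 p)).range :=
  pcycW_mk_pow_not_mem_of_finrank hp.out hp2 (cwL_L1 p) (cwL_E p) (cwL_L1_finrank p hp2) m hm

end Fermat.Agent.PT
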