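import Mathlib
import Fermat.Agent.CFT.PT.CoprimeTorsion
import Fermat.Agent.CFT.PT.SubQuotRep

set_option autoImplicit false

/-!
# Capitulation, abstract form: `p`-power torsion classes die ⟹ coprime-to-`p` torsion

(helper21)  Abstract glue between the finite-level statements (TOR) [every class of `Cl_S(F)` is
torsion] + (CAP) [`p`-power-torsion classes capitulate at a later level] and helper14's predicate
`IsCoprimeTorsion (p : ℤ)` for the infinite-level quotient `Cl_∞ = 𝕁 / (𝕂·J_S·𝕌)`.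

* `capAbs_exists_coprime` : one group `X`, subgroup `N` which is `p`-power root-closed, `X / N`
  torsion ⟹ every element of `X / N` is killed by an integer prime to `p`;
* `capAbs_of_levels` : the same from a covering family of levels `ι i : J i →* X`;
* `capAbs_isCoprimeTorsion_sqRep` : the conclusion in the form
  `IsCoprimeTorsion (p : ℤ) (sqRep A B hA hB)` (helper29's sub-quotient representations).
-/

namespace Fermat.Agent.PT

open Fermat.Agent.CFT

section Abstract

variable {X : Type*} [CommGroup X] (N : Subgroup X) {p : ℕ}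

/-- split off the `p`-part of an exponent. -/
theorem capAbs_exists_eq_pow_mul (hp : p.Prime) {n : ℕ} (hn : 0 < n) :
    ∃ k m : ℕ, m.Coprime p ∧ n = p ^ k * m := by
  obtain ⟨k, m, hm, rfl⟩ := Nat.exists_eq_pow_mul_and_not_dvd hn.ne' p hp.ne_one
  exact ⟨k, m, ((Nat.Prime.coprime_iff_not_dvd hp).2 hm).symm, rfl⟩

/-- `N` closed under `p`-power roots and `X / N` torsion ⟹ `X / N` is prime-to-`p` torsion. -/
theorem capAbs_exists_coprime (hp : p.Prime) (hcap : ∀ (x : X) (k : ℕ), x ^ (p ^ k) ∈ N → x ∈ N)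
    (htor : ∀ x : X, ∃ n : ℕ, 0 < n ∧ x ^ n ∈ N) (x : X) :
    ∃ m : ℕ, m.Coprime p ∧ x ^ m ∈ N := by
  obtain ⟨n, hn, hx⟩ := htor x
  obtain ⟨k, m, hm, rfl⟩ := capAbs_exists_eq_pow_mul hp hn
  refine ⟨m, hm, hcap (x ^ m) k ?_⟩
  rwa [← pow_mul, mul_comm]

/-- **levels form**: `X` is covered by the images of `ι i : J i →* X`, the subgroups `Nf i` map
into `N`, every `J i / Nf i` is torsion (TOR), and classes killed by a power of `p` capitulate at
another level (CAP).  Then `X / N` is prime-to-`p` torsion. -/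
theorem capAbs_of_levels (hp : p.Prime) {I : Type*} (J : I → Type*) [∀ i, CommGroup (J i)]
    (ι : ∀ i, J i →* X) (Nf : ∀ i, Subgroup (J i))
    (hcover : ∀ x : X, ∃ (i : I) (y : J i), ι i y = x)
    (hN : ∀ (i : I) (y : J i), y ∈ Nf i → ι i y ∈ N)
    (htor : ∀ (i : I) (y : J i), ∃ n : ℕ, 0 < n ∧ y ^ n ∈ Nf i)
    (hcap : ∀ (i : I) (y : J i) (k : ℕ), y ^ (p ^ k) ∈ Nf i →
      ∃ (j : I) (y' : J j), ι j y' = ι i y ∧ y' ∈ Nf j) (x : X) :
    ∃ m : ℕ, m.Coprime p ∧ x ^ m ∈ N := by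
  obtain ⟨i, y, rfl⟩ := hcover x
  obtain ⟨n, hn, hy⟩ := htor i y
  obtain ⟨k, m, hm, rfl⟩ := capAbs_exists_eq_pow_mul hp hn
  obtain ⟨j, y', hy', hy'N⟩ := hcap i (y ^ m) k (by rwa [← pow_mul, mul_comm])
  refine ⟨m, hm, ?_⟩
  rw [← map_pow, ← hy']
  exact hN j y' hy'N

end Abstract

section SqRep

variable {G : Type} [Group G] {X : Type} [CommGroup X] [MulDistribMulAction G X]
  (A B : Subgroup X) (hA : IsStableSub G A) (hB : IsStableSub G B) {p : ℕ}

/-- the conclusion in helper14's vocabulary, for helper29's sub-quotient representation. -/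
theorem capAbs_isCoprimeTorsion_sqRep
    (h : ∀ x ∈ A, ∃ m : ℕ, m.Coprime p ∧ x ^ m ∈ B) :
    IsCoprimeTorsion (p : ℤ) (sqRep A B hA hB) := by
  intro c
  obtain ⟨x, rfl⟩ := sqMk_surjective A B hA hB c
  obtain ⟨m, hm, hx⟩ := h x x.2
  refine ⟨(m : ℤ), Nat.isCoprime_iff_coprime.2 hm, ?_⟩
  rw [natCast_zsmul]
  have e : m • sqMk A B hA hB x = sqMk A B hA hB (x ^ m) := rfl
  rw [e, sqMk_eq_zero_iff]
  exact hx

end SqRep

end Fermat.Agent.PT
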