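/-
S55 engine (P5): effaceability of level-constant cohomology.

(i) `exists_HlcRes_eq_zero`: a class of positive degree with coefficients in a smooth module on
which some member of the family acts trivially (e.g. a finitely generated smooth module) dies
after restriction to a small enough member of the family.
-/
import Fermat.Agent.CFT.PT.SmoothRestrict

set_option autoImplicit false

namespace Fermat.Agent.PT

open CategoryTheory groupCohomology Rep

universe u

variable {k G : Type u} [CommRing k] [Group G]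

/-- The signs of the faces: `∑_{j ≤ n} (-1)^(j+1)`. -/
theorem efface_sum_neg_one_pow (n : ℕ) :
    ∑ j : Fin (n + 1), (-1 : k) ^ ((j : ℕ) + 1) = if Even n then -1 else 0 := by
  induction n with
  | zero => simp
  | succ n ih =>
    rw [Fin.sum_univ_castSucc]
    simp only [Fin.val_castSucc, Fin.val_last]
    rw [ih]
    by_cases h : Even n
    · have h' : ¬ Even (n + 1) := Nat.not_even_iff_odd.2 (Even.add_one h)
      rw [if_pos h, if_neg h', pow_succ, pow_succ, h.neg_one_pow]
      ring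
    · have ho : Odd n := Nat.not_even_iff_odd.1 h
      have h' : Even (n + 1) := Odd.add_one ho
      rw [if_neg h, if_pos h', pow_succ, pow_succ, ho.neg_one_pow]
      ring

/-- The differential of a constant cochain when the group acts trivially. -/
theorem efface_d_const (A : Rep.{u} k G) (htriv : ∀ g a, A.ρ g a = a) (n : ℕ) (a : A) :
    (inhomogeneousCochains.d A n).hom (fun _ => a) = fun _ => if Even n then 0 else a := by
  funext g
  rw [inhomogeneousCochains.d_hom_apply, htriv, ← Finset.sum_smul, efface_sum_neg_one_pow]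
  by_cases h : Even n
  · rw [if_pos h, if_pos h, neg_smul, one_smul, add_neg_cancel]
  · rw [if_neg h, if_neg h, zero_smul, add_zero]

/-- A constant cochain is level-constant when the group acts trivially. -/
theorem efface_const_mem_lcCochains (𝔉 : LevelFamily G) (A : Rep.{u} k G)
    (htriv : ∀ g a, A.ρ g a = a) (n : ℕ) (a : A) :
    (fun _ : Fin n → G => a) ∈ lcCochains 𝔉 A n := by
  obtain ⟨U, hU⟩ := 𝔉.nonempty
  exact ⟨U, hU, fun _ _ _ => rfl, fun _ u _ => htriv u a⟩

/-- A constant cocycle of positive degree on a trivially acting group is a coboundary of a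
level-constant cochain. -/
theorem efface_lcπ_const_eq_zero (𝔉 : LevelFamily G) (A : Rep.{u} k G)
    (htriv : ∀ g a, A.ρ g a = a) (n : ℕ) (c : lcCocycles 𝔉 A (n + 1))
    (hc : ∃ a : A, c.1 = fun _ => a) : lcπ 𝔉 A (n + 1) c = 0 := by
  obtain ⟨a, ha⟩ := hc
  rw [lcπ_eq_zero_iff]
  by_cases h : Even n
  · -- `n + 1` odd: the cocycle condition forces `a = 0`
    have hd : (inhomogeneousCochains.d A (n + 1)).hom c.1 = 0 := LinearMap.mem_ker.1 c.2.2
    rw [ha, efface_d_const A htriv (n + 1) a,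
      if_neg (Nat.not_even_iff_odd.2 (Even.add_one h))] at hd
    have ha0 : a = 0 := congrFun hd (fun _ => 1)
    refine ⟨0, Submodule.zero_mem _, ?_⟩
    rw [map_zero, ha, ha0]
    rfl
  · -- `n + 1` even: `const a = d (const a)`
    refine ⟨fun _ => a, efface_const_mem_lcCochains 𝔉 A htriv n a, ?_⟩
    rw [efface_d_const A htriv n a, if_neg h, ha]

/-- **Effaceability by restriction**: if `U₀ ∈ 𝔉` acts trivially on `N`, every class of positive
degree dies on a small enough member of the family. -/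
theorem exists_HlcRes_eq_zero (𝔉 : LevelFamily G) (N : Rep.{u} k G) {U₀ : Subgroup G}
    (hU₀ : U₀ ∈ 𝔉.sets) (htriv : ∀ u ∈ U₀, ∀ a, N.ρ u a = a) (n : ℕ) (x : Hlc 𝔉 N (n + 1))
    {V₁ : Subgroup G} (hV₁ : V₁ ∈ 𝔉.sets) :
    ∃ V ∈ 𝔉.sets, V ≤ V₁ ∧ (HlcRes 𝔉 V N (n + 1)).hom x = 0 := by
  obtain ⟨c, rfl⟩ := lcπ_surjective 𝔉 N (n + 1) x
  obtain ⟨U, hU, hcU⟩ := c.2.1
  obtain ⟨W, hW, hWle⟩ := 𝔉.directed U hU U₀ hU₀
  obtain ⟨V, hV, hVle⟩ := 𝔉.directed W hW V₁ hV₁
  refine ⟨V, hV, hVle.trans inf_le_right, ?_⟩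
  have hVU : V ≤ U := hVle.trans (inf_le_left.trans (hWle.trans inf_le_left))
  have hVU₀ : V ≤ U₀ := hVle.trans (inf_le_left.trans (hWle.trans inf_le_right))
  rw [HlcRes_lcπ]
  refine efface_lcπ_const_eq_zero (𝔉.restrict V) (res V.subtype N)
    (fun v a => htriv (v : G) (hVU₀ v.2) a) n _ ⟨c.1 (fun _ => 1), ?_⟩
  funext g
  change c.1 (V.subtype ∘ g) = c.1 (fun _ => 1)
  refine hcU.1 _ _ fun i => ?_
  have : ((V.subtype ∘ g) i)⁻¹ * (1 : G) = ((g i)⁻¹ : V) := by simp
  rw [this]
  exact hVU (g i)⁻¹.2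

/-- A finitely generated smooth module is acted on trivially by some member of the family. -/
theorem exists_mem_forall_ρ_eq_of_finite (𝔉 : LevelFamily G) (N : Rep.{u} k G)
    (hN : IsSmooth 𝔉 N) [Module.Finite k N.V] :
    ∃ U ∈ 𝔉.sets, ∀ u ∈ U, ∀ a, N.ρ u a = a := by
  obtain ⟨s, hs⟩ := (Module.finite_def (R := k) (M := N.V)).1 inferInstance
  choose W hW hWfix using hN
  obtain ⟨U, hU, hUle⟩ := exists_le_of_finset 𝔉.nonempty 𝔉.directed s W (fun a _ => hW a)
  refine ⟨U, hU, fun u hu a => ?_⟩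
  have hle : Submodule.span k (s : Set N.V) ≤ LinearMap.ker (N.ρ u - LinearMap.id) := by
    rw [Submodule.span_le]
    intro b hb
    rw [SetLike.mem_coe, LinearMap.mem_ker, LinearMap.sub_apply, LinearMap.id_apply, sub_eq_zero]
    exact hWfix b u (hUle b hb hu)
  have ha : a ∈ LinearMap.ker (N.ρ u - LinearMap.id) := hle (hs ▸ Submodule.mem_top)
  rw [LinearMap.mem_ker, LinearMap.sub_apply, LinearMap.id_apply, sub_eq_zero] at ha
  exact ha

/-- **Effaceability by restriction** for finitely generated smooth modules. -/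
theorem exists_HlcRes_eq_zero_of_finite (𝔉 : LevelFamily G) (N : Rep.{u} k G)
    (hN : IsSmooth 𝔉 N) [Module.Finite k N.V] (n : ℕ) (x : Hlc 𝔉 N (n + 1))
    {V₁ : Subgroup G} (hV₁ : V₁ ∈ 𝔉.sets) :
    ∃ V ∈ 𝔉.sets, V ≤ V₁ ∧ (HlcRes 𝔉 V N (n + 1)).hom x = 0 := by
  obtain ⟨U₀, hU₀, htriv⟩ := exists_mem_forall_ρ_eq_of_finite 𝔉 N hN
  exact exists_HlcRes_eq_zero 𝔉 N hU₀ htriv n x hV₁

end Fermat.Agent.PT
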