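/-
S55 engine (P5)(ii): the unit short exact sequence `0 ⟶ N ⟶ Coind_V Res_V N ⟶ Q ⟶ 0`.

For `V ∈ 𝔉` of finite index and `N` smooth (finitely generated over a noetherian `k`), all three
terms are smooth (finitely generated).
-/
import Fermat.Agent.CFT.PT.Efface
import Fermat.Agent.CFT.PT.SmoothShapiro
import Fermat.Agent.CFT.PT.SmoothCor

set_option autoImplicit false

namespace Fermat.Agent.PT

open CategoryTheory groupCohomology Rep Fermat.Agent.CFT

universe u

variable {k G : Type u} [CommRing k] [Group G]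

section Seq

variable (V : Subgroup G) (N : Rep.{u} k G)

theorem coindUnit_injective : Function.Injective (coindUnit V N).hom := by
  intro a b h
  have h1 : ((coindUnit V N).hom a).1 1 = ((coindUnit V N).hom b).1 1 := by rw [h]
  rw [coindUnit_apply, coindUnit_apply, map_one] at h1
  exact h1

instance effaceMonoUnit : Mono (coindUnit V N) :=
  (Rep.mono_iff_injective _).2 (coindUnit_injective V N)

/-- The short complex `N ⟶ Coind_V Res_V N ⟶ coker`. -/
noncomputable def effaceSC : ShortComplex (Rep.{u} k G) :=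
  ShortComplex.mk (coindUnit V N) (Limits.cokernel.π (coindUnit V N))
    (Limits.cokernel.condition _)

theorem effaceSC_shortExact : (effaceSC V N).ShortExact :=
  { exact := ShortComplex.exact_cokernel _
    mono_f := inferInstanceAs (Mono (coindUnit V N))
    epi_g := inferInstanceAs (Epi (Limits.cokernel.π (coindUnit V N))) }

theorem effaceSC_g_surjective : Function.Surjective (effaceSC V N).g.hom :=
  (Rep.epi_iff_surjective _).1 (effaceSC_shortExact V N).epi_g

variable {𝔉 : LevelFamily G}

theorem isSmooth_effaceSC_X₂ (hfin : 𝔉.FiniteIndex) (hV : V ∈ 𝔉.sets) (hN : IsSmooth 𝔉 N) :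
    IsSmooth 𝔉 (effaceSC V N).X₂ :=
  isSmooth_coind hfin (isOpenFor_of_mem hV) (hN.res_subtype V)

theorem isSmooth_effaceSC_X₃ (hfin : 𝔉.FiniteIndex) (hV : V ∈ 𝔉.sets) (hN : IsSmooth 𝔉 N) :
    IsSmooth 𝔉 (effaceSC V N).X₃ :=
  IsSmooth.of_surjective (effaceSC V N).g (effaceSC_g_surjective V N)
    (isSmooth_effaceSC_X₂ V N hfin hV hN)

/-- Evaluation of a coinduced function at the coset representatives (injective for normal `V`). -/
noncomputable def coindEvalOut (B : Rep.{u} k V) :
    B.ρ.coindV V.subtype →ₗ[k] ((G ⧸ V) → B.V) where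
  toFun f q := f.1 q.out
  map_add' _ _ := rfl
  map_smul' _ _ := rfl

theorem coindEvalOut_injective [V.Normal] (B : Rep.{u} k V) :
    Function.Injective (coindEvalOut V B) := by
  intro f f' h
  apply Subtype.ext
  funext g
  -- `g = v * out` with `v ∈ V` (normality)
  have hq : ((g : G ⧸ V).out : G ⧸ V) = (g : G ⧸ V) := QuotientGroup.out_eq' _
  have hv : g * ((g : G ⧸ V).out)⁻¹ ∈ V := by
    have h1 : ((g : G ⧸ V).out)⁻¹ * g ∈ V := QuotientGroup.eq.1 hq
    have h2 := Subgroup.Normal.conj_mem (inferInstance : V.Normal) _ h1 ((g : G ⧸ V).out)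
    have e : (g : G ⧸ V).out * (((g : G ⧸ V).out)⁻¹ * g) * ((g : G ⧸ V).out)⁻¹ =
        g * ((g : G ⧸ V).out)⁻¹ := by group
    rwa [e] at h2
  have hg : g = V.subtype ⟨_, hv⟩ * (g : G ⧸ V).out := by
    show g = g * ((g : G ⧸ V).out)⁻¹ * (g : G ⧸ V).out
    group
  have e1 := f.2 ⟨_, hv⟩ (g : G ⧸ V).out
  have e2 := f'.2 ⟨_, hv⟩ (g : G ⧸ V).out
  rw [← hg] at e1 e2
  rw [e1, e2]
  congr 1
  exact congrFun h (g : G ⧸ V)

theorem finite_coind [IsNoetherianRing k] [V.Normal] [V.FiniteIndex] (B : Rep.{u} k V)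
    [Module.Finite k B.V] : Module.Finite k (coind V.subtype B).V := by
  have : Finite (G ⧸ V) := Subgroup.finite_quotient_of_finiteIndex
  exact Module.Finite.of_injective (coindEvalOut V B) (coindEvalOut_injective V B)

theorem finite_effaceSC_X₂ [IsNoetherianRing k] [V.Normal] [V.FiniteIndex]
    [Module.Finite k N.V] : Module.Finite k (effaceSC V N).X₂.V :=
  finite_coind V (res V.subtype N)

theorem finite_effaceSC_X₃ [IsNoetherianRing k] [V.Normal] [V.FiniteIndex]
    [Module.Finite k N.V] : Module.Finite k (effaceSC V N).X₃.V := by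
  have := finite_effaceSC_X₂ V N
  exact Module.Finite.of_surjective (effaceSC V N).g.hom.toLinearMap (effaceSC_g_surjective V N)

end Seq

end Fermat.Agent.PT
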