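/-
S55 engine (P5)(iii): additivity.

If `V` acts trivially on `N` and `N` has a finite basis of `d` elements, then
`Coind_V Res_V N` is a direct sum of `d` copies of `Coind_V Res_V k` (`effaceInc`, `effacePr` with
the orthogonality and completeness relations), and every additive functor-like assignment `F`
(e.g. `Hlc 𝔉 · n` with `HlcMap`/`HlcCoeff`, `Hcc 𝔏 · n` with `HccMap`) satisfies
`F (Coind_V Res_V N) ≃ (Fin d → F (Coind_V Res_V k))`.
-/
import Fermat.Agent.CFT.PT.EffaceSeq

set_option autoImplicit false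

namespace Fermat.Agent.PT

open CategoryTheory groupCohomology Rep

universe u v

section LinAlg

variable {k : Type*} [CommRing k] {ι : Type*} [Fintype ι] [DecidableEq ι] {W M : Type*}
  [AddCommGroup W] [Module k W] [AddCommGroup M] [Module k M]

/-- A complete orthogonal system of inclusions and projections splits `W` as `ι → M`. -/
noncomputable def splitEquivPi (inc : ι → M →ₗ[k] W) (pr : ι → W →ₗ[k] M)
    (h1 : ∀ i j x, pr j (inc i x) = if i = j then x else 0)
    (h2 : ∀ w, ∑ i, inc i (pr i w) = w) : W ≃ₗ[k] (ι → M) where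
  toFun w i := pr i w
  invFun m := ∑ i, inc i (m i)
  left_inv := h2
  right_inv m := by
    funext j
    simp [map_sum, h1]
  map_add' w w' := by
    funext i
    simp
  map_smul' c w := by
    funext i
    simp

end LinAlg

section Functor

variable {k G : Type u} [CommRing k] [Group G]

/-- **Additivity**: an additive functor-like assignment turns a splitting `N ≅ M^d` in `Rep k G`
into a splitting `F N ≃ (Fin d → F M)`. -/
noncomputable def splitEquivOfAdditive {N M : Rep.{u} k G} {d : ℕ} (inc : Fin d → (M ⟶ N))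
    (pr : Fin d → (N ⟶ M)) (h1 : ∀ i j, inc i ≫ pr j = if i = j then 𝟙 M else 0)
    (h2 : ∑ i, pr i ≫ inc i = 𝟙 N)
    (F : Rep.{u} k G → Type v) [∀ A, AddCommGroup (F A)] [∀ A, Module k (F A)]
    (Fmap : ∀ {A B : Rep.{u} k G}, (A ⟶ B) → (F A →ₗ[k] F B))
    (hid : ∀ A : Rep.{u} k G, Fmap (𝟙 A) = LinearMap.id)
    (hcomp : ∀ {A B C : Rep.{u} k G} (φ : A ⟶ B) (ψ : B ⟶ C), Fmap (φ ≫ ψ) = Fmap ψ ∘ₗ Fmap φ)
    (hadd : ∀ {A B : Rep.{u} k G} (φ ψ : A ⟶ B), Fmap (φ + ψ) = Fmap φ + Fmap ψ) :
    F N ≃ₗ[k] (Fin d → F M) := by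
  have hzero : ∀ {A B : Rep.{u} k G}, Fmap (0 : A ⟶ B) = 0 := by
    intro A B
    have h := hadd (0 : A ⟶ B) 0
    rw [add_zero] at h
    exact left_eq_add.1 h
  have hsum : ∀ {A B : Rep.{u} k G} (s : Finset (Fin d)) (φ : Fin d → (A ⟶ B)),
      Fmap (∑ i ∈ s, φ i) = ∑ i ∈ s, Fmap (φ i) := by
    intro A B s φ
    induction s using Finset.induction_on with
    | empty => simp [hzero]
    | insert a s ha ih => rw [Finset.sum_insert ha, Finset.sum_insert ha, hadd, ih]
  refine splitEquivPi (fun i => Fmap (inc i)) (fun i => Fmap (pr i)) ?_ ?_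
  · intro i j x
    have h := hcomp (inc i) (pr j)
    rw [h1 i j] at h
    have h' : Fmap (pr j) (Fmap (inc i) x) = (Fmap (if i = j then 𝟙 M else 0) : F M →ₗ[k] F M) x := by
      rw [h]; rfl
    rw [h']
    by_cases hij : i = j
    · rw [if_pos hij, if_pos hij, hid]; rfl
    · rw [if_neg hij, if_neg hij, hzero]; rfl
  · intro w
    have h := hsum Finset.univ (fun i => pr i ≫ inc i)
    rw [h2, hid] at h
    have h' : ∀ i, Fmap (pr i ≫ inc i) = Fmap (inc i) ∘ₗ Fmap (pr i) := fun i => hcomp _ _
    simp_rw [h'] at h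
    have := congrArg (fun f : F N →ₗ[k] F N => f w) h
    simp only [LinearMap.id_apply, LinearMap.sum_apply, LinearMap.comp_apply] at this
    exact this.symm

end Functor

section Decomp

variable {k G : Type u} [CommRing k] [Group G] (V : Subgroup G) (N : Rep.{u} k G)
  (htriv : ∀ v ∈ V, ∀ a, N.ρ v a = a) {d : ℕ} (b : Module.Basis (Fin d) k N.V)

/-- `c ↦ c • b i`, as a morphism `Res_V k ⟶ Res_V N` (`V` acts trivially on `N`). -/
noncomputable def effaceInc₀ (i : Fin d) :
    res V.subtype (Rep.trivial k G k) ⟶ res V.subtype N :=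
  Rep.ofHom
    { toLinearMap := LinearMap.toSpanSingleton k N.V (b i)
      isIntertwining' := fun v => by
        apply LinearMap.ext
        intro c
        exact (htriv (v : G) v.2 (c • b i)).symm }

/-- the `i`-th coordinate, as a morphism `Res_V N ⟶ Res_V k`. -/
noncomputable def effacePr₀ (i : Fin d) :
    res V.subtype N ⟶ res V.subtype (Rep.trivial k G k) :=
  Rep.ofHom
    { toLinearMap := b.coord i
      isIntertwining' := fun v => by
        apply LinearMap.ext
        intro a
        exact congrArg (b.coord i) (htriv (v : G) v.2 a) }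

theorem effaceInc₀_apply (i : Fin d) (c : k) : (effaceInc₀ V N htriv b i).hom c = c • b i := rfl

theorem effacePr₀_apply (i : Fin d) (a : N.V) : (effacePr₀ V N htriv b i).hom a = b.repr a i := rfl

/-- inclusion of the `i`-th summand `Coind_V Res_V k ⟶ Coind_V Res_V N`. -/
noncomputable def effaceInc (i : Fin d) :
    coind V.subtype (res V.subtype (Rep.trivial k G k)) ⟶ coind V.subtype (res V.subtype N) :=
  coindMap V.subtype (effaceInc₀ V N htriv b i)

/-- projection to the `i`-th summand `Coind_V Res_V N ⟶ Coind_V Res_V k`. -/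
noncomputable def effacePr (i : Fin d) :
    coind V.subtype (res V.subtype N) ⟶ coind V.subtype (res V.subtype (Rep.trivial k G k)) :=
  coindMap V.subtype (effacePr₀ V N htriv b i)

theorem effaceInc_apply (i : Fin d)
    (f : (res V.subtype (Rep.trivial k G k)).ρ.coindV V.subtype) (g : G) :
    ((effaceInc V N htriv b i).hom f).1 g = (f.1 g : k) • b i := rfl

theorem effacePr_apply (i : Fin d) (f : (res V.subtype N).ρ.coindV V.subtype) (g : G) :
    ((effacePr V N htriv b i).hom f).1 g = b.repr (f.1 g) i := rfl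

theorem effaceInc_comp_effacePr (i j : Fin d) :
    effaceInc V N htriv b i ≫ effacePr V N htriv b j =
      if i = j then 𝟙 (coind V.subtype (res V.subtype (Rep.trivial k G k))) else 0 := by
  by_cases hij : i = j
  · rw [if_pos hij]
    subst hij
    ext f g
    change b.repr ((f.1 g : k) • b i) i = f.1 g
    rw [map_smul, Module.Basis.repr_self]
    simp
  · rw [if_neg hij]
    ext f g
    change b.repr ((f.1 g : k) • b i) j = 0
    rw [map_smul, Module.Basis.repr_self]
    simp [Finsupp.single_apply, hij]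

theorem sum_effacePr_comp_effaceInc :
    ∑ i, effacePr V N htriv b i ≫ effaceInc V N htriv b i =
      𝟙 (coind V.subtype (res V.subtype N)) := by
  apply Rep.hom_ext
  rw [Rep.sum_hom]
  ext f g
  have h1 : ((∑ i, (effacePr V N htriv b i ≫ effaceInc V N htriv b i).hom) f).1 g =
      ∑ i, b.repr (f.1 g) i • b i := by
    rw [Representation.IntertwiningMap.sum_apply]
    change (∑ i, ((effacePr V N htriv b i ≫ effaceInc V N htriv b i).hom f)).1 g = _
    rw [Submodule.coe_sum, Finset.sum_apply]
    rfl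
  exact h1.trans (b.sum_repr (f.1 g))

/-- **Additivity for induced modules**: for an additive functor-like assignment `F`,
`F (Coind_V Res_V N) ≃ (Fin d → F (Coind_V Res_V k))` when `V` acts trivially on the free module
`N` of rank `d`. -/
noncomputable def effaceSplitEquiv
    (F : Rep.{u} k G → Type v) [∀ A, AddCommGroup (F A)] [∀ A, Module k (F A)]
    (Fmap : ∀ {A B : Rep.{u} k G}, (A ⟶ B) → (F A →ₗ[k] F B))
    (hid : ∀ A : Rep.{u} k G, Fmap (𝟙 A) = LinearMap.id)
    (hcomp : ∀ {A B C : Rep.{u} k G} (φ : A ⟶ B) (ψ : B ⟶ C), Fmap (φ ≫ ψ) = Fmap ψ ∘ₗ Fmap φ)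
    (hadd : ∀ {A B : Rep.{u} k G} (φ ψ : A ⟶ B), Fmap (φ + ψ) = Fmap φ + Fmap ψ) :
    F (coind V.subtype (res V.subtype N)) ≃ₗ[k]
      (Fin d → F (coind V.subtype (res V.subtype (Rep.trivial k G k)))) :=
  splitEquivOfAdditive (effaceInc V N htriv b) (effacePr V N htriv b)
    (effaceInc_comp_effacePr V N htriv b) (sum_effacePr_comp_effaceInc V N htriv b)
    F Fmap hid hcomp hadd

end Decomp

end Fermat.Agent.PT
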