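/-
S55 engine (P5)(iii), instances: additivity of `Hlc` and `Hcc` in the coefficients, and the
resulting splittings for induced modules `Coind_V Res_V N` with `V` acting trivially on `N`.
-/
import Fermat.Agent.CFT.PT.EffaceAdd
import Fermat.Agent.CFT.PT.ConeFunct

set_option autoImplicit false

namespace Fermat.Agent.PT

open CategoryTheory groupCohomology Rep

universe u

variable {k G : Type u} [CommRing k] [Group G]

section Add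

variable {A A' : Rep.{u} k G} (φ ψ : A ⟶ A') (𝔉 : LevelFamily G)

theorem HlcCoeff_add (n : ℕ) (x : Hlc 𝔉 A n) :
    HlcCoeff (φ + ψ) 𝔉 n x = HlcCoeff φ 𝔉 n x + HlcCoeff ψ 𝔉 n x := by
  obtain ⟨c, rfl⟩ := lcπ_surjective 𝔉 A n x
  rw [HlcCoeff_lcπ, HlcCoeff_lcπ, HlcCoeff_lcπ, ← map_add]
  rfl

theorem HlcCoeff_add' (n : ℕ) :
    HlcCoeff (φ + ψ) 𝔉 n = HlcCoeff φ 𝔉 n + HlcCoeff ψ 𝔉 n :=
  LinearMap.ext fun x => HlcCoeff_add φ ψ 𝔉 n x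

variable {𝔉} (𝔏 : LocSystem 𝔉)

theorem HccMap_add (n : ℕ) (z : Hcc 𝔏 A n) :
    HccMap 𝔏 (φ + ψ) n z = HccMap 𝔏 φ n z + HccMap 𝔏 ψ n z := by
  obtain ⟨w, rfl⟩ := ccπ_surjective 𝔏 A n z
  rw [HccMap_ccπ, HccMap_ccπ, HccMap_ccπ, ← map_add]
  rfl

theorem HccMap_add' (n : ℕ) : HccMap 𝔏 (φ + ψ) n = HccMap 𝔏 φ n + HccMap 𝔏 ψ n :=
  LinearMap.ext fun z => HccMap_add φ ψ 𝔏 n z

end Add

section Split

variable (V : Subgroup G) (N : Rep.{u} k G) (htriv : ∀ v ∈ V, ∀ a, N.ρ v a = a) {d : ℕ}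
  (b : Module.Basis (Fin d) k N.V)

/-- `Hlcⁿ(Coind_V Res_V N) ≃ (Hlcⁿ(Coind_V Res_V k))^d` when `V` acts trivially on `N ≅ k^d`. -/
noncomputable def HlcSplitEquiv (𝔉 : LevelFamily G) (n : ℕ) :
    Hlc 𝔉 (coind V.subtype (res V.subtype N)) n ≃ₗ[k]
      (Fin d → Hlc 𝔉 (coind V.subtype (res V.subtype (Rep.trivial k G k))) n) :=
  effaceSplitEquiv V N htriv b (fun A => Hlc 𝔉 A n) (fun φ => HlcCoeff φ 𝔉 n)
    (fun A => LinearMap.ext fun x => HlcCoeff_id 𝔉 n x)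
    (fun φ ψ => LinearMap.ext fun x => HlcCoeff_comp φ ψ 𝔉 n x)
    (fun φ ψ => HlcCoeff_add' φ ψ 𝔉 n)

/-- `Hccⁿ(Coind_V Res_V N) ≃ (Hccⁿ(Coind_V Res_V k))^d` when `V` acts trivially on `N ≅ k^d`. -/
noncomputable def HccSplitEquiv {𝔉 : LevelFamily G} (𝔏 : LocSystem 𝔉) (n : ℕ) :
    Hcc 𝔏 (coind V.subtype (res V.subtype N)) n ≃ₗ[k]
      (Fin d → Hcc 𝔏 (coind V.subtype (res V.subtype (Rep.trivial k G k))) n) :=
  effaceSplitEquiv V N htriv b (fun A => Hcc 𝔏 A n) (fun φ => HccMap 𝔏 φ n)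
    (fun A => LinearMap.ext fun x => HccMap_id 𝔏 n x)
    (fun φ ψ => LinearMap.ext fun x => HccMap_comp 𝔏 φ ψ n x)
    (fun φ ψ => HccMap_add' φ ψ 𝔏 n)

end Split

end Fermat.Agent.PT
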