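import Fermat.Agent.CFT.PT.Cone

/-!
# S55, (P1): the dimension of `Ш` from the cone long exact sequence

Pure rank–nullity.  For a local system `𝔏` over `(G, 𝔉)` and coefficient modules `M`, `M'`:

* `finrank_ker_locRes_tail` : if `Hlc^{n+1}(G, M) = 0` then
  `dim ker (locRes^n) + dim ∏_v Hlc^n(G_v, M) = dim Hlc^n(G, M) + dim Hcc^n(M)`
  (for `n = 2`: `s^2 = h^2 - l^2 + h^3_c`).
* `finrank_ker_locRes_head` : if `locRes^0` is injective then
  `dim ker (locRes^1) + dim ∏_v Hlc^0(G_v, M') = dim Hcc^0(M') + dim Hlc^0(G, M')`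
  (`s^1 = h^1_c - l^0 + h^0`).
* `finrank_sha_eq` : hence `dim Ш^2(M) = dim Ш^1(M')` as soon as
  `h^1_c(M') = h^2(M)`, `h^3_c(M) = h^0(M')`, `l^2(M) = l^0(M')`, `Hlc^3(G, M) = 0` and
  `locRes^0(M')` is injective.  No other duality statement is needed.
-/

set_option autoImplicit false

namespace Fermat.Agent.PT

open Module

universe u

section Abstract

variable {k : Type*} [Field k]
variable {H P C : Type*} [AddCommGroup H] [Module k H] [AddCommGroup P] [Module k P]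
  [AddCommGroup C] [Module k C]

/-- rank–nullity for `H --f--> P --g--> C --> 0`. -/
theorem finrank_ker_add_of_exact_of_surjective [Module.Finite k H] [Module.Finite k P]
    (f : H →ₗ[k] P) (g : P →ₗ[k] C) (hex : LinearMap.ker g = LinearMap.range f)
    (hg : Function.Surjective g) :
    finrank k (LinearMap.ker f) + finrank k P = finrank k H + finrank k C := by
  have h1 := LinearMap.finrank_range_add_finrank_ker f
  have h2 := LinearMap.finrank_range_add_finrank_ker g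
  rw [hex, LinearMap.range_eq_top.2 hg, finrank_top] at h2
  omega

variable {H0 H1 P1 : Type*} [AddCommGroup H0] [Module k H0] [AddCommGroup H1] [Module k H1]
  [AddCommGroup P1] [Module k P1]

/-- rank–nullity for `0 --> H0 --r0--> P --d--> C --t--> H1 --r1--> P1`. -/
theorem finrank_ker_add_of_exact_head [Module.Finite k H0] [Module.Finite k P]
    [Module.Finite k C]
    (r0 : H0 →ₗ[k] P) (d : P →ₗ[k] C) (t : C →ₗ[k] H1) (r1 : H1 →ₗ[k] P1)
    (hinj : Function.Injective r0) (hP : LinearMap.ker d = LinearMap.range r0)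
    (hC : LinearMap.ker t = LinearMap.range d) (hH : LinearMap.ker r1 = LinearMap.range t) :
    finrank k (LinearMap.ker r1) + finrank k P = finrank k C + finrank k H0 := by
  have h0 := LinearMap.finrank_range_add_finrank_ker r0
  rw [LinearMap.ker_eq_bot.2 hinj, finrank_bot, add_zero] at h0
  have h1 := LinearMap.finrank_range_add_finrank_ker d
  have h2 := LinearMap.finrank_range_add_finrank_ker t
  rw [hP] at h1
  rw [hC] at h2
  rw [hH]
  omega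

end Abstract

section Cone

variable {k G : Type u} [Field k] [Group G] {𝔉 : LevelFamily G} (𝔏 : LocSystem 𝔉)

theorem ker_ccδ_eq_range_locRes (A : Rep.{u} k G) (n : ℕ) :
    LinearMap.ker (ccδ 𝔏 A n) = LinearMap.range (locRes 𝔏 A n) := by
  ext y
  constructor
  · intro hy
    obtain ⟨x, hx⟩ := exists_locRes_eq_of_ccδ_eq_zero 𝔏 A n y (LinearMap.mem_ker.1 hy)
    exact ⟨x, hx⟩
  · rintro ⟨x, rfl⟩
    exact LinearMap.mem_ker.2 (ccδ_locRes 𝔏 A n x)

theorem ker_ccToH_eq_range_ccδ (A : Rep.{u} k G) (n : ℕ) :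
    LinearMap.ker (ccToH 𝔏 A n) = LinearMap.range (ccδ 𝔏 A n) := by
  ext z
  constructor
  · intro hz
    obtain ⟨y, hy⟩ := exists_ccδ_eq_of_ccToH_eq_zero 𝔏 A n z (LinearMap.mem_ker.1 hz)
    exact ⟨y, hy⟩
  · rintro ⟨y, rfl⟩
    exact LinearMap.mem_ker.2 (ccToH_ccδ 𝔏 A n y)

theorem ker_locRes_succ_eq_range_ccToH (A : Rep.{u} k G) (n : ℕ) :
    LinearMap.ker (locRes 𝔏 A (n + 1)) = LinearMap.range (ccToH 𝔏 A n) := by
  ext x
  constructor
  · intro hx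
    obtain ⟨z, hz⟩ := exists_ccToH_eq_of_locRes_eq_zero 𝔏 A n x (LinearMap.mem_ker.1 hx)
    exact ⟨z, hz⟩
  · rintro ⟨z, rfl⟩
    exact LinearMap.mem_ker.2 (locRes_ccToH 𝔏 A n z)

/-- if `Hlc^{n+1}(G, A) = 0` then `ccδ : ∏_v Hlc^n(G_v, A) → Hcc^n(A)` is surjective. -/
theorem ccδ_surjective_of_subsingleton (A : Rep.{u} k G) (n : ℕ)
    [Subsingleton (Hlc 𝔉 A (n + 1))] : Function.Surjective (ccδ 𝔏 A n) := by
  intro z
  exact exists_ccδ_eq_of_ccToH_eq_zero 𝔏 A n z (Subsingleton.elim _ _)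

/-- **tail**: `s^n + l^n = h^n + h^{n+1}_c` when `Hlc^{n+1}(G, A) = 0`. -/
theorem finrank_ker_locRes_tail (A : Rep.{u} k G) (n : ℕ) [Subsingleton (Hlc 𝔉 A (n + 1))]
    [Module.Finite k (Hlc 𝔉 A n)]
    [Module.Finite k (∀ v : 𝔏.ι, Hlc (𝔏.fam v) (𝔏.coeff A v) n)] :
    finrank k (LinearMap.ker (locRes 𝔏 A n)) +
        finrank k (∀ v : 𝔏.ι, Hlc (𝔏.fam v) (𝔏.coeff A v) n) =
      finrank k (Hlc 𝔉 A n) + finrank k (Hcc 𝔏 A n) :=
  finrank_ker_add_of_exact_of_surjective (locRes 𝔏 A n) (ccδ 𝔏 A n)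
    (ker_ccδ_eq_range_locRes 𝔏 A n) (ccδ_surjective_of_subsingleton 𝔏 A n)

/-- **head**: `s^1 + l^0 = h^1_c + h^0` when `locRes^0` is injective. -/
theorem finrank_ker_locRes_head (A : Rep.{u} k G) (hinj : Function.Injective (locRes 𝔏 A 0))
    [Module.Finite k (Hlc 𝔉 A 0)]
    [Module.Finite k (∀ v : 𝔏.ι, Hlc (𝔏.fam v) (𝔏.coeff A v) 0)]
    [Module.Finite k (Hcc 𝔏 A 0)] :
    finrank k (LinearMap.ker (locRes 𝔏 A 1)) +
        finrank k (∀ v : 𝔏.ι, Hlc (𝔏.fam v) (𝔏.coeff A v) 0) =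
      finrank k (Hcc 𝔏 A 0) + finrank k (Hlc 𝔉 A 0) :=
  finrank_ker_add_of_exact_head (locRes 𝔏 A 0) (ccδ 𝔏 A 0) (ccToH 𝔏 A 0) (locRes 𝔏 A 1) hinj
    (ker_ccδ_eq_range_locRes 𝔏 A 0) (ker_ccToH_eq_range_ccδ 𝔏 A 0)
    (ker_locRes_succ_eq_range_ccToH 𝔏 A 0)

/-- **`dim Ш^2(M) = dim Ш^1(M')`** from three dimension equalities. -/
theorem finrank_sha_eq (M M' : Rep.{u} k G) [Subsingleton (Hlc 𝔉 M 3)]
    (hinj : Function.Injective (locRes 𝔏 M' 0))
    [Module.Finite k (Hlc 𝔉 M 2)]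
    [Module.Finite k (∀ v : 𝔏.ι, Hlc (𝔏.fam v) (𝔏.coeff M v) 2)]
    [Module.Finite k (Hlc 𝔉 M' 0)]
    [Module.Finite k (∀ v : 𝔏.ι, Hlc (𝔏.fam v) (𝔏.coeff M' v) 0)]
    [Module.Finite k (Hcc 𝔏 M' 0)]
    (hD1 : finrank k (Hcc 𝔏 M' 0) = finrank k (Hlc 𝔉 M 2))
    (hD3 : finrank k (Hcc 𝔏 M 2) = finrank k (Hlc 𝔉 M' 0))
    (hL : finrank k (∀ v : 𝔏.ι, Hlc (𝔏.fam v) (𝔏.coeff M v) 2) =
      finrank k (∀ v : 𝔏.ι, Hlc (𝔏.fam v) (𝔏.coeff M' v) 0)) :
    finrank k (LinearMap.ker (locRes 𝔏 M 2)) = finrank k (LinearMap.ker (locRes 𝔏 M' 1)) := by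
  have h1 := finrank_ker_locRes_tail 𝔏 M 2
  have h2 := finrank_ker_locRes_head 𝔏 M' hinj
  omega

end Cone

end Fermat.Agent.PT
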