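import Fermat.Agent.CFT.PT.ShaLoc
import Fermat.Agent.CFT.PT.ShaDim
import Fermat.Agent.CFT.PT.SmoothZero
import Fermat.Agent.CFT.PT.Finite

/-!
# S55, TOP-DOWN DRY RUN: the frozen statement from the plan-v1 contracts

* `S55_of_dims` : the conclusion of the frozen `S55` from the NUMERIC inputs for the given `M`
  (`M' = M.dualTwist (cycloChar p)`):
  `Hlc^3(G_S, M) = 0`, `h^1_c(M') = h^2(M)`, `h^3_c(M) = h^0(M')`, `l^2(M) = l^0(M')`, finiteness.
* the Props `CdTwoS`, `FinGlobalS`, `FinLocalS`, `DualityDimsS`, `LocalDualDimS` = the outputs of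
  (P6)/(P7)/(P10)/(P11), and `S55_of_props` : the frozen `S55` from them.
-/

set_option autoImplicit false

namespace Fermat.Agent.PT

open CategoryTheory groupCohomology Rep Fermat.Agent.CFT ExtCitation Module

local notation "Γℚ" => (AlgebraicClosure ℚ ≃ₐ[ℚ] AlgebraicClosure ℚ)

section Top

variable {p : ℕ} [Fact p.Prime]

/-- `locRes^0` of a local system is injective as soon as there is a place. -/
theorem locRes_zero_injective_of_place {k G : Type} [Field k] [Group G] {𝔉 : LevelFamily G}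
    (𝔏 : LocSystem 𝔉) (v : 𝔏.ι) (A : Rep k G) : Function.Injective (locRes 𝔏 A 0) := by
  rw [injective_iff_map_eq_zero]
  intro x hx
  have h1 : locRes 𝔏 A 0 x v = 0 := by rw [hx]; rfl
  rw [locRes_apply] at h1
  have h2 := coe_Hlc0Equiv_HlcMap (𝔏.ψ v) (𝟙 (res (𝔏.ψ v) A)) (𝔏.compat v) x
  rw [h1, map_zero] at h2
  have h3 : ((Hlc0Equiv 𝔉 A x : A.ρ.invariants) : A) = 0 := h2.symm
  have h4 : Hlc0Equiv 𝔉 A x = 0 := Subtype.ext h3
  exact (Hlc0Equiv 𝔉 A).map_eq_zero_iff.1 h4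

/-- **S55 from the numeric inputs for `M`.** -/
theorem S55_of_dims (hp2 : p ≠ 2) (S : Finset Nat.Primes) (hpS : pPrime p ∈ S)
    (M : Rep (ZMod p) Γℚ) [FiniteDimensional (ZMod p) M]
    (hsm : ∀ m : M, ∃ F : IntermediateField ℚ (AlgebraicClosure ℚ), FiniteDimensional ℚ F ∧
      ∀ s ∈ F.fixingSubgroup, M.ρ s m = m)
    (hMur : ∀ q : Nat.Primes, q ∉ S → ∀ A : ValuationSubring (AlgebraicClosure ℚ),
      A.LiesOverPrime (q : ℕ) → ∀ g ∈ A.inertiaSubgroupIn ℚ, M.ρ g = 1)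
    (h3 : Subsingleton (Hlc (famS S) M 3))
    (hf2 : Module.Finite (ZMod p) (Hlc (famS S) M 2))
    (hfl2 : ∀ v : (locS S).ι, Module.Finite (ZMod p)
      (Hlc ((locS S).fam v) ((locS S).coeff M v) 2))
    (hfc0 : Module.Finite (ZMod p) (Hcc (locS S) (M.dualTwist (cycloChar p)) 0))
    (hD1 : finrank (ZMod p) (Hcc (locS S) (M.dualTwist (cycloChar p)) 0) =
      finrank (ZMod p) (Hlc (famS S) M 2))
    (hD3 : finrank (ZMod p) (Hcc (locS S) M 2) =
      finrank (ZMod p) (Hlc (famS S) (M.dualTwist (cycloChar p)) 0))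
    (hL : ∀ v : (locS S).ι,
      finrank (ZMod p) (Hlc ((locS S).fam v) ((locS S).coeff M v) 2) =
        finrank (ZMod p)
          (Hlc ((locS S).fam v) ((locS S).coeff (M.dualTwist (cycloChar p)) v) 0)) :
    ∃ B : sha₁ S (M.dualTwist (cycloChar p)) →ₗ[ZMod p] sha₂ S M →ₗ[ZMod p] ZMod p,
      (∀ y, (∀ x, B y x = 0) → y = 0) ∧ (∀ x, (∀ y, B y x = 0) → x = 0) := by
  set M' := M.dualTwist (cycloChar p) with hM'
  let _ : Fintype (locS S).ι := inferInstanceAs (Fintype ↥S)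
  have := hf2
  have := hfl2
  have := hfc0
  have : Module.Finite (ZMod p) (Hlc (famS S) M' 0) := hlcFin_finite_zero (famS S) M'
  have hfl0 : ∀ v : (locS S).ι, Module.Finite (ZMod p)
      (Hlc ((locS S).fam v) ((locS S).coeff M' v) 0) := fun v =>
    hlcFin_finite_zero ((locS S).fam v) ((locS S).coeff M' v)
  have hinj : Function.Injective (locRes (locS S) M' 0) :=
    locRes_zero_injective_of_place (locS S) (⟨pPrime p, hpS⟩ : ↥S) M'
  have hLsum : finrank (ZMod p) (∀ v : (locS S).ι, Hlc ((locS S).fam v) ((locS S).coeff M v) 2) =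
      finrank (ZMod p) (∀ v : (locS S).ι, Hlc ((locS S).fam v) ((locS S).coeff M' v) 0) := by
    rw [Module.finrank_pi_fintype, Module.finrank_pi_fintype]
    exact Finset.sum_congr rfl fun v _ => hL v
  have hkey := finrank_sha_eq (locS S) M M' hinj hD1 hD3 hLsum
  have e2 : lcSha S M 2 = LinearMap.ker (locRes (locS S) M 2) :=
    lcSha_two_eq_ker_locRes S M hp2
  have e1 : lcSha S M' 1 = LinearMap.ker (locRes (locS S) M' 1) :=
    lcSha_one_eq_ker_locRes S M' hp2
  have hfin1 : Module.Finite (ZMod p) (LinearMap.ker (locRes (locS S) M' 1)) := by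
    rw [ker_locRes_succ_eq_range_ccToH]
    infer_instance
  refine S55_of_lcSha_finrank S hpS M hsm hMur ?_ ?_ ?_
  · rw [e1]; exact hfin1
  · rw [e2]; infer_instance
  · rw [e1, e2]; exact hkey.symm

end Top

section Props

variable (p : ℕ) [Fact p.Prime] (S : Finset Nat.Primes)

/-- (R5)/(P6) output: `cd_p(G_S) ≤ 2` on finite smooth modules. -/
def CdTwoS : Prop :=
  ∀ N : Rep (ZMod p) Γℚ, Module.Finite (ZMod p) N → IsSmooth (famS S) N →
    Subsingleton (Hlc (famS S) N 3)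

/-- (R6)/(P7) output, global. -/
def FinGlobalS : Prop :=
  ∀ N : Rep (ZMod p) Γℚ, Module.Finite (ZMod p) N → IsSmooth (famS S) N → ∀ n : ℕ, n ≤ 2 →
    Module.Finite (ZMod p) (Hlc (famS S) N n)

/-- (R6)/(P7) output, local. -/
def FinLocalS : Prop :=
  ∀ N : Rep (ZMod p) Γℚ, Module.Finite (ZMod p) N → IsSmooth (famS S) N → ∀ n : ℕ, n ≤ 2 →
    ∀ v : (locS S).ι, Module.Finite (ZMod p) (Hlc ((locS S).fam v) ((locS S).coeff N v) n)

/-- (R3)/(P10) output in dimension form: `h^1_c(N') = h^2(N)` and `h^3_c(N) = h^0(N')`. -/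
def DualityDimsS : Prop :=
  ∀ N : Rep (ZMod p) Γℚ, Module.Finite (ZMod p) N → IsSmooth (famS S) N →
    finrank (ZMod p) (Hcc (locS S) (N.dualTwist (cycloChar p)) 0) =
        finrank (ZMod p) (Hlc (famS S) N 2) ∧
      finrank (ZMod p) (Hcc (locS S) N 2) =
        finrank (ZMod p) (Hlc (famS S) (N.dualTwist (cycloChar p)) 0)

/-- (R7)/(P11) output: `dim H^2(G_q, N) = dim H^0(G_q, N')`. -/
def LocalDualDimS : Prop :=
  ∀ N : Rep (ZMod p) Γℚ, Module.Finite (ZMod p) N → IsSmooth (famS S) N →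
    ∀ v : (locS S).ι,
      finrank (ZMod p) (Hlc ((locS S).fam v) ((locS S).coeff N v) 2) =
        finrank (ZMod p)
          (Hlc ((locS S).fam v) ((locS S).coeff (N.dualTwist (cycloChar p)) v) 0)

variable {p S}

set_option maxHeartbeats 400000 in
/-- **S55 from the five PT-side outputs.** -/
theorem S55_of_props (hp2 : p ≠ 2) (hpS : pPrime p ∈ S)
    (hcd : CdTwoS p S) (hfg : FinGlobalS p S) (hfl : FinLocalS p S)
    (hdu : DualityDimsS p S) (hld : LocalDualDimS p S)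
    (M : Rep (ZMod p) Γℚ) [FiniteDimensional (ZMod p) M]
    (hsm : ∀ m : M, ∃ F : IntermediateField ℚ (AlgebraicClosure ℚ), FiniteDimensional ℚ F ∧
      ∀ s ∈ F.fixingSubgroup, M.ρ s m = m)
    (hMur : ∀ q : Nat.Primes, q ∉ S → ∀ A : ValuationSubring (AlgebraicClosure ℚ),
      A.LiesOverPrime (q : ℕ) → ∀ g ∈ A.inertiaSubgroupIn ℚ, M.ρ g = 1) :
    ∃ B : sha₁ S (M.dualTwist (cycloChar p)) →ₗ[ZMod p] sha₂ S M →ₗ[ZMod p] ZMod p,
      (∀ y, (∀ x, B y x = 0) → y = 0) ∧ (∀ x, (∀ y, B y x = 0) → x = 0) := by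
  obtain ⟨L₀⟩ := nonempty_sLevel S M hsm hMur
  obtain ⟨L₀'⟩ := nonempty_sLevel_dualTwist S hpS M hsm hMur
  have hM : IsSmooth (famS S) M := fun a => mem_lcCochains₀.1 (smooth_of_sLevel M L₀ a)
  have hM' : IsSmooth (famS S) (M.dualTwist (cycloChar p)) := fun a =>
    mem_lcCochains₀.1 (smooth_of_sLevel (M.dualTwist (cycloChar p)) L₀' a)
  have hMf : Module.Finite (ZMod p) M := inferInstance
  have hMf' : Module.Finite (ZMod p) (M.dualTwist (cycloChar p)) :=
    inferInstanceAs (Module.Finite (ZMod p) (Module.Dual (ZMod p) M))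
  have : Finite (locS S).ι := inferInstanceAs (Finite ↥S)
  have h3 : Subsingleton (Hlc (famS S) M 3) := hcd M hMf hM
  have hf2 : Module.Finite (ZMod p) (Hlc (famS S) M 2) := hfg M hMf hM 2 le_rfl
  have hfl2 : ∀ v : (locS S).ι, Module.Finite (ZMod p)
      (Hlc ((locS S).fam v) ((locS S).coeff M v) 2) := hfl M hMf hM 2 le_rfl
  have hf1' : Module.Finite (ZMod p) (Hlc (famS S) (M.dualTwist (cycloChar p)) 1) :=
    hfg (M.dualTwist (cycloChar p)) hMf' hM' 1 one_le_two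
  have hfl0' : ∀ v : (locS S).ι, Module.Finite (ZMod p)
      (Hlc ((locS S).fam v) ((locS S).coeff (M.dualTwist (cycloChar p)) v) 0) := fun v =>
    haveI : Module.Finite (ZMod p) ((locS S).coeff (M.dualTwist (cycloChar p)) v) := hMf'
    hlcFin_finite_zero ((locS S).fam v) ((locS S).coeff (M.dualTwist (cycloChar p)) v)
  have hfc0 : Module.Finite (ZMod p) (Hcc (locS S) (M.dualTwist (cycloChar p)) 0) :=
    hlcFin_finite_Hcc (locS S) (M.dualTwist (cycloChar p)) 0 hfl0' hf1'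
  have hD := hdu M hMf hM
  exact S55_of_dims hp2 S hpS M hsm hMur h3 hf2 hfl2 hfc0 hD.1 hD.2 (hld M hMf hM)

end Props

end Fermat.Agent.PT
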