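import Fermat.Agent.CFT.PT.Finite
import Fermat.Agent.CFT.PT.EffaceSeq
import Fermat.Agent.CFT.PT.EffaceHlc
import Fermat.Agent.CFT.PT.BaseCountArith
import Fermat.Agent.CFT.PT.S55Top

/-!
# S55 (P7), instantiation: finiteness of `Hlc (famS S) N n`, `n ≤ 2`, from `GlobalOut0`

* `hlcFin_finite_le` : bounded version of the dévissage `hlcFin_finite`;
* `hlcFin_finite_of_levels` : for any family `𝔉` with a cofinal set `𝒱` of "good levels" `V` with
  `Hlc (𝔉.restrict V) k n` finite-dimensional for `n ≤ m`: `Hlc 𝔉 N n` is finite-dimensional for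
  `n ≤ m` and every finite-dimensional smooth `N`;
* `exists_isCycloLevel_le` : the cyclotomic levels are cofinal in `famS S` (`p ∈ S`);
* `finGlobalS_of_globalOut0 : GlobalOut0 p S → FinGlobalS p S`;
* `finLocalS_of_localOut0 : LocalOut0 p S → FinLocalS p S`.
-/

set_option autoImplicit false
set_option linter.style.haveILetI false

namespace Fermat.Agent.PT

open CategoryTheory groupCohomology Rep ExtCitation Fermat.Agent.CFT.S14

universe u

section Devissage

variable {k G : Type u} [Field k] [Group G] {𝔉 : LevelFamily G}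

/-- **(R6), bounded dévissage**: as `hlcFin_finite`, in degrees `≤ m`. -/
theorem hlcFin_finite_le (hfin : 𝔉.FiniteIndex) (m : ℕ) (C : Rep.{u} k G → Prop)
    (h0 : ∀ N, C N → Module.Finite k (Hlc 𝔉 N 0))
    (hI : ∀ N, C N → ∃ (I Q : Rep.{u} k G) (f : N ⟶ I) (g : I ⟶ Q) (w : f ≫ g = 0),
      (ShortComplex.mk f g w).ShortExact ∧ IsSmooth 𝔉 I ∧ C Q ∧
        ∀ n, n ≤ m → Module.Finite k (Hlc 𝔉 I n)) :
    ∀ n, n ≤ m → ∀ N, C N → Module.Finite k (Hlc 𝔉 N n) := by
  intro n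
  induction n with
  | zero => exact fun _ => h0
  | succ n ih =>
    intro hn N hN
    obtain ⟨I, Q, f, g, w, hX, hsm, hQ, hIfin⟩ := hI N hN
    haveI : Module.Finite k (Hlc 𝔉 Q n) := ih (Nat.le_of_succ_le hn) Q hQ
    haveI : Module.Finite k (Hlc 𝔉 I (n + 1)) := hIfin (n + 1) hn
    exact hlcFin_finite_of_exact
      (lcδ (X := ShortComplex.mk f g w) hfin hX hsm n (n + 1) rfl).hom
      (lcH₁₂ 𝔉 (ShortComplex.mk f g w) (n + 1)).hom
      (fun x hx => exists_lcδ_eq hfin hX hsm n (n + 1) rfl x hx)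

/-- the trivial representation is smooth -/
theorem hlcFin_isSmooth_trivial (𝔉 : LevelFamily G) (V : Type u) [AddCommGroup V] [Module k V] :
    IsSmooth 𝔉 (Rep.trivial k G V) := by
  intro a
  obtain ⟨U, hU⟩ := 𝔉.nonempty
  exact ⟨U, hU, fun _ _ => rfl⟩

/-- **(R6) from good levels**: if the members of a cofinal subset `𝒱 ⊆ 𝔉` have finite-dimensional
cohomology with trivial coefficients `k` in degrees `≤ m`, then every finite-dimensional smooth
representation has finite-dimensional cohomology in degrees `≤ m`. -/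
theorem hlcFin_finite_of_levels (hfin : 𝔉.FiniteIndex) (m : ℕ) (𝒱 : Set (Subgroup G))
    (h𝒱 : ∀ V ∈ 𝒱, V ∈ 𝔉.sets) (hcof : ∀ U ∈ 𝔉.sets, ∃ V ∈ 𝒱, V ≤ U)
    (hbase : ∀ V ∈ 𝒱, ∀ n, n ≤ m →
      Module.Finite k (Hlc (𝔉.restrict V) (Rep.trivial k ↥V k) n))
    (n : ℕ) (hn : n ≤ m) (N : Rep.{u} k G) [hN : Module.Finite k N] (hsm : IsSmooth 𝔉 N) :
    Module.Finite k (Hlc 𝔉 N n) := by
  refine hlcFin_finite_le hfin m (fun N => Module.Finite k N ∧ IsSmooth 𝔉 N) ?_ ?_ n hn N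
    ⟨hN, hsm⟩
  · rintro N ⟨hN, -⟩
    exact hlcFin_finite_zero 𝔉 N
  · rintro N ⟨hN, hNsm⟩
    haveI : Module.Finite k N.V := hN
    obtain ⟨U, hU, htrivU⟩ := exists_mem_forall_ρ_eq_of_finite 𝔉 N hNsm
    obtain ⟨V, hV𝒱, hVU⟩ := hcof U hU
    have hV : V ∈ 𝔉.sets := h𝒱 V hV𝒱
    haveI : V.Normal := 𝔉.normal V hV
    haveI : V.FiniteIndex := hfin V hV
    have htriv : ∀ v ∈ V, ∀ a, N.ρ v a = a := fun v hv a => htrivU v (hVU hv) a
    refine ⟨(effaceSC V N).X₂, (effaceSC V N).X₃, (effaceSC V N).f, (effaceSC V N).g,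
      (effaceSC V N).zero, effaceSC_shortExact V N, isSmooth_effaceSC_X₂ V N hfin hV hNsm,
      ⟨finite_effaceSC_X₃ V N, isSmooth_effaceSC_X₃ V N hfin hV hNsm⟩, ?_⟩
    intro n hn
    have hB : IsSmooth (𝔉.restrict V) (res V.subtype (Rep.trivial k G k)) :=
      (hlcFin_isSmooth_trivial 𝔉 k).res_subtype V
    haveI : Module.Finite k
        (Hlc 𝔉 (coind V.subtype (res V.subtype (Rep.trivial k G k))) n) :=
      hlcFin_finite_coind hfin (isOpenFor_of_mem hV) _ hB n (hbase V hV𝒱 n hn)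
    exact Module.Finite.equiv
      (HlcSplitEquiv V N htriv (Module.finBasis k N.V) 𝔉 n).symm

end Devissage

local notation "Γℚ" => (AlgebraicClosure ℚ ≃ₐ[ℚ] AlgebraicClosure ℚ)

section Arith

variable {p : ℕ} [hp : Fact p.Prime] {S : Finset Nat.Primes}

/-- the fixing subgroup of `ℚ(μ_p)` is a member of `famS S` when `p ∈ S` -/
theorem cycloKf_fixingSubgroup_mem_famS (hpS : pPrime p ∈ S) :
    (cycloKf p).fixingSubgroup ∈ (famS S).sets := by
  refine ⟨cycloKf p, ⟨inferInstance, fun q hq A hA σ hσ => ?_⟩, ?_, rfl⟩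
  · have hqp : Nat.Coprime (q : ℕ) p := by
      refine (Nat.coprime_primes q.2 hp.out).2 fun h => hq ?_
      have : q = pPrime p := Subtype.ext h
      rw [this]
      exact hpS
    exact (cycloChar_eq_one_iff p σ).1 (cycloChar_eq_one_of_mem_inertia p hqp A hA hσ)
  · have h : (cycloKf p).fixingSubgroup = (cycloChar p).ker := by
      ext s
      rw [MonoidHom.mem_ker]
      exact (cycloChar_eq_one_iff p s).symm
    rw [h]
    exact MonoidHom.normal_ker _

/-- the cyclotomic levels are cofinal in `famS S` -/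
theorem exists_isCycloLevel_le (hpS : pPrime p ∈ S) {U : Subgroup Γℚ}
    (hU : U ∈ (famS S).sets) : ∃ V, IsCycloLevel p S V ∧ V ≤ U := by
  obtain ⟨W, hW, hle⟩ := (famS S).directed U hU _ (cycloKf_fixingSubgroup_mem_famS hpS)
  exact ⟨W, ⟨hW, fun s hs => (cycloChar_eq_one_iff p s).2 (hle hs).2⟩,
    fun s hs => (hle hs).1⟩

/-- **`FinGlobalS` from `GlobalOut0`.** -/
theorem finGlobalS_of_globalOut0 (hpS : pPrime p ∈ S) (h0 : GlobalOut0 p S) :
    FinGlobalS p S := by
  intro N hN hsm n hn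
  haveI := hN
  exact hlcFin_finite_of_levels (baseCount_famS_finiteIndex S) 2
    {V | IsCycloLevel p S V} (fun V hV => hV.1)
    (fun U hU => by
      obtain ⟨V, hV, hle⟩ := exists_isCycloLevel_le hpS hU
      exact ⟨V, hV, hle⟩)
    (fun V hV n hn => h0 V hV n hn) n hn N hsm

/-- **`FinLocalS` from `LocalOut0`.** -/
theorem finLocalS_of_localOut0 (h0 : LocalOut0 p S) : FinLocalS p S := by
  intro N hN hsm n hn v
  haveI : Module.Finite (ZMod p) ((locS S).coeff N v) := hN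
  have hsmv : IsSmooth ((locS S).fam v) ((locS S).coeff N v) := by
    intro a
    obtain ⟨U, hU, hUa⟩ := hsm a
    obtain ⟨V, hV, hVU⟩ := (locS S).compat v U hU
    exact ⟨V, hV, fun u hu => hUa ((locS S).ψ v u) (hVU hu)⟩
  exact hlcFin_finite_of_levels (famLoc_finiteIndex v.1) 2
    {U | U ∈ (famLoc v.1).sets} (fun U hU => hU) (fun U hU => ⟨U, hU, le_rfl⟩)
    (fun U hU n hn => h0 v.1 v.2 U (isOpenFor_of_mem hU) n hn) n hn
    ((locS S).coeff N v) hsmv

end Arith

end Fermat.Agent.PT
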