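/-
S55 (helper15): `CdTwoS p S` from the GLOBAL contract `GlobalOut1 p S`.

`GlobalOut1` gives `Hlc^3(V', 𝔽_p) = 0` only for the open subgroups `V'` on which the cyclotomic
character is trivial; `isZero_Hlc_of_forall_open_trivial` (helper1) needs all open subgroups `H`.
Bridge: `H' := H ⊓ ker χ_cyc` is open (`p ∈ S`), of index dividing `p - 1` in `H`, and coprime descent
(`PT/SmoothTower.lean`) applies.

* `isOpenFor_inf_cycloKer`, `coprime_relIndex_inf_cycloKer`;
* `subsingleton_Hlc_trivRep_of_globalOut1` : `Hlc^3(H, 𝔽_p) = 0` for every open `H`;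
* `cdTwoS_of_globalOut1 : pPrime p ∈ S → GlobalOut1 p S → CdTwoS p S`.
-/
import Fermat.Agent.CFT.PT.SmoothTower
import Fermat.Agent.CFT.PT.UnipotentVanishAll
import Fermat.Agent.CFT.PT.FiniteInst

set_option autoImplicit false

namespace Fermat.Agent.PT

open CategoryTheory CategoryTheory.Limits groupCohomology Rep Fermat.Agent.CFT ExtCitation Module

local notation "Γℚ" => (AlgebraicClosure ℚ ≃ₐ[ℚ] AlgebraicClosure ℚ)

variable {p : ℕ} [hp : Fact p.Prime] {S : Finset Nat.Primes}

/-- `H ⊓ ker χ_cyc` is open when `H` is. -/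
theorem isOpenFor_inf_cycloKer (hpS : pPrime p ∈ S) {H : Subgroup Γℚ}
    (hH : IsOpenFor (famS S) H) : IsOpenFor (famS S) (H ⊓ (cycloChar p).ker) := by
  obtain ⟨U, hU, hUH⟩ := hH
  obtain ⟨V, hV, hVU⟩ := exists_isCycloLevel_le (p := p) hpS hU
  exact ⟨V, hV.1, fun s hs => ⟨hUH (hVU hs), MonoidHom.mem_ker.2 (hV.2 s hs)⟩⟩

/-- `[H : H ⊓ ker χ_cyc]` divides `p - 1`, hence is prime to `p`. -/
theorem coprime_relIndex_inf_cycloKer (H : Subgroup Γℚ) :
    Nat.Coprime p ((H ⊓ (cycloChar p).ker).relIndex H) := by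
  have hp0 : NeZero p := ⟨hp.out.ne_zero⟩
  have h1 : (H ⊓ (cycloChar p).ker).relIndex H = ((cycloChar p).comp H.subtype).ker.index := by
    rw [Subgroup.inf_relIndex_left]
    rfl
  have h2 : ((cycloChar p).comp H.subtype).ker.index ∣ p - 1 := by
    rw [Subgroup.index_ker]
    have h3 := Subgroup.card_subgroup_dvd_card ((cycloChar p).comp H.subtype).range
    have h4 : Nat.card (ZMod p)ˣ = p - 1 := by
      rw [Nat.card_eq_fintype_card, ZMod.card_units_eq_totient, Nat.totient_prime hp.out]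
    rwa [h4] at h3
  rw [h1]
  refine Nat.Coprime.coprime_dvd_right h2 ?_
  refine (Nat.Prime.coprime_iff_not_dvd hp.out).2 fun hd => ?_
  have hpos : 0 < p - 1 := Nat.sub_pos_of_lt hp.out.one_lt
  have := Nat.le_of_dvd hpos hd
  omega

/-- **`Hlc^3(H, 𝔽_p) = 0` for every open subgroup `H` of `G_S`** from `GlobalOut1`. -/
theorem subsingleton_Hlc_trivRep_of_globalOut1 (hpS : pPrime p ∈ S) (h1 : GlobalOut1 p S)
    (H : Subgroup Γℚ) (hH : IsOpenFor (famS S) H) :
    Subsingleton (Hlc ((famS S).restrict H) (trivRep p ↥H) 3) := by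
  have hle : H ⊓ (cycloChar p).ker ≤ H := inf_le_left
  have hopen := isOpenFor_inf_cycloKer (p := p) hpS hH
  have hzero : Subsingleton (Hlc ((famS S).restrict (H ⊓ (cycloChar p).ker))
      (trivRep p ↥(H ⊓ (cycloChar p).ker)) 3) :=
    h1 _ hopen fun s hs => MonoidHom.mem_ker.1 hs.2
  have hB : IsSmooth ((famS S).restrict H) (trivRep p ↥H) := by
    intro a
    obtain ⟨U, hU⟩ := (famS S).nonempty
    exact ⟨U.subgroupOf H, ⟨U, hU, rfl⟩, fun _ _ => rfl⟩
  have : CharP (ZMod p) p := ZMod.charP p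
  exact tower_subsingleton_of_coprime hle (baseCount_famS_finiteIndex S) hopen (trivRep p ↥H) hB
    (coprime_relIndex_inf_cycloKer H) 3 hzero

/-- **(R5) instantiated: `cd_p(G_S) ≤ 2` on finite smooth modules, from `GlobalOut1`.** -/
theorem cdTwoS_of_globalOut1 (hpS : pPrime p ∈ S) (h1 : GlobalOut1 p S) : CdTwoS p S := by
  intro N hN hNsm
  have hz : IsZero (Hlc (famS S) N 3) :=
    isZero_Hlc_of_forall_open_trivial (famS S) (baseCount_famS_finiteIndex S) 3
      (fun H hH => by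
        have := subsingleton_Hlc_trivRep_of_globalOut1 (p := p) hpS h1 H hH
        exact ModuleCat.isZero_of_subsingleton _) N hNsm
  exact ModuleCat.subsingleton_of_isZero hz

end Fermat.Agent.PT
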