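/-
S55 (helper15), (K10): `CdTwoS p S` from the GLOBAL contract restricted to open subgroups of index
prime to `p`, and back.

* `GlobalOut1P p S` : `Hlc^3(V', 𝔽_p) = 0` for the open subgroups `V'` of `G_S` with trivial
  cyclotomic character AND index prime to `p`;
* `isZero_Hlc_of_forall_open_trivial_coprime` : helper1's (R5) with the base hypothesis only at the
  open subgroups of index prime to `p` (the proof only ever uses the Sylow preimage);
* `cdTwoS_of_globalOut1P : pPrime p ∈ S → GlobalOut1P p S → CdTwoS p S`;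
* `globalOut1_of_cdTwoS : CdTwoS p S → GlobalOut1 p S` (Shapiro);
* `globalOut1_of_globalOut1P`.
-/
import Fermat.Agent.CFT.PT.CdTwoInst
import Fermat.Agent.CFT.PT.LocalDual2B

set_option autoImplicit false

namespace Fermat.Agent.PT

open CategoryTheory CategoryTheory.Limits groupCohomology Rep Fermat.Agent.CFT ExtCitation Module

section Abstract

variable {p : ℕ} [Fact p.Prime] {G : Type} [Group G]

/-- **(R5), coprime form**: if `Hlcⁿ(H, 𝔽_p) = 0` for all open subgroups `H` of `G` of index prime to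
`p`, then `Hlcⁿ(G, M) = 0` for all finite-dimensional smooth `𝔽_p`-representations `M`. -/
theorem isZero_Hlc_of_forall_open_trivial_coprime (𝔉 : LevelFamily G) (hfin : 𝔉.FiniteIndex) (n : ℕ)
    (hbase : ∀ H : Subgroup G, IsOpenFor 𝔉 H → Nat.Coprime p H.index →
      IsZero (Hlc (𝔉.restrict H) (Rep.trivial (ZMod p) H (ZMod p)) n))
    (M : Rep (ZMod p) G) [FiniteDimensional (ZMod p) M] (hM : IsSmooth 𝔉 M) :
    IsZero (Hlc 𝔉 M n) := by
  classical
  obtain ⟨V, hV, hVM⟩ := unipV_exists_level 𝔉 M hM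
  haveI : V.Normal := 𝔉.normal V hV
  haveI : V.FiniteIndex := hfin V hV
  obtain ⟨H, hVH, hcop, hPH⟩ := unipV_exists_sylow_preimage (p := p) V
  have hopen : IsOpenFor 𝔉 H := ⟨V, hV, hVH⟩
  haveI : H.FiniteIndex := Subgroup.finiteIndex_of_le hVH
  haveI : (V.subgroupOf H).Normal := Subgroup.normal_subgroupOf
  haveI : FiniteDimensional (ZMod p) (res H.subtype M) := ‹FiniteDimensional (ZMod p) M›
  have hzero : IsZero (Hlc (𝔉.restrict H) (res H.subtype M) n) :=
    isZero_Hlc_of_isPGroup_quotient (𝔉.restrict H) (hfin.restrict H) n (hbase H hopen hcop)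
      (V.subgroupOf H) (LevelFamily.subgroupOf_mem_restrict H hV) hPH (res H.subtype M)
      (fun v hv => hVM v.1 hv)
  have hinj : Function.Injective (HlcShapiro 𝔉 H (res H.subtype M) n).hom :=
    (shapMap_bijective hfin hopen n (res H.subtype M) (hM.res_subtype H)).1
  haveI : Subsingleton (Hlc 𝔉 M n) := by
    refine subsingleton_of_forall_eq 0 fun x => ?_
    refine eq_zero_of_HlcRes_eq_zero_of_coprime 𝔉 H M n hinj hcop x ?_
      ((ModuleCat.subsingleton_of_isZero hzero).elim _ _)
    have h1 : (p : ℕ) • x = ((p : ℕ) : ZMod p) • x := (Nat.cast_smul_eq_nsmul (ZMod p) p x).symm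
    rw [h1, ZMod.natCast_self, zero_smul]
  exact ModuleCat.isZero_of_subsingleton _

end Abstract

local notation "Γℚ" => (AlgebraicClosure ℚ ≃ₐ[ℚ] AlgebraicClosure ℚ)

section Arith

variable (p : ℕ) [hp : Fact p.Prime] (S : Finset Nat.Primes)

/-- (G1P) `H^3(G_{K',S}, 𝔽_p) = 0` for every open subgroup `V'` of index prime to `p` on which the
cyclotomic character is trivial. -/
def GlobalOut1P : Prop :=
  ∀ V' : Subgroup Γℚ, IsOpenFor (famS S) V' → (∀ s ∈ V', cycloChar p s = 1) →
    Nat.Coprime p V'.index → Subsingleton (Hlc ((famS S).restrict V') (trivRep p ↥V') 3)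

variable {p S}

theorem globalOut1P_of_globalOut1 (h1 : GlobalOut1 p S) : GlobalOut1P p S :=
  fun V' hV' hc _ => h1 V' hV' hc

/-- **`Hlc^3(H, 𝔽_p) = 0` for every open subgroup `H` of `G_S` of index prime to `p`**, from
`GlobalOut1P`. -/
theorem subsingleton_Hlc_trivRep_of_globalOut1P (hpS : pPrime p ∈ S) (h1 : GlobalOut1P p S)
    (H : Subgroup Γℚ) (hH : IsOpenFor (famS S) H) (hcop : Nat.Coprime p H.index) :
    Subsingleton (Hlc ((famS S).restrict H) (trivRep p ↥H) 3) := by
  have hle : H ⊓ (cycloChar p).ker ≤ H := inf_le_left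
  have hopen := isOpenFor_inf_cycloKer (p := p) hpS hH
  have hidx : Nat.Coprime p (H ⊓ (cycloChar p).ker).index := by
    rw [← Subgroup.relIndex_mul_index hle]
    exact Nat.Coprime.mul_right (coprime_relIndex_inf_cycloKer H) hcop
  have hzero : Subsingleton (Hlc ((famS S).restrict (H ⊓ (cycloChar p).ker))
      (trivRep p ↥(H ⊓ (cycloChar p).ker)) 3) :=
    h1 _ hopen (fun s hs => MonoidHom.mem_ker.1 hs.2) hidx
  have hB : IsSmooth ((famS S).restrict H) (trivRep p ↥H) := by
    intro a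
    obtain ⟨U, hU⟩ := (famS S).nonempty
    exact ⟨U.subgroupOf H, ⟨U, hU, rfl⟩, fun _ _ => rfl⟩
  have : CharP (ZMod p) p := ZMod.charP p
  exact tower_subsingleton_of_coprime hle (baseCount_famS_finiteIndex S) hopen (trivRep p ↥H) hB
    (coprime_relIndex_inf_cycloKer H) 3 hzero

/-- **(R5) instantiated: `cd_p(G_S) ≤ 2` on finite smooth modules, from `GlobalOut1P`.** -/
theorem cdTwoS_of_globalOut1P (hpS : pPrime p ∈ S) (h1 : GlobalOut1P p S) : CdTwoS p S := by
  intro N hN hNsm
  have hz : IsZero (Hlc (famS S) N 3) :=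
    isZero_Hlc_of_forall_open_trivial_coprime (famS S) (baseCount_famS_finiteIndex S) 3
      (fun H hH hcop => by
        have := subsingleton_Hlc_trivRep_of_globalOut1P (p := p) hpS h1 H hH hcop
        exact ModuleCat.isZero_of_subsingleton _) N hNsm
  exact ModuleCat.subsingleton_of_isZero hz

/-- **`GlobalOut1` from `CdTwoS`** (Shapiro: `Hlc^3(V', 𝔽_p) = Hlc^3(G_S, coind 𝔽_p)`); the
cyclotomic hypothesis is not even needed. -/
theorem subsingleton_Hlc_trivRep_of_cdTwoS (hcd : CdTwoS p S) (V' : Subgroup Γℚ)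
    (hV' : IsOpenFor (famS S) V') :
    Subsingleton (Hlc ((famS S).restrict V') (trivRep p ↥V') 3) := by
  have hfin := baseCount_famS_finiteIndex S
  have hB : IsSmooth ((famS S).restrict V') (trivRep p ↥V') := by
    intro a
    obtain ⟨U, hU⟩ := (famS S).nonempty
    exact ⟨U.subgroupOf V', ⟨U, hU, rfl⟩, fun _ _ => rfl⟩
  obtain ⟨U, hU, hUV⟩ := hV'
  haveI : U.FiniteIndex := hfin U hU
  haveI : V'.FiniteIndex := Subgroup.finiteIndex_of_le hUV
  have hV'o : IsOpenFor (famS S) V' := ⟨U, hU, hUV⟩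
  haveI : Module.Finite (ZMod p) (trivRep p ↥V').V := Module.Finite.self (ZMod p)
  have hNfin : Module.Finite (ZMod p) (coind V'.subtype (trivRep p ↥V')).V :=
    locD2_coind_finite V' (trivRep p ↥V')
  have hNsm : IsSmooth (famS S) (coind V'.subtype (trivRep p ↥V')) :=
    isSmooth_coind hfin hV'o hB
  have h3 := hcd (coind V'.subtype (trivRep p ↥V')) hNfin hNsm
  have hbij := HlcShapiro_bijective hfin hV'o 3 (trivRep p ↥V') hB
  exact hbij.2.subsingleton

theorem globalOut1_of_cdTwoS (hcd : CdTwoS p S) : GlobalOut1 p S :=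
  fun V' hV' _ => subsingleton_Hlc_trivRep_of_cdTwoS hcd V' hV'

/-- **the chain** `GlobalOut1P ⇒ CdTwoS ⇒ GlobalOut1`. -/
theorem globalOut1_of_globalOut1P (hpS : pPrime p ∈ S) (h1 : GlobalOut1P p S) : GlobalOut1 p S :=
  globalOut1_of_cdTwoS (cdTwoS_of_globalOut1P hpS h1)

end Arith

end Fermat.Agent.PT
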