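/-
S55 engine (E5), complements to `ConeLES.lean`: compatibility of the connecting homomorphism `ccΔ`
of cone cohomology with the connecting homomorphisms `lcδ` of level-constant cohomology
(through `ccToH` and through `ccδ`), and the beginning of the long exact sequence.
-/
import Fermat.Agent.CFT.PT.ConeLES
import Fermat.Agent.CFT.PT.SmoothDelta

set_option autoImplicit false

namespace Fermat.Agent.PT

open CategoryTheory groupCohomology Rep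

universe u

variable {k G : Type u} [CommRing k] [Group G] {𝔉 : LevelFamily G} {𝔏 : LocSystem 𝔉}
  {X : ShortComplex (Rep.{u} k G)}

/-- the restriction of a short exact sequence to a local group is short exact. -/
theorem ConeLESHyp.shortExact_loc (H : ConeLESHyp 𝔏 X) (v : 𝔏.ι) :
    (X.map (Rep.resFunctor (𝔏.ψ v))).ShortExact :=
  (Rep.shortExact_res (𝔏.ψ v)).2 H.shortExact

/-- the local connecting homomorphism at `v`. -/
noncomputable abbrev ConeLESHyp.locδ (H : ConeLESHyp 𝔏 X) (v : 𝔏.ι) (n : ℕ) :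
    Hlc (𝔏.fam v) (𝔏.coeff X.X₃ v) n ⟶ Hlc (𝔏.fam v) (𝔏.coeff X.X₁ v) (n + 1) :=
  lcδ (𝔉 := 𝔏.fam v) (X := X.map (Rep.resFunctor (𝔏.ψ v))) (H.finLoc v) (H.shortExact_loc v)
    (H.smooth.loc v) n (n + 1) rfl

/-- **compatibility of the two connecting homomorphisms**: `ccToH ∘ ccΔ = lcδ ∘ ccToH`. -/
theorem ccToH_ccΔ (H : ConeLESHyp 𝔏 X) (n : ℕ) (z : Hcc 𝔏 X.X₃ n) :
    ccToH 𝔏 X.X₁ (n + 1) (ccΔ H n z) =
      (lcδ H.finG H.shortExact H.smooth (n + 1) (n + 1 + 1) rfl).hom (ccToH 𝔏 X.X₃ n z) := by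
  obtain ⟨w, rfl⟩ := ccπ_surjective 𝔏 X.X₃ n z
  obtain ⟨z₁, hrel⟩ := H.exists_rel w
  rw [ccΔ_ccπ H hrel, ccToH_ccπ, ccToH_ccπ]
  obtain ⟨z₂, hz₂, hg, hf⟩ := hrel
  have hz₂m := mem_coneCochains.1 hz₂
  exact (lcδ_lcπ H.finG H.shortExact H.smooth (n + 1) (coneFst 𝔏 X.X₃ n w) z₂.1 hz₂m.1
    (fun g => congrFun (congrArg Prod.fst hg) g) z₁.1.1 (mem_coneCochains.1 z₁.2.1).1
    (fun g => congrFun (congrArg Prod.fst hf) g)).symm

/-- **anticommutativity**: `ccΔ ∘ ccδ = - ccδ ∘ (δ_v)_v`. -/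
theorem ccΔ_ccδ (H : ConeLESHyp 𝔏 X) (n : ℕ)
    (y : ∀ v : 𝔏.ι, Hlc (𝔏.fam v) (𝔏.coeff X.X₃ v) n) :
    ccΔ H n (ccδ 𝔏 X.X₃ n y) = -ccδ 𝔏 X.X₁ (n + 1) (fun v => (H.locδ v n).hom (y v)) := by
  obtain ⟨b, rfl⟩ := locπ_surjective 𝔏 X.X₃ n y
  -- local lifts
  have hloc : ∀ v, ∃ β ∈ lcCochains (𝔏.fam v) (𝔏.coeff X.X₂ v) n,
      coeffMap (𝔏.coeffHom X.g v) n β = (b v).1 ∧
      ∃ α ∈ lcCochains (𝔏.fam v) (𝔏.coeff X.X₁ v) (n + 1),
        coeffMap (𝔏.coeffHom X.f v) (n + 1) α =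
          (inhomogeneousCochains.d (𝔏.coeff X.X₂ v) n).hom β := by
    intro v
    obtain ⟨β, hβ, hgβ⟩ := exists_lcCochains_lift (𝔏.coeffHom X.g v) (H.finLoc v)
      (H.smooth.loc v) H.surj (b v).2.1
    have h0 : coeffMap (𝔏.coeffHom X.g v) (n + 1)
        ((inhomogeneousCochains.d (𝔏.coeff X.X₂ v) n).hom β) = 0 := by
      rw [coeffMap_d, hgβ, LinearMap.mem_ker.1 (b v).2.2]
    obtain ⟨α, hα, hfα⟩ := exists_lcCochains_factor (𝔏.coeffHom X.f v) (𝔏.coeffHom X.g v)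
      H.inj H.ex (d_mem_lcCochains (𝔏.fam v) hβ) h0
    exact ⟨β, hβ, hgβ, α, hα, hfα⟩
  choose β hβ hgβ α hα hfα using hloc
  -- the local classes
  have hαc : ∀ v, α v ∈ lcCocycles (𝔏.fam v) (𝔏.coeff X.X₁ v) (n + 1) := fun v =>
    ⟨hα v, LinearMap.mem_ker.2 (d_eq_zero_of_comp_eq_d (X := X.map (Rep.resFunctor (𝔏.ψ v)))
      (H.shortExact_loc v) (β v) (α v) (fun g => congrFun (hfα v) g))⟩
  have hδ : (fun v => (H.locδ v n).hom (locπ 𝔏 X.X₃ n b v)) =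
      locπ 𝔏 X.X₁ (n + 1) (fun v => ⟨α v, hαc v⟩) := by
    funext v
    exact lcδ_lcπ (𝔉 := 𝔏.fam v) (X := X.map (Rep.resFunctor (𝔏.ψ v))) (H.finLoc v)
      (H.shortExact_loc v) (H.smooth.loc v) n (b v) (β v) (hβ v)
      (fun g => congrFun (hgβ v) g) (α v) (hα v) (fun g => congrFun (hfα v) g)
  -- the relation
  have hrel : (coneOfLoc 𝔏 X.X₃ n b, -coneOfLoc 𝔏 X.X₁ (n + 1) (fun v => ⟨α v, hαc v⟩)) ∈
      ccΔRel 𝔏 X n := by
    refine ⟨(0, β), mem_coneCochains.2 ⟨Submodule.zero_mem _, hβ⟩, ?_, ?_⟩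
    · refine Prod.ext ?_ (funext fun v => hgβ v)
      exact (coeffMap X.g (n + 1)).map_zero
    · refine Prod.ext ?_ (funext fun v => ?_)
      · change coeffMap X.f (n + 1 + 1) (-0) = (inhomogeneousCochains.d X.X₂ (n + 1)).hom 0
        rw [neg_zero, map_zero, map_zero]
      · change coeffMap (𝔏.coeffHom X.f v) (n + 1) (-(α v)) =
          resLoc 𝔏 X.X₂ v (n + 1) 0 - (inhomogeneousCochains.d (𝔏.coeff X.X₂ v) n).hom (β v)
        rw [map_neg, hfα v, map_zero, zero_sub]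
  rw [ccδ_locπ, ccΔ_ccπ H hrel, hδ, ccδ_locπ, map_neg]

/-- **the beginning of the sequence**: if there is at least one local group, then
`Hcc⁰(X₁) → Hcc⁰(X₂)` (that is `H_c¹`) is injective. -/
theorem HccMap_f_zero_injective [Nonempty 𝔏.ι] (hX : X.ShortExact) :
    Function.Injective (HccMap 𝔏 X.f 0) := by
  have hinj : Function.Injective X.f.hom := (Rep.mono_iff_injective X.f).1 hX.mono_f
  have hex : ∀ a, X.g.hom a = 0 → ∃ a', X.f.hom a' = a :=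
    fun a ha => exists_of_shortExact_of_g_eq_zero hX a ha
  rw [injective_iff_map_eq_zero]
  intro x hx
  obtain ⟨w, rfl⟩ := ccπ_surjective 𝔏 X.X₁ 0 x
  rw [HccMap_ccπ, ccπ_eq_zero_iff] at hx
  obtain ⟨a₂, ha₂, h1, h2⟩ := hx
  have h2' : ∀ v, resLoc 𝔏 X.X₂ v 0 a₂ = (coneMap 𝔏 X.f 0 w.1).2 v := fun v =>
    sub_eq_zero.1 (h2 v)
  -- `g ∘ a₂ = 0`
  obtain ⟨v₀⟩ := (inferInstance : Nonempty 𝔏.ι)
  have hg : coeffMap X.g 0 a₂ = 0 := by
    funext g'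
    have h3 := congrFun (h2' v₀) default
    rw [resLoc_apply] at h3
    rw [coeffMap_apply, Subsingleton.elim g' (𝔏.ψ v₀ ∘ default), h3]
    change (X.f ≫ X.g).hom (w.1.2 v₀ default) = 0
    rw [X.zero]
    rfl
  obtain ⟨a₁, ha₁, hfa₁⟩ := exists_lcCochains_factor X.f X.g hinj hex ha₂ hg
  rw [ccπ_eq_zero_iff]
  refine ⟨a₁, ha₁, ?_, fun v => ?_⟩
  · apply coeffMap_injective X.f hinj
    rw [coeffMap_d, hfa₁, h1]
    rfl
  · change resLoc 𝔏 X.X₁ v 0 a₁ - w.1.2 v = 0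
    rw [sub_eq_zero]
    apply coeffMap_injective (𝔏.coeffHom X.f v) hinj
    rw [← resLoc_coeffMap, hfa₁]
    exact h2' v

end Fermat.Agent.PT
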