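import Mathlib
import Fermat.Agent.CFT.PT.ConeCupDelta

/-!
# S55 (P3): the duality maps `Hlc^n(B) → (Hcc^m(A))^*`

For a pairing `β : A × B → T'`, a linear functional `τ` on `Hcc 𝔏 T' N` and `h : m + n = N`:

* `dualMap 𝔏 β τ h : Hlc 𝔉 B n →ₗ[k] Module.Dual k (Hcc 𝔏 A m)`, `x ↦ (z ↦ τ (z ∪ x))`
  (`dualMap_apply`);
* `transpose_dualMap` (naturality for adjoint pairings):
  `(HccMap φ)^* (dualMap β y) = dualMap β' (φ'_* y)` if `β (φ a) b = β' a (φ' b)`;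
* `transpose_ccΔ_dualMap` (`δ`-compatibility): for short exact `X` (cone side), `Y` and pairings
  `β₁ : X₁ × Y₃ → T'`, `β₂ : X₂ × Y₂ → T'`, `β₃ : X₃ × Y₁ → T'` with `β₂.Adj β₁ X.f Y.g`,
  `β₃.Adj β₂ X.g Y.f`:
  `(ccΔ)^* (dualMap β₁ y) = (-1)^m • dualMap β₃ (lcδ y)`.
* `dualMapFlip` : the other adjoint `Hcc 𝔏 A m →ₗ[k] Module.Dual k (Hlc 𝔉 B n)`.
-/

set_option autoImplicit false

namespace Fermat.Agent.PT

open CategoryTheory groupCohomology Rep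

universe u

variable {k G : Type u} [CommRing k] [Group G]

section DualMap

variable {𝔉 : LevelFamily G} (𝔏 : LocSystem 𝔉) {A B T' : Rep.{u} k G} (β : RepPairing A B T')
  {m n N : ℕ} (τ : Hcc 𝔏 T' N →ₗ[k] k) (h : m + n = N)

/-- the duality map `x ↦ (z ↦ τ (z ∪ x))` -/
noncomputable def dualMap : Hlc 𝔉 B n →ₗ[k] Module.Dual k (Hcc 𝔏 A m) :=
  ((ccCupH 𝔏 β h).compr₂ τ).flip

@[simp] theorem dualMap_apply (x : Hlc 𝔉 B n) (z : Hcc 𝔏 A m) :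
    dualMap 𝔏 β τ h x z = τ (ccCupH 𝔏 β h z x) := rfl

/-- the other adjoint of the same bilinear form: `z ↦ (x ↦ τ (z ∪ x))` -/
noncomputable def dualMapFlip : Hcc 𝔏 A m →ₗ[k] Module.Dual k (Hlc 𝔉 B n) :=
  (ccCupH 𝔏 β h).compr₂ τ

@[simp] theorem dualMapFlip_apply (z : Hcc 𝔏 A m) (x : Hlc 𝔉 B n) :
    dualMapFlip 𝔏 β τ h z x = τ (ccCupH 𝔏 β h z x) := rfl

theorem dualMap_ccδ (x : Hlc 𝔉 B n) (w : ∀ v : 𝔏.ι, Hlc (𝔏.fam v) (𝔏.coeff A v) m) :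
    dualMap 𝔏 β τ h x (ccδ 𝔏 A m w) =
      τ (ccδ 𝔏 T' N (fun v => cupH (𝔏.fam v) (𝔏.pairing β v) h (w v) (locRes 𝔏 B n x v))) := by
  rw [dualMap_apply, ccCupH_ccδ]

end DualMap

section Naturality

variable {𝔉 : LevelFamily G} (𝔏 : LocSystem 𝔉) {A A' B B' T' : Rep.{u} k G}
  (β : RepPairing A' B T') (β' : RepPairing A B' T') (φ : A ⟶ A') (φ' : B ⟶ B')
  {m n N : ℕ} (τ : Hcc 𝔏 T' N →ₗ[k] k) (h : m + n = N)

/-- naturality of the duality maps for adjoint pairings -/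
theorem dualMap_HccMap (hβ : β.Adj β' φ φ') (y : Hlc 𝔉 B n) (z : Hcc 𝔏 A m) :
    dualMap 𝔏 β τ h y (HccMap 𝔏 φ m z) = dualMap 𝔏 β' τ h (HlcCoeff φ' 𝔉 n y) z := by
  rw [dualMap_apply, dualMap_apply, ccCupH_adj β β' φ φ' 𝔏 hβ]

/-- naturality of the duality maps for adjoint pairings, transpose form -/
theorem transpose_dualMap (hβ : β.Adj β' φ φ') (y : Hlc 𝔉 B n) :
    Module.Dual.transpose (HccMap 𝔏 φ m) (dualMap 𝔏 β τ h y) =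
      dualMap 𝔏 β' τ h (HlcCoeff φ' 𝔉 n y) := by
  refine LinearMap.ext fun z => ?_
  exact dualMap_HccMap 𝔏 β β' φ φ' τ h hβ y z

end Naturality

section DeltaCompat

variable {𝔉 : LevelFamily G} (𝔏 : LocSystem 𝔉) {X Y : ShortComplex (Rep.{u} k G)}
  {T' : Rep.{u} k G} (β₁ : RepPairing X.X₁ Y.X₃ T') (β₂ : RepPairing X.X₂ Y.X₂ T')
  (β₃ : RepPairing X.X₃ Y.X₁ T') {m n N : ℕ} (τ : Hcc 𝔏 T' (N + 1) →ₗ[k] k)

/-- `δ`-compatibility of the duality maps, element form -/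
theorem dualMap_ccΔ (H : ConeLESHyp 𝔏 X) (hY : Y.ShortExact) (hsmY : IsSmooth 𝔉 Y.X₂)
    (h₁ : β₂.Adj β₁ X.f Y.g) (h₃ : β₃.Adj β₂ X.g Y.f) (h : m + n = N) (y : Hlc 𝔉 Y.X₃ n)
    (z : Hcc 𝔏 X.X₃ m) :
    dualMap 𝔏 β₁ τ (show m + 1 + n = N + 1 by omega) y (ccΔ H m z) =
      (-1 : k) ^ m • dualMap 𝔏 β₃ τ (show m + (n + 1) = N + 1 by omega)
        ((lcδ H.finG hY hsmY n (n + 1) rfl).hom y) z := by
  have e := congrArg τ (ccΔ_ccCupH β₁ β₂ β₃ 𝔏 H hY hsmY h₁ h₃ h z y)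
  rw [map_add, map_smul, map_zero] at e
  rw [dualMap_apply, dualMap_apply, eq_neg_of_add_eq_zero_left e, pow_succ, mul_neg_one,
    neg_smul, neg_neg]

/-- **`δ`-compatibility of the duality maps**:
`(ccΔ)^* (dualMap β₁ y) = (-1)^m • dualMap β₃ (lcδ y)` -/
theorem transpose_ccΔ_dualMap (H : ConeLESHyp 𝔏 X) (hY : Y.ShortExact)
    (hsmY : IsSmooth 𝔉 Y.X₂) (h₁ : β₂.Adj β₁ X.f Y.g) (h₃ : β₃.Adj β₂ X.g Y.f) (h : m + n = N)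
    (y : Hlc 𝔉 Y.X₃ n) :
    Module.Dual.transpose (ccΔ H m) (dualMap 𝔏 β₁ τ (show m + 1 + n = N + 1 by omega) y) =
      (-1 : k) ^ m • dualMap 𝔏 β₃ τ (show m + (n + 1) = N + 1 by omega)
        ((lcδ H.finG hY hsmY n (n + 1) rfl).hom y) := by
  refine LinearMap.ext fun z => ?_
  exact dualMap_ccΔ 𝔏 β₁ β₂ β₃ τ H hY hsmY h₁ h₃ h y z

end DeltaCompat

end Fermat.Agent.PT
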