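import Fermat.Agent.CFT.PT.FourLemmas
import Fermat.Agent.CFT.PT.ConeCupDelta
import Fermat.Agent.CFT.PT.DualMaps

/-!
# S55 (P10): the ascending duality induction (R3)

For a coefficient target `T`, a "trace" `τ : Hcc 𝔏 T 2 →ₗ[k] k` and a pairing `β : A × B → T` the
duality maps
`dualityMap 𝔏 τ β h : Hlc 𝔉 B n →ₗ[k] Dual k (Hcc 𝔏 A m)` (`m + n = 2`), `x ↦ (z ↦ τ (z ∪ x))`.

* `dualityMap_natural`, `dualityMap_lcδ` : naturality and `δ`-compatibility (up to sign).
* `EffData 𝔏 A B β` : an effacing datum for the dual pair `(A, B, β)`: short exact sequences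
  `0 → B → I → Q → 0` and `0 → Q' → I' → A → 0` with adjoint pairings `β₁ : Q' × Q → T`,
  `β₂ : I' × I → T`.
* `EffData.inj_step`, `EffData.surj_step` : the two four-lemma steps (R3)(b),(c).
* `dualInduct_step`, `dualInduct_main` : the induction over a class `D` of dual pairs which is
  stable under effacing data.
-/

set_option autoImplicit false

namespace Fermat.Agent.PT

open CategoryTheory groupCohomology Rep Module

universe u

variable {k G : Type u} [Field k] [Group G] {𝔉 : LevelFamily G} (𝔏 : LocSystem 𝔉)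
  {T : Rep.{u} k G} (τ : Hcc 𝔏 T 2 →ₗ[k] k)

section DualityMap

variable {A B : Rep.{u} k G} (β : RepPairing A B T)

/-- the duality map `Hlc^n(B) → (Hcc^m(A))^*`, `x ↦ (z ↦ τ (z ∪ x))`, `m + n = 2`. -/
noncomputable def dualityMap {m n : ℕ} (h : m + n = 2) :
    Hlc 𝔉 B n →ₗ[k] Dual k (Hcc 𝔏 A m) :=
  (LinearMap.compr₂ (ccCupH 𝔏 β h) τ).flip

@[simp] theorem dualityMap_apply {m n : ℕ} (h : m + n = 2) (x : Hlc 𝔉 B n) (z : Hcc 𝔏 A m) :
    dualityMap 𝔏 τ β h x z = τ (ccCupH 𝔏 β h z x) := rfl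

/-- `dualityMap` is helper26's `dualMap` (PT/DualMaps.lean) with `N = 2`. -/
theorem dualityMap_eq_dualMap {m n : ℕ} (h : m + n = 2) :
    dualityMap 𝔏 τ β h = dualMap 𝔏 β τ h := rfl

end DualityMap

section Natural

variable {A A' B B' : Rep.{u} k G} (β : RepPairing A' B T) (β' : RepPairing A B' T)
  (φ : A ⟶ A') (φ' : B ⟶ B')

/-- naturality of the duality maps for adjoint pairings. -/
theorem dualityMap_natural (hβ : β.Adj β' φ φ') {m n : ℕ} (h : m + n = 2) (y : Hlc 𝔉 B n) :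
    dualityMap 𝔏 τ β' h (HlcCoeff φ' 𝔉 n y) = (HccMap 𝔏 φ m).dualMap (dualityMap 𝔏 τ β h y) := by
  refine LinearMap.ext fun z => ?_
  rw [dualityMap_apply, LinearMap.dualMap_apply, dualityMap_apply,
    ccCupH_adj β β' φ φ' 𝔏 hβ h z y]

end Natural

section Delta

variable {X Y : ShortComplex (Rep.{u} k G)}
  (β₁ : RepPairing X.X₁ Y.X₃ T) (β₂ : RepPairing X.X₂ Y.X₂ T) (β₃ : RepPairing X.X₃ Y.X₁ T)

/-- `δ`-compatibility of the duality maps, up to the sign `(-1)^m`. -/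
theorem dualityMap_lcδ (H : ConeLESHyp 𝔏 X) (hY : Y.ShortExact) (hsmY : IsSmooth 𝔉 Y.X₂)
    (h₁ : β₂.Adj β₁ X.f Y.g) (h₃ : β₃.Adj β₂ X.g Y.f) {m n : ℕ} (h : m + n = 1)
    (y : Hlc 𝔉 Y.X₃ n) :
    dualityMap 𝔏 τ β₃ (show m + (n + 1) = 2 by omega)
        ((lcδ H.finG hY hsmY n (n + 1) rfl).hom y) =
      ((-1 : k) ^ m) • (ccΔ H m).dualMap
        (dualityMap 𝔏 τ β₁ (show m + 1 + n = 2 by omega) y) := by
  refine LinearMap.ext fun z => ?_
  have e := ccΔ_ccCupH β₁ β₂ β₃ 𝔏 H hY hsmY h₁ h₃ h z y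
  have e' := congrArg τ e
  rw [map_add, map_smul, map_zero] at e'
  rw [dualityMap_apply, LinearMap.smul_apply, LinearMap.dualMap_apply, dualityMap_apply]
  have hs : ((-1 : k) ^ (m + 1)) * ((-1 : k) ^ (m + 1)) = 1 := by
    rw [← pow_add, ← two_mul, pow_mul]
    simp
  have e'' : τ (ccCupH 𝔏 β₃ (show m + (n + 1) = 2 by omega) z
      ((lcδ H.finG hY hsmY n (n + 1) rfl).hom y)) =
      -((-1 : k) ^ (m + 1)) * τ (ccCupH 𝔏 β₁ (show m + 1 + n = 2 by omega) (ccΔ H m z) y) := by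
    have h2 := congrArg (fun t => ((-1 : k) ^ (m + 1)) * t) e'
    simp only [mul_add, smul_eq_mul, mul_zero, ← mul_assoc, hs, one_mul] at h2
    linear_combination h2
  rw [e'', smul_eq_mul, pow_succ]
  ring

end Delta

/-- **Effacing data** for a dual pair `(A, B, β)`: short exact sequences `0 → B → I → Q → 0`
(global side) and `0 → Q' → I' → A → 0` (cone side) with adjoint pairings. -/
structure EffData (A B : Rep.{u} k G) (β : RepPairing A B T) where
  /-- the middle term on the global side -/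
  I : Rep.{u} k G
  /-- the cokernel on the global side -/
  Q : Rep.{u} k G
  /-- the middle term on the cone side -/
  I' : Rep.{u} k G
  /-- the kernel on the cone side -/
  Q' : Rep.{u} k G
  /-- `B ⟶ I` -/
  f : B ⟶ I
  /-- `I ⟶ Q` -/
  g : I ⟶ Q
  wY : f ≫ g = 0
  /-- `Q' ⟶ I'` -/
  f' : Q' ⟶ I'
  /-- `I' ⟶ A` -/
  g' : I' ⟶ A
  wX : f' ≫ g' = 0
  /-- the pairing `Q' × Q → T` -/
  β₁ : RepPairing Q' Q T
  /-- the pairing `I' × I → T` -/
  β₂ : RepPairing I' I T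
  hX : ConeLESHyp 𝔏 (ShortComplex.mk f' g' wX)
  hY : (ShortComplex.mk f g wY).ShortExact
  hsmY : IsSmooth 𝔉 I
  h₁ : β₂.Adj β₁ f' g
  h₃ : β.Adj β₂ g' f

namespace EffData

variable {𝔏} {A B : Rep.{u} k G} {β : RepPairing A B T} (E : EffData 𝔏 A B β)

/-- the cone-side short complex `Q' → I' → A` -/
abbrev X : ShortComplex (Rep.{u} k G) := ShortComplex.mk E.f' E.g' E.wX

/-- the global-side short complex `B → I → Q` -/
abbrev Y : ShortComplex (Rep.{u} k G) := ShortComplex.mk E.f E.g E.wY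

/-- **(R3)(b)**: if `β^n(I)` is surjective and `β^n(Q)` is injective, then `β^{n+1}(B)` is
injective on the classes dying in `I`. -/
theorem inj_step {m n : ℕ} (h : m + n = 1)
    (hI : Function.Surjective (dualityMap 𝔏 τ E.β₂ (show m + 1 + n = 2 by omega)))
    (hQ : Function.Injective (dualityMap 𝔏 τ E.β₁ (show m + 1 + n = 2 by omega)))
    (x : Hlc 𝔉 B (n + 1)) (hx0 : HlcCoeff E.f 𝔉 (n + 1) x = 0)
    (hx : dualityMap 𝔏 τ β (show m + (n + 1) = 2 by omega) x = 0) : x = 0 := by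
  obtain ⟨y, rfl⟩ := exists_lcδ_eq (X := E.Y) E.hX.finG E.hY E.hsmY n (n + 1) rfl x hx0
  have hu : IsUnit ((-1 : k) ^ m) := (isUnit_neg_one (α := k) |>.pow m)
  refine fourInj_step (k := k)
    (HlcCoeff E.g 𝔉 n) (lcδ (X := E.Y) E.hX.finG E.hY E.hsmY n (n + 1) rfl).hom
    (HccMap 𝔏 E.f' (m + 1)).dualMap (ccΔ E.hX m).dualMap
    (dualityMap 𝔏 τ E.β₂ (show m + 1 + n = 2 by omega))
    (dualityMap 𝔏 τ E.β₁ (show m + 1 + n = 2 by omega))
    (dualityMap 𝔏 τ β (show m + (n + 1) = 2 by omega)) hu.unit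
    (fun w => lcH₂₃_lcδ_apply (X := E.Y) E.hX.finG E.hY E.hsmY n (n + 1) rfl w)
    (fun w => dualityMap_natural 𝔏 τ E.β₂ E.β₁ E.f' E.g E.h₁ _ w)
    (fun y => dualityMap_lcδ (X := E.X) (Y := E.Y) 𝔏 τ E.β₁ E.β₂ β E.hX E.hY E.hsmY E.h₁ E.h₃ h y)
    (fun φ hφ => dual_exact (ccΔ E.hX m) (HccMap 𝔏 E.f' (m + 1))
      (fun b hb => exists_ccΔ_eq E.hX m b hb) φ hφ)
    hI hQ y hx

/-- **(R3)(c)**: the epi four-lemma step. -/
theorem surj_step {m n : ℕ} (h : m + n = 1)
    (hQ0 : Function.Surjective (dualityMap 𝔏 τ E.β₁ (show m + 1 + n = 2 by omega)))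
    (hI : Function.Surjective (dualityMap 𝔏 τ E.β₂ (show m + (n + 1) = 2 by omega)))
    (hQ : Function.Injective (dualityMap 𝔏 τ E.β₁ (show m + (n + 1) = 2 by omega))) :
    Function.Surjective (dualityMap 𝔏 τ β (show m + (n + 1) = 2 by omega)) := by
  have hu : IsUnit ((-1 : k) ^ m) := (isUnit_neg_one (α := k) |>.pow m)
  refine fourSurj_step (k := k)
    (lcδ (X := E.Y) E.hX.finG E.hY E.hsmY n (n + 1) rfl).hom
    (HlcCoeff E.f 𝔉 (n + 1)) (HlcCoeff E.g 𝔉 (n + 1))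
    (ccΔ E.hX m).dualMap (HccMap 𝔏 E.g' m).dualMap (HccMap 𝔏 E.f' m).dualMap
    (dualityMap 𝔏 τ E.β₁ (show m + 1 + n = 2 by omega))
    (dualityMap 𝔏 τ β (show m + (n + 1) = 2 by omega))
    (dualityMap 𝔏 τ E.β₂ (show m + (n + 1) = 2 by omega))
    (dualityMap 𝔏 τ E.β₁ (show m + (n + 1) = 2 by omega)) hu.unit
    (fun y => dualityMap_lcδ (X := E.X) (Y := E.Y) 𝔏 τ E.β₁ E.β₂ β E.hX E.hY E.hsmY E.h₁ E.h₃ h y)
    (fun x => dualityMap_natural 𝔏 τ β E.β₂ E.g' E.f E.h₃ _ x)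
    (fun y => dualityMap_natural 𝔏 τ E.β₂ E.β₁ E.f' E.g E.h₁ _ y)
    (fun y hy => exists_lcH₁₂_eq (X := E.Y) E.hX.finG E.hY E.hsmY (n + 1) y hy)
    (fun φ hφ => dual_exact (HccMap 𝔏 E.g' m) (ccΔ E.hX m)
      (fun b hb => exists_HccMap_g_eq E.hX m b hb) φ hφ)
    (fun φ => ?_) hQ0 hI hQ
  refine LinearMap.ext fun z => ?_
  rw [LinearMap.dualMap_apply, LinearMap.dualMap_apply, LinearMap.zero_apply,
    HccMap_g_f (𝔏 := 𝔏) (X := E.X) m z, map_zero]

end EffData

section Induction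

variable {𝔏 τ}

/-- an injective map into the dual of a space of dimension at most that of the source is
bijective. -/
theorem dualInduct_bijective_of_le {V W : Type*} [AddCommGroup V] [Module k V] [AddCommGroup W]
    [Module k W] [Module.Finite k V] [Module.Finite k W] (f : V →ₗ[k] Dual k W)
    (hf : Function.Injective f) (hle : finrank k W ≤ finrank k V) : Function.Bijective f := by
  have h1 : finrank k V ≤ finrank k (Dual k W) := LinearMap.finrank_le_finrank_of_injective hf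
  rw [Subspace.dual_finrank_eq] at h1
  have heq : finrank k V = finrank k (Dual k W) := by
    rw [Subspace.dual_finrank_eq]; omega
  exact ⟨hf, (LinearMap.injective_iff_surjective_of_finrank_eq_finrank heq).1 hf⟩

/-- **One step of the induction (R3).**  `D` is a class of dual pairs such that every pair in `D`
and every class `x ∈ Hlc^{n+1}(B)` admits an effacing datum killing `x`, whose other two pairs are
again in `D` and whose induced pair satisfies the base inequality in degree `n + 1`.  If `β^n` is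
bijective for all pairs in `D`, then so is `β^{n+1}`. -/
theorem dualInduct_step (D : ∀ A B : Rep.{u} k G, RepPairing A B T → Prop) {m n : ℕ}
    (h : m + n = 1)
    (hEff : ∀ (A B : Rep.{u} k G) (β : RepPairing A B T), D A B β → ∀ x : Hlc 𝔉 B (n + 1),
      ∃ E : EffData 𝔏 A B β, D E.Q' E.Q E.β₁ ∧ D E.I' E.I E.β₂ ∧
        HlcCoeff E.f 𝔉 (n + 1) x = 0 ∧ Module.Finite k (Hlc 𝔉 E.I (n + 1)) ∧
        Module.Finite k (Hcc 𝔏 E.I' m) ∧
        finrank k (Hcc 𝔏 E.I' m) ≤ finrank k (Hlc 𝔉 E.I (n + 1)))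
    (IH : ∀ (A B : Rep.{u} k G) (β : RepPairing A B T), D A B β →
      Function.Bijective (dualityMap 𝔏 τ β (show m + 1 + n = 2 by omega)))
    (A B : Rep.{u} k G) (β : RepPairing A B T) (hD : D A B β) :
    Function.Bijective (dualityMap 𝔏 τ β (show m + (n + 1) = 2 by omega)) := by
  have hinj : ∀ (A B : Rep.{u} k G) (β : RepPairing A B T), D A B β →
      Function.Injective (dualityMap 𝔏 τ β (show m + (n + 1) = 2 by omega)) := by
    intro A B β hD
    rw [injective_iff_map_eq_zero]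
    intro x hx
    obtain ⟨E, hQ, hI, hx0, -, -, -⟩ := hEff A B β hD x
    exact E.inj_step τ h (IH _ _ _ hI).2 (IH _ _ _ hQ).1 x hx0 hx
  refine ⟨hinj A B β hD, ?_⟩
  obtain ⟨E, hQ, hI, -, hf1, hf2, hle⟩ := hEff A B β hD 0
  have hIbij := dualInduct_bijective_of_le
    (dualityMap 𝔏 τ E.β₂ (show m + (n + 1) = 2 by omega)) (hinj _ _ _ hI) hle
  exact E.surj_step τ h (IH _ _ _ hQ).2 hIbij.2 (hinj _ _ _ hQ)

/-- **The induction (R3).**  From `β^0` bijective on a class `D` of dual pairs closed under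
effacing data (with the base inequalities), `β^1` and `β^2` are bijective on `D`. -/
theorem dualInduct_main (D : ∀ A B : Rep.{u} k G, RepPairing A B T → Prop)
    (hEff : ∀ (A B : Rep.{u} k G) (β : RepPairing A B T), D A B β → ∀ (m n : ℕ), m + n = 1 →
      ∀ x : Hlc 𝔉 B (n + 1),
      ∃ E : EffData 𝔏 A B β, D E.Q' E.Q E.β₁ ∧ D E.I' E.I E.β₂ ∧
        HlcCoeff E.f 𝔉 (n + 1) x = 0 ∧ Module.Finite k (Hlc 𝔉 E.I (n + 1)) ∧
        Module.Finite k (Hcc 𝔏 E.I' m) ∧
        finrank k (Hcc 𝔏 E.I' m) ≤ finrank k (Hlc 𝔉 E.I (n + 1)))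
    (h0 : ∀ (A B : Rep.{u} k G) (β : RepPairing A B T), D A B β →
      Function.Bijective (dualityMap 𝔏 τ β (show 2 + 0 = 2 by omega)))
    (A B : Rep.{u} k G) (β : RepPairing A B T) (hD : D A B β) :
    Function.Bijective (dualityMap 𝔏 τ β (show 1 + 1 = 2 by omega)) ∧
      Function.Bijective (dualityMap 𝔏 τ β (show 0 + 2 = 2 by omega)) := by
  have h1 : ∀ (A B : Rep.{u} k G) (β : RepPairing A B T), D A B β →
      Function.Bijective (dualityMap 𝔏 τ β (show 1 + 1 = 2 by omega)) :=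
    fun A B β hD => dualInduct_step (m := 1) (n := 0) D rfl
      (fun A B β hD x => hEff A B β hD 1 0 rfl x) h0 A B β hD
  exact ⟨h1 A B β hD, dualInduct_step (m := 0) (n := 1) D rfl
      (fun A B β hD x => hEff A B β hD 0 1 rfl x) h1 A B β hD⟩

/-- dimension form: a bijective duality map gives `dim Hlc^n(B) = dim Hcc^m(A)`. -/
theorem finrank_eq_of_dualityMap_bijective {A B : Rep.{u} k G} (β : RepPairing A B T) {m n : ℕ}
    (h : m + n = 2) [Module.Finite k (Hcc 𝔏 A m)]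
    (hb : Function.Bijective (dualityMap 𝔏 τ β h)) :
    finrank k (Hlc 𝔉 B n) = finrank k (Hcc 𝔏 A m) := by
  rw [← Subspace.dual_finrank_eq (K := k) (V := Hcc 𝔏 A m)]
  exact LinearEquiv.finrank_eq (LinearEquiv.ofBijective _ hb)

end Induction

end Fermat.Agent.PT
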