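import Fermat.Agent.CFT.PT.DualTwist
import Fermat.Agent.CFT.Bridge.FiniteLevel

/-!
# S55 (P8) part 2: the twisted dual of `coind_V res_V N`

For a subgroup `V ≤ G` and `N : Rep k G`:

* `funModel V N : Rep k G` on `G ⧸ V → N` with `(g • φ) c = ρ g (φ (g⁻¹ • c))`;
* `coindFunIso V N : coind V.subtype (res V.subtype N) ≅ funModel V N`
  (`f ↦ (yV ↦ ρ y (f y⁻¹))`);
* for `V` of finite index `funModelDualIso : (funModel V N).dualTwist χ ≅ funModel V (N.dualTwist χ)`
  (`ψ ↦ (φ ↦ ∑_c ψ c (φ c))`);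
* `coindDualIso : (coind V.subtype (res V.subtype N)).dualTwist χ ≅
    coind V.subtype (res V.subtype (N.dualTwist χ))`.
-/

set_option autoImplicit false

namespace Fermat.Agent.PT

open CategoryTheory groupCohomology Rep Fermat.Agent.CFT

universe u

variable {k G : Type u} [Field k] [Group G] (V : Subgroup G) (N : Rep.{u} k G)

/-- The representation of `G` on functions `G ⧸ V → N`: `(g • φ) c = ρ g (φ (g⁻¹ • c))`. -/
noncomputable def funModelρ : Representation k G (G ⧸ V → N) where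
  toFun g :=
    { toFun := fun φ c => N.ρ g (φ (g⁻¹ • c))
      map_add' := fun φ φ' => by
        funext c
        simp
      map_smul' := fun a φ => by
        funext c
        simp }
  map_one' := by
    refine LinearMap.ext fun φ => funext fun c => ?_
    simp
  map_mul' g h := by
    refine LinearMap.ext fun φ => funext fun c => ?_
    simp [mul_smul]

/-- The function model of `coind_V res_V N`. -/
noncomputable abbrev funModel : Rep.{u} k G := Rep.of (funModelρ V N)

lemma funModel_ρ_apply (g : G) (φ : G ⧸ V → N) (c : G ⧸ V) :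
    (funModel V N).ρ g φ c = N.ρ g (φ (g⁻¹ • c)) := rfl

section CoindFun

/-- the coinduction condition, spelled out. -/
lemma coind_apply_mul (f : coind V.subtype (res V.subtype N)) (v : G) (hv : v ∈ V) (x : G) :
    f.1 (v * x) = N.ρ v (f.1 x) :=
  f.2 ⟨v, hv⟩ x

lemma coindToFun_aux (f : coind V.subtype (res V.subtype N)) (y : G) (s : G) (hs : s ∈ V) :
    N.ρ (y * s) (f.1 (y * s)⁻¹) = N.ρ y (f.1 y⁻¹) := by
  rw [mul_inv_rev, coind_apply_mul V N f s⁻¹ (V.inv_mem hs), map_mul]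
  change N.ρ y (N.ρ s (N.ρ s⁻¹ (f.1 y⁻¹))) = _
  rw [ρ_ρ_inv]

/-- `f ↦ (yV ↦ ρ y (f y⁻¹))`, as a linear map. -/
noncomputable def coindToFunLin : coind V.subtype (res V.subtype N) →ₗ[k] (G ⧸ V → N) where
  toFun f := descend₁ V (fun y => N.ρ y (f.1 y⁻¹)) (fun y s hs => coindToFun_aux V N f y s hs)
  map_add' f f' := by
    funext c
    induction c using QuotientGroup.induction_on with
    | H y =>
      change N.ρ y ((f + f').1 y⁻¹) = N.ρ y (f.1 y⁻¹) + N.ρ y (f'.1 y⁻¹)
      rw [← map_add]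
      rfl
  map_smul' a f := by
    funext c
    induction c using QuotientGroup.induction_on with
    | H y =>
      change N.ρ y ((a • f).1 y⁻¹) = a • N.ρ y (f.1 y⁻¹)
      rw [← map_smul]
      rfl

lemma coindToFunLin_mk (f : coind V.subtype (res V.subtype N)) (y : G) :
    coindToFunLin V N f (y : G ⧸ V) = N.ρ y (f.1 y⁻¹) := rfl

/-- `coind_V res_V N ⟶ Fun(G ⧸ V, N)`. -/
noncomputable def coindToFun : coind V.subtype (res V.subtype N) ⟶ funModel V N :=
  Rep.ofHom ⟨coindToFunLin V N, fun g => by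
    refine LinearMap.ext fun f => funext fun c => ?_
    induction c using QuotientGroup.induction_on with
    | H y =>
      change coindToFunLin V N ((coind V.subtype (res V.subtype N)).ρ g f) (y : G ⧸ V) =
        N.ρ g (coindToFunLin V N f (g⁻¹ • (y : G ⧸ V)))
      have h1 : g⁻¹ • (y : G ⧸ V) = ((g⁻¹ * y : G) : G ⧸ V) := rfl
      rw [h1, coindToFunLin_mk, coindToFunLin_mk, mul_inv_rev, inv_inv]
      change N.ρ y (f.1 (y⁻¹ * g)) = N.ρ g (N.ρ (g⁻¹ * y) (f.1 (y⁻¹ * g)))
      rw [map_mul]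
      change _ = N.ρ g (N.ρ g⁻¹ (N.ρ y (f.1 (y⁻¹ * g))))
      rw [ρ_ρ_inv]⟩

/-- `φ ↦ (x ↦ ρ x (φ (x⁻¹ V)))`, as a linear map. -/
noncomputable def funToCoindLin : (G ⧸ V → N) →ₗ[k] coind V.subtype (res V.subtype N) where
  toFun φ := ⟨fun x => N.ρ x (φ ((x⁻¹ : G) : G ⧸ V)), fun v x => by
    change N.ρ ((v : G) * x) (φ ((((v : G) * x)⁻¹ : G) : G ⧸ V)) =
      N.ρ (v : G) (N.ρ x (φ ((x⁻¹ : G) : G ⧸ V)))
    have h1 : ((((v : G) * x)⁻¹ : G) : G ⧸ V) = ((x⁻¹ : G) : G ⧸ V) := by
      rw [QuotientGroup.eq]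
      simp
    rw [h1, map_mul]
    rfl⟩
  map_add' φ φ' := by
    apply Subtype.ext
    funext x
    change N.ρ x ((φ + φ') _) = N.ρ x (φ _) + N.ρ x (φ' _)
    rw [← map_add]
    rfl
  map_smul' a φ := by
    apply Subtype.ext
    funext x
    change N.ρ x ((a • φ) _) = a • N.ρ x (φ _)
    rw [← map_smul]
    rfl

lemma funToCoindLin_coindToFunLin (f : coind V.subtype (res V.subtype N)) :
    funToCoindLin V N (coindToFunLin V N f) = f := by
  apply Subtype.ext
  funext x
  change N.ρ x (coindToFunLin V N f ((x⁻¹ : G) : G ⧸ V)) = f.1 x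
  rw [coindToFunLin_mk, inv_inv, ρ_ρ_inv]

lemma coindToFunLin_funToCoindLin (φ : G ⧸ V → N) :
    coindToFunLin V N (funToCoindLin V N φ) = φ := by
  funext c
  induction c using QuotientGroup.induction_on with
  | H y =>
    rw [coindToFunLin_mk]
    change N.ρ y (N.ρ y⁻¹ (φ (((y⁻¹)⁻¹ : G) : G ⧸ V))) = _
    rw [ρ_ρ_inv, inv_inv]

lemma coindToFun_bijective : Function.Bijective (coindToFun V N).hom :=
  ⟨fun f f' h => by
    have h' : coindToFunLin V N f = coindToFunLin V N f' := h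
    rw [← funToCoindLin_coindToFunLin V N f, h', funToCoindLin_coindToFunLin],
   fun φ => ⟨funToCoindLin V N φ, coindToFunLin_funToCoindLin V N φ⟩⟩

/-- `coind_V res_V N ≅ Fun(G ⧸ V, N)`. -/
noncomputable def coindFunIso : coind V.subtype (res V.subtype N) ≅ funModel V N :=
  haveI := isIso_of_bijective_hom (coindToFun V N) (coindToFun_bijective V N)
  asIso (coindToFun V N)

lemma coindFunIso_hom_apply_mk (f : coind V.subtype (res V.subtype N)) (y : G) :
    ((coindFunIso V N).hom.hom f : G ⧸ V → N) (y : G ⧸ V) = N.ρ y (f.1 y⁻¹) := rfl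

end CoindFun

section FunDual

variable (χ : G →* kˣ) [Fintype (G ⧸ V)]

open Classical in
/-- `ψ ↦ (φ ↦ ∑_c ψ c (φ c))` as a linear equivalence. -/
noncomputable def funDualEquiv :
    (G ⧸ V → Module.Dual k N) ≃ₗ[k] Module.Dual k (G ⧸ V → N) :=
  LinearMap.lsum k (fun _ : G ⧸ V => (N : Type u)) k

lemma funDualEquiv_apply (ψ : G ⧸ V → Module.Dual k N) (φ : G ⧸ V → N) :
    funDualEquiv V N ψ φ = ∑ c, ψ c (φ c) := by
  classical
  rw [funDualEquiv, LinearMap.lsum_apply, LinearMap.sum_apply]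
  rfl

/-- `Fun(G ⧸ V, N') ⟶ Fun(G ⧸ V, N)'`. -/
noncomputable def funDualHom : funModel V (N.dualTwist χ) ⟶ (funModel V N).dualTwist χ :=
  Rep.ofHom ⟨(funDualEquiv V N).toLinearMap, fun g => by
    refine LinearMap.ext fun ψ => LinearMap.ext fun φ => ?_
    change funDualEquiv V N ((funModel V (N.dualTwist χ)).ρ g ψ) φ =
      (χ g : k) * funDualEquiv V N ψ ((funModel V N).ρ g⁻¹ φ)
    rw [funDualEquiv_apply, funDualEquiv_apply, Finset.mul_sum]
    rw [← Equiv.sum_comp (MulAction.toPerm g : Equiv.Perm (G ⧸ V))]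
    refine Finset.sum_congr rfl fun c _ => ?_
    rw [funModel_ρ_apply, funModel_ρ_apply, inv_inv]
    change ((N.dualTwist χ).ρ g (ψ (g⁻¹ • (g • c))) : Module.Dual k N) (φ (g • c)) = _
    rw [inv_smul_smul, dualTwist_ρ_apply_apply]⟩

lemma funDualHom_bijective : Function.Bijective (funDualHom V N χ).hom :=
  (funDualEquiv V N).bijective

/-- `Fun(G ⧸ V, N') ≅ Fun(G ⧸ V, N)'`. -/
noncomputable def funModelDualIso : funModel V (N.dualTwist χ) ≅ (funModel V N).dualTwist χ :=
  haveI := isIso_of_bijective_hom (funDualHom V N χ) (funDualHom_bijective V N χ)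
  asIso (funDualHom V N χ)

/-- **Twisted dual of a coinduced module**: `(coind_V res_V N)' ≅ coind_V res_V (N')`. -/
noncomputable def coindDualIso :
    (coind V.subtype (res V.subtype N)).dualTwist χ ≅
      coind V.subtype (res V.subtype (N.dualTwist χ)) :=
  (dualTwistIso χ (coindFunIso V N)) ≪≫ (funModelDualIso V N χ).symm ≪≫
    (coindFunIso V (N.dualTwist χ)).symm

end FunDual

/-- The same with `V.FiniteIndex` instead of a `Fintype` instance. -/
theorem nonempty_coindDualIso (χ : G →* kˣ) [V.FiniteIndex] :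
    Nonempty ((coind V.subtype (res V.subtype N)).dualTwist χ ≅
      coind V.subtype (res V.subtype (N.dualTwist χ))) := by
  have : Fintype (G ⧸ V) := Subgroup.fintypeQuotientOfFiniteIndex
  exact ⟨coindDualIso V N χ⟩

section Trivial

variable (k G) in
/-- `k' = Hom(k, k(χ)) ⟶ k(χ)`, `f ↦ f 1`. -/
noncomputable def dualTwistTrivialHom (χ : G →* kˣ) :
    (Rep.trivial k G k).dualTwist χ ⟶ ofChar χ :=
  Rep.ofHom (ρ := ((Rep.trivial k G k).dualTwist χ).ρ) (σ := (ofChar χ).ρ)
    ⟨(LinearMap.ringLmapEquivSelf k k k).toLinearMap, fun g => by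
      refine LinearMap.ext fun (f : Module.Dual k k) => ?_
      change (χ g : k) * f (1 : k) = (ofChar χ).ρ g (f 1)
      rw [ofChar_ρ_apply]⟩

variable (k G) in
/-- `k' = Hom(k, k(χ)) ≅ k(χ)`, `f ↦ f 1`. -/
noncomputable def dualTwistTrivialIso (χ : G →* kˣ) :
    (Rep.trivial k G k).dualTwist χ ≅ ofChar χ :=
  haveI := isIso_of_bijective_hom (dualTwistTrivialHom k G χ)
    (LinearMap.ringLmapEquivSelf k k k).bijective
  asIso (dualTwistTrivialHom k G χ)

variable (k G) in
/-- `k(χ)' = Hom(k(χ), k(χ)) ⟶ k`, `f ↦ f 1`. -/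
noncomputable def dualTwistOfCharHom (χ : G →* kˣ) :
    (ofChar χ).dualTwist χ ⟶ Rep.trivial k G k :=
  Rep.ofHom (ρ := ((ofChar χ).dualTwist χ).ρ) (σ := (Rep.trivial k G k).ρ)
    ⟨(LinearMap.ringLmapEquivSelf k k k).toLinearMap, fun g => by
      refine LinearMap.ext fun (f : Module.Dual k k) => ?_
      change (χ g : k) * f ((ofChar χ).ρ g⁻¹ (1 : k)) = f 1
      rw [ofChar_ρ_apply, mul_one]
      have h : f ((χ g⁻¹ : kˣ) : k) = ((χ g⁻¹ : kˣ) : k) * f 1 := by
        rw [← smul_eq_mul, ← map_smul, smul_eq_mul, mul_one]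
      rw [h, ← mul_assoc, map_inv, Units.mul_inv, one_mul]⟩

variable (k G) in
/-- `k(χ)' = Hom(k(χ), k(χ)) ≅ k`, `f ↦ f 1`. -/
noncomputable def dualTwistOfCharIso (χ : G →* kˣ) :
    (ofChar χ).dualTwist χ ≅ Rep.trivial k G k :=
  haveI := isIso_of_bijective_hom (dualTwistOfCharHom k G χ)
    (LinearMap.ringLmapEquivSelf k k k).bijective
  asIso (dualTwistOfCharHom k G χ)

end Trivial

end Fermat.Agent.PT
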