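import Fermat.Agent.CFT.PT.DualInduct
import Fermat.Agent.CFT.PT.BetaZero
import Fermat.Agent.CFT.PT.DualTwist
import Fermat.Agent.CFT.PT.Efface
import Fermat.Agent.CFT.PT.EffaceSeq
import Fermat.Agent.CFT.PT.SmoothCor
import Fermat.Agent.CFT.PT.SmoothShapiro

/-!
# S55 (P10), abstract integration: global duality for the canonical dual pairs `(N', N)`

For `T = k(χ)`, a nonzero trace `τ : Hcc^2(T) → k` (`Hcc^2 = H_c^3`), vanishing of the global and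
local `H^3` on finite-dimensional smooth modules, and a cofinal set `𝒱` of levels `V` on which `χ`
is trivial and for which the *base inequalities*
`dim Hcc^m((I_V N)') ≤ dim Hlc^n(I_V N)` (`m + n = 2`, `I_V N = coind_V res_V N`, `V` acting
trivially on `N`) hold, the duality maps `Hlc^n(N) → (Hcc^m(N'))^*` of the canonical pairs
`(N', N, evalPairing)` are bijective for all finite-dimensional smooth `N`.

* `dualAbs_exists_forall_HlcRes_eq_zero` : stable effaceability by restriction.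
* `dualAbs_HlcCoeff_coindUnit_eq_zero` : a class dying on `V` dies in `coind_V res_V`.
* `CanonPair 𝔉 χ A B β` : the class of canonical dual pairs.
* `effCanon` : the canonical effacing datum at a level `V`.
* `dualAbs_main` : bijectivity of `β^0, β^1, β^2` on canonical pairs.
* `dualAbs_finrank` : the dimension form consumed by `DualityDimsS`.
-/

set_option autoImplicit false

namespace Fermat.Agent.PT

open CategoryTheory groupCohomology Rep Module Fermat.Agent.CFT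

universe u

variable {k G : Type u} [Field k] [Group G] {𝔉 : LevelFamily G}

/-- **Stable effaceability by restriction**: if `U₀ ∈ 𝔉` acts trivially on `N`, every class of
positive degree dies on ALL small enough members of the family. -/
theorem dualAbs_exists_forall_HlcRes_eq_zero (N : Rep.{u} k G) {U₀ : Subgroup G}
    (hU₀ : U₀ ∈ 𝔉.sets) (htriv : ∀ u ∈ U₀, ∀ a, N.ρ u a = a) (n : ℕ) (x : Hlc 𝔉 N (n + 1)) :
    ∃ V₁ ∈ 𝔉.sets, V₁ ≤ U₀ ∧
      ∀ V : Subgroup G, V ≤ V₁ → (HlcRes 𝔉 V N (n + 1)).hom x = 0 := by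
  obtain ⟨c, rfl⟩ := lcπ_surjective 𝔉 N (n + 1) x
  obtain ⟨U, hU, hcU⟩ := c.2.1
  obtain ⟨W, hW, hWle⟩ := 𝔉.directed U hU U₀ hU₀
  refine ⟨W, hW, hWle.trans inf_le_right, fun V hVle => ?_⟩
  have hVU : V ≤ U := hVle.trans (hWle.trans inf_le_left)
  have hVU₀ : V ≤ U₀ := hVle.trans (hWle.trans inf_le_right)
  rw [HlcRes_lcπ]
  refine efface_lcπ_const_eq_zero (𝔉.restrict V) (res V.subtype N)
    (fun v a => htriv (v : G) (hVU₀ v.2) a) n _ ⟨c.1 (fun _ => 1), ?_⟩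
  funext g
  change c.1 (V.subtype ∘ g) = c.1 (fun _ => 1)
  refine hcU.1 _ _ fun i => ?_
  have : ((V.subtype ∘ g) i)⁻¹ * (1 : G) = ((g i)⁻¹ : V) := by simp
  rw [this]
  exact hVU (g i)⁻¹.2

/-- A class dying after restriction to `V ∈ 𝔉` dies in `coind_V res_V N` (Shapiro). -/
theorem dualAbs_HlcCoeff_coindUnit_eq_zero (hfin : 𝔉.FiniteIndex) {V : Subgroup G}
    (hV : V ∈ 𝔉.sets) (N : Rep.{u} k G) (hN : IsSmooth 𝔉 N) (n : ℕ) (x : Hlc 𝔉 N n)
    (hx : (HlcRes 𝔉 V N n).hom x = 0) : HlcCoeff (coindUnit V N) 𝔉 n x = 0 := by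
  have hinj := (HlcShapiro_bijective hfin (isOpenFor_of_mem hV) n (res V.subtype N)
    (hN.res_subtype V)).1
  change (HlcUnit 𝔉 V N n).hom x = 0
  apply hinj
  rw [map_zero]
  have := congrArg (fun f => f.hom x) (HlcUnit_comp_HlcShapiro 𝔉 V N n)
  simp only [ModuleCat.hom_comp, LinearMap.comp_apply] at this
  rw [this, hx]

section Canon

variable (𝔉) (χ : G →* kˣ)

/-- the class of canonical dual pairs `(N', N, evaluation)`, `N` finite-dimensional smooth -/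
inductive CanonPair : ∀ A B : Rep.{u} k G, RepPairing A B (ofChar χ) → Prop
  | mk (N : Rep.{u} k G) (hf : Module.Finite k N) (hs : IsSmooth 𝔉 N) :
      CanonPair (N.dualTwist χ) N (evalPairing N χ)

variable {𝔉} (𝔏 : LocSystem 𝔉)

/-- **the canonical effacing datum** of `(N', N)` at a level `V`:
`0 → N → I_V N → Q → 0` and its twisted dual `0 → Q' → (I_V N)' → N' → 0`. -/
noncomputable def effCanon (hfin : 𝔉.FiniteIndex) (hfinL : 𝔏.FiniteIndex) {V : Subgroup G}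
    (hV : V ∈ 𝔉.sets) (hχ : ∃ U ∈ 𝔉.sets, ∀ u ∈ U, χ u = 1) (N : Rep.{u} k G)
    [Module.Finite k N] (hN : IsSmooth 𝔉 N) :
    EffData 𝔏 (N.dualTwist χ) N (evalPairing N χ) :=
  haveI : V.Normal := 𝔉.normal V hV
  haveI : V.FiniteIndex := hfin V hV
  haveI : Module.Finite k (effaceSC V N).X₂ := finite_effaceSC_X₂ V N
  { I := (effaceSC V N).X₂
    Q := (effaceSC V N).X₃
    I' := (effaceSC V N).X₂.dualTwist χ
    Q' := (effaceSC V N).X₃.dualTwist χ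
    f := (effaceSC V N).f
    g := (effaceSC V N).g
    wY := (effaceSC V N).zero
    f' := dualTwistMap χ (effaceSC V N).g
    g' := dualTwistMap χ (effaceSC V N).f
    wX := (dualTwistSC χ (effaceSC V N)).zero
    β₁ := evalPairing (effaceSC V N).X₃ χ
    β₂ := evalPairing (effaceSC V N).X₂ χ
    hX :=
      { shortExact := dualTwistSC_shortExact χ (effaceSC_shortExact V N)
        finG := hfin
        finLoc := hfinL
        smooth := isSmooth_dualTwist 𝔉 (effaceSC V N).X₂ χ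
          (isSmooth_effaceSC_X₂ V N hfin hV hN) hχ }
    hY := effaceSC_shortExact V N
    hsmY := isSmooth_effaceSC_X₂ V N hfin hV hN
    h₁ := fun _ _ => rfl
    h₃ := fun _ _ => rfl }

end Canon

section Main

variable (𝔏 : LocSystem 𝔉) (χ : G →* kˣ) (τ : Hcc 𝔏 (ofChar χ) 2 →ₗ[k] k)

/-- **the base inequalities at a level `V`**: for every finite-dimensional `N` on which `V` acts
trivially and `m + n = 2`: `dim Hcc^m((I_V N)') ≤ dim Hlc^n(I_V N)` (with finiteness). -/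
def BaseIneq (V : Subgroup G) : Prop :=
  ∀ N : Rep.{u} k G, Module.Finite k N → (∀ v ∈ V, ∀ a, N.ρ v a = a) → ∀ m n : ℕ, m + n = 2 →
    Module.Finite k (Hlc 𝔉 (coind V.subtype (res V.subtype N)) n) ∧
    Module.Finite k (Hcc 𝔏 ((coind V.subtype (res V.subtype N)).dualTwist χ) m) ∧
    finrank k (Hcc 𝔏 ((coind V.subtype (res V.subtype N)).dualTwist χ) m) ≤
      finrank k (Hlc 𝔉 (coind V.subtype (res V.subtype N)) n)

theorem dualAbs_finrank_ofChar : finrank k (ofChar χ) = 1 := Module.finrank_self k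

theorem dualAbs_isSmooth_ofChar (hχ : ∃ U ∈ 𝔉.sets, ∀ u ∈ U, χ u = 1) :
    IsSmooth 𝔉 (ofChar χ) := by
  obtain ⟨U, hU, h⟩ := hχ
  intro a
  refine ⟨U, hU, fun u hu => ?_⟩
  rw [ofChar_ρ_apply, h u hu, Units.val_one, one_mul]

variable {𝔏 χ τ}

/-- **Global duality for the canonical dual pairs** (abstract form). -/
theorem dualAbs_main (hfin : 𝔉.FiniteIndex) (hfinL : 𝔏.FiniteIndex) (hτ : τ ≠ 0)
    (hG3 : GlobH3Vanish (k := k) 𝔉) (hL3 : LocH3Vanish (k := k) 𝔏)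
    (𝒱 : Set (Subgroup G)) (h𝒱 : ∀ V ∈ 𝒱, V ∈ 𝔉.sets) (hχ𝒱 : ∀ V ∈ 𝒱, ∀ v ∈ V, χ v = 1)
    (hcof : ∀ U ∈ 𝔉.sets, ∃ V ∈ 𝒱, V ≤ U)
    (hbase : ∀ V ∈ 𝒱, BaseIneq 𝔏 χ V)
    (N : Rep.{u} k G) (hNf : Module.Finite k N) (hNs : IsSmooth 𝔉 N) :
    Function.Bijective (dualityMap 𝔏 τ (evalPairing N χ) (show 2 + 0 = 2 by omega)) ∧
    Function.Bijective (dualityMap 𝔏 τ (evalPairing N χ) (show 1 + 1 = 2 by omega)) ∧
    Function.Bijective (dualityMap 𝔏 τ (evalPairing N χ) (show 0 + 2 = 2 by omega)) := by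
  have hχ : ∃ U ∈ 𝔉.sets, ∀ u ∈ U, χ u = 1 := by
    obtain ⟨U, hU⟩ := 𝔉.nonempty
    obtain ⟨V, hV, -⟩ := hcof U hU
    exact ⟨V, h𝒱 V hV, hχ𝒱 V hV⟩
  have hT : finrank k (ofChar χ) = 1 := dualAbs_finrank_ofChar χ
  have hTsm : IsSmooth 𝔉 (ofChar χ) := dualAbs_isSmooth_ofChar χ hχ
  -- the canonical datum at a level `V ∈ 𝒱` acting trivially, with its side conditions
  have key : ∀ (B : Rep.{u} k G) (hBf : Module.Finite k B) (hBs : IsSmooth 𝔉 B) (V : Subgroup G)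
      (hV : V ∈ 𝒱) (_ : ∀ v ∈ V, ∀ a, B.ρ v a = a),
      ∃ E : EffData 𝔏 (B.dualTwist χ) B (evalPairing B χ),
        (∀ (n : ℕ) (x : Hlc 𝔉 B n), (HlcRes 𝔉 V B n).hom x = 0 → HlcCoeff E.f 𝔉 n x = 0) ∧
        CanonPair 𝔉 χ E.Q' E.Q E.β₁ ∧ CanonPair 𝔉 χ E.I' E.I E.β₂ ∧
        Module.Finite k E.I' ∧ Module.Finite k E.Q' ∧ IsSmooth 𝔉 E.Q' ∧
        (∀ b : E.I, (∀ a, E.β₂.toLin a b = 0) → b = 0) ∧
        (∀ b : E.Q, (∀ a, E.β₁.toLin a b = 0) → b = 0) ∧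
        ∀ m n : ℕ, m + n = 2 → Module.Finite k (Hlc 𝔉 E.I n) ∧ Module.Finite k (Hcc 𝔏 E.I' m) ∧
          finrank k (Hcc 𝔏 E.I' m) ≤ finrank k (Hlc 𝔉 E.I n) := by
    intro B hBf hBs V hV htriv
    have hV' : V ∈ 𝔉.sets := h𝒱 V hV
    haveI : V.Normal := 𝔉.normal V hV'
    haveI : V.FiniteIndex := hfin V hV'
    have hIf : Module.Finite k (effaceSC V B).X₂ := finite_effaceSC_X₂ V B
    have hQf : Module.Finite k (effaceSC V B).X₃ := finite_effaceSC_X₃ V B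
    have hIs : IsSmooth 𝔉 (effaceSC V B).X₂ := isSmooth_effaceSC_X₂ V B hfin hV' hBs
    have hQs : IsSmooth 𝔉 (effaceSC V B).X₃ := isSmooth_effaceSC_X₃ V B hfin hV' hBs
    refine ⟨effCanon χ 𝔏 hfin hfinL hV' hχ B hBs,
      fun n x hx => dualAbs_HlcCoeff_coindUnit_eq_zero hfin hV' B hBs n x hx, CanonPair.mk _ hQf hQs,
      CanonPair.mk _ hIf hIs, ?_, ?_, ?_, ?_, ?_, ?_⟩
    · exact inferInstanceAs (Module.Finite k ((effaceSC V B).X₂.dualTwist χ))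
    · exact inferInstanceAs (Module.Finite k ((effaceSC V B).X₃.dualTwist χ))
    · exact isSmooth_dualTwist 𝔉 (effaceSC V B).X₃ χ hQs hχ
    · exact fun b hb => evalPairing_right_nondeg (effaceSC V B).X₂ χ b hb
    · exact fun b hb => evalPairing_right_nondeg (effaceSC V B).X₃ χ b hb
    · exact fun m n hmn => hbase V hV B hBf htriv m n hmn
  -- `β^0` on canonical pairs
  have h0 : ∀ (A B : Rep.{u} k G) (β : RepPairing A B (ofChar χ)), CanonPair 𝔉 χ A B β →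
      Function.Bijective (dualityMap 𝔏 τ β (show 2 + 0 = 2 by omega)) := by
    intro A B β hD
    cases hD with
    | mk _ hBf hBs =>
    obtain ⟨U₀, hU₀, htriv⟩ := exists_mem_forall_ρ_eq_of_finite 𝔉 B hBs
    obtain ⟨V, hV, hVle⟩ := hcof U₀ hU₀
    obtain ⟨E, -, -, -, hI'f, hQ'f, hQ's, hnd₂, hnd₁, hb⟩ :=
      key B hBf hBs V hV (fun v hv a => htriv v (hVle hv) a)
    obtain ⟨hf1, hf2, hle⟩ := hb 2 0 rfl
    haveI : Module.Finite k (B.dualTwist χ) :=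
      inferInstanceAs (Module.Finite k (Module.Dual k B))
    exact betaZero_bijective (𝔏 := 𝔏) (τ := τ) (evalPairing B χ) hT hτ hTsm hG3 hL3 E
      (isSmooth_dualTwist 𝔉 B χ hBs hχ) hQ's
      (fun b hb => evalPairing_right_nondeg B χ b hb) hnd₂ hnd₁ hle
  -- the effacing data for the induction
  have hEff : ∀ (A B : Rep.{u} k G) (β : RepPairing A B (ofChar χ)), CanonPair 𝔉 χ A B β →
      ∀ (m n : ℕ), m + n = 1 → ∀ x : Hlc 𝔉 B (n + 1),
      ∃ E : EffData 𝔏 A B β, CanonPair 𝔉 χ E.Q' E.Q E.β₁ ∧ CanonPair 𝔉 χ E.I' E.I E.β₂ ∧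
        HlcCoeff E.f 𝔉 (n + 1) x = 0 ∧ Module.Finite k (Hlc 𝔉 E.I (n + 1)) ∧
        Module.Finite k (Hcc 𝔏 E.I' m) ∧
        finrank k (Hcc 𝔏 E.I' m) ≤ finrank k (Hlc 𝔉 E.I (n + 1)) := by
    intro A B β hD m n hmn x
    cases hD with
    | mk _ hBf hBs =>
    obtain ⟨U₀, hU₀, htriv⟩ := exists_mem_forall_ρ_eq_of_finite 𝔉 B hBs
    obtain ⟨V₁, hV₁, hV₁le, hres⟩ := dualAbs_exists_forall_HlcRes_eq_zero B hU₀ htriv n x
    obtain ⟨V, hV, hVle⟩ := hcof V₁ hV₁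
    obtain ⟨E, hEf, hQ, hI, -, -, -, -, -, hb⟩ :=
      key B hBf hBs V hV (fun v hv a => htriv v (hV₁le (hVle hv)) a)
    obtain ⟨hf1, hf2, hle⟩ := hb m (n + 1) (by omega)
    exact ⟨E, hQ, hI, hEf (n + 1) x (hres V hVle), hf1, hf2, hle⟩
  have hmain := dualInduct_main (𝔏 := 𝔏) (τ := τ) (CanonPair 𝔉 χ) hEff h0
    (N.dualTwist χ) N (evalPairing N χ) (CanonPair.mk N hNf hNs)
  exact ⟨h0 _ _ _ (CanonPair.mk N hNf hNs), hmain.1, hmain.2⟩

/-- an isomorphism of coefficients induces a linear equivalence on cone cohomology -/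
noncomputable def dualAbs_HccEquiv {A A' : Rep.{u} k G} (e : A ≅ A') (n : ℕ) :
    Hcc 𝔏 A n ≃ₗ[k] Hcc 𝔏 A' n :=
  LinearEquiv.ofLinear (HccMap 𝔏 e.hom n) (HccMap 𝔏 e.inv n)
    (LinearMap.ext fun z => by
      rw [LinearMap.comp_apply, ← HccMap_comp, e.inv_hom_id, HccMap_id, LinearMap.id_apply])
    (LinearMap.ext fun z => by
      rw [LinearMap.comp_apply, ← HccMap_comp, e.hom_inv_id, HccMap_id, LinearMap.id_apply])

/-- an isomorphism of coefficients induces a linear equivalence on level-constant cohomology -/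
noncomputable def dualAbs_HlcEquiv (𝔉 : LevelFamily G) {A A' : Rep.{u} k G} (e : A ≅ A') (n : ℕ) :
    Hlc 𝔉 A n ≃ₗ[k] Hlc 𝔉 A' n :=
  LinearEquiv.ofLinear (HlcCoeff e.hom 𝔉 n) (HlcCoeff e.inv 𝔉 n)
    (LinearMap.ext fun z => by
      rw [LinearMap.comp_apply, ← HlcCoeff_comp, e.inv_hom_id, HlcCoeff_id, LinearMap.id_apply])
    (LinearMap.ext fun z => by
      rw [LinearMap.comp_apply, ← HlcCoeff_comp, e.hom_inv_id, HlcCoeff_id, LinearMap.id_apply])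

/-- dimension form of a bijective duality map (no finiteness needed). -/
theorem dualAbs_finrank_eq_of_bijective {A B : Rep.{u} k G} (β : RepPairing A B (ofChar χ))
    {m n : ℕ} (h : m + n = 2) (hb : Function.Bijective (dualityMap 𝔏 τ β h)) :
    finrank k (Hcc 𝔏 A m) = finrank k (Hlc 𝔉 B n) := by
  rw [← Subspace.dual_finrank_eq (K := k) (V := Hcc 𝔏 A m)]
  exact (LinearEquiv.finrank_eq (LinearEquiv.ofBijective _ hb)).symm

/-- **Global duality, dimension form**: `h_c^1(N') = h^2(N)`, `h_c^2(N') = h^1(N)`,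
`h_c^3(N') = h^0(N)` and `h_c^3(N) = h^0(N')` for finite-dimensional smooth `N`. -/
theorem dualAbs_finrank (hfin : 𝔉.FiniteIndex) (hfinL : 𝔏.FiniteIndex) (hτ : τ ≠ 0)
    (hG3 : GlobH3Vanish (k := k) 𝔉) (hL3 : LocH3Vanish (k := k) 𝔏)
    (𝒱 : Set (Subgroup G)) (h𝒱 : ∀ V ∈ 𝒱, V ∈ 𝔉.sets) (hχ𝒱 : ∀ V ∈ 𝒱, ∀ v ∈ V, χ v = 1)
    (hcof : ∀ U ∈ 𝔉.sets, ∃ V ∈ 𝒱, V ≤ U)
    (hbase : ∀ V ∈ 𝒱, BaseIneq 𝔏 χ V)
    (N : Rep.{u} k G) (hNf : Module.Finite k N) (hNs : IsSmooth 𝔉 N) :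
    finrank k (Hcc 𝔏 (N.dualTwist χ) 0) = finrank k (Hlc 𝔉 N 2) ∧
    finrank k (Hcc 𝔏 (N.dualTwist χ) 1) = finrank k (Hlc 𝔉 N 1) ∧
    finrank k (Hcc 𝔏 (N.dualTwist χ) 2) = finrank k (Hlc 𝔉 N 0) ∧
    finrank k (Hcc 𝔏 N 2) = finrank k (Hlc 𝔉 (N.dualTwist χ) 0) := by
  have hχ : ∃ U ∈ 𝔉.sets, ∀ u ∈ U, χ u = 1 := by
    obtain ⟨U, hU⟩ := 𝔉.nonempty
    obtain ⟨V, hV, -⟩ := hcof U hU
    exact ⟨V, h𝒱 V hV, hχ𝒱 V hV⟩
  obtain ⟨b0, b1, b2⟩ := dualAbs_main (τ := τ) hfin hfinL hτ hG3 hL3 𝒱 h𝒱 hχ𝒱 hcof hbase N hNf hNs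
  haveI : Module.Finite k (N.dualTwist χ) := inferInstanceAs (Module.Finite k (Module.Dual k N))
  obtain ⟨b0', -, -⟩ := dualAbs_main (τ := τ) hfin hfinL hτ hG3 hL3 𝒱 h𝒱 hχ𝒱 hcof hbase
    (N.dualTwist χ) inferInstance (isSmooth_dualTwist 𝔉 N χ hNs hχ)
  refine ⟨dualAbs_finrank_eq_of_bijective _ _ b2, dualAbs_finrank_eq_of_bijective _ _ b1,
    dualAbs_finrank_eq_of_bijective _ _ b0, ?_⟩
  rw [← dualAbs_finrank_eq_of_bijective _ _ b0']
  exact (dualAbs_HccEquiv (𝔏 := 𝔏) (ddIso N χ) 2).finrank_eq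

end Main

end Fermat.Agent.PT
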