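import Fermat.Agent.CFT.PT.DualityAbs
import Fermat.Agent.CFT.PT.DualTwistCoind
import Fermat.Agent.CFT.PT.EffaceHlc

/-!
# S55 (P10): the base inequalities from the trivial module

If `χ` is trivial on `V` and the base inequalities `dim Hcc^m(I_V k) ≤ dim Hlc^n(I_V k)`
(`m + n = 2`, `I_V k = coind_V res_V k`) hold for the trivial module `k`, then `BaseIneq 𝔏 χ V`
holds: for `N ≅ k^d` with trivial `V`-action, `I_V N ≅ (I_V k)^d` and
`(I_V N)' ≅ I_V (N') ≅ (I_V k)^d`.
-/

set_option autoImplicit false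

namespace Fermat.Agent.PT

open CategoryTheory groupCohomology Rep Module Fermat.Agent.CFT

universe u

variable {k G : Type u} [Field k] [Group G] {𝔉 : LevelFamily G}

theorem dualAbs_finrank_fin_fun (d : ℕ) (M : Type*) [AddCommGroup M] [Module k M]
    [Module.Finite k M] : finrank k (Fin d → M) = d * finrank k M := by
  rw [Module.finrank_pi_fintype, Finset.sum_const, Finset.card_univ, Fintype.card_fin,
    smul_eq_mul]

/-- **Base inequalities from the trivial module.** -/
theorem dualAbs_baseIneq_of_trivial (𝔏 : LocSystem 𝔉) (χ : G →* kˣ) (V : Subgroup G)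
    [V.FiniteIndex] (hχV : ∀ v ∈ V, χ v = 1)
    (h : ∀ m n : ℕ, m + n = 2 →
      Module.Finite k (Hlc 𝔉 (coind V.subtype (res V.subtype (Rep.trivial k G k))) n) ∧
      Module.Finite k (Hcc 𝔏 (coind V.subtype (res V.subtype (Rep.trivial k G k))) m) ∧
      finrank k (Hcc 𝔏 (coind V.subtype (res V.subtype (Rep.trivial k G k))) m) ≤
        finrank k (Hlc 𝔉 (coind V.subtype (res V.subtype (Rep.trivial k G k))) n)) :
    BaseIneq 𝔏 χ V := by
  intro N hNf htriv m n hmn
  obtain ⟨hf1, hf2, hle⟩ := h m n hmn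
  obtain ⟨e⟩ := nonempty_coindDualIso V N χ
  have htriv' : ∀ v ∈ V, ∀ a, (N.dualTwist χ).ρ v a = a := fun v hv a =>
    dualTwist_ρ_eq_self_of_trivial N χ (fun x => htriv v hv x) (hχV v hv) a
  haveI : Module.Finite k (N.dualTwist χ) := inferInstanceAs (Module.Finite k (Module.Dual k N))
  have hd : finrank k (N.dualTwist χ) = finrank k N :=
    Subspace.dual_finrank_eq (K := k) (V := N)
  let e₁ := HlcSplitEquiv V N htriv (Module.finBasis k N) 𝔉 n
  let e₂ := (dualAbs_HccEquiv (𝔏 := 𝔏) e m).trans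
    (HccSplitEquiv V (N.dualTwist χ) htriv' (Module.finBasis k (N.dualTwist χ)) 𝔏 m)
  refine ⟨Module.Finite.equiv e₁.symm, Module.Finite.equiv e₂.symm, ?_⟩
  rw [e₁.finrank_eq, e₂.finrank_eq, dualAbs_finrank_fin_fun, dualAbs_finrank_fin_fun, hd]
  exact Nat.mul_le_mul_left _ hle

end Fermat.Agent.PT
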