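import Fermat.Agent.CFT.PT.DualityBase
import Fermat.Agent.CFT.PT.BaseCountCoind
import Fermat.Agent.CFT.PT.FiniteInst
import Fermat.Agent.CFT.PT.S55Top

/-!
# S55 (P10): `DualityDimsS` from the contracts

The arithmetic instance of `dualAbs_finrank` over `(Γℚ, famS S, locS S)`, `χ = cycloChar p`,
`k = ZMod p`:

* `dualInst_exists_trace` : `GlobalOutQ` gives a nonzero trace `τ : H_c^3(G_S, μ_p) → 𝔽_p`.
* `dualInst_baseIneq` : the base inequalities at the cyclotomic levels, from helper7's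
  `baseCount_coind_le`.
* `dualityDimsS_of_contracts` : `DualityDimsS p S`.
-/

set_option autoImplicit false

namespace Fermat.Agent.PT

open CategoryTheory groupCohomology Rep Module Fermat.Agent.CFT ExtCitation

local notation "Γℚ" => (AlgebraicClosure ℚ ≃ₐ[ℚ] AlgebraicClosure ℚ)

variable {p : ℕ} [Fact p.Prime] {S : Finset Nat.Primes}

/-- `GlobalOutQ` gives a nonzero linear form on `H_c^3(G_S, μ_p)`. -/
theorem dualInst_exists_trace (gQ : GlobalOutQ p S) :
    ∃ τ : Hcc (locS S) (cycloRep p) 2 →ₗ[ZMod p] ZMod p, τ ≠ 0 := by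
  have hl : ∃ l, ∀ x, locRes (locS S) (cycloRep p) 2 x ≠ l := by
    by_contra hcon
    apply gQ
    intro l
    by_contra hl
    exact hcon ⟨l, fun x hx => hl ⟨x, hx⟩⟩
  obtain ⟨l, hl⟩ := hl
  have hw : ccδ (locS S) (cycloRep p) 2 l ≠ 0 := by
    intro h0
    obtain ⟨x, hx⟩ := exists_locRes_eq_of_ccδ_eq_zero (locS S) (cycloRep p) 2 l h0
    exact hl x hx
  by_contra hcon
  apply hw
  rw [← Module.forall_dual_apply_eq_zero_iff (ZMod p)]
  intro τ
  by_contra hτ
  exact hcon ⟨τ, fun h => hτ (by rw [h]; rfl)⟩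

/-- the base inequalities at a cyclotomic level -/
theorem dualInst_baseIneq (hpS : pPrime p ∈ S)
    (g0 : GlobalOut0 p S) (g1 : GlobalOut1 p S) (g2 : GlobalOut2Le p S) (g3 : GlobalOut3Le p S)
    (g4 : GlobalOut4Le p S) (l0 : LocalOut0 p S) (l2 : LocalOut2 p S) (l3 : LocalOut3 p S)
    (V : Subgroup Γℚ) (hV : IsCycloLevel p S V) :
    BaseIneq (locS S) (cycloChar p) V := by
  haveI := hV.normal
  have hfin : (famS S).FiniteIndex := baseCount_famS_finiteIndex S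
  haveI : V.FiniteIndex := hfin V hV.1
  refine dualAbs_baseIneq_of_trivial (locS S) (cycloChar p) V hV.2 ?_
  have hb := baseCount_coind_le hpS g0 g1 g2 g3 g4 l0 l2 l3 V hV
  have e : res V.subtype (cycloRep p) = trivRep p ↥V :=
    baseCount_res_cycloRep_eq p V.subtype (fun u => hV.2 u u.2)
  rw [e] at hb
  obtain ⟨⟨f0, f1, f2⟩, c2, c1, c0⟩ := hb
  have hH : ∀ n, n ≤ 2 →
      Module.Finite (ZMod p) (Hlc (famS S) (coind V.subtype (trivRep p ↥V)) n) := fun n hn =>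
    haveI := g0 V hV n hn
    Module.Finite.equiv (shapEquiv hfin ⟨V, hV.1, le_rfl⟩ (trivRep p ↥V)
      (baseCount_isSmooth_trivRep _) n).symm
  have h0 : finrank (ZMod p) (Hlc (famS S) (coind V.subtype (trivRep p ↥V)) 0) = 1 := by
    rw [finrank_Hlc_coind hfin hV.1 (baseCount_isSmooth_trivRep _) 0]
    exact baseCount_finrank_Hlc0_trivial _
  intro m n hmn
  have hcases : (m = 2 ∧ n = 0) ∨ (m = 1 ∧ n = 1) ∨ (m = 0 ∧ n = 2) := by omega
  rcases hcases with ⟨rfl, rfl⟩ | ⟨rfl, rfl⟩ | ⟨rfl, rfl⟩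
  · exact ⟨hH 0 (by norm_num), f2, c2.trans h0.ge⟩
  · exact ⟨hH 1 (by norm_num), f1, c1⟩
  · exact ⟨hH 2 le_rfl, f0, c0⟩

/-- **`DualityDimsS` from the contracts**, `cd_p(G_S) ≤ 2` and the vanishing of the local `H^3`. -/
theorem dualityDimsS_of_contracts (hpS : pPrime p ∈ S)
    (g0 : GlobalOut0 p S) (g1 : GlobalOut1 p S) (g2 : GlobalOut2Le p S) (g3 : GlobalOut3Le p S)
    (g4 : GlobalOut4Le p S) (gQ : GlobalOutQ p S)
    (l0 : LocalOut0 p S) (l2 : LocalOut2 p S) (l3 : LocalOut3 p S)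
    (hcd : CdTwoS p S) (hL3 : LocH3Vanish (k := ZMod p) (locS S)) : DualityDimsS p S := by
  intro N hNf hNs
  obtain ⟨τ, hτ⟩ := dualInst_exists_trace gQ
  have h := dualAbs_finrank (𝔏 := locS S) (χ := cycloChar p) (τ := τ)
    (baseCount_famS_finiteIndex S) (fun v => famLoc_finiteIndex v.1) hτ hcd hL3
    {V | IsCycloLevel p S V} (fun V hV => hV.1) (fun V hV => hV.2)
    (fun U hU => exists_isCycloLevel_le hpS hU)
    (fun V hV => dualInst_baseIneq hpS g0 g1 g2 g3 g4 l0 l2 l3 V hV) N hNf hNs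
  exact ⟨h.1, h.2.2.2⟩

end Fermat.Agent.PT
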