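import Fermat.Agent.CFT.PT.DualInduct
import Fermat.Agent.CFT.PT.BetaZero
import Fermat.Agent.CFT.PT.DualTwist
import Fermat.Agent.CFT.PT.EffaceSeq

/-!
# S55 (P10), instantiation: the effacing datum of an evaluation pair

For a character `χ : G →* kˣ` (`T = k(χ)`), a finite-dimensional smooth `N` and a level `V ∈ 𝔉`:
* `evalEffData 𝔏 χ … N V : EffData 𝔏 (N.dualTwist χ) N (evalPairing N χ)` : global side
  `N → Coind_V Res_V N → Q`, cone side its twisted dual, pairings = evaluation pairings;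
* `IsEvalPair` : the class of evaluation pairs of finite-dimensional smooth modules (the class `D`
  of `dualInduct_main`), closed under `evalEffData`;
* `EvalBase 𝔏 χ` : the base inequalities at the induced modules;
* `evalPair_dualityMap_bijective` : all three duality maps of an evaluation pair are bijective;
* `evalPair_finrank` : the dimension form consumed by `DualityDimsS`.
-/

set_option autoImplicit false

namespace Fermat.Agent.PT

open CategoryTheory groupCohomology Rep Module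

universe u

variable {k G : Type u} [Field k] [Group G] {𝔉 : LevelFamily G} (𝔏 : LocSystem 𝔉) (χ : G →* kˣ)

section Datum

variable (hfin : 𝔉.FiniteIndex) (hfinL : 𝔏.FiniteIndex) (hχ : ∃ U ∈ 𝔉.sets, ∀ u ∈ U, χ u = 1)
  (N : Rep.{u} k G) [FiniteDimensional k N] (hN : IsSmooth 𝔉 N) (V : Subgroup G) (hV : V ∈ 𝔉.sets)

include hfin hV in
theorem evalEff_finite_X₂ : Module.Finite k (effaceSC V N).X₂ := by
  have : V.Normal := 𝔉.normal V hV
  have : V.FiniteIndex := hfin V hV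
  exact finite_effaceSC_X₂ V N

include hfin hV in
theorem evalEff_finite_X₃ : Module.Finite k (effaceSC V N).X₃ := by
  have : V.Normal := 𝔉.normal V hV
  have : V.FiniteIndex := hfin V hV
  exact finite_effaceSC_X₃ V N

/-- **The effacing datum of the evaluation pair `(N', N)` at the level `V`.** -/
noncomputable def evalEffData : EffData 𝔏 (N.dualTwist χ) N (evalPairing N χ) where
  I := (effaceSC V N).X₂
  Q := (effaceSC V N).X₃
  I' := (effaceSC V N).X₂.dualTwist χ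
  Q' := (effaceSC V N).X₃.dualTwist χ
  f := (effaceSC V N).f
  g := (effaceSC V N).g
  wY := (effaceSC V N).zero
  f' := dualTwistMap χ (effaceSC V N).g
  g' := dualTwistMap χ (effaceSC V N).f
  wX := (dualTwistSC χ (effaceSC V N)).zero
  β₁ := evalPairing (effaceSC V N).X₃ χ
  β₂ := evalPairing (effaceSC V N).X₂ χ
  hX :=
    { shortExact := dualTwistSC_shortExact χ (effaceSC_shortExact V N)
      finG := hfin
      finLoc := hfinL
      smooth := by
        have := evalEff_finite_X₂ hfin N V hV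
        exact isSmooth_dualTwist 𝔉 (effaceSC V N).X₂ χ (isSmooth_effaceSC_X₂ V N hfin hV hN) hχ }
  hY := effaceSC_shortExact V N
  hsmY := isSmooth_effaceSC_X₂ V N hfin hV hN
  h₁ := fun _ _ => rfl
  h₃ := fun _ _ => rfl

end Datum

/-- The class `D` of the duality induction: evaluation pairs `(N', N)` of finite-dimensional
smooth modules. -/
inductive IsEvalPair (𝔉 : LevelFamily G) (χ : G →* kˣ) :
    ∀ A B : Rep.{u} k G, RepPairing A B (ofChar χ) → Prop
  | mk (N : Rep.{u} k G) (hfinN : FiniteDimensional k N) (hN : IsSmooth 𝔉 N) :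
      IsEvalPair 𝔉 χ (N.dualTwist χ) N (evalPairing N χ)

/-- **The base inequalities**: for every level `V` on which `χ` is trivial and every
finite-dimensional `N` on which `V` acts trivially, `dim Hcc^m((Coind_V Res_V N)') ≤
dim Hlc^n(Coind_V Res_V N)` for `m + n = 2` (with finiteness). -/
def EvalBase : Prop :=
  ∀ V ∈ 𝔉.sets, (∀ v ∈ V, χ v = 1) → ∀ N : Rep.{u} k G, FiniteDimensional k N →
    (∀ v ∈ V, ∀ a, N.ρ v a = a) → ∀ m n : ℕ, m + n = 2 →
      Module.Finite k (Hlc 𝔉 (coind V.subtype (res V.subtype N)) n) ∧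
      Module.Finite k (Hcc 𝔏 ((coind V.subtype (res V.subtype N)).dualTwist χ) m) ∧
      finrank k (Hcc 𝔏 ((coind V.subtype (res V.subtype N)).dualTwist χ) m) ≤
        finrank k (Hlc 𝔉 (coind V.subtype (res V.subtype N)) n)

section Main

variable {𝔏 χ} (τ : Hcc 𝔏 (ofChar χ) 2 →ₗ[k] k)

/-- a level on which `χ` and `N` are trivial, inside a given level. -/
theorem evalEff_exists_level (hχ : ∃ U ∈ 𝔉.sets, ∀ u ∈ U, χ u = 1)
    (N : Rep.{u} k G) [FiniteDimensional k N] (hN : IsSmooth 𝔉 N) :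
    ∃ V₁ ∈ 𝔉.sets, (∀ v ∈ V₁, χ v = 1) ∧ ∀ v ∈ V₁, ∀ a, N.ρ v a = a := by
  obtain ⟨U, hU, hχU⟩ := hχ
  obtain ⟨U₀, hU₀, htriv⟩ := exists_mem_forall_ρ_eq_of_finite 𝔉 N hN
  obtain ⟨W, hW, hWle⟩ := 𝔉.directed U hU U₀ hU₀
  exact ⟨W, hW, fun v hv => hχU v (hWle hv).1, fun v hv a => htriv v (hWle hv).2 a⟩

/-- effacing a class of positive degree at a small level: the class dies in `Coind_V Res_V N`. -/
theorem evalEff_exists_efface (hfin : 𝔉.FiniteIndex) (N : Rep.{u} k G) [FiniteDimensional k N]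
    (hN : IsSmooth 𝔉 N) {V₁ : Subgroup G} (hV₁ : V₁ ∈ 𝔉.sets) (n : ℕ) (x : Hlc 𝔉 N (n + 1)) :
    ∃ V ∈ 𝔉.sets, V ≤ V₁ ∧ HlcCoeff (effaceSC V N).f 𝔉 (n + 1) x = 0 := by
  obtain ⟨V, hV, hle, hx⟩ := exists_HlcRes_eq_zero_of_finite 𝔉 N hN n x hV₁
  refine ⟨V, hV, hle, ?_⟩
  have hinj : Function.Injective (HlcShapiro 𝔉 V (res V.subtype N) (n + 1)).hom :=
    (HlcShapiro_bijective hfin (isOpenFor_of_mem hV) (n + 1) (res V.subtype N)
      (hN.res_subtype V)).1
  apply hinj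
  have := congrArg (fun f => f.hom x) (HlcUnit_comp_HlcShapiro 𝔉 V N (n + 1))
  simp only [ModuleCat.hom_comp, LinearMap.comp_apply] at this
  exact (this.trans hx).trans (map_zero _).symm

theorem evalEff_finrank_ofChar : finrank k (ofChar χ) = 1 := Module.finrank_self k

theorem evalEff_isSmooth_ofChar (hχ : ∃ U ∈ 𝔉.sets, ∀ u ∈ U, χ u = 1) :
    IsSmooth 𝔉 (ofChar χ) := by
  obtain ⟨U, hU, h⟩ := hχ
  intro a
  refine ⟨U, hU, fun u hu => ?_⟩
  rw [ofChar_ρ_apply, h u hu, Units.val_one, one_mul]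

variable {τ}

/-- **(R4) for evaluation pairs**: `β^0 : Hlc^0(N) → Hcc^2(N')^*` is bijective. -/
theorem evalPair_betaZero_bijective (hfin : 𝔉.FiniteIndex) (hfinL : 𝔏.FiniteIndex)
    (hχ : ∃ U ∈ 𝔉.sets, ∀ u ∈ U, χ u = 1) (hτ : τ ≠ 0)
    (hG3 : GlobH3Vanish (k := k) 𝔉) (hL3 : LocH3Vanish (k := k) 𝔏) (hbase : EvalBase 𝔏 χ)
    (N : Rep.{u} k G) [FiniteDimensional k N] (hN : IsSmooth 𝔉 N) :
    Function.Bijective (dualityMap 𝔏 τ (evalPairing N χ) (show 2 + 0 = 2 by omega)) := by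
  obtain ⟨V, hV, hχV, hNV⟩ := evalEff_exists_level hχ N hN
  have hI : Module.Finite k (effaceSC V N).X₂ := evalEff_finite_X₂ hfin N V hV
  have hQ : Module.Finite k (effaceSC V N).X₃ := evalEff_finite_X₃ hfin N V hV
  obtain ⟨hf1, hf2, hle⟩ := hbase V hV hχV N inferInstance hNV 2 0 rfl
  have hN' : IsSmooth 𝔉 (N.dualTwist χ) := isSmooth_dualTwist 𝔉 N χ hN hχ
  have hQ' : IsSmooth 𝔉 ((effaceSC V N).X₃.dualTwist χ) :=
    isSmooth_dualTwist 𝔉 _ χ (isSmooth_effaceSC_X₃ V N hfin hV hN) hχ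
  have hfI' : Module.Finite k ((effaceSC V N).X₂.dualTwist χ) := finiteDimensional_dualTwist _ χ
  have hfQ' : Module.Finite k ((effaceSC V N).X₃.dualTwist χ) := finiteDimensional_dualTwist _ χ
  let E := evalEffData 𝔏 χ hfin hfinL hχ N hN V hV
  have : Module.Finite k E.I' := hfI'
  have : Module.Finite k E.Q' := hfQ'
  have : Module.Finite k (Hlc 𝔉 E.I 0) := hf1
  have : Module.Finite k (Hcc 𝔏 E.I' 2) := hf2
  exact betaZero_bijective (𝔏 := 𝔏) (τ := τ) (evalPairing N χ) evalEff_finrank_ofChar hτ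
    (evalEff_isSmooth_ofChar hχ) hG3 hL3 E hN' hQ'
    (evalPairing_right_nondeg N χ) (evalPairing_right_nondeg _ χ) (evalPairing_right_nondeg _ χ)
    hle

/-- **(R3) for evaluation pairs**: all duality maps `β^n : Hlc^n(N) → Hcc^{2-n}(N')^*` are
bijective. -/
theorem evalPair_dualityMap_bijective (hfin : 𝔉.FiniteIndex) (hfinL : 𝔏.FiniteIndex)
    (hχ : ∃ U ∈ 𝔉.sets, ∀ u ∈ U, χ u = 1) (hτ : τ ≠ 0)
    (hG3 : GlobH3Vanish (k := k) 𝔉) (hL3 : LocH3Vanish (k := k) 𝔏) (hbase : EvalBase 𝔏 χ)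
    (N : Rep.{u} k G) [FiniteDimensional k N] (hN : IsSmooth 𝔉 N) :
    Function.Bijective (dualityMap 𝔏 τ (evalPairing N χ) (show 2 + 0 = 2 by omega)) ∧
    Function.Bijective (dualityMap 𝔏 τ (evalPairing N χ) (show 1 + 1 = 2 by omega)) ∧
    Function.Bijective (dualityMap 𝔏 τ (evalPairing N χ) (show 0 + 2 = 2 by omega)) := by
  refine ⟨evalPair_betaZero_bijective hfin hfinL hχ hτ hG3 hL3 hbase N hN, ?_⟩
  have hEff : ∀ (A B : Rep.{u} k G) (β : RepPairing A B (ofChar χ)), IsEvalPair 𝔉 χ A B β →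
      ∀ (m n : ℕ), m + n = 1 → ∀ x : Hlc 𝔉 B (n + 1),
      ∃ E : EffData 𝔏 A B β, IsEvalPair 𝔉 χ E.Q' E.Q E.β₁ ∧ IsEvalPair 𝔉 χ E.I' E.I E.β₂ ∧
        HlcCoeff E.f 𝔉 (n + 1) x = 0 ∧ Module.Finite k (Hlc 𝔉 E.I (n + 1)) ∧
        Module.Finite k (Hcc 𝔏 E.I' m) ∧
        finrank k (Hcc 𝔏 E.I' m) ≤ finrank k (Hlc 𝔉 E.I (n + 1)) := by
    intro A B β hD m n hmn x
    cases hD with
    | mk _ hfinM hM =>
      obtain ⟨V₁, hV₁, hχV₁, hMV₁⟩ := evalEff_exists_level hχ B hM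
      obtain ⟨V, hV, hle, hx⟩ := evalEff_exists_efface hfin B hM hV₁ n x
      have hI : Module.Finite k (effaceSC V B).X₂ := evalEff_finite_X₂ hfin B V hV
      have hQ : Module.Finite k (effaceSC V B).X₃ := evalEff_finite_X₃ hfin B V hV
      obtain ⟨hf1, hf2, hle'⟩ := hbase V hV (fun v hv => hχV₁ v (hle hv)) B inferInstance
        (fun v hv a => hMV₁ v (hle hv) a) m (n + 1) (by omega)
      exact ⟨evalEffData 𝔏 χ hfin hfinL hχ B hM V hV,
        IsEvalPair.mk _ hQ (isSmooth_effaceSC_X₃ V B hfin hV hM),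
        IsEvalPair.mk _ hI (isSmooth_effaceSC_X₂ V B hfin hV hM), hx, hf1, hf2, hle'⟩
  have h0 : ∀ (A B : Rep.{u} k G) (β : RepPairing A B (ofChar χ)), IsEvalPair 𝔉 χ A B β →
      Function.Bijective (dualityMap 𝔏 τ β (show 2 + 0 = 2 by omega)) := by
    intro A B β hD
    cases hD with
    | mk _ hfinM hM => exact evalPair_betaZero_bijective hfin hfinL hχ hτ hG3 hL3 hbase B hM
  exact dualInduct_main (𝔏 := 𝔏) (τ := τ) (IsEvalPair 𝔉 χ) hEff h0 _ _ _
    (IsEvalPair.mk N inferInstance hN)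

/-- an isomorphism of coefficients induces an isomorphism on cone cohomology. -/
noncomputable def HccIsoEquiv {A B : Rep.{u} k G} (e : A ≅ B) (n : ℕ) :
    Hcc 𝔏 A n ≃ₗ[k] Hcc 𝔏 B n where
  __ := HccMap 𝔏 e.hom n
  invFun := HccMap 𝔏 e.inv n
  left_inv z := by
    change HccMap 𝔏 e.inv n (HccMap 𝔏 e.hom n z) = z
    rw [← HccMap_comp, e.hom_inv_id, HccMap_id]
  right_inv z := by
    change HccMap 𝔏 e.hom n (HccMap 𝔏 e.inv n z) = z
    rw [← HccMap_comp, e.inv_hom_id, HccMap_id]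

/-- **The two dimension equalities consumed at the top** (`DualityDimsS` shape):
`h_c^1(N') = h^2(N)` and `h_c^3(N) = h^0(N')`. -/
theorem evalPair_finrank (hfin : 𝔉.FiniteIndex) (hfinL : 𝔏.FiniteIndex)
    (hχ : ∃ U ∈ 𝔉.sets, ∀ u ∈ U, χ u = 1) (hτ : τ ≠ 0)
    (hG3 : GlobH3Vanish (k := k) 𝔉) (hL3 : LocH3Vanish (k := k) 𝔏) (hbase : EvalBase 𝔏 χ)
    (N : Rep.{u} k G) [FiniteDimensional k N] (hN : IsSmooth 𝔉 N)
    (hf0 : Module.Finite k (Hcc 𝔏 (N.dualTwist χ) 0)) (hf2 : Module.Finite k (Hcc 𝔏 N 2)) :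
    finrank k (Hcc 𝔏 (N.dualTwist χ) 0) = finrank k (Hlc 𝔉 N 2) ∧
      finrank k (Hcc 𝔏 N 2) = finrank k (Hlc 𝔉 (N.dualTwist χ) 0) := by
  constructor
  · exact (finrank_eq_of_dualityMap_bijective (𝔏 := 𝔏) (τ := τ) (evalPairing N χ)
      (show 0 + 2 = 2 by omega)
      (evalPair_dualityMap_bijective hfin hfinL hχ hτ hG3 hL3 hbase N hN).2.2).symm
  · have hN' : IsSmooth 𝔉 (N.dualTwist χ) := isSmooth_dualTwist 𝔉 N χ hN hχ
    have e := HccIsoEquiv (𝔏 := 𝔏) (ddIso N χ) 2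
    have : Module.Finite k (Hcc 𝔏 ((N.dualTwist χ).dualTwist χ) 2) :=
      Module.Finite.equiv e
    rw [e.finrank_eq]
    exact (finrank_eq_of_dualityMap_bijective (𝔏 := 𝔏) (τ := τ) (evalPairing (N.dualTwist χ) χ)
      (show 2 + 0 = 2 by omega)
      (evalPair_betaZero_bijective hfin hfinL hχ hτ hG3 hL3 hbase (N.dualTwist χ) hN')).symm

end Main

end Fermat.Agent.PT
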