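import Fermat.Agent.CFT.PT.EffInst
import Fermat.Agent.CFT.PT.EffaceHlc
import Fermat.Agent.CFT.PT.DualTwistCoind
import Fermat.Agent.CFT.PT.Finite

/-!
# S55 (P10), instantiation, part 2: the base inequalities from the rank-one case

`EvalBaseOne 𝔏 χ` : the base inequalities for the induced modules `Coind_V Res_V k(χ)` (cone side)
and `Coind_V Res_V k` (global side) - the shape of `baseCount_coind_le`;
`evalBase_of_one` : they imply `EvalBase 𝔏 χ` (all finite-dimensional `N` trivial on `V`), by
additivity of `Hlc`, `Hcc` in the coefficients.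
-/

set_option autoImplicit false

namespace Fermat.Agent.PT

open CategoryTheory groupCohomology Rep Module Fermat.Agent.CFT

universe u

variable {k G : Type u} [Field k] [Group G] {𝔉 : LevelFamily G} (𝔏 : LocSystem 𝔉) (χ : G →* kˣ)

/-- **The rank-one base inequalities** (the conclusion of `baseCount_coind_le`). -/
def EvalBaseOne : Prop :=
  ∀ V ∈ 𝔉.sets, (∀ v ∈ V, χ v = 1) →
    (Module.Finite k (Hcc 𝔏 (coind V.subtype (res V.subtype (ofChar χ))) 0) ∧
      Module.Finite k (Hcc 𝔏 (coind V.subtype (res V.subtype (ofChar χ))) 1) ∧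
      Module.Finite k (Hcc 𝔏 (coind V.subtype (res V.subtype (ofChar χ))) 2)) ∧
    finrank k (Hcc 𝔏 (coind V.subtype (res V.subtype (ofChar χ))) 2) ≤ 1 ∧
    finrank k (Hcc 𝔏 (coind V.subtype (res V.subtype (ofChar χ))) 1) ≤
      finrank k (Hlc 𝔉 (coind V.subtype (res V.subtype (Rep.trivial k G k))) 1) ∧
    finrank k (Hcc 𝔏 (coind V.subtype (res V.subtype (ofChar χ))) 0) ≤
      finrank k (Hlc 𝔉 (coind V.subtype (res V.subtype (Rep.trivial k G k))) 2)

section Sum

variable {A B : Rep.{u} k G}

theorem dualTwistMap_sum {ι : Type*} (s : Finset ι) (φ : ι → (A ⟶ B)) :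
    dualTwistMap χ (∑ i ∈ s, φ i) = ∑ i ∈ s, dualTwistMap χ (φ i) := by
  classical
  induction s using Finset.induction_on with
  | empty => simp [dualTwistMap_zero]
  | insert a s ha ih => rw [Finset.sum_insert ha, Finset.sum_insert ha, dualTwistMap_add, ih]

end Sum

section Split

variable (V : Subgroup G) (N : Rep.{u} k G) (htriv : ∀ v ∈ V, ∀ a, N.ρ v a = a) {d : ℕ}
  (b : Module.Basis (Fin d) k N.V)

/-- `Hcc^m((Coind_V Res_V N)') ≃ (Hcc^m((Coind_V Res_V k)'))^d` when `V` acts trivially on
`N ≅ k^d`. -/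
noncomputable def HccDualSplitEquiv (m : ℕ) :
    Hcc 𝔏 ((coind V.subtype (res V.subtype N)).dualTwist χ) m ≃ₗ[k]
      (Fin d → Hcc 𝔏 ((coind V.subtype (res V.subtype (Rep.trivial k G k))).dualTwist χ) m) :=
  splitEquivOfAdditive (fun i => dualTwistMap χ (effacePr V N htriv b i))
    (fun i => dualTwistMap χ (effaceInc V N htriv b i))
    (fun i j => by
      rw [← dualTwistMap_comp, effaceInc_comp_effacePr]
      by_cases hij : j = i
      · subst hij
        rw [if_pos rfl, if_pos rfl, dualTwistMap_id]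
      · rw [if_neg hij, if_neg (fun h => hij h.symm), dualTwistMap_zero])
    (by
      simp_rw [← dualTwistMap_comp]
      rw [← dualTwistMap_sum, sum_effacePr_comp_effaceInc, dualTwistMap_id])
    (fun A => Hcc 𝔏 A m) (fun φ => HccMap 𝔏 φ m)
    (fun A => LinearMap.ext fun x => HccMap_id 𝔏 m x)
    (fun φ ψ => LinearMap.ext fun x => HccMap_comp 𝔏 φ ψ m x)
    (fun φ ψ => HccMap_add' φ ψ 𝔏 m)

end Split

section RankOne

variable (V : Subgroup G)

/-- `(Coind_V Res_V k)' ≅ Coind_V Res_V k(χ)` for `V` of finite index. -/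
noncomputable def coindTrivDualIso [V.FiniteIndex] :
    (coind V.subtype (res V.subtype (Rep.trivial k G k))).dualTwist χ ≅
      coind V.subtype (res V.subtype (ofChar χ)) :=
  haveI : Fintype (G ⧸ V) := Subgroup.fintypeQuotientOfFiniteIndex
  coindDualIso V (Rep.trivial k G k) χ ≪≫
    (resFunctor V.subtype ⋙ coindFunctor k V.subtype).mapIso (dualTwistTrivialIso k G χ)

/-- the constant function `1` is a nonzero invariant of `Coind_V Res_V k`. -/
theorem one_le_finrank_Hlc_zero_coind_trivial (𝔉 : LevelFamily G) [V.Normal] [V.FiniteIndex] :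
    1 ≤ finrank k (Hlc 𝔉 (coind V.subtype (res V.subtype (Rep.trivial k G k))) 0) := by
  have hfinI : Module.Finite k (coind V.subtype (res V.subtype (Rep.trivial k G k))) :=
    finite_coind V (res V.subtype (Rep.trivial k G k))
  have : Module.Finite k (Hlc 𝔉 (coind V.subtype (res V.subtype (Rep.trivial k G k))) 0) :=
    hlcFin_finite_zero 𝔉 _
  rw [Nat.succ_le_iff, Module.finrank_pos_iff_exists_ne_zero]
  set I := coind V.subtype (res V.subtype (Rep.trivial k G k)) with hI
  have hinv : ∀ g : G, I.ρ g ((coindUnit V (Rep.trivial k G k)).hom (1 : k)) =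
      (coindUnit V (Rep.trivial k G k)).hom (1 : k) := by
    intro g
    have := Rep.hom_comm_apply (coindUnit V (Rep.trivial k G k)) g (1 : k)
    rw [← this]
    rfl
  have hne : (coindUnit V (Rep.trivial k G k)).hom (1 : k) ≠ 0 := by
    intro h0
    have := coindUnit_injective V (Rep.trivial k G k) (h0.trans (map_zero _).symm)
    exact one_ne_zero this
  refine ⟨(Hlc0Equiv 𝔉 I).symm ⟨_, hinv⟩, ?_⟩
  intro h0
  have h1 := (LinearEquiv.map_eq_zero_iff _).1 h0
  exact hne (congrArg Subtype.val h1)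

end RankOne

section FinFun

variable {M M' : Type*} [AddCommGroup M] [Module k M] [AddCommGroup M'] [Module k M']

/-- `(Fin d → M) ≃ (Fin d → M')` from `M ≃ M'`. -/
noncomputable def finFunCongr (d : ℕ) (e : M ≃ₗ[k] M') : (Fin d → M) ≃ₗ[k] (Fin d → M') :=
  LinearEquiv.piCongrRight fun _ => e

theorem finite_finFun (d : ℕ) [Module.Finite k M] : Module.Finite k (Fin d → M) :=
  Module.Finite.pi

theorem finrank_finFun (d : ℕ) [Module.Finite k M] : finrank k (Fin d → M) = d * finrank k M := by
  rw [Module.finrank_pi_fintype, Finset.sum_const, smul_eq_mul, Finset.card_univ,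
    Fintype.card_fin]

end FinFun

variable {𝔏 χ}

/-- **The base inequalities for all `N` from the rank-one case.** -/
theorem evalBase_of_one (hfin : 𝔉.FiniteIndex)
    (hfinH : ∀ N : Rep.{u} k G, Module.Finite k N → IsSmooth 𝔉 N → ∀ n : ℕ, n ≤ 2 →
      Module.Finite k (Hlc 𝔉 N n))
    (h : EvalBaseOne 𝔏 χ) : EvalBase 𝔏 χ := by
  intro V hV hχV N hN htriv m n hmn
  have hVn : V.Normal := 𝔉.normal V hV
  have hVf : V.FiniteIndex := hfin V hV
  obtain ⟨⟨hF0, hF1, hF2⟩, h2, h1, h0⟩ := h V hV hχV
  have hI₁fin : Module.Finite k (coind V.subtype (res V.subtype (Rep.trivial k G k))) :=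
    finite_coind V (res V.subtype (Rep.trivial k G k))
  have htrivsm : IsSmooth 𝔉 (Rep.trivial k G k) := fun a => by
    obtain ⟨U, hU⟩ := 𝔉.nonempty
    exact ⟨U, hU, fun u _ => rfl⟩
  have hI₁sm : IsSmooth 𝔉 (coind V.subtype (res V.subtype (Rep.trivial k G k))) :=
    isSmooth_coind hfin (isOpenFor_of_mem hV) (htrivsm.res_subtype V)
  have hH : ∀ n : ℕ, n ≤ 2 →
      Module.Finite k (Hlc 𝔉 (coind V.subtype (res V.subtype (Rep.trivial k G k))) n) :=
    fun n hn => hfinH _ hI₁fin hI₁sm n hn
  have hC : ∀ m : ℕ, m ≤ 2 →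
      Module.Finite k (Hcc 𝔏 (coind V.subtype (res V.subtype (ofChar χ))) m) := by
    intro m hm
    interval_cases m
    · exact hF0
    · exact hF1
    · exact hF2
  have hle : finrank k (Hcc 𝔏 (coind V.subtype (res V.subtype (ofChar χ))) m) ≤
      finrank k (Hlc 𝔉 (coind V.subtype (res V.subtype (Rep.trivial k G k))) n) := by
    have hm : m ≤ 2 := by omega
    interval_cases m
    · obtain rfl : n = 2 := by omega
      exact h0
    · obtain rfl : n = 1 := by omega
      exact h1
    · obtain rfl : n = 0 := by omega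
      exact h2.trans (one_le_finrank_Hlc_zero_coind_trivial V 𝔉)
  have hHn := hH n (by omega)
  have hCm := hC m (by omega)
  let b := Module.finBasis k N
  let eH := HlcSplitEquiv V N htriv b 𝔉 n
  let eC := (HccDualSplitEquiv 𝔏 χ V N htriv b m).trans
    (finFunCongr (finrank k N) (HccIsoEquiv (𝔏 := 𝔏) (coindTrivDualIso χ V) m))
  have hfH := finite_finFun (k := k)
    (M := Hlc 𝔉 (coind V.subtype (res V.subtype (Rep.trivial k G k))) n) (finrank k N)
  have hfC := finite_finFun (k := k)
    (M := Hcc 𝔏 (coind V.subtype (res V.subtype (ofChar χ))) m) (finrank k N)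
  refine ⟨Module.Finite.equiv eH.symm, Module.Finite.equiv eC.symm, ?_⟩
  rw [eH.finrank_eq, eC.finrank_eq, finrank_finFun, finrank_finFun]
  exact Nat.mul_le_mul_left _ hle

end Fermat.Agent.PT
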