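import Mathlib

/-!
# S55 (P10)/(P9) preliminaries: element-level four-lemmas with signs, duals of exact sequences

All statements are about plain linear maps between modules, in the `∃`-form of exactness used by
the S55 engine (`PT/SmoothLES`, `PT/ConeLES`).  Squares are allowed to commute only up to a unit
`ε` (a sign in the applications).

* `dual_exact` : over a field, if `ker g ≤ range f` then `ker f^* ≤ range g^*`.
* `dual_surjective_of_injective`, `dual_injective_of_surjective`.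
* `fourInj_step` : step (R3)(b) (injectivity of `β^i` on the image of the connecting map).
* `fourSurj_step` : step (R3)(c) (epi four-lemma).
* `rightExact_surj`, `rightExact_inj` : the two halves of the right-exact five-lemma of (R4).
-/

set_option autoImplicit false

namespace Fermat.Agent.PT

open Module

section Dual

variable {k : Type*} [Field k] {A B C : Type*} [AddCommGroup A] [Module k A]
  [AddCommGroup B] [Module k B] [AddCommGroup C] [Module k C]

/-- dual of an exact sequence (in `∃`-form) is exact. -/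
theorem dual_exact (f : A →ₗ[k] B) (g : B →ₗ[k] C)
    (hex : ∀ b, g b = 0 → ∃ a, f a = b) (φ : Dual k B) (hφ : f.dualMap φ = 0) :
    ∃ ψ : Dual k C, g.dualMap ψ = φ := by
  have hmem : φ ∈ LinearMap.range g.dualMap := by
    rw [LinearMap.range_dualMap_eq_dualAnnihilator_ker]
    rw [Submodule.mem_dualAnnihilator]
    intro b hb
    obtain ⟨a, rfl⟩ := hex b (LinearMap.mem_ker.1 hb)
    have := congrArg (fun χ : Dual k A => χ a) hφ
    simpa using this
  exact hmem

theorem dual_surjective_of_injective (f : A →ₗ[k] B) (hf : Function.Injective f) :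
    Function.Surjective f.dualMap :=
  LinearMap.dualMap_surjective_of_injective hf

theorem dual_injective_of_surjective (f : A →ₗ[k] B) (hf : Function.Surjective f) :
    Function.Injective f.dualMap :=
  LinearMap.dualMap_injective_of_surjective hf

end Dual

section Four

variable {k : Type*} [CommRing k]

/-- **Step (R3)(b).**  Rows `HI → HQ → HN` (a complex) and `XI → XQ → XN` (exact at `XQ`),
vertical maps `βI` (surjective), `βQ` (injective), `βN`; the first square commutes, the second one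
commutes up to the scalar `ε`.  Then `βN` is injective on the image of `δ`. -/
theorem fourInj_step {HI HQ HN XI XQ XN : Type*}
    [AddCommGroup HI] [Module k HI] [AddCommGroup HQ] [Module k HQ] [AddCommGroup HN] [Module k HN]
    [AddCommGroup XI] [Module k XI] [AddCommGroup XQ] [Module k XQ] [AddCommGroup XN] [Module k XN]
    (a : HI →ₗ[k] HQ) (δ : HQ →ₗ[k] HN) (a' : XI →ₗ[k] XQ) (δ' : XQ →ₗ[k] XN)
    (βI : HI →ₗ[k] XI) (βQ : HQ →ₗ[k] XQ) (βN : HN →ₗ[k] XN) (ε : kˣ)
    (hcomp : ∀ w, δ (a w) = 0)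
    (hsq1 : ∀ w, βQ (a w) = a' (βI w))
    (hsq2 : ∀ y, βN (δ y) = (ε : k) • δ' (βQ y))
    (hex : ∀ φ, δ' φ = 0 → ∃ ψ, a' ψ = φ)
    (hβI : Function.Surjective βI) (hβQ : Function.Injective βQ)
    (y : HQ) (hy : βN (δ y) = 0) : δ y = 0 := by
  have h1 : δ' (βQ y) = 0 := by
    have h := hsq2 y
    rw [hy] at h
    have h2 : ((ε⁻¹ : kˣ) : k) • ((ε : k) • δ' (βQ y)) = 0 := by rw [← h, smul_zero]
    rwa [smul_smul, Units.inv_mul, one_smul] at h2
  obtain ⟨ψ, hψ⟩ := hex _ h1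
  obtain ⟨w, rfl⟩ := hβI ψ
  rw [← hsq1] at hψ
  rw [← hβQ hψ, hcomp]

/-- **Step (R3)(c)** (epi four-lemma with a sign).  Rows `HQ0 → HN → HI → HQ` and
`XQ0 → XN → XI → XQ`. -/
theorem fourSurj_step {HQ0 HN HI HQ XQ0 XN XI XQ : Type*}
    [AddCommGroup HQ0] [Module k HQ0] [AddCommGroup HN] [Module k HN]
    [AddCommGroup HI] [Module k HI] [AddCommGroup HQ] [Module k HQ]
    [AddCommGroup XQ0] [Module k XQ0] [AddCommGroup XN] [Module k XN]
    [AddCommGroup XI] [Module k XI] [AddCommGroup XQ] [Module k XQ]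
    (δ : HQ0 →ₗ[k] HN) (b : HN →ₗ[k] HI) (c : HI →ₗ[k] HQ)
    (δ' : XQ0 →ₗ[k] XN) (b' : XN →ₗ[k] XI) (c' : XI →ₗ[k] XQ)
    (βQ0 : HQ0 →ₗ[k] XQ0) (βN : HN →ₗ[k] XN) (βI : HI →ₗ[k] XI) (βQ : HQ →ₗ[k] XQ) (ε : kˣ)
    (hsq0 : ∀ w, βN (δ w) = (ε : k) • δ' (βQ0 w))
    (hsq1 : ∀ x, βI (b x) = b' (βN x))
    (hsq2 : ∀ y, βQ (c y) = c' (βI y))
    (hexI : ∀ y, c y = 0 → ∃ x, b x = y)
    (hexN' : ∀ φ, b' φ = 0 → ∃ ψ, δ' ψ = φ)
    (hcomp' : ∀ φ, c' (b' φ) = 0)
    (hβQ0 : Function.Surjective βQ0) (hβI : Function.Surjective βI)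
    (hβQ : Function.Injective βQ) : Function.Surjective βN := by
  intro φ
  obtain ⟨y, hy⟩ := hβI (b' φ)
  have hcy : c y = 0 := by
    apply hβQ
    rw [hsq2, hy, hcomp', map_zero]
  obtain ⟨x, rfl⟩ := hexI y hcy
  have h0 : b' (φ - βN x) = 0 := by rw [map_sub, ← hsq1, hy, sub_self]
  obtain ⟨ψ, hψ⟩ := hexN' _ h0
  obtain ⟨w, rfl⟩ := hβQ0 ψ
  refine ⟨x + ((ε⁻¹ : kˣ) : k) • δ w, ?_⟩
  rw [map_add, map_smul, hsq0, smul_smul, Units.inv_mul, one_smul, hψ]
  abel

/-- right-exact five-lemma, surjectivity half: `F P → F N`, `F' P ↠ F' N`, `α P` surjective. -/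
theorem rightExact_surj {FP FN FP' FN' : Type*}
    [AddCommGroup FP] [Module k FP] [AddCommGroup FN] [Module k FN]
    [AddCommGroup FP'] [Module k FP'] [AddCommGroup FN'] [Module k FN']
    (v : FP →ₗ[k] FN) (v' : FP' →ₗ[k] FN') (αP : FP →ₗ[k] FP') (αN : FN →ₗ[k] FN')
    (hsq : ∀ y, αN (v y) = v' (αP y))
    (hv' : Function.Surjective v') (hαP : Function.Surjective αP) : Function.Surjective αN := by
  intro φ
  obtain ⟨ψ, rfl⟩ := hv' φ
  obtain ⟨y, rfl⟩ := hαP ψ
  exact ⟨v y, hsq y⟩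

/-- right-exact five-lemma, injectivity half: rows `F K → F P → F N → 0` and `F' K → F' P → F' N`
(exact at `F' P`), `α K` surjective, `α P` injective. -/
theorem rightExact_inj {FK FP FN FK' FP' FN' : Type*}
    [AddCommGroup FK] [Module k FK] [AddCommGroup FP] [Module k FP] [AddCommGroup FN] [Module k FN]
    [AddCommGroup FK'] [Module k FK'] [AddCommGroup FP'] [Module k FP']
    [AddCommGroup FN'] [Module k FN']
    (u : FK →ₗ[k] FP) (v : FP →ₗ[k] FN) (u' : FK' →ₗ[k] FP') (v' : FP' →ₗ[k] FN')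
    (αK : FK →ₗ[k] FK') (αP : FP →ₗ[k] FP') (αN : FN →ₗ[k] FN')
    (hcomp : ∀ z, v (u z) = 0)
    (hsqK : ∀ z, αP (u z) = u' (αK z))
    (hsqP : ∀ y, αN (v y) = v' (αP y))
    (hv : Function.Surjective v)
    (hex' : ∀ ψ, v' ψ = 0 → ∃ χ, u' χ = ψ)
    (hαK : Function.Surjective αK) (hαP : Function.Injective αP) : Function.Injective αN := by
  rw [injective_iff_map_eq_zero]
  intro x hx
  obtain ⟨y, rfl⟩ := hv x
  rw [hsqP] at hx
  obtain ⟨χ, hχ⟩ := hex' _ hx
  obtain ⟨z, rfl⟩ := hαK χ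
  rw [← hsqK] at hχ
  rw [← hαP hχ, hcomp]

end Four

end Fermat.Agent.PT
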