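/-
S55 engine (helper15): naturality of restriction / corestriction in the coefficients, and
"surjectivity descends from an open subgroup to the whole group for divisible targets".

For `𝔉 : LevelFamily G`, `H ≤ G` of finite index, `f : M ⟶ N` in `Rep k G`:
* `HlcRes_naturality`, `HlcTrace_naturality`, `HlcCor_naturality`;
* `HlcCor_HlcRes_apply` : `cor (res x) = [G : H] • x`;
* `corNat_surjective_of_res` : if `Hlc^n(H, f)` is surjective and every class of `Hlc^n(G, N)` is
  divisible by `[G : H]`, then `Hlc^n(G, f)` is surjective.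
-/
import Fermat.Agent.CFT.PT.SmoothCor
import Fermat.Agent.CFT.PT.SmoothShapiro

set_option autoImplicit false

namespace Fermat.Agent.PT

open CategoryTheory groupCohomology Rep Fermat.Agent.CFT

universe u

variable {k G : Type u} [CommRing k] [Group G] (𝔉 : LevelFamily G) (H : Subgroup G)
  {M N : Rep.{u} k G} (f : M ⟶ N)

/-- restriction commutes with coefficient maps. -/
theorem HlcRes_naturality (n : ℕ) (x : Hlc 𝔉 M n) :
    (HlcRes 𝔉 H N n).hom ((HlcMap (MonoidHom.id G) f 𝔉.compat_id n).hom x) =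
      (HlcMap (A := res H.subtype M) (B := res H.subtype N) (MonoidHom.id H)
        (resMap H.subtype f) (𝔉.restrict H).compat_id n).hom
        ((HlcRes 𝔉 H M n).hom x) := by
  obtain ⟨c, rfl⟩ := lcπ_surjective 𝔉 M n x
  rw [HlcRes, HlcRes, HlcMap_lcπ, HlcMap_lcπ, HlcMap_lcπ, HlcMap_lcπ]
  rfl

/-- the unit commutes with coefficient maps. -/
theorem coindUnit_naturality :
    f ≫ coindUnit H N = coindUnit H M ≫ coindMap H.subtype (resMap H.subtype f) := by
  ext m g
  show N.ρ g (f.hom m) = f.hom (M.ρ g m)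
  exact (Rep.hom_comm_apply f g m).symm

section Trace

variable [H.FiniteIndex]

/-- the trace commutes with coefficient maps. -/
theorem coindTrace_naturality :
    coindMap H.subtype (resMap H.subtype f) ≫ coindTrace H N = coindTrace H M ≫ f := by
  ext F
  show coindTraceLin H N ((coindMap H.subtype (resMap H.subtype f)).hom F) =
    f.hom (coindTraceLin H M F)
  rw [coindTraceLin_apply, coindTraceLin_apply, map_sum]
  refine Finset.sum_congr rfl fun x _ => ?_
  induction x using QuotientGroup.induction_on with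
  | H g =>
    rw [coindTraceFun_mk, coindTraceFun_mk]
    show N.ρ g (f.hom (F.1 g⁻¹)) = f.hom (M.ρ g (F.1 g⁻¹))
    exact (Rep.hom_comm_apply f g _).symm

theorem HlcTrace_naturality (n : ℕ)
    (z : Hlc 𝔉 (coind H.subtype (res H.subtype M)) n) :
    (HlcTrace 𝔉 H N n).hom
        ((HlcMap (MonoidHom.id G) (coindMap H.subtype (resMap H.subtype f)) 𝔉.compat_id n).hom z) =
      (HlcMap (MonoidHom.id G) f 𝔉.compat_id n).hom ((HlcTrace 𝔉 H M n).hom z) := by
  have h := (HlcMap_id_comp 𝔉 (coindMap H.subtype (resMap H.subtype f)) (coindTrace H N) n).symm.trans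
    ((HlcMap_id_congr 𝔉 (coindTrace_naturality H f) n).trans
      (HlcMap_id_comp 𝔉 (coindTrace H M) f n))
  exact congrArg (fun φ => φ.hom z) h

/-- `cor` after the Shapiro map is the trace. -/
theorem HlcCor_HlcShapiro_apply (n : ℕ)
    (hbij : Function.Bijective (HlcShapiro 𝔉 H (res H.subtype M) n).hom)
    (z : Hlc 𝔉 (coind H.subtype (res H.subtype M)) n) :
    (HlcCor 𝔉 H M n hbij).hom ((HlcShapiro 𝔉 H (res H.subtype M) n).hom z) =
      (HlcTrace 𝔉 H M n).hom z := by
  have : IsIso (HlcShapiro 𝔉 H (res H.subtype M) n) :=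
    (ConcreteCategory.isIso_iff_bijective _).mpr hbij
  have h : HlcShapiro 𝔉 H (res H.subtype M) n ≫ HlcCor 𝔉 H M n hbij = HlcTrace 𝔉 H M n := by
    unfold HlcCor
    rw [IsIso.hom_inv_id_assoc]
  exact congrArg (fun φ => φ.hom z) h

/-- **corestriction commutes with coefficient maps.** -/
theorem HlcCor_naturality (n : ℕ)
    (hM : Function.Bijective (HlcShapiro 𝔉 H (res H.subtype M) n).hom)
    (hN : Function.Bijective (HlcShapiro 𝔉 H (res H.subtype N) n).hom)
    (y : Hlc (𝔉.restrict H) (res H.subtype M) n) :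
    (HlcCor 𝔉 H N n hN).hom
        ((HlcMap (A := res H.subtype M) (B := res H.subtype N) (MonoidHom.id H)
        (resMap H.subtype f) (𝔉.restrict H).compat_id n).hom y) =
      (HlcMap (MonoidHom.id G) f 𝔉.compat_id n).hom ((HlcCor 𝔉 H M n hM).hom y) := by
  obtain ⟨z, rfl⟩ := hM.2 y
  rw [HlcCor_HlcShapiro_apply, ← HlcTrace_naturality, ← HlcCor_HlcShapiro_apply 𝔉 H n hN]
  congr 1
  exact (shapMap_naturality (𝔉 := 𝔉) (H := H) (resMap H.subtype f) n z).symm

/-- `cor (res x) = [G : H] • x`. -/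
theorem HlcCor_HlcRes_apply (n : ℕ)
    (hbij : Function.Bijective (HlcShapiro 𝔉 H (res H.subtype M) n).hom) (x : Hlc 𝔉 M n) :
    (HlcCor 𝔉 H M n hbij).hom ((HlcRes 𝔉 H M n).hom x) = H.index • x := by
  have h := congrArg (fun φ => φ.hom x) (HlcRes_comp_HlcCor 𝔉 H M n hbij)
  simpa using h

/-- **surjectivity descends**: if `Hlc^n(H, f)` is surjective and `Hlc^n(G, N)` is
`[G : H]`-divisible, then `Hlc^n(G, f)` is surjective. -/
theorem corNat_surjective_of_res (n : ℕ)
    (hM : Function.Bijective (HlcShapiro 𝔉 H (res H.subtype M) n).hom)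
    (hN : Function.Bijective (HlcShapiro 𝔉 H (res H.subtype N) n).hom)
    (hsurj : Function.Surjective
      (HlcMap (A := res H.subtype M) (B := res H.subtype N) (MonoidHom.id H)
        (resMap H.subtype f) (𝔉.restrict H).compat_id n).hom)
    (hdiv : ∀ a : Hlc 𝔉 N n, ∃ b : Hlc 𝔉 N n, H.index • b = a) :
    Function.Surjective (HlcMap (MonoidHom.id G) f 𝔉.compat_id n).hom := by
  intro a
  obtain ⟨b, rfl⟩ := hdiv a
  obtain ⟨y, hy⟩ := hsurj ((HlcRes 𝔉 H N n).hom b)
  refine ⟨(HlcCor 𝔉 H M n hM).hom y, ?_⟩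
  rw [← HlcCor_naturality 𝔉 H f n hM hN, hy, HlcCor_HlcRes_apply]

/-- elementwise form: a class `a = [G : H] • b` whose restriction `res b` lifts along `f` over `H`
lifts along `f` over `G`. -/
theorem corNat_exists_of_res (n : ℕ)
    (hM : Function.Bijective (HlcShapiro 𝔉 H (res H.subtype M) n).hom)
    (hN : Function.Bijective (HlcShapiro 𝔉 H (res H.subtype N) n).hom)
    (b : Hlc 𝔉 N n) (y : Hlc (𝔉.restrict H) (res H.subtype M) n)
    (hy : (HlcMap (A := res H.subtype M) (B := res H.subtype N) (MonoidHom.id H)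
        (resMap H.subtype f) (𝔉.restrict H).compat_id n).hom y =
      (HlcRes 𝔉 H N n).hom b) :
    (HlcMap (MonoidHom.id G) f 𝔉.compat_id n).hom ((HlcCor 𝔉 H M n hM).hom y) = H.index • b := by
  rw [← HlcCor_naturality 𝔉 H f n hM hN, hy, HlcCor_HlcRes_apply]

end Trace

end Fermat.Agent.PT
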