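import Fermat.Agent.CFT.PT.TopChaseQ
import Fermat.Agent.CFT.PT.Contracts

/-!
# S55, GLOBAL TOP: restriction of a `TopDatum` to a normal subgroup

`TopDatum.restrictNormal D V : TopDatum p (𝔏.restrictNormal V) (res V.subtype μ)` : all global
modules are restricted to `V`; at the place `x = (v, c)` of the restricted local system (structure
map `u ↦ g_c ψ_v(u) g_c⁻¹`) the local module is `Lv v` restricted to `ψ_v⁻¹(V)`, the local Kummer
embedding is `m ↦ κ_v (g_c⁻¹ • m)` and the localisation map is `j ↦ λ_v (g_c⁻¹ • j)`.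

So GLOBAL has to build ONE datum over `(Γℚ, famS S, locS S, cycloRep p)`; the data over every
cyclo-level `V` (with the local system `locSV S V = (locS S).restrictNormal V` of `PT/Contracts`)
come from here.
-/

set_option autoImplicit false

namespace Fermat.Agent.PT

open CategoryTheory groupCohomology Rep

section Helpers

variable {k : Type} [CommRing k] {H : Type} [Group H]

/-- a function between the carriers of two representations which is additive, homogeneous and
equivariant elementwise, as a morphism. -/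
noncomputable def topMkHom {A B : Rep.{0} k H} (f : A.V → B.V)
    (hadd : ∀ a b, f (a + b) = f a + f b) (hsmul : ∀ (c : k) a, f (c • a) = c • f a)
    (hf : ∀ h a, f (A.ρ h a) = B.ρ h (f a)) : A ⟶ B :=
  Rep.ofHom (ρ := A.ρ) (σ := B.ρ) ⟨{ toFun := f, map_add' := hadd, map_smul' := hsmul }, fun h => by
    apply LinearMap.ext
    intro a
    exact hf h a⟩

@[simp] theorem topMkHom_apply {A B : Rep.{0} k H} (f : A.V → B.V)
    (hadd : ∀ a b, f (a + b) = f a + f b) (hsmul : ∀ (c : k) a, f (c • a) = c • f a)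
    (hf : ∀ h a, f (A.ρ h a) = B.ρ h (f a)) (a : A.V) :
    (topMkHom f hadd hsmul hf).hom a = f a := rfl

theorem topHom_map_add {A B : Rep.{0} k H} (φ : A ⟶ B) (a b : A.V) :
    φ.hom (a + b) = φ.hom a + φ.hom b := map_add φ.hom a b

theorem topHom_map_smul {A B : Rep.{0} k H} (φ : A ⟶ B) (c : k) (a : A.V) :
    φ.hom (c • a) = c • φ.hom a := map_smul φ.hom c a

theorem topρ_map_add (A : Rep.{0} k H) (h : H) (a b : A.V) :
    A.ρ h (a + b) = A.ρ h a + A.ρ h b := map_add (A.ρ h) a b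

theorem topρ_map_smul (A : Rep.{0} k H) (h : H) (c : k) (a : A.V) :
    A.ρ h (c • a) = c • A.ρ h a := map_smul (A.ρ h) c a

theorem topρ_mul_apply (A : Rep.{0} k H) (g h : H) (a : A.V) :
    A.ρ (g * h) a = A.ρ g (A.ρ h a) := by rw [map_mul]; rfl

theorem topρ_inv_apply_apply (A : Rep.{0} k H) (g : H) (a : A.V) :
    A.ρ g⁻¹ (A.ρ g a) = a := by
  rw [← topρ_mul_apply, inv_mul_cancel, map_one]; rfl

theorem topρ_apply_inv_apply (A : Rep.{0} k H) (g : H) (a : A.V) :
    A.ρ g (A.ρ g⁻¹ a) = a := by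
  rw [← topρ_mul_apply, mul_inv_cancel, map_one]; rfl

theorem topHom_ext {A B : Rep.{0} k H} {φ ψ : A ⟶ B} (h : ∀ a, φ.hom a = ψ.hom a) : φ = ψ := by
  apply Rep.hom_ext
  apply Representation.IntertwiningMap.ext
  apply LinearMap.ext
  exact h

theorem topHom_comp_apply {A B C : Rep.{0} k H} (φ : A ⟶ B) (ψ : B ⟶ C) (a : A.V) :
    (φ ≫ ψ).hom a = ψ.hom (φ.hom a) := rfl

theorem topHom_zero_apply {A B : Rep.{0} k H} (a : A.V) : (0 : A ⟶ B).hom a = 0 := rfl

theorem topHom_comp_eq_zero_apply {A B C : Rep.{0} k H} {φ : A ⟶ B} {ψ : B ⟶ C}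
    (w : φ ≫ ψ = 0) (a : A.V) : ψ.hom (φ.hom a) = 0 := by
  rw [← topHom_comp_apply, w, topHom_zero_apply]

theorem topShortExact_injective {X : ShortComplex (Rep.{0} k H)} (hX : X.ShortExact) :
    Function.Injective X.f.hom := (Rep.mono_iff_injective X.f).1 hX.mono_f

theorem topShortExact_surjective {X : ShortComplex (Rep.{0} k H)} (hX : X.ShortExact) :
    Function.Surjective X.g.hom := (Rep.epi_iff_surjective X.g).1 hX.epi_g

end Helpers

namespace TopDatum

variable {p : ℕ} {G : Type} [Group G] {𝔉 : LevelFamily G} {𝔏 : LocSystem 𝔉}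
  {μ : Rep.{0} (ZMod p) G} (D : TopDatum p 𝔏 μ) (V : Subgroup G) [V.Normal]

/-- `κ` restricted to `V`. -/
noncomputable def resκ : intRep (res V.subtype μ) ⟶ res V.subtype D.E :=
  topMkHom (A := intRep (res V.subtype μ)) (B := res V.subtype D.E) (fun a => D.κ.hom a)
    (fun a b => topHom_map_add D.κ a b) (fun c a => topHom_map_smul D.κ c a)
    (fun h a => Rep.hom_comm_apply D.κ (h : G) a)

/-- the representative `g_c` attached to a place of the restricted system -/
noncomputable abbrev rep (x : (𝔏.restrictNormal V).ι) : G := Quotient.out x.2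

theorem restrictNormal_ψ_coe (x : (𝔏.restrictNormal V).ι) (u : ↥(V.comap (𝔏.ψ x.1))) :
    (((𝔏.restrictNormal V).ψ x u : ↥V) : G) =
      rep V x * 𝔏.ψ x.1 (u : 𝔏.Gv x.1) * (rep V x)⁻¹ := rfl

/-- the local Kummer embedding of the restricted system: `m ↦ κ_v (g_c⁻¹ • m)`. -/
noncomputable def resκv (x : (𝔏.restrictNormal V).ι) :
    intRep ((𝔏.restrictNormal V).coeff (res V.subtype μ) x) ⟶
      res (V.comap (𝔏.ψ x.1)).subtype (D.Lv x.1) :=
  topMkHom (A := intRep ((𝔏.restrictNormal V).coeff (res V.subtype μ) x))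
    (B := res (V.comap (𝔏.ψ x.1)).subtype (D.Lv x.1))
    (fun m => (D.κv x.1).hom ((intRep μ).ρ (rep V x)⁻¹ m))
    (fun a b => (congrArg (fun z => (D.κv x.1).hom z)
      (topρ_map_add (intRep μ) (rep V x)⁻¹ a b)).trans (topHom_map_add (D.κv x.1) _ _))
    (fun c a => (congrArg (fun z => (D.κv x.1).hom z)
      (topρ_map_smul (intRep μ) (rep V x)⁻¹ c a)).trans (topHom_map_smul (D.κv x.1) c _))
    (fun (u : ↥(V.comap (𝔏.ψ x.1))) a => by
      have h1 := Rep.hom_comm_apply (D.κv x.1) (u : 𝔏.Gv x.1) ((intRep μ).ρ (rep V x)⁻¹ a)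
      refine Eq.trans ?_ h1
      show (D.κv x.1).hom ((intRep μ).ρ (rep V x)⁻¹
        ((intRep μ).ρ (rep V x * 𝔏.ψ x.1 (u : 𝔏.Gv x.1) * (rep V x)⁻¹) a)) =
        (D.κv x.1).hom ((intRep μ).ρ (𝔏.ψ x.1 (u : 𝔏.Gv x.1)) ((intRep μ).ρ (rep V x)⁻¹ a))
      rw [← topρ_mul_apply, ← topρ_mul_apply]
      congr 3
      group)

/-- the localisation map of the restricted system: `j ↦ λ_v (g_c⁻¹ • j)`. -/
noncomputable def resLamv (x : (𝔏.restrictNormal V).ι) :
    res ((𝔏.restrictNormal V).ψ x) (res V.subtype D.J) ⟶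
      res (V.comap (𝔏.ψ x.1)).subtype (D.Lv x.1) :=
  topMkHom (A := res ((𝔏.restrictNormal V).ψ x) (res V.subtype D.J))
    (B := res (V.comap (𝔏.ψ x.1)).subtype (D.Lv x.1))
    (fun a => (D.lamv x.1).hom (D.J.ρ (rep V x)⁻¹ a))
    (fun a b => (congrArg (fun z => (D.lamv x.1).hom z)
      (topρ_map_add D.J (rep V x)⁻¹ a b)).trans (topHom_map_add (D.lamv x.1) _ _))
    (fun c a => (congrArg (fun z => (D.lamv x.1).hom z)
      (topρ_map_smul D.J (rep V x)⁻¹ c a)).trans (topHom_map_smul (D.lamv x.1) c _))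
    (fun (u : ↥(V.comap (𝔏.ψ x.1))) a => by
      have h1 := Rep.hom_comm_apply (D.lamv x.1) (u : 𝔏.Gv x.1) (D.J.ρ (rep V x)⁻¹ a)
      refine Eq.trans ?_ h1
      show (D.lamv x.1).hom (D.J.ρ (rep V x)⁻¹
        (D.J.ρ (rep V x * 𝔏.ψ x.1 (u : 𝔏.Gv x.1) * (rep V x)⁻¹) a)) =
        (D.lamv x.1).hom (D.J.ρ (𝔏.ψ x.1 (u : 𝔏.Gv x.1)) (D.J.ρ (rep V x)⁻¹ a))
      rw [← topρ_mul_apply, ← topρ_mul_apply]
      congr 3
      group)

/-- **restriction of the datum to a normal subgroup `V`**, over the restricted local system. -/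
noncomputable def restrictNormal : TopDatum p (𝔏.restrictNormal V) (res V.subtype μ) where
  E := res V.subtype D.E
  J := res V.subtype D.J
  C := res V.subtype D.C
  κ := D.resκ V
  P := (resFunctor V.subtype).map D.P
  hP e := D.hP e
  wK := topHom_ext fun a => topHom_comp_eq_zero_apply D.wK a
  hK := rep_shortExact_of_elementwise _
    (fun a b hab => topShortExact_injective D.hK hab)
    (fun b => topShortExact_surjective D.hK b)
    (fun a ha => exists_of_shortExact_of_g_eq_zero D.hK a ha)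
  smE := D.smE.res_subtype V
  ιE := (resFunctor V.subtype).map D.ιE
  π := (resFunctor V.subtype).map D.π
  wI := topHom_ext fun a => topHom_comp_eq_zero_apply D.wI a
  hI := rep_shortExact_of_elementwise _
    (fun a b hab => topShortExact_injective D.hI hab)
    (fun b => topShortExact_surjective D.hI b)
    (fun a ha => exists_of_shortExact_of_g_eq_zero D.hI a ha)
  smJ := D.smJ.res_subtype V
  Lv x := res (V.comap (𝔏.ψ x.1)).subtype (D.Lv x.1)
  κv := D.resκv V
  Pv x := (resFunctor (V.comap (𝔏.ψ x.1)).subtype).map (D.Pv x.1)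
  hPv x e := D.hPv x.1 e
  wKv x := topHom_ext fun a => topHom_comp_eq_zero_apply (D.wKv x.1) _
  hKv x := rep_shortExact_of_elementwise _
    (fun a b hab => by
      have h1 : (intRep μ).ρ (rep V x)⁻¹ a = (intRep μ).ρ (rep V x)⁻¹ b :=
        topShortExact_injective (D.hKv x.1) hab
      have h2 := congrArg (fun z => (intRep μ).ρ (rep V x) z) h1
      exact (topρ_apply_inv_apply (intRep μ) (rep V x) a).symm.trans
        (h2.trans (topρ_apply_inv_apply (intRep μ) (rep V x) b)))
    (fun b => topShortExact_surjective (D.hKv x.1) b)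
    (fun a ha => by
      obtain ⟨m, hm⟩ := exists_of_shortExact_of_g_eq_zero (D.hKv x.1) a ha
      refine ⟨(intRep μ).ρ (rep V x) m, ?_⟩
      show (D.κv x.1).hom ((intRep μ).ρ (rep V x)⁻¹ ((intRep μ).ρ (rep V x) m)) = a
      rw [topρ_inv_apply_apply]
      exact hm)
  smLv x := (D.smLv x.1).res_subtype _
  lamv := D.resLamv V
  hcompat x m := by
    show (D.lamv x.1).hom (D.J.ρ (rep V x)⁻¹ (D.ιE.hom (D.κ.hom m))) =
      (D.κv x.1).hom ((intRep μ).ρ (rep V x)⁻¹ m)
    rw [← Rep.hom_comm_apply D.ιE, ← Rep.hom_comm_apply D.κ]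
    exact D.hcompat x.1 _

@[simp] theorem restrictNormal_E : (D.restrictNormal V).E = res V.subtype D.E := rfl
@[simp] theorem restrictNormal_J : (D.restrictNormal V).J = res V.subtype D.J := rfl
@[simp] theorem restrictNormal_C : (D.restrictNormal V).C = res V.subtype D.C := rfl

@[simp] theorem restrictNormal_Lv (x : (𝔏.restrictNormal V).ι) :
    (D.restrictNormal V).Lv x = res (V.comap (𝔏.ψ x.1)).subtype (D.Lv x.1) := rfl

theorem restrictNormal_κ_apply (m : μ.V) : (D.restrictNormal V).κ.hom m = D.κ.hom m := rfl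

theorem restrictNormal_ιE_apply (e : D.E.V) : (D.restrictNormal V).ιE.hom e = D.ιE.hom e := rfl

theorem restrictNormal_π_apply (j : D.J.V) : (D.restrictNormal V).π.hom j = D.π.hom j := rfl

theorem restrictNormal_κv_apply (x : (𝔏.restrictNormal V).ι) (m : μ.V) :
    ((D.restrictNormal V).κv x).hom m = (D.κv x.1).hom ((intRep μ).ρ (rep V x)⁻¹ m) := rfl

theorem restrictNormal_lamv_apply (x : (𝔏.restrictNormal V).ι) (j : D.J.V) :
    ((D.restrictNormal V).lamv x).hom j = (D.lamv x.1).hom (D.J.ρ (rep V x)⁻¹ j) := rfl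

end TopDatum

end Fermat.Agent.PT
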