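/-
S55 (helper15), (K10) part 4: the idele-class input `hA5` at the open subgroups of index prime to `p`.

* `topA5_exists_nsmul_eq` : in an abelian group with at most `p` elements killed by `p`, every such
  element is a multiple of any nonzero one;
* `topA5_exists_lift_of_coprime` : generic `Hlc` form: `π : J ⟶ C`, a class `y₀ ∈ Hlcⁿ(G, J)[p]` with
  `π y₀ ≠ 0`, `H` open of index prime to `p` with `|Hlcⁿ(H, C)[p]| ≤ p`: then
  `π : Hlcⁿ(H, J)[p] → Hlcⁿ(H, C)[p]` is surjective (lifts: multiples of `res y₀`);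
* `LocSystem.emptyP`, `TopDatum.restrictOpen D V` : restriction of a `TopDatum` to ANY subgroup, over
  the empty local system;
* `TopDatum.hA5_restrictOpen`, `TopDatum.hA5_restrictNormal`.
-/
import Fermat.Agent.CFT.PT.TopRestrict
import Fermat.Agent.CFT.PT.SmoothCorNat
import Fermat.Agent.CFT.PT.SmoothShapiro

set_option autoImplicit false

namespace Fermat.Agent.PT

open CategoryTheory groupCohomology Rep

section Count

/-- in an abelian group with at most `p` elements killed by the prime `p`, every element killed by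
`p` is a multiple of any given nonzero one. -/
theorem topA5_exists_nsmul_eq {C : Type*} [AddCommGroup C] {p : ℕ} [hp : Fact p.Prime]
    (hC : ∀ s : Finset C, (∀ c ∈ s, p • c = 0) → s.card ≤ p)
    (c0 : C) (hc0 : p • c0 = 0) (hne : c0 ≠ 0) (c : C) (hc : p • c = 0) :
    ∃ j : ℕ, j • c0 = c := by
  classical
  by_contra hcon
  have hord : addOrderOf c0 = p := addOrderOf_eq_prime hc0 hne
  have hinj : Set.InjOn (fun j : ℕ => j • c0) (Finset.range p : Set ℕ) := by
    intro i hi j hj hij
    have := nsmul_injOn_Iio_addOrderOf (x := c0)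
    refine this ?_ ?_ hij
    · rw [hord]; exact Finset.mem_range.1 hi
    · rw [hord]; exact Finset.mem_range.1 hj
  set s : Finset C := (Finset.range p).image (fun j : ℕ => j • c0) with hs
  have hcard : s.card = p := by
    rw [hs, Finset.card_image_of_injOn hinj, Finset.card_range]
  have hcs : c ∉ s := by
    intro hmem
    rw [hs, Finset.mem_image] at hmem
    obtain ⟨j, _, hj⟩ := hmem
    exact hcon ⟨j, hj⟩
  have htor : ∀ x ∈ insert c s, p • x = 0 := by
    intro x hx
    rw [Finset.mem_insert] at hx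
    rcases hx with rfl | hx
    · exact hc
    · rw [hs, Finset.mem_image] at hx
      obtain ⟨j, _, rfl⟩ := hx
      rw [smul_comm, hc0, smul_zero]
  have := hC (insert c s) htor
  rw [Finset.card_insert_of_notMem hcs, hcard] at this
  omega

end Count

section Generic

universe u

variable {k G : Type u} [CommRing k] [Group G] {𝔉 : LevelFamily G}

/-- **`hA5` at the open subgroups of index prime to `p`, generic form.** -/
theorem topA5_exists_lift_of_coprime (hfin : 𝔉.FiniteIndex) {H : Subgroup G}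
    (hH : IsOpenFor 𝔉 H) {p : ℕ} [Fact p.Prime] (hcop : Nat.Coprime p H.index)
    {J C : Rep.{u} k G} (π : J ⟶ C) (hC : IsSmooth 𝔉 C) (n : ℕ)
    (y0 : Hlc 𝔉 J n) (hy0 : p • y0 = 0)
    (hπ : (HlcMap (MonoidHom.id G) π 𝔉.compat_id n).hom y0 ≠ 0)
    (hcard : ∀ s : Finset (Hlc (𝔉.restrict H) (res H.subtype C) n),
      (∀ c ∈ s, p • c = 0) → s.card ≤ p)
    (c : Hlc (𝔉.restrict H) (res H.subtype C) n) (hc : p • c = 0) :
    ∃ y : Hlc (𝔉.restrict H) (res H.subtype J) n, p • y = 0 ∧
      (HlcMap (A := res H.subtype J) (B := res H.subtype C) (MonoidHom.id H)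
        (resMap H.subtype π) (𝔉.restrict H).compat_id n).hom y = c := by
  haveI : H.FiniteIndex := by
    obtain ⟨U, hU, hUH⟩ := hH
    haveI := hfin U hU
    exact Subgroup.finiteIndex_of_le hUH
  set πG := HlcMap (MonoidHom.id G) π 𝔉.compat_id n with hπG
  set πH := HlcMap (A := res H.subtype J) (B := res H.subtype C) (MonoidHom.id H)
    (resMap H.subtype π) (𝔉.restrict H).compat_id n with hπH
  set y1 := (HlcRes 𝔉 H J n).hom y0 with hy1
  have hy1p : p • y1 = 0 := by rw [hy1, ← map_nsmul, hy0, map_zero]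
  have hnat : (HlcRes 𝔉 H C n).hom (πG.hom y0) = πH.hom y1 := HlcRes_naturality 𝔉 H π n y0
  have hinj : Function.Injective (HlcShapiro 𝔉 H (res H.subtype C) n).hom :=
    (shapMap_bijective hfin hH n (res H.subtype C) (hC.res_subtype H)).1
  have hc0ne : πH.hom y1 ≠ 0 := by
    intro h0
    apply hπ
    refine eq_zero_of_HlcRes_eq_zero_of_coprime 𝔉 H C n hinj hcop (πG.hom y0) ?_ ?_
    · rw [← map_nsmul, hy0, map_zero]
    · rw [hnat, h0]
  have hc0p : p • πH.hom y1 = 0 := by rw [← map_nsmul, hy1p, map_zero]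
  obtain ⟨j, hj⟩ := topA5_exists_nsmul_eq hcard (πH.hom y1) hc0p hc0ne c hc
  refine ⟨j • y1, ?_, ?_⟩
  · rw [smul_comm, hy1p, smul_zero]
  · rw [map_nsmul, hj]

end Generic

section Empty

variable {G : Type} [Group G]

/-- the empty local system. -/
def LocSystem.emptyP (𝔉 : LevelFamily G) : LocSystem 𝔉 where
  ι := PEmpty
  Gv v := v.elim
  grp v := v.elim
  fam v := v.elim
  ψ v := v.elim
  compat v := v.elim

instance LocSystem.emptyP_isEmpty (𝔉 : LevelFamily G) : IsEmpty (LocSystem.emptyP 𝔉).ι :=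
  inferInstanceAs (IsEmpty PEmpty)

end Empty

namespace TopDatum

variable {p : ℕ} {G : Type} [Group G] {𝔉 : LevelFamily G} {𝔏 : LocSystem 𝔉}
  {μ : Rep.{0} (ZMod p) G} (D : TopDatum p 𝔏 μ)

/-- `κ` restricted to an arbitrary subgroup `V`. -/
noncomputable def resκO (V : Subgroup G) : intRep (res V.subtype μ) ⟶ res V.subtype D.E :=
  topMkHom (A := intRep (res V.subtype μ)) (B := res V.subtype D.E) (fun a => D.κ.hom a)
    (fun a b => topHom_map_add D.κ a b) (fun c a => topHom_map_smul D.κ c a)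
    (fun h a => Rep.hom_comm_apply D.κ (h : G) a)

/-- **restriction of the datum to an arbitrary subgroup `V`**, over the empty local system. -/
noncomputable def restrictOpen (V : Subgroup G) :
    TopDatum p (LocSystem.emptyP (𝔉.restrict V)) (res V.subtype μ) where
  E := res V.subtype D.E
  J := res V.subtype D.J
  C := res V.subtype D.C
  κ := D.resκO V
  P := (resFunctor V.subtype).map D.P
  hP e := D.hP e
  wK := topHom_ext fun a => topHom_comp_eq_zero_apply D.wK a
  hK := rep_shortExact_of_elementwise _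
    (fun _ _ hab => topShortExact_injective D.hK hab)
    (fun b => topShortExact_surjective D.hK b)
    (fun a ha => exists_of_shortExact_of_g_eq_zero D.hK a ha)
  smE := D.smE.res_subtype V
  ιE := (resFunctor V.subtype).map D.ιE
  π := (resFunctor V.subtype).map D.π
  wI := topHom_ext fun a => topHom_comp_eq_zero_apply D.wI a
  hI := rep_shortExact_of_elementwise _
    (fun _ _ hab => topShortExact_injective D.hI hab)
    (fun b => topShortExact_surjective D.hI b)
    (fun a ha => exists_of_shortExact_of_g_eq_zero D.hI a ha)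
  smJ := D.smJ.res_subtype V
  Lv x := x.elim
  κv x := x.elim
  Pv x := x.elim
  hPv x := x.elim
  wKv x := x.elim
  hKv x := x.elim
  smLv x := x.elim
  lamv x := x.elim
  hcompat x := x.elim

@[simp] theorem restrictOpen_E (V : Subgroup G) : (D.restrictOpen V).E = res V.subtype D.E := rfl
@[simp] theorem restrictOpen_J (V : Subgroup G) : (D.restrictOpen V).J = res V.subtype D.J := rfl
@[simp] theorem restrictOpen_C (V : Subgroup G) : (D.restrictOpen V).C = res V.subtype D.C := rfl

/-- the idele classes are smooth. -/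
theorem smC' : IsSmooth 𝔉 D.C :=
  IsSmooth.of_surjective D.π (topShortExact_surjective D.hI) D.smJ

/-- **`hA5` for `D.restrictOpen V`, `V` open of index prime to `p`**, from (C-W) (a class
`y₀ ∈ Hlc²(G, J)[p]` with `π y₀ ≠ 0`) and (C-A5a) at `V` (`|Hlc²(V, C)[p]| ≤ p`). -/
theorem hA5_restrictOpen [Fact p.Prime] (hfin : 𝔉.FiniteIndex) (V : Subgroup G)
    (hV : IsOpenFor 𝔉 V) (hcop : Nat.Coprime p V.index)
    (y0 : Hlc 𝔉 D.J 2) (hy0 : p • y0 = 0) (hπ : D.πI 2 y0 ≠ 0)
    (hC : ∀ s : Finset (Hlc (𝔉.restrict V) (D.restrictOpen V).C 2),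
      (∀ c ∈ s, p • c = 0) → s.card ≤ p) :
    ∀ c : Hlc (𝔉.restrict V) (D.restrictOpen V).C 2, p • c = 0 →
      ∃ y : Hlc (𝔉.restrict V) (D.restrictOpen V).J 2, p • y = 0 ∧
        (D.restrictOpen V).πI 2 y = c :=
  fun c hc => topA5_exists_lift_of_coprime hfin hV hcop D.π D.smC' 2 y0 hy0 hπ hC c hc

/-- the same for `D.restrictNormal V`. -/
theorem hA5_restrictNormal [Fact p.Prime] (hfin : 𝔉.FiniteIndex) (V : Subgroup G) [V.Normal]
    (hV : IsOpenFor 𝔉 V) (hcop : Nat.Coprime p V.index)
    (y0 : Hlc 𝔉 D.J 2) (hy0 : p • y0 = 0) (hπ : D.πI 2 y0 ≠ 0)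
    (hC : ∀ s : Finset (Hlc (𝔉.restrict V) (D.restrictNormal V).C 2),
      (∀ c ∈ s, p • c = 0) → s.card ≤ p) :
    ∀ c : Hlc (𝔉.restrict V) (D.restrictNormal V).C 2, p • c = 0 →
      ∃ y : Hlc (𝔉.restrict V) (D.restrictNormal V).J 2, p • y = 0 ∧
        (D.restrictNormal V).πI 2 y = c :=
  fun c hc => topA5_exists_lift_of_coprime hfin hV hcop D.π D.smC' 2 y0 hy0 hπ hC c hc

end TopDatum

end Fermat.Agent.PT
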