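/-
S55 (helper15), (K10) assembly: `GlobalOut1` from ONE `ℚ`-level `TopDatum` (any local system),
the class (C-W) and the level-wise inputs (C-A1), `hA2`, `hA3`, (C-A5a) at the open subgroups of
index prime to `p` with trivial cyclotomic character.

* `globalOut1P_of_datum`, `cdTwoS_of_datum`, `globalOut1_of_datum`.
-/
import Fermat.Agent.CFT.PT.TopRestrictOpen
import Fermat.Agent.CFT.PT.CdTwoInstP
import Fermat.Agent.CFT.PT.TopChaseP

set_option autoImplicit false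

namespace Fermat.Agent.PT

open CategoryTheory groupCohomology Rep Fermat.Agent.CFT ExtCitation Module

local notation "Γℚ" => (AlgebraicClosure ℚ ≃ₐ[ℚ] AlgebraicClosure ℚ)

variable {p : ℕ} [hp : Fact p.Prime] {S : Finset Nat.Primes}

/-- the level-wise inputs of (G1) at an open subgroup `V'`, for the restriction of a `ℚ`-level
datum: (C-A1) `Hlc¹(V', C)[p] = 0`, `hA2` `Hlc²(V', J)` is `p`-divisible, `hA3` `Hlc³(V', J)[p] = 0`,
(C-A5a) `|Hlc²(V', C)[p]| ≤ p`. -/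
structure TopLevelInputsP (p : ℕ) {S : Finset Nat.Primes} {𝔏 : LocSystem (famS S)}
    {μ : Rep.{0} (ZMod p) Γℚ} (D : TopDatum p 𝔏 μ) (V' : Subgroup Γℚ) : Prop where
  hA1p : ∀ c : Hlc ((famS S).restrict V') (res V'.subtype D.C) 1, p • c = 0 → c = 0
  hA2 : ∀ y : Hlc ((famS S).restrict V') (res V'.subtype D.J) 2, ∃ y', p • y' = y
  hA3 : ∀ y : Hlc ((famS S).restrict V') (res V'.subtype D.J) 3, p • y = 0 → y = 0
  hC : ∀ s : Finset (Hlc ((famS S).restrict V') (res V'.subtype D.C) 2),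
    (∀ c ∈ s, p • c = 0) → s.card ≤ p

/-- **`Hlc³(V', μ|_{V'}) = 0` for `V'` open of index prime to `p`** (any coefficient `μ`). -/
theorem subsingleton_H3_of_datum {𝔏 : LocSystem (famS S)} {μ : Rep.{0} (ZMod p) Γℚ}
    (D : TopDatum p 𝔏 μ) (y0 : Hlc (famS S) D.J 2) (hy0 : p • y0 = 0) (hπ : D.πI 2 y0 ≠ 0)
    (V' : Subgroup Γℚ) (hV' : IsOpenFor (famS S) V') (hcop : Nat.Coprime p V'.index)
    (hlev : TopLevelInputsP p D V') :
    Subsingleton (Hlc ((famS S).restrict V') (res V'.subtype μ) 3) :=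
  (D.restrictOpen V').subsingleton_H3_pPrimary ((baseCount_famS_finiteIndex S).restrict V')
    hlev.hA1p hlev.hA2 hlev.hA3
    (D.hA5_restrictOpen (baseCount_famS_finiteIndex S) V' hV' hcop y0 hy0 hπ hlev.hC)

/-- **(G1P) from one `ℚ`-level datum.** -/
theorem globalOut1P_of_datum {𝔏 : LocSystem (famS S)} (D : TopDatum p 𝔏 (cycloRep p))
    (y0 : Hlc (famS S) D.J 2) (hy0 : p • y0 = 0) (hπ : D.πI 2 y0 ≠ 0)
    (hlev : ∀ V' : Subgroup Γℚ, IsOpenFor (famS S) V' → (∀ s ∈ V', cycloChar p s = 1) →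
      Nat.Coprime p V'.index → TopLevelInputsP p D V') :
    GlobalOut1P p S := by
  intro V' hV' hcyc hcop
  have e : res V'.subtype (cycloRep p) = trivRep p ↥V' :=
    baseCount_res_cycloRep_eq p V'.subtype (fun u => hcyc u u.2)
  rw [← e]
  exact subsingleton_H3_of_datum D y0 hy0 hπ V' hV' hcop (hlev V' hV' hcyc hcop)

/-- **`cd_p(G_S) ≤ 2` from one `ℚ`-level datum.** -/
theorem cdTwoS_of_datum (hpS : pPrime p ∈ S) {𝔏 : LocSystem (famS S)}
    (D : TopDatum p 𝔏 (cycloRep p))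
    (y0 : Hlc (famS S) D.J 2) (hy0 : p • y0 = 0) (hπ : D.πI 2 y0 ≠ 0)
    (hlev : ∀ V' : Subgroup Γℚ, IsOpenFor (famS S) V' → (∀ s ∈ V', cycloChar p s = 1) →
      Nat.Coprime p V'.index → TopLevelInputsP p D V') :
    CdTwoS p S :=
  cdTwoS_of_globalOut1P hpS (globalOut1P_of_datum D y0 hy0 hπ hlev)

/-- **(G1) from one `ℚ`-level datum.** -/
theorem globalOut1_of_datum (hpS : pPrime p ∈ S) {𝔏 : LocSystem (famS S)}
    (D : TopDatum p 𝔏 (cycloRep p))
    (y0 : Hlc (famS S) D.J 2) (hy0 : p • y0 = 0) (hπ : D.πI 2 y0 ≠ 0)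
    (hlev : ∀ V' : Subgroup Γℚ, IsOpenFor (famS S) V' → (∀ s ∈ V', cycloChar p s = 1) →
      Nat.Coprime p V'.index → TopLevelInputsP p D V') :
    GlobalOut1 p S :=
  globalOut1_of_cdTwoS (cdTwoS_of_datum hpS D y0 hy0 hπ hlev)

end Fermat.Agent.PT
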