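import Fermat.Agent.CFT.PT.TopChaseHlc

/-!
# S55, GLOBAL TOP: the reciprocity output (GQ)

`locRes²` is not surjective as soon as the localisation `λ` is injective on `Hlc²(J)[p]` and some
`p`-torsion class of `Hlc²(J)` has nonzero image in `Hlc²(C)`.

* `topChase_not_surjective` : the pure algebra;
* `TopDatum.exists_ivK_eq` : local Kummer exactness `Lv₂[p] = iv(Mv₂)`;
* `TopDatum.not_surjective_locRes` : the `Hlc` form (= `GlobalOutQ` for the `ℚ`-level datum).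
-/

set_option autoImplicit false

namespace Fermat.Agent.PT

open CategoryTheory groupCohomology Rep

section Algebra

variable (p : ℕ) {ι : Type*} {Mv Lv : ι → Type*} [∀ v, AddCommGroup (Mv v)]
  [∀ v, AddCommGroup (Lv v)] {M2 E2 J C : Type*} [AddCommGroup M2] [AddCommGroup E2]
  [AddCommGroup J] [AddCommGroup C]

/-- **(GQ), pure algebra.** -/
theorem topChase_not_surjective
    (loc : M2 →+ ∀ v, Mv v) (iv : ∀ v, Mv v →+ Lv v) (i2 : M2 →+ E2) (j : E2 →+ J)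
    (lam : J →+ ∀ v, Lv v) (π : J →+ C)
    (hsq : ∀ m v, iv v (loc m v) = lam (j (i2 m)) v)
    (hπj : ∀ e, π (j e) = 0)
    (hM2 : ∀ m : M2, p • m = 0)
    (hivsurj : ∀ v (l : Lv v), p • l = 0 → ∃ m, iv v m = l)
    (hlaminj : ∀ y : J, p • y = 0 → lam y = 0 → y = 0)
    (y₀ : J) (hy₀ : p • y₀ = 0) (hπy₀ : π y₀ ≠ 0) : ¬ Function.Surjective loc := by
  intro hs
  have h1 : ∀ v, ∃ x : Mv v, iv v x = lam y₀ v := fun v =>
    hivsurj v _ (by rw [← Pi.smul_apply, ← map_nsmul, hy₀, map_zero, Pi.zero_apply])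
  choose x hx using h1
  obtain ⟨m, hm⟩ := hs x
  have h2 : lam (y₀ - j (i2 m)) = 0 := by
    funext v
    rw [map_sub, Pi.sub_apply, ← hsq, hm, hx, sub_self, Pi.zero_apply]
  have h3 : p • (y₀ - j (i2 m)) = 0 := by
    rw [smul_sub, hy₀, ← map_nsmul, ← map_nsmul, hM2, map_zero, map_zero, sub_zero]
  have h4 : y₀ = j (i2 m) := sub_eq_zero.1 (hlaminj _ h3 h2)
  exact hπy₀ (by rw [h4, hπj])

end Algebra

namespace TopDatum

variable {p : ℕ} {G : Type} [Group G] {𝔉 : LevelFamily G} {𝔏 : LocSystem 𝔉}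
  {μ : Rep.{0} (ZMod p) G} (D : TopDatum p 𝔏 μ)
  (hfin : 𝔉.FiniteIndex) (hfinL : ∀ v, (𝔏.fam v).FiniteIndex)

theorem Pv_apply (v : 𝔏.ι) (i : ℕ) (l : Hlc (𝔏.fam v) (D.Lv v) i) :
    (lcH₂₃ (𝔏.fam v) (D.XKv v) i).hom l = p • l :=
  topChase_HlcMap_nsmul (D.Pv v) p (D.hPv v) i l

include hfinL in
/-- local Kummer exactness: `Hlcⁱ(G_v, Lv v)[p]` is the image of `Hlcⁱ(G_v, μ)`. -/
theorem exists_ivK_eq (v : 𝔏.ι) (i : ℕ) (l : Hlc (𝔏.fam v) (D.Lv v) i) (hl : p • l = 0) :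
    ∃ m, D.ivK v i m = l := by
  have h1 : (lcH₂₃ (𝔏.fam v) (D.XKv v) i).hom l = 0 := by rw [D.Pv_apply, hl]
  obtain ⟨y, hy⟩ := exists_lcH₁₂_eq (hfinL v) (D.hKv v) (D.smLv v) i l h1
  refine ⟨HlcIntEquiv (𝔏.fam v) (𝔏.coeff μ v) i y, ?_⟩
  show (lcH₁₂ (𝔏.fam v) (D.XKv v) i).hom
    ((HlcIntEquiv (𝔏.fam v) (𝔏.coeff μ v) i).symm (HlcIntEquiv (𝔏.fam v) (𝔏.coeff μ v) i y)) = l
  rw [AddEquiv.symm_apply_apply, hy]

include hfinL in
/-- **(GQ)** `locRes²` is not surjective. -/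
theorem not_surjective_locRes
    (hA4inj : ∀ y : Hlc 𝔉 D.J 2, p • y = 0 → D.lamH 2 y = 0 → y = 0)
    (y₀ : Hlc 𝔉 D.J 2) (hy₀ : p • y₀ = 0) (hπy₀ : D.πI 2 y₀ ≠ 0) :
    ¬ Function.Surjective (locRes 𝔏 μ 2) :=
  topChase_not_surjective p (locRes 𝔏 μ 2).toAddMonoidHom (fun v => D.ivK v 2) (D.iK 2) (D.jI 2)
    (D.lamH 2) (D.πI 2) (fun m v => D.ivK_locRes 2 m v) (D.πI_jI 2)
    (fun m => topChase_zmod_nsmul m) (fun v => D.exists_ivK_eq hfinL v 2) hA4inj y₀ hy₀ hπy₀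

end TopDatum

end Fermat.Agent.PT
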