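import Fermat.Agent.CFT.PT.TopChaseP
import Fermat.Agent.CFT.PT.TopChaseQ
import Fermat.Agent.CFT.PT.BaseCountLe
import Fermat.Agent.CFT.PT.Finite

/-!
# S55, GLOBAL TOP: the contracts `GlobalOut*` from `TopDatum`s

* `TopInputs p D` : the cohomological inputs (A1)(`p`-primary), (A2)–(A5), (B1), `Hlc¹(J)`
  `p`-divisible, for a datum `D`.
* `GlobalTop p S` : for every cyclo-level `V` there is a datum over `(V, locSV S V, trivRep p V)`
  with `TopInputs`, `Hlc¹(V, E)` finite, `|E^V/p| = p^e₀` with `[K:ℚ] + 2 s ≤ 2 e₀`, and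
  `|Ш¹(V, 𝔽_p)| ≤ |Hlc¹(V, E)/p|`.
* `GlobalTopH3 p S`, `GlobalTopQ p S` : the inputs of (G1) and (GQ).
* `globalOut_of_top` : all of `GlobalOut0`, `GlobalOut1`, `GlobalOut2Le`, `GlobalOut3Le`,
  `GlobalOut4Le`, `GlobalOutQ`.
-/

set_option autoImplicit false

namespace Fermat.Agent.PT

open CategoryTheory groupCohomology Rep ExtCitation Module

local notation "Γℚ" => (AlgebraicClosure ℚ ≃ₐ[ℚ] AlgebraicClosure ℚ)

section Inputs

variable (p : ℕ) {G : Type} [Group G] {𝔉 : LevelFamily G} {𝔏 : LocSystem 𝔉}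
  {μ : Rep.{0} (ZMod p) G}

/-- the cohomological inputs of the global top for a datum `D`. -/
structure TopInputs (D : TopDatum p 𝔏 μ) : Prop where
  hA1p : ∀ c : Hlc 𝔉 D.C 1, p • c = 0 → c = 0
  hJ1 : ∀ y : Hlc 𝔉 D.J 1, ∃ y', p • y' = y
  hA2 : ∀ y : Hlc 𝔉 D.J 2, ∃ y', p • y' = y
  hA3 : ∀ y : Hlc 𝔉 D.J 3, p • y = 0 → y = 0
  hA4 : ∀ l : ∀ v, Hlc (𝔏.fam v) (D.Lv v) 2, (∀ v, p • l v = 0) →
    ∃ y : Hlc 𝔉 D.J 2, p • y = 0 ∧ D.lamH 2 y = l
  hA4inj : ∀ y : Hlc 𝔉 D.J 2, p • y = 0 → D.lamH 2 y = 0 → y = 0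
  hA5 : ∀ c : Hlc 𝔉 D.C 2, p • c = 0 → ∃ y : Hlc 𝔉 D.J 2, p • y = 0 ∧ D.πI 2 y = c
  hC : ∀ s : Finset (Hlc 𝔉 D.C 2), (∀ c ∈ s, p • c = 0) → s.card ≤ p
  hB1 : ∀ v, Subsingleton (Hlc (𝔏.fam v) (D.Lv v) 1)

end Inputs

section Card

variable {p : ℕ} [Fact p.Prime]

theorem topOut_natCard_eq_pow (M : Type*) [AddCommGroup M] [Module (ZMod p) M]
    [Module.Finite (ZMod p) M] : Nat.card M = p ^ finrank (ZMod p) M := by
  rw [Module.natCard_eq_pow_finrank (K := ZMod p), Nat.card_zmod]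

theorem topOut_moduleFinite_of_natCard_ne_zero (M : Type*) [AddCommGroup M] [Module (ZMod p) M]
    (h : Nat.card M ≠ 0) : Module.Finite (ZMod p) M := by
  have : Finite M := Nat.finite_of_card_ne_zero h
  exact Module.Finite.of_finite

theorem topOut_pow_le_pow_iff {a b : ℕ} : p ^ a ≤ p ^ b ↔ a ≤ b :=
  Nat.pow_le_pow_iff_right (Fact.out : p.Prime).one_lt

end Card

variable (p : ℕ) [Fact p.Prime] (S : Finset Nat.Primes)

/-- the global-top inputs at one cyclo-level `V`. -/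
def GlobalTopAt (V : Subgroup Γℚ) [V.Normal] : Prop :=
  ∃ D : TopDatum p (locSV S V) (trivRep p ↥V), TopInputs p D ∧
    Finite (Hlc ((famS S).restrict V) D.E 1) ∧
    (∃ e₀ : ℕ, Nat.card (Hlc ((famS S).restrict V) D.E 0 ⧸
        (topChase_mulP p (Hlc ((famS S).restrict V) D.E 0)).range) = p ^ e₀ ∧
      V.index + 2 * Nat.card (locSV S V).ι ≤ 2 * e₀) ∧
    Nat.card (LinearMap.ker (locRes (locSV S V) (trivRep p ↥V) 1)) ≤
      Nat.card (Hlc ((famS S).restrict V) D.E 1 ⧸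
        (topChase_mulP p (Hlc ((famS S).restrict V) D.E 1)).range)

/-- the global-top inputs at all cyclo-levels. -/
def GlobalTop : Prop :=
  ∀ (V : Subgroup Γℚ) (hV : IsCycloLevel p S V),
    haveI := hV.normal
    GlobalTopAt p S V

/-- the inputs of (G1) at every open subgroup with trivial cyclotomic character (any local system,
e.g. the empty one). -/
def GlobalTopH3 : Prop :=
  ∀ V' : Subgroup Γℚ, IsOpenFor (famS S) V' → (∀ s ∈ V', cycloChar p s = 1) →
    ∃ (𝔏 : LocSystem ((famS S).restrict V')) (D : TopDatum p 𝔏 (trivRep p ↥V')),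
      (∀ c : Hlc ((famS S).restrict V') D.C 1, p • c = 0 → c = 0) ∧
      (∀ y : Hlc ((famS S).restrict V') D.J 2, ∃ y', p • y' = y) ∧
      (∀ y : Hlc ((famS S).restrict V') D.J 3, p • y = 0 → y = 0) ∧
      (∀ c : Hlc ((famS S).restrict V') D.C 2, p • c = 0 →
        ∃ y : Hlc ((famS S).restrict V') D.J 2, p • y = 0 ∧ D.πI 2 y = c)

/-- the inputs of (GQ): a datum over `(Γℚ, locS S, μ_p)`. -/
def GlobalTopQ : Prop :=
  ∃ D : TopDatum p (locS S) (cycloRep p),
    (∀ y : Hlc (famS S) D.J 2, p • y = 0 → D.lamH 2 y = 0 → y = 0) ∧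
    ∃ y₀ : Hlc (famS S) D.J 2, p • y₀ = 0 ∧ D.πI 2 y₀ ≠ 0

variable {p S}

theorem topOut_hfin (V : Subgroup Γℚ) : ((famS S).restrict V).FiniteIndex :=
  (baseCount_famS_finiteIndex S).restrict V

theorem topOut_hfinL (V : Subgroup Γℚ) [V.Normal] (x : (locSV S V).ι) :
    ((locSV S V).fam x).FiniteIndex :=
  (famLoc_finiteIndex x.1.1).restrict _

/-- **(G1)**. -/
theorem globalOut1_of_top (h : GlobalTopH3 p S) : GlobalOut1 p S := by
  intro V' hV' hcyc
  obtain ⟨𝔏, D, h1, h2, h3, h5⟩ := h V' hV' hcyc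
  exact D.subsingleton_H3_pPrimary (topOut_hfin V') h1 h2 h3 h5

/-- **(GQ)**. -/
theorem globalOutQ_of_top (h : GlobalTopQ p S) : GlobalOutQ p S := by
  obtain ⟨D, hinj, y₀, hy₀, hπ⟩ := h
  exact D.not_surjective_locRes (fun q => famLoc_finiteIndex q.1) hinj y₀ hy₀ hπ

section Level

variable (l0 : LocalOut0 p S) (V : Subgroup Γℚ) (hV : IsCycloLevel p S V)

include l0 hV in
theorem topOut_local_finite (i : ℕ) (hi : i ≤ 2) :
    haveI := hV.normal
    ∀ x : (locSV S V).ι, Module.Finite (ZMod p)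
      (Hlc ((locSV S V).fam x) ((locSV S V).coeff (trivRep p ↥V) x) i) := by
  have := hV.normal
  intro x
  exact l0 x.1.1 x.1.2 _ (famLoc_compat_famS x.1.1 S V hV.1) i hi

end Level

/-- **(G2')**. -/
theorem globalOut2Le_of_top (h : GlobalTop p S) (l0 : LocalOut0 p S) : GlobalOut2Le p S := by
  intro V hV
  have := hV.normal
  obtain ⟨D, hin, -, -, -⟩ := h V hV
  have hVfin : V.FiniteIndex := baseCount_famS_finiteIndex S V hV.1
  have : Finite (locSV S V).ι := baseCount_finite_ι V hVfin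
  have := topOut_local_finite l0 V hV 2 le_rfl
  exact D.finrank_le_pPrimary (topOut_hfin V) (topOut_hfinL V) hin.hA1p hin.hB1 hin.hA4 hin.hC

/-- finiteness and the numerical relations at one level. -/
theorem topOut_level (h : GlobalTop p S) (l0 : LocalOut0 p S) (V : Subgroup Γℚ)
    (hV : IsCycloLevel p S V) :
    haveI := hV.normal
    Module.Finite (ZMod p) (Hlc ((famS S).restrict V) (trivRep p ↥V) 1) ∧
    Module.Finite (ZMod p) (Hlc ((famS S).restrict V) (trivRep p ↥V) 2) ∧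
    finrank (ZMod p) (LinearMap.ker (locRes (locSV S V) (trivRep p ↥V) 1)) ≤
      finrank (ZMod p) (LinearMap.ker (locRes (locSV S V) (trivRep p ↥V) 2)) ∧
    V.index + 2 * Nat.card (locSV S V).ι +
        finrank (ZMod p) (LinearMap.ker (locRes (locSV S V) (trivRep p ↥V) 1)) +
        finrank (ZMod p) (LinearMap.ker (locRes (locSV S V) (trivRep p ↥V) 2)) ≤
      2 * finrank (ZMod p) (Hlc ((famS S).restrict V) (trivRep p ↥V) 1) := by
  have := hV.normal
  obtain ⟨D, hin, hE1, ⟨e₀, he₀, hle⟩, hsha⟩ := h V hV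
  have hVfin : V.FiniteIndex := baseCount_famS_finiteIndex S V hV.1
  have : Finite (locSV S V).ι := baseCount_finite_ι V hVfin
  have := topOut_local_finite l0 V hV 2 le_rfl
  have hfin := topOut_hfin (S := S) V
  have hfinL := topOut_hfinL (S := S) V
  -- cardinalities
  have hK2 := D.card_ker_locRes_pPrimary hfin hfinL hin.hA1p hin.hJ1 hin.hB1 hin.hA4inj
  have hH1 := D.card_H1 hfin
  have hQT := topChase_card_quotient_eq_card_torsion p (Hlc ((famS S).restrict V) D.E 1)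
  have hpos : 0 < Nat.card (Hlc ((famS S).restrict V) D.E 1 ⧸
      (topChase_mulP p (Hlc ((famS S).restrict V) D.E 1)).range) := Nat.card_pos
  -- finiteness
  have hF1 : Module.Finite (ZMod p) (Hlc ((famS S).restrict V) (trivRep p ↥V) 1) := by
    apply topOut_moduleFinite_of_natCard_ne_zero
    rw [hH1, he₀, ← hQT]
    exact (Nat.mul_pos (Nat.pos_of_ne_zero (pow_ne_zero _ (Fact.out : p.Prime).ne_zero)) hpos).ne'
  have hFK2 : Module.Finite (ZMod p) (LinearMap.ker (locRes (locSV S V) (trivRep p ↥V) 2)) := by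
    apply topOut_moduleFinite_of_natCard_ne_zero
    rw [hK2]
    exact hpos.ne'
  have hF2 : Module.Finite (ZMod p) (Hlc ((famS S).restrict V) (trivRep p ↥V) 2) :=
    hlcFin_finite_of_exact (LinearMap.ker (locRes (locSV S V) (trivRep p ↥V) 2)).subtype
      (locRes (locSV S V) (trivRep p ↥V) 2) (fun x hx => ⟨⟨x, hx⟩, rfl⟩)
  -- dimensions
  have c1 := topOut_natCard_eq_pow (p := p)
    (LinearMap.ker (locRes (locSV S V) (trivRep p ↥V) 1))
  have c2 := topOut_natCard_eq_pow (p := p)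
    (LinearMap.ker (locRes (locSV S V) (trivRep p ↥V) 2))
  have c3 := topOut_natCard_eq_pow (p := p) (Hlc ((famS S).restrict V) (trivRep p ↥V) 1)
  have h31 : finrank (ZMod p) (LinearMap.ker (locRes (locSV S V) (trivRep p ↥V) 1)) ≤
      finrank (ZMod p) (LinearMap.ker (locRes (locSV S V) (trivRep p ↥V) 2)) := by
    rw [← topOut_pow_le_pow_iff (p := p), ← c1, ← c2, hK2]
    exact hsha
  have h41 : finrank (ZMod p) (Hlc ((famS S).restrict V) (trivRep p ↥V) 1) =
      e₀ + finrank (ZMod p) (LinearMap.ker (locRes (locSV S V) (trivRep p ↥V) 2)) := by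
    apply Nat.pow_right_injective (Fact.out : p.Prime).two_le
    show p ^ _ = p ^ _
    rw [← c3, pow_add, ← c2, hH1, he₀, ← hQT, hK2]
  refine ⟨hF1, hF2, h31, ?_⟩
  omega

/-- **(G0)**. -/
theorem globalOut0_of_top (h : GlobalTop p S) (l0 : LocalOut0 p S) : GlobalOut0 p S := by
  intro V hV n hn
  obtain ⟨h1, h2, -, -⟩ := topOut_level h l0 V hV
  interval_cases n
  · exact hlcFin_finite_zero _ _
  · exact h1
  · exact h2

/-- **(G3')**. -/
theorem globalOut3Le_of_top (h : GlobalTop p S) (l0 : LocalOut0 p S) : GlobalOut3Le p S :=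
  fun V hV => (topOut_level h l0 V hV).2.2.1

/-- **(G4')**. -/
theorem globalOut4Le_of_top (h : GlobalTop p S) (l0 : LocalOut0 p S) : GlobalOut4Le p S :=
  fun V hV => (topOut_level h l0 V hV).2.2.2

/-- **GLOBAL-OUT from the global top.** -/
theorem globalOut_of_top (h : GlobalTop p S) (h3 : GlobalTopH3 p S) (hq : GlobalTopQ p S)
    (l0 : LocalOut0 p S) :
    GlobalOut0 p S ∧ GlobalOut1 p S ∧ GlobalOut2Le p S ∧ GlobalOut3Le p S ∧ GlobalOut4Le p S ∧
      GlobalOutQ p S :=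
  ⟨globalOut0_of_top h l0, globalOut1_of_top h3, globalOut2Le_of_top h l0,
    globalOut3Le_of_top h l0, globalOut4Le_of_top h l0, globalOutQ_of_top hq⟩

end Fermat.Agent.PT
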