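import Fermat.Agent.CFT.PT.GlobalOutOfTop

/-!
# S55, GLOBAL TOP (`p`-coprime variant): the contracts `GlobalOut*` from `TopDatum`s

Variant of `GlobalOutOfTop.lean` in which the input (A5) (`π(J_2[p]) = C_2[p]`) is consumed **only**
at the open subgroups of index prime to `p` (for `H³ = 0`), and the cyclo-levels need only
(A1)(`p`-primary), `Hlc¹(J)` `p`-divisible, (A4), (A4inj), (C), (B1).

* `TopInputsC p D` : the cyclo-level inputs.
* `GlobalTopC p S` : the cyclo-level data (as `GlobalTop`, with `TopInputsC`).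
* `GlobalTopH3P p S` : the inputs of (G1) at the open subgroups `V'` with trivial cyclotomic
  character and `p ∤ [Γℚ : V']`.
* `globalOut1P_of_top` : `Hlc³(V', 𝔽_p) = 0` at those `V'`.
* `globalOutP_of_top` : `GlobalOut0`, `GlobalOut2Le`, `GlobalOut3Le`, `GlobalOut4Le`, `GlobalOutQ`.
* `globalOut_of_topP` : all six contracts, given the passage from the coprime-index form of (G1) to
  `GlobalOut1`.
-/

set_option autoImplicit false

namespace Fermat.Agent.PT

open CategoryTheory groupCohomology Rep ExtCitation Module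

local notation "Γℚ" => (AlgebraicClosure ℚ ≃ₐ[ℚ] AlgebraicClosure ℚ)

section Inputs

variable (p : ℕ) {G : Type} [Group G] {𝔉 : LevelFamily G} {𝔏 : LocSystem 𝔉}
  {μ : Rep.{0} (ZMod p) G}

/-- the cohomological inputs of the global top at a cyclo-level. -/
structure TopInputsC (D : TopDatum p 𝔏 μ) : Prop where
  hA1p : ∀ c : Hlc 𝔉 D.C 1, p • c = 0 → c = 0
  hJ1 : ∀ y : Hlc 𝔉 D.J 1, ∃ y', p • y' = y
  hA4 : ∀ l : ∀ v, Hlc (𝔏.fam v) (D.Lv v) 2, (∀ v, p • l v = 0) →
    ∃ y : Hlc 𝔉 D.J 2, p • y = 0 ∧ D.lamH 2 y = l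
  hA4inj : ∀ y : Hlc 𝔉 D.J 2, p • y = 0 → D.lamH 2 y = 0 → y = 0
  hC : ∀ s : Finset (Hlc 𝔉 D.C 2), (∀ c ∈ s, p • c = 0) → s.card ≤ p
  hB1 : ∀ v, Subsingleton (Hlc (𝔏.fam v) (D.Lv v) 1)

variable {p} in
theorem TopInputs.toC {D : TopDatum p 𝔏 μ} (h : TopInputs p D) : TopInputsC p D :=
  ⟨h.hA1p, h.hJ1, h.hA4, h.hA4inj, h.hC, h.hB1⟩

end Inputs

variable (p : ℕ) [Fact p.Prime] (S : Finset Nat.Primes)

/-- the global-top inputs at one cyclo-level `V` (no (A2), (A3), (A5)). -/
def GlobalTopAtC (V : Subgroup Γℚ) [V.Normal] : Prop :=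
  ∃ D : TopDatum p (locSV S V) (trivRep p ↥V), TopInputsC p D ∧
    Finite (Hlc ((famS S).restrict V) D.E 1) ∧
    (∃ e₀ : ℕ, Nat.card (Hlc ((famS S).restrict V) D.E 0 ⧸
        (topChase_mulP p (Hlc ((famS S).restrict V) D.E 0)).range) = p ^ e₀ ∧
      V.index + 2 * Nat.card (locSV S V).ι ≤ 2 * e₀) ∧
    Nat.card (LinearMap.ker (locRes (locSV S V) (trivRep p ↥V) 1)) ≤
      Nat.card (Hlc ((famS S).restrict V) D.E 1 ⧸
        (topChase_mulP p (Hlc ((famS S).restrict V) D.E 1)).range)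

/-- the global-top inputs at all cyclo-levels. -/
def GlobalTopC : Prop :=
  ∀ (V : Subgroup Γℚ) (hV : IsCycloLevel p S V),
    haveI := hV.normal
    GlobalTopAtC p S V

/-- the inputs of (G1) at every open subgroup with trivial cyclotomic character and index prime to
`p` (any local system, e.g. the empty one). -/
def GlobalTopH3P : Prop :=
  ∀ V' : Subgroup Γℚ, IsOpenFor (famS S) V' → (∀ s ∈ V', cycloChar p s = 1) →
    Nat.Coprime p V'.index →
    ∃ (𝔏 : LocSystem ((famS S).restrict V')) (D : TopDatum p 𝔏 (trivRep p ↥V')),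
      (∀ c : Hlc ((famS S).restrict V') D.C 1, p • c = 0 → c = 0) ∧
      (∀ y : Hlc ((famS S).restrict V') D.J 2, ∃ y', p • y' = y) ∧
      (∀ y : Hlc ((famS S).restrict V') D.J 3, p • y = 0 → y = 0) ∧
      (∀ c : Hlc ((famS S).restrict V') D.C 2, p • c = 0 →
        ∃ y : Hlc ((famS S).restrict V') D.J 2, p • y = 0 ∧ D.πI 2 y = c)

variable {p S}

theorem GlobalTop.toC (h : GlobalTop p S) : GlobalTopC p S := by
  intro V hV
  have := hV.normal
  obtain ⟨D, hin, h1, h2, h3⟩ := h V hV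
  exact ⟨D, hin.toC, h1, h2, h3⟩

theorem GlobalTopH3.toP (h : GlobalTopH3 p S) : GlobalTopH3P p S :=
  fun V' hV' hcyc _ => h V' hV' hcyc

/-- **(G1) at the levels of index prime to `p`**. -/
theorem globalOut1P_of_top (h : GlobalTopH3P p S) :
    ∀ V' : Subgroup Γℚ, IsOpenFor (famS S) V' → (∀ s ∈ V', cycloChar p s = 1) →
      Nat.Coprime p V'.index →
      Subsingleton (Hlc ((famS S).restrict V') (trivRep p ↥V') 3) := by
  intro V' hV' hcyc hcop
  obtain ⟨𝔏, D, h1, h2, h3, h5⟩ := h V' hV' hcyc hcop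
  exact D.subsingleton_H3_pPrimary (topOut_hfin V') h1 h2 h3 h5

/-- **(G2')**. -/
theorem globalOut2Le_of_topC (h : GlobalTopC p S) (l0 : LocalOut0 p S) : GlobalOut2Le p S := by
  intro V hV
  have := hV.normal
  obtain ⟨D, hin, -, -, -⟩ := h V hV
  have hVfin : V.FiniteIndex := baseCount_famS_finiteIndex S V hV.1
  have : Finite (locSV S V).ι := baseCount_finite_ι V hVfin
  have := topOut_local_finite l0 V hV 2 le_rfl
  exact D.finrank_le_pPrimary (topOut_hfin V) (topOut_hfinL V) hin.hA1p hin.hB1 hin.hA4 hin.hC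

/-- finiteness and the numerical relations at one level. -/
theorem topOut_levelC (h : GlobalTopC p S) (l0 : LocalOut0 p S) (V : Subgroup Γℚ)
    (hV : IsCycloLevel p S V) :
    haveI := hV.normal
    Module.Finite (ZMod p) (Hlc ((famS S).restrict V) (trivRep p ↥V) 1) ∧
    Module.Finite (ZMod p) (Hlc ((famS S).restrict V) (trivRep p ↥V) 2) ∧
    finrank (ZMod p) (LinearMap.ker (locRes (locSV S V) (trivRep p ↥V) 1)) ≤
      finrank (ZMod p) (LinearMap.ker (locRes (locSV S V) (trivRep p ↥V) 2)) ∧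
    V.index + 2 * Nat.card (locSV S V).ι +
        finrank (ZMod p) (LinearMap.ker (locRes (locSV S V) (trivRep p ↥V) 1)) +
        finrank (ZMod p) (LinearMap.ker (locRes (locSV S V) (trivRep p ↥V) 2)) ≤
      2 * finrank (ZMod p) (Hlc ((famS S).restrict V) (trivRep p ↥V) 1) := by
  have := hV.normal
  obtain ⟨D, hin, hE1, ⟨e₀, he₀, hle⟩, hsha⟩ := h V hV
  have hVfin : V.FiniteIndex := baseCount_famS_finiteIndex S V hV.1
  have : Finite (locSV S V).ι := baseCount_finite_ι V hVfin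
  have := topOut_local_finite l0 V hV 2 le_rfl
  have hfin := topOut_hfin (S := S) V
  have hfinL := topOut_hfinL (S := S) V
  -- cardinalities
  have hK2 := D.card_ker_locRes_pPrimary hfin hfinL hin.hA1p hin.hJ1 hin.hB1 hin.hA4inj
  have hH1 := D.card_H1 hfin
  have hQT := topChase_card_quotient_eq_card_torsion p (Hlc ((famS S).restrict V) D.E 1)
  have hpos : 0 < Nat.card (Hlc ((famS S).restrict V) D.E 1 ⧸
      (topChase_mulP p (Hlc ((famS S).restrict V) D.E 1)).range) := Nat.card_pos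
  -- finiteness
  have hF1 : Module.Finite (ZMod p) (Hlc ((famS S).restrict V) (trivRep p ↥V) 1) := by
    apply topOut_moduleFinite_of_natCard_ne_zero
    rw [hH1, he₀, ← hQT]
    exact (Nat.mul_pos (Nat.pos_of_ne_zero (pow_ne_zero _ (Fact.out : p.Prime).ne_zero)) hpos).ne'
  have hFK2 : Module.Finite (ZMod p) (LinearMap.ker (locRes (locSV S V) (trivRep p ↥V) 2)) := by
    apply topOut_moduleFinite_of_natCard_ne_zero
    rw [hK2]
    exact hpos.ne'
  have hF2 : Module.Finite (ZMod p) (Hlc ((famS S).restrict V) (trivRep p ↥V) 2) :=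
    hlcFin_finite_of_exact (LinearMap.ker (locRes (locSV S V) (trivRep p ↥V) 2)).subtype
      (locRes (locSV S V) (trivRep p ↥V) 2) (fun x hx => ⟨⟨x, hx⟩, rfl⟩)
  -- dimensions
  have c1 := topOut_natCard_eq_pow (p := p)
    (LinearMap.ker (locRes (locSV S V) (trivRep p ↥V) 1))
  have c2 := topOut_natCard_eq_pow (p := p)
    (LinearMap.ker (locRes (locSV S V) (trivRep p ↥V) 2))
  have c3 := topOut_natCard_eq_pow (p := p) (Hlc ((famS S).restrict V) (trivRep p ↥V) 1)
  have h31 : finrank (ZMod p) (LinearMap.ker (locRes (locSV S V) (trivRep p ↥V) 1)) ≤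
      finrank (ZMod p) (LinearMap.ker (locRes (locSV S V) (trivRep p ↥V) 2)) := by
    rw [← topOut_pow_le_pow_iff (p := p), ← c1, ← c2, hK2]
    exact hsha
  have h41 : finrank (ZMod p) (Hlc ((famS S).restrict V) (trivRep p ↥V) 1) =
      e₀ + finrank (ZMod p) (LinearMap.ker (locRes (locSV S V) (trivRep p ↥V) 2)) := by
    apply Nat.pow_right_injective (Fact.out : p.Prime).two_le
    show p ^ _ = p ^ _
    rw [← c3, pow_add, ← c2, hH1, he₀, ← hQT, hK2]
  refine ⟨hF1, hF2, h31, ?_⟩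
  omega

/-- **(G0)**. -/
theorem globalOut0_of_topC (h : GlobalTopC p S) (l0 : LocalOut0 p S) : GlobalOut0 p S := by
  intro V hV n hn
  obtain ⟨h1, h2, -, -⟩ := topOut_levelC h l0 V hV
  interval_cases n
  · exact hlcFin_finite_zero _ _
  · exact h1
  · exact h2

/-- **(G3')**. -/
theorem globalOut3Le_of_topC (h : GlobalTopC p S) (l0 : LocalOut0 p S) : GlobalOut3Le p S :=
  fun V hV => (topOut_levelC h l0 V hV).2.2.1

/-- **(G4')**. -/
theorem globalOut4Le_of_topC (h : GlobalTopC p S) (l0 : LocalOut0 p S) : GlobalOut4Le p S :=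
  fun V hV => (topOut_levelC h l0 V hV).2.2.2

/-- **GLOBAL-OUT (all but (G1)) from the cyclo-level global top.** -/
theorem globalOutP_of_top (h : GlobalTopC p S) (hq : GlobalTopQ p S) (l0 : LocalOut0 p S) :
    GlobalOut0 p S ∧ GlobalOut2Le p S ∧ GlobalOut3Le p S ∧ GlobalOut4Le p S ∧ GlobalOutQ p S :=
  ⟨globalOut0_of_topC h l0, globalOut2Le_of_topC h l0, globalOut3Le_of_topC h l0,
    globalOut4Le_of_topC h l0, globalOutQ_of_top hq⟩

/-- **GLOBAL-OUT from the global top**, given the passage `hG1` from (G1) at the levels of index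
prime to `p` to `GlobalOut1` (Sylow + Shapiro). -/
theorem globalOut_of_topP (h : GlobalTopC p S) (h3 : GlobalTopH3P p S) (hq : GlobalTopQ p S)
    (l0 : LocalOut0 p S)
    (hG1 : (∀ V' : Subgroup Γℚ, IsOpenFor (famS S) V' → (∀ s ∈ V', cycloChar p s = 1) →
        Nat.Coprime p V'.index →
        Subsingleton (Hlc ((famS S).restrict V') (trivRep p ↥V') 3)) → GlobalOut1 p S) :
    GlobalOut0 p S ∧ GlobalOut1 p S ∧ GlobalOut2Le p S ∧ GlobalOut3Le p S ∧ GlobalOut4Le p S ∧
      GlobalOutQ p S :=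
  ⟨globalOut0_of_topC h l0, hG1 (globalOut1P_of_top h3), globalOut2Le_of_topC h l0,
    globalOut3Le_of_topC h l0, globalOut4Le_of_topC h l0, globalOutQ_of_top hq⟩

end Fermat.Agent.PT
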