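import Fermat.Agent.CFT.PT.S55Top
import Fermat.Agent.CFT.PT.LocalDual2Hom
import Fermat.Agent.CFT.PT.UnipotentVanishAll
import Fermat.Agent.CFT.PT.ConeLES

/-!
# S55, LOCAL instantiation: `LocalDualDimS p S` and local `cd ≤ 2` from the LOCAL contracts

* `locInst_exists_cyclo_trivial` : the mod `p` cyclotomic character, pulled back to the local
  Galois group at `q`, is trivial on a member of the intrinsic local family `famLoc q`;
* `locInst_isZero_Hlc_three`, `locInst_subsingleton_Hlc_three` : local `cd_p ≤ 2` on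
  finite-dimensional smooth modules, from `LocalOut1` (helper1's Sylow + unipotent dévissage);
* `localDualDimS_of_localOut` : `LocalOut1 p S → LocalOut2 p S → LocalDualDimS p S`
  (helper28's `locD2_finrank_two_eq_zero_res`).
-/

set_option autoImplicit false

namespace Fermat.Agent.PT

open CategoryTheory CategoryTheory.Limits groupCohomology Rep Function Fermat.Agent.CFT
  Fermat.Agent.CFT.S14 ExtCitation

local notation "Γℚ" => (AlgebraicClosure ℚ ≃ₐ[ℚ] AlgebraicClosure ℚ)

section Local

variable (p : ℕ) [Fact p.Prime] (S : Finset Nat.Primes)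

/-- the local cyclotomic character is trivial on a member of the local family. -/
theorem locInst_exists_cyclo_trivial (q : Nat.Primes) :
    ∃ U ∈ (famLoc q).sets, ∀ u ∈ U, cycloChar p (primeLocalToGlobal q u) = 1 := by
  have hmem : (galClosure (cycloKf p)).fixingSubgroup.comap (primeLocalToGlobal q) ∈
      (famR (primeLocalToGlobal q)).sets :=
    ⟨galClosure (cycloKf p), galClosure_finiteDimensional _,
      (galClosure_fixingSubgroup_normal _).comap _, rfl⟩
  obtain ⟨U, hU, hle⟩ := famLoc_refines_famR q _ hmem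
  refine ⟨U, hU, fun u hu => ?_⟩
  rw [cycloChar_eq_one_iff]
  exact IntermediateField.fixingSubgroup_antitone (le_galClosure _) (hle hu)

variable {p S}

/-- **local `cd_p ≤ 2`** on finite-dimensional smooth modules, from `LocalOut1`. -/
theorem locInst_isZero_Hlc_three (h1 : LocalOut1 p S) (q : Nat.Primes) (hq : q ∈ S)
    (N : Rep (ZMod p) (primeLocalGaloisGroup q)) (hN : Module.Finite (ZMod p) N)
    (hNsm : IsSmooth (famLoc q) N) : IsZero (Hlc (famLoc q) N 3) :=
  isZero_Hlc_of_forall_open_trivial (famLoc q) (famLoc_finiteIndex q) 3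
    (fun H hH => by
      have := h1 q hq H hH
      exact ModuleCat.isZero_of_subsingleton _) N hNsm

theorem locInst_subsingleton_Hlc_three (h1 : LocalOut1 p S) (q : Nat.Primes) (hq : q ∈ S)
    (N : Rep (ZMod p) (primeLocalGaloisGroup q)) (hN : Module.Finite (ZMod p) N)
    (hNsm : IsSmooth (famLoc q) N) : Subsingleton (Hlc (famLoc q) N 3) :=
  ModuleCat.subsingleton_of_isZero (locInst_isZero_Hlc_three h1 q hq N hN hNsm)

/-- local `cd_p ≤ 2` in the shape of the local system `locS S`. -/
theorem locInst_subsingleton_Hlc_three_coeff (h1 : LocalOut1 p S) (N : Rep (ZMod p) Γℚ)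
    (hN : Module.Finite (ZMod p) N) (hNsm : IsSmooth (famS S) N) (v : (locS S).ι) :
    Subsingleton (Hlc ((locS S).fam v) ((locS S).coeff N v) 3) :=
  locInst_subsingleton_Hlc_three h1 v.1 v.2 _ hN (IsSmooth.loc (𝔏 := locS S) hNsm v)

/-- **`LocalDualDimS` from the LOCAL contracts**: `dim H²(G_q, N) = dim H⁰(G_q, N')`. -/
theorem localDualDimS_of_localOut (h1 : LocalOut1 p S) (h2 : LocalOut2 p S) :
    LocalDualDimS p S := by
  intro N hN hNsm v
  have hNfin : Module.Finite (ZMod p) N.V := hN
  exact (locD2_finrank_two_eq_zero_res (primeLocalToGlobal v.1) (famLoc_finiteIndex v.1)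
    (cycloChar p) (locInst_exists_cyclo_trivial p v.1)
    (fun N' hN' hN'sm => locInst_subsingleton_Hlc_three h1 v.1 v.2 N' hN' hN'sm)
    (h2 v.1 v.2) N (IsSmooth.loc (𝔏 := locS S) hNsm v)).2

/-- finiteness of the local `H²` in the shape of the local system `locS S` (also a consequence of
local duality). -/
theorem locInst_finite_Hlc_two (h1 : LocalOut1 p S) (h2 : LocalOut2 p S) (N : Rep (ZMod p) Γℚ)
    (hN : Module.Finite (ZMod p) N) (hNsm : IsSmooth (famS S) N) (v : (locS S).ι) :
    Module.Finite (ZMod p) (Hlc ((locS S).fam v) ((locS S).coeff N v) 2) := by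
  have hNfin : Module.Finite (ZMod p) N.V := hN
  exact (locD2_finrank_two_eq_zero_res (primeLocalToGlobal v.1) (famLoc_finiteIndex v.1)
    (cycloChar p) (locInst_exists_cyclo_trivial p v.1)
    (fun N' hN' hN'sm => locInst_subsingleton_Hlc_three h1 v.1 v.2 N' hN' hN'sm)
    (h2 v.1 v.2) N (IsSmooth.loc (𝔏 := locS S) hNsm v)).1

end Local

end Fermat.Agent.PT
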