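import Fermat.Agent.CFT.PT.DualityInst
import Fermat.Agent.CFT.PT.CdTwoInst
import Fermat.Agent.CFT.PT.LocalInst
import Fermat.Agent.CFT.Local.LocalOutHolds

/-!
# S55, PT integration: the frozen statement from the six GLOBAL contracts

All LOCAL contracts hold unconditionally (`Local/LocalOutHolds.lean`), so the five Props of
`S55_of_props` follow from `GlobalOut0`, `GlobalOut1`, `GlobalOut2Le`, `GlobalOut3Le`,
`GlobalOut4Le`, `GlobalOutQ`:

* `s55Asm_locH3Vanish` : the local `H³` vanish on finite smooth modules;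
* `s55Asm_dualityDimsS` : `DualityDimsS p S` from the six GLOBAL contracts;
* `S55_of_globalOut` : the frozen conclusion of `S55` from the six GLOBAL contracts.
-/

set_option autoImplicit false

namespace Fermat.Agent.PT

open CategoryTheory groupCohomology Rep Fermat.Agent.CFT ExtCitation Module

local notation "Γℚ" => (AlgebraicClosure ℚ ≃ₐ[ℚ] AlgebraicClosure ℚ)

variable {p : ℕ} [Fact p.Prime] {S : Finset Nat.Primes}

/-- the local `H³` vanish on finite smooth modules (unconditional). -/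
theorem s55Asm_locH3Vanish (p : ℕ) [Fact p.Prime] (S : Finset Nat.Primes) :
    LocH3Vanish (k := ZMod p) (locS S) :=
  fun K hK hsm v => locInst_subsingleton_Hlc_three_coeff (localOut1_holds p S) K hK hsm v

/-- **`DualityDimsS` from the six GLOBAL contracts.** -/
theorem s55Asm_dualityDimsS (hpS : pPrime p ∈ S)
    (g0 : GlobalOut0 p S) (g1 : GlobalOut1 p S) (g2 : GlobalOut2Le p S) (g3 : GlobalOut3Le p S)
    (g4 : GlobalOut4Le p S) (gQ : GlobalOutQ p S) : DualityDimsS p S :=
  dualityDimsS_of_contracts hpS g0 g1 g2 g3 g4 gQ (localOut0_holds p S) (localOut2_holds p S)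
    (localOut3_holds p S) (cdTwoS_of_globalOut1 hpS g1) (s55Asm_locH3Vanish p S)

/-- **The frozen `S55` conclusion from the six GLOBAL contracts.** -/
theorem S55_of_globalOut (hp2 : p ≠ 2) (hpS : pPrime p ∈ S)
    (g0 : GlobalOut0 p S) (g1 : GlobalOut1 p S) (g2 : GlobalOut2Le p S) (g3 : GlobalOut3Le p S)
    (g4 : GlobalOut4Le p S) (gQ : GlobalOutQ p S)
    (M : Rep (ZMod p) Γℚ) [FiniteDimensional (ZMod p) M]
    (hsm : ∀ m : M, ∃ F : IntermediateField ℚ (AlgebraicClosure ℚ), FiniteDimensional ℚ F ∧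
      ∀ s ∈ F.fixingSubgroup, M.ρ s m = m)
    (hMur : ∀ q : Nat.Primes, q ∉ S → ∀ A : ValuationSubring (AlgebraicClosure ℚ),
      A.LiesOverPrime (q : ℕ) → ∀ g ∈ A.inertiaSubgroupIn ℚ, M.ρ g = 1) :
    ∃ B : sha₁ S (M.dualTwist (cycloChar p)) →ₗ[ZMod p] sha₂ S M →ₗ[ZMod p] ZMod p,
      (∀ y, (∀ x, B y x = 0) → y = 0) ∧ (∀ x, (∀ y, B y x = 0) → x = 0) :=
  S55_of_props hp2 hpS (cdTwoS_of_globalOut1 hpS g1) (finGlobalS_of_globalOut0 hpS g0)
    (finLocalS_of_localOut0 (localOut0_holds p S))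
    (s55Asm_dualityDimsS hpS g0 g1 g2 g3 g4 gQ)
    (localDualDimS_of_localOut (localOut1_holds p S) (localOut2_holds p S)) M hsm hMur

end Fermat.Agent.PT
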