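import Fermat.Agent.CFT.PT.GlobalOutOfTopP
import Fermat.Agent.CFT.PT.TopRestrict
import Fermat.Agent.CFT.PT.CdTwoInstP
import Fermat.Agent.CFT.PT.S55Assembly

/-!
# S55 GLOBAL TOP, chain D (2): `GlobalTopC`, `GlobalTopQ` from ONE `ℚ`-level datum, and the frozen
statement from `GlobalTopC`, `GlobalTopH3P`, `GlobalTopQ`

* `globalTopAtC_of_eq` : transport of the cyclo-level package along `μ = trivRep p ↥V`.
* `globalTopC_of_datum` : `GlobalTopC p S` from a datum `D` over `(Γℚ, locS S, cycloRep p)` whose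
  restrictions `D.restrictNormal V` to the cyclo-levels satisfy `TopInputsC` and the three numeric
  clauses (stated for `res V.subtype D.E`).
* `S55_of_globalTop` : the frozen conclusion of `S55` from `GlobalTopC`, `GlobalTopH3P`,
  `GlobalTopQ`.
-/

set_option autoImplicit false

namespace Fermat.Agent.PT

open CategoryTheory groupCohomology Rep ExtCitation Module Fermat.Agent.CFT

local notation "Γℚ" => (AlgebraicClosure ℚ ≃ₐ[ℚ] AlgebraicClosure ℚ)

variable {p : ℕ} [Fact p.Prime] {S : Finset Nat.Primes}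

/-- transport of the cyclo-level package along an equality of coefficient modules. -/
theorem globalTopAtC_of_eq (V : Subgroup Γℚ) [V.Normal] {μ : Rep.{0} (ZMod p) ↥V}
    (e : μ = trivRep p ↥V) (D : TopDatum p (locSV S V) μ) (hin : TopInputsC p D)
    (n1 : Finite (Hlc ((famS S).restrict V) D.E 1))
    (n2 : ∃ e₀ : ℕ, Nat.card (Hlc ((famS S).restrict V) D.E 0 ⧸
        (topChase_mulP p (Hlc ((famS S).restrict V) D.E 0)).range) = p ^ e₀ ∧
      V.index + 2 * Nat.card (locSV S V).ι ≤ 2 * e₀)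
    (n3 : Nat.card (LinearMap.ker (locRes (locSV S V) μ 1)) ≤
      Nat.card (Hlc ((famS S).restrict V) D.E 1 ⧸
        (topChase_mulP p (Hlc ((famS S).restrict V) D.E 1)).range)) :
    GlobalTopAtC p S V := by
  subst e
  exact ⟨D, hin, n1, n2, n3⟩

/-- **`GlobalTopC` from one `ℚ`-level datum.** -/
theorem globalTopC_of_datum (D : TopDatum p (locS S) (cycloRep p))
    (hin : ∀ (V : Subgroup Γℚ) (hV : IsCycloLevel p S V),
      haveI := hV.normal
      TopInputsC p (D.restrictNormal V))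
    (n1 : ∀ (V : Subgroup Γℚ), IsCycloLevel p S V →
      Finite (Hlc ((famS S).restrict V) (res V.subtype D.E) 1))
    (n2 : ∀ (V : Subgroup Γℚ) (hV : IsCycloLevel p S V),
      haveI := hV.normal
      ∃ e₀ : ℕ, Nat.card (Hlc ((famS S).restrict V) (res V.subtype D.E) 0 ⧸
          (topChase_mulP p (Hlc ((famS S).restrict V) (res V.subtype D.E) 0)).range) = p ^ e₀ ∧
        V.index + 2 * Nat.card (locSV S V).ι ≤ 2 * e₀)
    (n3 : ∀ (V : Subgroup Γℚ) (hV : IsCycloLevel p S V),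
      haveI := hV.normal
      Nat.card (LinearMap.ker (locRes (locSV S V) (trivRep p ↥V) 1)) ≤
        Nat.card (Hlc ((famS S).restrict V) (res V.subtype D.E) 1 ⧸
          (topChase_mulP p (Hlc ((famS S).restrict V) (res V.subtype D.E) 1)).range)) :
    GlobalTopC p S := by
  intro V hV
  haveI := hV.normal
  have e : res V.subtype (cycloRep p) = trivRep p ↥V :=
    baseCount_res_cycloRep_eq p V.subtype (fun u => hV.2 u u.2)
  have h3 : Nat.card (LinearMap.ker (locRes (locSV S V) (res V.subtype (cycloRep p)) 1)) ≤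
      Nat.card (Hlc ((famS S).restrict V) (res V.subtype D.E) 1 ⧸
        (topChase_mulP p (Hlc ((famS S).restrict V) (res V.subtype D.E) 1)).range) := by
    rw [e]
    exact n3 V hV
  exact globalTopAtC_of_eq V e (D.restrictNormal V) (hin V hV) (n1 V hV) (n2 V hV) h3

/-- **`GlobalTopQ` from one `ℚ`-level datum.** -/
theorem globalTopQ_of_datum (D : TopDatum p (locS S) (cycloRep p))
    (hinj : ∀ y : Hlc (famS S) D.J 2, p • y = 0 → D.lamH 2 y = 0 → y = 0)
    (y₀ : Hlc (famS S) D.J 2) (hy₀ : p • y₀ = 0) (hπ : D.πI 2 y₀ ≠ 0) : GlobalTopQ p S :=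
  ⟨D, hinj, y₀, hy₀, hπ⟩

/-- **The frozen `S55` conclusion from the three global-top packages.** -/
theorem S55_of_globalTop (hp2 : p ≠ 2) (hpS : pPrime p ∈ S)
    (h : GlobalTopC p S) (h3 : GlobalTopH3P p S) (hq : GlobalTopQ p S)
    (M : Rep (ZMod p) Γℚ) [FiniteDimensional (ZMod p) M]
    (hsm : ∀ m : M, ∃ F : IntermediateField ℚ (AlgebraicClosure ℚ), FiniteDimensional ℚ F ∧
      ∀ s ∈ F.fixingSubgroup, M.ρ s m = m)
    (hMur : ∀ q : Nat.Primes, q ∉ S → ∀ A : ValuationSubring (AlgebraicClosure ℚ),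
      A.LiesOverPrime (q : ℕ) → ∀ g ∈ A.inertiaSubgroupIn ℚ, M.ρ g = 1) :
    ∃ B : sha₁ S (M.dualTwist (cycloChar p)) →ₗ[ZMod p] sha₂ S M →ₗ[ZMod p] ZMod p,
      (∀ y, (∀ x, B y x = 0) → y = 0) ∧ (∀ x, (∀ y, B y x = 0) → x = 0) := by
  obtain ⟨g0, g1, g2, g3, g4, gQ⟩ := globalOut_of_topP h h3 hq (localOut0_holds p S)
    (fun h1 => globalOut1_of_globalOut1P hpS h1)
  exact S55_of_globalOut hp2 hpS g0 g1 g2 g3 g4 gQ M hsm hMur

end Fermat.Agent.PT
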