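import Mathlib
import Fermat.Agent.CFT.PT.SUnitsH1Fin
import Fermat.Agent.CFT.PT.PlacesGlue

/-!
# S55 GLOBAL top: the numeric clauses (N1), (N2) of `GlobalTopAt`, standalone

(helper1, for helper22's CHAIN D)  For a cyclo-level `V` and `E = res V.subtype (ESRep S)`
(`= sUT_E S V`):

* `gtNum_N1` : `Hlc¹(V, E)` is finite  (`finite_Hlc_one_ESRep_of_mem`, PT/SUnitsH1Fin);
* `gtNum_N2` : the `e₀`-clause  (`plg_exists_e0`, helper10's PT/PlacesGlue);
* `gtNum_card_quotient_eq_card_torsion` : `|Hlc¹(V,E)/p| = |Hlc¹(V,E)[p]|`;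
* `gtNum_N12` : both clauses together.
-/

set_option autoImplicit false

namespace Fermat.Agent.PT

open CategoryTheory Rep

local notation "Γℚ" => (AlgebraicClosure ℚ ≃ₐ[ℚ] AlgebraicClosure ℚ)

variable {p : ℕ} [Fact p.Prime] {S : Finset Nat.Primes}

/-- **(N1)** `Hlc¹(V, E_S)` is finite at every cyclo-level. -/
theorem gtNum_N1 {V : Subgroup Γℚ} (hV : IsCycloLevel p S V) :
    Finite (Hlc ((famS S).restrict V) (Rep.res V.subtype (ESRep S)) 1) :=
  finite_Hlc_one_ESRep_of_mem S V hV.1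

/-- **(N2)** the `e₀`-clause of `GlobalTopAt`. -/
theorem gtNum_N2 (hp2 : p ≠ 2) {V : Subgroup Γℚ} (hV : IsCycloLevel p S V) :
    haveI := hV.normal
    ∃ e₀ : ℕ, Nat.card (Hlc ((famS S).restrict V) (Rep.res V.subtype (ESRep S)) 0 ⧸
        (topChase_mulP p (Hlc ((famS S).restrict V) (Rep.res V.subtype (ESRep S)) 0)).range) =
          p ^ e₀ ∧
      V.index + 2 * Nat.card (locSV S V).ι ≤ 2 * e₀ :=
  plg_exists_e0 p S hp2 hV

/-- `|Hlc¹(V,E)/p| = |Hlc¹(V,E)[p]|` (finite abelian group). -/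
theorem gtNum_card_quotient_eq_card_torsion {V : Subgroup Γℚ} (hV : IsCycloLevel p S V) :
    Nat.card (Hlc ((famS S).restrict V) (Rep.res V.subtype (ESRep S)) 1 ⧸
        (topChase_mulP p (Hlc ((famS S).restrict V) (Rep.res V.subtype (ESRep S)) 1)).range) =
      Nat.card (topChase_mulP p
        (Hlc ((famS S).restrict V) (Rep.res V.subtype (ESRep S)) 1)).ker := by
  have := gtNum_N1 hV
  exact topChase_card_quotient_eq_card_torsion p _

/-- **(N1) + (N2)** together, in the order of `GlobalTopAt`. -/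
theorem gtNum_N12 (hp2 : p ≠ 2) {V : Subgroup Γℚ} (hV : IsCycloLevel p S V) :
    haveI := hV.normal
    Finite (Hlc ((famS S).restrict V) (Rep.res V.subtype (ESRep S)) 1) ∧
    ∃ e₀ : ℕ, Nat.card (Hlc ((famS S).restrict V) (Rep.res V.subtype (ESRep S)) 0 ⧸
        (topChase_mulP p (Hlc ((famS S).restrict V) (Rep.res V.subtype (ESRep S)) 0)).range) =
          p ^ e₀ ∧
      V.index + 2 * Nat.card (locSV S V).ι ≤ 2 * e₀ :=
  ⟨gtNum_N1 hV, gtNum_N2 hp2 hV⟩

end Fermat.Agent.PT
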