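import Fermat.Agent.CFT.PT.IdeleRep
import Fermat.Agent.CFT.PT.SUnitsH1Fin
import Fermat.Agent.CFT.Idele.PCycloArtin

set_option autoImplicit false
set_option linter.unusedSectionVars false
set_option linter.style.haveILetI false

/-!
# S55 GLOBAL, (K0) companion: the idelic `S`-units are the `S`-units (`ESid S = ES S`)

`ESid S` (helper27, `PT/IdeleRep`): `y ∈ ℚ_Sˣ` such that `1 ⊗ y` is an integral unit of
`ℚ_v ⊗ Qb` for all `v ∉ S`.  `ES S` (helper21, `PT/SUnitsRep`): `y ∈ ℚ_Sˣ` which is a unit at every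
valuation subring of `Qb` over a prime outside `S`.  They coincide: descend to the finite level
`F = ℚ(y)` (integrality is reflected by the injective base change `ℚ_v ⊗ F → ℚ_v ⊗ Qb`), use the
idele dictionary `diagIdele_mem_semiLocalUnits_iff` and helper1's `sUF_mem_ES_iff`.
-/

namespace Fermat.Agent.PT

open CategoryTheory Fermat.Agent.CFT IntermediateField NumberField IsDedekindDomain
  IsDedekindDomain.HeightOneSpectrum Rat.HeightOneSpectrum
open scoped TensorProduct Fermat.Agent.CFT.TensorGal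

local notation "Qb" => AlgebraicClosure ℚ
local notation "Γℚ" => (AlgebraicClosure ℚ ≃ₐ[ℚ] AlgebraicClosure ℚ)

attribute [local instance] sUF_isAlgebraicQb sUF_numberField

section Level

variable {L : Type} [Field L] [NumberField L] [Algebra ℚ L] (f : L →ₐ[ℚ] Qb)

/-- `1 ⊗ f x` is the base change of the `v`-component of the principal idele of `x`. -/
theorem idES_slIncl_eq (x : Lˣ) (v : HeightOneSpectrum (𝓞 ℚ)) :
    slIncl v (Units.map (f : L →* Qb) x) =
      Units.map ((slBase v f : _ →ₐ[v.adicCompletion ℚ] slQb v) : _ →* slQb v)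
        ((diagIdele (K := ℚ) x : ideleGroup ℚ L).1 v) := by
  apply Units.ext
  rw [slIncl_val, Units.coe_map, Units.coe_map, diagIdele_apply, Units.coe_map]
  show _ = slBase v f ((1 : v.adicCompletion ℚ) ⊗ₜ[ℚ] (x : L))
  rw [slBase_tmul]
  rfl

/-- **finite-level criterion**: `1 ⊗ f x` is an integral unit of `ℚ_v ⊗ Qb` iff `x` is a unit at
all primes of `L` above `v`. -/
theorem idES_slIncl_mem_iff (x : Lˣ) (v : HeightOneSpectrum (𝓞 ℚ)) :
    slIncl v (Units.map (f : L →* Qb) x) ∈ slIntUnits v ↔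
      ∀ w : HeightOneSpectrum (𝓞 L), w.under (𝓞 ℚ) = v → w.valuation L (x : L) = 1 := by
  rw [← diagIdele_mem_semiLocalUnits_iff, mem_semiLocalUnits_iff, mem_slIntUnits_iff,
    idES_slIncl_eq, ← map_inv, Units.coe_map, Units.coe_map]
  have hinj := slBase_injective v f
  exact and_congr
    (isIntegral_algHom_iff ((slBase v f).restrictScalars (v.adicCompletionIntegers ℚ)) hinj)
    (isIntegral_algHom_iff ((slBase v f).restrictScalars (v.adicCompletionIntegers ℚ)) hinj)

end Level

section Bridge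

variable (S : Finset Nat.Primes) (F : IntermediateField ℚ Qb) [FiniteDimensional ℚ F]

/-- the rational prime below `w`, as a natural number, lies in `w`. -/
theorem idES_natGenerator_mem (w : HeightOneSpectrum (𝓞 F)) :
    ((natGenerator (w.under (𝓞 ℚ)) : ℕ) : 𝓞 F) ∈ w.asIdeal := by
  have h1 : ((natGenerator (w.under (𝓞 ℚ)) : ℕ) : 𝓞 ℚ) ∈ (w.under (𝓞 ℚ)).asIdeal := by
    rw [pcyc_asIdeal_eq_span]
    exact Ideal.mem_span_singleton_self _
  rw [under_asIdeal, Ideal.under_def, Ideal.mem_comap, map_natCast] at h1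
  exact h1

/-- the primes of `F` above `S`, through the place of `ℚ` below. -/
theorem idES_mem_sUF_T_iff (w : HeightOneSpectrum (𝓞 F)) :
    w ∈ sUF_T F S ↔ w.under (𝓞 ℚ) ∈ placesS S := by
  constructor
  · rintro ⟨q', hq'S, hq'⟩
    show primesEquiv (w.under (𝓞 ℚ)) ∈ S
    have hq := idES_natGenerator_mem F w
    have hpr : (natGenerator (w.under (𝓞 ℚ))).Prime := prime_natGenerator _
    have heq : natGenerator (w.under (𝓞 ℚ)) = (q' : ℕ) := by
      by_contra hne
      have hcop : Nat.Coprime (natGenerator (w.under (𝓞 ℚ))) (q' : ℕ) :=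
        (Nat.coprime_primes hpr q'.2).2 hne
      obtain ⟨a, b, hab⟩ := Nat.isCoprime_iff_coprime.2 hcop
      have h2 : (1 : 𝓞 F) ∈ w.asIdeal := by
        have e : (1 : 𝓞 F) = (a : 𝓞 F) * ((natGenerator (w.under (𝓞 ℚ)) : ℕ) : 𝓞 F) +
            (b : 𝓞 F) * (((q' : ℕ) : ℕ) : 𝓞 F) := by
          have := congrArg (Int.cast : ℤ → 𝓞 F) hab
          push_cast at this
          exact this.symm
        rw [e]
        exact Ideal.add_mem _ (Ideal.mul_mem_left _ _ hq) (Ideal.mul_mem_left _ _ hq')
      exact w.isPrime.ne_top ((Ideal.eq_top_iff_one _).mpr h2)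
    have : primesEquiv (w.under (𝓞 ℚ)) = q' := Subtype.ext heq
    rw [this]
    exact hq'S
  · intro h
    exact ⟨primesEquiv (w.under (𝓞 ℚ)), h, idES_natGenerator_mem F w⟩

end Bridge

section Main

variable (S : Finset Nat.Primes)

/-- **the idelic `S`-units are the `S`-units of `ℚ_S`.** -/
theorem ESid_eq_ES : ESid S = ES S := by
  ext y
  rw [mem_ESid_iff, mem_QSU_iff]
  by_cases hyQ : (y : Qb) ∈ QS S
  swap
  · exact ⟨fun h => absurd h.1 hyQ, fun h => absurd h.1 hyQ⟩
  set F : IntermediateField ℚ Qb := ℚ⟮(y : Qb)⟯ with hF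
  haveI : FiniteDimensional ℚ F :=
    IntermediateField.adjoin.finiteDimensional (Algebra.IsIntegral.isIntegral (y : Qb))
  have hFle : F ≤ QS S := by
    rw [hF, IntermediateField.adjoin_simple_le_iff]
    exact hyQ
  have hyF : (y : Qb) ∈ F := IntermediateField.mem_adjoin_simple_self ℚ (y : Qb)
  have hy0 : (⟨(y : Qb), hyF⟩ : F) ≠ 0 := fun h => y.ne_zero (congrArg Subtype.val h)
  set x : (↥F)ˣ := Units.mk0 ⟨(y : Qb), hyF⟩ hy0 with hx
  have hxy : Units.map ((F.val : ↥F →ₐ[ℚ] Qb) : ↥F →* Qb) x = y := Units.ext rfl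
  rw [sUF_mem_ES_iff F S hFle y hyF]
  constructor
  · rintro ⟨-, h⟩ w hw
    have hv : w.under (𝓞 ℚ) ∉ placesS S := fun hmem => hw ((idES_mem_sUF_T_iff S F w).mpr hmem)
    have h1 := h _ hv
    rw [← hxy, idES_slIncl_mem_iff] at h1
    exact h1 w rfl
  · intro h
    refine ⟨hyQ, fun v hv => ?_⟩
    rw [← hxy, idES_slIncl_mem_iff]
    intro w hw
    refine h w fun hmem => hv ?_
    rw [← hw]
    exact (idES_mem_sUF_T_iff S F w).mp hmem

end Main

attribute [local instance] sUR_mulDistribMulAction ESidAction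

noncomputable section

variable (S : Finset Nat.Primes)

/-- `E_S → ESid S` (the identity on underlying elements), as a morphism of representations. -/
def idES_toESid : ESRep S ⟶ ESidRep S :=
  Rep.ofHom ⟨(Subgroup.inclusion (ESid_eq_ES S).ge).toAdditive.toIntLinearMap, fun g => by
    refine LinearMap.ext fun y => ?_
    exact congrArg Additive.ofMul (Subtype.ext rfl)⟩

/-- `ESid S → E_S` (the identity on underlying elements), as a morphism of representations. -/
def idES_ofESid : ESidRep S ⟶ ESRep S :=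
  Rep.ofHom ⟨(Subgroup.inclusion (ESid_eq_ES S).le).toAdditive.toIntLinearMap, fun g => by
    refine LinearMap.ext fun y => ?_
    exact congrArg Additive.ofMul (Subtype.ext rfl)⟩

theorem idES_toESid_apply (y : Additive (ES S)) :
    ((Additive.toMul ((idES_toESid S).hom y : Additive (ESid S)) : ESid S) : Qbˣ) =
      ((Additive.toMul y : ES S) : Qbˣ) := rfl

theorem idES_ofESid_apply (y : Additive (ESid S)) :
    ((Additive.toMul ((idES_ofESid S).hom y : Additive (ES S)) : ES S) : Qbˣ) =
      ((Additive.toMul y : ESid S) : Qbˣ) := rfl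

/-- **`ESRep S ≅ ESidRep S`.** -/
def idES_iso : ESRep S ≅ ESidRep S where
  hom := idES_toESid S
  inv := idES_ofESid S
  hom_inv_id := by
    apply Rep.hom_ext
    apply Representation.IntertwiningMap.ext
    refine LinearMap.ext fun y => ?_
    exact congrArg Additive.ofMul (Subtype.ext rfl)
  inv_hom_id := by
    apply Rep.hom_ext
    apply Representation.IntertwiningMap.ext
    refine LinearMap.ext fun y => ?_
    exact congrArg Additive.ofMul (Subtype.ext rfl)

/-- the diagonal embedding `E_S → J_S` of the `S`-units into the `S`-ideles (tensor model). -/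
def idES_toJS : ESRep S ⟶ idJSRep S := idES_toESid S ≫ ESidToJS S

theorem idES_toJS_apply (y : Additive (ES S)) :
    (idES_toJS S).hom y = sqMk (idJS S) ⊥ (isStableSub_idJS S) IsStableSub.bot
      ⟨slDiagS S ((Additive.toMul y : ES S) : Qbˣ),
        slDiagS_mem_idJS S (mem_ESid_iff S |>.mp ((ESid_eq_ES S).ge (Additive.toMul y).2)).1⟩ := rfl

/-- (S1''), the `TopDatum` shape with `E = ESRep S`: `0 → E_S → J_S → C' → 0`. -/
def idES_seq : ShortComplex (Rep ℤ Γℚ) :=
  ShortComplex.mk (idES_toJS S) (idJSToC' S) (by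
    have h : ESidToJS S ≫ idJSToC' S = 0 := (idSeq1' S).zero
    rw [idES_toJS, Category.assoc, h, Limits.comp_zero])

/-- the comparison `idES_seq S ≅ idSeq1' S`. -/
def idES_seqIso : idES_seq S ≅ idSeq1' S :=
  ShortComplex.isoMk (idES_iso S) (Iso.refl _) (Iso.refl _)
    (by simp [idES_seq, idES_toJS, idES_iso, idSeq1']) (by simp [idES_seq, idSeq1'])

theorem idES_seq_shortExact (hS : S.Nonempty) : (idES_seq S).ShortExact :=
  ShortComplex.shortExact_of_iso (idES_seqIso S).symm (idSeq1'_shortExact S hS)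

end

end Fermat.Agent.PT
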