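/-
S55 bridge (K8), engine-independent part: the `S`-ideles `idJS S` of the tensor model
(`PT/IdeleRep.lean`) are the finite product of their components at the places `v_q`, `q ∈ S`.

* `idJC_vq q` : the place of `ℚ` attached to the prime `q`;
* `idJC_ext` : an element of `idJS S` is determined by its components at the `v_q`, `q ∈ S`;
* `idJC_exists` : any family of components fixed by a common member of `famS S` is attained;
* `idJC_comp S q` : the component map `idJSRep S → (ℚ_{v_q} ⊗ Qb)ˣ`, additive and equivariant.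
-/
import Fermat.Agent.CFT.PT.IdeleRep

set_option autoImplicit false

namespace Fermat.Agent.PT

open CategoryTheory Fermat.Agent.CFT IntermediateField NumberField IsDedekindDomain
open scoped TensorProduct Fermat.Agent.CFT.TensorGal

local notation "Qb" => AlgebraicClosure ℚ
local notation "Γℚ" => (AlgebraicClosure ℚ ≃ₐ[ℚ] AlgebraicClosure ℚ)

attribute [local instance] Units.mulDistribMulActionRight slQbUnitsAction

noncomputable section

/-- the place of `ℚ` attached to the prime `q`. -/
abbrev idJC_vq (q : Nat.Primes) : HeightOneSpectrum (𝓞 ℚ) :=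
  Rat.HeightOneSpectrum.primesEquiv.symm q

theorem idJC_primesEquiv_vq (q : Nat.Primes) :
    Rat.HeightOneSpectrum.primesEquiv (idJC_vq q) = q :=
  Equiv.apply_symm_apply _ q

theorem idJC_exists_vq (v : HeightOneSpectrum (𝓞 ℚ)) : ∃ q : Nat.Primes, idJC_vq q = v :=
  ⟨Rat.HeightOneSpectrum.primesEquiv v, Equiv.symm_apply_apply _ v⟩

theorem idJC_vq_injective : Function.Injective idJC_vq :=
  (Rat.HeightOneSpectrum.primesEquiv (R := 𝓞 ℚ)).symm.injective

variable (S : Finset Nat.Primes)

theorem idJC_vq_mem_placesS_iff (q : Nat.Primes) : idJC_vq q ∈ placesS S ↔ q ∈ S := by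
  show Rat.HeightOneSpectrum.primesEquiv (idJC_vq q) ∈ S ↔ _
  rw [idJC_primesEquiv_vq]

theorem idJC_finite_placesS : (placesS S).Finite :=
  S.finite_toSet.preimage (Rat.HeightOneSpectrum.primesEquiv (R := 𝓞 ℚ)).injective.injOn

/-- evaluation at a place, as a group homomorphism. -/
def idJC_eval (v : HeightOneSpectrum (𝓞 ℚ)) : slProd →* (slQb v)ˣ where
  toFun x := x v
  map_one' := rfl
  map_mul' _ _ := rfl

theorem idJC_eval_apply (v : HeightOneSpectrum (𝓞 ℚ)) (x : slProd) : idJC_eval v x = x v := rfl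

theorem idJC_eval_smul (v : HeightOneSpectrum (𝓞 ℚ)) (g : Γℚ) (x : slProd) :
    idJC_eval v (g • x) = g • idJC_eval v x := rfl

/-- **(1)** an `S`-idele is determined by its components at the places of `S`. -/
theorem idJC_ext {x y : slProd} (hx : x ∈ idJS S) (hy : y ∈ idJS S)
    (h : ∀ q ∈ S, x (idJC_vq q) = y (idJC_vq q)) : x = y := by
  apply slProd_ext
  intro v
  obtain ⟨q, rfl⟩ := idJC_exists_vq v
  by_cases hq : q ∈ S
  · exact h q hq
  · have hv : idJC_vq q ∉ placesS S := by rwa [idJC_vq_mem_placesS_iff]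
    rw [hx.2 _ hv, hy.2 _ hv]

/-- transport of a dependent family along an equivalence (generic form, to keep the kernel away
from the definition of `primesEquiv`). -/
theorem idJC_cast_aux {α β : Type} (e : α ≃ β) (P : α → Type) (t : ∀ b, P (e.symm b)) :
    ∃ x : ∀ a, P a, ∀ b, x (e.symm b) = t b :=
  ⟨(Equiv.piCongrLeft' P e).symm t, fun b => Equiv.piCongrLeft'_symm_apply_apply P e t b⟩

/-- an element of the ambient product with prescribed components at all the `v_q`. -/
theorem idJC_exists_assemble (t : ∀ q : Nat.Primes, (slQb (idJC_vq q))ˣ) :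
    ∃ x : slProd, ∀ q, x (idJC_vq q) = t q :=
  idJC_cast_aux Rat.HeightOneSpectrum.primesEquiv
    (fun v : HeightOneSpectrum (𝓞 ℚ) => (slQb v)ˣ) t

open Classical in
/-- **(2)** every family of components at the places of `S` which is fixed by a common member of
`famS S` is the family of components of an `S`-idele. -/
theorem idJC_exists (t : ∀ q : Nat.Primes, (slQb (idJC_vq q))ˣ)
    (hU : ∃ U ∈ (famS S).sets, ∀ q ∈ S, ∀ u ∈ U, u • t q = t q) :
    ∃ x ∈ idJS S, ∀ q ∈ S, x (idJC_vq q) = t q := by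
  obtain ⟨U, hU, hUt⟩ := hU
  obtain ⟨x, hx⟩ := idJC_exists_assemble
    (fun q => if q ∈ S then t q else (1 : (slQb (idJC_vq q))ˣ))
  have h1 : ∀ q ∈ S, x (idJC_vq q) = t q := fun q hq => by
    rw [hx]
    exact if_pos hq
  have h2 : ∀ v ∉ placesS S, x v = 1 := fun v hv => by
    obtain ⟨q, rfl⟩ := idJC_exists_vq v
    rw [idJC_vq_mem_placesS_iff] at hv
    rw [hx]
    exact if_neg hv
  refine ⟨x, ⟨⟨⟨U, hU, fun g hg => ?_⟩, ?_⟩, h2⟩, h1⟩
  · apply slProd_ext
    intro v
    rw [slProd_smul_apply]
    by_cases hv : v ∈ placesS S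
    · obtain ⟨q, rfl⟩ := idJC_exists_vq v
      rw [idJC_vq_mem_placesS_iff] at hv
      rw [h1 q hv]
      exact hUt q hv g hg
    · rw [h2 v hv, smul_one]
  · rw [Filter.eventually_cofinite]
    refine (idJC_finite_placesS S).subset fun v hv => ?_
    by_contra hvS
    exact hv (by rw [h2 v hvS]; exact one_mem _)

/-- **(3)** the component at `v_q` of a class of `idJSRep S` (the quotient by `⊥` is harmless). -/
def idJC_compHom (q : Nat.Primes) :
    Additive (↥(idJS S) ⧸ (⊥ : Subgroup slProd).subgroupOf (idJS S)) →+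
      Additive (slQb (idJC_vq q))ˣ :=
  MonoidHom.toAdditive
    (QuotientGroup.lift ((⊥ : Subgroup slProd).subgroupOf (idJS S))
      ((idJC_eval (idJC_vq q)).comp (idJS S).subtype)
      (fun x hx => by
        rw [Subgroup.mem_subgroupOf, Subgroup.mem_bot] at hx
        rw [MonoidHom.mem_ker, MonoidHom.comp_apply, Subgroup.subtype_apply, hx, map_one]))

/-- **(3)** the component at `v_q` of a class of `idJSRep S`, on the carrier of the
representation. -/
def idJC_comp (q : Nat.Primes) : (idJSRep S).V →+ Additive (slQb (idJC_vq q))ˣ :=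
  idJC_compHom S q

theorem idJC_comp_sqMk (q : Nat.Primes) (x : idJS S) :
    idJC_comp S q (sqMk (idJS S) ⊥ (isStableSub_idJS S) IsStableSub.bot x) =
      Additive.ofMul ((x : slProd) (idJC_vq q)) := rfl

theorem idJC_comp_rho (q : Nat.Primes) (g : Γℚ) (a : (idJSRep S).V) :
    idJC_comp S q ((idJSRep S).ρ g a) =
      Additive.ofMul (g • Additive.toMul (idJC_comp S q a)) := by
  obtain ⟨x, rfl⟩ := sqMk_surjective (idJS S) ⊥ (isStableSub_idJS S) IsStableSub.bot a
  rfl

/-- joint injectivity of the components at the places of `S`. -/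
theorem idJC_comp_injective {a b : (idJSRep S).V}
    (h : ∀ q ∈ S, idJC_comp S q a = idJC_comp S q b) : a = b := by
  obtain ⟨x, rfl⟩ := sqMk_surjective (idJS S) ⊥ (isStableSub_idJS S) IsStableSub.bot a
  obtain ⟨y, rfl⟩ := sqMk_surjective (idJS S) ⊥ (isStableSub_idJS S) IsStableSub.bot b
  have hxy : (x : slProd) = y := idJC_ext S x.2 y.2 fun q hq => by
    have := h q hq
    rw [idJC_comp_sqMk, idJC_comp_sqMk] at this
    exact congrArg Additive.toMul this
  rw [Subtype.ext hxy]

/-- joint surjectivity of the components at the places of `S` onto the families fixed by a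
common member of `famS S`. -/
theorem idJC_comp_surjective (t : ∀ q : Nat.Primes, (slQb (idJC_vq q))ˣ)
    (hU : ∃ U ∈ (famS S).sets, ∀ q ∈ S, ∀ u ∈ U, u • t q = t q) :
    ∃ a : (idJSRep S).V, ∀ q ∈ S, idJC_comp S q a = Additive.ofMul (t q) := by
  obtain ⟨x, hx, hxt⟩ := idJC_exists S t hU
  refine ⟨sqMk (idJS S) ⊥ (isStableSub_idJS S) IsStableSub.bot ⟨x, hx⟩, fun q hq => ?_⟩
  rw [idJC_comp_sqMk]
  exact congrArg Additive.ofMul (hxt q hq)

/-- each component of a class of `idJSRep S` is fixed by a member of `famS S`. -/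
theorem idJC_comp_fixed (q : Nat.Primes) (a : (idJSRep S).V) :
    ∃ U ∈ (famS S).sets, ∀ u ∈ U, u • Additive.toMul (idJC_comp S q a) =
      Additive.toMul (idJC_comp S q a) := by
  obtain ⟨x, rfl⟩ := sqMk_surjective (idJS S) ⊥ (isStableSub_idJS S) IsStableSub.bot a
  obtain ⟨U, hU, hUx⟩ := x.2.1.1
  refine ⟨U, hU, fun u hu => ?_⟩
  have := congrFun (hUx u hu) (idJC_vq q)
  exact this

/-- the component at `v_q`, `q ∈ S`, of the diagonal image of `y`. -/
theorem idJC_comp_slDiagS (q : Nat.Primes) (hq : q ∈ S) (y : Qbˣ) (hy : slDiagS S y ∈ idJS S) :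
    idJC_comp S q (sqMk (idJS S) ⊥ (isStableSub_idJS S) IsStableSub.bot ⟨slDiagS S y, hy⟩) =
      Additive.ofMul (slIncl (idJC_vq q) y) := by
  rw [idJC_comp_sqMk]
  exact congrArg Additive.ofMul
    (slDiagS_apply_of_mem S y ((idJC_vq_mem_placesS_iff S q).2 hq))

end

end Fermat.Agent.PT
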