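/-
S55 engine, [C] inputs (c),(d) for `ℂ = idCRep S` (helper28): for `V` open for `famS S` with trivial
mod-`p` cyclotomic character, `p` odd:

* `idLCH_hc` : `Hlc¹(V, ℂ)` has no `p`-torsion;
* `idLCH_hd` : at most `p` classes of `Hlc²(V, ℂ)` are killed by `p`.

Proof: the cofinal finite levels are `H^n(Gal(L/M), C_L)` (`idLC_levels`), whose `p`-torsion is
controlled by the idelic class field theory (`idClassF_H1_eq_zero_of_nsmul`,
`fcFin_natCard_torsion_H2_le`), and `PT/LevelPlug` passes to the limit.
-/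
import Fermat.Agent.CFT.PT.IdeleLevelC
import Fermat.Agent.CFT.PT.LevelPlug
import Fermat.Agent.CFT.Bridge.FundClassLevel

set_option autoImplicit false
set_option linter.unusedSectionVars false
set_option linter.style.haveILetI false

namespace Fermat.Agent.PT

open CategoryTheory groupCohomology Rep Fermat.Agent.CFT Fermat.Agent.CFT.S14 IntermediateField
  NumberField IsDedekindDomain ExtCitation
open scoped Fermat.Agent.CFT.IdeleAct

local notation "Γℚ" => (AlgebraicClosure ℚ ≃ₐ[ℚ] AlgebraicClosure ℚ)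
local notation "Qb" => AlgebraicClosure ℚ

attribute [local instance] sUF_isAlgebraicQb sUF_isAlgClosureQb sUF_isGaloisQb sUF_numberField
  sUF_algebra sUF_isScalarTower sUF_isScalarTower' sUF_isGalois sUF_normal_alg'

attribute [local instance] additiveDistribMulAction ideleGroupActionOf ideleClassActionOf
  idClassCommGroup

variable (p : ℕ) [hp : Fact p.Prime] (S : Finset Nat.Primes)

section Field

variable {S} (M : IntermediateField ℚ Qb) [FiniteDimensional ℚ M] (hM : M ≤ QS S)
  (hcyc : ∀ s ∈ M.fixingSubgroup, cycloChar p s = 1) (hp2 : p ≠ 2)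

include hM hcyc hp2

/-- (c) at `V = M.fixingSubgroup`. -/
theorem idLCH_hc_field
    (c : Hlc ((famS S).restrict M.fixingSubgroup) (res M.fixingSubgroup.subtype (idCRep S)) 1)
    (hc : p • c = 0) : c = 0 := by
  have hζ : ∃ ζ : M, IsPrimitiveRoot ζ p := plg_exists_primitiveRoot p M hcyc
  refine lvP_eq_zero_of_nsmul ((famS S).restrict M.fixingSubgroup)
    (res M.fixingSubgroup.subtype (idCRep S)) p 0
    (idLC_levels M hM (fun Q _ A' => ∀ y : groupCohomology A' (0 + 1), p • y = 0 → y = 0)
      (fun L _ _ _ _ => idClassF_H1_eq_zero_of_nsmul ℚ M L p hp2 hζ)) c hc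

/-- (d) at `V = M.fixingSubgroup`. -/
theorem idLCH_hd_field
    (s : Finset (Hlc ((famS S).restrict M.fixingSubgroup)
      (res M.fixingSubgroup.subtype (idCRep S)) 2))
    (hs : ∀ c ∈ s, p • c = 0) : s.card ≤ p := by
  have h0 : cycloKf p ≤ M := by
    unfold cycloKf
    rw [adjoin_le_iff]
    rintro x hx
    rw [Set.mem_singleton_iff] at hx
    rw [hx]
    exact plg_zetaQbar_mem p M hcyc
  refine lvP_card_le ((famS S).restrict M.fixingSubgroup)
    (res M.fixingSubgroup.subtype (idCRep S)) p 1 p
    (idLC_levels M hM (fun Q _ A' =>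
        Finite (nsmulAddMonoidHom (α := groupCohomology A' (1 + 1)) p).ker ∧
        Nat.card (nsmulAddMonoidHom (α := groupCohomology A' (1 + 1)) p).ker ≤ p)
      (fun L hML _ _ _ => ?_)) s hs
  have h1 : M ≤ L := hML.out
  letI a0 : Algebra (cycloKf p) M := algebraOfLE h0
  letI a1 : Algebra (cycloKf p) L := algebraOfLE (h0.trans h1)
  haveI : IsScalarTower (cycloKf p) M L := IsScalarTower.of_algebraMap_eq fun _ => rfl
  haveI : IsScalarTower ℚ (cycloKf p) L := isScalarTower_of_le (h0.trans h1)
  haveI : IsGalois ℚ L := ⟨⟩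
  haveI : IsGalois (cycloKf p) L := IsGalois.tower_top_of_isGalois ℚ (cycloKf p) L
  exact fcFin_natCard_torsion_H2_le (cycloKf p) M L p hp2 ⟨zetaKf p, zetaKf_spec p⟩

end Field

variable {S}

/-- **(c)**: `Hlc¹(V, ℂ)[p] = 0` for `V` open with trivial mod-`p` cyclotomic character. -/
theorem idLCH_hc (hp2 : p ≠ 2) {V : Subgroup Γℚ} (hV : IsOpenFor (famS S) V)
    (hcyc : ∀ s ∈ V, cycloChar p s = 1)
    (c : Hlc ((famS S).restrict V) (res V.subtype (idCRep S)) 1) (hc : p • c = 0) : c = 0 := by
  have hfix : (fixedField V).fixingSubgroup = V := lvq_fixingSubgroup_fixedField S hV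
  haveI := lvq_finiteDimensional_fixedField S hV
  have hM := lvq_fixedField_le_QS S hV
  generalize fixedField V = M at hfix hM this
  subst hfix
  exact idLCH_hc_field p M hM hcyc hp2 c hc

/-- **(d)**: at most `p` classes of `Hlc²(V, ℂ)` are killed by `p`, for `V` open with trivial
mod-`p` cyclotomic character. -/
theorem idLCH_hd (hp2 : p ≠ 2) {V : Subgroup Γℚ} (hV : IsOpenFor (famS S) V)
    (hcyc : ∀ s ∈ V, cycloChar p s = 1)
    (s : Finset (Hlc ((famS S).restrict V) (res V.subtype (idCRep S)) 2))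
    (hs : ∀ c ∈ s, p • c = 0) : s.card ≤ p := by
  have hfix : (fixedField V).fixingSubgroup = V := lvq_fixingSubgroup_fixedField S hV
  haveI := lvq_finiteDimensional_fixedField S hV
  have hM := lvq_fixedField_le_QS S hV
  generalize fixedField V = M at hfix hM this
  subst hfix
  exact idLCH_hd_field p M hM hcyc hp2 s hs

end Fermat.Agent.PT
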