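/-
S55 (K0)/(K6) companion (helper19): FACTS 2 and 4 for helper5's `idL_iota` (`PT/IdeleRepLevel.lean`),
in the instance preamble of helper28's `PT/ClassLevel.lean` (`h2`, `h4` of `clsLvl_*`).

* `idLT_iota_relIdele` : `ι_F (relIdele ℚ L F z) = ι_L z` for `L ≤ F` finite subfields of `Qb`;
* `idLT_iota_smul` : `ι_F (σ|_F • y) = σ • ι_F y` for `F/ℚ` finite normal, `σ ∈ Γℚ`.
-/
import Fermat.Agent.CFT.PT.IdeleRepLevel
import Fermat.Agent.CFT.PT.SUnitsH1Fin
import Fermat.Agent.CFT.Idele.Relative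

set_option autoImplicit false

namespace Fermat.Agent.PT

open IsDedekindDomain IsDedekindDomain.HeightOneSpectrum NumberField Fermat.Agent.CFT
  Fermat.Agent.CFT.S14 IntermediateField
open scoped TensorProduct Fermat.Agent.CFT.TensorGal Fermat.Agent.CFT.IdeleAct

local notation "Qb" => AlgebraicClosure ℚ
local notation "Γℚ" => (AlgebraicClosure ℚ ≃ₐ[ℚ] AlgebraicClosure ℚ)

attribute [local instance] sUF_isAlgebraicQb sUF_isAlgClosureQb sUF_isGaloisQb sUF_numberField
  sUF_algebra sUF_isScalarTower sUF_isScalarTower' sUF_isGalois sUF_normal_alg'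

attribute [local instance] Units.mulDistribMulActionRight slQbUnitsAction

section Tower

variable {L F : IntermediateField ℚ Qb} [hLF : Fact (L ≤ F)]
  [FiniteDimensional ℚ L] [FiniteDimensional ℚ F]

/-- the base change `ℚ_v ⊗ L → ℚ_v ⊗ Qb` factors through `ℚ_v ⊗ F`. -/
theorem idLT_slBase_relSemiLocalMap (v : HeightOneSpectrum (𝓞 ℚ)) (z : semiLocal ℚ ↥L v) :
    slBase v F.val (relSemiLocalMap ℚ ↥L ↥F v z) = slBase v L.val z := by
  induction z using TensorProduct.induction_on with
  | zero => simp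
  | tmul a y =>
    show slBase v F.val (relTensorMap (a ⊗ₜ[ℚ] y)) = slBase v L.val (a ⊗ₜ[ℚ] y)
    rw [relTensorMap_tmul, slBase_tmul, slBase_tmul]
    rfl
  | add x y hx hy => rw [map_add, map_add, map_add, hx, hy]

/-- **FACT 2**: `ι_F ∘ relIdele = ι_L`. -/
theorem idLT_iota_relIdele (z : ideleGroup ℚ ↥L) :
    idL_iota F (relIdele ℚ ↥L ↥F z) = idL_iota L z := by
  funext v
  apply Units.ext
  rw [idL_iota_apply, idL_iota_apply, idL_baseUnits_val, idL_baseUnits_val, relIdele_apply]
  exact idLT_slBase_relSemiLocalMap v _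

end Tower

section Equivariance

variable {F : IntermediateField ℚ Qb} [FiniteDimensional ℚ F] [Normal ℚ F]

/-- the base change `ℚ_v ⊗ F → ℚ_v ⊗ Qb` is equivariant along `σ ↦ σ|_F`. -/
theorem idLT_slBase_smul (v : HeightOneSpectrum (𝓞 ℚ)) (σ : Γℚ) (z : semiLocal ℚ ↥F v) :
    slBase v F.val ((σ.restrictNormal F : F ≃ₐ[ℚ] F) • z) = σ • slBase v F.val z := by
  induction z using TensorProduct.induction_on with
  | zero => simp
  | tmul a y =>
    rw [tensorRight_smul_tmul, slBase_tmul, slBase_tmul, slQb_smul_tmul]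
    congr 1
    exact AlgEquiv.restrictNormal_commutes σ F y
  | add x y hx hy => rw [smul_add, map_add, map_add, smul_add, hx, hy]

/-- **FACT 4**: `ι_F` is `Γℚ`-equivariant along the restriction `Γℚ → Gal(F/ℚ)`. -/
theorem idLT_iota_smul (σ : Γℚ) (y : ideleGroup ℚ ↥F) :
    idL_iota F ((σ.restrictNormal F : F ≃ₐ[ℚ] F) • y) = σ • idL_iota F y := by
  funext v
  apply Units.ext
  rw [slProd_smul_apply, slQb_units_smul_val, idL_iota_apply, idL_iota_apply, idL_baseUnits_val,
    idL_baseUnits_val, ideleGroup_smul_apply, units_smul_val]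
  exact idLT_slBase_smul v σ _

end Equivariance

end Fermat.Agent.PT
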