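import Fermat.Agent.CFT.PT.IdeleLevelU
import Fermat.Agent.CFT.PT.SmoothTowerTop

set_option autoImplicit false

/-!
# S55 (K7)(b) at the whole group: `Hlcⁿ⁺¹(Γℚ, 𝕌) = 0` for the unrestricted family `famS S`

(helper12)  The `V = ⊤` case of `idLU_isZero_Hlc` transported along helper22's `smTT_topEquiv`.

* `idLU_subsingleton_Hlc_top S n : Subsingleton (Hlc (famS S) (idURep S) (n + 1))`;
* `idLU_eq_zero_top`, `idLU_eq_zero_of_smul_top` (the shape of `h𝕌` of the (C-W) assembly).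
-/

namespace Fermat.Agent.PT

open CategoryTheory Fermat.Agent.CFT

local notation "Γℚ" => (AlgebraicClosure ℚ ≃ₐ[ℚ] AlgebraicClosure ℚ)

variable (S : Finset Nat.Primes)

/-- `Hlcⁿ⁺¹(Γℚ, 𝕌) = 0` (unrestricted family). -/
theorem idLU_subsingleton_Hlc_top (n : ℕ) : Subsingleton (Hlc (famS S) (idURep S) (n + 1)) := by
  have e := smTT_topEquiv (baseCount_famS_finiteIndex S) (idURep S) (isSmooth_idURep S) (n + 1)
  obtain ⟨U, hU⟩ := (famS S).nonempty
  have hz := idLU_isZero_Hlc (S := S) (V := ⊤) ⟨U, hU, le_top⟩ n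
  haveI := ModuleCat.subsingleton_of_isZero hz
  exact e.injective.subsingleton

theorem idLU_isZero_Hlc_top (n : ℕ) : Limits.IsZero (Hlc (famS S) (idURep S) (n + 1)) :=
  haveI := idLU_subsingleton_Hlc_top S n
  ModuleCat.isZero_of_subsingleton _

theorem idLU_eq_zero_top (n : ℕ) (c : Hlc (famS S) (idURep S) (n + 1)) : c = 0 :=
  (idLU_subsingleton_Hlc_top S n).elim _ _

/-- the shape of `h𝕌` of the (C-W) assembly. -/
theorem idLU_eq_zero_of_smul_top (p : ℕ) (n : ℕ) (c : Hlc (famS S) (idURep S) (n + 1))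
    (_ : p • c = 0) : c = 0 := idLU_eq_zero_top S n c

end Fermat.Agent.PT
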