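/-
S55 engine, (P4)(b2) / (P5)(iii) (helper15): finite-product additivity of level-constant
cohomology, in the "jointly bijective family of maps" form (no product representation needed).

If `p c : M ⟶ N c` (`c` in a finite type) is a family of morphisms of `Rep k G` such that
`m ↦ (p c m)_c` is a bijection `M → ∏ N c`, then
`x ↦ (HlcMap id (p c) x)_c : Hlc 𝔉 M n → ∏ Hlc 𝔉 (N c) n` is bijective (`HlcPiMap_bijective`).
-/
import Fermat.Agent.CFT.PT.SmoothCor
import Fermat.Agent.CFT.PT.Cone

set_option autoImplicit false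

namespace Fermat.Agent.PT

open CategoryTheory groupCohomology Rep

universe u

variable {k G : Type u} [CommRing k] [Group G] (𝔉 : LevelFamily G)

section Assemble

variable {ι : Type*} {M : Rep.{u} k G} {N : ι → Rep.{u} k G} (p : ∀ c, M ⟶ N c)

/-- the combined map on `Hlc`. -/
noncomputable def HlcPiMap (n : ℕ) : Hlc 𝔉 M n →ₗ[k] ∀ c, Hlc 𝔉 (N c) n :=
  LinearMap.pi fun c => (HlcMap (MonoidHom.id G) (p c) 𝔉.compat_id n).hom

theorem HlcPiMap_apply (n : ℕ) (x : Hlc 𝔉 M n) (c : ι) :
    HlcPiMap 𝔉 p n x c = (HlcMap (MonoidHom.id G) (p c) 𝔉.compat_id n).hom x := rfl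

/-- composition of a cochain with a coefficient map. -/
theorem cochainsMap_id_apply {A B : Rep.{u} k G} (φ : A ⟶ B) {n : ℕ} (f : (Fin n → G) → A)
    (g : Fin n → G) : ((cochainsMap (MonoidHom.id G) φ).f n).hom f g = φ.hom (f g) := rfl

variable {p}

/-- a family of cochains assembles to a cochain of `M`. -/
theorem exists_cochain_of_forall [Finite ι]
    (hbij : Function.Bijective (fun (m : M) (c : ι) => (p c).hom m)) {n : ℕ}
    (f : ∀ c, (Fin n → G) → N c) (hf : ∀ c, f c ∈ lcCochains 𝔉 (N c) n) :
    ∃ F ∈ lcCochains 𝔉 M n, ∀ c g, (p c).hom (F g) = f c g := by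
  classical
  have := Fintype.ofFinite ι
  let e := Equiv.ofBijective _ hbij
  have he : ∀ (y : ∀ c, N c) (c : ι), (p c).hom (e.symm y) = y c := fun y c =>
    congrFun (e.apply_symm_apply y) c
  choose U hU hfU using hf
  obtain ⟨W, hW, hWU⟩ := exists_le_of_finset 𝔉.nonempty 𝔉.directed (Finset.univ : Finset ι) U
    (fun c _ => hU c)
  refine ⟨fun g => e.symm fun c => f c g, ⟨W, hW, ?_, ?_⟩, fun c g => he _ c⟩
  · intro g h hgh
    show e.symm _ = e.symm _
    congr 1
    funext c
    exact (hfU c).1 g h fun i => hWU c (Finset.mem_univ c) (hgh i)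
  · intro g u hu
    apply hbij.1
    funext c
    show (p c).hom (M.ρ u (e.symm fun c => f c g)) = (p c).hom (e.symm fun c => f c g)
    rw [Rep.hom_comm_apply (p c) u, he]
    exact (hfU c).2 g u (hWU c (Finset.mem_univ c) hu)

/-- the differential commutes with coefficient maps. -/
theorem hom_d_apply {A B : Rep.{u} k G} (φ : A ⟶ B) {n : ℕ} (f : (Fin n → G) → A)
    (g : Fin (n + 1) → G) :
    φ.hom ((inhomogeneousCochains.d A n).hom f g) =
      (inhomogeneousCochains.d B n).hom (fun x => φ.hom (f x)) g :=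
  congrFun (cochainsMap_d_apply (MonoidHom.id G) φ f) g

/-- **finite-product additivity of `Hlc`**: a jointly bijective finite family of coefficient maps
induces a bijection on level-constant cohomology. -/
theorem HlcPiMap_bijective [Finite ι]
    (hbij : Function.Bijective (fun (m : M) (c : ι) => (p c).hom m)) (n : ℕ) :
    Function.Bijective (HlcPiMap 𝔉 p n) := by
  have hinjp : ∀ {m m' : M}, (∀ c, (p c).hom m = (p c).hom m') → m = m' :=
    fun h => hbij.1 (funext h)
  constructor
  · rw [injective_iff_map_eq_zero]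
    intro x hx
    obtain ⟨m, rfl⟩ := lcπ_surjective 𝔉 M n x
    have hc : ∀ c, IsLcCoboundary 𝔉 (N c) n (((cochainsMap (MonoidHom.id G) (p c)).f n).hom m.1) := by
      intro c
      have h1 := congrFun hx c
      rw [HlcPiMap_apply, HlcMap_lcπ, Pi.zero_apply, lcπ_eq_zero_iff'] at h1
      exact h1
    rw [lcπ_eq_zero_iff']
    cases n with
    | zero =>
      show m.1 = 0
      funext g
      apply hinjp
      intro c
      rw [Pi.zero_apply, map_zero]
      exact congrFun (hc c) g
    | succ n =>
      choose h hh hdh using hc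
      obtain ⟨F, hF, hFh⟩ := exists_cochain_of_forall 𝔉 hbij h hh
      refine ⟨F, hF, ?_⟩
      funext g
      apply hinjp
      intro c
      rw [hom_d_apply]
      have : (fun x => (p c).hom (F x)) = h c := funext fun x => hFh c x
      rw [this, hdh c]
      rfl
  · intro y
    have hy : ∀ c, ∃ m : lcCocycles 𝔉 (N c) n, lcπ 𝔉 (N c) n m = y c :=
      fun c => lcπ_surjective 𝔉 (N c) n (y c)
    choose m hm using hy
    obtain ⟨F, hF, hFm⟩ := exists_cochain_of_forall 𝔉 hbij (fun c => (m c).1) (fun c => (m c).2.1)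
    have hFd : (inhomogeneousCochains.d M n).hom F = 0 := by
      funext g
      apply hinjp
      intro c
      rw [hom_d_apply]
      have : (fun x => (p c).hom (F x)) = (m c).1 := funext fun x => hFm c x
      rw [this, LinearMap.mem_ker.1 (m c).2.2, Pi.zero_apply, Pi.zero_apply, map_zero]
    refine ⟨lcπ 𝔉 M n ⟨F, hF, LinearMap.mem_ker.2 hFd⟩, ?_⟩
    funext c
    rw [HlcPiMap_apply, HlcMap_lcπ, ← hm c]
    congr 1
    apply Subtype.ext
    funext g
    exact hFm c g

end Assemble

end Fermat.Agent.PT
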