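/-
S55 bridge (GB4-J)(J3): level-constant cohomology only sees the smooth vectors.

`smPart 𝔉 A` is the subrepresentation of the `𝔉`-smooth vectors of `A`; the inclusion induces a
bijection on `Hlc 𝔉 · n` for all `n`.  Consequently Shapiro's lemma for smooth coinduction
(`PT/SmoothCoind.lean`) holds for arbitrary (not necessarily smooth) coefficients.
-/
import Fermat.Agent.CFT.PT.SmoothCoind
import Fermat.Agent.CFT.PT.SmoothProd

set_option autoImplicit false

namespace Fermat.Agent.PT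

open CategoryTheory groupCohomology Rep

universe u

variable {k G : Type u} [CommRing k] [Group G]

section Def

variable (𝔉 : LevelFamily G) (A : Rep.{u} k G)

/-- The `𝔉`-smooth vectors of `A`. -/
def smPartV : Submodule k A.V where
  carrier := {a | ∃ U ∈ 𝔉.sets, ∀ u ∈ U, A.ρ u a = a}
  zero_mem' := by
    obtain ⟨U, hU⟩ := 𝔉.nonempty
    exact ⟨U, hU, fun _ _ => map_zero _⟩
  add_mem' := by
    rintro a b ⟨U, hU, ha⟩ ⟨U', hU', hb⟩
    obtain ⟨W, hW, hle⟩ := 𝔉.directed U hU U' hU'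
    exact ⟨W, hW, fun u hu => by rw [map_add, ha u (hle hu).1, hb u (hle hu).2]⟩
  smul_mem' := by
    rintro c a ⟨U, hU, ha⟩
    exact ⟨U, hU, fun u hu => by rw [map_smul, ha u hu]⟩

variable {𝔉 A} in
lemma mem_smPartV {a : A.V} : a ∈ smPartV 𝔉 A ↔ ∃ U ∈ 𝔉.sets, ∀ u ∈ U, A.ρ u a = a := Iff.rfl

lemma smPartV_stable (g : G) {a : A.V} (ha : a ∈ smPartV 𝔉 A) : A.ρ g a ∈ smPartV 𝔉 A := by
  obtain ⟨U, hU, hUa⟩ := ha
  have hn := 𝔉.normal U hU
  refine ⟨U, hU, fun u hu => ?_⟩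
  have h1 : u * g = g * (g⁻¹ * u * g⁻¹⁻¹) := by group
  rw [← Module.End.mul_apply, ← map_mul, h1, map_mul, Module.End.mul_apply,
    hUa _ (hn.conj_mem u hu g⁻¹)]

/-- The representation of `G` on the smooth vectors. -/
def smPartRepresentation : Representation k G (smPartV 𝔉 A) where
  toFun g := (A.ρ g).restrict fun _ ha => smPartV_stable 𝔉 A g ha
  map_one' := by
    ext a
    simp
  map_mul' g h := by
    ext a
    simp

/-- **The smooth part** of a representation. -/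
noncomputable abbrev smPart : Rep.{u} k G := Rep.of (smPartRepresentation 𝔉 A)

/-- the inclusion of the smooth part. -/
noncomputable def smPartIncl : smPart 𝔉 A ⟶ A :=
  Rep.ofHom (ρ := smPartRepresentation 𝔉 A) (σ := A.ρ)
    ⟨(smPartV 𝔉 A).subtype, fun g => by
      ext a
      rfl⟩

lemma smPartIncl_apply (a : smPartV 𝔉 A) : (smPartIncl 𝔉 A).hom a = a.1 := rfl

lemma smPartIncl_injective : Function.Injective (smPartIncl 𝔉 A).hom :=
  fun _ _ h => Subtype.ext h

theorem isSmooth_smPart : IsSmooth 𝔉 (smPart 𝔉 A) := by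
  intro (a : smPartV 𝔉 A)
  obtain ⟨U, hU, hUa⟩ := a.2
  exact ⟨U, hU, fun u hu => Subtype.ext (hUa u hu)⟩

/-- a smooth representation is its own smooth part. -/
theorem smPartIncl_bijective_of_isSmooth (hA : IsSmooth 𝔉 A) :
    Function.Bijective (smPartIncl 𝔉 A).hom :=
  ⟨smPartIncl_injective 𝔉 A, fun a => ⟨⟨a, hA a⟩, rfl⟩⟩

end Def

section Hlc

variable (𝔉 : LevelFamily G) (A : Rep.{u} k G)

/-- a level-constant cochain of `A` takes values in the smooth part. -/
lemma exists_smPart_cochain {n : ℕ} {f : (Fin n → G) → A} (hf : f ∈ lcCochains 𝔉 A n) :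
    ∃ f' : (Fin n → G) → smPart 𝔉 A, f' ∈ lcCochains 𝔉 (smPart 𝔉 A) n ∧
      ∀ g, (smPartIncl 𝔉 A).hom (f' g) = f g := by
  obtain ⟨U, hU, hfU⟩ := hf
  refine ⟨fun g => (⟨f g, U, hU, hfU.2 g⟩ : smPartV 𝔉 A), ⟨U, hU, ?_, ?_⟩, fun g => rfl⟩
  · intro g h hgh
    exact Subtype.ext (hfU.1 g h hgh)
  · intro g u hu
    exact Subtype.ext (hfU.2 g u hu)

/-- an injective coefficient map along which all level-constant cochains lift induces a
bijection on `Hlc`. -/
theorem HlcMap_id_bijective_of_lift {A' : Rep.{u} k G} (φ : A' ⟶ A)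
    (hinj : Function.Injective φ.hom)
    (hlift : ∀ (n : ℕ) (f : (Fin n → G) → A), f ∈ lcCochains 𝔉 A n →
      ∃ f' : (Fin n → G) → A', f' ∈ lcCochains 𝔉 A' n ∧ ∀ g, φ.hom (f' g) = f g) (n : ℕ) :
    Function.Bijective (HlcMap (A := A') (B := A) (MonoidHom.id G) φ 𝔉.compat_id n).hom := by
  constructor
  · rw [injective_iff_map_eq_zero]
    intro x hx
    obtain ⟨c, rfl⟩ := lcπ_surjective 𝔉 A' n x
    rw [HlcMap_lcπ] at hx
    cases n with
    | zero =>
      have h0 := lcπ_zero_injective 𝔉 A (hx.trans (map_zero _).symm)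
      have hc : c = 0 := by
        apply Subtype.ext
        funext g
        apply hinj
        have := congrArg (fun z : lcCocycles 𝔉 A 0 => z.1 g) h0
        exact this.trans (map_zero _).symm
      rw [hc, map_zero]
    | succ m =>
      obtain ⟨b, hb, hbc⟩ := (lcπ_eq_zero_iff 𝔉 A m _).1 hx
      obtain ⟨b', hb', hbb'⟩ := hlift m b hb
      refine (lcπ_eq_zero_iff 𝔉 A' m c).2 ⟨b', hb', ?_⟩
      funext g
      apply hinj
      rw [hom_d_apply]
      have h1 : (fun x => φ.hom (b' x)) = b := funext hbb'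
      rw [h1, hbc]
      rfl
  · intro x
    obtain ⟨c, rfl⟩ := lcπ_surjective 𝔉 A n x
    obtain ⟨c', hc', hcc'⟩ := hlift n c.1 c.2.1
    have hd : (inhomogeneousCochains.d A' n).hom c' = 0 := by
      funext g
      apply hinj
      rw [hom_d_apply]
      have h1 : (fun x => φ.hom (c' x)) = c.1 := funext hcc'
      rw [h1]
      have h2 : (inhomogeneousCochains.d A n).hom c.1 = 0 := c.2.2
      rw [h2]
      exact (map_zero _).symm
    refine ⟨lcπ 𝔉 A' n ⟨c', hc', hd⟩, ?_⟩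
    rw [HlcMap_lcπ]
    congr 1
    apply Subtype.ext
    funext g
    exact hcc' g

/-- **`Hlc` only sees the smooth part.** -/
theorem HlcMap_smPartIncl_bijective (n : ℕ) :
    Function.Bijective
      (HlcMap (A := smPart 𝔉 A) (B := A) (MonoidHom.id G) (smPartIncl 𝔉 A) 𝔉.compat_id n).hom :=
  HlcMap_id_bijective_of_lift 𝔉 A (smPartIncl 𝔉 A) (smPartIncl_injective 𝔉 A)
    (fun _ _ hf => exists_smPart_cochain 𝔉 A hf) n

/-- a bijective coefficient map induces a bijection on `Hlc`. -/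
theorem HlcMap_id_bijective_of_bijective {A' : Rep.{u} k G} (φ : A' ⟶ A)
    (hφ : Function.Bijective φ.hom) (n : ℕ) :
    Function.Bijective (HlcMap (A := A') (B := A) (MonoidHom.id G) φ 𝔉.compat_id n).hom := by
  refine HlcMap_id_bijective_of_lift 𝔉 A φ hφ.1 (fun m f hf => ?_) n
  obtain ⟨U, hU, hfU⟩ := hf
  choose f' hf' using fun g => hφ.2 (f g)
  refine ⟨f', ⟨U, hU, ?_, ?_⟩, hf'⟩
  · intro g h hgh
    apply hφ.1
    rw [hf', hf', hfU.1 g h hgh]
  · intro g u hu
    apply hφ.1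
    rw [Rep.hom_comm_apply, hf', hfU.2 g u hu]

end Hlc

/-! ### Shapiro's lemma for arbitrary coefficients -/

section ShapiroGeneral

variable {H : Type u} [Group H] (ψ : H →* G) (𝔉 : LevelFamily G) (B : Rep.{u} k H)

/-- the values of a smooth coinduced function are smooth vectors for the pulled-back family. -/
lemma smCoind_apply_mem_smPartV (f : smCoindV ψ 𝔉 B) (g : G) :
    f.1 g ∈ smPartV (𝔉.comap ψ) B := by
  obtain ⟨U, hU, hfU⟩ := f.2.2
  have hn := 𝔉.normal U hU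
  refine ⟨U.comap ψ, ⟨U, hU, rfl⟩, fun h hh => ?_⟩
  rw [← smCoind_apply_map_mul f h g]
  have h1 : ψ h * g = g * (g⁻¹ * ψ h * g⁻¹⁻¹) := by group
  rw [h1]
  exact hfU _ _ (hn.conj_mem (ψ h) hh g⁻¹)

/-- smooth coinduction only depends on the smooth part of the coefficients. -/
theorem smCoindMap_smPartIncl_bijective :
    Function.Bijective (smCoindMap ψ 𝔉 (smPartIncl (𝔉.comap ψ) B)).hom := by
  constructor
  · intro (f : smCoindV ψ 𝔉 (smPart (𝔉.comap ψ) B)) (f' : smCoindV ψ 𝔉 (smPart (𝔉.comap ψ) B)) h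
    apply smCoind_ext
    intro g
    apply smPartIncl_injective (𝔉.comap ψ) B
    exact congrArg (fun F : smCoindV ψ 𝔉 B => F.1 g) h
  · intro (f : smCoindV ψ 𝔉 B)
    have hmem : (fun g => (⟨f.1 g, smCoind_apply_mem_smPartV ψ 𝔉 B f g⟩ :
        smPartV (𝔉.comap ψ) B)) ∈ smCoindV ψ 𝔉 (smPart (𝔉.comap ψ) B) := by
      obtain ⟨U, hU, hfU⟩ := f.2.2
      refine ⟨fun h g => Subtype.ext ?_, U, hU, fun g u hu => Subtype.ext (hfU g u hu)⟩
      exact smCoind_apply_map_mul f h g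
    exact ⟨⟨_, hmem⟩, smCoind_ext fun g => rfl⟩

variable {ψ 𝔉}

/-- **Shapiro's lemma for smooth coinduction, arbitrary coefficients.** -/
theorem smShap_bijective' (hfin : 𝔉.FiniteIndex) (n : ℕ) (B : Rep.{u} k H) :
    Function.Bijective (smShap ψ 𝔉 B n).hom := by
  have h1 := smShap_bijective (ψ := ψ) hfin n (smPart (𝔉.comap ψ) B)
    (isSmooth_smPart (𝔉.comap ψ) B)
  have h2 := HlcMap_smPartIncl_bijective (𝔉.comap ψ) B n
  have h3 := HlcMap_id_bijective_of_bijective 𝔉 _ (smCoindMap ψ 𝔉 (smPartIncl (𝔉.comap ψ) B))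
    (smCoindMap_smPartIncl_bijective ψ 𝔉 B) n
  have hnat := smShap_naturality ψ 𝔉 (smPartIncl (𝔉.comap ψ) B) n
  constructor
  · intro x y hxy
    obtain ⟨x', rfl⟩ := h3.2 x
    obtain ⟨y', rfl⟩ := h3.2 y
    rw [hnat, hnat] at hxy
    rw [h1.1 (h2.1 hxy)]
  · intro z
    obtain ⟨z', rfl⟩ := h2.2 z
    obtain ⟨w, rfl⟩ := h1.2 z'
    exact ⟨_, hnat w⟩

/-- Shapiro's lemma for smooth coinduction (arbitrary coefficients) as a linear equivalence. -/
noncomputable def smShapEquiv' (hfin : 𝔉.FiniteIndex) (B : Rep.{u} k H) (n : ℕ) :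
    Hlc 𝔉 (smCoind ψ 𝔉 B) n ≃ₗ[k] Hlc (𝔉.comap ψ) B n :=
  LinearEquiv.ofBijective (smShap ψ 𝔉 B n).hom (smShap_bijective' hfin n B)

@[simp] lemma smShapEquiv'_apply (hfin : 𝔉.FiniteIndex) (B : Rep.{u} k H) (n : ℕ)
    (x : Hlc 𝔉 (smCoind ψ 𝔉 B) n) :
    smShapEquiv' hfin B n x = (smShap ψ 𝔉 B n).hom x := rfl

end ShapiroGeneral

end Fermat.Agent.PT
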