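/-
S55 bridge (GB4-J)(J6-abs): cohomology of a module which is a finite product of smooth coinductions.

For a `LocSystem 𝔏` over `(G, 𝔉)` with finite index set, local modules `B x : Rep k (𝔏.Gv x)` and a
smooth `J : Rep k G` together with a jointly bijective family `θ x : J ⟶ smCoind (𝔏.ψ x) 𝔉 (B x)`
("`J` is the module of `S`-ideles"), the localisation maps
`lamv x : res (𝔏.ψ x) J ⟶ B x`, `a ↦ θ x a 1`, induce a linear equivalence
`Hlc 𝔉 J n ≃ ∏ₓ Hlc (𝔉.comap (𝔏.ψ x)) (B x) n` (Shapiro + finite products), and the maps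
`HlcMap (𝔏.ψ x) (lamv x) (𝔏.compat x)` to the local cohomology for the full local families
`𝔏.fam x` factor through it.  The contracts (A2), (A3), (A4) of `PT/TopChaseHlc.lean` follow from
the corresponding local statements.
-/
import Fermat.Agent.CFT.PT.SmoothPart
import Fermat.Agent.CFT.PT.SmoothProd

set_option autoImplicit false

namespace Fermat.Agent.PT

open CategoryTheory groupCohomology Rep

universe u

variable {k G : Type u} [CommRing k] [Group G] {𝔉 : LevelFamily G}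

section Lam

variable {H : Type u} [Group H] (ψ : H →* G) {J : Rep.{u} k G} {B : Rep.{u} k H}
  (θ : J ⟶ smCoind ψ 𝔉 B)

/-- the localisation map `res ψ J ⟶ B`, `a ↦ θ a 1`. -/
noncomputable def smTopLam : res ψ J ⟶ B :=
  Rep.ofHom (ρ := (res ψ J).ρ) (σ := B.ρ)
    ⟨{ toFun := fun a => ((θ.hom a : smCoindV ψ 𝔉 B)).1 1
       map_add' := fun a b => by
         rw [map_add]
         rfl
       map_smul' := fun c a => by
         rw [map_smul]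
         rfl }, fun h => by
      ext (a : J.V)
      show ((θ.hom (J.ρ (ψ h) a) : smCoindV ψ 𝔉 B)).1 1 =
        B.ρ h (((θ.hom a : smCoindV ψ 𝔉 B)).1 1)
      rw [Rep.hom_comm_apply θ (ψ h) a, smCoind_ρ_apply, one_mul,
        ← smCoind_apply_map_mul (θ.hom a) h 1, mul_one]⟩

lemma smTopLam_apply (a : J.V) :
    (smTopLam ψ θ).hom a = ((θ.hom a : smCoindV ψ 𝔉 B)).1 1 := rfl

/-- `HlcMap ψ (smTopLam ψ θ)` is the Shapiro map after `θ`. -/
theorem HlcMap_smTopLam (n : ℕ) (y : Hlc 𝔉 J n) :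
    (HlcMap ψ (smTopLam ψ θ) (𝔉.compat_comap ψ) n).hom y =
      (smShap ψ 𝔉 B n).hom ((HlcMap (MonoidHom.id G) θ 𝔉.compat_id n).hom y) := by
  obtain ⟨c, rfl⟩ := lcπ_surjective 𝔉 J n y
  rw [smShap, HlcMap_lcπ, HlcMap_lcπ, HlcMap_lcπ]
  rfl

end Lam

section Top

variable (𝔏 : LocSystem 𝔉) [Finite 𝔏.ι] {J : Rep.{u} k G}
  {B : ∀ x : 𝔏.ι, Rep.{u} k (𝔏.Gv x)}
  (θ : ∀ x, J ⟶ smCoind (𝔏.ψ x) 𝔉 (B x))

/-- the total localisation map for the pulled-back families. -/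
noncomputable def smTopMap (n : ℕ) :
    Hlc 𝔉 J n →ₗ[k] ∀ x : 𝔏.ι, Hlc (𝔉.comap (𝔏.ψ x)) (B x) n :=
  LinearMap.pi fun x =>
    (HlcMap (𝔏.ψ x) (smTopLam (𝔏.ψ x) (θ x)) (𝔉.compat_comap (𝔏.ψ x)) n).hom

lemma smTopMap_apply (n : ℕ) (y : Hlc 𝔉 J n) (x : 𝔏.ι) :
    smTopMap 𝔏 θ n y x =
      (HlcMap (𝔏.ψ x) (smTopLam (𝔏.ψ x) (θ x)) (𝔉.compat_comap (𝔏.ψ x)) n).hom y := rfl

variable (hfin : 𝔉.FiniteIndex)
  (hθ : Function.Bijective (fun (a : J.V) (x : 𝔏.ι) => (θ x).hom a))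

include hfin hθ in
/-- **Shapiro + finite products**: `Hlc 𝔉 J n ≃ ∏ₓ Hlc (𝔉.comap ψₓ) (B x) n`. -/
theorem smTopMap_bijective (n : ℕ) : Function.Bijective (smTopMap 𝔏 θ n) := by
  have h1 := HlcPiMap_bijective 𝔉 (p := θ) hθ n
  have h2 : ∀ x, Function.Bijective (smShap (𝔏.ψ x) 𝔉 (B x) n).hom := fun x =>
    smShap_bijective' hfin n (B x)
  have hform : ∀ y x, smTopMap 𝔏 θ n y x =
      (smShap (𝔏.ψ x) 𝔉 (B x) n).hom (HlcPiMap 𝔉 θ n y x) := fun y x =>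
    HlcMap_smTopLam (𝔏.ψ x) (θ x) n y
  constructor
  · intro y y' hyy'
    apply h1.1
    funext x
    apply (h2 x).1
    rw [← hform, ← hform, hyy']
  · intro z
    choose w hw using fun x => (h2 x).2 (z x)
    obtain ⟨y, hy⟩ := h1.2 w
    refine ⟨y, funext fun x => ?_⟩
    rw [hform, hy, hw]

/-- the equivalence `Hlc 𝔉 J n ≃ ∏ₓ Hlc (𝔉.comap ψₓ) (B x) n`. -/
noncomputable def smTopEquiv (n : ℕ) :
    Hlc 𝔉 J n ≃ₗ[k] ∀ x : 𝔏.ι, Hlc (𝔉.comap (𝔏.ψ x)) (B x) n :=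
  LinearEquiv.ofBijective (smTopMap 𝔏 θ n) (smTopMap_bijective 𝔏 θ hfin hθ n)

/-! ### Change of the local families -/

/-- the pulled-back family is coarser than the local family. -/
theorem LocSystem.compat_id_comap (x : 𝔏.ι) :
    (𝔏.fam x).Compat (MonoidHom.id (𝔏.Gv x)) (𝔉.comap (𝔏.ψ x)) := by
  rintro W ⟨U, hU, rfl⟩
  obtain ⟨V, hV, hVU⟩ := 𝔏.compat x U hU
  exact ⟨V, hV, hVU⟩

/-- change of family on the local cohomology: from the pulled-back family to the local one. -/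
noncomputable def smTopFam (x : 𝔏.ι) (A : Rep.{u} k (𝔏.Gv x)) (n : ℕ) :
    Hlc (𝔉.comap (𝔏.ψ x)) A n →ₗ[k] Hlc (𝔏.fam x) A n :=
  (HlcMap (A := A) (B := A) (MonoidHom.id (𝔏.Gv x)) (𝟙 A) (𝔏.compat_id_comap x) n).hom

/-- the localisation maps for the full local families factor through `smTopMap`. -/
theorem HlcMap_smTopLam_fam (n : ℕ) (y : Hlc 𝔉 J n) (x : 𝔏.ι) :
    (HlcMap (𝔏.ψ x) (smTopLam (𝔏.ψ x) (θ x)) (𝔏.compat x) n).hom y =
      smTopFam 𝔏 x (B x) n (smTopMap 𝔏 θ n y x) := by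
  obtain ⟨c, rfl⟩ := lcπ_surjective 𝔉 J n y
  rw [smTopMap_apply, smTopFam, HlcMap_lcπ, HlcMap_lcπ, HlcMap_lcπ]
  rfl

end Top

/-! ### The contracts (A2), (A3), (A4) from local statements -/

section Contracts

variable (𝔏 : LocSystem 𝔉) [Finite 𝔏.ι] {J : Rep.{u} k G}
  {B : ∀ x : 𝔏.ι, Rep.{u} k (𝔏.Gv x)}
  (θ : ∀ x, J ⟶ smCoind (𝔏.ψ x) 𝔉 (B x)) (hfin : 𝔉.FiniteIndex)
  (hθ : Function.Bijective (fun (a : J.V) (x : 𝔏.ι) => (θ x).hom a))

include hfin hθ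

/-- vanishing transfers: `Hlcⁿ(J) = 0` if all `Hlcⁿ(Gₓ, B x)` (pulled-back families) vanish. -/
theorem smTop_subsingleton (n : ℕ)
    (h : ∀ x, Subsingleton (Hlc (𝔉.comap (𝔏.ψ x)) (B x) n)) : Subsingleton (Hlc 𝔉 J n) :=
  (smTopEquiv 𝔏 θ hfin hθ n).toEquiv.subsingleton

/-- torsion-freeness transfers. -/
theorem smTop_eq_zero_of_smul_eq_zero (r : k) (n : ℕ)
    (h : ∀ x, ∀ z : Hlc (𝔉.comap (𝔏.ψ x)) (B x) n, r • z = 0 → z = 0)
    (y : Hlc 𝔉 J n) (hy : r • y = 0) : y = 0 := by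
  apply (smTopMap_bijective 𝔏 θ hfin hθ n).1
  rw [map_zero]
  funext x
  apply h x
  rw [← Pi.smul_apply, ← map_smul, hy, map_zero]
  rfl

/-- divisibility transfers. -/
theorem smTop_exists_smul_eq (r : k) (n : ℕ)
    (h : ∀ x, ∀ z : Hlc (𝔉.comap (𝔏.ψ x)) (B x) n, ∃ z', r • z' = z)
    (y : Hlc 𝔉 J n) : ∃ y', r • y' = y := by
  choose w hw using fun x => h x (smTopMap 𝔏 θ n y x)
  obtain ⟨y', hy'⟩ := (smTopMap_bijective 𝔏 θ hfin hθ n).2 w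
  refine ⟨y', (smTopMap_bijective 𝔏 θ hfin hθ n).1 ?_⟩
  rw [map_smul, hy']
  funext x
  exact hw x

/-- **(A4), injectivity**: a class of `Hlcⁿ(J)` killed by `r` and by all localisation maps
vanishes, if the change of family is injective on `r`-torsion. -/
theorem smTop_eq_zero_of_lam_eq_zero (r : k) (n : ℕ)
    (h : ∀ x, ∀ z : Hlc (𝔉.comap (𝔏.ψ x)) (B x) n, r • z = 0 →
      smTopFam 𝔏 x (B x) n z = 0 → z = 0)
    (y : Hlc 𝔉 J n) (hy : r • y = 0)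
    (hlam : ∀ x, (HlcMap (𝔏.ψ x) (smTopLam (𝔏.ψ x) (θ x)) (𝔏.compat x) n).hom y = 0) :
    y = 0 := by
  apply (smTopMap_bijective 𝔏 θ hfin hθ n).1
  rw [map_zero]
  funext x
  apply h x
  · rw [← Pi.smul_apply, ← map_smul, hy, map_zero]
    rfl
  · rw [← HlcMap_smTopLam_fam]
    exact hlam x

/-- **(A4), surjectivity**: every family of local `r`-torsion classes (full local families) comes
from an `r`-torsion class of `Hlcⁿ(J)`, if this holds place by place for the change of family. -/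
theorem smTop_exists_lam_eq (r : k) (n : ℕ)
    (h : ∀ x, ∀ l : Hlc (𝔏.fam x) (B x) n, r • l = 0 →
      ∃ z : Hlc (𝔉.comap (𝔏.ψ x)) (B x) n, r • z = 0 ∧ smTopFam 𝔏 x (B x) n z = l)
    (l : ∀ x, Hlc (𝔏.fam x) (B x) n) (hl : ∀ x, r • l x = 0) :
    ∃ y : Hlc 𝔉 J n, r • y = 0 ∧
      ∀ x, (HlcMap (𝔏.ψ x) (smTopLam (𝔏.ψ x) (θ x)) (𝔏.compat x) n).hom y = l x := by
  choose z hz1 hz2 using fun x => h x (l x) (hl x)
  obtain ⟨y, hy⟩ := (smTopMap_bijective 𝔏 θ hfin hθ n).2 z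
  refine ⟨y, (smTopMap_bijective 𝔏 θ hfin hθ n).1 ?_, fun x => ?_⟩
  · rw [map_smul, hy, map_zero]
    funext x
    exact hz1 x
  · rw [HlcMap_smTopLam_fam, hy, hz2]

end Contracts

end Fermat.Agent.PT
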