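/-
S55 bridge (GB4-J)(J8): the dictionary between the tensor model of the `S`-ideles
(units of `F_q ⊗[ℚ] Qb`, `F_q ≅ ℚ_q`, of some finite level unramified outside `S`) and the
engine-native model (smooth coinduction of the units of `PadicAlgCl q`), on units, as morphisms of
representations; from the ring-level dictionary `Bridge/ThetaTop.lean`.
-/
import Fermat.Agent.CFT.Bridge.ThetaTop
import Fermat.Agent.CFT.PT.SmoothCoindLocal
import Fermat.Agent.CFT.PT.SmoothCoindTop
import Fermat.Agent.CFT.PT.Contracts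
import Fermat.Agent.CFT.PT.TopRestrict

set_option autoImplicit false
set_option linter.unusedSectionVars false

namespace Fermat.Agent.PT

open CategoryTheory groupCohomology Rep Fermat.Agent.CFT ExtCitation
open scoped TensorProduct

local notation "Qb" => AlgebraicClosure ℚ
local notation "Γℚ" => (AlgebraicClosure ℚ ≃ₐ[ℚ] AlgebraicClosure ℚ)

local instance idTh_isAlgebraicQbar : Algebra.IsAlgebraic ℚ (AlgebraicClosure ℚ) :=
  AlgebraicClosure.isAlgebraic ℚ
local instance idTh_isAlgClosureQbar : IsAlgClosure ℚ (AlgebraicClosure ℚ) :=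
  ⟨inferInstance, inferInstance⟩
local instance idTh_isGaloisQbar : IsGalois ℚ (AlgebraicClosure ℚ) where

/-- an additive map is linear over a ring all of whose elements are integers (used for `ℤ` with
arbitrary module structures). -/
theorem idTh_map_int_smul {R M N : Type*} [Ring R] [AddCommGroup M] [AddCommGroup N] [Module R M]
    [Module R N] (hR : ∀ r : R, ∃ n : ℤ, (n : R) = r) (φ : M →+ N) (r : R) (a : M) :
    φ (r • a) = r • φ a := by
  obtain ⟨n, rfl⟩ := hR r
  exact map_intCast_smul φ R R n a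

/-! ### The unit-level dictionary at one prime -/

section Core

variable (q : ℕ) [Fact q.Prime]

local instance idTh_isGaloisPadicAlgCl : IsGalois ℚ_[q] (PadicAlgCl q) where

variable (F : Type) [Field F] [Algebra ℚ F] [Algebra F (PadicAlgCl q)]
  [IsScalarTower ℚ F (PadicAlgCl q)]

/-- the action of `Γℚ` on the units of `F ⊗[ℚ] Qb` through the second factor. -/
noncomputable def idThAct (g : Γℚ) : (F ⊗[ℚ] Qb)ˣ →* (F ⊗[ℚ] Qb)ˣ :=
  Units.map (Algebra.TensorProduct.map (AlgHom.id F F) (g : Qb →ₐ[ℚ] Qb)).toMonoidHom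

/-- `θ` on units: `t ↦ (g ↦ θ t g)`. -/
noncomputable def idTh (t : (F ⊗[ℚ] Qb)ˣ) (g : Γℚ) : (PadicAlgCl q)ˣ :=
  Units.map ((Pi.evalMonoidHom (fun _ : Γℚ => PadicAlgCl q) g).comp
    (thT_theta (F := F) (padicEmbedding q)).toMonoidHom) t

theorem idTh_coe (t : (F ⊗[ℚ] Qb)ˣ) (g : Γℚ) :
    (idTh q F t g : PadicAlgCl q) = thT_theta (F := F) (padicEmbedding q) (t : F ⊗[ℚ] Qb) g :=
  rfl

/-- the value of `θ` on a unit which is a pure tensor. -/
theorem idTh_coe_of_tmul (t : (F ⊗[ℚ] Qb)ˣ) (x : F) (y : Qb)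
    (ht : (t : F ⊗[ℚ] Qb) = x ⊗ₜ[ℚ] y) (g : Γℚ) :
    (idTh q F t g : PadicAlgCl q) = algebraMap F (PadicAlgCl q) x * padicEmbedding q (g y) := by
  rw [idTh_coe, ht, thT_theta_tmul]

/-- the value of `θ` on the diagonal image of a unit of `Qb`. -/
theorem idTh_coe_of_one_tmul (t : (F ⊗[ℚ] Qb)ˣ) (y : Qb)
    (ht : (t : F ⊗[ℚ] Qb) = (1 : F) ⊗ₜ[ℚ] y) (g : Γℚ) :
    (idTh q F t g : PadicAlgCl q) = padicEmbedding q (g y) := by
  rw [idTh_coe_of_tmul q F t 1 y ht, map_one, one_mul]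

theorem idTh_mul (t t' : (F ⊗[ℚ] Qb)ˣ) (g : Γℚ) :
    idTh q F (t * t') g = idTh q F t g * idTh q F t' g := by
  unfold idTh
  rw [map_mul]

theorem idTh_one (g : Γℚ) : idTh q F 1 g = 1 := by
  unfold idTh
  rw [map_one]

/-- the action of `g₀` is right translation. -/
theorem idTh_act (g₀ : Γℚ) (t : (F ⊗[ℚ] Qb)ˣ) (g : Γℚ) :
    idTh q F (idThAct F g₀ t) g = idTh q F t (g * g₀) := by
  apply Units.ext
  rw [idTh_coe, idTh_coe]
  exact thT_theta_map_smul (F := F) (padicEmbedding q) g₀ (t : F ⊗[ℚ] Qb) g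

theorem idTh_injective : Function.Injective (idTh q F) := by
  intro t t' h
  apply Units.ext
  apply thT_theta_injective (F := F) (padicEmbedding q)
  funext g
  rw [← idTh_coe, ← idTh_coe, h]

variable (hFr : ∀ z : PadicAlgCl q,
  z ∈ (algebraMap F (PadicAlgCl q)).range ↔ z ∈ (algebraMap ℚ_[q] (PadicAlgCl q)).range)

include hFr

theorem idTh_hF (h : PadicAlgCl q ≃ₐ[ℚ_[q]] PadicAlgCl q) (x : F) :
    h • algebraMap F (PadicAlgCl q) x = algebraMap F (PadicAlgCl q) x := by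
  obtain ⟨y, hy⟩ := (hFr _).1 ⟨x, rfl⟩
  rw [← hy]
  exact h.commutes y

theorem idTh_hfix (z : PadicAlgCl q)
    (hz : ∀ h : PadicAlgCl q ≃ₐ[ℚ_[q]] PadicAlgCl q, h • z = z) :
    z ∈ (algebraMap F (PadicAlgCl q)).range := by
  rw [hFr]
  obtain ⟨y, hy⟩ := (InfiniteGalois.mem_range_algebraMap_iff_fixed (k := ℚ_[q]) z).2 hz
  exact ⟨y, hy⟩

omit hFr in
theorem idTh_hψ (h : PadicAlgCl q ≃ₐ[ℚ_[q]] PadicAlgCl q) (y : Qb) :
    padicEmbedding q (localGaloisToGlobal q h y) = h • padicEmbedding q y :=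
  padicEmbedding_localGaloisToGlobal q h y

/-- equivariance for the local Galois group. -/
theorem idTh_equivariant (t : (F ⊗[ℚ] Qb)ˣ) (h : PadicAlgCl q ≃ₐ[ℚ_[q]] PadicAlgCl q) (g : Γℚ) :
    idTh q F t (localGaloisToGlobal q h * g) = h • idTh q F t g := by
  apply Units.ext
  rw [idTh_coe]
  exact thT_theta_equivariant (F := F) (padicEmbedding q) (localGaloisToGlobal q)
    (idTh_hF q F hFr) (idTh_hψ q) (t : F ⊗[ℚ] Qb) h g

omit hFr in
/-- invariance under `u` ⇔ right invariance of `θ t` under `u`. -/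
theorem idTh_act_eq_iff (t : (F ⊗[ℚ] Qb)ˣ) (u : Γℚ) :
    idThAct F u t = t ↔ ∀ g, idTh q F t (g * u) = idTh q F t g := by
  constructor
  · intro h g
    rw [← idTh_act, h]
  · intro h
    apply idTh_injective q F
    funext g
    rw [idTh_act, h]

/-- surjectivity: an equivariant function, right invariant under a level of `famS S`, is `θ t`. -/
theorem idTh_exists (S : Finset Nat.Primes) (f : Γℚ → (PadicAlgCl q)ˣ)
    (hf1 : ∀ (h : PadicAlgCl q ≃ₐ[ℚ_[q]] PadicAlgCl q) g,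
      f (localGaloisToGlobal q h * g) = h • f g)
    (hf2 : ∃ U ∈ (famS S).sets, ∀ g, ∀ u ∈ U, f (g * u) = f g) :
    ∃ t : (F ⊗[ℚ] Qb)ˣ, idTh q F t = f := by
  obtain ⟨U, ⟨K, hK, hn, rfl⟩, hf2⟩ := hf2
  have := hK.1
  have hgal := (InfiniteGalois.normal_iff_isGalois K).1 hn
  obtain ⟨t, ht, -⟩ := thT_existsUnique_unit (F := F) (padicEmbedding q) (localGaloisToGlobal q)
    (idTh_hF q F hFr) (idTh_hψ q) (idTh_hfix q F hFr) K f
    (fun h g => by rw [hf1]; rfl) hf2
  exact ⟨t, funext fun g => Units.ext (ht g)⟩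

end Core

/-! ### The morphisms `θ_q : J ⟶ smCoind ψ_q (famS S) (units of PadicAlgCl q)` -/

section Interface

variable (S : Finset Nat.Primes)

local instance idTh_fact (q : Nat.Primes) : Fact ((q : ℕ).Prime) := ⟨q.2⟩

variable (F : ↥S → Type) [∀ q, Field (F q)] [∀ q, Algebra ℚ (F q)]
  [∀ q : ↥S, Algebra (F q) (PadicAlgCl (q.1 : ℕ))]
  [∀ q : ↥S, IsScalarTower ℚ (F q) (PadicAlgCl (q.1 : ℕ))]
  (hFr : ∀ (q : ↥S) (z : PadicAlgCl (q.1 : ℕ)),
    z ∈ (algebraMap (F q) (PadicAlgCl (q.1 : ℕ))).range ↔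
      z ∈ (algebraMap ℚ_[(q.1 : ℕ)] (PadicAlgCl (q.1 : ℕ))).range)
  (J : Rep.{0} ℤ Γℚ) (hJ : IsSmooth (famS S) J)
  (c : ∀ q : ↥S, J.V →+ Additive (F q ⊗[ℚ] Qb)ˣ)
  (hc_act : ∀ (q : ↥S) (g : Γℚ) (a : J.V),
    c q (J.ρ g a) = Additive.ofMul (idThAct (F q) g (c q a).toMul))

/-- the function `g ↦ θ (c_q a) g`. -/
noncomputable def idThetaFun (q : ↥S) (a : J.V) : Γℚ → (smLoc_units q.1).V :=
  fun g => Additive.ofMul (idTh (q.1 : ℕ) (F q) (c q a).toMul g)

include hFr hJ hc_act in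
theorem idThetaFun_mem (q : ↥S) (a : J.V) :
    idThetaFun S F J c q a ∈ smCoindV ((locS S).ψ q) (famS S) (smLoc_units q.1) := by
  refine ⟨fun h g => ?_, ?_⟩
  · exact congrArg Additive.ofMul
      (idTh_equivariant (q.1 : ℕ) (F q) (hFr q) (c q a).toMul h g)
  · obtain ⟨U, hU, hUa⟩ := hJ a
    refine ⟨U, hU, fun g u hu => ?_⟩
    have h1 : idThAct (F q) u (c q a).toMul = (c q a).toMul := by
      have h2 := hc_act q u a
      rw [hUa u hu] at h2
      exact (congrArg Additive.toMul h2).symm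
    exact congrArg Additive.ofMul
      ((idTh_act_eq_iff (q.1 : ℕ) (F q) (c q a).toMul u).1 h1 g)

/-- `a ↦ (g ↦ θ (c_q a) g)` as an additive map into the smooth coinduction. -/
noncomputable def idThetaAdd (q : ↥S) :
    J.V →+ smCoindV ((locS S).ψ q) (famS S) (smLoc_units q.1) where
  toFun a := ⟨idThetaFun S F J c q a, idThetaFun_mem S F hFr J hJ c hc_act q a⟩
  map_zero' := by
    apply Subtype.ext
    funext g
    show Additive.ofMul (idTh (q.1 : ℕ) (F q) (c q 0).toMul g) = 0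
    rw [map_zero, toMul_zero, idTh_one]
    rfl
  map_add' a b := by
    apply Subtype.ext
    funext g
    show Additive.ofMul (idTh (q.1 : ℕ) (F q) (c q (a + b)).toMul g) =
      Additive.ofMul (idTh (q.1 : ℕ) (F q) (c q a).toMul g) +
        Additive.ofMul (idTh (q.1 : ℕ) (F q) (c q b).toMul g)
    rw [map_add, toMul_add, idTh_mul]
    rfl

/-- **the dictionary morphisms** `θ_q`. -/
noncomputable def idTheta (q : ↥S) :
    J ⟶ smCoind ((locS S).ψ q) (famS S) (smLoc_units q.1) :=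
  topMkHom (A := J) (B := smCoind ((locS S).ψ q) (famS S) (smLoc_units q.1))
    (fun a => idThetaAdd S F hFr J hJ c hc_act q a)
    (fun a b => map_add (idThetaAdd S F hFr J hJ c hc_act q) a b)
    (fun n a => @idTh_map_int_smul ℤ _ _ _ _ _ J.hV2
      (smCoind ((locS S).ψ q) (famS S) (smLoc_units q.1)).hV2 (fun r => ⟨r, Int.cast_id⟩)
      (idThetaAdd S F hFr J hJ c hc_act q) n a)
    (fun g₀ a => by
      apply Subtype.ext
      funext g
      show Additive.ofMul (idTh (q.1 : ℕ) (F q) (c q (J.ρ g₀ a)).toMul g) =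
        Additive.ofMul (idTh (q.1 : ℕ) (F q) (c q a).toMul (g * g₀))
      rw [hc_act, toMul_ofMul, idTh_act])

theorem idTheta_apply (q : ↥S) (a : J.V) (g : Γℚ) :
    ((idTheta S F hFr J hJ c hc_act q).hom a :
      smCoindV ((locS S).ψ q) (famS S) (smLoc_units q.1)).1 g =
      Additive.ofMul (idTh (q.1 : ℕ) (F q) (c q a).toMul g) := rfl

/-- the localisation map attached to `θ_q` (the `lamv` of a `TopDatum`): `a ↦ θ (c_q a) 1`. -/
theorem idTheta_smTopLam_apply (q : ↥S) (a : J.V) :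
    (smTopLam ((locS S).ψ q) (idTheta S F hFr J hJ c hc_act q)).hom a =
      Additive.ofMul (idTh (q.1 : ℕ) (F q) (c q a).toMul 1) := rfl

/-- on the diagonal image of `e : Qbˣ` the localisation map is `e ↦ ι_q e`. -/
theorem idTheta_smTopLam_of_one_tmul (q : ↥S) (a : J.V) (y : Qbˣ)
    (ha : (((c q a).toMul : (F q ⊗[ℚ] Qb)ˣ) : F q ⊗[ℚ] Qb) = (1 : F q) ⊗ₜ[ℚ] (y : Qb)) :
    (smTopLam ((locS S).ψ q) (idTheta S F hFr J hJ c hc_act q)).hom a =
      Additive.ofMul (Units.map (padicEmbedding (q.1 : ℕ)).toMonoidHom y) := by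
  rw [idTheta_smTopLam_apply]
  congr 1
  apply Units.ext
  rw [idTh_coe_of_one_tmul (q.1 : ℕ) (F q) _ (y : Qb) ha]
  rfl

variable (hc_inj : ∀ a a' : J.V, (∀ q, c q a = c q a') → a = a')
  (hc_surj : ∀ t : ∀ q : ↥S, (F q ⊗[ℚ] Qb)ˣ,
    (∃ U ∈ (famS S).sets, ∀ q, ∀ u ∈ U, idThAct (F q) u (t q) = t q) →
      ∃ a : J.V, ∀ q, c q a = Additive.ofMul (t q))

include hc_inj hc_surj in
/-- **joint bijectivity** of the `θ_q`, `q ∈ S`. -/
theorem idTheta_bijective :
    Function.Bijective (fun (a : J.V) (q : ↥S) => (idTheta S F hFr J hJ c hc_act q).hom a) := by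
  constructor
  · intro a a' h
    apply hc_inj
    intro q
    have h1 := congrFun h q
    have h2 : (c q a).toMul = (c q a').toMul := by
      apply idTh_injective (q.1 : ℕ) (F q)
      funext g
      have h3 := congrArg (fun f : smCoindV ((locS S).ψ q) (famS S) (smLoc_units q.1) => f.1 g) h1
      exact congrArg Additive.toMul h3
    exact congrArg Additive.ofMul h2
  · intro f
    have hex : ∀ q : ↥S, ∃ t : (F q ⊗[ℚ] Qb)ˣ,
        idTh (q.1 : ℕ) (F q) t = fun g => ((f q).1 g).toMul := by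
      intro q
      obtain ⟨U, hU, hUf⟩ := (f q).2.2
      exact idTh_exists (q.1 : ℕ) (F q) (hFr q) S (fun g => ((f q).1 g).toMul)
        (fun h g => congrArg Additive.toMul ((f q).2.1 h g))
        ⟨U, hU, fun g u hu => congrArg Additive.toMul (hUf g u hu)⟩
    choose t ht using hex
    choose U hU hUf using fun q : ↥S => (f q).2.2
    obtain ⟨W, hW, hWle⟩ := exists_le_of_finset (famS S).nonempty (famS S).directed
      (Finset.univ : Finset ↥S) U (fun q _ => hU q)
    obtain ⟨a, ha⟩ := hc_surj t ⟨W, hW, fun q u hu => by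
      rw [idTh_act_eq_iff (q.1 : ℕ) (F q)]
      intro g
      rw [ht q]
      exact congrArg Additive.toMul (hUf q g u (hWle q (Finset.mem_univ q) hu))⟩
    refine ⟨a, funext fun q => ?_⟩
    apply Subtype.ext
    funext g
    show Additive.ofMul (idTh (q.1 : ℕ) (F q) (c q a).toMul g) = (f q).1 g
    rw [ha q, toMul_ofMul, ht q]
    rfl

end Interface

end Fermat.Agent.PT
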