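import Mathlib
import Fermat.Agent.CFT.PT.IdeleRep
import Fermat.Agent.CFT.Bridge.UnramValQ
import Fermat.Agent.CFT.Idele.UnitIdelesCoh

set_option autoImplicit false
set_option linter.unusedSectionVars false

/-!
# S55 GLOBAL bridge: the set of places `placesS S` of (K0) vs `sUCI_ratSet S`

`placesS S = {v | primesEquiv v ∈ S}` (PT/IdeleRep, (K0)) and
`sUCI_ratSet S = {v | ∃ q ∈ S, (q : 𝓞 ℚ) ∈ v.asIdeal}` (PT/SUnitsCapIdele) are the same set of
places of `ℚ`.  Consequently the valuation-form hypothesis `hS` of the idelic library holds for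
`placesS S` at every finite Galois level `L ⊆ ℚ_S`, and `Hⁿ(G, U^S(L)) = 0` for `n ≥ 1`.
-/

namespace Fermat.Agent.PT

open IsDedekindDomain IsDedekindDomain.HeightOneSpectrum NumberField Fermat.Agent.CFT
  IntermediateField

local notation "Qb" => AlgebraicClosure ℚ

/-- membership of a natural number in a place of `ℚ`, via the generator. -/
theorem lvU_natCast_mem_iff (v : HeightOneSpectrum (𝓞 ℚ)) (n : ℕ) :
    ((n : ℕ) : 𝓞 ℚ) ∈ v.asIdeal ↔ Rat.HeightOneSpectrum.natGenerator v ∣ n := by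
  rw [Rat.HeightOneSpectrum.natGenerator_dvd_iff]
  have h := Ideal.apply_mem_of_equiv_iff (I := v.asIdeal)
    (f := Rat.IsIntegralClosure.intEquiv (𝓞 ℚ)) (x := ((n : ℕ) : 𝓞 ℚ))
  rw [map_natCast] at h
  exact h.symm

/-- **the two descriptions of the places of `ℚ` over `S` coincide.** -/
theorem lvU_placesS_eq (S : Finset Nat.Primes) : placesS S = sUCI_ratSet S := by
  ext v
  rw [mem_sUCI_ratSet]
  show Rat.HeightOneSpectrum.primesEquiv v ∈ S ↔ _
  constructor
  · intro h
    refine ⟨_, h, ?_⟩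
    rw [lvU_natCast_mem_iff]
    exact dvd_rfl
  · rintro ⟨q, hq, hqv⟩
    rw [lvU_natCast_mem_iff] at hqv
    have h1 : Rat.HeightOneSpectrum.natGenerator v = (q : ℕ) :=
      (Nat.prime_dvd_prime_iff_eq (Rat.HeightOneSpectrum.prime_natGenerator v) q.2).1 hqv
    have h2 : Rat.HeightOneSpectrum.primesEquiv v = q := Subtype.ext h1
    rw [h2]
    exact hq

theorem lvU_mem_placesS_iff (S : Finset Nat.Primes) (v : HeightOneSpectrum (𝓞 ℚ)) :
    v ∈ placesS S ↔ ∃ q ∈ S, (((q : Nat.Primes) : ℕ) : 𝓞 ℚ) ∈ v.asIdeal := by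
  rw [lvU_placesS_eq, mem_sUCI_ratSet]

variable (S : Finset Nat.Primes) (L : IntermediateField ℚ Qb) [FiniteDimensional ℚ L]
  [Normal ℚ L]

attribute [local instance] sUF_numberField

/-- **(hval) for `placesS S`, tensor base `ℚ`**: VERBATIM the hypothesis `hS` of
`idUC_subsingleton(_mul/_gal)`, `idUN_*`, `unrUR_hunr` with `K := ℚ`, `L := ↥L`,
`S := placesS S`. -/
theorem lvU_hval (hL : L.IsUnramifiedOutside S) (w : HeightOneSpectrum (𝓞 L))
    (hw : primeBelow ℚ L w ∉ placesS S) (x : ℚ) :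
    w.valuation L (algebraMap ℚ L x) = (primeBelow ℚ L w).valuation ℚ x :=
  urVQ_hval S L hL w (by rw [← lvU_placesS_eq]; exact hw) x

/-- **(K3) at a level**: `Hⁿ⁺¹(G, U^S(L)) = 0` for the `S`-unit ideles of a finite Galois level
`L ⊆ ℚ_S` (Mathlib shape `Rep.ofMulDistribMulAction`), `S = placesS S`. -/
theorem lvU_subsingleton_mul (hL : L.IsUnramifiedOutside S) (G : Type) [Group G] [Finite G]
    [MulSemiringAction G L] [SMulCommClass G ℚ L] [FaithfulSMul G L] (n : ℕ) :
    Subsingleton (groupCohomology (idUC_repMul ℚ L G (placesS S)) (n + 1)) :=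
  idUC_subsingleton_mul ℚ L G (placesS S) (lvU_hval S L hL) n

end Fermat.Agent.PT
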