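import Mathlib

/-!
# S55 (P11), abstract part: comparing two right exact "functors" through a natural map

Pure linear algebra (no group cohomology): the diagram chases behind
"a natural transformation between right exact functors which is bijective on enough
projective-like objects is bijective everywhere", in elementwise form, plus two facts about
duals over a field.  All names are prefixed `locDual2_`.
-/

set_option autoImplicit false

namespace Fermat.Agent.PT

open Function

section Chase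

variable {k : Type*} [Semiring k]
variable {F₁ FP FN F'₁ F'P F'N : Type*}
  [AddCommGroup F₁] [Module k F₁] [AddCommGroup FP] [Module k FP] [AddCommGroup FN] [Module k FN]
  [AddCommGroup F'₁] [Module k F'₁] [AddCommGroup F'P] [Module k F'P]
  [AddCommGroup F'N] [Module k F'N]

/-- surjectivity descends along a commutative square with surjective bottom map. -/
theorem locDual2_surjective_of_square (b : FP →ₗ[k] FN) (b' : F'P →ₗ[k] F'N)
    (ΦP : FP →ₗ[k] F'P) (ΦN : FN →ₗ[k] F'N) (hsq : ∀ y, ΦN (b y) = b' (ΦP y))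
    (hb' : Surjective b') (hP : Surjective ΦP) : Surjective ΦN := by
  intro z
  obtain ⟨w, rfl⟩ := hb' z
  obtain ⟨y, rfl⟩ := hP w
  exact ⟨b y, hsq y⟩

/-- the injectivity half of the four lemma, for right exact rows. -/
theorem locDual2_injective_of_squares (a : F₁ →ₗ[k] FP) (b : FP →ₗ[k] FN)
    (a' : F'₁ →ₗ[k] F'P) (b' : F'P →ₗ[k] F'N)
    (Φ₁ : F₁ →ₗ[k] F'₁) (ΦP : FP →ₗ[k] F'P) (ΦN : FN →ₗ[k] F'N)
    (hsq₁ : ∀ z, ΦP (a z) = a' (Φ₁ z)) (hsq₂ : ∀ y, ΦN (b y) = b' (ΦP y))
    (hba : ∀ z, b (a z) = 0) (hb : Surjective b)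
    (hex' : ∀ w, b' w = 0 → ∃ z', a' z' = w)
    (h₁ : Surjective Φ₁) (hP : Injective ΦP) : Injective ΦN := by
  rw [injective_iff_map_eq_zero]
  intro x hx
  obtain ⟨y, rfl⟩ := hb x
  have h1 : b' (ΦP y) = 0 := by rw [← hsq₂, hx]
  obtain ⟨z', hz'⟩ := hex' _ h1
  obtain ⟨z, rfl⟩ := h₁ z'
  rw [← hsq₁] at hz'
  have : a z = y := hP hz'
  rw [← this, hba]

end Chase

section Retract

variable {k : Type*} [Semiring k] {ι : Type*} [Fintype ι]
variable {FI FJ F'I F'J : Type*}
  [AddCommGroup FI] [Module k FI] [AddCommGroup FJ] [Module k FJ]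
  [AddCommGroup F'I] [Module k F'I] [AddCommGroup F'J] [Module k F'J]

/-- if `I` is a retract of a finite power of `J` (compatibly on both sides of `Φ`) and `Φ_J` is
bijective, then so is `Φ_I`. -/
theorem locDual2_bijective_of_retract (ΦI : FI →ₗ[k] F'I) (ΦJ : FJ →ₗ[k] F'J)
    (p : ι → FI →ₗ[k] FJ) (q : ι → FJ →ₗ[k] FI)
    (p' : ι → F'I →ₗ[k] F'J) (q' : ι → F'J →ₗ[k] F'I)
    (hp : ∀ i x, ΦJ (p i x) = p' i (ΦI x)) (hq : ∀ i y, ΦI (q i y) = q' i (ΦJ y))
    (hsum : ∀ x, ∑ i, q i (p i x) = x) (hsum' : ∀ w, ∑ i, q' i (p' i w) = w)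
    (hJ : Bijective ΦJ) : Bijective ΦI := by
  constructor
  · rw [injective_iff_map_eq_zero]
    intro x hx
    rw [← hsum x]
    refine Finset.sum_eq_zero fun i _ => ?_
    have : p i x = 0 := by
      apply hJ.1
      rw [hp, hx, map_zero, map_zero]
    rw [this, map_zero]
  · intro w
    choose y hy using fun i => hJ.2 (p' i w)
    refine ⟨∑ i, q i (y i), ?_⟩
    rw [map_sum, ← hsum' w]
    refine Finset.sum_congr rfl fun i _ => ?_
    rw [hq, hy]

end Retract

section Dual

variable {k : Type*} [Field k] {X Y Z W : Type*}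
  [AddCommGroup X] [Module k X] [AddCommGroup Y] [Module k Y] [AddCommGroup Z] [Module k Z]
  [AddCommGroup W] [Module k W]

/-- over a field, linear maps extend along injective linear maps. -/
theorem locDual2_exists_extend (i : X →ₗ[k] Y) (hi : Injective i) (μ : X →ₗ[k] W) :
    ∃ l : Y →ₗ[k] W, l ∘ₗ i = μ := by
  obtain ⟨g, hg⟩ := LinearMap.exists_leftInverse_of_injective i (LinearMap.ker_eq_bot.2 hi)
  refine ⟨μ ∘ₗ g, ?_⟩
  rw [LinearMap.comp_assoc, hg, LinearMap.comp_id]

/-- over a field, a linear map vanishing on the kernel of `r` factors through `r`. -/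
theorem locDual2_exists_factor (r : Y →ₗ[k] Z) (l : Y →ₗ[k] W) (h : ∀ y, r y = 0 → l y = 0) :
    ∃ μ : Z →ₗ[k] W, μ ∘ₗ r = l := by
  obtain ⟨s, hs⟩ := LinearMap.exists_rightInverse_of_surjective r.rangeRestrict
    (LinearMap.range_rangeRestrict r)
  obtain ⟨μ, hμ⟩ := LinearMap.exists_extend (l ∘ₗ s)
  refine ⟨μ, ?_⟩
  ext y
  have h1 : μ (r y) = (l ∘ₗ s) (r.rangeRestrict y) := by
    have := congrArg (fun f => f (r.rangeRestrict y)) hμ
    simpa using this
  rw [LinearMap.comp_apply, h1, LinearMap.comp_apply]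
  have h2 : r (s (r.rangeRestrict y) - y) = 0 := by
    have h3 : r.rangeRestrict (s (r.rangeRestrict y)) = r.rangeRestrict y := by
      have := LinearMap.congr_fun hs (r.rangeRestrict y)
      rw [LinearMap.comp_apply] at this
      exact this
    have h4 : r (s (r.rangeRestrict y)) = r y := congrArg Subtype.val h3
    rw [map_sub, h4, sub_self]
  have h5 := h _ h2
  rw [map_sub, sub_eq_zero] at h5
  exact h5

end Dual

end Fermat.Agent.PT
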