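import Mathlib
import Fermat.Agent.CFT.PT.LocalDual2Abs
import Fermat.Agent.CFT.PT.ConeFunct
import Fermat.Agent.CFT.PT.SmoothShapiro

/-!
# S55 (P11): local duality in degree 2, dimension form

For a group `G` with a level family `𝔉` of finite-index normal subgroups, a one-dimensional smooth
representation `T` and the class `𝒞` of finite-dimensional smooth representations over a field
`k`, assume

* `Hlc³ = 0` on `𝒞`,
* `Hlc²(U, T)` is one-dimensional for `U ∈ 𝔉` and for `U = G`.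

Then for every `N ∈ 𝒞` the natural map `Hlc²(G, N) → Hom_k(Hom_G(N, T), Hlc²(G, T))`,
`x ↦ (φ ↦ φ_* x)` is bijective; in particular `dim Hlc²(G, N) = dim Hom_G(N, T)`.
-/

set_option autoImplicit false

namespace Fermat.Agent.PT

open CategoryTheory CategoryTheory.Limits groupCohomology Rep Function

universe u

section Linear

variable {k G : Type u} [CommRing k] [Group G] (𝔉 : LevelFamily G) {A B : Rep.{u} k G}

theorem locDual2_HlcCoeff_add (φ ψ : A ⟶ B) (n : ℕ) (x : Hlc 𝔉 A n) :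
    HlcCoeff (φ + ψ) 𝔉 n x = HlcCoeff φ 𝔉 n x + HlcCoeff ψ 𝔉 n x := by
  obtain ⟨c, rfl⟩ := lcπ_surjective 𝔉 A n x
  rw [HlcCoeff_lcπ, HlcCoeff_lcπ, HlcCoeff_lcπ, ← map_add]
  rfl

theorem locDual2_HlcCoeff_smul (a : k) (φ : A ⟶ B) (n : ℕ) (x : Hlc 𝔉 A n) :
    HlcCoeff (a • φ) 𝔉 n x = a • HlcCoeff φ 𝔉 n x := by
  obtain ⟨c, rfl⟩ := lcπ_surjective 𝔉 A n x
  rw [HlcCoeff_lcπ, HlcCoeff_lcπ, ← map_smul]
  rfl

theorem locDual2_HlcCoeff_zero (n : ℕ) (x : Hlc 𝔉 A n) :
    HlcCoeff (0 : A ⟶ B) 𝔉 n x = 0 := by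
  have h := locDual2_HlcCoeff_smul 𝔉 (0 : k) (0 : A ⟶ B) n x
  rwa [zero_smul, zero_smul] at h

theorem locDual2_HlcCoeff_sum {ι : Type*} (s : Finset ι) (φ : ι → (A ⟶ B)) (n : ℕ)
    (x : Hlc 𝔉 A n) :
    HlcCoeff (∑ i ∈ s, φ i) 𝔉 n x = ∑ i ∈ s, HlcCoeff (φ i) 𝔉 n x := by
  classical
  induction s using Finset.induction_on with
  | empty => simp [locDual2_HlcCoeff_zero]
  | insert a s ha ih => rw [Finset.sum_insert ha, Finset.sum_insert ha, locDual2_HlcCoeff_add, ih]

/-- the natural pairing `Hlcⁿ(N) × Hom_G(N, T) → Hlcⁿ(T)`, as a linear map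
`Hlcⁿ(N) → Hom_k(Hom_G(N, T), Hlcⁿ(T))`. -/
noncomputable def locDual2_pair (N T : Rep.{u} k G) (n : ℕ) :
    Hlc 𝔉 N n →ₗ[k] ((N ⟶ T) →ₗ[k] Hlc 𝔉 T n) :=
  LinearMap.mk₂ k (fun x φ => HlcCoeff φ 𝔉 n x)
    (fun x y φ => map_add _ x y) (fun a x φ => map_smul _ a x)
    (fun x φ ψ => locDual2_HlcCoeff_add 𝔉 φ ψ n x)
    (fun a x φ => locDual2_HlcCoeff_smul 𝔉 a φ n x)

theorem locDual2_pair_apply (N T : Rep.{u} k G) (n : ℕ) (x : Hlc 𝔉 N n) (φ : N ⟶ T) :
    locDual2_pair 𝔉 N T n x φ = HlcCoeff φ 𝔉 n x := rfl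

/-- the functor `N ↦ Hom_k(Hom_G(N, T), W)` on morphisms. -/
noncomputable def locDual2_dualMap {P N : Rep.{u} k G} (π : P ⟶ N) (T : Rep.{u} k G)
    (W : Type*) [AddCommGroup W] [Module k W] :
    ((P ⟶ T) →ₗ[k] W) →ₗ[k] ((N ⟶ T) →ₗ[k] W) :=
  LinearMap.lcomp k W (Linear.leftComp k T π)

theorem locDual2_dualMap_apply {P N : Rep.{u} k G} (π : P ⟶ N) (T : Rep.{u} k G)
    (W : Type*) [AddCommGroup W] [Module k W] (l : (P ⟶ T) →ₗ[k] W) (φ : N ⟶ T) :
    locDual2_dualMap π T W l φ = l (π ≫ φ) := rfl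

/-- naturality of the pairing. -/
theorem locDual2_pair_natural {P N : Rep.{u} k G} (π : P ⟶ N) (T : Rep.{u} k G) (n : ℕ)
    (y : Hlc 𝔉 P n) :
    locDual2_pair 𝔉 N T n (HlcCoeff π 𝔉 n y) =
      locDual2_dualMap π T (Hlc 𝔉 T n) (locDual2_pair 𝔉 P T n y) := by
  ext φ
  rw [locDual2_pair_apply, locDual2_dualMap_apply, locDual2_pair_apply, HlcCoeff_comp]

end Linear

section Field

variable {k G : Type u} [Field k] [Group G]

/-- endomorphisms of a one-dimensional representation are scalars. -/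
theorem locDual2_end_eq_smul {H : Type u} [Group H] (T : Rep.{u} k H)
    (hT : Module.finrank k T = 1) (ψ : T ⟶ T) : ∃ c : k, ψ = c • 𝟙 T := by
  obtain ⟨v, hv⟩ := finrank_eq_one_iff'.1 hT
  obtain ⟨c, hc⟩ := hv.2 (ψ.hom v)
  refine ⟨c, ?_⟩
  apply Rep.hom_ext
  apply Representation.IntertwiningMap.ext
  apply LinearMap.ext
  intro w
  obtain ⟨a, rfl⟩ := hv.2 w
  show ψ.hom (a • v) = c • (a • v)
  rw [map_smul, ← hc, smul_comm]

open scoped Classical in
/-- the counit `Coind_U^G Res_U N ⟶ N` of the adjunction `Coind ⊣ Res` (finite index). -/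
noncomputable def locDual2_counit (U : Subgroup G) [U.FiniteIndex] (N : Rep.{u} k G) :
    coind U.subtype (res U.subtype N) ⟶ N :=
  (coindResAdjunction.{u, u, u} k U).counit.app N

open scoped Classical in
instance locDual2_counit_epi (U : Subgroup G) [U.FiniteIndex] (N : Rep.{u} k G) :
    Epi (locDual2_counit U N) := by
  unfold locDual2_counit
  infer_instance

open scoped Classical in
/-- Frobenius reciprocity for a one-dimensional `T`: `Hom_G(Coind_U Res_U T, T) = k · counit`. -/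
theorem locDual2_hom_eq_smul_counit (U : Subgroup G) [U.FiniteIndex] (T : Rep.{u} k G)
    (hT : Module.finrank k T = 1) (φ : coind U.subtype (res U.subtype T) ⟶ T) :
    ∃ c : k, φ = c • locDual2_counit U T := by
  set adj := coindResAdjunction.{u, u, u} k U with hadj
  obtain ⟨c, hc⟩ := locDual2_end_eq_smul (res U.subtype T) hT
    (adj.homEquiv (res U.subtype T) T φ)
  refine ⟨c, ?_⟩
  apply (adj.homEquiv (res U.subtype T) T).injective
  rw [hc, Adjunction.homEquiv_unit]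
  unfold locDual2_counit
  rw [Functor.map_smul, Linear.comp_smul]
  congr 1
  exact (adj.right_triangle_components T).symm

/-- a representation coinduced from a finite-index subgroup is finite-dimensional. -/
theorem locDual2_finite_coind (U : Subgroup G) [U.FiniteIndex] (B : Rep.{u} k U)
    [Module.Finite k B] : Module.Finite k (coind U.subtype B) := by
  classical
  have : Finite (G ⧸ U) := Subgroup.finite_quotient_of_finiteIndex
  have : Finite (Quotient (QuotientGroup.rightRel U)) :=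
    Finite.of_equiv _ (QuotientGroup.quotientRightRelEquivQuotientLeftRel U).symm
  let L : (B.ρ.coindV U.subtype) →ₗ[k] (Quotient (QuotientGroup.rightRel U) → B.V) :=
    { toFun := fun f q => f.1 q.out
      map_add' := fun f g => rfl
      map_smul' := fun a f => rfl }
  have hL : Function.Injective L := by
    rw [injective_iff_map_eq_zero]
    intro f hf
    apply Subtype.ext
    funext g
    have hq : (QuotientGroup.rightRel U).r (Quotient.mk (QuotientGroup.rightRel U) g).out g :=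
      Quotient.exact (Quotient.out_eq _)
    rw [QuotientGroup.rightRel_apply] at hq
    have h1 : f.1 (Quotient.mk (QuotientGroup.rightRel U) g).out = 0 := congrFun hf _
    have h2 := f.2 ⟨_, hq⟩ (Quotient.mk (QuotientGroup.rightRel U) g).out
    have h3 : U.subtype ⟨_, hq⟩ * (Quotient.mk (QuotientGroup.rightRel U) g).out = g := by
      show g * _⁻¹ * _ = g
      group
    rw [h3, h1, map_zero] at h2
    exact h2
  exact Module.Finite.of_injective L hL

/-- a finite-dimensional smooth representation is fixed pointwise by a member of the family. -/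
theorem locDual2_exists_level (𝔉 : LevelFamily G) (N : Rep.{u} k G) [Module.Finite k N]
    (hN : IsSmooth 𝔉 N) : ∃ V ∈ 𝔉.sets, ∀ v ∈ V, N.ρ v = 1 := by
  classical
  obtain ⟨S, hS⟩ := (Module.Finite.fg_top : (⊤ : Submodule k N.V).FG)
  choose U hU hUa using hN
  obtain ⟨W, hW, hWle⟩ := exists_le_of_finset 𝔉.nonempty 𝔉.directed S U (fun a _ => hU a)
  refine ⟨W, hW, fun v hv => ?_⟩
  apply LinearMap.ext_on hS
  intro a ha
  exact hUa a v (hWle a ha hv)

/-- the space of morphisms between finite-dimensional representations is finite-dimensional. -/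
theorem locDual2_finite_hom (N T : Rep.{u} k G) [Module.Finite k N] [Module.Finite k T] :
    Module.Finite k (N ⟶ T) := by
  let L : (N ⟶ T) →ₗ[k] (N.V →ₗ[k] T.V) :=
    { toFun := fun φ => φ.hom.toLinearMap
      map_add' := fun φ ψ => rfl
      map_smul' := fun a φ => rfl }
  have hL : Function.Injective L := by
    intro φ ψ h
    apply Rep.hom_ext
    apply Representation.IntertwiningMap.ext
    exact h
  exact Module.Finite.of_injective L hL

end Field

section Pres

variable {k G : Type u} [Field k] [Group G] {𝔉 : LevelFamily G}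

/-- the presentation `0 → ker → Coind_U Res_U N → N → 0`. -/
noncomputable def locDual2_SC (U : Subgroup G) [U.FiniteIndex] (N : Rep.{u} k G) :
    ShortComplex (Rep.{u} k G) :=
  ShortComplex.kernelSequence (locDual2_counit U N)

theorem locDual2_SC_g (U : Subgroup G) [U.FiniteIndex] (N : Rep.{u} k G) :
    (locDual2_SC U N).g = locDual2_counit U N := rfl

theorem locDual2_SC_shortExact (U : Subgroup G) [U.FiniteIndex] (N : Rep.{u} k G) :
    (locDual2_SC U N).ShortExact :=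
  { exact := ShortComplex.kernelSequence_exact _
    mono_f := by unfold locDual2_SC; infer_instance
    epi_g := locDual2_counit_epi U N }

theorem locDual2_isSmooth_coind (hfin : 𝔉.FiniteIndex) {U : Subgroup G} (hU : U ∈ 𝔉.sets)
    {N : Rep.{u} k G} (hN : IsSmooth 𝔉 N) :
    IsSmooth 𝔉 (coind U.subtype (res U.subtype N)) :=
  isSmooth_coind hfin (isOpenFor_of_mem hU) (hN.res_subtype U)

theorem locDual2_SC_X₁_isSmooth (hfin : 𝔉.FiniteIndex) {U : Subgroup G} [U.FiniteIndex]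
    (hU : U ∈ 𝔉.sets) {N : Rep.{u} k G} (hN : IsSmooth 𝔉 N) :
    IsSmooth 𝔉 (locDual2_SC U N).X₁ :=
  IsSmooth.of_injective (locDual2_SC U N).f
    ((Rep.mono_iff_injective _).1 (locDual2_SC_shortExact U N).mono_f)
    (locDual2_isSmooth_coind hfin hU hN)

theorem locDual2_SC_X₁_finite (U : Subgroup G) [U.FiniteIndex] (N : Rep.{u} k G)
    [Module.Finite k N] : Module.Finite k (locDual2_SC U N).X₁ := by
  have h1 : Module.Finite k (res U.subtype N) := inferInstanceAs (Module.Finite k N)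
  have h2 : Module.Finite k (locDual2_SC U N).X₂ := locDual2_finite_coind U _
  exact Module.Finite.of_injective (locDual2_SC U N).f.hom.toLinearMap
    ((Rep.mono_iff_injective _).1 (locDual2_SC_shortExact U N).mono_f)

end Pres

section RightExact

variable {k G : Type u} [Field k] [Group G] {𝔉 : LevelFamily G}

/-- right exactness: if `Hlc³` vanishes on the kernel, `Hlc²(X₂) → Hlc²(X₃)` is surjective. -/
theorem locDual2_HlcCoeff_surjective (hfin : 𝔉.FiniteIndex) {X : ShortComplex (Rep.{u} k G)}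
    (hX : X.ShortExact) (hsm : IsSmooth 𝔉 X.X₂) (h3 : IsZero (Hlc 𝔉 X.X₁ 3)) :
    Surjective (HlcCoeff X.g 𝔉 2) := by
  intro x
  have : Subsingleton (Hlc 𝔉 X.X₁ 3) := ModuleCat.subsingleton_of_isZero h3
  obtain ⟨y, hy⟩ := exists_lcH₂₃_eq hfin hX hsm 2 3 rfl x (Subsingleton.elim _ _)
  exact ⟨y, hy⟩

/-- exactness in the middle of `Hlcⁿ(X₁) → Hlcⁿ(X₂) → Hlcⁿ(X₃)`. -/
theorem locDual2_HlcCoeff_exact (hfin : 𝔉.FiniteIndex) {X : ShortComplex (Rep.{u} k G)}
    (hX : X.ShortExact) (hsm : IsSmooth 𝔉 X.X₂) (n : ℕ) (y : Hlc 𝔉 X.X₂ n)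
    (hy : HlcCoeff X.g 𝔉 n y = 0) : ∃ z : Hlc 𝔉 X.X₁ n, HlcCoeff X.f 𝔉 n z = y :=
  exists_lcH₁₂_eq hfin hX hsm n y hy

theorem locDual2_HlcCoeff_comp_zero {X : ShortComplex (Rep.{u} k G)} (n : ℕ)
    (z : Hlc 𝔉 X.X₁ n) : HlcCoeff X.g 𝔉 n (HlcCoeff X.f 𝔉 n z) = 0 := by
  rw [← HlcCoeff_comp, X.zero, locDual2_HlcCoeff_zero]

/-- `N ↦ Hom_k(Hom_G(N, T), W)` sends epimorphisms to surjections. -/
theorem locDual2_dualMap_surjective {P N : Rep.{u} k G} (π : P ⟶ N) [Epi π] (T : Rep.{u} k G)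
    (W : Type*) [AddCommGroup W] [Module k W] : Surjective (locDual2_dualMap π T W) := by
  intro μ
  have hinj : Injective (Linear.leftComp k T π) := by
    intro φ ψ h
    exact (cancel_epi π).1 h
  obtain ⟨l, hl⟩ := locDual2_exists_extend (Linear.leftComp k T π) hinj μ
  refine ⟨l, ?_⟩
  ext φ
  rw [locDual2_dualMap_apply, ← hl]
  rfl

/-- `N ↦ Hom_k(Hom_G(N, T), W)` is exact in the middle on short exact sequences. -/
theorem locDual2_dualMap_exact {X : ShortComplex (Rep.{u} k G)} (hX : X.ShortExact)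
    (T : Rep.{u} k G) (W : Type*) [AddCommGroup W] [Module k W]
    (l : (X.X₂ ⟶ T) →ₗ[k] W) (hl : locDual2_dualMap X.g T W l = 0) :
    ∃ μ : (X.X₁ ⟶ T) →ₗ[k] W, locDual2_dualMap X.f T W μ = l := by
  have h : ∀ ψ : X.X₂ ⟶ T, Linear.leftComp k T X.f ψ = 0 → l ψ = 0 := by
    intro ψ hψ
    have hψ' : X.f ≫ ψ = 0 := hψ
    have hepi := hX.epi_g
    have hfac : X.g ≫ hX.exact.desc ψ hψ' = ψ := hX.exact.g_desc ψ hψ'
    rw [← hfac]
    have := LinearMap.congr_fun hl (hX.exact.desc ψ hψ')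
    rwa [locDual2_dualMap_apply] at this
  obtain ⟨μ, hμ⟩ := locDual2_exists_factor (Linear.leftComp k T X.f) l h
  refine ⟨μ, ?_⟩
  ext ψ
  rw [locDual2_dualMap_apply, ← hμ]
  rfl

theorem locDual2_dualMap_comp_zero {X : ShortComplex (Rep.{u} k G)}
    (T : Rep.{u} k G) (W : Type*) [AddCommGroup W] [Module k W]
    (μ : (X.X₁ ⟶ T) →ₗ[k] W) : locDual2_dualMap X.g T W (locDual2_dualMap X.f T W μ) = 0 := by
  ext φ
  rw [locDual2_dualMap_apply, locDual2_dualMap_apply, ← Category.assoc, X.zero, zero_comp,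
    map_zero]
  rfl

end RightExact

section Base

variable {k G : Type u} [Field k] [Group G] {𝔉 : LevelFamily G}

/-- a `k`-linear map between representations on which `U` acts trivially is `U`-equivariant. -/
noncomputable def locDual2_trivHom (U : Subgroup G) {A B : Rep.{u} k G}
    (hA : ∀ v ∈ U, A.ρ v = 1) (hB : ∀ v ∈ U, B.ρ v = 1) (f : A.V →ₗ[k] B.V) :
    res U.subtype A ⟶ res U.subtype B :=
  Rep.ofHom (LinearMap.intertwiningMap_of_isIntertwiningMap
    (ρ := (res U.subtype A).ρ) (σ := (res U.subtype B).ρ) (f := f) (fun g v => by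
      show f (A.ρ g.1 v) = B.ρ g.1 (f v)
      rw [hA _ g.2, hB _ g.2]
      rfl))

/-- `f ↦ Coind_U (f)`, as a `k`-linear map. -/
noncomputable def locDual2_Θ (U : Subgroup G) {A B : Rep.{u} k G}
    (hA : ∀ v ∈ U, A.ρ v = 1) (hB : ∀ v ∈ U, B.ρ v = 1) :
    (A.V →ₗ[k] B.V) →ₗ[k]
      (coind U.subtype (res U.subtype A) ⟶ coind U.subtype (res U.subtype B)) where
  toFun f := coindMap U.subtype (locDual2_trivHom U hA hB f)
  map_add' f g := by
    apply Rep.hom_ext
    apply Representation.IntertwiningMap.ext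
    apply LinearMap.ext
    intro x
    apply Subtype.ext
    funext y
    rfl
  map_smul' a f := by
    apply Rep.hom_ext
    apply Representation.IntertwiningMap.ext
    apply LinearMap.ext
    intro x
    apply Subtype.ext
    funext y
    rfl

theorem locDual2_Θ_comp (U : Subgroup G) {A B C : Rep.{u} k G}
    (hA : ∀ v ∈ U, A.ρ v = 1) (hB : ∀ v ∈ U, B.ρ v = 1) (hC : ∀ v ∈ U, C.ρ v = 1)
    (f : A.V →ₗ[k] B.V) (g : B.V →ₗ[k] C.V) :
    locDual2_Θ U hA hB f ≫ locDual2_Θ U hB hC g = locDual2_Θ U hA hC (g ∘ₗ f) := by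
  apply Rep.hom_ext
  apply Representation.IntertwiningMap.ext
  apply LinearMap.ext
  intro x
  apply Subtype.ext
  funext y
  rfl

theorem locDual2_Θ_id (U : Subgroup G) {A : Rep.{u} k G} (hA : ∀ v ∈ U, A.ρ v = 1) :
    locDual2_Θ U hA hA LinearMap.id = 𝟙 _ := by
  apply Rep.hom_ext
  apply Representation.IntertwiningMap.ext
  apply LinearMap.ext
  intro x
  apply Subtype.ext
  funext y
  rfl

/-- if `U` acts trivially on `N` and on the one-dimensional `T`, then `Coind_U Res_U N` is a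
retract of a finite power of `Coind_U Res_U T`. -/
theorem locDual2_exists_retract (U : Subgroup G) {N T : Rep.{u} k G}
    (hN : ∀ v ∈ U, N.ρ v = 1) (hT' : ∀ v ∈ U, T.ρ v = 1) [Module.Finite k N]
    (hT : Module.finrank k T = 1) :
    ∃ (d : ℕ) (P : Fin d → (coind U.subtype (res U.subtype N) ⟶ coind U.subtype (res U.subtype T)))
      (Q : Fin d → (coind U.subtype (res U.subtype T) ⟶ coind U.subtype (res U.subtype N))),
      ∑ i, P i ≫ Q i = 𝟙 _ := by
  classical
  have : Module.Finite k N.V := ‹Module.Finite k N›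
  have hTfin : Module.Finite k T.V :=
    Module.finite_of_finrank_pos (R := k) (M := T.V) (by rw [hT]; exact one_pos)
  let b := Module.finBasis k N.V
  let bT : Module.Basis (Fin 1) k T.V := Module.finBasisOfFinrankEq k T.V hT
  refine ⟨Module.finrank k N.V, fun i => locDual2_Θ U hN hT' ((b.coord i).smulRight (bT 0)),
    fun i => locDual2_Θ U hT' hN ((bT.coord 0).smulRight (b i)), ?_⟩
  have h1 : ∀ i, locDual2_Θ U hN hT' ((b.coord i).smulRight (bT 0)) ≫
      locDual2_Θ U hT' hN ((bT.coord 0).smulRight (b i)) =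
      locDual2_Θ U hN hN (((bT.coord 0).smulRight (b i)) ∘ₗ ((b.coord i).smulRight (bT 0))) :=
    fun i => locDual2_Θ_comp U hN hT' hN _ _
  simp only [h1]
  rw [← map_sum, ← locDual2_Θ_id U hN]
  congr 1
  apply LinearMap.ext
  intro n
  rw [LinearMap.sum_apply]
  conv_rhs => rw [LinearMap.id_apply, ← b.sum_repr n]
  refine Finset.sum_congr rfl fun i _ => ?_
  simp [Module.Basis.coord_apply]

/-- the retract argument: bijectivity of the pairing for `Coind_U Res_U T` implies it for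
`Coind_U Res_U N`. -/
theorem locDual2_pair_bijective_of_retract (𝔉 : LevelFamily G) {I J T : Rep.{u} k G} (n : ℕ)
    {d : ℕ} (P : Fin d → (I ⟶ J)) (Q : Fin d → (J ⟶ I)) (hPQ : ∑ i, P i ≫ Q i = 𝟙 I)
    (hJ : Bijective (locDual2_pair 𝔉 J T n)) : Bijective (locDual2_pair 𝔉 I T n) := by
  refine locDual2_bijective_of_retract (locDual2_pair 𝔉 I T n) (locDual2_pair 𝔉 J T n)
    (fun i => HlcCoeff (P i) 𝔉 n) (fun i => HlcCoeff (Q i) 𝔉 n)
    (fun i => locDual2_dualMap (P i) T (Hlc 𝔉 T n))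
    (fun i => locDual2_dualMap (Q i) T (Hlc 𝔉 T n))
    (fun i x => locDual2_pair_natural 𝔉 (P i) T n x)
    (fun i y => locDual2_pair_natural 𝔉 (Q i) T n y) ?_ ?_ hJ
  · intro x
    have h : ∀ i, HlcCoeff (Q i) 𝔉 n (HlcCoeff (P i) 𝔉 n x) = HlcCoeff (P i ≫ Q i) 𝔉 n x :=
      fun i => (HlcCoeff_comp (P i) (Q i) 𝔉 n x).symm
    simp only [h]
    rw [← locDual2_HlcCoeff_sum, hPQ, HlcCoeff_id]
  · intro w
    ext φ
    rw [LinearMap.sum_apply]
    simp only [locDual2_dualMap_apply]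
    rw [← map_sum]
    congr 1
    have h : ∀ i, P i ≫ Q i ≫ φ = (P i ≫ Q i) ≫ φ := fun i => (Category.assoc _ _ _).symm
    simp only [h]
    rw [← Preadditive.sum_comp, hPQ, Category.id_comp]

/-- the base case: the pairing is bijective for `J = Coind_U Res_U T`. -/
theorem locDual2_pair_bijective_J (hfin : 𝔉.FiniteIndex) {U : Subgroup G} [U.FiniteIndex]
    (hU : U ∈ 𝔉.sets) (T : Rep.{u} k G) (hT : Module.finrank k T = 1) (hTsm : IsSmooth 𝔉 T)
    (h3 : IsZero (Hlc 𝔉 (locDual2_SC U T).X₁ 3))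
    (h2U : Module.finrank k (Hlc (𝔉.restrict U) (res U.subtype T) 2) = 1)
    (h2G : Module.finrank k (Hlc 𝔉 T 2) = 1) :
    Bijective (locDual2_pair 𝔉 (coind U.subtype (res U.subtype T)) T 2) := by
  have hsm : IsSmooth 𝔉 (locDual2_SC U T).X₂ := locDual2_isSmooth_coind hfin hU hTsm
  have hsurj' : Surjective (HlcCoeff (locDual2_SC U T).g 𝔉 2) :=
    locDual2_HlcCoeff_surjective (X := locDual2_SC U T) hfin (locDual2_SC_shortExact U T) hsm h3
  have hsurj : Surjective (HlcCoeff (locDual2_counit U T) 𝔉 2) := hsurj'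
  have hJ1 : Module.finrank k (Hlc 𝔉 (coind U.subtype (res U.subtype T)) 2) = 1 := by
    rw [(shapEquiv hfin (isOpenFor_of_mem hU) (res U.subtype T) (hTsm.res_subtype U) 2).finrank_eq,
      h2U]
  have hfJ : Module.Finite k (Hlc 𝔉 (coind U.subtype (res U.subtype T)) 2) :=
    Module.finite_of_finrank_pos (by rw [hJ1]; exact one_pos)
  have hfT : Module.Finite k (Hlc 𝔉 T 2) :=
    Module.finite_of_finrank_pos (by rw [h2G]; exact one_pos)
  have hinj : Injective (HlcCoeff (locDual2_counit U T) 𝔉 2) :=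
    (LinearMap.injective_iff_surjective_of_finrank_eq_finrank (hJ1.trans h2G.symm)).2 hsurj
  -- evaluation at the counit is injective
  have hev : ∀ l : (coind U.subtype (res U.subtype T) ⟶ T) →ₗ[k] Hlc 𝔉 T 2,
      l (locDual2_counit U T) = 0 → l = 0 := by
    intro l hl
    ext φ
    obtain ⟨c, rfl⟩ := locDual2_hom_eq_smul_counit U T hT φ
    rw [map_smul, hl, smul_zero]
    rfl
  constructor
  · rw [injective_iff_map_eq_zero]
    intro x hx
    apply hinj
    rw [map_zero, ← locDual2_pair_apply, hx]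
    rfl
  · intro l
    obtain ⟨x, hx⟩ := hsurj (l (locDual2_counit U T))
    refine ⟨x, ?_⟩
    rw [← sub_eq_zero]
    apply hev
    rw [LinearMap.sub_apply, locDual2_pair_apply, hx, sub_self]

end Base

section Main

variable {k G : Type u} [Field k] [Group G] {𝔉 : LevelFamily G}
  (hfin : 𝔉.FiniteIndex) (T : Rep.{u} k G) (hT : Module.finrank k T = 1) (hTsm : IsSmooth 𝔉 T)
  (h3 : ∀ N : Rep.{u} k G, Module.Finite k N → IsSmooth 𝔉 N → IsZero (Hlc 𝔉 N 3))
  (h2 : ∀ U ∈ 𝔉.sets, Module.finrank k (Hlc (𝔉.restrict U) (res U.subtype T) 2) = 1)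
  (h2G : Module.finrank k (Hlc 𝔉 T 2) = 1)

include hfin hT hTsm h3 h2 h2G

/-- every finite-dimensional smooth `N` is a quotient of some `P = Coind_U Res_U N` for which the
pairing is bijective. -/
theorem locDual2_exists_pres (N : Rep.{u} k G) (hN : Module.Finite k N) (hNsm : IsSmooth 𝔉 N) :
    ∃ (U : Subgroup G) (_ : U.FiniteIndex) (_ : U ∈ 𝔉.sets),
      Bijective (locDual2_pair 𝔉 (coind U.subtype (res U.subtype N)) T 2) := by
  have hTfin : Module.Finite k T :=
    Module.finite_of_finrank_pos (R := k) (M := T.V) (by rw [hT]; exact one_pos)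
  obtain ⟨V₁, hV₁, hV₁N⟩ := locDual2_exists_level 𝔉 N hNsm
  obtain ⟨V₂, hV₂, hV₂T⟩ := locDual2_exists_level 𝔉 T hTsm
  obtain ⟨U, hU, hUle⟩ := 𝔉.directed V₁ hV₁ V₂ hV₂
  have hUfin : U.FiniteIndex := hfin U hU
  have hUN : ∀ v ∈ U, N.ρ v = 1 := fun v hv => hV₁N v (hUle hv).1
  have hUT : ∀ v ∈ U, T.ρ v = 1 := fun v hv => hV₂T v (hUle hv).2
  refine ⟨U, hUfin, hU, ?_⟩
  obtain ⟨d, P, Q, hPQ⟩ := locDual2_exists_retract U hUN hUT hT
  refine locDual2_pair_bijective_of_retract 𝔉 2 P Q hPQ ?_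
  have h1fin : Module.Finite k (locDual2_SC U T).X₁ := locDual2_SC_X₁_finite U T
  have h1sm : IsSmooth 𝔉 (locDual2_SC U T).X₁ := locDual2_SC_X₁_isSmooth hfin hU hTsm
  exact locDual2_pair_bijective_J hfin hU T hT hTsm (h3 _ h1fin h1sm) (h2 U hU) h2G

theorem locDual2_pair_surjective (N : Rep.{u} k G) (hN : Module.Finite k N)
    (hNsm : IsSmooth 𝔉 N) : Surjective (locDual2_pair 𝔉 N T 2) := by
  obtain ⟨U, hUfin, hU, hP⟩ := locDual2_exists_pres hfin T hT hTsm h3 h2 h2G N hN hNsm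
  exact locDual2_surjective_of_square (HlcCoeff (locDual2_counit U N) 𝔉 2)
    (locDual2_dualMap (locDual2_counit U N) T (Hlc 𝔉 T 2))
    (locDual2_pair 𝔉 (coind U.subtype (res U.subtype N)) T 2) (locDual2_pair 𝔉 N T 2)
    (fun y => locDual2_pair_natural 𝔉 (locDual2_counit U N) T 2 y)
    (@locDual2_dualMap_surjective _ _ _ _ _ _ (locDual2_counit U N) (locDual2_counit_epi U N) T
      (Hlc 𝔉 T 2) _ _) hP.2

theorem locDual2_pair_injective (N : Rep.{u} k G) (hN : Module.Finite k N)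
    (hNsm : IsSmooth 𝔉 N) : Injective (locDual2_pair 𝔉 N T 2) := by
  obtain ⟨U, hUfin, hU, hP⟩ := locDual2_exists_pres hfin T hT hTsm h3 h2 h2G N hN hNsm
  have hX := locDual2_SC_shortExact U N
  have hsm : IsSmooth 𝔉 (locDual2_SC U N).X₂ := locDual2_isSmooth_coind hfin hU hNsm
  have h1fin : Module.Finite k (locDual2_SC U N).X₁ := locDual2_SC_X₁_finite U N
  have h1sm : IsSmooth 𝔉 (locDual2_SC U N).X₁ := locDual2_SC_X₁_isSmooth hfin hU hNsm
  exact locDual2_injective_of_squares (HlcCoeff (locDual2_SC U N).f 𝔉 2)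
    (HlcCoeff (locDual2_SC U N).g 𝔉 2)
    (locDual2_dualMap (locDual2_SC U N).f T (Hlc 𝔉 T 2))
    (locDual2_dualMap (locDual2_SC U N).g T (Hlc 𝔉 T 2))
    (locDual2_pair 𝔉 (locDual2_SC U N).X₁ T 2) (locDual2_pair 𝔉 (locDual2_SC U N).X₂ T 2)
    (locDual2_pair 𝔉 (locDual2_SC U N).X₃ T 2)
    (fun z => locDual2_pair_natural 𝔉 (locDual2_SC U N).f T 2 z)
    (fun y => locDual2_pair_natural 𝔉 (locDual2_SC U N).g T 2 y)
    (fun z => locDual2_HlcCoeff_comp_zero 2 z)
    (locDual2_HlcCoeff_surjective hfin hX hsm (h3 _ h1fin h1sm))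
    (fun w hw => locDual2_dualMap_exact hX T (Hlc 𝔉 T 2) w hw)
    (locDual2_pair_surjective hfin T hT hTsm h3 h2 h2G _ h1fin h1sm) hP.1

/-- **local duality in degree 2 (abstract form)**: the pairing
`Hlc²(N) → Hom_k(Hom_G(N, T), Hlc²(T))` is bijective for finite-dimensional smooth `N`. -/
theorem locDual2_pair_bijective (N : Rep.{u} k G) (hN : Module.Finite k N)
    (hNsm : IsSmooth 𝔉 N) : Bijective (locDual2_pair 𝔉 N T 2) :=
  ⟨locDual2_pair_injective hfin T hT hTsm h3 h2 h2G N hN hNsm,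
    locDual2_pair_surjective hfin T hT hTsm h3 h2 h2G N hN hNsm⟩

/-- **local duality in degree 2, dimension form**:
`dim Hlc²(N) = dim Hom_G(N, T)` for finite-dimensional smooth `N`. -/
theorem locDual2_finrank (N : Rep.{u} k G) (hN : Module.Finite k N) (hNsm : IsSmooth 𝔉 N) :
    Module.Finite k (Hlc 𝔉 N 2) ∧
      Module.finrank k (Hlc 𝔉 N 2) = Module.finrank k (N ⟶ T) := by
  have hTfin : Module.Finite k T :=
    Module.finite_of_finrank_pos (R := k) (M := T.V) (by rw [hT]; exact one_pos)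
  have hfT : Module.Finite k (Hlc 𝔉 T 2) :=
    Module.finite_of_finrank_pos (by rw [h2G]; exact one_pos)
  have hfH : Module.Finite k (N ⟶ T) := locDual2_finite_hom N T
  let e : Hlc 𝔉 N 2 ≃ₗ[k] ((N ⟶ T) →ₗ[k] Hlc 𝔉 T 2) :=
    LinearEquiv.ofBijective (locDual2_pair 𝔉 N T 2)
      (locDual2_pair_bijective hfin T hT hTsm h3 h2 h2G N hN hNsm)
  refine ⟨Module.Finite.equiv e.symm, ?_⟩
  rw [e.finrank_eq, Module.finrank_linearMap, h2G, mul_one]

end Main

end Fermat.Agent.PT
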