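import Fermat.Agent.CFT.PT.LocalInst
import Fermat.Agent.CFT.PT.BetaZero

/-!
# S55, LOCAL instantiation: `LocH3Vanish` for the arithmetic local system from `LocalOut1`

`locInst_locH3Vanish : LocalOut1 p S → LocH3Vanish (k := ZMod p) (locS S)`, the shape consumed by
`dualityDimsS_of_contracts` (PT/DualityInst.lean).
-/

set_option autoImplicit false

namespace Fermat.Agent.PT

open CategoryTheory groupCohomology Rep

variable {p : ℕ} [Fact p.Prime] {S : Finset Nat.Primes}

/-- local `cd_p ≤ 2` for the arithmetic local system, in the `LocH3Vanish` shape. -/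
theorem locInst_locH3Vanish (h1 : LocalOut1 p S) : LocH3Vanish (k := ZMod p) (locS S) :=
  fun K hK hKsm v => locInst_subsingleton_Hlc_three_coeff h1 K hK hKsm v

end Fermat.Agent.PT
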