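import Fermat.Agent.CFT.PT.SUnitsTop
import Fermat.Agent.CFT.PT.TopRestrict
import Fermat.Agent.CFT.Local.OpenSubgroup
import Fermat.Agent.CFT.PT.GaloisFamilyIs
import Fermat.Agent.CFT.Local.CycloLocal

set_option autoImplicit false
set_option linter.unusedSectionVars false

/-!
# S55 GLOBAL TOP (LK): the local Kummer half of `TopDatum`

(helper7)  The fields `Lv κv Pv hPv wKv hKv smLv` of `TopDatum` and the input (B1)
(`Hlc¹(G_v, Lv v) = 0`, Hilbert 90) for the arithmetic local systems `locS S` and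
`locSV S V = (locS S).restrictNormal V`.

* generic (`Ω / K`, `φ : H →* Gal(Ω/K)`, `μ' : Rep (ZMod p) H`, `j : μ' → μ_p(Ω)` bijective and
  equivariant): `locKT_LGen`, `locKT_PGen`, `locKT_kappaGen`, `locKT_wKGen`, `locKT_hKGen`;
* `locKT_subsingleton_H1_gen` : Hilbert 90 for the open subgroups of `Gal(Ω/K)` with the induced
  family;
* arithmetic (`q : Nat.Primes`): `locKT_L q` (the units of `PadicAlgCl q`), `locKT_smooth`,
  `locKT_P`, `locKT_kappa` (for the coefficients `res (primeLocalToGlobal q) (cycloRep p)`, through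
  the image under `padicEmbedding q` of the root of unity `sUT_jBase` used by `sUT_kappaCyclo`),
  `locKT_wK`, `locKT_hK`, `locKT_subsingleton_H1`, `locKT_subsingleton_H1_locSV`.
-/

namespace Fermat.Agent.PT

open CategoryTheory groupCohomology Rep ExtCitation Fermat.Agent.CFT

local notation "Qb" => AlgebraicClosure ℚ
local notation "Γℚ" => (AlgebraicClosure ℚ ≃ₐ[ℚ] AlgebraicClosure ℚ)

/-! ### Generic Galois extensions -/

section Generic

variable (K Ω : Type) [Field K] [Field Ω] [Algebra K Ω] (p : ℕ)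

attribute [local instance] muMulDistribMulAction

variable {H : Type} [Group H] (φ : H →* (Ω ≃ₐ[K] Ω))

/-- the multiplicative group of `Ω` as an `H`-module through `φ : H →* Gal(Ω/K)`. -/
noncomputable abbrev locKT_LGen : Rep.{0} ℤ H := res φ (Rep.ofAlgebraAutOnUnits K Ω)

theorem locKT_LGen_ρ_apply (h : H) (a : Additive Ωˣ) :
    (locKT_LGen K Ω φ).ρ h a = Additive.ofMul (φ h • a.toMul) := rfl

/-- the `p`-th power map. -/
noncomputable def locKT_PGen : locKT_LGen K Ω φ ⟶ locKT_LGen K Ω φ :=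
  (resFunctor φ).map (unitsPowHom K Ω p)

theorem locKT_PGen_apply (e : Additive Ωˣ) : (locKT_PGen K Ω p φ).hom e = p • e := rfl

variable {μ' : Rep.{0} (ZMod p) H} (j : μ'.V →+ Additive (rootsOfUnity p Ω))

/-- the additive map `μ' → Ωˣ`. -/
noncomputable def locKT_kappaAdd : μ'.V →+ Additive Ωˣ :=
  (MonoidHom.toAdditive (rootsOfUnity p Ω).subtype).comp j

theorem locKT_kappaAdd_apply (m : μ'.V) :
    locKT_kappaAdd Ω p j m = Additive.ofMul (((j m).toMul : rootsOfUnity p Ω) : Ωˣ) := rfl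

variable (hj : ∀ (h : H) (m : μ'.V), j (μ'.ρ h m) = Additive.ofMul (φ h • (j m).toMul))

include hj in
theorem locKT_kappaAdd_equivariant (h : H) (m : μ'.V) :
    locKT_kappaAdd Ω p j (μ'.ρ h m) =
      ((Rep.ofAlgebraAutOnUnits K Ω).ρ.comp φ) h (locKT_kappaAdd Ω p j m) := by
  rw [locKT_kappaAdd_apply, hj]
  rfl

/-- **`κ_v : μ' → Ωˣ`**, the inclusion of the `p`-th roots of unity. -/
noncomputable def locKT_kappaGen : intRep μ' ⟶ locKT_LGen K Ω φ :=
  intRepHomToAddHom ((Rep.ofAlgebraAutOnUnits K Ω).ρ.comp φ) μ' (locKT_kappaAdd Ω p j)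
    (locKT_kappaAdd_equivariant K Ω p φ j hj)

theorem locKT_kappaGen_apply (m : μ'.V) :
    (locKT_kappaGen K Ω p φ j hj).hom m =
      Additive.ofMul (((j m).toMul : rootsOfUnity p Ω) : Ωˣ) := rfl

theorem locKT_wKGen : locKT_kappaGen K Ω p φ j hj ≫ locKT_PGen K Ω p φ = 0 := by
  ext m
  change Additive.ofMul ((((j m).toMul : rootsOfUnity p Ω) : Ωˣ) ^ p) = Additive.ofMul (1 : Ωˣ)
  rw [(mem_rootsOfUnity _ _).mp ((j m).toMul : rootsOfUnity p Ω).2]

/-- **the local Kummer sequence `0 → μ' → Ωˣ → Ωˣ → 0`** in the shape of `TopDatum.hKv`. -/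
theorem locKT_hKGen [IsAlgClosed Ω] (hp : p ≠ 0) (hjb : Function.Bijective j) :
    (ShortComplex.mk (locKT_kappaGen K Ω p φ j hj) (locKT_PGen K Ω p φ)
      (locKT_wKGen K Ω p φ j hj)).ShortExact := by
  refine rep_shortExact_of_elementwise _ ?_ ?_ ?_
  · intro a b hab
    have h : (((j a).toMul : rootsOfUnity p Ω) : Ωˣ) = (((j b).toMul : rootsOfUnity p Ω) : Ωˣ) :=
      congrArg Additive.toMul hab
    exact hjb.1 (congrArg Additive.ofMul (Subtype.ext h))
  · intro c
    change Additive Ωˣ at c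
    obtain ⟨y, hy⟩ := IsAlgClosed.exists_pow_nat_eq ((c.toMul : Ωˣ) : Ω) (Nat.pos_of_ne_zero hp)
    have hy0 : y ≠ 0 := by
      rintro rfl
      rw [zero_pow hp] at hy
      exact (c.toMul : Ωˣ).ne_zero hy.symm
    refine ⟨Additive.ofMul (Units.mk0 y hy0), ?_⟩
    have h : (Units.mk0 y hy0) ^ p = (c.toMul : Ωˣ) :=
      Units.ext (by rw [Units.val_pow_eq_pow_val, Units.val_mk0, hy])
    change Additive.ofMul ((Units.mk0 y hy0) ^ p) = c
    rw [h]
    rfl
  · intro x hx
    change Additive Ωˣ at x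
    have hx' : (x.toMul : Ωˣ) ^ p = 1 := congrArg Additive.toMul hx
    obtain ⟨m, hm⟩ := hjb.2
      (Additive.ofMul (⟨x.toMul, (mem_rootsOfUnity _ _).mpr hx'⟩ : rootsOfUnity p Ω))
    refine ⟨m, ?_⟩
    change (locKT_kappaGen K Ω p φ j hj).hom m = x
    rw [locKT_kappaGen_apply, hm]
    rfl

end Generic

/-! ### Hilbert 90 for the open subgroups -/

section Hilbert90

variable {K Ω : Type} [Field K] [Field Ω] [Algebra K Ω] [IsGalois K Ω]

/-- **(B1), generic**: `Hlc¹(H, Ωˣ) = 0` for every open subgroup `H` of `Gal(Ω/K)` with the induced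
family. -/
theorem locKT_subsingleton_H1_gen (H : Subgroup (Ω ≃ₐ[K] Ω)) (hH : IsOpenFor (famGal K Ω) H) :
    Subsingleton (Hlc ((famGal K Ω).restrict H)
      (res H.subtype (Rep.ofAlgebraAutOnUnits K Ω)) 1) := by
  obtain ⟨K', hfd, rfl, -⟩ := openSub_exists_of_isOpenFor hH
  have := hfd
  have h0 : Subsingleton (Hlc (famGal (↥K') Ω) (Rep.ofAlgebraAutOnUnits (↥K') Ω) 1) :=
    ModuleCat.subsingleton_of_isZero (isZero_Hlc_one_unitsGal (↥K') Ω)
  exact (openSub_HlcEquiv_units K' 1).toEquiv.subsingleton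

end Hilbert90

/-! ### The arithmetic case, `q : ℕ` -/

section Padic

variable (p : ℕ) [Fact p.Prime] (q : ℕ) [Fact q.Prime]

attribute [local instance] muMulDistribMulAction

/-- the map `μ_p(Qb) → μ_p(PadicAlgCl q)` induced by `padicEmbedding q`. -/
noncomputable def locKT_muMap : rootsOfUnity p Qb →* rootsOfUnity p (PadicAlgCl q) :=
  restrictRootsOfUnity (padicEmbedding q).toRingHom p

theorem locKT_muMap_coe (z : rootsOfUnity p Qb) :
    (((locKT_muMap p q z : rootsOfUnity p (PadicAlgCl q)) : (PadicAlgCl q)ˣ) : PadicAlgCl q) =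
      padicEmbedding q ((z : Qbˣ) : Qb) := rfl

theorem locKT_muMap_coe_units (z : rootsOfUnity p Qb) :
    ((locKT_muMap p q z : rootsOfUnity p (PadicAlgCl q)) : (PadicAlgCl q)ˣ) =
      Units.map (padicEmbedding q : Qb →* PadicAlgCl q) (z : Qbˣ) :=
  Units.ext rfl

theorem locKT_muMap_bijective : Function.Bijective (locKT_muMap p q) := by
  constructor
  · intro a b hab
    apply Subtype.ext
    apply Units.ext
    have h1 := congrArg
      (fun x : rootsOfUnity p (PadicAlgCl q) => ((x : (PadicAlgCl q)ˣ) : PadicAlgCl q)) hab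
    exact (padicEmbedding q).toRingHom.injective h1
  · rintro ⟨t, ht⟩
    obtain ⟨s, hs, hst⟩ := exists_padicEmbedding_eq_of_mem_rootsOfUnity p q t ht
    refine ⟨⟨s, hs⟩, ?_⟩
    apply Subtype.ext
    rw [locKT_muMap_coe_units]
    exact hst

/-- the local Galois action on `μ_p(PadicAlgCl q)` is the global one through
`localGaloisToGlobal q`. -/
theorem locKT_muMap_smul (τ : PadicAlgCl q ≃ₐ[ℚ_[q]] PadicAlgCl q) (z : rootsOfUnity p Qb) :
    locKT_muMap p q (localGaloisToGlobal q τ • z) = τ • locKT_muMap p q z := by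
  apply Subtype.ext
  apply Units.ext
  exact padicEmbedding_localGaloisToGlobal q τ ((z : Qbˣ) : Qb)

/-- the local identification `𝔽_p → μ_p(PadicAlgCl q)`: the image under `padicEmbedding q` of the
global one `sUT_jBase`. -/
noncomputable def locKT_jLoc : ZMod p →+ Additive (rootsOfUnity p (PadicAlgCl q)) :=
  (MonoidHom.toAdditive (locKT_muMap p q)).comp (sUT_jBase p).toAddMonoidHom

theorem locKT_jLoc_apply (m : ZMod p) :
    locKT_jLoc p q m = Additive.ofMul (locKT_muMap p q (sUT_jBase p m).toMul) := rfl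

theorem locKT_jLoc_bijective : Function.Bijective (locKT_jLoc p q) :=
  (locKT_muMap_bijective p q).comp (sUT_jBase p).bijective

/-- equivariance of `locKT_jLoc` for the coefficients `res (localGaloisToGlobal q) (cycloRep p)`. -/
theorem locKT_jLoc_cyclo (τ : PadicAlgCl q ≃ₐ[ℚ_[q]] PadicAlgCl q) (m : ZMod p) :
    locKT_jLoc p q ((res (localGaloisToGlobal q) (cycloRep p)).ρ τ m) =
      Additive.ofMul (τ • (locKT_jLoc p q m).toMul) := by
  have h : (res (localGaloisToGlobal q) (cycloRep p)).ρ τ m =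
      (cycloChar p (localGaloisToGlobal q τ) : ZMod p) * m :=
    ofChar_ρ_apply _ (localGaloisToGlobal q τ) m
  rw [h, locKT_jLoc_apply, sUT_jBase_cyclo p (localGaloisToGlobal q τ) m]
  exact congrArg Additive.ofMul (locKT_muMap_smul p q τ _)

/-- equivariance of `locKT_jLoc` for trivial coefficients: elements whose image in `Γℚ` is in the
kernel of the cyclotomic character fix `μ_p(PadicAlgCl q)`. -/
theorem locKT_jLoc_triv {τ : PadicAlgCl q ≃ₐ[ℚ_[q]] PadicAlgCl q}
    (hτ : cycloChar p (localGaloisToGlobal q τ) = 1) (m : ZMod p) :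
    locKT_jLoc p q m = Additive.ofMul (τ • (locKT_jLoc p q m).toMul) := by
  rw [locKT_jLoc_apply]
  refine congrArg Additive.ofMul ?_
  change _ = τ • locKT_muMap p q (sUT_jBase p m).toMul
  rw [← locKT_muMap_smul, sUT_smul_eq_of_cycloChar_eq_one p hτ]

/-- the twisted local identification `m ↦ ι_q (g • ζ^m)`, `g ∈ Γℚ` (the shape of
`TopDatum.restrictNormal`). -/
noncomputable def locKT_jTwist (g : Γℚ) : ZMod p →+ Additive (rootsOfUnity p (PadicAlgCl q)) :=
  (MonoidHom.toAdditive (locKT_muMap p q)).comp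
    ((MonoidHom.toAdditive (MulDistribMulAction.toMonoidHom (rootsOfUnity p Qb) g)).comp
      (sUT_jBase p).toAddMonoidHom)

theorem locKT_jTwist_apply (g : Γℚ) (m : ZMod p) :
    locKT_jTwist p q g m = Additive.ofMul (locKT_muMap p q (g • (sUT_jBase p m).toMul)) := rfl

theorem locKT_jTwist_bijective (g : Γℚ) : Function.Bijective (locKT_jTwist p q g) := by
  have h1 : Function.Bijective (fun z : rootsOfUnity p Qb => g • z) := MulAction.bijective g
  exact (locKT_muMap_bijective p q).comp (h1.comp (sUT_jBase p).bijective)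

theorem locKT_jTwist_triv (g : Γℚ) {τ : PadicAlgCl q ≃ₐ[ℚ_[q]] PadicAlgCl q}
    (hτ : cycloChar p (localGaloisToGlobal q τ) = 1) (m : ZMod p) :
    locKT_jTwist p q g m = Additive.ofMul (τ • (locKT_jTwist p q g m).toMul) := by
  rw [locKT_jTwist_apply]
  refine congrArg Additive.ofMul ?_
  change _ = τ • locKT_muMap p q (g • (sUT_jBase p m).toMul)
  rw [← locKT_muMap_smul, sUT_smul_eq_of_cycloChar_eq_one p hτ]

end Padic

/-! ### The local Kummer sequence on `Gal(PadicAlgCl q / ℚ_q)`, `q : ℕ` -/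

section PadicTop

variable (p : ℕ) [Fact p.Prime] (q : ℕ) [Fact q.Prime]

attribute [local instance] muMulDistribMulAction

/-- the units of `PadicAlgCl q` as a module over the local Galois group. -/
noncomputable abbrev locKT_U : Rep.{0} ℤ (PadicAlgCl q ≃ₐ[ℚ_[q]] PadicAlgCl q) :=
  Rep.ofAlgebraAutOnUnits ℚ_[q] (PadicAlgCl q)

/-- the `p`-th power map on the units of `PadicAlgCl q`. -/
noncomputable def locKT_PU : locKT_U q ⟶ locKT_U q := unitsPowHom ℚ_[q] (PadicAlgCl q) p

theorem locKT_PU_apply (e : Additive (PadicAlgCl q)ˣ) : (locKT_PU p q).hom e = p • e := rfl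

/-- `κ_q : μ_p → (PadicAlgCl q)ˣ` for the coefficients `res (localGaloisToGlobal q) (cycloRep p)`. -/
noncomputable def locKT_kappaU :
    intRep (res (localGaloisToGlobal q) (cycloRep p)) ⟶ locKT_U q :=
  locKT_kappaGen ℚ_[q] (PadicAlgCl q) p (MonoidHom.id _)
    (μ' := res (localGaloisToGlobal q) (cycloRep p)) (locKT_jLoc p q)
    (fun τ m => locKT_jLoc_cyclo p q τ m)

theorem locKT_kappaU_apply (m : ZMod p) :
    (locKT_kappaU p q).hom m =
      Additive.ofMul ((locKT_muMap p q (sUT_jBase p m).toMul : rootsOfUnity p (PadicAlgCl q)) :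
        (PadicAlgCl q)ˣ) := rfl

theorem locKT_kappaU_apply' (m : ZMod p) :
    (locKT_kappaU p q).hom m =
      Additive.ofMul (Units.map (padicEmbedding q : Qb →* PadicAlgCl q)
        (((sUT_jBase p m).toMul : rootsOfUnity p Qb) : Qbˣ)) := by
  rw [locKT_kappaU_apply, locKT_muMap_coe_units]

theorem locKT_wKU : locKT_kappaU p q ≫ locKT_PU p q = 0 :=
  locKT_wKGen ℚ_[q] (PadicAlgCl q) p (MonoidHom.id _)
    (μ' := res (localGaloisToGlobal q) (cycloRep p)) (locKT_jLoc p q)
    (fun τ m => locKT_jLoc_cyclo p q τ m)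

theorem locKT_hKU :
    (ShortComplex.mk (locKT_kappaU p q) (locKT_PU p q) (locKT_wKU p q)).ShortExact :=
  locKT_hKGen ℚ_[q] (PadicAlgCl q) p (MonoidHom.id _)
    (μ' := res (localGaloisToGlobal q) (cycloRep p)) (locKT_jLoc p q)
    (fun τ m => locKT_jLoc_cyclo p q τ m) (Fact.out : p.Prime).ne_zero (locKT_jLoc_bijective p q)

end PadicTop

/-! ### The arithmetic case, `q : Nat.Primes` -/

section Primes

variable (p : ℕ) [Fact p.Prime] (q : Nat.Primes)

/-- **`Lv`**: the units of `PadicAlgCl q` as a module over `primeLocalGaloisGroup q`. -/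
noncomputable abbrev locKT_L : Rep.{0} ℤ (primeLocalGaloisGroup q) :=
  letI : Fact (q : ℕ).Prime := ⟨q.2⟩
  locKT_U (q : ℕ)

/-- **`smLv`** -/
theorem locKT_smooth : IsSmooth (famLoc q) (locKT_L q) :=
  letI : Fact (q : ℕ).Prime := ⟨q.2⟩
  isSmooth_unitsGal

/-- **`Pv`** -/
noncomputable def locKT_P : locKT_L q ⟶ locKT_L q :=
  letI : Fact (q : ℕ).Prime := ⟨q.2⟩
  locKT_PU p (q : ℕ)

/-- **`hPv`** -/
theorem locKT_P_apply (e : (locKT_L q).V) : (locKT_P p q).hom e = p • e := rfl

/-- **`κv`** for the coefficients `(locS S).coeff (cycloRep p) q`. -/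
noncomputable def locKT_kappa :
    intRep (res (primeLocalToGlobal q) (cycloRep p)) ⟶ locKT_L q :=
  letI : Fact (q : ℕ).Prime := ⟨q.2⟩
  locKT_kappaU p (q : ℕ)

/-- **`wKv`** -/
theorem locKT_wK : locKT_kappa p q ≫ locKT_P p q = 0 :=
  letI : Fact (q : ℕ).Prime := ⟨q.2⟩
  locKT_wKU p (q : ℕ)

/-- **`hKv`** -/
theorem locKT_hK :
    (ShortComplex.mk (locKT_kappa p q) (locKT_P p q) (locKT_wK p q)).ShortExact :=
  letI : Fact (q : ℕ).Prime := ⟨q.2⟩
  locKT_hKU p (q : ℕ)

/-- **(B1)** at the top level: `Hlc¹(G_q, (PadicAlgCl q)ˣ) = 0`. -/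
theorem locKT_subsingleton_H1 : Subsingleton (Hlc (famLoc q) (locKT_L q) 1) :=
  letI : Fact (q : ℕ).Prime := ⟨q.2⟩
  ModuleCat.subsingleton_of_isZero
    (isZero_Hlc_one_unitsGal ℚ_[(q : ℕ)] (PadicAlgCl (q : ℕ)))

/-- **(B1)** for the open subgroups of the local Galois group with the induced family. -/
theorem locKT_subsingleton_H1_sub (H : Subgroup (primeLocalGaloisGroup q))
    (hH : IsOpenFor (famLoc q) H) :
    Subsingleton (Hlc ((famLoc q).restrict H) (res H.subtype (locKT_L q)) 1) :=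
  letI : Fact (q : ℕ).Prime := ⟨q.2⟩
  locKT_subsingleton_H1_gen (K := ℚ_[(q : ℕ)]) (Ω := PadicAlgCl (q : ℕ)) H hH

variable (S : Finset Nat.Primes)

/-- the preimage in the local Galois group of an open subgroup of `G_S` is open. -/
theorem locKT_isOpenFor_comap (V : Subgroup Γℚ) (hV : IsOpenFor (famS S) V) :
    IsOpenFor (famLoc q) (V.comap (primeLocalToGlobal q)) := by
  obtain ⟨U, hU, hUV⟩ := hV
  obtain ⟨W, hW, hWU⟩ := famLoc_compat_famS q S U hU
  exact ⟨W, hW, fun w hw => hUV (hWU hw)⟩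

/-- **(B1)** in the shape of `locSV S V = (locS S).restrictNormal V`. -/
theorem locKT_subsingleton_H1_locSV (V : Subgroup Γℚ) [V.Normal] (hV : IsOpenFor (famS S) V)
    (x : (locSV S V).ι) :
    Subsingleton (Hlc ((locSV S V).fam x)
      (res (V.comap ((locS S).ψ x.1)).subtype (locKT_L x.1.1)) 1) :=
  locKT_subsingleton_H1_sub x.1.1 (V.comap (primeLocalToGlobal x.1.1))
    (locKT_isOpenFor_comap x.1.1 S V hV)

end Primes

/-! ### The `ℚ`-level datum -/

section QLevel

variable (p : ℕ) [Fact p.Prime] (S : Finset Nat.Primes) (hpS : pPrime p ∈ S)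

attribute [local instance] sUR_mulDistribMulAction muMulDistribMulAction

/-- the additive map `𝔽_p → E_S` (global twin of `locKT_jLoc`). -/
noncomputable def locKT_kappaQAdd : ZMod p →+ Additive (ES S) :=
  (MonoidHom.toAdditive (sUR_muInclHom p S hpS)).comp (sUT_jBase p).toAddMonoidHom

theorem locKT_kappaQAdd_apply (m : ZMod p) :
    locKT_kappaQAdd p S hpS m = Additive.ofMul (sUR_muInclHom p S hpS (sUT_jBase p m).toMul) := rfl

/-- **`κ : μ_p → E_S` over `Γℚ`** for the coefficients `cycloRep p` (the `Γℚ`-level twin of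
`sUT_kappaCyclo`). -/
noncomputable def locKT_kappaQ : intRep (cycloRep p) ⟶ ESRep S :=
  intRepHomToAddHom (ESRep S).ρ (cycloRep p) (locKT_kappaQAdd p S hpS) (fun g m => by
    have h : (cycloRep p).ρ g m = (cycloChar p g : ZMod p) * m := ofChar_ρ_apply _ g m
    change Additive.ofMul (sUR_muInclHom p S hpS (sUT_jBase p ((cycloRep p).ρ g m)).toMul) =
      Additive.ofMul (g • sUR_muInclHom p S hpS (sUT_jBase p m).toMul)
    rw [h, sUT_jBase_cyclo]
    rfl)

theorem locKT_kappaQ_apply (m : ZMod p) :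
    (locKT_kappaQ p S hpS).hom m =
      Additive.ofMul (sUR_muInclHom p S hpS (sUT_jBase p m).toMul) := rfl

theorem locKT_wKQ : locKT_kappaQ p S hpS ≫ sUR_powHom p S = 0 := by
  ext m
  change Additive.ofMul ((sUR_muInclHom p S hpS (sUT_jBase p m).toMul) ^ p) =
    Additive.ofMul (1 : ES S)
  refine congrArg Additive.ofMul (Subtype.ext ?_)
  rw [Subgroup.coe_pow, coe_sUR_muInclHom,
    (mem_rootsOfUnity _ _).mp ((sUT_jBase p m).toMul : rootsOfUnity p Qb).2]
  rfl

/-- **the Kummer sequence `0 → μ_p → E_S → E_S → 0` over `Γℚ`** with first term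
`intRep (cycloRep p)`. -/
theorem locKT_hKQ :
    (ShortComplex.mk (locKT_kappaQ p S hpS) (sUR_powHom p S) (locKT_wKQ p S hpS)).ShortExact := by
  have hS := kummerSeqS_shortExact p S hpS
  refine rep_shortExact_of_elementwise _ ?_ ?_ ?_
  · intro a b hab
    have h : ((sUR_muInclHom p S hpS (sUT_jBase p a).toMul : ES S) : Qbˣ) =
        ((sUR_muInclHom p S hpS (sUT_jBase p b).toMul : ES S) : Qbˣ) :=
      congrArg (fun t : Additive (ES S) => ((t.toMul : ES S) : Qbˣ)) hab
    rw [coe_sUR_muInclHom, coe_sUR_muInclHom] at h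
    have h2 : (sUT_jBase p a).toMul = (sUT_jBase p b).toMul := Subtype.ext h
    exact (sUT_jBase p).injective (congrArg Additive.ofMul h2)
  · exact (Rep.epi_iff_surjective _).1 hS.epi_g
  · intro x hx
    obtain ⟨z, hz⟩ := (rep_shortComplex_exact_iff (kummerSeqS p S hpS)).1 hS.exact x hx
    change Additive (rootsOfUnity p Qb) at z
    refine ⟨(sUT_jBase p).symm z, ?_⟩
    change (locKT_kappaQ p S hpS).hom ((sUT_jBase p).symm z) = x
    rw [locKT_kappaQ_apply, (sUT_jBase p).apply_symm_apply]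
    exact hz

/-- **the `ℚ`-level `TopDatum`** over `(Γℚ, famS S, locS S, cycloRep p)` from the idele sequence
`0 → E_S → J → C → 0` and the localisation maps `lamv q : J|_{G_q} → (PadicAlgCl q)ˣ`. -/
noncomputable def locKT_topDatum (J C : Rep.{0} ℤ Γℚ) (ιE : ESRep S ⟶ J) (π : J ⟶ C)
    (wI : ιE ≫ π = 0) (hI : (ShortComplex.mk ιE π wI).ShortExact) (smJ : IsSmooth (famS S) J)
    (lamv : ∀ v : ↥S, res (primeLocalToGlobal v.1) J ⟶ locKT_L v.1)
    (hlam : ∀ (v : ↥S) (m : ZMod p),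
      (lamv v).hom (ιE.hom ((locKT_kappaQ p S hpS).hom m)) = (locKT_kappa p v.1).hom m) :
    TopDatum p (locS S) (cycloRep p) where
  E := ESRep S
  J := J
  C := C
  κ := locKT_kappaQ p S hpS
  P := sUR_powHom p S
  hP _ := rfl
  wK := locKT_wKQ p S hpS
  hK := locKT_hKQ p S hpS
  smE := isSmooth_ESRep S
  ιE := ιE
  π := π
  wI := wI
  hI := hI
  smJ := smJ
  Lv v := locKT_L v.1
  κv v := locKT_kappa p v.1
  Pv v := locKT_P p v.1
  hPv _ _ := rfl
  wKv v := locKT_wK p v.1
  hKv v := locKT_hK p v.1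
  smLv v := locKT_smooth v.1
  lamv := lamv
  hcompat := hlam

/-- `hlam` of `locKT_topDatum` holds as soon as `lamv q` is `padicEmbedding q` on the diagonally
embedded `S`-units. -/
theorem locKT_hlam_of_units {J : Rep.{0} ℤ Γℚ} (ιE : ESRep S ⟶ J)
    (lamv : ∀ v : ↥S, res (primeLocalToGlobal v.1) J ⟶ locKT_L v.1)
    (h : ∀ (v : ↥S) (e : ES S), (lamv v).hom (ιE.hom (Additive.ofMul e)) =
      letI : Fact ((v.1 : ℕ)).Prime := ⟨v.1.2⟩
      Additive.ofMul (Units.map (padicEmbedding (v.1 : ℕ) : Qb →* PadicAlgCl (v.1 : ℕ))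
        ((e : ES S) : Qbˣ)))
    (v : ↥S) (m : ZMod p) :
    (lamv v).hom (ιE.hom ((locKT_kappaQ p S hpS).hom m)) = (locKT_kappa p v.1).hom m := by
  let _ : Fact ((v.1 : ℕ)).Prime := ⟨v.1.2⟩
  exact (h v (sUR_muInclHom p S hpS (sUT_jBase p m).toMul)).trans
    (locKT_kappaU_apply' p (v.1 : ℕ) m).symm

/-- **(B1)** for every restriction `D.restrictNormal V` of a `ℚ`-level datum whose local modules
are the units of `PadicAlgCl q`. -/
theorem locKT_hB1_restrictNormal {μ : Rep.{0} (ZMod p) Γℚ} (D : TopDatum p (locS S) μ)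
    (hL : ∀ v : ↥S, D.Lv v = locKT_L v.1) (V : Subgroup Γℚ) [V.Normal]
    (hV : IsOpenFor (famS S) V) (x : ((locS S).restrictNormal V).ι) :
    Subsingleton (Hlc (((locS S).restrictNormal V).fam x) ((D.restrictNormal V).Lv x) 1) := by
  have h := locKT_subsingleton_H1_locSV S V hV x
  have e : (D.restrictNormal V).Lv x =
      res (V.comap ((locS S).ψ x.1)).subtype (locKT_L x.1.1) := by
    rw [TopDatum.restrictNormal_Lv]
    exact congrArg (fun B => res (V.comap ((locS S).ψ x.1)).subtype B) (hL x.1)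
  rw [e]
  exact h

variable (J C : Rep.{0} ℤ Γℚ) (ιE : ESRep S ⟶ J) (π : J ⟶ C)
    (wI : ιE ≫ π = 0) (hI : (ShortComplex.mk ιE π wI).ShortExact) (smJ : IsSmooth (famS S) J)
    (lamv : ∀ v : ↥S, res (primeLocalToGlobal v.1) J ⟶ locKT_L v.1)
    (hlam : ∀ (v : ↥S) (m : ZMod p),
      (lamv v).hom (ιE.hom ((locKT_kappaQ p S hpS).hom m)) = (locKT_kappa p v.1).hom m)

@[simp] theorem locKT_topDatum_Lv (v : ↥S) :
    (locKT_topDatum p S hpS J C ιE π wI hI smJ lamv hlam).Lv v = locKT_L v.1 := rfl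

@[simp] theorem locKT_topDatum_E :
    (locKT_topDatum p S hpS J C ιE π wI hI smJ lamv hlam).E = ESRep S := rfl

@[simp] theorem locKT_topDatum_J :
    (locKT_topDatum p S hpS J C ιE π wI hI smJ lamv hlam).J = J := rfl

@[simp] theorem locKT_topDatum_C :
    (locKT_topDatum p S hpS J C ιE π wI hI smJ lamv hlam).C = C := rfl

theorem locKT_topDatum_lamv (v : ↥S) :
    (locKT_topDatum p S hpS J C ιE π wI hI smJ lamv hlam).lamv v = lamv v := rfl

/-- **(B1)** for `locKT_topDatum` at the `ℚ`-level. -/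
theorem locKT_topDatum_hB1 (v : (locS S).ι) :
    Subsingleton (Hlc ((locS S).fam v)
      ((locKT_topDatum p S hpS J C ιE π wI hI smJ lamv hlam).Lv v) 1) :=
  locKT_subsingleton_H1 v.1

/-- **(B1)** for `locKT_topDatum` restricted to an open normal subgroup. -/
theorem locKT_topDatum_hB1_restrictNormal (V : Subgroup Γℚ) [V.Normal]
    (hV : IsOpenFor (famS S) V) (x : ((locS S).restrictNormal V).ι) :
    Subsingleton (Hlc (((locS S).restrictNormal V).fam x)
      (((locKT_topDatum p S hpS J C ιE π wI hI smJ lamv hlam).restrictNormal V).Lv x) 1) :=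
  locKT_hB1_restrictNormal p S _ (fun _ => rfl) V hV x

end QLevel

end Fermat.Agent.PT
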