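import Fermat.Agent.CFT.PT.LocalKummerTop
import Fermat.Agent.CFT.PT.SmoothCoindLocal

set_option autoImplicit false
set_option linter.unusedSectionVars false

/-!
# S55 GLOBAL TOP (LK'): the `ℚ`-level `TopDatum` with `Lv = smLoc_units`

(helper7)  `locKT_L q` of `PT/LocalKummerTop.lean` and `smLoc_units q` of
`PT/SmoothCoindLocal.lean` are the same representation (`locKT_L_eq_smLoc_units`, `rfl`).  This
file restates the builder of the `ℚ`-level datum with the local modules SYNTACTICALLY equal to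
`smLoc_units v.1`, the shape consumed by `PT/SmoothCoindAssembly.lean` / `PT/SmoothCoindInst.lean`.
-/

namespace Fermat.Agent.PT

open CategoryTheory groupCohomology Rep ExtCitation Fermat.Agent.CFT

local notation "Qb" => AlgebraicClosure ℚ
local notation "Γℚ" => (AlgebraicClosure ℚ ≃ₐ[ℚ] AlgebraicClosure ℚ)

theorem locKT_L_eq_smLoc_units (q : Nat.Primes) : locKT_L q = smLoc_units q := rfl

section QLevel

variable (p : ℕ) [Fact p.Prime] (S : Finset Nat.Primes) (hpS : pPrime p ∈ S)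

attribute [local instance] sUR_mulDistribMulAction muMulDistribMulAction

/-- `κv` with target `smLoc_units q`. -/
noncomputable def locKT_kappaSm (q : Nat.Primes) :
    intRep (res (primeLocalToGlobal q) (cycloRep p)) ⟶ smLoc_units q :=
  locKT_kappa p q

/-- `Pv` on `smLoc_units q`. -/
noncomputable def locKT_PSm (q : Nat.Primes) : smLoc_units q ⟶ smLoc_units q := locKT_P p q

theorem locKT_PSm_apply (q : Nat.Primes) (e : (smLoc_units q).V) :
    (locKT_PSm p q).hom e = p • e := rfl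

theorem locKT_wKSm (q : Nat.Primes) : locKT_kappaSm p q ≫ locKT_PSm p q = 0 := locKT_wK p q

theorem locKT_hKSm (q : Nat.Primes) :
    (ShortComplex.mk (locKT_kappaSm p q) (locKT_PSm p q) (locKT_wKSm p q)).ShortExact :=
  locKT_hK p q

theorem locKT_smoothSm (q : Nat.Primes) : IsSmooth (famLoc q) (smLoc_units q) := locKT_smooth q

/-- **the `ℚ`-level `TopDatum`** with `Lv v = smLoc_units v.1` (syntactically). -/
noncomputable def locKT_topDatumSm (J C : Rep.{0} ℤ Γℚ) (ιE : ESRep S ⟶ J) (π : J ⟶ C)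
    (wI : ιE ≫ π = 0) (hI : (ShortComplex.mk ιE π wI).ShortExact) (smJ : IsSmooth (famS S) J)
    (lamv : ∀ v : ↥S, res (primeLocalToGlobal v.1) J ⟶ smLoc_units v.1)
    (hlam : ∀ (v : ↥S) (m : ZMod p),
      (lamv v).hom (ιE.hom ((locKT_kappaQ p S hpS).hom m)) = (locKT_kappaSm p v.1).hom m) :
    TopDatum p (locS S) (cycloRep p) where
  E := ESRep S
  J := J
  C := C
  κ := locKT_kappaQ p S hpS
  P := sUR_powHom p S
  hP _ := rfl
  wK := locKT_wKQ p S hpS
  hK := locKT_hKQ p S hpS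
  smE := isSmooth_ESRep S
  ιE := ιE
  π := π
  wI := wI
  hI := hI
  smJ := smJ
  Lv v := smLoc_units v.1
  κv v := locKT_kappaSm p v.1
  Pv v := locKT_PSm p v.1
  hPv _ _ := rfl
  wKv v := locKT_wKSm p v.1
  hKv v := locKT_hKSm p v.1
  smLv v := locKT_smoothSm v.1
  lamv := lamv
  hcompat := hlam

variable (J C : Rep.{0} ℤ Γℚ) (ιE : ESRep S ⟶ J) (π : J ⟶ C)
    (wI : ιE ≫ π = 0) (hI : (ShortComplex.mk ιE π wI).ShortExact) (smJ : IsSmooth (famS S) J)
    (lamv : ∀ v : ↥S, res (primeLocalToGlobal v.1) J ⟶ smLoc_units v.1)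
    (hlam : ∀ (v : ↥S) (m : ZMod p),
      (lamv v).hom (ιE.hom ((locKT_kappaQ p S hpS).hom m)) = (locKT_kappaSm p v.1).hom m)

@[simp] theorem locKT_topDatumSm_Lv (v : ↥S) :
    (locKT_topDatumSm p S hpS J C ιE π wI hI smJ lamv hlam).Lv v = smLoc_units v.1 := rfl

@[simp] theorem locKT_topDatumSm_E :
    (locKT_topDatumSm p S hpS J C ιE π wI hI smJ lamv hlam).E = ESRep S := rfl

@[simp] theorem locKT_topDatumSm_J :
    (locKT_topDatumSm p S hpS J C ιE π wI hI smJ lamv hlam).J = J := rfl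

@[simp] theorem locKT_topDatumSm_C :
    (locKT_topDatumSm p S hpS J C ιE π wI hI smJ lamv hlam).C = C := rfl

theorem locKT_topDatumSm_lamv (v : ↥S) :
    (locKT_topDatumSm p S hpS J C ιE π wI hI smJ lamv hlam).lamv v = lamv v := rfl

theorem locKT_topDatumSm_ιE :
    (locKT_topDatumSm p S hpS J C ιE π wI hI smJ lamv hlam).ιE = ιE := rfl

theorem locKT_topDatumSm_π :
    (locKT_topDatumSm p S hpS J C ιE π wI hI smJ lamv hlam).π = π := rfl

/-- `hlam` of `locKT_topDatumSm` holds as soon as `lamv q` is `padicEmbedding q` on the diagonally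
embedded `S`-units. -/
theorem locKT_hlamSm_of_units {J : Rep.{0} ℤ Γℚ} (ιE : ESRep S ⟶ J)
    (lamv : ∀ v : ↥S, res (primeLocalToGlobal v.1) J ⟶ smLoc_units v.1)
    (h : ∀ (v : ↥S) (e : ES S), (lamv v).hom (ιE.hom (Additive.ofMul e)) =
      letI : Fact ((v.1 : ℕ)).Prime := ⟨v.1.2⟩
      Additive.ofMul (Units.map (padicEmbedding (v.1 : ℕ) : Qb →* PadicAlgCl (v.1 : ℕ))
        ((e : ES S) : Qbˣ)))
    (v : ↥S) (m : ZMod p) :
    (lamv v).hom (ιE.hom ((locKT_kappaQ p S hpS).hom m)) = (locKT_kappaSm p v.1).hom m :=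
  locKT_hlam_of_units p S hpS ιE lamv h v m

/-- **(B1)** for `locKT_topDatumSm` at the `ℚ`-level. -/
theorem locKT_topDatumSm_hB1 (v : (locS S).ι) :
    Subsingleton (Hlc ((locS S).fam v)
      ((locKT_topDatumSm p S hpS J C ιE π wI hI smJ lamv hlam).Lv v) 1) :=
  locKT_subsingleton_H1 v.1

/-- **(B1)** for `locKT_topDatumSm` restricted to an open normal subgroup. -/
theorem locKT_topDatumSm_hB1_restrictNormal (V : Subgroup Γℚ) [V.Normal]
    (hV : IsOpenFor (famS S) V) (x : ((locS S).restrictNormal V).ι) :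
    Subsingleton (Hlc (((locS S).restrictNormal V).fam x)
      (((locKT_topDatumSm p S hpS J C ιE π wI hI smJ lamv hlam).restrictNormal V).Lv x) 1) :=
  locKT_hB1_restrictNormal p S _ (fun _ => rfl) V hV x

end QLevel

end Fermat.Agent.PT
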