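/-
S55 engine (P4)(c): the Mackey–Shapiro square commutes.

For `V ≤ G` normal, `B : Rep k V` smooth, a local system `𝔏` over `(G, 𝔉)`, a place `v` and `g : G`:
the composite
`Hlc(G, Coind_V B) --loc_v--> Hlc(G_v, res ψ_v Coind_V B) --mackeyProj g--> Hlc(G_v, Coind_{V_v} B^g)
   --Shapiro--> Hlc(V_v, B^g)`
agrees with
`Hlc(G, Coind_V B) --Shapiro--> Hlc(V, B) --res along u ↦ g ψ_v(u) g⁻¹--> Hlc(V_v, B^g)`,
because conjugation by `g` acts trivially on `Hlc(G, Coind_V B)` (`HlcConj_apply`).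
-/
import Fermat.Agent.CFT.PT.MackeyModule
import Fermat.Agent.CFT.PT.InnerTrivial
import Fermat.Agent.CFT.PT.ConeFunct

set_option autoImplicit false

namespace Fermat.Agent.PT

open CategoryTheory groupCohomology Rep

universe u

variable {k G : Type u} [CommRing k] [Group G] {𝔉 : LevelFamily G}

section OneMap

variable {Γ : Type u} [Group Γ] (𝔉Γ : LevelFamily Γ) (ψ : Γ →* G) (V : Subgroup G) [V.Normal]
  (B : Rep.{u} k V)

/-- the local Mackey–Shapiro component: push along `mackeyProj ψ V B g`, then local Shapiro. -/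
noncomputable def mackeyLocMap (g : G) (n : ℕ) :
    Hlc 𝔉Γ (res ψ (coind V.subtype B)) n →ₗ[k]
      Hlc (𝔉Γ.restrict (V.comap ψ)) (res (conjComap ψ V g) B) n :=
  (HlcShapiro 𝔉Γ (V.comap ψ) (res (conjComap ψ V g) B) n).hom ∘ₗ
    HlcCoeff (mackeyProj ψ V B g) 𝔉Γ n

theorem mackeyLocMap_apply (g : G) (n : ℕ) (x : Hlc 𝔉Γ (res ψ (coind V.subtype B)) n) :
    mackeyLocMap 𝔉Γ ψ V B g n x =
      (HlcShapiro 𝔉Γ (V.comap ψ) (res (conjComap ψ V g) B) n).hom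
        (HlcCoeff (mackeyProj ψ V B g) 𝔉Γ n x) := rfl

/-- `u ↦ g ψ(u) g⁻¹ : ψ⁻¹(V) → V` is compatible with the restricted families. -/
theorem mackeySq_compat_conjComap (hψ : 𝔉Γ.Compat ψ 𝔉) (g : G) :
    (𝔉Γ.restrict (V.comap ψ)).Compat (conjComap ψ V g) (𝔉.restrict V) := by
  rintro W ⟨U, hU, rfl⟩
  obtain ⟨U', hU', hle⟩ := hψ U hU
  refine ⟨U'.subgroupOf (V.comap ψ), ⟨U', hU', rfl⟩, ?_⟩
  intro u hu
  have h1 : ψ (u : Γ) ∈ U := hle hu
  have hn : U.Normal := 𝔉.normal U hU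
  change (conjComap ψ V g u : G) ∈ U
  rw [conjComap_coe]
  exact hn.conj_mem _ h1 _

/-- **The Mackey–Shapiro square** for one map `ψ : Γ →* G` and one `g : G`. -/
theorem mackeyLocMap_HlcMap (hfin : 𝔉.FiniteIndex) (hψ : 𝔉Γ.Compat ψ 𝔉) (hV : IsOpenFor 𝔉 V)
    (hB : IsSmooth (𝔉.restrict V) B) (g : G) (n : ℕ)
    (h : (𝔉Γ.restrict (V.comap ψ)).Compat (conjComap ψ V g) (𝔉.restrict V))
    (x : Hlc 𝔉 (coind V.subtype B) n) :
    mackeyLocMap 𝔉Γ ψ V B g n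
        ((HlcMap ψ (𝟙 (res ψ (coind V.subtype B))) hψ n).hom x) =
      (HlcMap (conjComap ψ V g) (𝟙 (res (conjComap ψ V g) B)) h n).hom
        ((HlcShapiro 𝔉 V B n).hom x) := by
  have hsm : IsSmooth 𝔉 (coind V.subtype B) := isSmooth_coind hfin hV hB
  have hx : (HlcConj 𝔉 (coind V.subtype B) g n).hom x = x := HlcConj_apply hfin g n _ hsm x
  conv_lhs => rw [← hx]
  obtain ⟨c, rfl⟩ := lcπ_surjective 𝔉 (coind V.subtype B) n x
  rw [HlcConj, HlcMap_lcπ, HlcMap_lcπ, mackeyLocMap_apply, HlcCoeff_lcπ, HlcShapiro_lcπ,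
    HlcShapiro_lcπ, HlcMap_lcπ]
  congr 1
  apply Subtype.ext
  funext u
  show (((coind V.subtype B).ρ g⁻¹ (c.1 (fun i => conjHom g (ψ ((u i : Γ))))) :
      B.ρ.coindV V.subtype).1 (g * ψ 1)) =
    (c.1 (fun i => V.subtype (conjComap ψ V g (u i))) : B.ρ.coindV V.subtype).1 1
  show (c.1 (fun i => conjHom g (ψ ((u i : Γ)))) : B.ρ.coindV V.subtype).1 (g * ψ 1 * g⁻¹) =
    (c.1 (fun i => V.subtype (conjComap ψ V g (u i))) : B.ρ.coindV V.subtype).1 1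
  rw [map_one, mul_one, mul_inv_cancel]
  rfl

end OneMap

section LocSys

variable (𝔏 : LocSystem 𝔉) (V : Subgroup G) [V.Normal] (B : Rep.{u} k V)

/-- the total local Mackey–Shapiro map
`∏_v Hlc(G_v, res ψ_v Coind_V B) → ∏_{(v,c)} Hlc(ψ_v⁻¹ V, B^{g_c})`. -/
noncomputable def mackeyLocTotal (n : ℕ) :
    (∀ v : 𝔏.ι, Hlc (𝔏.fam v) (𝔏.coeff (coind V.subtype B) v) n) →ₗ[k]
      ∀ y : (𝔏.restrictNormal V).ι,
        Hlc ((𝔏.restrictNormal V).fam y) ((𝔏.restrictNormal V).coeff B y) n :=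
  LinearMap.pi fun y =>
    mackeyLocMap (𝔏.fam y.1) (𝔏.ψ y.1) V B (Quotient.out y.2) n ∘ₗ LinearMap.proj y.1

theorem mackeyLocTotal_apply (n : ℕ)
    (z : ∀ v : 𝔏.ι, Hlc (𝔏.fam v) (𝔏.coeff (coind V.subtype B) v) n)
    (y : (𝔏.restrictNormal V).ι) :
    mackeyLocTotal 𝔏 V B n z y =
      mackeyLocMap (𝔏.fam y.1) (𝔏.ψ y.1) V B (Quotient.out y.2) n (z y.1) := rfl

/-- **(P4)(c)**: the square `locRes` / `HlcShapiro` / `mackeyLocTotal` commutes. -/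
theorem mackeyLocTotal_locRes (hfin : 𝔉.FiniteIndex) (hV : IsOpenFor 𝔉 V)
    (hB : IsSmooth (𝔉.restrict V) B) (n : ℕ) (x : Hlc 𝔉 (coind V.subtype B) n) :
    mackeyLocTotal 𝔏 V B n (locRes 𝔏 (coind V.subtype B) n x) =
      locRes (𝔏.restrictNormal V) B n ((HlcShapiro 𝔉 V B n).hom x) := by
  funext y
  rw [mackeyLocTotal_apply, locRes_apply, locRes_apply]
  exact mackeyLocMap_HlcMap (𝔏.fam y.1) (𝔏.ψ y.1) V B hfin (𝔏.compat y.1) hV hB
    (Quotient.out y.2) n ((𝔏.restrictNormal V).compat y) x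

theorem mackeyLocTotal_comp_locRes (hfin : 𝔉.FiniteIndex) (hV : IsOpenFor 𝔉 V)
    (hB : IsSmooth (𝔉.restrict V) B) (n : ℕ) :
    mackeyLocTotal 𝔏 V B n ∘ₗ locRes 𝔏 (coind V.subtype B) n =
      locRes (𝔏.restrictNormal V) B n ∘ₗ (HlcShapiro 𝔉 V B n).hom :=
  LinearMap.ext fun x => mackeyLocTotal_locRes 𝔏 V B hfin hV hB n x

end LocSys

end Fermat.Agent.PT
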