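import Fermat.Agent.CFT.PT.ChangeOfRing
import Fermat.Agent.CFT.Idele.Defs

/-!
# S55, GLOBAL C-side (helper27): representations attached to multiplicative `G`-modules, their
stable subgroups and quotients, and the standard short exact sequences between them

`G` a group, `A` a commutative group with `MulDistribMulAction G A` (everything in `Type`, so that
the representations live in `Rep.{0} ℤ G`).

* `qrHom f hf` : the morphism `Rep.ofMulDistribMulAction G A ⟶ Rep.ofMulDistribMulAction G B` of an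
  equivariant monoid homomorphism; `qrSC`, `qrSC_shortExact` (elementwise criterion);
* `qrSubAction N hN`, `qrQuotAction N hN` : the actions on a stable subgroup and on the quotient;
* `qrSub`, `qrQuot`, `qrSubQuot` : the representations `N`, `A ⧸ N`, `M ⧸ (M ⊓ N)`;
* `qrSeqSub` : `0 → N → A → A/N → 0`; `qrSeqSup` : `0 → M/(M ⊓ N) → A/N → A/(M ⊔ N) → 0`.
All names are prefixed `qr`.
-/

set_option autoImplicit false

namespace Fermat.Agent.PT

open CategoryTheory

section Hom

variable {G : Type} [Group G] {A B C : Type} [CommGroup A] [CommGroup B] [CommGroup C]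
  [MulDistribMulAction G A] [MulDistribMulAction G B] [MulDistribMulAction G C]

/-- the morphism of representations attached to an equivariant monoid homomorphism. -/
noncomputable def qrHom (f : A →* B) (hf : ∀ (g : G) (a : A), f (g • a) = g • f a) :
    Rep.ofMulDistribMulAction G A ⟶ Rep.ofMulDistribMulAction G B :=
  Rep.ofHom
    { toLinearMap := (MonoidHom.toAdditive f).toIntLinearMap
      isIntertwining' := fun g => by
        refine LinearMap.ext fun a => ?_
        exact congrArg Additive.ofMul (hf g (Additive.toMul a)) }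

theorem qrHom_apply (f : A →* B) (hf : ∀ (g : G) (a : A), f (g • a) = g • f a)
    (a : Additive A) : (qrHom f hf).hom a = Additive.ofMul (f (Additive.toMul a)) := rfl

theorem qrHom_comp_eq_zero (f : A →* B) (hf : ∀ (g : G) (a : A), f (g • a) = g • f a)
    (f' : B →* C) (hf' : ∀ (g : G) (b : B), f' (g • b) = g • f' b) (h : ∀ a, f' (f a) = 1) :
    qrHom f hf ≫ qrHom f' hf' = 0 := by
  ext a
  change Additive A at a
  exact congrArg Additive.ofMul (h (Additive.toMul a))

/-- the short complex `A → B → C` of representations attached to equivariant homomorphisms. -/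
noncomputable def qrSC (f : A →* B) (hf : ∀ (g : G) (a : A), f (g • a) = g • f a)
    (f' : B →* C) (hf' : ∀ (g : G) (b : B), f' (g • b) = g • f' b) (h : ∀ a, f' (f a) = 1) :
    ShortComplex (Rep.{0} ℤ G) :=
  ShortComplex.mk (qrHom f hf) (qrHom f' hf') (qrHom_comp_eq_zero f hf f' hf' h)

theorem qrSC_shortExact (f : A →* B) (hf : ∀ (g : G) (a : A), f (g • a) = g • f a)
    (f' : B →* C) (hf' : ∀ (g : G) (b : B), f' (g • b) = g • f' b) (h : ∀ a, f' (f a) = 1)
    (hinj : Function.Injective f) (hsurj : Function.Surjective f')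
    (hex : ∀ b, f' b = 1 → ∃ a, f a = b) : (qrSC f hf f' hf' h).ShortExact := by
  refine rep_shortExact_of_elementwise _ ?_ ?_ ?_
  · intro a a' haa'
    change Additive A at a a'
    have h1 : f (Additive.toMul a) = f (Additive.toMul a') :=
      congrArg Additive.toMul haa'
    exact congrArg Additive.ofMul (hinj h1)
  · intro c
    change Additive C at c
    obtain ⟨b, hb⟩ := hsurj (Additive.toMul c)
    exact ⟨Additive.ofMul b, congrArg Additive.ofMul hb⟩
  · intro b hb
    change Additive B at b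
    have h1 : f' (Additive.toMul b) = 1 := congrArg Additive.toMul hb
    obtain ⟨a, ha⟩ := hex _ h1
    exact ⟨Additive.ofMul a, congrArg Additive.ofMul ha⟩

/-- short exactness is inherited by the restriction to a subgroup. -/
theorem qrSC_res_shortExact (f : A →* B) (hf : ∀ (g : G) (a : A), f (g • a) = g • f a)
    (f' : B →* C) (hf' : ∀ (g : G) (b : B), f' (g • b) = g • f' b) (h : ∀ a, f' (f a) = 1)
    (hinj : Function.Injective f) (hsurj : Function.Surjective f')
    (hex : ∀ b, f' b = 1 → ∃ a, f a = b) (V : Subgroup G) :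
    ((qrSC f hf f' hf' h).map (Rep.resFunctor V.subtype)).ShortExact :=
  (Rep.shortExact_res V.subtype).2 (qrSC_shortExact f hf f' hf' h hinj hsurj hex)

end Hom

section Stable

variable {G : Type} [Group G] {A : Type} [CommGroup A] [MulDistribMulAction G A]

/-- the action on a stable subgroup. -/
@[reducible] def qrSubAction (N : Subgroup A) (hN : ∀ (g : G), ∀ a ∈ N, g • a ∈ N) :
    MulDistribMulAction G ↥N where
  smul g x := ⟨g • (x : A), hN g x x.2⟩
  one_smul x := Subtype.ext (one_smul _ (x : A))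
  mul_smul g h x := Subtype.ext (mul_smul g h (x : A))
  smul_mul g x y := Subtype.ext (smul_mul' g (x : A) (y : A))
  smul_one g := Subtype.ext (smul_one g)

theorem qrSubAction_coe (N : Subgroup A) (hN : ∀ (g : G), ∀ a ∈ N, g • a ∈ N) (g : G) (x : N) :
    letI := qrSubAction N hN
    ((g • x : N) : A) = g • (x : A) := rfl

/-- the action on the quotient by a stable subgroup (helper23's `quotientMulDistribMulAction`). -/
@[reducible] def qrQuotAction (N : Subgroup A) (hN : ∀ (g : G), ∀ a ∈ N, g • a ∈ N) :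
    MulDistribMulAction G (A ⧸ N) :=
  Fermat.Agent.CFT.quotientMulDistribMulAction N hN

theorem qrQuotAction_mk (N : Subgroup A) (hN : ∀ (g : G), ∀ a ∈ N, g • a ∈ N) (g : G) (a : A) :
    letI := qrQuotAction N hN
    g • (a : A ⧸ N) = ((g • a : A) : A ⧸ N) := rfl

/-- the representation on a stable subgroup. -/
noncomputable def qrSub (N : Subgroup A) (hN : ∀ (g : G), ∀ a ∈ N, g • a ∈ N) : Rep.{0} ℤ G :=
  @Rep.ofMulDistribMulAction G ↥N _ _ (qrSubAction N hN)

/-- the representation on the quotient by a stable subgroup. -/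
noncomputable def qrQuot (N : Subgroup A) (hN : ∀ (g : G), ∀ a ∈ N, g • a ∈ N) : Rep.{0} ℤ G :=
  @Rep.ofMulDistribMulAction G (A ⧸ N) _ _ (qrQuotAction N hN)

theorem qrSubgroupOf_stable (M N : Subgroup A) (hM : ∀ (g : G), ∀ a ∈ M, g • a ∈ M)
    (hN : ∀ (g : G), ∀ a ∈ N, g • a ∈ N) :
    letI := qrSubAction M hM
    ∀ (g : G), ∀ a ∈ N.subgroupOf M, g • a ∈ N.subgroupOf M := by
  intro g a ha
  exact hN g a ha

/-- the action on the subquotient `M ⧸ (M ⊓ N)`. -/
@[reducible] def qrSubQuotAction (M N : Subgroup A) (hM : ∀ (g : G), ∀ a ∈ M, g • a ∈ M)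
    (hN : ∀ (g : G), ∀ a ∈ N, g • a ∈ N) : MulDistribMulAction G (↥M ⧸ N.subgroupOf M) :=
  letI := qrSubAction M hM
  qrQuotAction (N.subgroupOf M) (qrSubgroupOf_stable M N hM hN)

/-- the representation on the subquotient `M ⧸ (M ⊓ N)`. -/
noncomputable def qrSubQuot (M N : Subgroup A) (hM : ∀ (g : G), ∀ a ∈ M, g • a ∈ M)
    (hN : ∀ (g : G), ∀ a ∈ N, g • a ∈ N) : Rep.{0} ℤ G :=
  @Rep.ofMulDistribMulAction G (↥M ⧸ N.subgroupOf M) _ _ (qrSubQuotAction M N hM hN)

/-- `0 → N → A → A ⧸ N → 0`. -/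
noncomputable def qrSeqSub (N : Subgroup A) (hN : ∀ (g : G), ∀ a ∈ N, g • a ∈ N) :
    ShortComplex (Rep.{0} ℤ G) :=
  letI := qrSubAction N hN
  letI := qrQuotAction N hN
  qrSC N.subtype (fun _ _ => rfl) (QuotientGroup.mk' N) (fun _ _ => rfl)
    (fun a => (QuotientGroup.eq_one_iff _).2 a.2)

theorem qrSeqSub_shortExact (N : Subgroup A) (hN : ∀ (g : G), ∀ a ∈ N, g • a ∈ N) :
    (qrSeqSub N hN).ShortExact := by
  let _ := qrSubAction N hN
  let _ := qrQuotAction N hN
  refine qrSC_shortExact N.subtype (fun _ _ => rfl) (QuotientGroup.mk' N) (fun _ _ => rfl) _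
    Subtype.val_injective (QuotientGroup.mk'_surjective N) ?_
  intro b hb
  exact ⟨⟨b, (QuotientGroup.eq_one_iff b).1 hb⟩, rfl⟩

/-- the map `M ⧸ (M ⊓ N) → A ⧸ N`. -/
def qrSubQuotIncl (M N : Subgroup A) : ↥M ⧸ N.subgroupOf M →* A ⧸ N :=
  QuotientGroup.map (N.subgroupOf M) N M.subtype (fun _ hx => hx)

theorem qrSubQuotIncl_mk (M N : Subgroup A) (m : M) :
    qrSubQuotIncl M N (m : ↥M ⧸ N.subgroupOf M) = ((m : A) : A ⧸ N) := rfl

theorem qrSubQuotIncl_injective (M N : Subgroup A) : Function.Injective (qrSubQuotIncl M N) := by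
  rw [injective_iff_map_eq_one]
  intro x hx
  induction x using QuotientGroup.induction_on with
  | H m =>
    rw [qrSubQuotIncl_mk, QuotientGroup.eq_one_iff] at hx
    exact (QuotientGroup.eq_one_iff m).2 hx

/-- the map `A ⧸ N → A ⧸ N'` for `N ≤ N'`. -/
def qrQuotProj {N N' : Subgroup A} (h : N ≤ N') : A ⧸ N →* A ⧸ N' :=
  QuotientGroup.map N N' (MonoidHom.id A) h

theorem qrQuotProj_mk {N N' : Subgroup A} (h : N ≤ N') (a : A) :
    qrQuotProj h (a : A ⧸ N) = (a : A ⧸ N') := rfl

theorem qrQuotProj_surjective {N N' : Subgroup A} (h : N ≤ N') :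
    Function.Surjective (qrQuotProj h) := by
  intro x
  induction x using QuotientGroup.induction_on with
  | H a => exact ⟨(a : A ⧸ N), rfl⟩

/-- `0 → M ⧸ (M ⊓ N) → A ⧸ N → A ⧸ (M ⊔ N) → 0`. -/
noncomputable def qrSeqSup (M N : Subgroup A) (hM : ∀ (g : G), ∀ a ∈ M, g • a ∈ M)
    (hN : ∀ (g : G), ∀ a ∈ N, g • a ∈ N) (hMN : ∀ (g : G), ∀ a ∈ M ⊔ N, g • a ∈ M ⊔ N) :
    ShortComplex (Rep.{0} ℤ G) :=
  letI := qrSubQuotAction M N hM hN
  letI := qrQuotAction N hN
  letI := qrQuotAction (M ⊔ N) hMN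
  qrSC (qrSubQuotIncl M N)
    (fun g x => by
      induction x using QuotientGroup.induction_on with
      | H m => rfl)
    (qrQuotProj (le_sup_right : N ≤ M ⊔ N))
    (fun g x => by
      induction x using QuotientGroup.induction_on with
      | H a => rfl)
    (fun x => by
      induction x using QuotientGroup.induction_on with
      | H m =>
        rw [qrSubQuotIncl_mk, qrQuotProj_mk, QuotientGroup.eq_one_iff]
        exact Subgroup.mem_sup_left m.2)

theorem qrSup_stable (M N : Subgroup A) (hM : ∀ (g : G), ∀ a ∈ M, g • a ∈ M)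
    (hN : ∀ (g : G), ∀ a ∈ N, g • a ∈ N) : ∀ (g : G), ∀ a ∈ M ⊔ N, g • a ∈ M ⊔ N := by
  intro g a ha
  obtain ⟨m, hm, n, hn, rfl⟩ := Subgroup.mem_sup.1 ha
  rw [smul_mul']
  exact Subgroup.mul_mem_sup (hM g m hm) (hN g n hn)

theorem qrSeqSup_shortExact (M N : Subgroup A) (hM : ∀ (g : G), ∀ a ∈ M, g • a ∈ M)
    (hN : ∀ (g : G), ∀ a ∈ N, g • a ∈ N) (hMN : ∀ (g : G), ∀ a ∈ M ⊔ N, g • a ∈ M ⊔ N) :
    (qrSeqSup M N hM hN hMN).ShortExact := by
  let _ := qrSubQuotAction M N hM hN
  let _ := qrQuotAction N hN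
  let _ := qrQuotAction (M ⊔ N) hMN
  refine qrSC_shortExact (qrSubQuotIncl M N) _ (qrQuotProj (le_sup_right : N ≤ M ⊔ N)) _ _
    (qrSubQuotIncl_injective M N) (qrQuotProj_surjective _) ?_
  intro b hb
  induction b using QuotientGroup.induction_on with
  | H a =>
    rw [qrQuotProj_mk, QuotientGroup.eq_one_iff] at hb
    obtain ⟨m, hm, n, hn, rfl⟩ := Subgroup.mem_sup.1 hb
    refine ⟨((⟨m, hm⟩ : M) : ↥M ⧸ N.subgroupOf M), ?_⟩
    rw [qrSubQuotIncl_mk]
    symm
    rw [QuotientGroup.eq]
    show (m * n)⁻¹ * m ∈ N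
    rw [mul_inv, mul_comm m⁻¹ n⁻¹, mul_assoc, inv_mul_cancel, mul_one]
    exact N.inv_mem hn

end Stable

end Fermat.Agent.PT
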