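import Mathlib
import Fermat.Agent.CFT.PT.LocalDual2B

set_option autoImplicit false

/-!
# S55 engine: the comparison `F(N) ≃ Hom_k(Hom_G(N, T), F(T))` for an abstract right exact functor

This is the abstract form of the argument of `PT/LocalDual2B.lean` ((R7), `F = Hlc²`), in the shape
needed for (R4)/(P9) (`F = Hcc 𝔏 · 2 = H³_c`): `F` is a `k`-linear functor on `Rep k G` given
elementwise (`CoeffFun`), `T` is one-dimensional and smooth, `F(π)` is surjective for
epimorphisms `π` of finite-dimensional smooth representations with finite-dimensional smooth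
kernel, `F(T) ≠ 0`, and `F(Coind_V Res_V T)` is spanned by one element for the small `V`.  Then
`θ_N : F(N) → Hom_k(Hom_G(N, T), F(T))`, `x ↦ (φ ↦ F(φ) x)` is bijective for all
finite-dimensional smooth `N`.
-/

namespace Fermat.Agent.PT

open CategoryTheory groupCohomology Rep

universe u

/-- a `k`-linear functor from `Rep k G` to `k`-modules, given elementwise. -/
structure CoeffFun (k G : Type u) [Field k] [Group G] where
  /-- the value on objects -/
  obj : Rep.{u} k G → ModuleCat.{u} k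
  /-- the value on morphisms, `k`-linear in the morphism -/
  map : ∀ {A B : Rep.{u} k G}, (A ⟶ B) →ₗ[k] (obj A →ₗ[k] obj B)
  map_id : ∀ (A : Rep.{u} k G) (x : obj A), map (𝟙 A) x = x
  map_comp : ∀ {A B C : Rep.{u} k G} (φ : A ⟶ B) (ψ : B ⟶ C) (x : obj A),
    map (φ ≫ ψ) x = map ψ (map φ x)

section General

variable {k G : Type u} [Field k] [Group G] (F : CoeffFun k G) (T : Rep.{u} k G)

/-- the comparison map `θ_N : F(N) → Hom_k(Hom_G(N, T), F(T))`. -/
noncomputable def rexD_theta (N : Rep.{u} k G) :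
    F.obj N →ₗ[k] ((N ⟶ T) →ₗ[k] F.obj T) :=
  (F.map (A := N) (B := T)).flip

theorem rexD_theta_apply (N : Rep.{u} k G) (x : F.obj N) (φ : N ⟶ T) :
    rexD_theta F T N x φ = F.map φ x := rfl

/-- the functor `E(N) = Hom_k(Hom_G(N, T), W)` on morphisms. -/
noncomputable def rexD_E (W : Type*) [AddCommGroup W] [Module k W] {A B : Rep.{u} k G}
    (ψ : A ⟶ B) : ((A ⟶ T) →ₗ[k] W) →ₗ[k] ((B ⟶ T) →ₗ[k] W) where
  toFun ℓ := ℓ ∘ₗ locD2_pre T ψ
  map_add' _ _ := LinearMap.add_comp _ _ _
  map_smul' _ _ := LinearMap.smul_comp _ _ _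

theorem rexD_E_apply (W : Type*) [AddCommGroup W] [Module k W] {A B : Rep.{u} k G}
    (ψ : A ⟶ B) (ℓ : (A ⟶ T) →ₗ[k] W) (φ : B ⟶ T) : rexD_E T W ψ ℓ φ = ℓ (ψ ≫ φ) := rfl

/-- naturality of `θ`. -/
theorem rexD_theta_natural {A B : Rep.{u} k G} (ψ : A ⟶ B) (x : F.obj A) :
    rexD_theta F T B (F.map ψ x) = rexD_E T (F.obj T) ψ (rexD_theta F T A x) := by
  ext φ
  rw [rexD_theta_apply, rexD_E_apply, rexD_theta_apply, F.map_comp]

theorem rexD_map_zero {A B : Rep.{u} k G} (x : F.obj A) : F.map (0 : A ⟶ B) x = 0 := by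
  rw [map_zero]
  rfl

theorem rexD_map_g_f {X : ShortComplex (Rep.{u} k G)} (w : F.obj X.X₁) :
    F.map X.g (F.map X.f w) = 0 := by
  rw [← F.map_comp, X.zero, rexD_map_zero]

theorem rexD_E_g_surjective (W : Type*) [AddCommGroup W] [Module k W]
    {X : ShortComplex (Rep.{u} k G)} (hX : X.ShortExact) :
    Function.Surjective (rexD_E T W X.g) := by
  intro ℓ
  obtain ⟨χ, hχ⟩ := locD2_exists_comp_eq_of_injective (locD2_pre T X.g)
    (locD2_pre_g_injective T hX) ℓ
  exact ⟨χ, hχ⟩

theorem rexD_E_exact (W : Type*) [AddCommGroup W] [Module k W]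
    {X : ShortComplex (Rep.{u} k G)} (hX : X.ShortExact) (y : (X.X₂ ⟶ T) →ₗ[k] W)
    (hy : rexD_E T W X.g y = 0) : ∃ z, rexD_E T W X.f z = y := by
  have := hX.epi_g
  refine locD2_exists_comp_eq (locD2_pre T X.f) y ?_
  intro φ hφ
  rw [LinearMap.mem_ker, locD2_pre_apply] at hφ
  rw [LinearMap.mem_ker]
  have h1 : X.g ≫ hX.exact.desc φ hφ = φ := hX.exact.g_desc φ hφ
  rw [← h1]
  have h2 := congrArg (fun ℓ => ℓ (hX.exact.desc φ hφ)) hy
  simpa [rexD_E_apply] using h2

/-- if `P` is a "finite sum of copies of `A`" (`∑ⱼ pⱼ ≫ iⱼ = 𝟙 P`) and `θ_A` is bijective, so is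
`θ_P`. -/
theorem rexD_theta_bijective_of_decomp {A P : Rep.{u} k G} {ι : Type*} [Fintype ι]
    (i : ι → (A ⟶ P)) (p : ι → (P ⟶ A)) (hsum : ∑ j, p j ≫ i j = 𝟙 P)
    (hA : Function.Bijective (rexD_theta F T A)) :
    Function.Bijective (rexD_theta F T P) := by
  have hF : ∀ x : F.obj P, x = ∑ j, F.map (i j) (F.map (p j) x) := by
    intro x
    conv_lhs => rw [← F.map_id P x, ← hsum, map_sum, LinearMap.sum_apply]
    exact Finset.sum_congr rfl fun j _ => F.map_comp _ _ x
  constructor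
  · rw [injective_iff_map_eq_zero]
    intro x hx
    rw [hF x]
    refine Finset.sum_eq_zero fun j _ => ?_
    have h1 : rexD_theta F T A (F.map (p j) x) = 0 := by
      rw [rexD_theta_natural, hx, map_zero]
    rw [hA.1 (h1.trans (map_zero _).symm), map_zero]
  · intro y
    choose a ha using fun j => hA.2 (rexD_E T (F.obj T) (p j) y)
    refine ⟨∑ j, F.map (i j) (a j), ?_⟩
    rw [map_sum]
    ext φ
    rw [LinearMap.sum_apply]
    have h2 : ∀ j, rexD_theta F T P (F.map (i j) (a j)) φ = y (p j ≫ i j ≫ φ) := by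
      intro j
      rw [rexD_theta_natural, ha j, rexD_E_apply, rexD_E_apply]
    rw [Finset.sum_congr rfl fun j _ => h2 j, ← map_sum]
    congr 1
    calc ∑ j, p j ≫ i j ≫ φ = (∑ j, p j ≫ i j) ≫ φ := by
          rw [Preadditive.sum_comp]
          exact Finset.sum_congr rfl fun j _ => (Category.assoc _ _ _).symm
      _ = φ := by rw [hsum, Category.id_comp]

end General

section Main

open Limits

variable {k G : Type u} [Field k] [Group G] {𝔉 : LevelFamily G} (F : CoeffFun k G)
  (hfin : 𝔉.FiniteIndex) (T : Rep.{u} k G) (hT : IsSmooth 𝔉 T)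
  (hT1 : Module.finrank k T.V = 1)
  (hsurj : ∀ X : ShortComplex (Rep.{u} k G), X.ShortExact →
    Module.Finite k X.X₁.V → IsSmooth 𝔉 X.X₁ → Module.Finite k X.X₂.V → IsSmooth 𝔉 X.X₂ →
    Function.Surjective (F.map X.g))
  (hFT : ∃ y : F.obj T, y ≠ 0)

include hfin hT hT1 hsurj hFT in
/-- the base case: `θ` is bijective on `Coind_V Res_V T` as soon as `F` of it is spanned by one
element. -/
theorem rexD_theta_bijective_coind (V : Subgroup G) (hV : V ∈ 𝔉.sets)
    (hspan : ∃ x₀ : F.obj (coind V.subtype (res V.subtype T)), ∀ x, ∃ c : k, x = c • x₀) :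
    Function.Bijective (rexD_theta F T (coind V.subtype (res V.subtype T))) := by
  classical
  have : V.FiniteIndex := hfin V hV
  have finT : Module.Finite k T.V := Module.finite_of_finrank_pos (by rw [hT1]; exact one_pos)
  have finB : Module.Finite k (res V.subtype T).V := finT
  have hB₀ : IsSmooth (𝔉.restrict V) (res V.subtype T) := hT.res_subtype V
  have hsmA : IsSmooth 𝔉 (coind V.subtype (res V.subtype T)) :=
    isSmooth_coind hfin (isOpenFor_of_mem hV) hB₀
  have finA : Module.Finite k (coind V.subtype (res V.subtype T)).V :=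
    locD2_coind_finite V _
  -- the counit and its kernel
  let ε : coind V.subtype (res V.subtype T) ⟶ T := (coindResAdjunction k V).counit.app T
  have hε : Epi ε := inferInstanceAs (Epi ((coindResAdjunction k V).counit.app T))
  have hX := locD2_kerSC_shortExact ε
  obtain ⟨finK, smK⟩ := locD2_kernel_finite_smooth (𝔉 := 𝔉) ε hsmA
  have hFε : Function.Surjective (F.map ε) :=
    hsurj (locD2_kerSC ε) hX finK smK finA hsmA
  obtain ⟨x₀, hx₀⟩ := hspan
  obtain ⟨y, hy⟩ := hFT
  -- `F(ε) x₀ ≠ 0` and it spans `F(T)`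
  have hy₀ : F.map ε x₀ ≠ 0 := by
    intro h0
    apply hy
    obtain ⟨x, rfl⟩ := hFε y
    obtain ⟨c, rfl⟩ := hx₀ x
    rw [map_smul, h0, smul_zero]
  have hspanT : ∀ y' : F.obj T, ∃ c : k, y' = c • F.map ε x₀ := by
    intro y'
    obtain ⟨x, rfl⟩ := hFε y'
    obtain ⟨c, rfl⟩ := hx₀ x
    exact ⟨c, map_smul _ _ _⟩
  have hε0 : ε ≠ 0 := by
    intro h0
    apply hy₀
    rw [h0, rexD_map_zero]
  -- `Hom(Coind T, T)` is spanned by `ε`
  have finHom : Module.Finite k (coind V.subtype (res V.subtype T) ⟶ T) :=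
    locD2_hom_finite _ _
  have dimHom : Module.finrank k (coind V.subtype (res V.subtype T) ⟶ T) ≤ 1 := by
    have h1 := LinearMap.finrank_le_finrank_of_injective
      (f := (locD2_homToLin (res V.subtype T) (res V.subtype T)) ∘ₗ
        (locD2_frobLin V (res V.subtype T) T))
      ((locD2_homToLin_injective _ _).comp (locD2_frobLin_injective V _ T))
    have h2 : Module.finrank k ((res V.subtype T).V →ₗ[k] (res V.subtype T).V) = 1 := by
      rw [Module.finrank_linearMap]
      show Module.finrank k T.V * Module.finrank k T.V = 1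
      rw [hT1]
    rwa [h2] at h1
  have hspanHom : ∀ φ : coind V.subtype (res V.subtype T) ⟶ T, ∃ c : k, φ = c • ε := by
    obtain ⟨v, hv⟩ := finrank_le_one_iff.mp dimHom
    obtain ⟨a, ha⟩ := hv ε
    have ha0 : a ≠ 0 := by
      rintro rfl
      rw [zero_smul] at ha
      exact hε0 ha.symm
    intro φ
    obtain ⟨b, hb⟩ := hv φ
    refine ⟨b * a⁻¹, ?_⟩
    rw [← ha, smul_smul, mul_assoc, inv_mul_cancel₀ ha0, mul_one, hb]
  constructor
  · rw [injective_iff_map_eq_zero]
    intro w hw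
    obtain ⟨c, rfl⟩ := hx₀ w
    have h1 := congrArg (fun ℓ => ℓ ε) hw
    simp only [map_smul, LinearMap.smul_apply, rexD_theta_apply, LinearMap.zero_apply] at h1
    rcases smul_eq_zero.mp h1 with hc | h0
    · rw [hc, zero_smul]
    · exact absurd h0 hy₀
  · intro ℓ
    obtain ⟨c, hc⟩ := hspanT (ℓ ε)
    refine ⟨c • x₀, ?_⟩
    ext φ
    obtain ⟨b, rfl⟩ := hspanHom φ
    rw [map_smul, map_smul, LinearMap.smul_apply, map_smul, rexD_theta_apply, hc]

variable (hI : ∀ V ∈ 𝔉.sets, (∀ v ∈ V, T.ρ v = 1) →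
    ∃ x₀ : F.obj (coind V.subtype (res V.subtype T)), ∀ x, ∃ c : k, x = c • x₀)

include hfin hT hT1 hsurj hFT hI in
/-- every finite-dimensional smooth `N` is a quotient of a finite-dimensional smooth `P` on which
`θ` is bijective. -/
theorem rexD_exists_presentation (N : Rep.{u} k G) [Module.Finite k N.V]
    (hN : IsSmooth 𝔉 N) :
    ∃ (P : Rep.{u} k G) (ε : P ⟶ N), Epi ε ∧ Module.Finite k P.V ∧ IsSmooth 𝔉 P ∧
      Function.Bijective (rexD_theta F T P) := by
  classical
  have finT : Module.Finite k T.V := Module.finite_of_finrank_pos (by rw [hT1]; exact one_pos)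
  obtain ⟨V₁, hV₁, hV₁N⟩ := locD2_exists_level 𝔉 N hN
  obtain ⟨V₂, hV₂, hV₂T⟩ := locD2_exists_level 𝔉 T hT
  obtain ⟨V, hV, hVle⟩ := 𝔉.directed V₁ hV₁ V₂ hV₂
  have hVN : ∀ v ∈ V, N.ρ v = 1 := fun v hv => hV₁N v (hVle hv).1
  have hVT : ∀ v ∈ V, T.ρ v = 1 := fun v hv => hV₂T v (hVle hv).2
  have : V.FiniteIndex := hfin V hV
  have finB : Module.Finite k (res V.subtype N).V := ‹Module.Finite k N.V›
  refine ⟨coind V.subtype (res V.subtype N), (coindResAdjunction k V).counit.app N,
    inferInstance, locD2_coind_finite V _,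
    isSmooth_coind hfin (isOpenFor_of_mem hV) (hN.res_subtype V), ?_⟩
  obtain ⟨n, i, p, hsum⟩ := locD2_exists_decomp V hVN hVT hT1
  exact rexD_theta_bijective_of_decomp F T i p hsum
    (rexD_theta_bijective_coind F hfin T hT hT1 hsurj hFT V hV (hI V hV hVT))

include hfin hT hT1 hsurj hFT hI in
/-- `θ_N` is surjective for every finite-dimensional smooth `N`. -/
theorem rexD_theta_surjective (N : Rep.{u} k G) [Module.Finite k N.V]
    (hN : IsSmooth 𝔉 N) : Function.Surjective (rexD_theta F T N) := by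
  obtain ⟨P, ε, hε, finP, smP, hP⟩ :=
    rexD_exists_presentation F hfin T hT hT1 hsurj hFT hI N hN
  have hX := locD2_kerSC_shortExact ε
  exact locD2_compare_surjective (F.map ε) (rexD_E T (F.obj T) ε)
    (rexD_theta F T P) (rexD_theta F T N)
    (fun y => rexD_theta_natural F T ε y)
    (rexD_E_g_surjective (X := locD2_kerSC ε) T (F.obj T) hX) hP.2

include hfin hT hT1 hsurj hFT hI in
/-- **the comparison theorem**: `θ_N` is bijective for every finite-dimensional smooth `N`. -/
theorem rexD_theta_bijective (N : Rep.{u} k G) [Module.Finite k N.V]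
    (hN : IsSmooth 𝔉 N) : Function.Bijective (rexD_theta F T N) := by
  refine ⟨?_, rexD_theta_surjective F hfin T hT hT1 hsurj hFT hI N hN⟩
  obtain ⟨P, ε, hε, finP, smP, hP⟩ :=
    rexD_exists_presentation F hfin T hT hT1 hsurj hFT hI N hN
  have hX := locD2_kerSC_shortExact ε
  obtain ⟨finK, smK⟩ := locD2_kernel_finite_smooth (𝔉 := 𝔉) ε smP
  exact locD2_compare_injective (F.map (kernel.ι ε)) (F.map ε)
    (rexD_E T (F.obj T) (kernel.ι ε)) (rexD_E T (F.obj T) ε)
    (rexD_theta F T (kernel ε)) (rexD_theta F T P) (rexD_theta F T N)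
    (fun w => rexD_theta_natural F T (kernel.ι ε) w)
    (fun y => rexD_theta_natural F T ε y)
    (fun w => rexD_map_g_f F (X := locD2_kerSC ε) w)
    (hsurj (locD2_kerSC ε) hX finK smK finP smP)
    (fun y hy => rexD_E_exact (X := locD2_kerSC ε) T (F.obj T) hX y hy)
    (rexD_theta_surjective F hfin T hT hT1 hsurj hFT hI (kernel ε) smK) hP.1

end Main

end Fermat.Agent.PT
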