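import Mathlib
import Fermat.Agent.CFT.PT.BockNondeg

/-!
# S55 global bridge (GT6), part 4: `|Ш¹| ≤ |Hlc¹(E)/p|` from `p`-primary inputs only

Variant of `PT/ShaOneBound.lean` where `Hlc¹(J) = 0` is weakened to "`Hlc¹(J)` has no `p`-torsion"
(class field theory only gives the `p`-primary parts).  The connecting map
`δ : Hlc⁰(C) → Hlc¹(E)` is then no longer surjective, but its cokernel embeds into the torsion group
`Hlc¹(J)` without `p`-torsion, so `range δ / p → Hlc¹(E) / p` is injective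
(`sha1B_card_quot_le_of_coprime`), and the Bockstein pairing is descended to `range δ`
(`shaPairR`).

Main results: `sha1B_card_le_pPrimary` (general Bockstein datum, nondegeneracy as hypothesis),
`sha1B_card_le_int` (`k = ℤ`, `R₃ = ZMod p`, nondegeneracy from the finite-level inputs) and
`sha1B_card_le_zmod` (the same for the kernel of `locRes` with coefficients
`Rep.trivial (ZMod p) G (ZMod p)`).
-/

set_option autoImplicit false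

namespace Fermat.Agent.PT

open CategoryTheory groupCohomology Rep

/-! ### counting along a subgroup with prime-to-`p` torsion cokernel -/

/-- if `ι : W₀ → W` is injective and every element of `W` has a prime-to-`p` multiple in the image,
then `W₀ / p → W / p` is injective; in particular `|W₀ / p| ≤ |W / p|`. -/
theorem sha1B_card_quot_le_of_coprime {W₀ W : Type*} [AddCommGroup W₀] [AddCommGroup W] (p : ℕ)
    (ι : W₀ →+ W) (hι : Function.Injective ι)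
    (hcop : ∀ w : W, ∃ n : ℕ, Nat.Coprime n p ∧ ∃ w₀, ι w₀ = n • w)
    [Finite (W ⧸ (nsmulAddMonoidHom p : W →+ W).range)] :
    Finite (W₀ ⧸ (nsmulAddMonoidHom p : W₀ →+ W₀).range) ∧
      Nat.card (W₀ ⧸ (nsmulAddMonoidHom p : W₀ →+ W₀).range) ≤
        Nat.card (W ⧸ (nsmulAddMonoidHom p : W →+ W).range) := by
  have hle : (nsmulAddMonoidHom p : W₀ →+ W₀).range ≤
      ((nsmulAddMonoidHom p : W →+ W).range).comap ι := by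
    rintro _ ⟨w₀, rfl⟩
    exact ⟨ι w₀, by simp⟩
  have hinj : Function.Injective (QuotientAddGroup.map _ _ ι hle) := by
    rw [injective_iff_map_eq_zero]
    intro q hq
    obtain ⟨w₀, rfl⟩ := QuotientAddGroup.mk_surjective q
    rw [QuotientAddGroup.map_mk, QuotientAddGroup.eq_zero_iff] at hq
    obtain ⟨w, hw⟩ := hq
    change p • w = ι w₀ at hw
    obtain ⟨n, hn, w₁, hw₁⟩ := hcop w
    obtain ⟨r, t, hrt⟩ := Nat.isCoprime_iff_coprime.2 hn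
    rw [QuotientAddGroup.eq_zero_iff]
    refine ⟨r • w₁ + t • w₀, hι ?_⟩
    change ι (p • (r • w₁ + t • w₀)) = ι w₀
    rw [map_nsmul, map_add, map_zsmul, map_zsmul, hw₁, smul_add, ← hw]
    have e1 : p • r • n • w = (r * n) • (p • w) := by
      rw [smul_comm p r, smul_comm p n, mul_smul, natCast_zsmul]
    have e2 : p • t • p • w = (t * p) • (p • w) := by
      rw [smul_comm p t, mul_smul, natCast_zsmul]
    rw [e1, e2, ← add_smul, hrt, one_smul]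
  exact ⟨Finite.of_injective _ hinj, Nat.card_le_card_of_injective _ hinj⟩

variable {k G : Type} [CommRing k] [Group G]

section ShaPairR

variable {R₃ : Type} [AddCommGroup R₃] [Module k R₃] (D : BockData k R₃)
  {𝔉 : LevelFamily G} (hfin : 𝔉.FiniteIndex) (𝔏 : LocSystem 𝔉)
  {X : ShortComplex (Rep.{0} k G)} (hX : X.ShortExact) (hsm : IsSmooth 𝔉 X.X₂)
  {Lv : ∀ v : 𝔏.ι, Rep.{0} k (𝔏.Gv v)} (lam : ∀ v, res (𝔏.ψ v) X.X₂ ⟶ Lv v)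

/-- **the Bockstein pairing descended to the image of the connecting map**
`Ш¹ × δ(Hlc⁰(C)) → Hlc²(C)`, `(χ, δ x) ↦ (bock χ) ∪ x`. -/
noncomputable def shaPairR
    (hJ : ∀ z : Hlc 𝔉 X.X₂ 2, (D.m : k) • z = 0 →
      (∀ v, (HlcMap (𝔏.ψ v) (lam v) (𝔏.compat v) 2).hom z = 0) → z = 0) :
    LinearMap.ker (locRes 𝔏 (Rep.trivial k G R₃) 1) →ₗ[k]
      LinearMap.range (lcδ hfin hX hsm 0 1 rfl).hom →ₗ[k] Hlc 𝔉 X.X₃ 2 :=
  (linDescend (lcδ hfin hX hsm 0 1 rfl).hom.rangeRestrict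
    (LinearMap.surjective_rangeRestrict _)
    ((bockCup D hfin X.X₃).domRestrict (LinearMap.ker (locRes 𝔏 (Rep.trivial k G R₃) 1))).flip
    (by
      intro x hx
      rw [LinearMap.ker_rangeRestrict, LinearMap.mem_ker] at hx
      rw [LinearMap.mem_ker]
      obtain ⟨y, rfl⟩ := exists_lcH₂₃_eq hfin hX hsm 0 1 rfl x hx
      apply LinearMap.ext
      intro χ
      rw [LinearMap.flip_apply, LinearMap.domRestrict_apply, LinearMap.zero_apply]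
      exact bockCup_g_eq_zero D hfin 𝔏 lam hJ χ.1 (LinearMap.mem_ker.1 χ.2) y)).flip

theorem shaPairR_lcδ
    (hJ : ∀ z : Hlc 𝔉 X.X₂ 2, (D.m : k) • z = 0 →
      (∀ v, (HlcMap (𝔏.ψ v) (lam v) (𝔏.compat v) 2).hom z = 0) → z = 0)
    (χ : LinearMap.ker (locRes 𝔏 (Rep.trivial k G R₃) 1)) (x : Hlc 𝔉 X.X₃ 0) :
    shaPairR D hfin 𝔏 hX hsm lam hJ χ ((lcδ hfin hX hsm 0 1 rfl).hom.rangeRestrict x) =
      bockCup D hfin X.X₃ χ.1 x := by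
  unfold shaPairR
  rw [LinearMap.flip_apply, linDescend_apply]
  rfl

theorem m_smul_shaPairR
    (hJ : ∀ z : Hlc 𝔉 X.X₂ 2, (D.m : k) • z = 0 →
      (∀ v, (HlcMap (𝔏.ψ v) (lam v) (𝔏.compat v) 2).hom z = 0) → z = 0)
    (χ : LinearMap.ker (locRes 𝔏 (Rep.trivial k G R₃) 1))
    (w : LinearMap.range (lcδ hfin hX hsm 0 1 rfl).hom) :
    (D.m : k) • shaPairR D hfin 𝔏 hX hsm lam hJ χ w = 0 := by
  obtain ⟨x, rfl⟩ := LinearMap.surjective_rangeRestrict _ w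
  rw [shaPairR_lcδ]
  exact m_smul_bockCup D hfin _ _ _

theorem shaPairR_eq_zero
    (hJ : ∀ z : Hlc 𝔉 X.X₂ 2, (D.m : k) • z = 0 →
      (∀ v, (HlcMap (𝔏.ψ v) (lam v) (𝔏.compat v) 2).hom z = 0) → z = 0)
    (hnd : ∀ χ : Hlc 𝔉 (Rep.trivial k G R₃) 1, χ ≠ 0 →
      ∃ x : Hlc 𝔉 X.X₃ 0, bockCup D hfin X.X₃ χ x ≠ 0)
    (χ : LinearMap.ker (locRes 𝔏 (Rep.trivial k G R₃) 1))
    (hχ : ∀ w, shaPairR D hfin 𝔏 hX hsm lam hJ χ w = 0) : χ = 0 := by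
  by_contra hne
  have hne' : χ.1 ≠ 0 := fun h => hne (Subtype.ext h)
  obtain ⟨x, hx⟩ := hnd χ.1 hne'
  apply hx
  rw [← shaPairR_lcδ D hfin 𝔏 hX hsm lam hJ χ x]
  exact hχ _

include hfin hX hsm lam in
/-- **`|Ш¹| ≤ |Hlc¹(E) / p|`, `p`-primary hypotheses**: from "`Hlc¹(J)` has no `p`-torsion", local
detection of `Hlc²(J)[p]`, nondegeneracy of the Bockstein cup pairing and `|Hlc²(C)[p]| ≤ p`. -/
theorem sha1B_card_le_pPrimary [Fact D.m.Prime]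
    (h1 : ∀ y : Hlc 𝔉 X.X₂ 1, D.m • y = 0 → y = 0)
    (hJ : ∀ z : Hlc 𝔉 X.X₂ 2, (D.m : k) • z = 0 →
      (∀ v, (HlcMap (𝔏.ψ v) (lam v) (𝔏.compat v) 2).hom z = 0) → z = 0)
    (hnd : ∀ χ : Hlc 𝔉 (Rep.trivial k G R₃) 1, χ ≠ 0 →
      ∃ x : Hlc 𝔉 X.X₃ 0, bockCup D hfin X.X₃ χ x ≠ 0)
    (hC : ∀ s : Finset (Hlc 𝔉 X.X₃ 2), (∀ c ∈ s, D.m • c = 0) → s.card ≤ D.m)
    [Finite (Hlc 𝔉 X.X₁ 1 ⧸
      (nsmulAddMonoidHom D.m : Hlc 𝔉 X.X₁ 1 →+ Hlc 𝔉 X.X₁ 1).range)] :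
    Nat.card (LinearMap.ker (locRes 𝔏 (Rep.trivial k G R₃) 1)) ≤
      Nat.card (Hlc 𝔉 X.X₁ 1 ⧸
        (nsmulAddMonoidHom D.m : Hlc 𝔉 X.X₁ 1 →+ Hlc 𝔉 X.X₁ 1).range) := by
  -- the cokernel of `δ` is prime-to-`p` torsion
  have hcop : ∀ w : Hlc 𝔉 X.X₁ 1, ∃ n : ℕ, Nat.Coprime n D.m ∧
      ∃ w₀ : LinearMap.range (lcδ hfin hX hsm 0 1 rfl).hom,
        (LinearMap.range (lcδ hfin hX hsm 0 1 rfl).hom).subtype.toAddMonoidHom w₀ = n • w := by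
    intro w
    obtain ⟨N, hN, hNy⟩ := exists_nsmul_eq_zero_Hlc_succ 𝔉 hfin X.X₂ 0 ((lcH₁₂ 𝔉 X 1).hom w)
    obtain ⟨n, hn, hny⟩ := exists_coprime_nsmul_eq_zero (Fact.out : D.m.Prime) h1 _ hN hNy
    rw [← map_nsmul] at hny
    obtain ⟨x, hx⟩ := exists_lcδ_eq hfin hX hsm 0 1 rfl (n • w) hny
    exact ⟨n, hn, ⟨_, x, hx⟩, rfl⟩
  obtain ⟨hfinR, hle⟩ := sha1B_card_quot_le_of_coprime D.m
    (LinearMap.range (lcδ hfin hX hsm 0 1 rfl).hom).subtype.toAddMonoidHom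
    (Submodule.injective_subtype _) hcop
  refine le_trans ?_ hle
  refine sha1B_card_le_of_pairing D.m
    (LinearMap.toAddMonoidHom'.comp (shaPairR D hfin 𝔏 hX hsm lam hJ).toAddMonoidHom)
    (fun χ hχ => shaPairR_eq_zero D hfin 𝔏 hX hsm lam hJ hnd χ hχ)
    (fun χ w => ?_) hC
  rw [← Nat.cast_smul_eq_nsmul k]
  exact m_smul_shaPairR D hfin 𝔏 hX hsm lam hJ χ w

end ShaPairR

/-! ### the case `k = ℤ`, `R₃ = ZMod p` -/

section Int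

variable {G : Type} [Group G] {𝔉 : LevelFamily G} (hfin : 𝔉.FiniteIndex) (𝔏 : LocSystem 𝔉)
  {p : ℕ} [Fact p.Prime]
  {X : ShortComplex (Rep.{0} ℤ G)} (hX : X.ShortExact) (hsm : IsSmooth 𝔉 X.X₂)
  {Lv : ∀ v : 𝔏.ι, Rep.{0} ℤ (𝔏.Gv v)} (lam : ∀ v, res (𝔏.ψ v) X.X₂ ⟶ Lv v)

include hfin hX hsm lam in
/-- **`|Ш¹(G, ℤ/p)| ≤ |Hlc¹(E) / p|`** for a short exact sequence `0 → E → J → C → 0` of smooth
`ℤ`-representations, from: `Hlc¹(J)[p] = 0`; local detection of `Hlc²(J)[p]`; `|Hlc²(C)[p]| ≤ p`; and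
for every open normal subgroup `U` of index `p`: `Hlc¹(U, C)[p] = 0` and `C^G ⊄ N_{G/U}(C^U)`. -/
theorem sha1B_card_le_int
    (h1 : ∀ y : Hlc 𝔉 X.X₂ 1, p • y = 0 → y = 0)
    (hJ : ∀ z : Hlc 𝔉 X.X₂ 2, p • z = 0 →
      (∀ v, (HlcMap (𝔏.ψ v) (lam v) (𝔏.compat v) 2).hom z = 0) → z = 0)
    (hC : ∀ s : Finset (Hlc 𝔉 X.X₃ 2), (∀ c ∈ s, p • c = 0) → s.card ≤ p)
    (hH3 : ∀ U : Subgroup G, U.Normal → IsOpenFor 𝔉 U → U.index = p →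
      (∀ y : Hlc (𝔉.restrict U) (res U.subtype X.X₃) 1, p • y = 0 → y = 0) ∧
      ∀ σ : G, σ ∉ U → ∃ x : X.X₃, (∀ g, X.X₃.ρ g x = x) ∧
        ∀ b : X.X₃, (∀ u ∈ U, X.X₃.ρ u b = b) → x ≠ ∑ i ∈ Finset.range p, X.X₃.ρ (σ ^ i) b)
    [hF : Finite (Hlc 𝔉 X.X₁ 1 ⧸
      (nsmulAddMonoidHom p : Hlc 𝔉 X.X₁ 1 →+ Hlc 𝔉 X.X₁ 1).range)] :
    Nat.card {x : Hlc 𝔉 (Rep.trivial ℤ G (ZMod p)) 1 //
        locRes 𝔏 (Rep.trivial ℤ G (ZMod p)) 1 x = 0} ≤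
      Nat.card (Hlc 𝔉 X.X₁ 1 ⧸
        (nsmulAddMonoidHom p : Hlc 𝔉 X.X₁ 1 →+ Hlc 𝔉 X.X₁ 1).range) := by
  haveI : Fact (bockDataZMod p).m.Prime := ‹Fact p.Prime›
  haveI : Finite (Hlc 𝔉 X.X₁ 1 ⧸ (nsmulAddMonoidHom (bockDataZMod p).m :
      Hlc 𝔉 X.X₁ 1 →+ Hlc 𝔉 X.X₁ 1).range) := hF
  have h := sha1B_card_le_pPrimary (bockDataZMod p) hfin 𝔏 hX hsm lam h1
    (fun z hz => hJ z (by rwa [Nat.cast_smul_eq_nsmul] at hz))
    (bockCup_nondeg_zmod hfin X.X₃ hH3) hC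
  exact le_trans (le_of_eq (Nat.card_congr (Equiv.subtypeEquivRight fun x => Iff.rfl))) h

end Int

/-! ### change of coefficient ring for `Ш¹` -/

section Transport

variable {k G : Type} [CommRing k] [Group G] {𝔉 : LevelFamily G} (𝔏 : LocSystem 𝔉)

/-- a class in `Hlc¹` with trivial coefficients is locally trivial iff a (any) representing cocycle
vanishes on the local groups. -/
theorem locRes_trivial_eq_zero_iff {V : Type} [AddCommGroup V] [Module k V]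
    (χ : lcCocycles 𝔉 (Rep.trivial k G V) 1) :
    locRes 𝔏 (Rep.trivial k G V) 1 (lcπ 𝔉 _ 1 χ) = 0 ↔
      ∀ (v : 𝔏.ι) (y : Fin 1 → 𝔏.Gv v), χ.1 (𝔏.ψ v ∘ y) = 0 := by
  constructor
  · intro h v y
    exact apply_eq_zero_of_locRes_eq_zero 𝔏 χ h v y
  · intro h
    funext v
    rw [locRes_lcπ]
    have h0 : (⟨resLoc 𝔏 (Rep.trivial k G V) v 1 χ.1, resLoc_mem_lcCocycles v χ.2⟩ :
        lcCocycles (𝔏.fam v) (𝔏.coeff (Rep.trivial k G V) v) 1) = 0 :=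
      Subtype.ext (funext fun y => h v y)
    rw [h0, map_zero]
    rfl

variable (p : ℕ)

/-- the comparison `Hlc¹(G, ℤ/p)` over `ℤ` and over `ZMod p` -/
noncomputable def HlcTrivZModEquiv (𝔉 : LevelFamily G) (n : ℕ) :
    Hlc 𝔉 (Rep.trivial ℤ G (ZMod p)) n ≃+ Hlc 𝔉 (Rep.trivial (ZMod p) G (ZMod p)) n :=
  HlcEquivOfAddEquiv (Representation.trivial ℤ G (ZMod p)) (Rep.trivial (ZMod p) G (ZMod p)) 𝔉
    (AddEquiv.refl _) (fun _ _ => rfl) n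

theorem HlcTrivZModEquiv_lcπ (n : ℕ) (c : lcCocycles 𝔉 (Rep.trivial ℤ G (ZMod p)) n) :
    ∃ c' : lcCocycles 𝔉 (Rep.trivial (ZMod p) G (ZMod p)) n,
      (∀ g, c'.1 g = c.1 g) ∧ HlcTrivZModEquiv p 𝔉 n (lcπ 𝔉 _ n c) = lcπ 𝔉 _ n c' :=
  ⟨_, fun _ => rfl, HlcEquivOfAddEquiv_lcπ _ _ 𝔉 _ _ n c⟩

/-- `Ш¹` with coefficients `ℤ/p` does not depend on the coefficient ring. -/
theorem natCard_ker_locRes_trivial_zmod :
    Nat.card (LinearMap.ker (locRes 𝔏 (Rep.trivial (ZMod p) G (ZMod p)) 1)) =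
      Nat.card {x : Hlc 𝔉 (Rep.trivial ℤ G (ZMod p)) 1 //
        locRes 𝔏 (Rep.trivial ℤ G (ZMod p)) 1 x = 0} := by
  symm
  refine Nat.card_congr (Equiv.subtypeEquiv (HlcTrivZModEquiv p 𝔉 1).toEquiv fun x => ?_)
  obtain ⟨c, rfl⟩ := lcπ_surjective 𝔉 _ 1 x
  obtain ⟨c', hc', he⟩ := HlcTrivZModEquiv_lcπ (𝔉 := 𝔉) p 1 c
  change locRes 𝔏 _ 1 (lcπ 𝔉 _ 1 c) = 0 ↔
    HlcTrivZModEquiv p 𝔉 1 (lcπ 𝔉 _ 1 c) ∈ LinearMap.ker _
  rw [he, LinearMap.mem_ker, locRes_trivial_eq_zero_iff, locRes_trivial_eq_zero_iff]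
  exact forall_congr' fun v => forall_congr' fun y => by rw [hc']

end Transport

section ZModFinal

variable {G : Type} [Group G] {𝔉 : LevelFamily G} (hfin : 𝔉.FiniteIndex) (𝔏 : LocSystem 𝔉)
  {p : ℕ} [Fact p.Prime]
  {X : ShortComplex (Rep.{0} ℤ G)} (hX : X.ShortExact) (hsm : IsSmooth 𝔉 X.X₂)
  {Lv : ∀ v : 𝔏.ι, Rep.{0} ℤ (𝔏.Gv v)} (lam : ∀ v, res (𝔏.ψ v) X.X₂ ⟶ Lv v)

include hfin hX hsm lam in
/-- **`|Ш¹(G, 𝔽_p)| ≤ |Hlc¹(E) / p|`**, coefficients `Rep.trivial (ZMod p) G (ZMod p)`. -/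
theorem sha1B_card_le_zmod
    (h1 : ∀ y : Hlc 𝔉 X.X₂ 1, p • y = 0 → y = 0)
    (hJ : ∀ z : Hlc 𝔉 X.X₂ 2, p • z = 0 →
      (∀ v, (HlcMap (𝔏.ψ v) (lam v) (𝔏.compat v) 2).hom z = 0) → z = 0)
    (hC : ∀ s : Finset (Hlc 𝔉 X.X₃ 2), (∀ c ∈ s, p • c = 0) → s.card ≤ p)
    (hH3 : ∀ U : Subgroup G, U.Normal → IsOpenFor 𝔉 U → U.index = p →
      (∀ y : Hlc (𝔉.restrict U) (res U.subtype X.X₃) 1, p • y = 0 → y = 0) ∧
      ∀ σ : G, σ ∉ U → ∃ x : X.X₃, (∀ g, X.X₃.ρ g x = x) ∧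
        ∀ b : X.X₃, (∀ u ∈ U, X.X₃.ρ u b = b) → x ≠ ∑ i ∈ Finset.range p, X.X₃.ρ (σ ^ i) b)
    [Finite (Hlc 𝔉 X.X₁ 1 ⧸ (nsmulAddMonoidHom p : Hlc 𝔉 X.X₁ 1 →+ Hlc 𝔉 X.X₁ 1).range)] :
    Nat.card (LinearMap.ker (locRes 𝔏 (Rep.trivial (ZMod p) G (ZMod p)) 1)) ≤
      Nat.card (Hlc 𝔉 X.X₁ 1 ⧸
        (nsmulAddMonoidHom p : Hlc 𝔉 X.X₁ 1 →+ Hlc 𝔉 X.X₁ 1).range) := by
  rw [natCard_ker_locRes_trivial_zmod]
  exact sha1B_card_le_int hfin 𝔏 hX hsm lam h1 hJ hC hH3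

end ZModFinal

end Fermat.Agent.PT
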