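import Fermat.Agent.CFT.PT.TopChase
import Fermat.Agent.CFT.PT.ChangeOfRing
import Fermat.Agent.CFT.PT.Cone
import Fermat.Agent.CFT.PT.SmoothFunctor

/-!
# S55, GLOBAL TOP: the abstract chases instantiated for `Hlc`

`TopDatum p 𝔏 μ` packages the smooth `ℤ`-representations `E` (`S`-units), `J` (`S`-ideles),
`C` (`S`-idele classes) of `G`, the local multiplicative groups `Lv v` of the local groups, the
Kummer sequences `0 → μ → E -p→ E → 0`, `0 → μ|_v → Lv v -p→ Lv v → 0`, the idele sequence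
`0 → E → J → C → 0` and the localisation maps `J|_v → Lv v`.  From the cohomological inputs
(A1)–(A5), (B1) (see `TopChase.lean`) we derive the global outputs for `μ`:

* `TopDatum.subsingleton_H3` : `Hlc 𝔉 μ 3 = 0`;
* `TopDatum.card_le` / `TopDatum.finrank_le` : `|∏_v Hlc²(G_v, μ)| ≤ p · |range locRes²|`;
* `TopDatum.card_ker_locRes` : `|ker locRes²| = |Hlc¹(E) / p|`;
* `TopDatum.card_H1` : `|Hlc¹(μ)| = |Hlc⁰(E)/p| · |Hlc¹(E)[p]|`.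
-/

set_option autoImplicit false

namespace Fermat.Agent.PT

open CategoryTheory groupCohomology Rep

section General

variable {G : Type} [Group G] {𝔉 : LevelFamily G}

/-- `HlcMap` of the multiplication-by-`n₀` endomorphism is multiplication by `n₀`. -/
theorem topChase_HlcMap_nsmul {A : Rep.{0} ℤ G} (P : A ⟶ A) (n₀ : ℕ)
    (hP : ∀ a, P.hom a = n₀ • a) (n : ℕ) (x : Hlc 𝔉 A n) :
    (HlcMap (MonoidHom.id G) P 𝔉.compat_id n).hom x = n₀ • x := by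
  obtain ⟨c, rfl⟩ := lcπ_surjective 𝔉 A n x
  rw [HlcMap_lcπ, ← map_nsmul]
  congr 1
  apply Subtype.ext
  funext g
  exact hP _

theorem topChase_zmod_nsmul {p : ℕ} {M : Type*} [AddCommGroup M] [Module (ZMod p) M] (m : M) :
    p • m = 0 := by
  rw [← Nat.cast_smul_eq_nsmul (ZMod p) p m, ZMod.natCast_self, zero_smul]

end General

variable (p : ℕ) {G : Type} [Group G] {𝔉 : LevelFamily G}

/-- the data of the global top: `S`-units, `S`-ideles, `S`-idele classes, local multiplicative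
groups, Kummer sequences and the idele sequence. -/
structure TopDatum (𝔏 : LocSystem 𝔉) (μ : Rep.{0} (ZMod p) G) where
  /-- `S`-units -/
  E : Rep.{0} ℤ G
  /-- `S`-ideles -/
  J : Rep.{0} ℤ G
  /-- `S`-idele classes -/
  C : Rep.{0} ℤ G
  /-- `μ_p ⊆ E` -/
  κ : intRep μ ⟶ E
  /-- the `p`-th power map -/
  P : E ⟶ E
  hP : ∀ e, P.hom e = p • e
  wK : κ ≫ P = 0
  hK : (ShortComplex.mk κ P wK).ShortExact
  smE : IsSmooth 𝔉 E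
  /-- the diagonal embedding -/
  ιE : E ⟶ J
  /-- the projection to idele classes -/
  π : J ⟶ C
  wI : ιE ≫ π = 0
  hI : (ShortComplex.mk ιE π wI).ShortExact
  smJ : IsSmooth 𝔉 J
  /-- the local multiplicative groups -/
  Lv : ∀ v : 𝔏.ι, Rep.{0} ℤ (𝔏.Gv v)
  /-- `μ_p ⊆ Lv v` -/
  κv : ∀ v, intRep (𝔏.coeff μ v) ⟶ Lv v
  /-- the local `p`-th power maps -/
  Pv : ∀ v, Lv v ⟶ Lv v
  hPv : ∀ v e, (Pv v).hom e = p • e
  wKv : ∀ v, κv v ≫ Pv v = 0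
  hKv : ∀ v, (ShortComplex.mk (κv v) (Pv v) (wKv v)).ShortExact
  smLv : ∀ v, IsSmooth (𝔏.fam v) (Lv v)
  /-- the localisation maps `J|_v → Lv v` -/
  lamv : ∀ v, res (𝔏.ψ v) J ⟶ Lv v
  hcompat : ∀ v (m : μ.V), (lamv v).hom (ιE.hom (κ.hom m)) = (κv v).hom m

namespace TopDatum

variable {p} {𝔏 : LocSystem 𝔉} {μ : Rep.{0} (ZMod p) G} (D : TopDatum p 𝔏 μ)

/-- the global Kummer sequence -/
noncomputable abbrev XK : ShortComplex (Rep.{0} ℤ G) := ShortComplex.mk D.κ D.P D.wK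

/-- the idele sequence -/
noncomputable abbrev XI : ShortComplex (Rep.{0} ℤ G) := ShortComplex.mk D.ιE D.π D.wI

/-- the local Kummer sequences -/
noncomputable abbrev XKv (v : 𝔏.ι) : ShortComplex (Rep.{0} ℤ (𝔏.Gv v)) :=
  ShortComplex.mk (D.κv v) (D.Pv v) (D.wKv v)

variable (hfin : 𝔉.FiniteIndex) (hfinL : ∀ v, (𝔏.fam v).FiniteIndex)

/-- the Kummer connecting map `Hlcⁱ(E) → Hlcⁱ⁺¹(μ)` -/
noncomputable def dK (i : ℕ) : Hlc 𝔉 D.E i →+ Hlc 𝔉 μ (i + 1) :=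
  (HlcIntEquiv 𝔉 μ (i + 1)).toAddMonoidHom.comp
    (lcδ (X := D.XK) hfin D.hK D.smE i (i + 1) rfl).hom.toAddMonoidHom

/-- the map `Hlcⁱ(μ) → Hlcⁱ(E)` -/
noncomputable def iK (i : ℕ) : Hlc 𝔉 μ i →+ Hlc 𝔉 D.E i :=
  (lcH₁₂ 𝔉 D.XK i).hom.toAddMonoidHom.comp (HlcIntEquiv 𝔉 μ i).symm.toAddMonoidHom

/-- the map `Hlcⁱ(E) → Hlcⁱ(J)` -/
noncomputable def jI (i : ℕ) : Hlc 𝔉 D.E i →+ Hlc 𝔉 D.J i :=
  (lcH₁₂ 𝔉 D.XI i).hom.toAddMonoidHom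

/-- the map `Hlcⁱ(J) → Hlcⁱ(C)` -/
noncomputable def πI (i : ℕ) : Hlc 𝔉 D.J i →+ Hlc 𝔉 D.C i :=
  (lcH₂₃ 𝔉 D.XI i).hom.toAddMonoidHom

/-- the connecting map `Hlcⁱ(C) → Hlcⁱ⁺¹(E)` -/
noncomputable def δI (i : ℕ) : Hlc 𝔉 D.C i →+ Hlc 𝔉 D.E (i + 1) :=
  (lcδ (X := D.XI) hfin D.hI D.smJ i (i + 1) rfl).hom.toAddMonoidHom

/-- the total localisation map `Hlc²(J) → ∏_v Hlc²(G_v, Lv v)` -/
noncomputable def lamH (i : ℕ) : Hlc 𝔉 D.J i →+ ∀ v : 𝔏.ι, Hlc (𝔏.fam v) (D.Lv v) i :=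
  AddMonoidHom.pi fun v => (HlcMap (𝔏.ψ v) (D.lamv v) (𝔏.compat v) i).hom.toAddMonoidHom

/-- the local Kummer maps `Hlcⁱ(G_v, μ) → Hlcⁱ(G_v, Lv v)` -/
noncomputable def ivK (v : 𝔏.ι) (i : ℕ) :
    Hlc (𝔏.fam v) (𝔏.coeff μ v) i →+ Hlc (𝔏.fam v) (D.Lv v) i :=
  (lcH₁₂ (𝔏.fam v) (D.XKv v) i).hom.toAddMonoidHom.comp
    (HlcIntEquiv (𝔏.fam v) (𝔏.coeff μ v) i).symm.toAddMonoidHom

/-! ### Exactness of the Kummer sequence in `∃`-form -/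

theorem iK_dK (i : ℕ) (e : Hlc 𝔉 D.E i) : D.iK (i + 1) (D.dK hfin i e) = 0 := by
  show (lcH₁₂ 𝔉 D.XK (i + 1)).hom ((HlcIntEquiv 𝔉 μ (i + 1)).symm
    ((HlcIntEquiv 𝔉 μ (i + 1)) ((lcδ (X := D.XK) hfin D.hK D.smE i (i + 1) rfl).hom e))) = 0
  rw [AddEquiv.symm_apply_apply]
  exact lcδ_lcH₁₂_apply hfin D.hK D.smE i (i + 1) rfl e

theorem exists_dK_eq (i : ℕ) (m : Hlc 𝔉 μ (i + 1)) (hm : D.iK (i + 1) m = 0) :
    ∃ e, D.dK hfin i e = m := by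
  obtain ⟨e, he⟩ := exists_lcδ_eq hfin D.hK D.smE i (i + 1) rfl
    ((HlcIntEquiv 𝔉 μ (i + 1)).symm m) hm
  refine ⟨e, ?_⟩
  show (HlcIntEquiv 𝔉 μ (i + 1)) ((lcδ (X := D.XK) hfin D.hK D.smE i (i + 1) rfl).hom e) = m
  rw [he, AddEquiv.apply_symm_apply]

theorem P_apply (i : ℕ) (e : Hlc 𝔉 D.E i) : (lcH₂₃ 𝔉 D.XK i).hom e = p • e :=
  topChase_HlcMap_nsmul D.P p D.hP i e

theorem exists_nsmul_eq_of_dK_eq_zero (i : ℕ) (e : Hlc 𝔉 D.E i) (he : D.dK hfin i e = 0) :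
    ∃ e', p • e' = e := by
  have h1 : (lcδ (X := D.XK) hfin D.hK D.smE i (i + 1) rfl).hom e = 0 := by
    have h2 : (HlcIntEquiv 𝔉 μ (i + 1))
        ((lcδ (X := D.XK) hfin D.hK D.smE i (i + 1) rfl).hom e) = 0 := he
    rw [← (HlcIntEquiv 𝔉 μ (i + 1)).symm_apply_apply
      ((lcδ (X := D.XK) hfin D.hK D.smE i (i + 1) rfl).hom e), h2, map_zero]
  obtain ⟨e', he'⟩ := exists_lcH₂₃_eq hfin D.hK D.smE i (i + 1) rfl e h1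
  exact ⟨e', by rw [← he', D.P_apply]⟩

include hfin in
theorem exists_iK_eq (i : ℕ) (e : Hlc 𝔉 D.E i) (he : p • e = 0) : ∃ m, D.iK i m = e := by
  have h1 : (lcH₂₃ 𝔉 D.XK i).hom e = 0 := by rw [D.P_apply, he]
  obtain ⟨y, hy⟩ := exists_lcH₁₂_eq hfin D.hK D.smE i e h1
  refine ⟨HlcIntEquiv 𝔉 μ i y, ?_⟩
  show (lcH₁₂ 𝔉 D.XK i).hom ((HlcIntEquiv 𝔉 μ i).symm (HlcIntEquiv 𝔉 μ i y)) = e
  rw [AddEquiv.symm_apply_apply, hy]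

/-! ### Exactness of the idele sequence in `∃`-form -/

theorem πI_jI (i : ℕ) (e : Hlc 𝔉 D.E i) : D.πI i (D.jI i e) = 0 :=
  lcH₁₂_lcH₂₃_apply (X := D.XI) i e

include hfin in
theorem exists_jI_eq (i : ℕ) (y : Hlc 𝔉 D.J i) (hy : D.πI i y = 0) : ∃ e, D.jI i e = y :=
  exists_lcH₁₂_eq hfin D.hI D.smJ i y hy

theorem δI_πI (i : ℕ) (y : Hlc 𝔉 D.J i) : D.δI hfin i (D.πI i y) = 0 :=
  lcH₂₃_lcδ_apply hfin D.hI D.smJ i (i + 1) rfl y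

theorem exists_πI_eq (i : ℕ) (c : Hlc 𝔉 D.C i) (hc : D.δI hfin i c = 0) : ∃ y, D.πI i y = c :=
  exists_lcH₂₃_eq hfin D.hI D.smJ i (i + 1) rfl c hc

theorem exists_δI_eq (i : ℕ) (e : Hlc 𝔉 D.E (i + 1)) (he : D.jI (i + 1) e = 0) :
    ∃ c, D.δI hfin i c = e :=
  exists_lcδ_eq hfin D.hI D.smJ i (i + 1) rfl e he

include hfin in
/-- (A1) ⇒ `Hlcⁱ⁺¹(E) → Hlcⁱ⁺¹(J)` is injective. -/
theorem jI_injective (i : ℕ) (hA1 : Subsingleton (Hlc 𝔉 D.C i)) :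
    Function.Injective (D.jI (i + 1)) := by
  rw [injective_iff_map_eq_zero]
  intro e he
  obtain ⟨c, rfl⟩ := D.exists_δI_eq hfin i e he
  rw [Subsingleton.elim c 0, map_zero]

/-! ### The local Kummer maps -/

include hfinL in
/-- (B1) ⇒ the local Kummer map `Hlcⁱ⁺¹(G_v, μ) → Hlcⁱ⁺¹(G_v, Lv v)` is injective. -/
theorem ivK_injective (v : 𝔏.ι) (i : ℕ) (hB1 : Subsingleton (Hlc (𝔏.fam v) (D.Lv v) i)) :
    Function.Injective (D.ivK v (i + 1)) := by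
  rw [injective_iff_map_eq_zero]
  intro m hm
  obtain ⟨e, he⟩ := exists_lcδ_eq (X := D.XKv v) (hfinL v) (D.hKv v) (D.smLv v) i (i + 1) rfl
    ((HlcIntEquiv (𝔏.fam v) (𝔏.coeff μ v) (i + 1)).symm m) hm
  rw [Subsingleton.elim e 0, map_zero] at he
  have := congrArg (HlcIntEquiv (𝔏.fam v) (𝔏.coeff μ v) (i + 1)) he
  rw [map_zero, AddEquiv.apply_symm_apply] at this
  exact this.symm

/-- the compatibility square `iv ∘ locRes = λ ∘ j ∘ i`. -/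
theorem ivK_locRes (i : ℕ) (m : Hlc 𝔉 μ i) (v : 𝔏.ι) :
    D.ivK v i (locRes 𝔏 μ i m v) = D.lamH i (D.jI i (D.iK i m)) v := by
  obtain ⟨x, rfl⟩ := (HlcIntEquiv 𝔉 μ i).surjective m
  obtain ⟨c, rfl⟩ := lcπ_surjective 𝔉 (intRep μ) i x
  show (lcH₁₂ (𝔏.fam v) (D.XKv v) i).hom ((HlcIntEquiv (𝔏.fam v) (𝔏.coeff μ v) i).symm
      ((HlcMap (𝔏.ψ v) (𝟙 (res (𝔏.ψ v) μ)) (𝔏.compat v) i).hom
        (HlcIntEquiv 𝔉 μ i (lcπ 𝔉 (intRep μ) i c)))) =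
    (HlcMap (𝔏.ψ v) (D.lamv v) (𝔏.compat v) i).hom ((lcH₁₂ 𝔉 D.XI i).hom
      ((lcH₁₂ 𝔉 D.XK i).hom ((HlcIntEquiv 𝔉 μ i).symm
        (HlcIntEquiv 𝔉 μ i (lcπ 𝔉 (intRep μ) i c)))))
  rw [AddEquiv.symm_apply_apply, HlcIntEquiv_lcπ, HlcMap_lcπ, HlcIntEquiv_symm_lcπ]
  rw [HlcMap_lcπ, HlcMap_lcπ, HlcMap_lcπ, HlcMap_lcπ]
  congr 1
  apply Subtype.ext
  funext g
  exact (D.hcompat v _).symm

/-! ### The outputs -/

include hfin in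
/-- **(G1)** `Hlc³(μ) = 0`. -/
theorem subsingleton_H3 [Fact p.Prime]
    (hA1 : Subsingleton (Hlc 𝔉 D.C 1))
    (hA2 : ∀ y : Hlc 𝔉 D.J 2, ∃ y', p • y' = y)
    (hA3 : ∀ y : Hlc 𝔉 D.J 3, p • y = 0 → y = 0)
    (hA5 : ∀ c : Hlc 𝔉 D.C 2, p • c = 0 → ∃ y : Hlc 𝔉 D.J 2, p • y = 0 ∧ D.πI 2 y = c) :
    Subsingleton (Hlc 𝔉 μ 3) := by
  refine ⟨fun a b => ?_⟩
  have key : ∀ m : Hlc 𝔉 μ 3, m = 0 := fun m =>
    topChase_H3_eq_zero p (D.dK hfin 2) (D.iK 3) (D.jI 2) (D.πI 2) (D.δI hfin 2) (D.jI 3)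
      (fun m => topChase_zmod_nsmul m) (D.exists_dK_eq hfin 2)
      (D.jI_injective hfin 1 hA1) (D.πI_jI 2) (D.exists_jI_eq hfin 2)
      (D.δI_πI hfin 2) (D.exists_πI_eq hfin 2) (D.exists_δI_eq hfin 2) hA3 hA2 hA5 m
  rw [key a, key b]

theorem natCard_range_locRes (i : ℕ) :
    Nat.card (locRes 𝔏 μ i).toAddMonoidHom.range = Nat.card (LinearMap.range (locRes 𝔏 μ i)) :=
  Nat.card_congr (Equiv.subtypeEquivRight fun _ => Iff.rfl)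

theorem natCard_ker_locRes (i : ℕ) :
    Nat.card (locRes 𝔏 μ i).toAddMonoidHom.ker = Nat.card (LinearMap.ker (locRes 𝔏 μ i)) :=
  Nat.card_congr (Equiv.subtypeEquivRight fun _ => Iff.rfl)

include hfin hfinL in
/-- **(G2'), cardinality form**: `|∏_v Hlc²(G_v, μ)| ≤ p · |range locRes²|`. -/
theorem card_le [Finite 𝔏.ι] [∀ v, Finite (Hlc (𝔏.fam v) (𝔏.coeff μ v) 2)]
    (hA1 : Subsingleton (Hlc 𝔉 D.C 1))
    (hB1 : ∀ v, Subsingleton (Hlc (𝔏.fam v) (D.Lv v) 1))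
    (hA4 : ∀ l : ∀ v, Hlc (𝔏.fam v) (D.Lv v) 2, (∀ v, p • l v = 0) →
      ∃ y : Hlc 𝔉 D.J 2, p • y = 0 ∧ D.lamH 2 y = l)
    (hC : ∀ s : Finset (Hlc 𝔉 D.C 2), (∀ c ∈ s, p • c = 0) → s.card ≤ p) :
    Nat.card (∀ v, Hlc (𝔏.fam v) (𝔏.coeff μ v) 2) ≤
      p * Nat.card (LinearMap.range (locRes 𝔏 μ 2)) := by
  rw [← natCard_range_locRes]
  exact topChase_card_le p (locRes 𝔏 μ 2).toAddMonoidHom (fun v => D.ivK v 2) (D.iK 2) (D.jI 2)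
    (D.lamH 2) (D.πI 2) (fun m v => D.ivK_locRes 2 m v) (D.exists_iK_eq hfin 2)
    (D.jI_injective hfin 1 hA1) (D.exists_jI_eq hfin 2)
    (fun v => D.ivK_injective hfinL v 1 (hB1 v)) (fun v m => topChase_zmod_nsmul m) hA4 hC

include hfin hfinL in
/-- **(G2'), dimension form**: `l² ≤ rank locRes² + 1`. -/
theorem finrank_le [Fact p.Prime] [Finite 𝔏.ι]
    [∀ v, Module.Finite (ZMod p) (Hlc (𝔏.fam v) (𝔏.coeff μ v) 2)]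
    (hA1 : Subsingleton (Hlc 𝔉 D.C 1))
    (hB1 : ∀ v, Subsingleton (Hlc (𝔏.fam v) (D.Lv v) 1))
    (hA4 : ∀ l : ∀ v, Hlc (𝔏.fam v) (D.Lv v) 2, (∀ v, p • l v = 0) →
      ∃ y : Hlc 𝔉 D.J 2, p • y = 0 ∧ D.lamH 2 y = l)
    (hC : ∀ s : Finset (Hlc 𝔉 D.C 2), (∀ c ∈ s, p • c = 0) → s.card ≤ p) :
    Module.finrank (ZMod p) (∀ v, Hlc (𝔏.fam v) (𝔏.coeff μ v) 2) ≤
      Module.finrank (ZMod p) (LinearMap.range (locRes 𝔏 μ 2)) + 1 := by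
  have : Fintype 𝔏.ι := Fintype.ofFinite _
  have : ∀ v, Finite (Hlc (𝔏.fam v) (𝔏.coeff μ v) 2) := fun v =>
    Module.finite_of_finite (ZMod p)
  have h := D.card_le hfin hfinL hA1 hB1 hA4 hC
  have h1 : Nat.card (∀ v, Hlc (𝔏.fam v) (𝔏.coeff μ v) 2) =
      p ^ Module.finrank (ZMod p) (∀ v, Hlc (𝔏.fam v) (𝔏.coeff μ v) 2) := by
    rw [Module.natCard_eq_pow_finrank (K := ZMod p), Nat.card_zmod]
  have h2 : Nat.card (LinearMap.range (locRes 𝔏 μ 2)) =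
      p ^ Module.finrank (ZMod p) (LinearMap.range (locRes 𝔏 μ 2)) := by
    rw [Module.natCard_eq_pow_finrank (K := ZMod p), Nat.card_zmod]
  rw [h1, h2, ← pow_succ'] at h
  exact (Nat.pow_le_pow_iff_right (Fact.out : p.Prime).one_lt).1 h

include hfin hfinL in
/-- **(Ш²)** `|ker locRes²| = |Hlc¹(E) / p|`. -/
theorem card_ker_locRes
    (hA1 : Subsingleton (Hlc 𝔉 D.C 1))
    (hB1 : ∀ v, Subsingleton (Hlc (𝔏.fam v) (D.Lv v) 1))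
    (hA4inj : ∀ y : Hlc 𝔉 D.J 2, p • y = 0 → D.lamH 2 y = 0 → y = 0) :
    Nat.card (LinearMap.ker (locRes 𝔏 μ 2)) =
      Nat.card (Hlc 𝔉 D.E 1 ⧸ (topChase_mulP p (Hlc 𝔉 D.E 1)).range) := by
  rw [← natCard_ker_locRes]
  exact topChase_card_ker_loc p (locRes 𝔏 μ 2).toAddMonoidHom (fun v => D.ivK v 2)
    (D.dK hfin 1) (D.iK 2) (D.jI 2) (D.lamH 2) (fun m v => D.ivK_locRes 2 m v)
    (D.jI_injective hfin 1 hA1) (fun v => D.ivK_injective hfinL v 1 (hB1 v))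
    (fun m => topChase_zmod_nsmul m) hA4inj (D.iK_dK hfin 1) (D.exists_dK_eq hfin 1)
    (D.exists_nsmul_eq_of_dK_eq_zero hfin 1)

include hfin in
/-- **(H¹)** `|Hlc¹(μ)| = |Hlc⁰(E) / p| · |Hlc¹(E)[p]|`. -/
theorem card_H1 :
    Nat.card (Hlc 𝔉 μ 1) =
      Nat.card (Hlc 𝔉 D.E 0 ⧸ (topChase_mulP p (Hlc 𝔉 D.E 0)).range) *
        Nat.card (topChase_mulP p (Hlc 𝔉 D.E 1)).ker :=
  topChase_card_H1 p (D.dK hfin 0) (D.iK 1) (D.iK_dK hfin 0) (D.exists_dK_eq hfin 0)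
    (fun m => topChase_zmod_nsmul m) (D.exists_nsmul_eq_of_dK_eq_zero hfin 0)
    (D.exists_iK_eq hfin 1)

end TopDatum

end Fermat.Agent.PT
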