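import Mathlib
import Fermat.Agent.CFT.PT.ShaOneBoundP
import Fermat.Agent.CFT.PT.TopChaseHlc

/-!
# S55 global bridge (GT6), part 5: `|Ш¹| ≤ |Hlc¹(E)/p|` for a `TopDatum`

`TopDatum.card_ker_locRes_one_le` : the bound `|ker locRes¹(𝔽_p)| ≤ |Hlc¹(E) / p|` in the language
of `PT/TopChaseHlc.lean` (the right-hand side is the cardinality of `ker locRes²(μ)` by
`TopDatum.card_ker_locRes(_pPrimary)`), from the `p`-primary inputs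

* `Hlc¹(J)[p] = 0`, local detection of `Hlc²(J)[p]` (`hA4inj`), `|Hlc²(C)[p]| ≤ p` (`hC`),
* for every open normal subgroup `U` of index `p`: `Hlc¹(U, C)[p] = 0` and `C^G ⊄ N_{G/U} C^U`.
-/

set_option autoImplicit false

namespace Fermat.Agent.PT

open CategoryTheory groupCohomology Rep

namespace TopDatum

variable {p : ℕ} [Fact p.Prime] {G : Type} [Group G] {𝔉 : LevelFamily G} {𝔏 : LocSystem 𝔉}
  {μ : Rep.{0} (ZMod p) G} (D : TopDatum p 𝔏 μ) (hfin : 𝔉.FiniteIndex)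

include hfin in
/-- **(Ш¹ ≤ Ш²)** `|ker locRes¹(𝔽_p)| ≤ |Hlc¹(E) / p|`. -/
theorem card_ker_locRes_one_le
    (hJ1p : ∀ y : Hlc 𝔉 D.J 1, p • y = 0 → y = 0)
    (hA4inj : ∀ y : Hlc 𝔉 D.J 2, p • y = 0 → D.lamH 2 y = 0 → y = 0)
    (hC : ∀ s : Finset (Hlc 𝔉 D.C 2), (∀ c ∈ s, p • c = 0) → s.card ≤ p)
    (hH3 : ∀ U : Subgroup G, U.Normal → IsOpenFor 𝔉 U → U.index = p →
      (∀ y : Hlc (𝔉.restrict U) (res U.subtype D.C) 1, p • y = 0 → y = 0) ∧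
      ∀ σ : G, σ ∉ U → ∃ x : D.C, (∀ g, D.C.ρ g x = x) ∧
        ∀ b : D.C, (∀ u ∈ U, D.C.ρ u b = b) → x ≠ ∑ i ∈ Finset.range p, D.C.ρ (σ ^ i) b)
    [Finite (Hlc 𝔉 D.E 1 ⧸ (topChase_mulP p (Hlc 𝔉 D.E 1)).range)] :
    Nat.card (LinearMap.ker (locRes 𝔏 (Rep.trivial (ZMod p) G (ZMod p)) 1)) ≤
      Nat.card (Hlc 𝔉 D.E 1 ⧸ (topChase_mulP p (Hlc 𝔉 D.E 1)).range) :=
  sha1B_card_le_zmod (X := D.XI) hfin 𝔏 D.hI D.smJ D.lamv hJ1p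
    (fun z hz hv => hA4inj z hz (funext hv)) hC hH3

end TopDatum

end Fermat.Agent.PT
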