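import Mathlib
import Fermat.Agent.CFT.PT.ShaOneTop
import Fermat.Agent.CFT.PT.SmoothTower
import Fermat.Agent.CFT.PT.TopRestrict

/-!
# S55 global bridge (GT6), part 6: the finite-level inputs of `Ш¹ ≤ Ш²` in ambient form

The hypothesis `hH3` of `TopDatum.card_ker_locRes_one_le` / `sha1B_card_le_zmod` at the group
`G = ↥V` (a level `V ≤ Γ`) quantifies over subgroups `U` of `↥V` and the doubly restricted family
`(𝔉.restrict V).restrict U`.  `sha1B_hH3_of_ambient` derives it from the statements for subgroups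
`V' ≤ V` of the ambient group `Γ` (family `𝔉.restrict V'`, coefficients `res V'.subtype C`), via
helper15's `towerEquiv`.
-/

set_option autoImplicit false

namespace Fermat.Agent.PT

open CategoryTheory groupCohomology Rep

variable {G : Type} [Group G] (𝔉 : LevelFamily G)

/-- an open subgroup of an open subgroup is open in the ambient group. -/
theorem isOpenFor_map_subtype {V : Subgroup G} (hV : IsOpenFor 𝔉 V) {U : Subgroup ↥V}
    (hU : IsOpenFor (𝔉.restrict V) U) : IsOpenFor 𝔉 (U.map V.subtype) := by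
  obtain ⟨W₂, hW₂, hW₂V⟩ := hV
  obtain ⟨_, ⟨W₀, hW₀, rfl⟩, hWU⟩ := hU
  obtain ⟨W₁, hW₁, hle⟩ := 𝔉.directed W₀ hW₀ W₂ hW₂
  refine ⟨W₁, hW₁, fun w hw => ?_⟩
  have hwV : w ∈ V := hW₂V ((hle hw).2)
  exact ⟨⟨w, hwV⟩, hWU (show (⟨w, hwV⟩ : ↥V).1 ∈ W₀ from (hle hw).1), rfl⟩

/-- transport of a property of subgroups of `↥V` along an equality. -/
theorem sha1B_transport {V : Subgroup G} (P : Subgroup ↥V → Prop) {U U' : Subgroup ↥V}
    (h : U' = U) (hP : P U') : P U := h ▸ hP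

/-- **the inputs `hH3` at a level `V` from their ambient forms**: `Hlc¹(V', C)[p] = 0` for the open
subgroups `V' ≤ V`, and the first inequality `C^V ⊄ N_{V/V'}(C^{V'})` for the open subgroups
`V' ≤ V`, normal of index `p` in `V`. -/
theorem sha1B_hH3_of_ambient (p : ℕ) {V : Subgroup G} (hV : IsOpenFor 𝔉 V) (C : Rep.{0} ℤ G)
    (hA1 : ∀ V' : Subgroup G, V' ≤ V → IsOpenFor 𝔉 V' →
      ∀ y : Hlc (𝔉.restrict V') (res V'.subtype C) 1, p • y = 0 → y = 0)
    (hFI : ∀ V' : Subgroup G, V' ≤ V → (V'.subgroupOf V).Normal → IsOpenFor 𝔉 V' →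
      V'.relIndex V = p → ∀ σ ∈ V, σ ∉ V' →
        ∃ x : C, (∀ g ∈ V, C.ρ g x = x) ∧
          ∀ b : C, (∀ u ∈ V', C.ρ u b = b) → x ≠ ∑ i ∈ Finset.range p, C.ρ (σ ^ i) b) :
    ∀ U : Subgroup ↥V, U.Normal → IsOpenFor (𝔉.restrict V) U → U.index = p →
      (∀ y : Hlc ((𝔉.restrict V).restrict U) (res U.subtype (res V.subtype C)) 1,
        p • y = 0 → y = 0) ∧
      ∀ σ : ↥V, σ ∉ U → ∃ x : (res V.subtype C : Rep.{0} ℤ ↥V),
        (∀ g, (res V.subtype C).ρ g x = x) ∧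
        ∀ b : (res V.subtype C : Rep.{0} ℤ ↥V), (∀ u ∈ U, (res V.subtype C).ρ u b = b) →
          x ≠ ∑ i ∈ Finset.range p, (res V.subtype C).ρ (σ ^ i) b := by
  intro U hUn hUo hUi
  have hle : U.map V.subtype ≤ V := Subgroup.map_subtype_le U
  have hUeq : (U.map V.subtype).subgroupOf V = U :=
    Subgroup.comap_map_eq_self_of_injective V.subtype_injective U
  have hV'o : IsOpenFor 𝔉 (U.map V.subtype) := isOpenFor_map_subtype 𝔉 hV hUo
  constructor
  · refine sha1B_transport (fun X : Subgroup ↥V =>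
      ∀ y : Hlc ((𝔉.restrict V).restrict X) (res X.subtype (res V.subtype C)) 1,
        p • y = 0 → y = 0) hUeq ?_
    intro y hy
    obtain ⟨y', rfl⟩ := (towerEquiv 𝔉 hle (res V.subtype C) 1).surjective y
    rw [← map_nsmul] at hy
    have h0 := (towerEquiv 𝔉 hle (res V.subtype C) 1).injective (hy.trans (map_zero _).symm)
    have hy' : y' = 0 := hA1 (U.map V.subtype) hle hV'o y' h0
    rw [hy', map_zero]
  · intro σ hσ
    have hσ' : (σ : G) ∉ U.map V.subtype := by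
      rintro ⟨τ, hτ, hτσ⟩
      exact hσ (by rwa [← Subtype.ext hτσ])
    obtain ⟨x, hxV, hxN⟩ := hFI (U.map V.subtype) hle (by rw [hUeq]; exact hUn) hV'o
      (by rw [Subgroup.relIndex, hUeq]; exact hUi) σ σ.2 hσ'
    refine ⟨x, fun g => hxV g g.2, fun b hb => ?_⟩
    refine hxN b ?_
    rintro u ⟨u', hu', rfl⟩
    exact hb u' hu'

namespace TopDatum

variable {𝔉} {p : ℕ} [Fact p.Prime] {𝔏 : LocSystem 𝔉} {μ : Rep.{0} (ZMod p) G}
  (D : TopDatum p 𝔏 μ) (V : Subgroup G) [V.Normal]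

/-- **(Ш¹ ≤ Ш²) at a normal level `V`**, for the restricted datum `D.restrictNormal V`, with the
finite-level inputs in ambient form. -/
theorem card_ker_locRes_one_le_restrictNormal (hfin : 𝔉.FiniteIndex) (hV : IsOpenFor 𝔉 V)
    (hJ1p : ∀ y : Hlc (𝔉.restrict V) (D.restrictNormal V).J 1, p • y = 0 → y = 0)
    (hA4inj : ∀ y : Hlc (𝔉.restrict V) (D.restrictNormal V).J 2, p • y = 0 →
      (D.restrictNormal V).lamH 2 y = 0 → y = 0)
    (hC : ∀ s : Finset (Hlc (𝔉.restrict V) (D.restrictNormal V).C 2),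
      (∀ c ∈ s, p • c = 0) → s.card ≤ p)
    (hA1 : ∀ V' : Subgroup G, V' ≤ V → IsOpenFor 𝔉 V' →
      ∀ y : Hlc (𝔉.restrict V') (res V'.subtype D.C) 1, p • y = 0 → y = 0)
    (hFI : ∀ V' : Subgroup G, V' ≤ V → (V'.subgroupOf V).Normal → IsOpenFor 𝔉 V' →
      V'.relIndex V = p → ∀ σ ∈ V, σ ∉ V' →
        ∃ x : D.C, (∀ g ∈ V, D.C.ρ g x = x) ∧
          ∀ b : D.C, (∀ u ∈ V', D.C.ρ u b = b) → x ≠ ∑ i ∈ Finset.range p, D.C.ρ (σ ^ i) b)
    [Finite (Hlc (𝔉.restrict V) (D.restrictNormal V).E 1 ⧸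
      (topChase_mulP p (Hlc (𝔉.restrict V) (D.restrictNormal V).E 1)).range)] :
    Nat.card (LinearMap.ker (locRes (𝔏.restrictNormal V)
        (Rep.trivial (ZMod p) ↥V (ZMod p)) 1)) ≤
      Nat.card (Hlc (𝔉.restrict V) (D.restrictNormal V).E 1 ⧸
        (topChase_mulP p (Hlc (𝔉.restrict V) (D.restrictNormal V).E 1)).range) :=
  (D.restrictNormal V).card_ker_locRes_one_le (hfin.restrict V) hJ1p hA4inj hC
    (sha1B_hH3_of_ambient 𝔉 p hV D.C hA1 hFI)

end TopDatum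

end Fermat.Agent.PT
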