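/-
S55 bridge (GB4-J)(J2) (helper15): Mackey decomposition of a smooth coinduced module restricted to
an open subgroup.

`ψ : H →* G`, `𝔉` a level family on `G`, `B : Rep k H`, `V ≤ G` open (not necessarily normal).
A `SmMackeyDatum ψ V` is a point `t : G` together with a model `(K, κ)` of
`(ψ⁻¹(t V t⁻¹), h ↦ t⁻¹ ψ(h) t : K →* V)` (standard model: `smMackeyStab`, `smMackeyConj`).
For a family `D : ι → SmMackeyDatum ψ V` whose points represent the double cosets `ψ(H) \ G / V`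
bijectively, the maps
`smMackeyProj (D i) : res_V (smCoind ψ 𝔉 B) ⟶ smCoind κ_i (𝔉.restrict V) (res_{K_i} B)`,
`f ↦ (v ↦ f (t_i v))`, are jointly bijective (`smMackeyProj_bijective`), and consequently
(`smMackeyLoc_bijective`, `smMackeyEquiv`)
`Hlc^n(V, smCoind ψ 𝔉 B) ≅ ∏_i Hlc^n(K_i, B)` (families pulled back along `κ_i`), the component
at `i` being "restrict along `κ_i`, evaluate at `t_i`" (`smMackeyLoc = HlcMap κ_i ev_{t_i}`).
-/
import Fermat.Agent.CFT.PT.SmoothPart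
import Fermat.Agent.CFT.PT.SmoothLift

set_option autoImplicit false

namespace Fermat.Agent.PT

open CategoryTheory groupCohomology Rep

universe u

variable {k G H : Type u} [CommRing k] [Group G] [Group H]

/-- a point `t : G` together with a model `(K, κ)` of `(ψ⁻¹(t V t⁻¹), h ↦ t⁻¹ ψ(h) t)`. -/
structure SmMackeyDatum (ψ : H →* G) (V : Subgroup G) where
  /-- the representative -/
  t : G
  /-- the local group `ψ⁻¹(t V t⁻¹)` -/
  K : Subgroup H
  /-- the map `h ↦ t⁻¹ ψ(h) t` -/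
  κ : ↥K →* ↥V
  mem_iff : ∀ h : H, h ∈ K ↔ t⁻¹ * ψ h * t ∈ V
  coe_κ : ∀ h : ↥K, ((κ h : ↥V) : G) = t⁻¹ * ψ h.1 * t

section Std

variable (ψ : H →* G) (V : Subgroup G)

/-- `H_t = ψ⁻¹(t V t⁻¹)`. -/
def smMackeyStab (t : G) : Subgroup H where
  carrier := {h | t⁻¹ * ψ h * t ∈ V}
  one_mem' := by
    show t⁻¹ * ψ 1 * t ∈ V
    rw [map_one, mul_one, inv_mul_cancel]
    exact V.one_mem
  mul_mem' := fun {a b} ha hb => by
    have h : t⁻¹ * ψ (a * b) * t = (t⁻¹ * ψ a * t) * (t⁻¹ * ψ b * t) := by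
      rw [map_mul]; group
    show t⁻¹ * ψ (a * b) * t ∈ V
    rw [h]
    exact V.mul_mem ha hb
  inv_mem' := fun {a} ha => by
    have h : t⁻¹ * ψ a⁻¹ * t = (t⁻¹ * ψ a * t)⁻¹ := by
      rw [map_inv]; group
    show t⁻¹ * ψ a⁻¹ * t ∈ V
    rw [h]
    exact V.inv_mem ha

variable {ψ V} in
theorem mem_smMackeyStab {t : G} {h : H} : h ∈ smMackeyStab ψ V t ↔ t⁻¹ * ψ h * t ∈ V := Iff.rfl

/-- `ψ_t : H_t →* V`, `h ↦ t⁻¹ ψ(h) t`. -/
def smMackeyConj (t : G) : ↥(smMackeyStab ψ V t) →* ↥V where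
  toFun h := ⟨t⁻¹ * ψ h.1 * t, h.2⟩
  map_one' := by
    apply Subtype.ext
    show t⁻¹ * ψ 1 * t = 1
    rw [map_one, mul_one, inv_mul_cancel]
  map_mul' a b := by
    apply Subtype.ext
    show t⁻¹ * ψ (a.1 * b.1) * t = (t⁻¹ * ψ a.1 * t) * (t⁻¹ * ψ b.1 * t)
    rw [map_mul]; group

@[simp] theorem smMackeyConj_coe (t : G) (h : ↥(smMackeyStab ψ V t)) :
    ((smMackeyConj ψ V t h : ↥V) : G) = t⁻¹ * ψ h.1 * t := rfl

/-- the standard datum at `t`. -/
def SmMackeyDatum.std (t : G) : SmMackeyDatum ψ V where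
  t := t
  K := smMackeyStab ψ V t
  κ := smMackeyConj ψ V t
  mem_iff _ := Iff.rfl
  coe_κ _ := rfl

end Std

variable {ψ : H →* G} (𝔉 : LevelFamily G) (B : Rep.{u} k H) {V : Subgroup G}

/-! ### The projections -/

lemma smMackeyProj_mem (D : SmMackeyDatum ψ V) (f : smCoindV ψ 𝔉 B) :
    (fun v : ↥V => f.1 (D.t * v.1)) ∈ smCoindV D.κ (𝔉.restrict V) (res D.K.subtype B) := by
  refine ⟨fun h v => ?_, ?_⟩
  · show f.1 (D.t * ((D.κ h : ↥V).1 * v.1)) = B.ρ h.1 (f.1 (D.t * v.1))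
    rw [D.coe_κ]
    have e : D.t * (D.t⁻¹ * ψ h.1 * D.t * v.1) = ψ h.1 * (D.t * v.1) := by group
    rw [e]
    exact f.2.1 h.1 _
  · obtain ⟨U, hU, hf⟩ := f.2.2
    refine ⟨U.subgroupOf V, ⟨U, hU, rfl⟩, fun v u hu => ?_⟩
    show f.1 (D.t * (v.1 * u.1)) = f.1 (D.t * v.1)
    rw [← mul_assoc]
    exact hf _ _ hu

/-- The Mackey projection `f ↦ (v ↦ f (t * v))`. -/
noncomputable def smMackeyProj (D : SmMackeyDatum ψ V) :
    res V.subtype (smCoind ψ 𝔉 B) ⟶ smCoind D.κ (𝔉.restrict V) (res D.K.subtype B) :=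
  Rep.ofHom (ρ := (res V.subtype (smCoind ψ 𝔉 B)).ρ)
    (σ := smCoindRepresentation D.κ (𝔉.restrict V) (res D.K.subtype B))
    ⟨{ toFun := fun f => ⟨fun v : ↥V => (f : smCoindV ψ 𝔉 B).1 (D.t * v.1),
          smMackeyProj_mem 𝔉 B D f⟩
       map_add' := fun _ _ => rfl
       map_smul' := fun _ _ => rfl }, fun v₀ => by
      ext (f : smCoindV ψ 𝔉 B) v
      show f.1 (D.t * v.1 * v₀.1) = f.1 (D.t * (v.1 * v₀.1))
      rw [mul_assoc]⟩

lemma smMackeyProj_apply (D : SmMackeyDatum ψ V) (f : smCoindV ψ 𝔉 B) (v : ↥V) :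
    ((smMackeyProj 𝔉 B D).hom f : smCoindV D.κ (𝔉.restrict V) (res D.K.subtype B)).1 v =
      f.1 (D.t * v.1) := rfl

/-! ### Joint bijectivity -/

section Bijective

variable (ψ V) in
/-- the double cosets `ψ(H) \ G / V`. -/
abbrev smMackeyIdx : Type u := DoubleCoset.Quotient (ψ.range : Set G) (V : Set G)

variable (ψ V) in
/-- finiteness of the set of double cosets when `V` has finite index. -/
theorem smMackeyIdx_finite [V.FiniteIndex] : Finite (smMackeyIdx ψ V) := by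
  have : Finite (G ⧸ V) := Subgroup.finite_quotient_of_finiteIndex
  let f : G ⧸ V → smMackeyIdx ψ V := Quotient.lift (DoubleCoset.mk ψ.range V) (by
    intro a b hab
    have hab' : a⁻¹ * b ∈ V := QuotientGroup.leftRel_apply.mp hab
    exact (DoubleCoset.eq ψ.range V a b).2 ⟨1, one_mem _, a⁻¹ * b, hab', by group⟩)
  refine Finite.of_surjective f fun c => ?_
  exact ⟨(c.out : G), DoubleCoset.out_eq' _ _ c⟩

/-- a family of data whose points represent the double cosets `ψ(H) \ G / V` bijectively. -/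
def IsSmMackeyRep {ι : Type*} (D : ι → SmMackeyDatum ψ V) : Prop :=
  Function.Bijective fun i => DoubleCoset.mk ψ.range V (D i).t

variable {ι : Type*} {D : ι → SmMackeyDatum ψ V}

/-- every `g` is `ψ h * t_i * v` for some `i`. -/
lemma IsSmMackeyRep.exists_decomp (hD : IsSmMackeyRep D) (g : G) :
    ∃ i : ι, ∃ h : H, ∃ v : ↥V, g = ψ h * (D i).t * v.1 := by
  obtain ⟨i, hi⟩ := hD.2 (DoubleCoset.mk ψ.range V g)
  obtain ⟨a, ⟨h, rfl⟩, b, hb, hab⟩ := (DoubleCoset.eq ψ.range V (D i).t g).1 hi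
  exact ⟨i, h, ⟨b, hb⟩, hab⟩

/-- the index `i` in `g = ψ h * t_i * v` is unique. -/
lemma IsSmMackeyRep.index_unique (hD : IsSmMackeyRep D) {i j : ι} {h h' : H} {v v' : ↥V}
    (e : ψ h * (D i).t * v.1 = ψ h' * (D j).t * v'.1) : i = j := by
  apply hD.1
  show DoubleCoset.mk ψ.range V (D i).t = DoubleCoset.mk ψ.range V (D j).t
  have h1 : DoubleCoset.mk ψ.range V (D i).t = DoubleCoset.mk ψ.range V (ψ h * (D i).t * v.1) :=
    (DoubleCoset.eq ψ.range V _ _).2 ⟨ψ h, ⟨h, rfl⟩, v.1, v.2, rfl⟩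
  have h2 : DoubleCoset.mk ψ.range V (D j).t = DoubleCoset.mk ψ.range V (ψ h' * (D j).t * v'.1) :=
    (DoubleCoset.eq ψ.range V _ _).2 ⟨ψ h', ⟨h', rfl⟩, v'.1, v'.2, rfl⟩
  rw [h1, h2, e]

theorem smMackeyProj_injective (hD : IsSmMackeyRep D) :
    Function.Injective (fun (f : smCoindV ψ 𝔉 B) (i : ι) => (smMackeyProj 𝔉 B (D i)).hom f) := by
  intro f f' hff'
  apply smCoind_ext
  intro g
  obtain ⟨i, h, v, hg⟩ := hD.exists_decomp g
  have h1 := congrFun hff' i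
  have h2 := congrArg (fun φ : smCoindV (D i).κ (𝔉.restrict V) (res (D i).K.subtype B) =>
    φ.1 v) h1
  have h3 : f.1 ((D i).t * v.1) = f'.1 ((D i).t * v.1) := h2
  rw [hg, mul_assoc, f.2.1, f'.2.1, h3]

/-- well-definedness of the glueing. -/
lemma smMackey_glue_wd (E : SmMackeyDatum ψ V)
    (φ : smCoindV E.κ (𝔉.restrict V) (res E.K.subtype B)) (h h' : H) (v v' : ↥V)
    (e : ψ h * E.t * v.1 = ψ h' * E.t * v'.1) :
    B.ρ h (φ.1 v) = B.ρ h' (φ.1 v') := by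
  -- `a := h'⁻¹ * h ∈ K` and `κ a = v' * v⁻¹`
  have ha : E.t⁻¹ * ψ (h'⁻¹ * h) * E.t = v'.1 * v.1⁻¹ := by
    rw [map_mul, map_inv]
    have : ψ h = ψ h' * E.t * v'.1 * v.1⁻¹ * E.t⁻¹ := by rw [← e]; group
    rw [this]
    group
  have haS : h'⁻¹ * h ∈ E.K := by
    rw [E.mem_iff, ha]
    exact V.mul_mem v'.2 (V.inv_mem v.2)
  have h1 := φ.2.1 ⟨h'⁻¹ * h, haS⟩ v
  have h2 : E.κ ⟨h'⁻¹ * h, haS⟩ * v = v' := by
    apply Subtype.ext
    rw [Subgroup.coe_mul, E.coe_κ]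
    show E.t⁻¹ * ψ (h'⁻¹ * h) * E.t * v.1 = v'.1
    rw [ha]
    group
  rw [h2] at h1
  rw [h1]
  show B.ρ h (φ.1 v) = B.ρ h' (B.ρ (h'⁻¹ * h) (φ.1 v))
  rw [← Module.End.mul_apply, ← map_mul]
  congr 2
  group

theorem smMackeyProj_surjective [Finite ι] (hD : IsSmMackeyRep D) (hV : ∃ U ∈ 𝔉.sets, U ≤ V) :
    Function.Surjective (fun (f : smCoindV ψ 𝔉 B) (i : ι) =>
      (smMackeyProj 𝔉 B (D i)).hom f) := by
  classical
  intro φ
  have : Fintype ι := Fintype.ofFinite _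
  choose ii hh vv hg using hD.exists_decomp
  -- the glued function
  let F : G → B := fun g => B.ρ (hh g) ((φ (ii g)).1 (vv g))
  have key : ∀ (i : ι) (h : H) (v : ↥V),
      F (ψ h * (D i).t * v.1) = B.ρ h ((φ i).1 v) := by
    intro i h v
    set g := ψ h * (D i).t * v.1 with hgdef
    have h3 := hg g
    have hi : ii g = i := hD.index_unique (h3.symm.trans hgdef)
    show B.ρ (hh g) ((φ (ii g)).1 (vv g)) = _
    have h4 : ∀ (j : ι) (_ : j = i), g = ψ (hh g) * (D j).t * (vv g).1 →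
        B.ρ (hh g) ((φ j).1 (vv g)) = B.ρ h ((φ i).1 v) := by
      intro j hj h5
      subst hj
      exact smMackey_glue_wd 𝔉 B (D j) (φ j) (hh g) h (vv g) v (h5.symm.trans hgdef)
    exact h4 _ hi h3
  -- equivariance
  have hFe : ∀ (h : H) (g : G), F (ψ h * g) = B.ρ h (F g) := by
    intro h g
    have e2 : g = ψ (hh g) * (D (ii g)).t * (vv g).1 := hg g
    have e1 : ψ h * g = ψ (h * hh g) * (D (ii g)).t * (vv g).1 := by
      conv_lhs => rw [e2]
      rw [map_mul]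
      group
    have k1 := key (ii g) (h * hh g) (vv g)
    have k2 := key (ii g) (hh g) (vv g)
    rw [← e1] at k1
    rw [← e2] at k2
    rw [k1, k2, map_mul, Module.End.mul_apply]
  -- smoothness
  obtain ⟨U₀, hU₀, hU₀V⟩ := hV
  have hex : ∀ i : ι, ∃ U ∈ 𝔉.sets, ∀ (v : ↥V) (u : ↥V), u.1 ∈ U →
      (φ i).1 (v * u) = (φ i).1 v := by
    intro i
    obtain ⟨W, ⟨U, hU, rfl⟩, hW⟩ := (φ i).2.2
    exact ⟨U, hU, fun v u hu => hW v u hu⟩
  choose Uc hUc hUcφ using hex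
  obtain ⟨W₁, hW₁, hW₁le⟩ := exists_le_of_finset 𝔉.nonempty 𝔉.directed
    (Finset.univ : Finset ι) Uc (fun c _ => hUc c)
  obtain ⟨U', hU', hU'le⟩ := 𝔉.directed W₁ hW₁ U₀ hU₀
  have hFs : ∀ g, ∀ u ∈ U', F (g * u) = F g := by
    intro g u hu
    have huV : u ∈ V := hU₀V (hU'le hu).2
    have e2 : g = ψ (hh g) * (D (ii g)).t * (vv g).1 := hg g
    have e1 : g * u = ψ (hh g) * (D (ii g)).t * ((vv g) * ⟨u, huV⟩ : ↥V).1 := by
      conv_lhs => rw [e2]
      show ψ (hh g) * (D (ii g)).t * (vv g).1 * u = ψ (hh g) * (D (ii g)).t * ((vv g).1 * u)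
      group
    have k1 := key (ii g) (hh g) ((vv g) * ⟨u, huV⟩)
    have k2 := key (ii g) (hh g) (vv g)
    rw [← e1] at k1
    rw [← e2] at k2
    rw [k1, k2, hUcφ _ (vv g) ⟨u, huV⟩ (hW₁le _ (Finset.mem_univ _) (hU'le hu).1)]
  refine ⟨⟨F, hFe, U', hU', hFs⟩, ?_⟩
  funext i
  apply smCoind_ext
  intro v
  show F ((D i).t * v.1) = (φ i).1 v
  have h1 := key i 1 v
  rw [map_one, one_mul, map_one] at h1
  exact h1

/-- **Mackey decomposition, module level**: the projections at a system of representatives of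
the double cosets `ψ(H) \ G / V` are jointly bijective. -/
theorem smMackeyProj_bijective [Finite ι] (hD : IsSmMackeyRep D) (hV : ∃ U ∈ 𝔉.sets, U ≤ V) :
    Function.Bijective (fun (f : smCoindV ψ 𝔉 B) (i : ι) => (smMackeyProj 𝔉 B (D i)).hom f) :=
  ⟨smMackeyProj_injective 𝔉 B hD, smMackeyProj_surjective 𝔉 B hD hV⟩

variable (ψ V) in
/-- the standard system of representatives: `Quotient.out` on the double cosets. -/
theorem isSmMackeyRep_std :
    IsSmMackeyRep (fun c : smMackeyIdx ψ V => SmMackeyDatum.std ψ V c.out) := by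
  have h : (fun c : smMackeyIdx ψ V => DoubleCoset.mk ψ.range V (SmMackeyDatum.std ψ V c.out).t) =
      id := funext fun c => DoubleCoset.out_eq' _ _ c
  show Function.Bijective _
  rw [h]
  exact Function.bijective_id

end Bijective

/-! ### Cohomology -/

section Cohomology

/-- evaluation at `t`, as a morphism over `κ : K →* V`. -/
noncomputable def smMackeyEv (D : SmMackeyDatum ψ V) :
    res D.κ (res V.subtype (smCoind ψ 𝔉 B)) ⟶ res D.K.subtype B :=
  Rep.ofHom (ρ := (res D.κ (res V.subtype (smCoind ψ 𝔉 B))).ρ)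
    (σ := (res D.K.subtype B).ρ)
    ⟨{ toFun := fun f => (f : smCoindV ψ 𝔉 B).1 D.t
       map_add' := fun _ _ => rfl
       map_smul' := fun _ _ => rfl }, fun h => by
      ext (f : smCoindV ψ 𝔉 B)
      show f.1 (D.t * ((D.κ h : ↥V) : G)) = B.ρ h.1 (f.1 D.t)
      rw [D.coe_κ]
      have e : D.t * (D.t⁻¹ * ψ h.1 * D.t) = ψ h.1 * D.t := by group
      rw [e]
      exact f.2.1 h.1 D.t⟩

lemma smMackeyEv_apply (D : SmMackeyDatum ψ V) (f : smCoindV ψ 𝔉 B) :
    (smMackeyEv 𝔉 B D).hom f = f.1 D.t := rfl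

/-- **the local component at `D`**: restrict along `κ : K →* V` and evaluate at `t`. -/
noncomputable def smMackeyLoc (D : SmMackeyDatum ψ V) (n : ℕ) :
    Hlc (𝔉.restrict V) (res V.subtype (smCoind ψ 𝔉 B)) n →ₗ[k]
      Hlc ((𝔉.restrict V).comap D.κ) (res D.K.subtype B) n :=
  (HlcMap D.κ (smMackeyEv 𝔉 B D) ((𝔉.restrict V).compat_comap D.κ) n).hom

/-- `smMackeyLoc` = coefficient map of the Mackey projection followed by the Shapiro map. -/
theorem smMackeyLoc_eq (D : SmMackeyDatum ψ V) (n : ℕ)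
    (x : Hlc (𝔉.restrict V) (res V.subtype (smCoind ψ 𝔉 B)) n) :
    smMackeyLoc 𝔉 B D n x =
      (smShap D.κ (𝔉.restrict V) (res D.K.subtype B) n).hom
        ((HlcMap (MonoidHom.id ↥V) (smMackeyProj 𝔉 B D) (𝔉.restrict V).compat_id n).hom x) := by
  obtain ⟨c, rfl⟩ := lcπ_surjective (𝔉.restrict V) _ n x
  rw [smMackeyLoc, HlcMap_lcπ, HlcMap_lcπ, smShap_lcπ]
  congr 1
  apply Subtype.ext
  funext u
  show (c.1 (fun i => D.κ (u i))).1 D.t = (c.1 (fun i => D.κ (u i))).1 (D.t * ((1 : ↥V) : G))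
  rw [Subgroup.coe_one, mul_one]

variable {𝔉} {ι : Type*} {D : ι → SmMackeyDatum ψ V}

/-- **Mackey + Shapiro**: `Hlc^n(V, smCoind ψ 𝔉 B) ≅ ∏_i Hlc^n(K_i, B)`, the product over a system
of representatives of `ψ(H) \ G / V`; the component at `i` is "restrict along `κ_i`, evaluate at
`t_i`". -/
theorem smMackeyLoc_bijective [Finite ι] (hD : IsSmMackeyRep D) (hfin : 𝔉.FiniteIndex)
    (hV : ∃ U ∈ 𝔉.sets, U ≤ V) (n : ℕ) :
    Function.Bijective (fun (x : Hlc (𝔉.restrict V) (res V.subtype (smCoind ψ 𝔉 B)) n)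
      (i : ι) => smMackeyLoc 𝔉 B (D i) n x) := by
  have h1 := HlcPiMap_bijective (𝔉.restrict V) (p := fun i : ι => smMackeyProj 𝔉 B (D i))
    (smMackeyProj_bijective 𝔉 B hD hV) n
  have h2 : ∀ i : ι, Function.Bijective
      (smShap (D i).κ (𝔉.restrict V) (res (D i).K.subtype B) n).hom :=
    fun i => smShap_bijective' (hfin.restrict V) n _
  constructor
  · intro x x' hxx'
    apply h1.1
    funext i
    apply (h2 i).1
    have h3 : smMackeyLoc 𝔉 B (D i) n x = smMackeyLoc 𝔉 B (D i) n x' := congrFun hxx' i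
    rw [smMackeyLoc_eq, smMackeyLoc_eq] at h3
    exact h3
  · intro y
    have hy : ∀ i, ∃ z, (smShap (D i).κ (𝔉.restrict V) (res (D i).K.subtype B) n).hom z = y i :=
      fun i => (h2 i).2 (y i)
    choose z hz using hy
    obtain ⟨x, hx⟩ := h1.2 z
    refine ⟨x, funext fun i => ?_⟩
    show smMackeyLoc 𝔉 B (D i) n x = y i
    rw [smMackeyLoc_eq, ← hz i, ← hx]
    rfl

/-- the Mackey–Shapiro equivalence. -/
noncomputable def smMackeyEquiv [Finite ι] (hD : IsSmMackeyRep D) (hfin : 𝔉.FiniteIndex)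
    (hV : ∃ U ∈ 𝔉.sets, U ≤ V) (n : ℕ) :
    Hlc (𝔉.restrict V) (res V.subtype (smCoind ψ 𝔉 B)) n ≃ₗ[k]
      ∀ i : ι, Hlc ((𝔉.restrict V).comap (D i).κ) (res (D i).K.subtype B) n :=
  LinearEquiv.ofBijective (LinearMap.pi fun i : ι => smMackeyLoc 𝔉 B (D i) n)
    (smMackeyLoc_bijective B hD hfin hV n)

@[simp] theorem smMackeyEquiv_apply [Finite ι] (hD : IsSmMackeyRep D) (hfin : 𝔉.FiniteIndex)
    (hV : ∃ U ∈ 𝔉.sets, U ≤ V) (n : ℕ)
    (x : Hlc (𝔉.restrict V) (res V.subtype (smCoind ψ 𝔉 B)) n) (i : ι) :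
    smMackeyEquiv B hD hfin hV n x i = smMackeyLoc 𝔉 B (D i) n x := rfl

end Cohomology

/-! ### The local families -/

section Family

/-- the family on `K` pulled back from `V` along `κ` has the same members as the restriction to `K`
of the family pulled back from `G` along `ψ` (the members of `𝔉` are normal in `G`). -/
theorem smMackey_sets_eq (D : SmMackeyDatum ψ V) :
    ((𝔉.restrict V).comap D.κ).sets = ((𝔉.comap ψ).restrict D.K).sets := by
  have key : ∀ U ∈ 𝔉.sets, (U.subgroupOf V).comap D.κ = (U.comap ψ).subgroupOf D.K := by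
    intro U hU
    have hn := 𝔉.normal U hU
    ext h
    show ((D.κ h : ↥V) : G) ∈ U ↔ ψ h.1 ∈ U
    rw [D.coe_κ]
    constructor
    · intro hh
      have := hn.conj_mem _ hh D.t
      have e : D.t * (D.t⁻¹ * ψ h.1 * D.t) * D.t⁻¹ = ψ h.1 := by group
      rwa [e] at this
    · intro hh
      have := hn.conj_mem _ hh D.t⁻¹
      rwa [inv_inv] at this
  ext W
  constructor
  · rintro ⟨W', ⟨U, hU, rfl⟩, rfl⟩
    exact ⟨U.comap ψ, ⟨U, hU, rfl⟩, key U hU⟩
  · rintro ⟨W', ⟨U, hU, rfl⟩, rfl⟩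
    exact ⟨U.subgroupOf V, ⟨U, hU, rfl⟩, (key U hU).symm⟩

/-- a level family is determined by its members. -/
theorem LevelFamily.ext_sets {𝔉₁ 𝔉₂ : LevelFamily G} (h : 𝔉₁.sets = 𝔉₂.sets) : 𝔉₁ = 𝔉₂ := by
  cases 𝔉₁
  cases 𝔉₂
  simp only at h
  subst h
  rfl

theorem smMackey_family_eq (D : SmMackeyDatum ψ V) :
    (𝔉.restrict V).comap D.κ = (𝔉.comap ψ).restrict D.K :=
  LevelFamily.ext_sets (smMackey_sets_eq 𝔉 D)

end Family

end Fermat.Agent.PT
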