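/-
S55 bridge (GB4-J)(J2'), (helper15): the Mackey decomposition of `smCoind ψ 𝔉 B` restricted to a
NORMAL open subgroup `V`, in the language of `LocSystem.restrictNormal` (`PT/Contracts.lean`):
index set `G ⧸ (V ⊔ ψ.range)`, local group `V.comap ψ`, local map `conjComap ψ V g`
(`g = Quotient.out c`), component "restrict along `conjComap ψ V g`, evaluate at `g⁻¹`".
-/
import Fermat.Agent.CFT.PT.SmoothCoindMackey
import Fermat.Agent.CFT.PT.MackeyModule

set_option autoImplicit false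

namespace Fermat.Agent.PT

open CategoryTheory groupCohomology Rep

universe u

variable {k G H : Type u} [CommRing k] [Group G] [Group H] (ψ : H →* G) (V : Subgroup G)
  [hVn : V.Normal]

/-- the datum of a normal subgroup at `g`: `t = g⁻¹`, `K = V.comap ψ`, `κ = conjComap ψ V g`. -/
noncomputable def SmMackeyDatum.ofNormal (g : G) : SmMackeyDatum ψ V where
  t := g⁻¹
  K := V.comap ψ
  κ := conjComap ψ V g
  mem_iff h := by
    rw [inv_inv]
    show ψ h ∈ V ↔ g * ψ h * g⁻¹ ∈ V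
    constructor
    · intro hh
      exact hVn.conj_mem _ hh g
    · intro hh
      have := hVn.conj_mem _ hh g⁻¹
      have e : g⁻¹ * (g * ψ h * g⁻¹) * g⁻¹⁻¹ = ψ h := by group
      rwa [e] at this
  coe_κ h := by
    rw [inv_inv]
    rfl

@[simp] theorem SmMackeyDatum.ofNormal_t (g : G) : (SmMackeyDatum.ofNormal ψ V g).t = g⁻¹ := rfl

@[simp] theorem SmMackeyDatum.ofNormal_K (g : G) :
    (SmMackeyDatum.ofNormal ψ V g).K = V.comap ψ := rfl

@[simp] theorem SmMackeyDatum.ofNormal_κ (g : G) :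
    (SmMackeyDatum.ofNormal ψ V g).κ = conjComap ψ V g := rfl

/-- the inverses of the representatives of `G ⧸ (V ⊔ ψ.range)` represent the double cosets
`ψ(H) \ G / V`. -/
theorem isSmMackeyRep_ofNormal :
    IsSmMackeyRep (fun c : G ⧸ (V ⊔ ψ.range) => SmMackeyDatum.ofNormal ψ V c.out) := by
  constructor
  · intro c c' hcc'
    have h1 : DoubleCoset.mk ψ.range V (c.out)⁻¹ = DoubleCoset.mk ψ.range V (c'.out)⁻¹ := hcc'
    obtain ⟨x, ⟨γ, rfl⟩, y, hy, hxy⟩ := (DoubleCoset.eq ψ.range V _ _).1 h1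
    -- `c'.out = y⁻¹ * c.out * (ψ γ)⁻¹`
    have h2 : (c.out)⁻¹ * c'.out ∈ V ⊔ ψ.range := by
      have e : (c.out)⁻¹ * c'.out = ((c.out)⁻¹ * y⁻¹ * (c.out)⁻¹⁻¹) * (ψ γ)⁻¹ := by
        have : c'.out = ((c'.out)⁻¹)⁻¹ := (inv_inv _).symm
        rw [this, hxy]
        group
      rw [e]
      exact (V ⊔ ψ.range).mul_mem
        (Subgroup.mem_sup_left (hVn.conj_mem _ (V.inv_mem hy) _))
        (Subgroup.mem_sup_right (ψ.range.inv_mem ⟨γ, rfl⟩))
    have h3 : ((c.out : G) : G ⧸ (V ⊔ ψ.range)) = ((c'.out : G) : G ⧸ (V ⊔ ψ.range)) :=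
      QuotientGroup.eq.2 h2
    rw [QuotientGroup.out_eq', QuotientGroup.out_eq'] at h3
    exact h3
  · intro d
    obtain ⟨g, rfl⟩ : ∃ g, DoubleCoset.mk ψ.range V g = d := ⟨d.out, DoubleCoset.out_eq' _ _ d⟩
    refine ⟨((g⁻¹ : G) : G ⧸ (V ⊔ ψ.range)), ?_⟩
    set a : G := (((g⁻¹ : G) : G ⧸ (V ⊔ ψ.range))).out with ha
    have h1 : a⁻¹ * g⁻¹ ∈ V ⊔ ψ.range := by
      have : ((a : G) : G ⧸ (V ⊔ ψ.range)) = ((g⁻¹ : G) : G ⧸ (V ⊔ ψ.range)) :=
        QuotientGroup.out_eq' _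
      exact QuotientGroup.eq.1 this
    obtain ⟨v, γ, hvγ⟩ := mackey_exists_mul_of_mem_sup ψ V h1
    show DoubleCoset.mk ψ.range V a⁻¹ = DoubleCoset.mk ψ.range V g
    refine (DoubleCoset.eq ψ.range V a⁻¹ g).2
      ⟨ψ γ⁻¹, ⟨γ⁻¹, rfl⟩, a * v.1⁻¹ * a⁻¹, hVn.conj_mem _ (V.inv_mem v.2) a, ?_⟩
    have e : g = (a * (a⁻¹ * g⁻¹))⁻¹ := by group
    rw [e, hvγ, map_inv]
    group

omit hVn in
/-- finiteness of `G ⧸ (V ⊔ ψ.range)` for `V` of finite index. -/
theorem finite_quotient_sup_range' [V.FiniteIndex] : Finite (G ⧸ (V ⊔ ψ.range)) := by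
  have h2 : (V ⊔ ψ.range).FiniteIndex := Subgroup.finiteIndex_of_le le_sup_left
  exact Subgroup.finite_quotient_of_finiteIndex

variable (𝔉 : LevelFamily G) (B : Rep.{u} k H)

/-- evaluation at `g⁻¹`, as a morphism over `conjComap ψ V g : V.comap ψ →* V`. -/
noncomputable abbrev smMackeyEvN (g : G) :
    res (conjComap ψ V g) (res V.subtype (smCoind ψ 𝔉 B)) ⟶ res (V.comap ψ).subtype B :=
  smMackeyEv 𝔉 B (SmMackeyDatum.ofNormal ψ V g)

lemma smMackeyEvN_apply (g : G) (f : smCoindV ψ 𝔉 B) :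
    (smMackeyEvN ψ V 𝔉 B g).hom f = f.1 g⁻¹ := rfl

/-- the local component at `g`: restrict along `conjComap ψ V g`, evaluate at `g⁻¹`. -/
noncomputable abbrev smMackeyLocN (g : G) (n : ℕ) :
    Hlc (𝔉.restrict V) (res V.subtype (smCoind ψ 𝔉 B)) n →ₗ[k]
      Hlc ((𝔉.restrict V).comap (conjComap ψ V g)) (res (V.comap ψ).subtype B) n :=
  smMackeyLoc 𝔉 B (SmMackeyDatum.ofNormal ψ V g) n

theorem smMackeyLocN_eq_HlcMap (g : G) (n : ℕ) :
    smMackeyLocN ψ V 𝔉 B g n =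
      (HlcMap (conjComap ψ V g) (smMackeyEvN ψ V 𝔉 B g)
        ((𝔉.restrict V).compat_comap (conjComap ψ V g)) n).hom := rfl

variable {V 𝔉} in
/-- **Mackey + Shapiro for a normal open subgroup**, in the shape of `LocSystem.restrictNormal`:
`Hlc^n(V, smCoind ψ 𝔉 B) ≅ ∏_{c ∈ G ⧸ V·ψ(H)} Hlc^n(ψ⁻¹ V, B)`. -/
theorem smMackeyLocN_bijective (hfin : 𝔉.FiniteIndex) (hV : V ∈ 𝔉.sets) (n : ℕ) :
    Function.Bijective (fun (x : Hlc (𝔉.restrict V) (res V.subtype (smCoind ψ 𝔉 B)) n)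
      (c : G ⧸ (V ⊔ ψ.range)) => smMackeyLocN ψ V 𝔉 B (Quotient.out c) n x) := by
  have := hfin V hV
  have := finite_quotient_sup_range' ψ V
  exact smMackeyLoc_bijective B (isSmMackeyRep_ofNormal ψ V) hfin ⟨V, hV, le_rfl⟩ n

/-- the family comparison in the normal case: the family pulled back from `V` along
`conjComap ψ V g` is the restriction to `ψ⁻¹ V` of the family pulled back from `G` along `ψ`. -/
theorem smMackeyN_family_eq (g : G) :
    (𝔉.restrict V).comap (conjComap ψ V g) = (𝔉.comap ψ).restrict (V.comap ψ) :=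
  smMackey_family_eq 𝔉 (SmMackeyDatum.ofNormal ψ V g)

end Fermat.Agent.PT
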