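/-
S55 bridge (GB4-J)(J6): the `J`-side hypotheses (A2), (A3), (A4), (A4inj), (J1) of a `TopDatum`
(`PT/TopChaseHlc.lean`, `PT/TopChaseP.lean`) whose idele module `J` is a finite product of smooth
coinductions of the local modules `Lv v`, from the corresponding local statements for the
pulled-back families `𝔉.comap (𝔏.ψ v)`.
-/
import Fermat.Agent.CFT.PT.SmoothCoindTop
import Fermat.Agent.CFT.PT.TopChaseP
import Fermat.Agent.CFT.PT.TopRestrict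
import Fermat.Agent.CFT.PT.SmoothCoindMackeyN

set_option autoImplicit false

namespace Fermat.Agent.PT

open CategoryTheory groupCohomology Rep

namespace TopDatum

variable {p : ℕ} {G : Type} [Group G] {𝔉 : LevelFamily G} {𝔏 : LocSystem 𝔉}
  {μ : Rep.{0} (ZMod p) G} (D : TopDatum p 𝔏 μ)
  (θ : ∀ v, D.J ⟶ smCoind (𝔏.ψ v) 𝔉 (D.Lv v))
  (hlam : ∀ v (a : D.J.V),
    (D.lamv v).hom a = ((θ v).hom a : smCoindV (𝔏.ψ v) 𝔉 (D.Lv v)).1 1)

include hlam in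
/-- the localisation maps of the datum are the evaluations at `1` of the `θ v`. -/
theorem lamv_eq_smTopLam (v : 𝔏.ι) : D.lamv v = smTopLam (𝔏.ψ v) (θ v) :=
  topHom_ext fun a => hlam v a

variable [Finite 𝔏.ι]

include hlam in
/-- the total localisation map of the datum factors through the product decomposition. -/
theorem lamH_eq_smTopFam (n : ℕ) (y : Hlc 𝔉 D.J n) (v : 𝔏.ι) :
    D.lamH n y v = smTopFam 𝔏 v (D.Lv v) n (smTopMap 𝔏 θ n y v) := by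
  rw [← HlcMap_smTopLam_fam, ← D.lamv_eq_smTopLam θ hlam v]
  rfl

variable (hfin : 𝔉.FiniteIndex)
  (hθ : Function.Bijective (fun (a : D.J.V) (v : 𝔏.ι) => (θ v).hom a))

include hfin hθ

/-- **(J1)** `Hlc¹(J) = 0` from local Hilbert 90. -/
theorem subsingleton_H1J_of_coind
    (h : ∀ v, Subsingleton (Hlc (𝔉.comap (𝔏.ψ v)) (D.Lv v) 1)) :
    Subsingleton (Hlc 𝔉 D.J 1) :=
  smTop_subsingleton 𝔏 θ hfin hθ 1 h

/-- **(J1)**, divisibility form. -/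
theorem hJ1_of_coind
    (h : ∀ v, Subsingleton (Hlc (𝔉.comap (𝔏.ψ v)) (D.Lv v) 1)) (y : Hlc 𝔉 D.J 1) :
    ∃ y', p • y' = y := by
  have := D.subsingleton_H1J_of_coind θ hfin hθ h
  exact ⟨0, Subsingleton.elim _ _⟩

/-- **(A2)** `Hlc²(J)` is `p`-divisible. -/
theorem hA2_of_coind
    (h : ∀ v, ∀ z : Hlc (𝔉.comap (𝔏.ψ v)) (D.Lv v) 2, ∃ z', p • z' = z) (y : Hlc 𝔉 D.J 2) :
    ∃ y', p • y' = y := by
  obtain ⟨y', hy'⟩ := smTop_exists_smul_eq 𝔏 θ hfin hθ (p : ℤ) 2 (fun v z => by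
    obtain ⟨z', hz'⟩ := h v z
    exact ⟨z', by rw [Nat.cast_smul_eq_nsmul ℤ]; exact hz'⟩) y
  exact ⟨y', by rw [← Nat.cast_smul_eq_nsmul ℤ]; exact hy'⟩

/-- **(A3)** `Hlc³(J)[p] = 0`. -/
theorem hA3_of_coind
    (h : ∀ v, ∀ z : Hlc (𝔉.comap (𝔏.ψ v)) (D.Lv v) 3, p • z = 0 → z = 0)
    (y : Hlc 𝔉 D.J 3) (hy : p • y = 0) : y = 0 :=
  smTop_eq_zero_of_smul_eq_zero 𝔏 θ hfin hθ (p : ℤ) 3 (fun v z hz => h v z (by
    rw [← Nat.cast_smul_eq_nsmul ℤ]; exact hz)) y (by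
    rw [Nat.cast_smul_eq_nsmul ℤ]; exact hy)

include hlam in
/-- **(A4inj)** a `p`-torsion class of `Hlc²(J)` which is locally trivial vanishes. -/
theorem hA4inj_of_coind
    (h : ∀ v, ∀ z : Hlc (𝔉.comap (𝔏.ψ v)) (D.Lv v) 2, p • z = 0 →
      smTopFam 𝔏 v (D.Lv v) 2 z = 0 → z = 0)
    (y : Hlc 𝔉 D.J 2) (hy : p • y = 0) (hl : D.lamH 2 y = 0) : y = 0 := by
  refine smTop_eq_zero_of_lam_eq_zero 𝔏 θ hfin hθ (p : ℤ) 2 (fun v z hz => h v z (by
    rw [← Nat.cast_smul_eq_nsmul ℤ]; exact hz)) y (by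
    rw [Nat.cast_smul_eq_nsmul ℤ]; exact hy) (fun v => ?_)
  rw [HlcMap_smTopLam_fam, ← D.lamH_eq_smTopFam θ hlam, hl]
  rfl

include hlam in
/-- **(A4)** every family of local `p`-torsion classes comes from a `p`-torsion class of
`Hlc²(J)`. -/
theorem hA4_of_coind
    (h : ∀ v, ∀ l : Hlc (𝔏.fam v) (D.Lv v) 2, p • l = 0 →
      ∃ z : Hlc (𝔉.comap (𝔏.ψ v)) (D.Lv v) 2, p • z = 0 ∧ smTopFam 𝔏 v (D.Lv v) 2 z = l)
    (l : ∀ v, Hlc (𝔏.fam v) (D.Lv v) 2) (hl : ∀ v, p • l v = 0) :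
    ∃ y : Hlc 𝔉 D.J 2, p • y = 0 ∧ D.lamH 2 y = l := by
  obtain ⟨y, hy, hyl⟩ := smTop_exists_lam_eq 𝔏 θ hfin hθ (p : ℤ) 2 (fun v l hl => by
    obtain ⟨z, hz, hzl⟩ := h v l (by rw [← Nat.cast_smul_eq_nsmul ℤ]; exact hl)
    exact ⟨z, by rw [Nat.cast_smul_eq_nsmul ℤ]; exact hz, hzl⟩) l (fun v => by
    rw [Nat.cast_smul_eq_nsmul ℤ]; exact hl v)
  refine ⟨y, by rw [← Nat.cast_smul_eq_nsmul ℤ]; exact hy, funext fun v => ?_⟩
  rw [D.lamH_eq_smTopFam θ hlam, ← HlcMap_smTopLam_fam]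
  exact hyl v

end TopDatum

/-! ### Change of family along an equality of families -/

section FamilyEq

universe u

variable {k H : Type u} [CommRing k] [Group H]

/-- a statement about the change-of-family map `Hlc F₁ A n → Hlc F₃ A n` can be transported along
an equality `F₁ = F₂`. -/
theorem smAsm_family_congr {F₁ F₂ F₃ : LevelFamily H} (h : F₁ = F₂)
    (c₁ : F₃.Compat (MonoidHom.id H) F₁) (c₂ : F₃.Compat (MonoidHom.id H) F₂)
    (A : Rep.{u} k H) (n : ℕ)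
    (P : ∀ F : LevelFamily H, (Hlc F A n →ₗ[k] Hlc F₃ A n) → Prop)
    (hP : P F₂ (HlcMap (A := A) (B := A) (MonoidHom.id H) (𝟙 A) c₂ n).hom) :
    P F₁ (HlcMap (A := A) (B := A) (MonoidHom.id H) (𝟙 A) c₁ n).hom := by
  subst h
  exact hP

end FamilyEq

/-! ### The restricted datum of a normal level -/

namespace TopDatum

variable {p : ℕ} {G : Type} [Group G] {𝔉 : LevelFamily G} {𝔏 : LocSystem 𝔉}
  {μ : Rep.{0} (ZMod p) G} (D : TopDatum p 𝔏 μ)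
  (θ : ∀ v, D.J ⟶ smCoind (𝔏.ψ v) 𝔉 (D.Lv v))
  (V : Subgroup G) [V.Normal]

/-- the Mackey component of `θ` at the place `x = (v, c)` of the restricted local system:
`a ↦ (w ↦ θ_v a (g_c⁻¹ w))`. -/
noncomputable def resθ (x : (𝔏.restrictNormal V).ι) :
    (D.restrictNormal V).J ⟶
      smCoind ((𝔏.restrictNormal V).ψ x) (𝔉.restrict V) ((D.restrictNormal V).Lv x) :=
  (resFunctor V.subtype).map (θ x.1) ≫
    smMackeyProj 𝔉 (D.Lv x.1) (SmMackeyDatum.ofNormal (𝔏.ψ x.1) V (Quotient.out x.2))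

theorem resθ_apply (x : (𝔏.restrictNormal V).ι) (a : D.J.V) (w : ↥V) :
    ((D.resθ θ V x).hom a : smCoindV ((𝔏.restrictNormal V).ψ x) (𝔉.restrict V)
      ((D.restrictNormal V).Lv x)).1 w =
      ((θ x.1).hom a : smCoindV (𝔏.ψ x.1) 𝔉 (D.Lv x.1)).1 ((Quotient.out x.2)⁻¹ * w.1) := rfl

/-- the restricted localisation maps are the evaluations at `1` of the `resθ`. -/
theorem resθ_lam
    (hlam : ∀ v (a : D.J.V),
      (D.lamv v).hom a = ((θ v).hom a : smCoindV (𝔏.ψ v) 𝔉 (D.Lv v)).1 1)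
    (x : (𝔏.restrictNormal V).ι) (a : (D.restrictNormal V).J.V) :
    ((D.restrictNormal V).lamv x).hom a =
      ((D.resθ θ V x).hom a : smCoindV ((𝔏.restrictNormal V).ψ x) (𝔉.restrict V)
        ((D.restrictNormal V).Lv x)).1 1 := by
  rw [resθ_apply]
  show (D.lamv x.1).hom (D.J.ρ (Quotient.out x.2)⁻¹ a) = _
  rw [hlam, Rep.hom_comm_apply (θ x.1), smCoind_ρ_apply, Subgroup.coe_one, one_mul, mul_one]

/-- joint bijectivity of the `resθ`. -/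
theorem resθ_bijective [∀ v, Finite (G ⧸ (V ⊔ (𝔏.ψ v).range))] (hV : ∃ U ∈ 𝔉.sets, U ≤ V)
    (hθ : Function.Bijective (fun (a : D.J.V) (v : 𝔏.ι) => (θ v).hom a)) :
    Function.Bijective (fun (a : (D.restrictNormal V).J.V) (x : (𝔏.restrictNormal V).ι) =>
      (D.resθ θ V x).hom a) := by
  have hM : ∀ v : 𝔏.ι, Function.Bijective
      (fun (f : smCoindV (𝔏.ψ v) 𝔉 (D.Lv v)) (c : G ⧸ (V ⊔ (𝔏.ψ v).range)) =>
        (smMackeyProj 𝔉 (D.Lv v) (SmMackeyDatum.ofNormal (𝔏.ψ v) V (Quotient.out c))).hom f) :=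
    fun v => smMackeyProj_bijective 𝔉 (D.Lv v) (isSmMackeyRep_ofNormal (𝔏.ψ v) V) hV
  constructor
  · intro a a' haa'
    apply hθ.1
    funext v
    apply (hM v).1
    funext c
    exact congrFun haa' ⟨v, c⟩
  · intro y
    choose f hf using fun v => (hM v).2 (fun c => y ⟨v, c⟩)
    obtain ⟨a, ha⟩ := hθ.2 f
    refine ⟨a, funext fun x => ?_⟩
    obtain ⟨v, c⟩ := x
    have h1 : (θ v).hom a = f v := congrFun ha v
    have h2 := congrFun (hf v) c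
    show (smMackeyProj 𝔉 (D.Lv v) (SmMackeyDatum.ofNormal (𝔏.ψ v) V (Quotient.out c))).hom
      ((θ v).hom a) = y ⟨v, c⟩
    rw [h1]
    exact h2

/-! ### The `J`-side inputs for the restricted datum -/

section Outputs

/-- the pulled-back family of the place `x = (v, c)` of the restricted system is the restriction
of the pulled-back family of `v` (it does not depend on `c`). -/
theorem _root_.Fermat.Agent.PT.LocSystem.restrictNormal_comap_eq (𝔏 : LocSystem 𝔉)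
    (V : Subgroup G) [V.Normal] (x : (𝔏.restrictNormal V).ι) :
    (𝔉.restrict V).comap ((𝔏.restrictNormal V).ψ x) =
      (𝔉.comap (𝔏.ψ x.1)).restrict (V.comap (𝔏.ψ x.1)) :=
  smMackeyN_family_eq (𝔏.ψ x.1) V 𝔉 (Quotient.out x.2)

/-- the restriction to `K` of the pulled-back family is coarser than the restriction to `K` of the
local family. -/
theorem _root_.Fermat.Agent.PT.LocSystem.compat_id_comap_restrict (𝔏 : LocSystem 𝔉) (v : 𝔏.ι)
    (K : Subgroup (𝔏.Gv v)) :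
    ((𝔏.fam v).restrict K).Compat (MonoidHom.id ↥K) ((𝔉.comap (𝔏.ψ v)).restrict K) := by
  rintro W ⟨W', ⟨U, hU, rfl⟩, rfl⟩
  obtain ⟨U', hU', hle⟩ := 𝔏.compat v U hU
  exact ⟨U'.subgroupOf K, ⟨U', hU', rfl⟩, fun u hu => hle hu⟩

/-- the local change of family at the place `v`, on the open subgroup `K` of the local group:
from the family pulled back from the global group to the full local family. -/
noncomputable def _root_.Fermat.Agent.PT.smAsmFam (𝔏 : LocSystem 𝔉) (v : 𝔏.ι)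
    (K : Subgroup (𝔏.Gv v)) (A : Rep.{0} ℤ ↥K) (n : ℕ) :
    Hlc ((𝔉.comap (𝔏.ψ v)).restrict K) A n →ₗ[ℤ] Hlc ((𝔏.fam v).restrict K) A n :=
  (HlcMap (A := A) (B := A) (MonoidHom.id ↥K) (𝟙 A) (𝔏.compat_id_comap_restrict v K) n).hom

variable [Finite 𝔏.ι] (hfin : 𝔉.FiniteIndex) (hV : V ∈ 𝔉.sets)
  (hθ : Function.Bijective (fun (a : D.J.V) (v : 𝔏.ι) => (θ v).hom a))
  (hlam : ∀ v (a : D.J.V),
    (D.lamv v).hom a = ((θ v).hom a : smCoindV (𝔏.ψ v) 𝔉 (D.Lv v)).1 1)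

include hfin hV in
theorem smAsm_finite_ι : Finite (𝔏.restrictNormal V).ι := by
  have := hfin V hV
  have : ∀ v : 𝔏.ι, Finite (G ⧸ (V ⊔ (𝔏.ψ v).range)) := fun v =>
    finite_quotient_sup_range' (𝔏.ψ v) V
  exact inferInstanceAs (Finite (Σ v : 𝔏.ι, G ⧸ (V ⊔ (𝔏.ψ v).range)))

omit [Finite 𝔏.ι] in
include hfin hV hθ in
/-- joint bijectivity of the `resθ` at a level `V` of the family. -/
theorem resθ_bijective_of_mem :
    Function.Bijective (fun (a : (D.restrictNormal V).J.V) (x : (𝔏.restrictNormal V).ι) =>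
      (D.resθ θ V x).hom a) := by
  have := hfin V hV
  have : ∀ v : 𝔏.ι, Finite (G ⧸ (V ⊔ (𝔏.ψ v).range)) := fun v =>
    finite_quotient_sup_range' (𝔏.ψ v) V
  exact D.resθ_bijective θ V ⟨V, hV, le_rfl⟩ hθ

include hfin hV hθ

/-- **(J1)** for the restricted datum. -/
theorem restrictNormal_hJ1
    (h : ∀ v, Subsingleton (Hlc ((𝔉.comap (𝔏.ψ v)).restrict (V.comap (𝔏.ψ v)))
      (res (V.comap (𝔏.ψ v)).subtype (D.Lv v)) 1))
    (y : Hlc (𝔉.restrict V) (D.restrictNormal V).J 1) : ∃ y', p • y' = y := by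
  have := smAsm_finite_ι (𝔏 := 𝔏) V hfin hV
  refine (D.restrictNormal V).hJ1_of_coind (D.resθ θ V) (hfin.restrict V)
    (D.resθ_bijective_of_mem θ V hfin hV hθ) (fun x => ?_) y
  rw [𝔏.restrictNormal_comap_eq V x]
  exact h x.1

/-- **(A2)** for the restricted datum. -/
theorem restrictNormal_hA2
    (h : ∀ v, ∀ z : Hlc ((𝔉.comap (𝔏.ψ v)).restrict (V.comap (𝔏.ψ v)))
      (res (V.comap (𝔏.ψ v)).subtype (D.Lv v)) 2, ∃ z', p • z' = z)
    (y : Hlc (𝔉.restrict V) (D.restrictNormal V).J 2) : ∃ y', p • y' = y := by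
  have := smAsm_finite_ι (𝔏 := 𝔏) V hfin hV
  refine (D.restrictNormal V).hA2_of_coind (D.resθ θ V) (hfin.restrict V)
    (D.resθ_bijective_of_mem θ V hfin hV hθ) (fun x => ?_) y
  rw [𝔏.restrictNormal_comap_eq V x]
  exact h x.1

/-- **(A3)** for the restricted datum. -/
theorem restrictNormal_hA3
    (h : ∀ v, ∀ z : Hlc ((𝔉.comap (𝔏.ψ v)).restrict (V.comap (𝔏.ψ v)))
      (res (V.comap (𝔏.ψ v)).subtype (D.Lv v)) 3, p • z = 0 → z = 0)
    (y : Hlc (𝔉.restrict V) (D.restrictNormal V).J 3) (hy : p • y = 0) : y = 0 := by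
  have := smAsm_finite_ι (𝔏 := 𝔏) V hfin hV
  refine (D.restrictNormal V).hA3_of_coind (D.resθ θ V) (hfin.restrict V)
    (D.resθ_bijective_of_mem θ V hfin hV hθ) (fun x => ?_) y hy
  rw [𝔏.restrictNormal_comap_eq V x]
  exact h x.1

include hlam

/-- **(A4inj)** for the restricted datum. -/
theorem restrictNormal_hA4inj
    (h : ∀ v, ∀ z : Hlc ((𝔉.comap (𝔏.ψ v)).restrict (V.comap (𝔏.ψ v)))
      (res (V.comap (𝔏.ψ v)).subtype (D.Lv v)) 2, p • z = 0 →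
      smAsmFam 𝔏 v (V.comap (𝔏.ψ v)) (res (V.comap (𝔏.ψ v)).subtype (D.Lv v)) 2 z = 0 → z = 0)
    (y : Hlc (𝔉.restrict V) (D.restrictNormal V).J 2) (hy : p • y = 0)
    (hl : (D.restrictNormal V).lamH 2 y = 0) : y = 0 := by
  have := smAsm_finite_ι (𝔏 := 𝔏) V hfin hV
  refine (D.restrictNormal V).hA4inj_of_coind (D.resθ θ V) (D.resθ_lam θ V hlam)
    (hfin.restrict V) (D.resθ_bijective_of_mem θ V hfin hV hθ) (fun x => ?_) y hy hl
  exact smAsm_family_congr (𝔏.restrictNormal_comap_eq V x)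
    ((𝔏.restrictNormal V).compat_id_comap x)
    (𝔏.compat_id_comap_restrict x.1 (V.comap (𝔏.ψ x.1)))
    (res (V.comap (𝔏.ψ x.1)).subtype (D.Lv x.1)) 2
    (fun F φ => ∀ z : Hlc F (res (V.comap (𝔏.ψ x.1)).subtype (D.Lv x.1)) 2,
      p • z = 0 → φ z = 0 → z = 0) (h x.1)

/-- **(A4)** for the restricted datum. -/
theorem restrictNormal_hA4
    (h : ∀ v, ∀ l : Hlc ((𝔏.fam v).restrict (V.comap (𝔏.ψ v)))
      (res (V.comap (𝔏.ψ v)).subtype (D.Lv v)) 2, p • l = 0 →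
      ∃ z : Hlc ((𝔉.comap (𝔏.ψ v)).restrict (V.comap (𝔏.ψ v)))
        (res (V.comap (𝔏.ψ v)).subtype (D.Lv v)) 2, p • z = 0 ∧
        smAsmFam 𝔏 v (V.comap (𝔏.ψ v)) (res (V.comap (𝔏.ψ v)).subtype (D.Lv v)) 2 z = l)
    (l : ∀ x, Hlc ((𝔏.restrictNormal V).fam x) ((D.restrictNormal V).Lv x) 2)
    (hl : ∀ x, p • l x = 0) :
    ∃ y : Hlc (𝔉.restrict V) (D.restrictNormal V).J 2,
      p • y = 0 ∧ (D.restrictNormal V).lamH 2 y = l := by
  have := smAsm_finite_ι (𝔏 := 𝔏) V hfin hV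
  refine (D.restrictNormal V).hA4_of_coind (D.resθ θ V) (D.resθ_lam θ V hlam)
    (hfin.restrict V) (D.resθ_bijective_of_mem θ V hfin hV hθ) (fun x => ?_) l hl
  exact smAsm_family_congr (𝔏.restrictNormal_comap_eq V x)
    ((𝔏.restrictNormal V).compat_id_comap x)
    (𝔏.compat_id_comap_restrict x.1 (V.comap (𝔏.ψ x.1)))
    (res (V.comap (𝔏.ψ x.1)).subtype (D.Lv x.1)) 2
    (fun F φ => ∀ l : Hlc ((𝔏.fam x.1).restrict (V.comap (𝔏.ψ x.1)))
        (res (V.comap (𝔏.ψ x.1)).subtype (D.Lv x.1)) 2, p • l = 0 →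
      ∃ z : Hlc F (res (V.comap (𝔏.ψ x.1)).subtype (D.Lv x.1)) 2, p • z = 0 ∧ φ z = l)
    (h x.1)

end Outputs

end TopDatum

/-! ### Arbitrary open subgroups: divisibility and torsion-freeness of `Hlcⁿ(V', J)` -/

section Open

universe u

variable {k G : Type u} [CommRing k] [Group G] {𝔉 : LevelFamily G} (𝔏 : LocSystem 𝔉)
  {J : Rep.{u} k G} {B : ∀ v : 𝔏.ι, Rep.{u} k (𝔏.Gv v)}
  (θ : ∀ v, J ⟶ smCoind (𝔏.ψ v) 𝔉 (B v)) (V : Subgroup G)

/-- the stabiliser `ψ⁻¹(t V t⁻¹)` is open for the pulled-back family. -/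
theorem isOpenFor_smMackeyStab {H : Type u} [Group H] (ψ : H →* G) (hV : ∃ U ∈ 𝔉.sets, U ≤ V)
    (t : G) : IsOpenFor (𝔉.comap ψ) (smMackeyStab ψ V t) := by
  obtain ⟨U, hU, hUV⟩ := hV
  refine ⟨U.comap ψ, ⟨U, hU, rfl⟩, fun h hh => ?_⟩
  have hn := 𝔉.normal U hU
  have h1 : t⁻¹ * ψ h * t⁻¹⁻¹ ∈ U := hn.conj_mem _ hh t⁻¹
  rw [inv_inv] at h1
  exact hUV h1

/-- the total Mackey–Shapiro map of `res V J`: components at `(v, c)`, `c` a double coset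
`ψ_v(G_v) \ G / V`. -/
noncomputable def smTopResMap (n : ℕ) :
    Hlc (𝔉.restrict V) (res V.subtype J) n →ₗ[k]
      ∀ v : 𝔏.ι, ∀ c : smMackeyIdx (𝔏.ψ v) V,
        Hlc ((𝔉.restrict V).comap (smMackeyConj (𝔏.ψ v) V c.out))
          (res (smMackeyStab (𝔏.ψ v) V c.out).subtype (B v)) n :=
  LinearMap.pi fun v => LinearMap.pi fun c =>
    (smMackeyLoc 𝔉 (B v) (SmMackeyDatum.std (𝔏.ψ v) V c.out) n).comp
      (HlcMap (MonoidHom.id ↥V) ((resFunctor V.subtype).map (θ v)) (𝔉.restrict V).compat_id n).hom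

variable [Finite 𝔏.ι] (hfin : 𝔉.FiniteIndex) (hV : ∃ U ∈ 𝔉.sets, U ≤ V)
  (hθ : Function.Bijective (fun (a : J.V) (v : 𝔏.ι) => (θ v).hom a))

include hfin hV hθ

theorem smTopResMap_bijective (n : ℕ) : Function.Bijective (smTopResMap 𝔏 θ V n) := by
  have hVfin : V.FiniteIndex := by
    obtain ⟨U, hU, hUV⟩ := hV
    have := hfin U hU
    exact Subgroup.finiteIndex_of_le hUV
  have hidx : ∀ v : 𝔏.ι, Finite (smMackeyIdx (𝔏.ψ v) V) := fun v => smMackeyIdx_finite (𝔏.ψ v) V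
  have h1 := HlcPiMap_bijective (𝔉.restrict V)
    (p := fun v : 𝔏.ι => (resFunctor V.subtype).map (θ v)) hθ n
  have h2 : ∀ v : 𝔏.ι, Function.Bijective
      (fun (x : Hlc (𝔉.restrict V) (res V.subtype (smCoind (𝔏.ψ v) 𝔉 (B v))) n)
        (c : smMackeyIdx (𝔏.ψ v) V) =>
        smMackeyLoc 𝔉 (B v) (SmMackeyDatum.std (𝔏.ψ v) V c.out) n x) := fun v =>
    smMackeyLoc_bijective (B v) (isSmMackeyRep_std (𝔏.ψ v) V) hfin hV n
  constructor
  · intro y y' hyy'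
    apply h1.1
    funext v
    apply (h2 v).1
    funext c
    exact congrFun (congrFun hyy' v) c
  · intro z
    choose w hw using fun v => (h2 v).2 (z v)
    obtain ⟨y, hy⟩ := h1.2 w
    refine ⟨y, funext fun v => funext fun c => ?_⟩
    have h3 := congrFun hy v
    have h4 := congrFun (hw v) c
    show smMackeyLoc 𝔉 (B v) (SmMackeyDatum.std (𝔏.ψ v) V c.out) n
      ((HlcMap (MonoidHom.id ↥V) ((resFunctor V.subtype).map (θ v))
        (𝔉.restrict V).compat_id n).hom y) = z v c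
    rw [← h4, ← h3]
    rfl

/-- divisibility of `Hlcⁿ(V, J)` from the local statements on all open subgroups. -/
theorem smTopRes_exists_smul_eq (r : k) (n : ℕ)
    (h : ∀ v (K : Subgroup (𝔏.Gv v)), IsOpenFor (𝔉.comap (𝔏.ψ v)) K →
      ∀ z : Hlc ((𝔉.comap (𝔏.ψ v)).restrict K) (res K.subtype (B v)) n, ∃ z', r • z' = z)
    (y : Hlc (𝔉.restrict V) (res V.subtype J) n) : ∃ y', r • y' = y := by
  have hb := smTopResMap_bijective 𝔏 θ V hfin hV hθ n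
  have hloc : ∀ v (c : smMackeyIdx (𝔏.ψ v) V),
      ∀ z : Hlc ((𝔉.restrict V).comap (smMackeyConj (𝔏.ψ v) V c.out))
        (res (smMackeyStab (𝔏.ψ v) V c.out).subtype (B v)) n, ∃ z', r • z' = z := by
    intro v c
    have e := smMackey_family_eq 𝔉 (SmMackeyDatum.std (𝔏.ψ v) V c.out)
    change (𝔉.restrict V).comap (smMackeyConj (𝔏.ψ v) V c.out) =
      (𝔉.comap (𝔏.ψ v)).restrict (smMackeyStab (𝔏.ψ v) V c.out) at e
    rw [e]
    exact h v _ (isOpenFor_smMackeyStab V (𝔏.ψ v) hV c.out)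
  choose w hw using fun v c => hloc v c (smTopResMap 𝔏 θ V n y v c)
  obtain ⟨y', hy'⟩ := hb.2 w
  refine ⟨y', hb.1 ?_⟩
  rw [map_smul, hy']
  funext v c
  exact hw v c

/-- torsion-freeness of `Hlcⁿ(V, J)` from the local statements on all open subgroups. -/
theorem smTopRes_eq_zero_of_smul_eq_zero (r : k) (n : ℕ)
    (h : ∀ v (K : Subgroup (𝔏.Gv v)), IsOpenFor (𝔉.comap (𝔏.ψ v)) K →
      ∀ z : Hlc ((𝔉.comap (𝔏.ψ v)).restrict K) (res K.subtype (B v)) n, r • z = 0 → z = 0)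
    (y : Hlc (𝔉.restrict V) (res V.subtype J) n) (hy : r • y = 0) : y = 0 := by
  have hb := smTopResMap_bijective 𝔏 θ V hfin hV hθ n
  have hloc : ∀ v (c : smMackeyIdx (𝔏.ψ v) V),
      ∀ z : Hlc ((𝔉.restrict V).comap (smMackeyConj (𝔏.ψ v) V c.out))
        (res (smMackeyStab (𝔏.ψ v) V c.out).subtype (B v)) n, r • z = 0 → z = 0 := by
    intro v c
    have e := smMackey_family_eq 𝔉 (SmMackeyDatum.std (𝔏.ψ v) V c.out)
    change (𝔉.restrict V).comap (smMackeyConj (𝔏.ψ v) V c.out) =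
      (𝔉.comap (𝔏.ψ v)).restrict (smMackeyStab (𝔏.ψ v) V c.out) at e
    rw [e]
    exact h v _ (isOpenFor_smMackeyStab V (𝔏.ψ v) hV c.out)
  apply hb.1
  rw [map_zero]
  funext v c
  apply hloc v c
  have h1 : smTopResMap 𝔏 θ V n (r • y) v c = r • smTopResMap 𝔏 θ V n y v c := by
    rw [map_smul]
    rfl
  rw [← h1, hy, map_zero]
  rfl

end Open

namespace TopDatum

variable {p : ℕ} {G : Type} [Group G] {𝔉 : LevelFamily G} {𝔏 : LocSystem 𝔉} [Finite 𝔏.ι]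
  {μ : Rep.{0} (ZMod p) G} (D : TopDatum p 𝔏 μ)
  (θ : ∀ v, D.J ⟶ smCoind (𝔏.ψ v) 𝔉 (D.Lv v)) (V : Subgroup G)
  (hfin : 𝔉.FiniteIndex) (hV : IsOpenFor 𝔉 V)
  (hθ : Function.Bijective (fun (a : D.J.V) (v : 𝔏.ι) => (θ v).hom a))

include hfin hV hθ

/-- **(A2)** at an arbitrary open subgroup `V` (not necessarily normal): `Hlc²(V, J)` is
`p`-divisible. -/
theorem res_hA2_of_coind
    (h : ∀ v (K : Subgroup (𝔏.Gv v)), IsOpenFor (𝔉.comap (𝔏.ψ v)) K →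
      ∀ z : Hlc ((𝔉.comap (𝔏.ψ v)).restrict K) (res K.subtype (D.Lv v)) 2, ∃ z', p • z' = z)
    (y : Hlc (𝔉.restrict V) (res V.subtype D.J) 2) : ∃ y', p • y' = y := by
  obtain ⟨y', hy'⟩ := smTopRes_exists_smul_eq 𝔏 θ V hfin hV hθ (p : ℤ) 2 (fun v K hK z => by
    obtain ⟨z', hz'⟩ := h v K hK z
    exact ⟨z', by rw [Nat.cast_smul_eq_nsmul ℤ]; exact hz'⟩) y
  exact ⟨y', by rw [← Nat.cast_smul_eq_nsmul ℤ]; exact hy'⟩

/-- **(A3)** at an arbitrary open subgroup `V`: `Hlc³(V, J)[p] = 0`. -/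
theorem res_hA3_of_coind
    (h : ∀ v (K : Subgroup (𝔏.Gv v)), IsOpenFor (𝔉.comap (𝔏.ψ v)) K →
      ∀ z : Hlc ((𝔉.comap (𝔏.ψ v)).restrict K) (res K.subtype (D.Lv v)) 3, p • z = 0 → z = 0)
    (y : Hlc (𝔉.restrict V) (res V.subtype D.J) 3) (hy : p • y = 0) : y = 0 :=
  smTopRes_eq_zero_of_smul_eq_zero 𝔏 θ V hfin hV hθ (p : ℤ) 3 (fun v K hK z hz => h v K hK z (by
    rw [← Nat.cast_smul_eq_nsmul ℤ]; exact hz)) y (by
    rw [Nat.cast_smul_eq_nsmul ℤ]; exact hy)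

/-- **(J1)** at an arbitrary open subgroup `V`: `Hlc¹(V, J)` is `p`-divisible if the local `Hlc¹`
vanish. -/
theorem res_hJ1_of_coind
    (h : ∀ v (K : Subgroup (𝔏.Gv v)), IsOpenFor (𝔉.comap (𝔏.ψ v)) K →
      Subsingleton (Hlc ((𝔉.comap (𝔏.ψ v)).restrict K) (res K.subtype (D.Lv v)) 1))
    (y : Hlc (𝔉.restrict V) (res V.subtype D.J) 1) : ∃ y', p • y' = y := by
  obtain ⟨y', hy'⟩ := smTopRes_exists_smul_eq 𝔏 θ V hfin hV hθ (p : ℤ) 1 (fun v K hK z => by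
    have := h v K hK
    exact ⟨0, Subsingleton.elim _ _⟩) y
  exact ⟨y', by rw [← Nat.cast_smul_eq_nsmul ℤ]; exact hy'⟩

end TopDatum

end Fermat.Agent.PT
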