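/-
S55 bridge (GB4-J)(J4'): discharge of the LOCAL hypotheses of `PT/SmoothCoindAssembly.lean` for the
local system `locS S` and the local modules `smLoc_units q = (PadicAlgCl q)ˣ`.

For `p` prime with `pPrime p ∈ S`, `v : (locS S).ι` and `K` an open subgroup of the local Galois
group at `v` for the family pulled back from `famS S`, the statements below are VERBATIM the
hypotheses `h` of `TopDatum.res_hJ1_of_coind`, `res_hA2_of_coind`, `res_hA3_of_coind` (arbitrary
open `K`) and of `TopDatum.restrictNormal_hJ1`, `restrictNormal_hA2`, `restrictNormal_hA3`,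
`restrictNormal_hA4inj`, `restrictNormal_hA4` (`K = V.comap ψ_v`) with `D.Lv v := smLoc_units v.1`.
-/
import Fermat.Agent.CFT.PT.SmoothCoindLocal
import Fermat.Agent.CFT.PT.SmoothCoindAssembly
import Fermat.Agent.CFT.Bridge.CycloLocalDegreeFam

set_option autoImplicit false
set_option linter.unusedSectionVars false

namespace Fermat.Agent.PT

open CategoryTheory groupCohomology Rep Fermat.Agent.CFT ExtCitation

local notation "Γℚ" => (AlgebraicClosure ℚ ≃ₐ[ℚ] AlgebraicClosure ℚ)

variable (p : ℕ) [Fact p.Prime] (S : Finset Nat.Primes)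

instance smLocI_finite_ι : Finite (locS S).ι := inferInstanceAs (Finite ↥S)

/-- the preimage of an open subgroup of `Γℚ` is open for the pulled-back family. -/
theorem smLocI_isOpenFor_comap {V : Subgroup Γℚ} (hV : IsOpenFor (famS S) V)
    (v : (locS S).ι) : IsOpenFor ((famS S).comap ((locS S).ψ v)) (V.comap ((locS S).ψ v)) := by
  obtain ⟨U, hU, hUV⟩ := hV
  exact ⟨U.comap ((locS S).ψ v), ⟨U, hU, rfl⟩, Subgroup.comap_mono hUV⟩

/-! ### arbitrary open subgroups `K` of the local groups -/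

section OpenK

variable (v : (locS S).ι) (K : Subgroup ((locS S).Gv v))
  (hK : IsOpenFor ((famS S).comap ((locS S).ψ v)) K)
include hK

/-- local input of `res_hJ1_of_coind`: Hilbert 90. -/
theorem smLocI_hJ1 :
    Subsingleton (Hlc (((famS S).comap ((locS S).ψ v)).restrict K)
      (res K.subtype (smLoc_units v.1)) 1) :=
  smLoc_X0 (S := S) (q := v.1) hK

/-- local input of `res_hA2_of_coind`: `p`-divisibility of the local Brauer groups. -/
theorem smLocI_hA2 (hpS : pPrime p ∈ S)
    (z : Hlc (((famS S).comap ((locS S).ψ v)).restrict K) (res K.subtype (smLoc_units v.1)) 2) :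
    ∃ z', p • z' = z :=
  smLoc_X2 (S := S) (q := v.1) hK p (Fact.out) (cycLD_relIndex p S hpS v.1 K hK) z

/-- local input of `res_hA3_of_coind`: the local `Hlc³` vanish. -/
theorem smLocI_hA3
    (z : Hlc (((famS S).comap ((locS S).ψ v)).restrict K) (res K.subtype (smLoc_units v.1)) 3)
    (_hz : p • z = 0) : z = 0 := by
  have : Subsingleton (Hlc (((famS S).comap ((locS S).ψ v)).restrict K)
      (res K.subtype (smLoc_units v.1)) 3) := smLoc_X4 (S := S) (q := v.1) hK
  exact Subsingleton.elim _ _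

/-- local input of `restrictNormal_hA4inj`, for an arbitrary open `K`: the change of family is
injective on the local Brauer groups. -/
theorem smLocI_hA4inj
    (z : Hlc (((famS S).comap ((locS S).ψ v)).restrict K) (res K.subtype (smLoc_units v.1)) 2)
    (_hz : p • z = 0)
    (h0 : smAsmFam (locS S) v K (res K.subtype (smLoc_units v.1)) 2 z = 0) : z = 0 :=
  smLoc_X1 (S := S) (q := v.1) hK (smLoc_famLoc_refines_restrict S v.1 K)
    (h0.trans (map_zero _).symm)

/-- local input of `restrictNormal_hA4`, for an arbitrary open `K`: every `p`-torsion class of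
the local Brauer group for the full local family comes from a `p`-torsion class for the family
pulled back from `famS S`. -/
theorem smLocI_hA4 (hpS : pPrime p ∈ S)
    (l : Hlc (((locS S).fam v).restrict K) (res K.subtype (smLoc_units v.1)) 2)
    (hl : p • l = 0) :
    ∃ z : Hlc (((famS S).comap ((locS S).ψ v)).restrict K) (res K.subtype (smLoc_units v.1)) 2,
      p • z = 0 ∧ smAsmFam (locS S) v K (res K.subtype (smLoc_units v.1)) 2 z = l :=
  smLoc_X5 (S := S) (q := v.1) hK (smLoc_famLoc_refines_restrict S v.1 K) p (Fact.out)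
    (cycLD_relIndex p S hpS v.1 K hK) l hl

end OpenK

/-! ### the levels `V ∈ famS S` (the shape of `restrictNormal_*`) -/

section Level

variable {V : Subgroup Γℚ} (hV : IsOpenFor (famS S) V)
include hV

theorem smLocI_level_hJ1 (v : (locS S).ι) :
    Subsingleton (Hlc (((famS S).comap ((locS S).ψ v)).restrict (V.comap ((locS S).ψ v)))
      (res (V.comap ((locS S).ψ v)).subtype (smLoc_units v.1)) 1) :=
  smLocI_hJ1 S v _ (smLocI_isOpenFor_comap S hV v)

theorem smLocI_level_hA2 (hpS : pPrime p ∈ S) (v : (locS S).ι)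
    (z : Hlc (((famS S).comap ((locS S).ψ v)).restrict (V.comap ((locS S).ψ v)))
      (res (V.comap ((locS S).ψ v)).subtype (smLoc_units v.1)) 2) : ∃ z', p • z' = z :=
  smLocI_hA2 p S v _ (smLocI_isOpenFor_comap S hV v) hpS z

theorem smLocI_level_hA3 (v : (locS S).ι)
    (z : Hlc (((famS S).comap ((locS S).ψ v)).restrict (V.comap ((locS S).ψ v)))
      (res (V.comap ((locS S).ψ v)).subtype (smLoc_units v.1)) 3) (hz : p • z = 0) : z = 0 :=
  smLocI_hA3 p S v _ (smLocI_isOpenFor_comap S hV v) z hz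

theorem smLocI_level_hA4inj (v : (locS S).ι)
    (z : Hlc (((famS S).comap ((locS S).ψ v)).restrict (V.comap ((locS S).ψ v)))
      (res (V.comap ((locS S).ψ v)).subtype (smLoc_units v.1)) 2) (hz : p • z = 0)
    (h0 : smAsmFam (locS S) v (V.comap ((locS S).ψ v))
      (res (V.comap ((locS S).ψ v)).subtype (smLoc_units v.1)) 2 z = 0) : z = 0 :=
  smLocI_hA4inj p S v _ (smLocI_isOpenFor_comap S hV v) z hz h0

theorem smLocI_level_hA4 (hpS : pPrime p ∈ S) (v : (locS S).ι)
    (l : Hlc (((locS S).fam v).restrict (V.comap ((locS S).ψ v)))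
      (res (V.comap ((locS S).ψ v)).subtype (smLoc_units v.1)) 2) (hl : p • l = 0) :
    ∃ z : Hlc (((famS S).comap ((locS S).ψ v)).restrict (V.comap ((locS S).ψ v)))
      (res (V.comap ((locS S).ψ v)).subtype (smLoc_units v.1)) 2,
      p • z = 0 ∧ smAsmFam (locS S) v (V.comap ((locS S).ψ v))
        (res (V.comap ((locS S).ψ v)).subtype (smLoc_units v.1)) 2 z = l :=
  smLocI_hA4 p S v _ (smLocI_isOpenFor_comap S hV v) hpS l hl

end Level

/-! ### the whole local groups (the shape of `hJ1_of_coind`, ..., `hA4_of_coind`) -/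

section Top

/-- `p^∞` divides the indices of the levels of the family pulled back from `famS S`. -/
theorem smLocI_top_hdeg (hpS : pPrime p ∈ S) (q : Nat.Primes) (j : ℕ) :
    ∃ U ∈ (smLoc_fam S q).sets, p ^ j ∣ U.index := by
  have hopen : IsOpenFor ((famS S).comap (primeLocalToGlobal q))
      (⊤ : Subgroup (primeLocalGaloisGroup q)) := by
    obtain ⟨U, hU⟩ := ((famS S).comap (primeLocalToGlobal q)).nonempty
    exact ⟨U, hU, le_top⟩
  obtain ⟨U, hU, -, hdvd⟩ := cycLD_relIndex p S hpS q ⊤ hopen j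
  rw [Subgroup.relIndex_top_right] at hdvd
  exact ⟨U, hU, hdvd⟩

variable (v : (locS S).ι)

theorem smLocI_top_hJ1 :
    Subsingleton (Hlc ((famS S).comap ((locS S).ψ v)) (smLoc_units v.1) 1) :=
  smLoc_top_X0 S v.1

theorem smLocI_top_hA2 (hpS : pPrime p ∈ S)
    (z : Hlc ((famS S).comap ((locS S).ψ v)) (smLoc_units v.1) 2) : ∃ z', p • z' = z :=
  smLoc_top_X2 S v.1 p (Fact.out) (smLocI_top_hdeg p S hpS v.1) z

theorem smLocI_top_hA3 (z : Hlc ((famS S).comap ((locS S).ψ v)) (smLoc_units v.1) 3)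
    (_hz : p • z = 0) : z = 0 := by
  have : Subsingleton (Hlc ((famS S).comap ((locS S).ψ v)) (smLoc_units v.1) 3) :=
    smLoc_top_X4 S v.1
  exact Subsingleton.elim _ _

theorem smLocI_top_hA4inj (z : Hlc ((famS S).comap ((locS S).ψ v)) (smLoc_units v.1) 2)
    (_hz : p • z = 0) (h0 : smTopFam (locS S) v (smLoc_units v.1) 2 z = 0) : z = 0 :=
  smLoc_top_X1 S v.1 (smLoc_famLoc_refines S v.1) (h0.trans (map_zero _).symm)

theorem smLocI_top_hA4 (hpS : pPrime p ∈ S)
    (l : Hlc ((locS S).fam v) (smLoc_units v.1) 2) (hl : p • l = 0) :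
    ∃ z : Hlc ((famS S).comap ((locS S).ψ v)) (smLoc_units v.1) 2,
      p • z = 0 ∧ smTopFam (locS S) v (smLoc_units v.1) 2 z = l := by
  obtain ⟨U, hU, hdvd⟩ := smLocI_top_hdeg p S hpS v.1 1
  rw [pow_one] at hdvd
  exact smLoc_top_X5 S v.1 (smLoc_famLoc_refines S v.1) p (Fact.out : p.Prime).pos
    ⟨U, hU, hdvd⟩ l hl

end Top

/-! ### packaged: the `J`-side inputs of a `TopDatum` over `locS S` with `Lv v = smLoc_units v.1` -/

section Packaged

variable {p S} {μ : Rep.{0} (ZMod p) Γℚ} (D : TopDatum p (locS S) μ)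
  (hLv : ∀ v, D.Lv v = smLoc_units v.1)
  (θ : ∀ v, D.J ⟶ smCoind ((locS S).ψ v) (famS S) (D.Lv v))
  (hθ : Function.Bijective (fun (a : D.J.V) (v : (locS S).ι) => (θ v).hom a))

theorem smLocI_famS_finiteIndex : (famS S).FiniteIndex := by
  rintro U ⟨L, hL, -, rfl⟩
  have := hL.1
  refine ⟨?_⟩
  rw [← IntermediateField.finrank_eq_fixingSubgroup_index]
  exact Module.finrank_pos.ne'

section Whole

include hLv hθ

/-- **(J1)** for `D`. -/
theorem smLocI_datum_hJ1 (y : Hlc (famS S) D.J 1) : ∃ y', p • y' = y := by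
  refine D.hJ1_of_coind θ smLocI_famS_finiteIndex hθ (fun v => ?_) y
  rw [hLv v]
  exact smLocI_top_hJ1 S v

/-- **(A2)** for `D`. -/
theorem smLocI_datum_hA2 (hpS : pPrime p ∈ S) (y : Hlc (famS S) D.J 2) : ∃ y', p • y' = y := by
  refine D.hA2_of_coind θ smLocI_famS_finiteIndex hθ (fun v => ?_) y
  rw [hLv v]
  exact fun z => smLocI_top_hA2 p S v hpS z

/-- **(A3)** for `D`. -/
theorem smLocI_datum_hA3 (y : Hlc (famS S) D.J 3) (hy : p • y = 0) : y = 0 := by
  refine D.hA3_of_coind θ smLocI_famS_finiteIndex hθ (fun v => ?_) y hy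
  rw [hLv v]
  exact fun z hz => smLocI_top_hA3 p S v z hz

variable (hlam : ∀ v (a : D.J.V),
    (D.lamv v).hom a = ((θ v).hom a : smCoindV ((locS S).ψ v) (famS S) (D.Lv v)).1 1)
include hlam

/-- **(A4inj)** for `D`. -/
theorem smLocI_datum_hA4inj (y : Hlc (famS S) D.J 2) (hy : p • y = 0)
    (hl : D.lamH 2 y = 0) : y = 0 := by
  refine D.hA4inj_of_coind θ hlam smLocI_famS_finiteIndex hθ (fun v => ?_) y hy hl
  rw [hLv v]
  exact fun z hz h0 => smLocI_top_hA4inj p S v z hz h0

/-- **(A4)** for `D`. -/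
theorem smLocI_datum_hA4 (hpS : pPrime p ∈ S) (l : ∀ v, Hlc ((locS S).fam v) (D.Lv v) 2)
    (hl : ∀ v, p • l v = 0) : ∃ y : Hlc (famS S) D.J 2, p • y = 0 ∧ D.lamH 2 y = l := by
  refine D.hA4_of_coind θ hlam smLocI_famS_finiteIndex hθ (fun v => ?_) l hl
  rw [hLv v]
  exact fun l hl => smLocI_top_hA4 p S v hpS l hl

end Whole

section Normal

variable (V : Subgroup Γℚ) [V.Normal] (hV : V ∈ (famS S).sets)
include hLv hθ hV

/-- **(J1)** for `D.restrictNormal V`. -/
theorem smLocI_restrictNormal_hJ1 (y : Hlc ((famS S).restrict V) (D.restrictNormal V).J 1) :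
    ∃ y', p • y' = y := by
  refine D.restrictNormal_hJ1 θ V smLocI_famS_finiteIndex hV hθ (fun v => ?_) y
  rw [hLv v]
  exact smLocI_level_hJ1 S ⟨V, hV, le_rfl⟩ v

/-- **(A2)** for `D.restrictNormal V`. -/
theorem smLocI_restrictNormal_hA2 (hpS : pPrime p ∈ S)
    (y : Hlc ((famS S).restrict V) (D.restrictNormal V).J 2) : ∃ y', p • y' = y := by
  refine D.restrictNormal_hA2 θ V smLocI_famS_finiteIndex hV hθ (fun v => ?_) y
  rw [hLv v]
  exact fun z => smLocI_level_hA2 p S ⟨V, hV, le_rfl⟩ hpS v z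

/-- **(A3)** for `D.restrictNormal V`. -/
theorem smLocI_restrictNormal_hA3 (y : Hlc ((famS S).restrict V) (D.restrictNormal V).J 3)
    (hy : p • y = 0) : y = 0 := by
  refine D.restrictNormal_hA3 θ V smLocI_famS_finiteIndex hV hθ (fun v => ?_) y hy
  rw [hLv v]
  exact fun z hz => smLocI_level_hA3 p S ⟨V, hV, le_rfl⟩ v z hz

variable (hlam : ∀ v (a : D.J.V),
    (D.lamv v).hom a = ((θ v).hom a : smCoindV ((locS S).ψ v) (famS S) (D.Lv v)).1 1)
include hlam

/-- **(A4inj)** for `D.restrictNormal V`. -/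
theorem smLocI_restrictNormal_hA4inj (y : Hlc ((famS S).restrict V) (D.restrictNormal V).J 2)
    (hy : p • y = 0) (hl : (D.restrictNormal V).lamH 2 y = 0) : y = 0 := by
  refine D.restrictNormal_hA4inj θ V smLocI_famS_finiteIndex hV hθ hlam (fun v => ?_) y hy hl
  rw [hLv v]
  exact fun z hz h0 => smLocI_level_hA4inj p S ⟨V, hV, le_rfl⟩ v z hz h0

/-- **(A4)** for `D.restrictNormal V`. -/
theorem smLocI_restrictNormal_hA4 (hpS : pPrime p ∈ S)
    (l : ∀ x, Hlc (((locS S).restrictNormal V).fam x) ((D.restrictNormal V).Lv x) 2)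
    (hl : ∀ x, p • l x = 0) :
    ∃ y : Hlc ((famS S).restrict V) (D.restrictNormal V).J 2,
      p • y = 0 ∧ (D.restrictNormal V).lamH 2 y = l := by
  refine D.restrictNormal_hA4 θ V smLocI_famS_finiteIndex hV hθ hlam (fun v => ?_) l hl
  rw [hLv v]
  exact fun l hl => smLocI_level_hA4 p S ⟨V, hV, le_rfl⟩ hpS v l hl

end Normal

section Open

variable (V : Subgroup Γℚ) (hV : IsOpenFor (famS S) V)
include hLv hθ hV

/-- **(J1)** at an arbitrary open subgroup `V`. -/
theorem smLocI_res_hJ1 (y : Hlc ((famS S).restrict V) (res V.subtype D.J) 1) :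
    ∃ y', p • y' = y := by
  refine D.res_hJ1_of_coind θ V smLocI_famS_finiteIndex hV hθ (fun v K hK => ?_) y
  rw [hLv v]
  exact smLocI_hJ1 S v K hK

/-- **(A2)** at an arbitrary open subgroup `V`. -/
theorem smLocI_res_hA2 (hpS : pPrime p ∈ S)
    (y : Hlc ((famS S).restrict V) (res V.subtype D.J) 2) : ∃ y', p • y' = y := by
  refine D.res_hA2_of_coind θ V smLocI_famS_finiteIndex hV hθ (fun v K hK => ?_) y
  rw [hLv v]
  exact fun z => smLocI_hA2 p S v K hK hpS z

/-- **(A3)** at an arbitrary open subgroup `V`. -/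
theorem smLocI_res_hA3 (y : Hlc ((famS S).restrict V) (res V.subtype D.J) 3)
    (hy : p • y = 0) : y = 0 := by
  refine D.res_hA3_of_coind θ V smLocI_famS_finiteIndex hV hθ (fun v K hK => ?_) y hy
  rw [hLv v]
  exact fun z hz => smLocI_hA3 p S v K hK z hz

end Open

end Packaged

end Fermat.Agent.PT
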