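import Fermat.Agent.CFT.PT.GlobalTopInst
import Fermat.Agent.CFT.PT.GlobalOut1OfDatum
import Fermat.Agent.CFT.PT.GlobalTopNumeric
import Fermat.Agent.CFT.PT.LocalKummerTopSm
import Fermat.Agent.CFT.PT.SmoothCoindLocalInst
import Fermat.Agent.CFT.PT.ShaOneAmbient

/-!
# S55 GLOBAL TOP, chain D (4): the frozen statement from ONE `ℚ`-level idele sequence

(helper22)  `s55Side_main` : the frozen conclusion of `S55` from

* the idele sequence `0 → E_S → J → C → 0` of smooth `Γℚ`-modules (`ιE`, `π`, `wI`, `hI`, `smJ`),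
* the local components `lamv v : J|_{G_v} ⟶ (ℚ̄_v)ˣ` compatible with Kummer theory (`hlamK`),
* the product decomposition `θ`, `hθ`, `hlam` of `J` into smooth coinductions,
* the `C`-side inputs: (C-A1) `Hlc¹(V', C)[p] = 0`, (C-A5a) `|Hlc²(V', C)[p]| ≤ p` at the open
  subgroups `V'` with trivial cyclotomic character, the first inequality (C-FI) at the
  cyclo-levels, and the class (C-W) `y₀ ∈ Hlc²(J)[p]` with non-zero image in `Hlc²(C)`.

Everything else (local duality, `J`-side, (B1), (N1), (N2), (T5), `cd_p ≤ 2`, PT) is discharged.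
-/

set_option autoImplicit false

namespace Fermat.Agent.PT

open CategoryTheory groupCohomology Rep ExtCitation Module Fermat.Agent.CFT

local notation "Γℚ" => (AlgebraicClosure ℚ ≃ₐ[ℚ] AlgebraicClosure ℚ)

variable {p : ℕ} [Fact p.Prime] {S : Finset Nat.Primes}

/-- `Hlc¹(V, J) = 0` at a level `V` of `famS S`, for a datum whose `J` is a product of smooth
coinductions of the `(ℚ̄_v)ˣ`. -/
theorem s55Side_subsingleton_H1J {μ : Rep.{0} (ZMod p) Γℚ} (D : TopDatum p (locS S) μ)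
    (hLv : ∀ v, D.Lv v = smLoc_units v.1)
    (θ : ∀ v, D.J ⟶ smCoind ((locS S).ψ v) (famS S) (D.Lv v))
    (hθ : Function.Bijective (fun (a : D.J.V) (v : (locS S).ι) => (θ v).hom a))
    (V : Subgroup Γℚ) [V.Normal] (hV : V ∈ (famS S).sets) :
    Subsingleton (Hlc ((famS S).restrict V) (D.restrictNormal V).J 1) := by
  have := TopDatum.smAsm_finite_ι (𝔏 := locS S) V smLocI_famS_finiteIndex hV
  refine (D.restrictNormal V).subsingleton_H1J_of_coind (D.resθ θ V)
    (smLocI_famS_finiteIndex.restrict V)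
    (D.resθ_bijective_of_mem θ V smLocI_famS_finiteIndex hV hθ) (fun x => ?_)
  rw [(locS S).restrictNormal_comap_eq V x]
  show Subsingleton (Hlc (((famS S).comap ((locS S).ψ x.1)).restrict (V.comap ((locS S).ψ x.1)))
    (res (V.comap ((locS S).ψ x.1)).subtype (D.Lv x.1)) 1)
  rw [hLv x.1]
  exact smLocI_level_hJ1 S ⟨V, hV, le_rfl⟩ x.1

section Main

variable (hp2 : p ≠ 2) (hpS : pPrime p ∈ S)
  (J C : Rep.{0} ℤ Γℚ) (ιE : ESRep S ⟶ J) (π : J ⟶ C) (wI : ιE ≫ π = 0)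
  (hI : (ShortComplex.mk ιE π wI).ShortExact) (smJ : IsSmooth (famS S) J)
  (lamv : ∀ v : ↥S, res (primeLocalToGlobal v.1) J ⟶ smLoc_units v.1)
  (hlamK : ∀ (v : ↥S) (m : ZMod p),
    (lamv v).hom (ιE.hom ((locKT_kappaQ p S hpS).hom m)) = (locKT_kappaSm p v.1).hom m)
  (θ : ∀ v : (locS S).ι, J ⟶ smCoind ((locS S).ψ v) (famS S) (smLoc_units v.1))
  (hθ : Function.Bijective (fun (a : J.V) (v : (locS S).ι) => (θ v).hom a))
  (hlam : ∀ (v : (locS S).ι) (a : J.V),
    (lamv v).hom a = ((θ v).hom a : smCoindV ((locS S).ψ v) (famS S) (smLoc_units v.1)).1 1)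
  (hCA1 : ∀ V' : Subgroup Γℚ, IsOpenFor (famS S) V' → (∀ s ∈ V', cycloChar p s = 1) →
    ∀ c : Hlc ((famS S).restrict V') (res V'.subtype C) 1, p • c = 0 → c = 0)
  (hCA5 : ∀ V' : Subgroup Γℚ, IsOpenFor (famS S) V' → (∀ s ∈ V', cycloChar p s = 1) →
    ∀ s : Finset (Hlc ((famS S).restrict V') (res V'.subtype C) 2),
      (∀ c ∈ s, p • c = 0) → s.card ≤ p)
  (hFI : ∀ V : Subgroup Γℚ, IsCycloLevel p S V → ∀ V' : Subgroup Γℚ, V' ≤ V →
    (V'.subgroupOf V).Normal → IsOpenFor (famS S) V' → V'.relIndex V = p →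
    ∀ σ ∈ V, σ ∉ V' → ∃ x : C, (∀ g ∈ V, C.ρ g x = x) ∧
      ∀ b : C, (∀ u ∈ V', C.ρ u b = b) → x ≠ ∑ i ∈ Finset.range p, C.ρ (σ ^ i) b)
  (y₀ : Hlc (famS S) J 2) (hy₀ : p • y₀ = 0)
  (hπ : (HlcMap (MonoidHom.id Γℚ) π (famS S).compat_id 2).hom y₀ ≠ 0)

include wI hI smJ hlamK θ hθ hlam hCA1 hCA5 in
/-- the cyclo-level inputs `TopInputsC` of the restricted datum. -/
theorem s55Side_topInputsC (V : Subgroup Γℚ) (hV : IsCycloLevel p S V) :
    haveI := hV.normal
    TopInputsC p ((locKT_topDatumSm p S hpS J C ιE π wI hI smJ lamv hlamK).restrictNormal V) := by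
  have := hV.normal
  have hVo : IsOpenFor (famS S) V := ⟨V, hV.1, le_rfl⟩
  exact
    { hA1p := hCA1 V hVo hV.2
      hJ1 := smLocI_restrictNormal_hJ1
        (locKT_topDatumSm p S hpS J C ιE π wI hI smJ lamv hlamK) (fun _ => rfl) θ hθ V hV.1
      hA4 := smLocI_restrictNormal_hA4
        (locKT_topDatumSm p S hpS J C ιE π wI hI smJ lamv hlamK) (fun _ => rfl) θ hθ V hV.1 hlam hpS
      hA4inj := smLocI_restrictNormal_hA4inj
        (locKT_topDatumSm p S hpS J C ιE π wI hI smJ lamv hlamK) (fun _ => rfl) θ hθ V hV.1 hlam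
      hC := hCA5 V hVo hV.2
      hB1 := locKT_topDatumSm_hB1_restrictNormal p S hpS J C ιE π wI hI smJ lamv hlamK V hVo }

include hp2 wI hI smJ hlamK θ hθ hlam hCA1 hCA5 hFI in
/-- **`GlobalTopC`** from the idele sequence. -/
theorem s55Side_globalTopC : GlobalTopC p S := by
  refine globalTopC_of_datum (locKT_topDatumSm p S hpS J C ιE π wI hI smJ lamv hlamK)
    (fun V hV => s55Side_topInputsC hpS J C ιE π wI hI smJ lamv hlamK θ hθ hlam hCA1 hCA5 V hV)
    (fun V hV => gtNum_N1 hV) (fun V hV => gtNum_N2 hp2 hV) (fun V hV => ?_)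
  have := hV.normal
  have hVo : IsOpenFor (famS S) V := ⟨V, hV.1, le_rfl⟩
  have hin := s55Side_topInputsC hpS J C ιE π wI hI smJ lamv hlamK θ hθ hlam hCA1 hCA5 V hV
  have hsub := s55Side_subsingleton_H1J
    (locKT_topDatumSm p S hpS J C ιE π wI hI smJ lamv hlamK) (fun _ => rfl) θ hθ V hV.1
  have hfinE : Finite (Hlc ((famS S).restrict V) (res V.subtype (ESRep S)) 1) := gtNum_N1 hV
  haveI : Finite (Hlc ((famS S).restrict V)
      ((locKT_topDatumSm p S hpS J C ιE π wI hI smJ lamv hlamK).restrictNormal V).E 1 ⧸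
      (topChase_mulP p (Hlc ((famS S).restrict V)
        ((locKT_topDatumSm p S hpS J C ιE π wI hI smJ lamv hlamK).restrictNormal V).E 1)).range) :=
    haveI : Finite (Hlc ((famS S).restrict V)
      ((locKT_topDatumSm p S hpS J C ιE π wI hI smJ lamv hlamK).restrictNormal V).E 1) := hfinE
    inferInstance
  exact (locKT_topDatumSm p S hpS J C ιE π wI hI smJ lamv hlamK).card_ker_locRes_one_le_restrictNormal
    V smLocI_famS_finiteIndex hVo (fun y _ => Subsingleton.elim _ _) hin.hA4inj hin.hC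
    (fun V' hle hV'o => hCA1 V' hV'o (fun s hs => hV.2 s (hle hs)))
    (hFI V hV)

include wI hI smJ hlamK θ hθ hCA1 hCA5 y₀ hy₀ hπ in
/-- **`GlobalOut1`** from the idele sequence. -/
theorem s55Side_globalOut1 : GlobalOut1 p S :=
  globalOut1_of_datum hpS (locKT_topDatumSm p S hpS J C ιE π wI hI smJ lamv hlamK) y₀ hy₀ hπ
    (fun V' hV' hcyc _ =>
      { hA1p := hCA1 V' hV' hcyc
        hA2 := smLocI_res_hA2
          (locKT_topDatumSm p S hpS J C ιE π wI hI smJ lamv hlamK) (fun _ => rfl) θ hθ V' hV' hpS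
        hA3 := smLocI_res_hA3
          (locKT_topDatumSm p S hpS J C ιE π wI hI smJ lamv hlamK) (fun _ => rfl) θ hθ V' hV'
        hC := hCA5 V' hV' hcyc })

include wI hI smJ hlamK θ hθ hlam y₀ hy₀ hπ in
/-- **`GlobalTopQ`** from the idele sequence. -/
theorem s55Side_globalTopQ : GlobalTopQ p S :=
  globalTopQ_of_datum (locKT_topDatumSm p S hpS J C ιE π wI hI smJ lamv hlamK)
    (smLocI_datum_hA4inj (locKT_topDatumSm p S hpS J C ιE π wI hI smJ lamv hlamK)
      (fun _ => rfl) θ hθ hlam) y₀ hy₀ hπ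

include hp2 wI hI smJ hlamK θ hθ hlam hCA1 hCA5 hFI y₀ hy₀ hπ in
/-- **The frozen `S55` conclusion from the idele sequence and the `C`-side inputs.** -/
theorem s55Side_main
    (M : Rep (ZMod p) Γℚ) [FiniteDimensional (ZMod p) M]
    (hsm : ∀ m : M, ∃ F : IntermediateField ℚ (AlgebraicClosure ℚ), FiniteDimensional ℚ F ∧
      ∀ s ∈ F.fixingSubgroup, M.ρ s m = m)
    (hMur : ∀ q : Nat.Primes, q ∉ S → ∀ A : ValuationSubring (AlgebraicClosure ℚ),
      A.LiesOverPrime (q : ℕ) → ∀ g ∈ A.inertiaSubgroupIn ℚ, M.ρ g = 1) :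
    ∃ B : sha₁ S (M.dualTwist (cycloChar p)) →ₗ[ZMod p] sha₂ S M →ₗ[ZMod p] ZMod p,
      (∀ y, (∀ x, B y x = 0) → y = 0) ∧ (∀ x, (∀ y, B y x = 0) → x = 0) := by
  have hC := s55Side_globalTopC hp2 hpS J C ιE π wI hI smJ lamv hlamK θ hθ hlam hCA1 hCA5 hFI
  have hQ := s55Side_globalTopQ hpS J C ιE π wI hI smJ lamv hlamK θ hθ hlam y₀ hy₀ hπ
  have g1 := s55Side_globalOut1 hpS J C ιE π wI hI smJ lamv hlamK θ hθ hCA1 hCA5 y₀ hy₀ hπ
  obtain ⟨g0, g2, g3, g4, gQ⟩ := globalOutP_of_top hC hQ (localOut0_holds p S)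
  exact S55_of_globalOut hp2 hpS g0 g1 g2 g3 g4 gQ M hsm hMur

end Main

end Fermat.Agent.PT
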