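import Fermat.Agent.CFT.PT.S55OfSide

/-!
# S55 GLOBAL TOP, chain D (5): `s55Side_main` with the local components DEFINED from `θ`

(helper22)  Variant of `s55Side_main` (`PT/S55OfSide.lean`) in which the local components
`lamv v : J|_{G_v} ⟶ (ℚ̄_v)ˣ` are taken to be the evaluations at `1` of the `θ v`
(`smTopLam`), so that `hlam` is `rfl` and the Kummer compatibility `hlamK` becomes the single
diagonal formula `hdiag` : `θ_v (ιE e) 1 = ι_v(e)` for the `S`-units `e`.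
-/

set_option autoImplicit false

namespace Fermat.Agent.PT

open CategoryTheory groupCohomology Rep ExtCitation Module Fermat.Agent.CFT

local notation "Qb" => AlgebraicClosure ℚ
local notation "Γℚ" => (AlgebraicClosure ℚ ≃ₐ[ℚ] AlgebraicClosure ℚ)

variable {p : ℕ} [Fact p.Prime] {S : Finset Nat.Primes}

/-- **The frozen `S55` conclusion from the idele sequence, the product decomposition `θ` with its
diagonal formula, and the `C`-side inputs.** -/
theorem s55Side_main_theta (hp2 : p ≠ 2) (hpS : pPrime p ∈ S)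
    (J C : Rep.{0} ℤ Γℚ) (ιE : ESRep S ⟶ J) (π : J ⟶ C) (wI : ιE ≫ π = 0)
    (hI : (ShortComplex.mk ιE π wI).ShortExact) (smJ : IsSmooth (famS S) J)
    (θ : ∀ v : (locS S).ι, J ⟶ smCoind ((locS S).ψ v) (famS S) (smLoc_units v.1))
    (hθ : Function.Bijective (fun (a : J.V) (v : (locS S).ι) => (θ v).hom a))
    (hdiag : ∀ (v : ↥S) (e : ES S),
      ((θ v).hom (ιE.hom (Additive.ofMul e)) :
          smCoindV ((locS S).ψ v) (famS S) (smLoc_units v.1)).1 1 =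
        letI : Fact ((v.1 : ℕ)).Prime := ⟨v.1.2⟩
        Additive.ofMul (Units.map (padicEmbedding (v.1 : ℕ) : Qb →* PadicAlgCl (v.1 : ℕ))
          ((e : ES S) : Qbˣ)))
    (hCA1 : ∀ V' : Subgroup Γℚ, IsOpenFor (famS S) V' → (∀ s ∈ V', cycloChar p s = 1) →
      ∀ c : Hlc ((famS S).restrict V') (res V'.subtype C) 1, p • c = 0 → c = 0)
    (hCA5 : ∀ V' : Subgroup Γℚ, IsOpenFor (famS S) V' → (∀ s ∈ V', cycloChar p s = 1) →
      ∀ s : Finset (Hlc ((famS S).restrict V') (res V'.subtype C) 2),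
        (∀ c ∈ s, p • c = 0) → s.card ≤ p)
    (hFI : ∀ V : Subgroup Γℚ, IsCycloLevel p S V → ∀ V' : Subgroup Γℚ, V' ≤ V →
      (V'.subgroupOf V).Normal → IsOpenFor (famS S) V' → V'.relIndex V = p →
      ∀ σ ∈ V, σ ∉ V' → ∃ x : C, (∀ g ∈ V, C.ρ g x = x) ∧
        ∀ b : C, (∀ u ∈ V', C.ρ u b = b) → x ≠ ∑ i ∈ Finset.range p, C.ρ (σ ^ i) b)
    (y₀ : Hlc (famS S) J 2) (hy₀ : p • y₀ = 0)
    (hπ : (HlcMap (MonoidHom.id Γℚ) π (famS S).compat_id 2).hom y₀ ≠ 0)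
    (M : Rep (ZMod p) Γℚ) [FiniteDimensional (ZMod p) M]
    (hsm : ∀ m : M, ∃ F : IntermediateField ℚ (AlgebraicClosure ℚ), FiniteDimensional ℚ F ∧
      ∀ s ∈ F.fixingSubgroup, M.ρ s m = m)
    (hMur : ∀ q : Nat.Primes, q ∉ S → ∀ A : ValuationSubring (AlgebraicClosure ℚ),
      A.LiesOverPrime (q : ℕ) → ∀ g ∈ A.inertiaSubgroupIn ℚ, M.ρ g = 1) :
    ∃ B : sha₁ S (M.dualTwist (cycloChar p)) →ₗ[ZMod p] sha₂ S M →ₗ[ZMod p] ZMod p,
      (∀ y, (∀ x, B y x = 0) → y = 0) ∧ (∀ x, (∀ y, B y x = 0) → x = 0) :=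
  s55Side_main hp2 hpS J C ιE π wI hI smJ
    (fun v => smTopLam ((locS S).ψ v) (θ v))
    (locKT_hlamSm_of_units p S hpS ιE (fun v => smTopLam ((locS S).ψ v) (θ v))
      (fun v e => hdiag v e))
    θ hθ (fun _ _ => rfl) hCA1 hCA5 hFI y₀ hy₀ hπ M hsm hMur

end Fermat.Agent.PT
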