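/-
CFT, S55 pool, GLOBAL C-side plan v2, glue (K1)+(K2) (helper25): the `S`-ideal class group
`Cl_S(F) = J_F / Fˣ·J_{F,S}` of a number field `F ⊆ ℚ_S` (ℚ-model of the ideles) is FINITE
(helper25's `Idele/IdeleDiv.lean`) and its `p`-part capitulates in `ℚ_S` (helper21's
`sUCI_capitulation`); hence every idele of `F` has a PRIME-TO-`p` power which becomes
`principal · S-idele` in a finite Galois `F' ⊆ ℚ_S`:  `colim_F Cl_S(F)` is prime-to-`p` torsion
(`IsCoprimeTorsion (p : ℤ)` of helper14's `PT/CoprimeTorsion.lean`, finite-level form).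
-/
import Mathlib
import Fermat.Agent.CFT.PT.SUnitsCapIdele
import Fermat.Agent.CFT.Idele.IdeleDiv

set_option autoImplicit false
set_option linter.unusedSectionVars false

namespace Fermat.Agent.PT

open CategoryTheory Fermat.Agent.CFT IntermediateField ExtCitation NumberField IsDedekindDomain

local notation "Qb" => AlgebraicClosure ℚ

variable (S : Finset Nat.Primes) (F : IntermediateField ℚ Qb) [NumberField F]

/-- `Fˣ · J_{F,S}` has finite index in `J_F` (ℚ-model, `S` a finite set of rational primes). -/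
theorem sUCT_finiteIndex :
    (principalIdeles ℚ F ⊔ ideleGroupS ℚ F (sUCI_ratSet S)).FiniteIndex :=
  idDiv_finiteIndex ℚ F (sUCI_ratSet S) (sUD_primesOver F S)
    (fun w => (sUCI_primeBelow_mem_ratSet_iff S F w).symm)

/-- `J_F / Fˣ · J_{F,S} ≃ Cl_T(F)`, `T` = primes of `F` over `S` (helper1's `clT`). -/
noncomputable def sUCT_quotEquiv :
    (ideleGroup ℚ F ⧸ (principalIdeles ℚ F ⊔ ideleGroupS ℚ F (sUCI_ratSet S))) ≃*
      Multiplicative (clT F (sUD_primesOver F S)) :=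
  idDiv_quotEquiv ℚ F (sUCI_ratSet S) (sUD_primesOver F S)
    (fun w => (sUCI_primeBelow_mem_ratSet_iff S F w).symm)

/-- **(TOR)** every idele of `F` has a positive power in `Fˣ · J_{F,S}`. -/
theorem sUCT_exists_pow_mem (x : ideleGroup ℚ F) :
    ∃ n : ℕ, 0 < n ∧ x ^ n ∈ principalIdeles ℚ F ⊔ ideleGroupS ℚ F (sUCI_ratSet S) :=
  idDiv_exists_pow_mem ℚ F (sUCI_ratSet S) (sUD_primesOver F S)
    (fun w => (sUCI_primeBelow_mem_ratSet_iff S F w).symm) x

variable {p : ℕ} [Fact p.Prime]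

/-- **(TOR) + (CAP)**: every idele `x` of `F ⊆ ℚ_S` has a power `x ^ m`, `m` PRIME TO `p`, whose
image in `J_{F'}` lies in `F'ˣ · J_{F',S}` for a suitable finite Galois `F' ⊆ ℚ_S` containing `F`.
(Same consumer shape as helper21's `sUCI_capitulation`.) -/
theorem sUCT_exists_coprime_pow_mem (hpS : pPrime p ∈ S) (hF : F.IsUnramifiedOutside S)
    (x : ideleGroup ℚ F) :
    ∃ m : ℕ, 0 < m ∧ m.Coprime p ∧
      ∃ F' : IntermediateField ℚ Qb, F ≤ F' ∧ F'.IsUnramifiedOutside S ∧ IsGalois ℚ F' ∧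
        F'.fixingSubgroup.Normal ∧
        ∀ [NumberField F'] [Algebra F F'] [IsScalarTower ℚ F F'],
          (∀ a : F, ((algebraMap F F' a : F') : Qb) = (a : Qb)) →
            (relIdele ℚ F F' x) ^ m ∈
              principalIdeles ℚ F' ⊔ ideleGroupS ℚ F' (sUCI_ratSet S) := by
  have hp : p.Prime := Fact.out
  obtain ⟨n, hn, hxn⟩ := sUCT_exists_pow_mem S F x
  obtain ⟨k, m, hpm, hnkm⟩ := Nat.exists_eq_pow_mul_and_not_dvd hn.ne' p hp.ne_one
  have hm0 : 0 < m := by
    rcases Nat.eq_zero_or_pos m with h | h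
    · exact absurd (h ▸ dvd_zero p) hpm
    · exact h
  have hcop : m.Coprime p := ((Nat.Prime.coprime_iff_not_dvd hp).mpr hpm).symm
  have hx' : (x ^ m) ^ (p ^ k) ∈ principalIdeles ℚ F ⊔ ideleGroupS ℚ F (sUCI_ratSet S) := by
    rw [← pow_mul, mul_comm, ← hnkm]
    exact hxn
  obtain ⟨F', h1, h2, h3, h4, h5⟩ := sUCI_capitulation S F hpS hF k (x ^ m) hx'
  refine ⟨m, hm0, hcop, F', h1, h2, h3, h4, ?_⟩
  intro _ _ _ hincl
  have := h5 hincl
  rwa [map_pow] at this

end Fermat.Agent.PT
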