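import Mathlib
import Fermat.Agent.CFT.PT.SUnitsRep
import Fermat.Agent.CFT.PT.ChangeOfRing
import Fermat.Agent.CFT.Local.MuTrivial
import Fermat.Agent.CFT.Local.CycloLocal
import Fermat.Agent.CFT.PT.SmoothRestrict
import Fermat.Agent.CFT.PT.Contracts
import Fermat.Agent.CFT.PT.DualTwist

set_option autoImplicit false

/-!
# S55 GLOBAL TOP (GT0-E): the Kummer half of `TopDatum` for `E = res V (ESRep S)`

(helper21)  For a subgroup `V ≤ Γℚ`, a `ZMod p`-representation `μ'` of `V` and an equivariant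
additive identification `j : μ' ≃+ μ_p(Qb)`:

* `sUT_E S V := res V.subtype (ESRep S)`, `isSmooth_sUT_E`;
* `sUT_P p S V : E ⟶ E` with `sUT_P_apply : P e = p • e`;
* `sUT_kappa p S hpS V j hj : intRep μ' ⟶ E`, `sUT_wK`, `sUT_hK` (short exactness)
  = the fields `κ P hP wK hK smE` of `TopDatum`.
* the standard identifications `sUT_jTriv` (for `trivRep p ↥V`, `V` fixing `μ_p`) and
  `sUT_jCyclo` (for `res V.subtype (cycloRep p)`).
-/

namespace Fermat.Agent.PT

open CategoryTheory Fermat.Agent.CFT IntermediateField ExtCitation Rep groupCohomology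

local notation "Qb" => AlgebraicClosure ℚ
local notation "Γℚ" => (AlgebraicClosure ℚ ≃ₐ[ℚ] AlgebraicClosure ℚ)

section General

variable (p : ℕ) [Fact p.Prime] (S : Finset Nat.Primes) (hpS : pPrime p ∈ S) (V : Subgroup Γℚ)

attribute [local instance] sUR_mulDistribMulAction muMulDistribMulAction

/-- the `S`-units of `ℚ_S` as a `V`-module. -/
noncomputable abbrev sUT_E : Rep.{0} ℤ ↥V := res V.subtype (ESRep S)

theorem isSmooth_sUT_E : IsSmooth ((famS S).restrict V) (sUT_E S V) :=
  (isSmooth_ESRep S).res_subtype V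

theorem sUT_E_ρ_apply (g : ↥V) (a : Additive (ES S)) :
    (sUT_E S V).ρ g a = Additive.ofMul ((g : Γℚ) • a.toMul) := rfl

/-- the `p`-th power map on `E`. -/
noncomputable def sUT_P : sUT_E S V ⟶ sUT_E S V := (resFunctor V.subtype).map (sUR_powHom p S)

omit [Fact p.Prime] in
theorem sUT_P_apply (e : Additive (ES S)) : (sUT_P p S V).hom e = p • e := rfl

variable {μ' : Rep.{0} (ZMod p) ↥V} (j : μ'.V ≃+ Additive (rootsOfUnity p Qb))

/-- the additive map `μ' → E_S`. -/
noncomputable def sUT_kappaAdd : μ'.V →+ Additive (ES S) :=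
  (MonoidHom.toAdditive (sUR_muInclHom p S hpS)).comp j.toAddMonoidHom

theorem sUT_kappaAdd_apply (m : μ'.V) :
    sUT_kappaAdd p S hpS V j m = Additive.ofMul (sUR_muInclHom p S hpS (j m).toMul) := rfl

variable (hj : ∀ (g : ↥V) (m : μ'.V), j (μ'.ρ g m) = Additive.ofMul ((g : Γℚ) • (j m).toMul))

include hj in
theorem sUT_kappaAdd_equivariant (g : ↥V) (m : μ'.V) :
    sUT_kappaAdd p S hpS V j (μ'.ρ g m) =
      ((ESRep S).ρ.comp V.subtype) g (sUT_kappaAdd p S hpS V j m) := by
  change Additive.ofMul (sUR_muInclHom p S hpS (j (μ'.ρ g m)).toMul) =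
    Additive.ofMul ((g : Γℚ) • (sUR_muInclHom p S hpS (j m).toMul))
  rw [hj]
  rfl

/-- **`κ : μ' → E`**, the inclusion of the `p`-th roots of unity. -/
noncomputable def sUT_kappa : intRep μ' ⟶ sUT_E S V :=
  intRepHomToAddHom ((ESRep S).ρ.comp V.subtype) μ' (sUT_kappaAdd p S hpS V j)
    (sUT_kappaAdd_equivariant p S hpS V j hj)

theorem sUT_kappa_apply (m : μ'.V) :
    (sUT_kappa p S hpS V j hj).hom m = Additive.ofMul (sUR_muInclHom p S hpS (j m).toMul) := rfl

theorem sUT_wK : sUT_kappa p S hpS V j hj ≫ sUT_P p S V = 0 := by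
  ext m
  change p • (sUT_kappa p S hpS V j hj).hom m = 0
  rw [sUT_kappa_apply]
  have h := (mem_rootsOfUnity _ _).mp ((j m).toMul : rootsOfUnity p Qb).2
  change Additive.ofMul ((sUR_muInclHom p S hpS (j m).toMul) ^ p) = Additive.ofMul (1 : ES S)
  refine congrArg Additive.ofMul (Subtype.ext ?_)
  rw [Subgroup.coe_pow, coe_sUR_muInclHom, h]
  rfl

/-- **the Kummer sequence `0 → μ' → E → E → 0` over `V`** in the shape of `TopDatum.hK`. -/
theorem sUT_hK :
    (ShortComplex.mk (sUT_kappa p S hpS V j hj) (sUT_P p S V) (sUT_wK p S hpS V j hj)).ShortExact := by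
  have hS := kummerSeqS_shortExact p S hpS
  have hM : Mono (sUT_kappa p S hpS V j hj) := by
    rw [Rep.mono_iff_injective]
    intro a b hab
    have h : ((sUR_muInclHom p S hpS (j a).toMul : ES S) : Qbˣ) =
        ((sUR_muInclHom p S hpS (j b).toMul : ES S) : Qbˣ) :=
      congrArg (fun t : Additive (ES S) => ((t.toMul : ES S) : Qbˣ)) hab
    rw [coe_sUR_muInclHom, coe_sUR_muInclHom] at h
    have h2 : (j a).toMul = (j b).toMul := Subtype.ext h
    exact j.injective (congrArg Additive.ofMul h2)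
  have hP : Epi (sUT_P p S V) := by
    rw [Rep.epi_iff_surjective]
    have := hS.epi_g
    rw [Rep.epi_iff_surjective] at this
    exact this
  have hE : (ShortComplex.mk (sUT_kappa p S hpS V j hj) (sUT_P p S V)
      (sUT_wK p S hpS V j hj)).Exact := by
    rw [rep_shortComplex_exact_iff]
    intro x hx
    have h1 := (rep_shortComplex_exact_iff (kummerSeqS p S hpS)).1 hS.exact x hx
    obtain ⟨z, hz⟩ := h1
    change Additive (rootsOfUnity p Qb) at z
    refine ⟨j.symm z, ?_⟩
    change (sUT_kappa p S hpS V j hj).hom (j.symm z) = x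
    rw [sUT_kappa_apply, j.apply_symm_apply]
    exact hz
  exact { exact := hE, mono_f := hM, epi_g := hP }

end General

section Standard

variable (p : ℕ) [Fact p.Prime]

attribute [local instance] muMulDistribMulAction muZModModule

theorem sUT_natCast_ne_zero : ((p : ℕ) : Qb) ≠ 0 :=
  Nat.cast_ne_zero.2 (Fact.out : p.Prime).ne_zero

/-- a fixed additive identification `𝔽_p ≃ μ_p(Qb)` (choice of a primitive `p`-th root of unity). -/
noncomputable def sUT_jBase : ZMod p ≃+ Additive (rootsOfUnity p Qb) :=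
  (muTrivLinearEquiv ℚ Qb p (sUT_natCast_ne_zero p)).toAddEquiv

/-- `g ζ^m = ζ^(χ(g) m)`. -/
theorem sUT_jBase_cyclo (g : Γℚ) (m : ZMod p) :
    sUT_jBase p ((cycloChar p g : ZMod p) * m) =
      Additive.ofMul (g • (sUT_jBase p m).toMul) := by
  have h := muRepFp_ρ_eq_cyclotomic_smul ℚ Qb p (sUT_natCast_ne_zero p) g
    (muTrivLinearEquiv ℚ Qb p (sUT_natCast_ne_zero p) m)
  have h' : Additive.ofMul (g • (sUT_jBase p m).toMul) =
      (((modularCyclotomicCharacter Qb
        (natCard_rootsOfUnity_of_isAlgClosed Qb p (sUT_natCast_ne_zero p))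
        (g : Qb ≃+* Qb) : (ZMod p)ˣ) : ZMod p)) •
        muTrivLinearEquiv ℚ Qb p (sUT_natCast_ne_zero p) m := h
  have h2 : muTrivLinearEquiv ℚ Qb p (sUT_natCast_ne_zero p) ((cycloChar p g : ZMod p) * m) =
      (cycloChar p g : ZMod p) • muTrivLinearEquiv ℚ Qb p (sUT_natCast_ne_zero p) m := by
    rw [← smul_eq_mul, map_smul]
  change muTrivLinearEquiv ℚ Qb p (sUT_natCast_ne_zero p) ((cycloChar p g : ZMod p) * m) = _
  rw [h2]
  exact h'.symm

theorem sUT_jBase_triv {g : Γℚ} (hg : cycloChar p g = 1) (m : ZMod p) :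
    sUT_jBase p m = Additive.ofMul (g • (sUT_jBase p m).toMul) := by
  have h := sUT_jBase_cyclo p g m
  rwa [hg, Units.val_one, one_mul] at h

/-- elements of the kernel of the cyclotomic character fix `μ_p`. -/
theorem sUT_smul_eq_of_cycloChar_eq_one {g : Γℚ} (hg : cycloChar p g = 1)
    (z : rootsOfUnity p Qb) : g • z = z := by
  obtain ⟨m, hm⟩ := (sUT_jBase p).surjective (Additive.ofMul z)
  have h := sUT_jBase_triv p hg m
  rw [hm] at h
  exact (congrArg Additive.toMul h).symm

/-- **`cycloRep p ≅ μ_p(Qb)`** as `𝔽_p`-representations of `Γℚ` (global twin of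
`cycloRepLocalIso`). -/
noncomputable def cycloRepGlobalIso : cycloRep p ≅ muRepFp ℚ Qb p :=
  Rep.mkIso
    { toLinearEquiv := muTrivLinearEquiv ℚ Qb p (sUT_natCast_ne_zero p)
      isIntertwining' := fun g => by
        apply LinearMap.ext
        intro c
        change muTrivLinearEquiv ℚ Qb p (sUT_natCast_ne_zero p) ((cycloRep p).ρ g c) =
          (muRepFp ℚ Qb p).ρ g (muTrivLinearEquiv ℚ Qb p (sUT_natCast_ne_zero p) c)
        have h : (cycloRep p).ρ g c = (cycloChar p g : ZMod p) * c := ofChar_ρ_apply _ g c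
        rw [h]
        exact sUT_jBase_cyclo p g c }

variable (S : Finset Nat.Primes) (hpS : pPrime p ∈ S) (V : Subgroup Γℚ)

/-- `κ` for trivial coefficients, `V` inside the kernel of the cyclotomic character. -/
noncomputable def sUT_kappaTriv (hV : ∀ s ∈ V, cycloChar p s = 1) :
    intRep (trivRep p ↥V) ⟶ sUT_E S V :=
  sUT_kappa p S hpS V (μ' := trivRep p ↥V) (sUT_jBase p)
    (fun g m => sUT_jBase_triv p (hV g.1 g.2) m)

theorem sUT_kappaTriv_apply (hV : ∀ s ∈ V, cycloChar p s = 1) (m : ZMod p) :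
    (sUT_kappaTriv p S hpS V hV).hom m =
      Additive.ofMul (sUR_muInclHom p S hpS (sUT_jBase p m).toMul) := rfl

theorem sUT_wK_triv (hV : ∀ s ∈ V, cycloChar p s = 1) :
    sUT_kappaTriv p S hpS V hV ≫ sUT_P p S V = 0 :=
  sUT_wK p S hpS V (μ' := trivRep p ↥V) (sUT_jBase p) _

theorem sUT_hK_triv (hV : ∀ s ∈ V, cycloChar p s = 1) :
    (ShortComplex.mk (sUT_kappaTriv p S hpS V hV) (sUT_P p S V)
      (sUT_wK_triv p S hpS V hV)).ShortExact :=
  sUT_hK p S hpS V (μ' := trivRep p ↥V) (sUT_jBase p) _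

/-- `κ` for the coefficients `res V (cycloRep p)`, any `V`. -/
noncomputable def sUT_kappaCyclo : intRep (res V.subtype (cycloRep p)) ⟶ sUT_E S V :=
  sUT_kappa p S hpS V (μ' := res V.subtype (cycloRep p)) (sUT_jBase p)
    (fun g m => by
      have h : (res V.subtype (cycloRep p)).ρ g m = (cycloChar p (g : Γℚ) : ZMod p) * m :=
        ofChar_ρ_apply _ (g : Γℚ) m
      rw [h]
      exact sUT_jBase_cyclo p g.1 m)

theorem sUT_kappaCyclo_apply (m : ZMod p) :
    (sUT_kappaCyclo p S hpS V).hom m =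
      Additive.ofMul (sUR_muInclHom p S hpS (sUT_jBase p m).toMul) := rfl

theorem sUT_wK_cyclo : sUT_kappaCyclo p S hpS V ≫ sUT_P p S V = 0 :=
  sUT_wK p S hpS V (μ' := res V.subtype (cycloRep p)) (sUT_jBase p) _

theorem sUT_hK_cyclo :
    (ShortComplex.mk (sUT_kappaCyclo p S hpS V) (sUT_P p S V)
      (sUT_wK_cyclo p S hpS V)).ShortExact :=
  sUT_hK p S hpS V (μ' := res V.subtype (cycloRep p)) (sUT_jBase p) _

end Standard

end Fermat.Agent.PT
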