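/-
S55 (P13) (helper1): the engine-side Tate–Shafarevich groups only see the finite places of `S`.

For `p` odd the archimedean local group (generated by complex conjugation, order dividing `2`) has
vanishing level-constant cohomology in positive degrees with `ZMod p`-coefficients; hence
`lcSha S M n` (`n ≥ 1`) is the kernel of the localisation maps at the primes of `S` only, i.e. the
kernel of `locRes (locS S) M n` for the finite-place local system `locS S`.
-/
import Fermat.Agent.CFT.PT.Contracts
import Fermat.Agent.CFT.PT.FiniteLevel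
import Fermat.Agent.CFT.Coh.IndexKill

set_option autoImplicit false

namespace Fermat.Agent.PT

open CategoryTheory CategoryTheory.Limits groupCohomology Rep Fermat.Agent.CFT ExtCitation

local notation "Γℚ" => (AlgebraicClosure ℚ ≃ₐ[ℚ] AlgebraicClosure ℚ)

section FiniteGroup

variable {p : ℕ} [Fact p.Prime] {G : Type} [Group G] [Finite G]

/-- For a finite group of order prime to `p`, level-constant cohomology with `ZMod p`-coefficients
vanishes in positive degrees (for any level family). -/
theorem shaLoc_isZero_Hlc_of_coprime_card (hcop : Nat.Coprime (Nat.card G) p)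
    (𝔉 : LevelFamily G) (A : Rep (ZMod p) G) (n : ℕ) : IsZero (Hlc 𝔉 A (n + 1)) := by
  refine isZero_Hlc_of_forall 𝔉 A (n + 1) fun U => ?_
  rw [ModuleCat.isZero_iff_subsingleton]
  refine subsingleton_of_forall_eq 0 fun x => ?_
  have h1 : Nat.card (G ⧸ (U : Subgroup G)) • x = 0 := natCard_nsmul_eq_zero _ n x
  have h2 : p • x = 0 := by
    have h : (p : ℕ) • x = ((p : ℕ) : ZMod p) • x := (Nat.cast_smul_eq_nsmul (ZMod p) p x).symm
    rw [h, ZMod.natCast_self, zero_smul]
  have hdvd : Nat.card (G ⧸ (U : Subgroup G)) ∣ Nat.card G :=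
    Subgroup.card_quotient_dvd_card _
  have hcop' : Nat.Coprime (Nat.card (G ⧸ (U : Subgroup G))) p := hcop.coprime_dvd_left hdvd
  have hd1 : addOrderOf x ∣ Nat.card (G ⧸ (U : Subgroup G)) :=
    addOrderOf_dvd_of_nsmul_eq_zero h1
  have hd2 : addOrderOf x ∣ p := addOrderOf_dvd_of_nsmul_eq_zero h2
  have h3 : addOrderOf x ∣ 1 := by
    have h4 : addOrderOf x ∣ Nat.gcd (Nat.card (G ⧸ (U : Subgroup G))) p := Nat.dvd_gcd hd1 hd2
    have h5 : Nat.gcd (Nat.card (G ⧸ (U : Subgroup G))) p = 1 := hcop'
    rwa [h5] at h4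
  exact AddMonoid.addOrderOf_eq_one_iff.1 (Nat.dvd_one.1 h3)

end FiniteGroup

section Arch

variable {p : ℕ} [Fact p.Prime]

theorem shaLoc_coprime_card_arch (hp2 : p ≠ 2) :
    Nat.Coprime (Nat.card ↥archimedeanDecomposition) p := by
  have h2 : Nat.card ↥archimedeanDecomposition ∣ 2 := by
    rw [Nat.card_eq_fintype_card]
    exact card_archimedeanDecomposition_dvd_two
  refine Nat.Coprime.coprime_dvd_left h2 ?_
  rw [Nat.coprime_comm, Nat.Prime.coprime_iff_not_dvd Fact.out]
  intro h
  exact hp2 ((Nat.prime_dvd_prime_iff_eq Fact.out Nat.prime_two).mp h)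

/-- the archimedean local level-constant cohomology vanishes in positive degrees, `p` odd. -/
theorem shaLoc_isZero_Hlc_arch (hp2 : p ≠ 2) (𝔉 : LevelFamily ↥archimedeanDecomposition)
    (A : Rep (ZMod p) ↥archimedeanDecomposition) (n : ℕ) : IsZero (Hlc 𝔉 A (n + 1)) :=
  shaLoc_isZero_Hlc_of_coprime_card (shaLoc_coprime_card_arch hp2) 𝔉 A n

end Arch

section Sha

variable {p : ℕ} [Fact p.Prime] (S : Finset Nat.Primes) (M : Rep (ZMod p) Γℚ)

/-- **(P13), raw form.** For `p` odd and `n ≥ 1`, a class lies in `lcSha S M n` iff it dies at all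
the primes of `S` (the archimedean condition is automatic). -/
theorem mem_lcSha_succ_iff_forall_prime (hp2 : p ≠ 2) (n : ℕ) (y : Hlc (famS S) M (n + 1)) :
    y ∈ lcSha S M (n + 1) ↔ ∀ q : ↥S,
      (HlcMap (primeLocalToGlobal q.1) (𝟙 (Rep.res (primeLocalToGlobal q.1) M))
        (famR_compat_famS (primeLocalToGlobal q.1) S) (n + 1)).hom y = 0 := by
  rw [mem_lcSha]
  constructor
  · intro h q
    exact h (Sum.inr q)
  · rintro h (u | q)
    · have hz : IsZero (Hlc (famR (extArithLoc S (Sum.inl u)))
          (Rep.res (extArithLoc S (Sum.inl u)) M) (n + 1)) :=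
        shaLoc_isZero_Hlc_arch hp2 (famR archimedeanLoc) (Rep.res archimedeanLoc M) n
      exact (ModuleCat.subsingleton_of_isZero hz).elim _ _
    · exact h q

/-- **(P13), intrinsic form.** Same with the intrinsic localisation maps `locQ` (family `famLoc`). -/
theorem mem_lcSha_succ_iff_forall_locQ (hp2 : p ≠ 2) (n : ℕ) (y : Hlc (famS S) M (n + 1)) :
    y ∈ lcSha S M (n + 1) ↔ ∀ q : ↥S, (locQ q.1 S M (n + 1)).hom y = 0 := by
  rw [mem_lcSha_succ_iff_forall_prime S M hp2]
  exact forall_congr' fun q => (locQ_apply_eq_zero_iff q.1 S M (n + 1) y).symm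

/-- **(P13)**: for `p` odd and `n ≥ 1`, `lcSha S M n` is the kernel of the total localisation map of
the arithmetic local system `locS S` (finite places only). -/
theorem lcSha_succ_eq_ker_locRes (hp2 : p ≠ 2) (n : ℕ) :
    lcSha S M (n + 1) = LinearMap.ker (locRes (locS S) M (n + 1)) := by
  ext y
  rw [mem_lcSha_succ_iff_forall_locQ S M hp2, LinearMap.mem_ker, funext_iff]
  rfl

theorem lcSha_one_eq_ker_locRes (hp2 : p ≠ 2) :
    lcSha S M 1 = LinearMap.ker (locRes (locS S) M 1) := lcSha_succ_eq_ker_locRes S M hp2 0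

theorem lcSha_two_eq_ker_locRes (hp2 : p ≠ 2) :
    lcSha S M 2 = LinearMap.ker (locRes (locS S) M 2) := lcSha_succ_eq_ker_locRes S M hp2 1

end Sha

end Fermat.Agent.PT
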