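/-
S55 bridge (GB4-J)(J7): the `J`-side inputs (J1), (A2), (A3), (A4), (A4inj) of a `TopDatum` over the
arithmetic local system `(Γℚ, famS S, locS S)` whose local modules are the multiplicative groups
`smLoc_units q` of `PadicAlgCl q` and whose idele module is a product of smooth coinductions, at
every level `V` of `famS S` (datum `D.restrictNormal V`) and at every open subgroup `V'`
(module `res V' J`).  The local hypotheses of `PT/SmoothCoindAssembly.lean` are discharged by
`PT/SmoothCoindLocal.lean` (local class field theory for the families pulled back from `famS S`) and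
`Bridge/CycloLocalDegreeFam.lean` (`p^∞` divides the local degrees).
-/
import Fermat.Agent.CFT.PT.SmoothCoindAssembly
import Fermat.Agent.CFT.PT.SmoothCoindLocal
import Fermat.Agent.CFT.PT.BaseCountArith
import Fermat.Agent.CFT.Bridge.CycloLocalDegreeFam

set_option autoImplicit false
set_option linter.unusedSectionVars false

namespace Fermat.Agent.PT

open CategoryTheory groupCohomology Rep ExtCitation Fermat.Agent.CFT

local notation "Γℚ" => (AlgebraicClosure ℚ ≃ₐ[ℚ] AlgebraicClosure ℚ)

variable (p : ℕ) [Fact p.Prime] (S : Finset Nat.Primes)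

/-- the local modules: the multiplicative groups of the `PadicAlgCl q`, `q ∈ S`. -/
noncomputable def smInst_Lv (q : (locS S).ι) : Rep.{0} ℤ ((locS S).Gv q) := smLoc_units q.1

/-! ### The local statements at an open subgroup `K` of the local Galois group at `q ∈ S` -/

section Local

variable {S} (q : (locS S).ι) {K : Subgroup ((locS S).Gv q)}
  (hK : IsOpenFor ((famS S).comap ((locS S).ψ q)) K)

include hK

/-- (X0) Hilbert 90 for the pulled-back family. -/
theorem smInst_open_h1 :
    Subsingleton (Hlc (((famS S).comap ((locS S).ψ q)).restrict K)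
      (res K.subtype (smInst_Lv S q)) 1) :=
  smLoc_X0 hK

/-- (X2) `p`-divisibility of the Brauer group for the pulled-back family. -/
theorem smInst_open_h2 (hpS : pPrime p ∈ S)
    (z : Hlc (((famS S).comap ((locS S).ψ q)).restrict K) (res K.subtype (smInst_Lv S q)) 2) :
    ∃ z', p • z' = z :=
  smLoc_X2 hK p Fact.out (cycLD_relIndex p S hpS q.1 K hK) z

/-- (X4) vanishing of `Hlc³`, in the torsion-free form. -/
theorem smInst_open_h3
    (z : Hlc (((famS S).comap ((locS S).ψ q)).restrict K) (res K.subtype (smInst_Lv S q)) 3)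
    (_hz : p • z = 0) : z = 0 :=
  @Subsingleton.elim _ (smLoc_X4 hK) z 0

/-- (X1) the change of family is injective on `Hlc²`. -/
theorem smInst_open_h4inj
    (z : Hlc (((famS S).comap ((locS S).ψ q)).restrict K) (res K.subtype (smInst_Lv S q)) 2)
    (_hz : p • z = 0)
    (h0 : smAsmFam (locS S) q K (res K.subtype (smInst_Lv S q)) 2 z = 0) : z = 0 := by
  have hinj := smLoc_X1 hK (smLoc_famLoc_refines_restrict S q.1 K)
  exact hinj (h0.trans (map_zero _).symm)

/-- (X5) every `p`-torsion class for the full local family comes from a `p`-torsion class for the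
pulled-back family. -/
theorem smInst_open_h4 (hpS : pPrime p ∈ S)
    (l : Hlc (((locS S).fam q).restrict K) (res K.subtype (smInst_Lv S q)) 2)
    (hl : p • l = 0) :
    ∃ z : Hlc (((famS S).comap ((locS S).ψ q)).restrict K) (res K.subtype (smInst_Lv S q)) 2,
      p • z = 0 ∧ smAsmFam (locS S) q K (res K.subtype (smInst_Lv S q)) 2 z = l :=
  smLoc_X5 hK (smLoc_famLoc_refines_restrict S q.1 K) p Fact.out
    (cycLD_relIndex p S hpS q.1 K hK) l hl

end Local

/-- the preimage of a level of `famS S` in the local Galois group at `q` is open for the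
pulled-back family. -/
theorem smInst_isOpenFor_comap {V : Subgroup Γℚ} (hV : V ∈ (famS S).sets) (q : (locS S).ι) :
    IsOpenFor ((famS S).comap ((locS S).ψ q)) (V.comap ((locS S).ψ q)) :=
  ⟨_, ⟨V, hV, rfl⟩, le_rfl⟩

/-! ### The `J`-side inputs -/

section Datum

variable {p S} {μ : Rep.{0} (ZMod p) Γℚ} (D : TopDatum p (locS S) μ)
  (hLv : D.Lv = smInst_Lv S)
  (θ : ∀ q, D.J ⟶ smCoind ((locS S).ψ q) (famS S) (D.Lv q))
  (hθ : Function.Bijective (fun (a : D.J.V) (q : (locS S).ι) => (θ q).hom a))

include hLv hθ

section Level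

variable (V : Subgroup Γℚ) [V.Normal] (hV : V ∈ (famS S).sets)

include hV

/-- **(J1)** at a level `V` of `famS S`. -/
theorem smInst_hJ1 (y : Hlc ((famS S).restrict V) (D.restrictNormal V).J 1) :
    ∃ y', p • y' = y := by
  have : Finite (locS S).ι := (inferInstance : Finite ↥S)
  refine D.restrictNormal_hJ1 θ V (baseCount_famS_finiteIndex S) hV hθ ?_ y
  rw [hLv]
  exact fun q => smInst_open_h1 q (smInst_isOpenFor_comap S hV q)

/-- **(A2)** at a level `V` of `famS S`. -/
theorem smInst_hA2 (hpS : pPrime p ∈ S) (y : Hlc ((famS S).restrict V) (D.restrictNormal V).J 2) :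
    ∃ y', p • y' = y := by
  have : Finite (locS S).ι := (inferInstance : Finite ↥S)
  refine D.restrictNormal_hA2 θ V (baseCount_famS_finiteIndex S) hV hθ ?_ y
  rw [hLv]
  exact fun q => smInst_open_h2 p q (smInst_isOpenFor_comap S hV q) hpS

/-- **(A3)** at a level `V` of `famS S`. -/
theorem smInst_hA3 (y : Hlc ((famS S).restrict V) (D.restrictNormal V).J 3) (hy : p • y = 0) :
    y = 0 := by
  have : Finite (locS S).ι := (inferInstance : Finite ↥S)
  refine D.restrictNormal_hA3 θ V (baseCount_famS_finiteIndex S) hV hθ ?_ y hy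
  rw [hLv]
  exact fun q => smInst_open_h3 p q (smInst_isOpenFor_comap S hV q)

variable (hlam : ∀ q (a : D.J.V),
    (D.lamv q).hom a = ((θ q).hom a : smCoindV ((locS S).ψ q) (famS S) (D.Lv q)).1 1)

include hlam

/-- **(A4inj)** at a level `V` of `famS S`. -/
theorem smInst_hA4inj (y : Hlc ((famS S).restrict V) (D.restrictNormal V).J 2) (hy : p • y = 0)
    (hl : (D.restrictNormal V).lamH 2 y = 0) : y = 0 := by
  have : Finite (locS S).ι := (inferInstance : Finite ↥S)
  refine D.restrictNormal_hA4inj θ V (baseCount_famS_finiteIndex S) hV hθ hlam ?_ y hy hl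
  rw [hLv]
  exact fun q => smInst_open_h4inj p q (smInst_isOpenFor_comap S hV q)

/-- **(A4)** at a level `V` of `famS S`. -/
theorem smInst_hA4 (hpS : pPrime p ∈ S)
    (l : ∀ x, Hlc (((locS S).restrictNormal V).fam x) ((D.restrictNormal V).Lv x) 2)
    (hl : ∀ x, p • l x = 0) :
    ∃ y : Hlc ((famS S).restrict V) (D.restrictNormal V).J 2,
      p • y = 0 ∧ (D.restrictNormal V).lamH 2 y = l := by
  have : Finite (locS S).ι := (inferInstance : Finite ↥S)
  refine D.restrictNormal_hA4 θ V (baseCount_famS_finiteIndex S) hV hθ hlam ?_ l hl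
  rw [hLv]
  exact fun q => smInst_open_h4 p q (smInst_isOpenFor_comap S hV q) hpS

end Level

section OpenSubgroup

variable (V : Subgroup Γℚ) (hV : IsOpenFor (famS S) V)

include hV

/-- **(J1)** at an open subgroup. -/
theorem smInst_res_hJ1 (y : Hlc ((famS S).restrict V) (res V.subtype D.J) 1) :
    ∃ y', p • y' = y := by
  have : Finite (locS S).ι := (inferInstance : Finite ↥S)
  refine D.res_hJ1_of_coind θ V (baseCount_famS_finiteIndex S) hV hθ ?_ y
  rw [hLv]
  exact fun q K hK => smInst_open_h1 q hK

/-- **(A2)** at an open subgroup. -/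
theorem smInst_res_hA2 (hpS : pPrime p ∈ S)
    (y : Hlc ((famS S).restrict V) (res V.subtype D.J) 2) : ∃ y', p • y' = y := by
  have : Finite (locS S).ι := (inferInstance : Finite ↥S)
  refine D.res_hA2_of_coind θ V (baseCount_famS_finiteIndex S) hV hθ ?_ y
  rw [hLv]
  exact fun q K hK => smInst_open_h2 p q hK hpS

/-- **(A3)** at an open subgroup. -/
theorem smInst_res_hA3 (y : Hlc ((famS S).restrict V) (res V.subtype D.J) 3)
    (hy : p • y = 0) : y = 0 := by
  have : Finite (locS S).ι := (inferInstance : Finite ↥S)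
  refine D.res_hA3_of_coind θ V (baseCount_famS_finiteIndex S) hV hθ ?_ y hy
  rw [hLv]
  exact fun q K hK => smInst_open_h3 p q hK

end OpenSubgroup

end Datum

end Fermat.Agent.PT
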