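import Fermat.Agent.CFT.PT.SmoothLow

/-!
# S55 engine: `Hlc²` and `Hlc¹` as explicit quotients / submodules (generic bridge shape)

The prelude defines `continuousH2 r M` and `continuousH2S S M` as
`(cocycles₂ M ⊓ P₂) ⧸ comap (map d₁₂ P₁)` for suitable submodules `P₁ ⊆ (G → M)`,
`P₂ ⊆ (G × G → M)` of "level-constant" cochains, and `continuousH1 r M`, `continuousH1S S M` as
the image in `H1 M` of the cocycles lying in `P₁`.  This file identifies these with `Hlc 𝔉 M 2`,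
`Hlc 𝔉 M 1` as soon as `P₁ = lcCochains₁ 𝔉 M`, `P₂ = lcCochains₂ 𝔉 M`.

* `quotToHlc₂`, `quotEquivHlc₂` with `quotEquivHlc₂_mk`.
* `range_lcToH_one`, `hlcEquivH1` with `coe_hlcEquivH1_lcπ₁`.
-/

namespace Fermat.Agent.PT

open CategoryTheory groupCohomology Rep

universe u

variable {k G : Type u} [CommRing k] [Group G] (𝔉 : LevelFamily G) (A : Rep.{u} k G)

section H2

variable (P₁ : Submodule k (G → A)) (P₂ : Submodule k (G × G → A))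
  (h₁ : P₁ = lcCochains₁ 𝔉 A) (h₂ : P₂ = lcCochains₂ 𝔉 A)

/-- The class map on `cocycles₂ A ⊓ P₂` when `P₂` is the module of level-constant 2-cochains. -/
noncomputable def cocyclesToHlc₂ : ↥(cocycles₂ A ⊓ P₂) →ₗ[k] Hlc 𝔉 A 2 :=
  lcπ₂ 𝔉 A ∘ₗ Submodule.inclusion (show cocycles₂ A ⊓ P₂ ≤ lcCocycles₂ 𝔉 A from by
    rw [h₂]; exact le_rfl)

lemma cocyclesToHlc₂_apply (c : ↥(cocycles₂ A ⊓ P₂)) :
    cocyclesToHlc₂ 𝔉 A P₂ h₂ c = lcπ₂ 𝔉 A ⟨c.1, ⟨c.2.1, h₂ ▸ c.2.2⟩⟩ := rfl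

include h₁ in
lemma cocyclesToHlc₂_eq_zero_iff (c : ↥(cocycles₂ A ⊓ P₂)) :
    cocyclesToHlc₂ 𝔉 A P₂ h₂ c = 0 ↔ c.1 ∈ P₁.map (d₁₂ A).hom := by
  rw [cocyclesToHlc₂_apply, lcπ₂_eq_zero_iff, h₁]
  rfl

lemma cocyclesToHlc₂_surjective : Function.Surjective (cocyclesToHlc₂ 𝔉 A P₂ h₂) := by
  intro y
  obtain ⟨c, rfl⟩ := lcπ₂_surjective 𝔉 A y
  exact ⟨⟨c.1, ⟨c.2.1, h₂ ▸ c.2.2⟩⟩, rfl⟩

/-- The prelude-shaped quotient is `Hlc²`. -/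
noncomputable def quotEquivHlc₂ :
    (↥(cocycles₂ A ⊓ P₂) ⧸ (P₁.map (d₁₂ A).hom).comap (cocycles₂ A ⊓ P₂).subtype) ≃ₗ[k]
      Hlc 𝔉 A 2 :=
  LinearEquiv.ofBijective
    (Submodule.liftQ _ (cocyclesToHlc₂ 𝔉 A P₂ h₂) (fun c hc =>
      (cocyclesToHlc₂_eq_zero_iff 𝔉 A P₁ P₂ h₁ h₂ c).2 hc))
    ⟨by
      rw [← LinearMap.ker_eq_bot]
      apply Submodule.ker_liftQ_eq_bot
      intro c hc
      exact (cocyclesToHlc₂_eq_zero_iff 𝔉 A P₁ P₂ h₁ h₂ c).1 hc,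
     by
      intro y
      obtain ⟨c, rfl⟩ := cocyclesToHlc₂_surjective 𝔉 A P₂ h₂ y
      exact ⟨Submodule.Quotient.mk c, rfl⟩⟩

@[simp] lemma quotEquivHlc₂_mk (c : ↥(cocycles₂ A ⊓ P₂)) :
    quotEquivHlc₂ 𝔉 A P₁ P₂ h₁ h₂ (Submodule.Quotient.mk c) =
      lcπ₂ 𝔉 A ⟨c.1, ⟨c.2.1, h₂ ▸ c.2.2⟩⟩ := rfl

end H2

section H1

variable (P₁ : Submodule k (G → A)) (h₁ : P₁ = lcCochains₁ 𝔉 A)

include h₁ in
/-- The image of `Hlc¹` in `H¹` is the image of the level-constant cocycles. -/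
theorem range_lcToH_one :
    LinearMap.range (lcToH 𝔉 A 1).hom =
      ((P₁.comap (cocycles₁ A).subtype).map (H1π A).hom) := by
  ext x
  constructor
  · rintro ⟨y, rfl⟩
    obtain ⟨c, rfl⟩ := lcπ₁_surjective 𝔉 A y
    rw [lcToH_lcπ₁]
    exact ⟨⟨c.1, c.2.1⟩, h₁ ▸ c.2.2, rfl⟩
  · rintro ⟨c, hc, rfl⟩
    have hc' : c.1 ∈ lcCocycles₁ 𝔉 A := ⟨c.2, h₁ ▸ hc⟩
    exact ⟨lcπ₁ 𝔉 A ⟨c.1, hc'⟩, lcToH_lcπ₁ 𝔉 A ⟨c.1, hc'⟩⟩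

/-- For a smooth representation, `Hlc¹` is the prelude-shaped submodule of `H¹`. -/
noncomputable def hlcEquivH1 (hsm : ∀ a : A, a ∈ lcCochains₀ 𝔉 A) :
    Hlc 𝔉 A 1 ≃ₗ[k] ↥((P₁.comap (cocycles₁ A).subtype).map (H1π A).hom) :=
  (LinearEquiv.ofInjective (lcToH 𝔉 A 1).hom (lcToH_one_injective 𝔉 A hsm)).trans
    (LinearEquiv.ofEq _ _ (range_lcToH_one 𝔉 A P₁ h₁))

lemma coe_hlcEquivH1 (hsm : ∀ a : A, a ∈ lcCochains₀ 𝔉 A) (y : Hlc 𝔉 A 1) :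
    (hlcEquivH1 𝔉 A P₁ h₁ hsm y : H1 A) = (lcToH 𝔉 A 1).hom y := rfl

lemma coe_hlcEquivH1_lcπ₁ (hsm : ∀ a : A, a ∈ lcCochains₀ 𝔉 A) (c : lcCocycles₁ 𝔉 A) :
    (hlcEquivH1 𝔉 A P₁ h₁ hsm (lcπ₁ 𝔉 A c) : H1 A) = H1π A ⟨c.1, c.2.1⟩ := by
  rw [coe_hlcEquivH1, lcToH_lcπ₁]

end H1

end Fermat.Agent.PT
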