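import Fermat.Agent.CFT.PT.SmoothTower
import Fermat.Agent.CFT.PT.CdTwoInst

/-!
# S55 engine: `p`-primary coprime descent

* `towerP_eq_zero_of_coprime` : if `H' ≤ H` is open of index prime to `p` and `Hlc^n(H', B)` has no
  `p`-torsion, then `Hlc^n(H, B)` has no `p`-torsion.
* `towerP_card_le_of_coprime`-free arithmetic corollary `pTorsionFree_of_cycloTrivial` : over
  `(Γℚ, famS S)`, `p ∈ S`: a `p`-torsion-freeness statement for `Hlc^n(V', A)` at all open `V'` on
  which the cyclotomic character is trivial holds at ALL open `V'` (`V' ⊓ ker χ_cyc` has index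
  dividing `p - 1` in `V'`).
-/

set_option autoImplicit false

namespace Fermat.Agent.PT

open CategoryTheory groupCohomology Rep Fermat.Agent.CFT ExtCitation

universe u

section Engine

variable {k G : Type u} [CommRing k] [Group G] {𝔉 : LevelFamily G} {H H' : Subgroup G}
  (hle : H' ≤ H)

/-- **`p`-primary coprime descent**, elementwise. -/
theorem towerP_eq_zero_of_coprime (hfin : 𝔉.FiniteIndex) (hH' : IsOpenFor 𝔉 H')
    (B : Rep.{u} k H) (hB : IsSmooth (𝔉.restrict H) B) {p : ℕ}
    (hp : Nat.Coprime p (H'.relIndex H)) (n : ℕ)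
    (hzero : ∀ y : Hlc (𝔉.restrict H') (res (Subgroup.inclusion hle) B) n, p • y = 0 → y = 0)
    (x : Hlc (𝔉.restrict H) B n) (hpx : p • x = 0) : x = 0 := by
  have hK : (H'.subgroupOf H).FiniteIndex := by
    have := hH'.finiteIndex hfin
    infer_instance
  have hinj : Function.Injective (HlcShapiro (𝔉.restrict H) (H'.subgroupOf H)
      (res (H'.subgroupOf H).subtype B) n).hom :=
    (HlcShapiro_bijective (hfin.restrict H) (hH'.subgroupOf 𝔉) n _
      (hB.res_subtype (H'.subgroupOf H))).1
  refine eq_zero_of_HlcRes_eq_zero_of_coprime (𝔉.restrict H) (H'.subgroupOf H) B n hinj hp x hpx ?_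
  set r := (HlcRes (𝔉.restrict H) (H'.subgroupOf H) B n).hom x with hr
  have hpr : p • r = 0 := by
    rw [hr, ← map_nsmul, hpx, map_zero]
  have h0 : (towerEquiv 𝔉 hle B n).symm r = 0 := by
    apply hzero
    rw [← map_nsmul, hpr, map_zero]
  exact (towerEquiv 𝔉 hle B n).symm.map_eq_zero_iff.1 h0

end Engine

section Arith

local notation "Γℚ" => (AlgebraicClosure ℚ ≃ₐ[ℚ] AlgebraicClosure ℚ)

variable {p : ℕ} [Fact p.Prime] {S : Finset Nat.Primes}

/-- **from the cyclo-trivial open subgroups to all open subgroups**: `p`-torsion-freeness of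
`Hlc^n(V', A)`. -/
theorem pTorsionFree_of_cycloTrivial (hpS : pPrime p ∈ S) (A : Rep.{0} ℤ Γℚ)
    (hA : IsSmooth (famS S) A) (n : ℕ)
    (h : ∀ V' : Subgroup Γℚ, IsOpenFor (famS S) V' → (∀ s ∈ V', cycloChar p s = 1) →
      ∀ c : Hlc ((famS S).restrict V') (res V'.subtype A) n, p • c = 0 → c = 0)
    (V' : Subgroup Γℚ) (hV' : IsOpenFor (famS S) V')
    (c : Hlc ((famS S).restrict V') (res V'.subtype A) n) (hc : p • c = 0) : c = 0 := by
  have hle : V' ⊓ (cycloChar p).ker ≤ V' := inf_le_left
  have hopen := isOpenFor_inf_cycloKer (p := p) hpS hV'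
  refine towerP_eq_zero_of_coprime hle (baseCount_famS_finiteIndex S) hopen (res V'.subtype A)
    (hA.res_subtype V') (coprime_relIndex_inf_cycloKer V') n ?_ c hc
  exact h (V' ⊓ (cycloChar p).ker) hopen fun s hs => MonoidHom.mem_ker.1 hs.2

end Arith

end Fermat.Agent.PT
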