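/-
S55 engine (GT5): level-constant cohomology as a colimit over *sub-levels*.

For a representation `A` of `G` with level family `𝔉` (of finite index) and a system `𝔅` of
submodules `B U ≤ A^U` (`U ∈ 𝔉`), `G`-stable, increasing for decreasing `U`, exhausting `A`, the
groups `Hlc^n(𝔉, A)` are the colimit of the finite-level groups `H^n(G ⧸ U, B U)`:
* `SubLevels.exists_subInfl_eq` : every class of `Hlc` comes from some `H^n(G ⧸ U, B U)`;
* `SubLevels.exists_subTrans_eq_zero` : a class of `H^(n+1)(G ⧸ U, B U)` dying in `Hlc` dies in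
  some `H^(n+1)(G ⧸ W, B W)`.
Application: `A = C = J / E`, `B U =` image of `J^U`.
-/
import Fermat.Agent.CFT.PT.FiniteLevelLimit
import Fermat.Agent.CFT.PT.SmoothLES

set_option autoImplicit false

namespace Fermat.Agent.PT

open CategoryTheory groupCohomology Rep

universe u

variable {k G : Type u} [CommRing k] [Group G]

/-- a system of finite-level submodules of `A`. -/
structure SubLevels (𝔉 : LevelFamily G) (A : Rep.{u} k G) where
  /-- the submodule of level `U` -/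
  B : ↥𝔉.sets → Submodule k A
  fixed : ∀ (U : ↥𝔉.sets) (a : A), a ∈ B U → ∀ u ∈ (U : Subgroup G), A.ρ u a = a
  stable : ∀ (U : ↥𝔉.sets) (g : G) (a : A), a ∈ B U → A.ρ g a ∈ B U
  mono : ∀ U V : ↥𝔉.sets, (V : Subgroup G) ≤ U → B U ≤ B V
  exhaust : ∀ a : A, ∃ U : ↥𝔉.sets, a ∈ B U

namespace SubLevels

variable {𝔉 : LevelFamily G} {A : Rep.{u} k G} (𝔅 : SubLevels 𝔉 A)

section Rep

variable (U : ↥𝔉.sets)

/-- the action of `G` on `B U`. -/
def ρG : Representation k G (𝔅.B U) where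
  toFun g := (A.ρ g).restrict fun a ha => 𝔅.stable U g a ha
  map_one' := by
    ext a
    simp
  map_mul' g h := by
    ext a
    simp

theorem ρG_apply_coe (g : G) (b : 𝔅.B U) : ((𝔅.ρG U g b : 𝔅.B U) : A) = A.ρ g b.1 := rfl

theorem le_ker_ρG : (U : Subgroup G) ≤ (𝔅.ρG U).ker := by
  intro u hu
  rw [MonoidHom.mem_ker]
  ext b
  exact 𝔅.fixed U b.1 b.2 u hu

/-- the action of `G ⧸ U` on `B U`. -/
def ρQ : Representation k (G ⧸ (U : Subgroup G)) (𝔅.B U) :=
  QuotientGroup.lift (U : Subgroup G) (𝔅.ρG U) (𝔅.le_ker_ρG U)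

/-- `B U` as a representation of `G ⧸ U`. -/
noncomputable def rep : Rep.{u} k (G ⧸ (U : Subgroup G)) := Rep.of (𝔅.ρQ U)

theorem rep_ρ_mk_coe (g : G) (b : 𝔅.B U) :
    Subtype.val (p := fun a => a ∈ 𝔅.B U) ((𝔅.rep U).ρ (g : G ⧸ (U : Subgroup G)) b) =
      A.ρ g b.1 := rfl

/-- the inclusion `B U ⊆ A^U`, as a linear map. -/
def inclLin : 𝔅.B U →ₗ[k] A.quotientToInvariants (U : Subgroup G) where
  toFun b := ⟨b.1, fun u => 𝔅.fixed U b.1 b.2 u.1 u.2⟩
  map_add' _ _ := rfl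
  map_smul' _ _ := rfl

/-- the inclusion `B U ⊆ A^U`. -/
noncomputable def incl : 𝔅.rep U ⟶ A.quotientToInvariants (U : Subgroup G) :=
  Rep.ofHom ⟨𝔅.inclLin U, fun g => QuotientGroup.induction_on g fun g => by
    ext b
    rfl⟩

theorem incl_apply_coe (b : 𝔅.B U) :
    (((𝔅.incl U).hom b : A.quotientToInvariants (U : Subgroup G)) : A) = b.1 := rfl

theorem incl_injective : Function.Injective (𝔅.incl U).hom := by
  intro b b' h
  exact Subtype.ext (congrArg (fun x : A.quotientToInvariants (U : Subgroup G) => (x : A)) h)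

end Rep

section Trans

variable {U V W : ↥𝔉.sets}

/-- the inclusion `B U ⊆ B V` over `G ⧸ V ⟶ G ⧸ U`. -/
noncomputable def trans (hVU : (V : Subgroup G) ≤ U) :
    res (quotMap hVU) (𝔅.rep U) ⟶ 𝔅.rep V :=
  Rep.ofHom ⟨Submodule.inclusion (𝔅.mono U V hVU), fun g => QuotientGroup.induction_on g fun g => by
    ext b
    rfl⟩

theorem trans_apply_coe (hVU : (V : Subgroup G) ≤ U) (b : 𝔅.B U) :
    Subtype.val (p := fun a => a ∈ 𝔅.B V) ((𝔅.trans hVU).hom b) = b.1 := rfl

/-- the transition map `H^n(G ⧸ U, B U) ⟶ H^n(G ⧸ V, B V)`. -/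
noncomputable abbrev subTrans (hVU : (V : Subgroup G) ≤ U) (n : ℕ) :
    groupCohomology (𝔅.rep U) n ⟶ groupCohomology (𝔅.rep V) n :=
  groupCohomology.map (quotMap hVU) (𝔅.trans hVU) n

variable (U) in
/-- the map `H^n(G ⧸ U, B U) ⟶ H^n(G ⧸ U, A^U)`. -/
noncomputable abbrev subIncl (n : ℕ) : groupCohomology (𝔅.rep U) n ⟶ Hfin 𝔉 A U n :=
  groupCohomology.map (MonoidHom.id (G ⧸ (U : Subgroup G))) (𝔅.incl U) n

theorem cochainsMap_trans_comp_incl (hVU : (V : Subgroup G) ≤ U) :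
    cochainsMap (quotMap hVU) (𝔅.trans hVU) ≫
        cochainsMap (MonoidHom.id (G ⧸ (V : Subgroup G))) (𝔅.incl V) =
      cochainsMap (MonoidHom.id (G ⧸ (U : Subgroup G))) (𝔅.incl U) ≫
        cochainsMap (quotMap hVU) (invIncl A hVU) := by
  ext n f : 3
  rfl

@[reassoc]
theorem subTrans_comp_subIncl (hVU : (V : Subgroup G) ≤ U) (n : ℕ) :
    𝔅.subTrans hVU n ≫ 𝔅.subIncl V n = 𝔅.subIncl U n ≫ inflUV A hVU n :=
  (HomologicalComplex.homologyMap_comp _ _ n).symm.trans
    ((congrArg (fun f => HomologicalComplex.homologyMap f n)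
      (𝔅.cochainsMap_trans_comp_incl hVU)).trans (HomologicalComplex.homologyMap_comp _ _ n))

theorem subIncl_subTrans_apply (hVU : (V : Subgroup G) ≤ U) (n : ℕ)
    (b : groupCohomology (𝔅.rep U) n) :
    (𝔅.subIncl V n).hom ((𝔅.subTrans hVU n).hom b) =
      (inflUV A hVU n).hom ((𝔅.subIncl U n).hom b) :=
  congr($(𝔅.subTrans_comp_subIncl hVU n) b)

theorem cochainsMap_trans_comp_trans (hVU : (V : Subgroup G) ≤ U) (hWV : (W : Subgroup G) ≤ V) :
    cochainsMap (quotMap hVU) (𝔅.trans hVU) ≫ cochainsMap (quotMap hWV) (𝔅.trans hWV) =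
      cochainsMap (quotMap (hWV.trans hVU)) (𝔅.trans (hWV.trans hVU)) := by
  ext n f : 3
  funext g
  apply Subtype.ext
  change Subtype.val (p := fun a => a ∈ 𝔅.B U) (f fun i => quotMap hVU (quotMap hWV (g i))) =
    Subtype.val (p := fun a => a ∈ 𝔅.B U) (f fun i => quotMap (hWV.trans hVU) (g i))
  have h : (fun i => quotMap hVU (quotMap hWV (g i))) =
      fun i => quotMap (hWV.trans hVU) (g i) := funext fun i => quotMap_quotMap hVU hWV (g i)
  rw [h]

theorem subTrans_comp (hVU : (V : Subgroup G) ≤ U) (hWV : (W : Subgroup G) ≤ V) (n : ℕ) :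
    𝔅.subTrans hVU n ≫ 𝔅.subTrans hWV n = 𝔅.subTrans (hWV.trans hVU) n :=
  (HomologicalComplex.homologyMap_comp _ _ n).symm.trans
    (congrArg (fun f => HomologicalComplex.homologyMap f n)
      (𝔅.cochainsMap_trans_comp_trans hVU hWV))

theorem subTrans_subTrans_apply (hVU : (V : Subgroup G) ≤ U) (hWV : (W : Subgroup G) ≤ V) (n : ℕ)
    (b : groupCohomology (𝔅.rep U) n) :
    (𝔅.subTrans hWV n).hom ((𝔅.subTrans hVU n).hom b) = (𝔅.subTrans (hWV.trans hVU) n).hom b :=
  congr($(𝔅.subTrans_comp hVU hWV n) b)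

variable (U) in
/-- inflation from the sub-level `B U` to `Hlc`. -/
noncomputable def subInfl (n : ℕ) : groupCohomology (𝔅.rep U) n ⟶ Hlc 𝔉 A n :=
  𝔅.subIncl U n ≫ HlcInfl 𝔉 A U n

theorem subInfl_apply (n : ℕ) (b : groupCohomology (𝔅.rep U) n) :
    (𝔅.subInfl U n).hom b = (HlcInfl 𝔉 A U n).hom ((𝔅.subIncl U n).hom b) := rfl

theorem subInfl_subTrans_apply (hVU : (V : Subgroup G) ≤ U) (n : ℕ)
    (b : groupCohomology (𝔅.rep U) n) :
    (𝔅.subInfl V n).hom ((𝔅.subTrans hVU n).hom b) = (𝔅.subInfl U n).hom b := by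
  rw [subInfl_apply, subInfl_apply, subIncl_subTrans_apply, HlcInfl_inflUV_apply]

end Trans

section Main

variable (hfin : 𝔉.FiniteIndex)

include hfin in
/-- finitely many elements of `A` lie in a common sub-level below a given level. -/
theorem exists_level_forall_mem {ι : Type*} [Finite ι] (a : ι → A) (U₀ : ↥𝔉.sets) :
    ∃ (W : ↥𝔉.sets) (_ : (W : Subgroup G) ≤ U₀), ∀ i, a i ∈ 𝔅.B W := by
  classical
  haveI := Fintype.ofFinite ι
  choose Ui hUi using fun i => 𝔅.exhaust (a i)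
  obtain ⟨W₀, hW₀, hW₀le⟩ := exists_le_of_finset 𝔉.nonempty 𝔉.directed (Finset.univ : Finset ι)
    (fun i => ((Ui i : ↥𝔉.sets) : Subgroup G)) (fun i _ => (Ui i).2)
  obtain ⟨W, hW, hWle⟩ := 𝔉.directed W₀ hW₀ U₀ U₀.2
  refine ⟨⟨W, hW⟩, hWle.trans inf_le_right, fun i => ?_⟩
  exact 𝔅.mono (Ui i) ⟨W, hW⟩ ((hWle.trans inf_le_left).trans (hW₀le i (Finset.mem_univ i))) (hUi i)

theorem cochainsMap_incl_injective (U : ↥𝔉.sets) (n : ℕ) :
    Function.Injective
      ((cochainsMap (A := 𝔅.rep U) (B := A.quotientToInvariants (U : Subgroup G))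
        (MonoidHom.id (G ⧸ (U : Subgroup G))) (𝔅.incl U)).f n).hom := by
  intro f f' h
  funext q
  exact 𝔅.incl_injective U (congrFun h q)

section Lift

variable {H : Type u} [Group H] {M : Rep.{u} k G} {N : Rep.{u} k H} (ψ : H →* G)
  (φ : res ψ M ⟶ N)

/-- `cochainsMap` commutes with the differentials, on elements. -/
theorem cochainsMap_d_hom_apply {n : ℕ} (f : (Fin n → G) → M) :
    ((cochainsMap ψ φ).f (n + 1)).hom ((inhomogeneousCochains.d M n).hom f) =
      (inhomogeneousCochains.d N n).hom (((cochainsMap ψ φ).f n).hom f) := by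
  have h := (cochainsMap ψ φ).comm n (n + 1)
  rw [inhomogeneousCochains.d_def, inhomogeneousCochains.d_def] at h
  exact (congr($h f)).symm

/-- the class of the image of a cycle. -/
theorem map_homologyπ_apply (n : ℕ) (z : (inhomogeneousCochains M).cycles n) :
    (groupCohomology.map ψ φ n).hom ((inhomogeneousCochains M).homologyπ n z) =
      (inhomogeneousCochains N).homologyπ n
        (HomologicalComplex.cyclesMap (cochainsMap ψ φ) n z) :=
  congr($(HomologicalComplex.homologyπ_naturality (cochainsMap ψ φ) n) z)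

theorem iCycles_cyclesMap_apply (n : ℕ) (z : (inhomogeneousCochains M).cycles n) :
    (inhomogeneousCochains N).iCycles n (HomologicalComplex.cyclesMap (cochainsMap ψ φ) n z) =
      ((cochainsMap ψ φ).f n).hom ((inhomogeneousCochains M).iCycles n z) :=
  congr($(HomologicalComplex.cyclesMap_i (cochainsMap ψ φ) n) z)

theorem d_iCycles_apply (n : ℕ) (z : (inhomogeneousCochains M).cycles n) :
    (inhomogeneousCochains.d M n).hom ((inhomogeneousCochains M).iCycles n z) = 0 := by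
  have h := congr($((inhomogeneousCochains M).iCycles_d n (n + 1)) z)
  rw [inhomogeneousCochains.d_def] at h
  exact h

end Lift

section LiftCochain

variable {U W : ↥𝔉.sets} (hWU : (W : Subgroup G) ≤ U)

/-- a cochain of `G ⧸ U` with values in `A^U`, all in `B W`, as a `B W`-valued cochain of
`G ⧸ W`. -/
def liftCochain (n : ℕ)
    (f : (Fin n → G ⧸ (U : Subgroup G)) → A.quotientToInvariants (U : Subgroup G))
    (hW : ∀ q, ((f q : A.quotientToInvariants (U : Subgroup G)) : A) ∈ 𝔅.B W) :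
    (Fin n → G ⧸ (W : Subgroup G)) → 𝔅.rep W :=
  fun q => (⟨_, hW fun i => quotMap hWU (q i)⟩ : 𝔅.B W)

theorem incl_liftCochain (n : ℕ)
    (f : (Fin n → G ⧸ (U : Subgroup G)) → A.quotientToInvariants (U : Subgroup G))
    (hW : ∀ q, ((f q : A.quotientToInvariants (U : Subgroup G)) : A) ∈ 𝔅.B W) :
    ((cochainsMap (A := 𝔅.rep W) (B := A.quotientToInvariants (W : Subgroup G))
      (MonoidHom.id (G ⧸ (W : Subgroup G))) (𝔅.incl W)).f n).hom (𝔅.liftCochain hWU n f hW) =
      transCochain A hWU n f := by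
  funext q
  apply Subtype.ext
  rfl

theorem d_liftCochain (n : ℕ)
    (f : (Fin n → G ⧸ (U : Subgroup G)) → A.quotientToInvariants (U : Subgroup G))
    (hW : ∀ q, ((f q : A.quotientToInvariants (U : Subgroup G)) : A) ∈ 𝔅.B W)
    (f₁ : (Fin (n + 1) → G ⧸ (W : Subgroup G)) → 𝔅.rep W)
    (hf₁ : ((cochainsMap (A := 𝔅.rep W) (B := A.quotientToInvariants (W : Subgroup G))
      (MonoidHom.id (G ⧸ (W : Subgroup G))) (𝔅.incl W)).f (n + 1)).hom f₁ =
      transCochain A hWU (n + 1)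
        ((inhomogeneousCochains.d (A.quotientToInvariants (U : Subgroup G)) n).hom f)) :
    (inhomogeneousCochains.d (𝔅.rep W) n).hom (𝔅.liftCochain hWU n f hW) = f₁ := by
  apply 𝔅.cochainsMap_incl_injective W (n + 1)
  rw [cochainsMap_d_hom_apply, incl_liftCochain, hf₁]
  exact (cochainsMap_d_hom_apply (quotMap hWU) (invIncl A hWU) f).symm

end LiftCochain

include hfin in
/-- **finite-level surjectivity**: every class of `H^n(G ⧸ U, A^U)` comes, after inflation, from a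
sub-level. -/
theorem exists_subIncl_eq_inflUV (U : ↥𝔉.sets) (n : ℕ) (y : Hfin 𝔉 A U n) :
    ∃ (W : ↥𝔉.sets) (hWU : (W : Subgroup G) ≤ U) (b : groupCohomology (𝔅.rep W) n),
      (𝔅.subIncl W n).hom b = (inflUV A hWU n).hom y := by
  haveI := hfin U U.2
  haveI : Finite (G ⧸ (U : Subgroup G)) := Subgroup.finite_quotient_of_finiteIndex
  obtain ⟨z, rfl⟩ := (ModuleCat.epi_iff_surjective
    ((inhomogeneousCochains (A.quotientToInvariants (U : Subgroup G))).homologyπ n)).1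
    inferInstance y
  set f := (inhomogeneousCochains (A.quotientToInvariants (U : Subgroup G))).iCycles n z with hf
  have hdf : (inhomogeneousCochains.d (A.quotientToInvariants (U : Subgroup G)) n).hom f = 0 :=
    d_iCycles_apply n z
  obtain ⟨W, hWU, hW⟩ := 𝔅.exists_level_forall_mem hfin
    (fun q : Fin n → G ⧸ (U : Subgroup G) => ((f q : A.quotientToInvariants (U : Subgroup G)) : A))
    U
  have hdf' : (inhomogeneousCochains.d (𝔅.rep W) n).hom (𝔅.liftCochain hWU n f hW) = 0 := by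
    refine 𝔅.d_liftCochain hWU n f hW 0 ?_
    rw [hdf, map_zero]
    exact (map_zero _).symm
  refine ⟨W, hWU, (inhomogeneousCochains (𝔅.rep W)).homologyπ n
    (cocyclesMk (𝔅.liftCochain hWU n f hW) hdf'), ?_⟩
  rw [map_homologyπ_apply, map_homologyπ_apply]
  congr 1
  apply (ModuleCat.mono_iff_injective
    ((inhomogeneousCochains (A.quotientToInvariants (W : Subgroup G))).iCycles n)).1 inferInstance
  rw [iCycles_cyclesMap_apply, iCycles_cyclesMap_apply]
  have h5 : (inhomogeneousCochains (𝔅.rep W)).iCycles n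
      (cocyclesMk (𝔅.liftCochain hWU n f hW) hdf') = 𝔅.liftCochain hWU n f hW :=
    iCocycles_mk _ hdf'
  rw [h5, incl_liftCochain]

include hfin in
/-- **finite-level kernel**: a class of a sub-level dying in `H^(n+1)(G ⧸ V, A^V)` dies at a
smaller sub-level. -/
theorem exists_subTrans_eq_zero_of_subIncl (V : ↥𝔉.sets) (n : ℕ)
    (b : groupCohomology (𝔅.rep V) (n + 1)) (hb : (𝔅.subIncl V (n + 1)).hom b = 0) :
    ∃ (W : ↥𝔉.sets) (hWV : (W : Subgroup G) ≤ V), (𝔅.subTrans hWV (n + 1)).hom b = 0 := by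
  haveI := hfin V V.2
  haveI : Finite (G ⧸ (V : Subgroup G)) := Subgroup.finite_quotient_of_finiteIndex
  obtain ⟨z, rfl⟩ := (ModuleCat.epi_iff_surjective
    ((inhomogeneousCochains (𝔅.rep V)).homologyπ (n + 1))).1 inferInstance b
  set f := (inhomogeneousCochains (𝔅.rep V)).iCycles (n + 1) z with hf
  rw [map_homologyπ_apply] at hb
  obtain ⟨g, hg⟩ := (homologyπ_eq_zero_iff
    (inhomogeneousCochains (A.quotientToInvariants (V : Subgroup G))) n _).1 hb
  rw [iCycles_cyclesMap_apply, inhomogeneousCochains.d_def] at hg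
  obtain ⟨W, hWV, hW⟩ := 𝔅.exists_level_forall_mem hfin
    (fun q : Fin n → G ⧸ (V : Subgroup G) => ((g q : A.quotientToInvariants (V : Subgroup G)) : A))
    V
  refine ⟨W, hWV, ?_⟩
  rw [map_homologyπ_apply]
  refine (homologyπ_eq_zero_iff (inhomogeneousCochains (𝔅.rep W)) n _).2
    ⟨𝔅.liftCochain hWV n g hW, ?_⟩
  rw [iCycles_cyclesMap_apply, inhomogeneousCochains.d_def]
  refine 𝔅.d_liftCochain hWV n g hW _ ?_
  have hg' : (inhomogeneousCochains.d (A.quotientToInvariants (V : Subgroup G)) n).hom g =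
      ((cochainsMap (A := 𝔅.rep V) (B := A.quotientToInvariants (V : Subgroup G))
        (MonoidHom.id (G ⧸ (V : Subgroup G))) (𝔅.incl V)).f (n + 1)).hom f := hg
  rw [hg']
  rfl

include hfin in
/-- **(Sub-surj)** every class of `Hlc` comes from a sub-level. -/
theorem exists_subInfl_eq (n : ℕ) (x : Hlc 𝔉 A n) :
    ∃ (U : ↥𝔉.sets) (b : groupCohomology (𝔅.rep U) n), (𝔅.subInfl U n).hom b = x := by
  obtain ⟨U, y, rfl⟩ := exists_HlcInfl_eq 𝔉 A n x
  obtain ⟨W, hWU, b, hb⟩ := 𝔅.exists_subIncl_eq_inflUV hfin U n y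
  exact ⟨W, b, by rw [subInfl_apply, hb, HlcInfl_inflUV_apply]⟩

include hfin in
/-- **(Sub-ker)** a class of a sub-level dying in `Hlc` dies at a smaller sub-level. -/
theorem exists_subTrans_eq_zero (U : ↥𝔉.sets) (n : ℕ)
    (b : groupCohomology (𝔅.rep U) (n + 1)) (hb : (𝔅.subInfl U (n + 1)).hom b = 0) :
    ∃ (W : ↥𝔉.sets) (hWU : (W : Subgroup G) ≤ U), (𝔅.subTrans hWU (n + 1)).hom b = 0 := by
  rw [subInfl_apply] at hb
  obtain ⟨V, hVU, hV⟩ := exists_inflUV_eq_zero 𝔉 A U n _ hb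
  rw [← subIncl_subTrans_apply] at hV
  obtain ⟨W, hWV, hW⟩ := 𝔅.exists_subTrans_eq_zero_of_subIncl hfin V n _ hV
  exact ⟨W, hWV.trans hVU, by rw [← subTrans_subTrans_apply 𝔅 hVU hWV, hW]⟩

include hfin in
/-- **(Sub-eq)** two classes of sub-levels with the same image in `Hlc` agree at a common smaller
sub-level. -/
theorem exists_subTrans_eq_subTrans {U V : ↥𝔉.sets} (n : ℕ)
    (b : groupCohomology (𝔅.rep U) (n + 1)) (b' : groupCohomology (𝔅.rep V) (n + 1))
    (h : (𝔅.subInfl U (n + 1)).hom b = (𝔅.subInfl V (n + 1)).hom b') :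
    ∃ (W : ↥𝔉.sets) (hWU : (W : Subgroup G) ≤ U) (hWV : (W : Subgroup G) ≤ V),
      (𝔅.subTrans hWU (n + 1)).hom b = (𝔅.subTrans hWV (n + 1)).hom b' := by
  obtain ⟨W₀, hW₀U, hW₀V⟩ := exists_level_le_inf 𝔉 U V
  have h0 : (𝔅.subInfl W₀ (n + 1)).hom
      ((𝔅.subTrans hW₀U (n + 1)).hom b - (𝔅.subTrans hW₀V (n + 1)).hom b') = 0 := by
    rw [map_sub, subInfl_subTrans_apply, subInfl_subTrans_apply, h, sub_self]
  obtain ⟨W, hWW₀, hW⟩ := 𝔅.exists_subTrans_eq_zero hfin W₀ n _ h0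
  refine ⟨W, hWW₀.trans hW₀U, hWW₀.trans hW₀V, ?_⟩
  rw [map_sub, sub_eq_zero] at hW
  rw [← subTrans_subTrans_apply 𝔅 hW₀U hWW₀, ← subTrans_subTrans_apply 𝔅 hW₀V hWW₀]
  exact hW

include hfin in
/-- the `r`-torsion of `Hlc` comes from the `r`-torsion of the sub-levels. -/
theorem exists_subInfl_eq_of_smul_eq_zero (r : k) (n : ℕ) (x : Hlc 𝔉 A (n + 1))
    (hx : r • x = 0) :
    ∃ (U : ↥𝔉.sets) (b : groupCohomology (𝔅.rep U) (n + 1)),
      r • b = 0 ∧ (𝔅.subInfl U (n + 1)).hom b = x := by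
  obtain ⟨U, b, rfl⟩ := 𝔅.exists_subInfl_eq hfin (n + 1) x
  have h1 : (𝔅.subInfl U (n + 1)).hom (r • b) = 0 := by
    rw [map_smul]
    exact hx
  obtain ⟨W, hWU, hW⟩ := 𝔅.exists_subTrans_eq_zero hfin U n (r • b) h1
  refine ⟨W, (𝔅.subTrans hWU (n + 1)).hom b, ?_, 𝔅.subInfl_subTrans_apply hWU (n + 1) b⟩
  rw [← map_smul, hW]

end Main

end SubLevels

end Fermat.Agent.PT
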