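/-
S55 engine (GT5): the sub-levels of a quotient `C = J / E`.

For a surjection `π : J ⟶ C` of representations with `J` smooth, the images `π(J^U)` form a system
of sub-levels of `C` (`imSubLevels`).  The finite-level representation `(imSubLevels ..).rep U` is
`J^U / E^U` when `E = ker π`: `finSC` is the short exact sequence `0 → E^U → J^U → π(J^U) → 0` of
representations of `G ⧸ U`.
-/
import Fermat.Agent.CFT.PT.SubLevels
import Fermat.Agent.CFT.Coh.InfResDelta

set_option autoImplicit false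

namespace Fermat.Agent.PT

open CategoryTheory groupCohomology Rep

universe u

variable {k G : Type u} [CommRing k] [Group G] {𝔉 : LevelFamily G}

section Image

variable {J C : Rep.{u} k G} (π : J ⟶ C)

/-- the image of `J^U` in `C`. -/
def imLevel (U : Subgroup G) : Submodule k C where
  carrier := {c | ∃ j : J, (∀ u ∈ U, J.ρ u j = j) ∧ π.hom j = c}
  zero_mem' := ⟨0, fun u _ => map_zero _, map_zero _⟩
  add_mem' := by
    rintro _ _ ⟨j, hj, rfl⟩ ⟨j', hj', rfl⟩
    exact ⟨j + j', fun u hu => by rw [map_add, hj u hu, hj' u hu], map_add _ _ _⟩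
  smul_mem' := by
    rintro r _ ⟨j, hj, rfl⟩
    exact ⟨r • j, fun u hu => by rw [map_smul, hj u hu], map_smul _ _ _⟩

theorem mem_imLevel {U : Subgroup G} {c : C} :
    c ∈ imLevel π U ↔ ∃ j : J, (∀ u ∈ U, J.ρ u j = j) ∧ π.hom j = c := Iff.rfl

/-- the sub-levels `π(J^U)` of `C`. -/
def imSubLevels (hπ : Function.Surjective π.hom) (hJ : IsSmooth 𝔉 J) : SubLevels 𝔉 C where
  B U := imLevel π (U : Subgroup G)
  fixed := by
    rintro U _ ⟨j, hj, rfl⟩ u hu
    rw [← Rep.hom_comm_apply, hj u hu]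
  stable := by
    rintro U g _ ⟨j, hj, rfl⟩
    refine ⟨J.ρ g j, fun u hu => ?_, Rep.hom_comm_apply π g j⟩
    have h1 : u * g = g * (g⁻¹ * u * g⁻¹⁻¹) := by group
    have h2 : g⁻¹ * u * g⁻¹⁻¹ ∈ (U : Subgroup G) :=
      Subgroup.Normal.conj_mem (𝔉.normal U U.2) u hu g⁻¹
    rw [← Module.End.mul_apply, ← map_mul, h1, map_mul, Module.End.mul_apply, hj _ h2]
  mono := by
    rintro U V hVU _ ⟨j, hj, rfl⟩
    exact ⟨j, fun v hv => hj v (hVU hv), rfl⟩
  exhaust := by
    intro c
    obtain ⟨j, rfl⟩ := hπ c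
    obtain ⟨U, hU, hj⟩ := hJ j
    exact ⟨⟨U, hU⟩, j, hj, rfl⟩

variable (hπ : Function.Surjective π.hom) (hJ : IsSmooth 𝔉 J)

theorem imSubLevels_B (U : ↥𝔉.sets) : (imSubLevels π hπ hJ).B U = imLevel π (U : Subgroup G) := rfl

/-- the projection `J^U → π(J^U)`, as a linear map. -/
def imProjLin (U : ↥𝔉.sets) :
    J.quotientToInvariants (U : Subgroup G) →ₗ[k] (imSubLevels π hπ hJ).B U where
  toFun j := ⟨π.hom j.1, j.1, fun u hu => j.2 ⟨u, hu⟩, rfl⟩
  map_add' j j' := Subtype.ext (map_add π.hom j.1 j'.1)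
  map_smul' r j := Subtype.ext (map_smul π.hom r j.1)

/-- the projection `J^U ⟶ π(J^U)` of representations of `G ⧸ U`. -/
noncomputable def imProj (U : ↥𝔉.sets) :
    J.quotientToInvariants (U : Subgroup G) ⟶ (imSubLevels π hπ hJ).rep U :=
  Rep.ofHom ⟨imProjLin π hπ hJ U, fun g => QuotientGroup.induction_on g fun g => by
    ext j
    exact Rep.hom_comm_apply π g j.1⟩

theorem imProj_apply_coe (U : ↥𝔉.sets) (j : J.quotientToInvariants (U : Subgroup G)) :
    Subtype.val (p := fun c => c ∈ (imSubLevels π hπ hJ).B U) ((imProj π hπ hJ U).hom j) =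
      π.hom (j : J) := rfl

theorem imProj_surjective (U : ↥𝔉.sets) : Function.Surjective (imProj π hπ hJ U).hom := by
  rintro ⟨_, j, hj, rfl⟩
  exact ⟨⟨j, fun u => hj u.1 u.2⟩, rfl⟩

end Image

section SES

variable {X : ShortComplex (Rep.{u} k G)} (hX : X.ShortExact) (hsm : IsSmooth 𝔉 X.X₂)

include hX in
theorem sesSurjective : Function.Surjective X.g.hom := (Rep.epi_iff_surjective X.g).1 hX.epi_g

/-- the sub-levels `g(X₂^U)` of `X₃`. -/
abbrev sesSubLevels : SubLevels 𝔉 X.X₃ := imSubLevels X.g (sesSurjective hX) hsm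

/-- the map `X₁^U ⟶ X₂^U`. -/
noncomputable abbrev finF (U : ↥𝔉.sets) :
    X.X₁.quotientToInvariants (U : Subgroup G) ⟶ X.X₂.quotientToInvariants (U : Subgroup G) :=
  (quotientToInvariantsFunctor k (U : Subgroup G)).map X.f

theorem finF_apply_coe (U : ↥𝔉.sets) (e : X.X₁.quotientToInvariants (U : Subgroup G)) :
    (((finF (X := X) U).hom e : X.X₂.quotientToInvariants (U : Subgroup G)) : X.X₂) =
      X.f.hom (e : X.X₁) := rfl

/-- the map `X₂^U ⟶ g(X₂^U)`. -/
noncomputable abbrev finG (U : ↥𝔉.sets) :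
    X.X₂.quotientToInvariants (U : Subgroup G) ⟶ (sesSubLevels hX hsm).rep U :=
  imProj X.g (sesSurjective hX) hsm U

/-- the finite-level sequence `0 → X₁^U → X₂^U → g(X₂^U) → 0`. -/
noncomputable abbrev finSC (U : ↥𝔉.sets) : ShortComplex (Rep.{u} k (G ⧸ (U : Subgroup G))) :=
  ShortComplex.mk (finF (X := X) U) (finG hX hsm U) (by
    ext e
    apply Subtype.ext
    change X.g.hom (X.f.hom (e : X.X₁)) = 0
    have h := X.zero
    exact congrArg (fun φ => φ.hom (e : X.X₁)) h)

theorem finSC_shortExact (U : ↥𝔉.sets) : (finSC hX hsm U).ShortExact := by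
  have hinj : Function.Injective X.f.hom := (Rep.mono_iff_injective X.f).1 hX.mono_f
  have hM : Mono (finSC hX hsm U).f := by
    rw [Rep.mono_iff_injective]
    intro e e' h
    apply Subtype.ext
    apply hinj
    exact congrArg (fun x : X.X₂.quotientToInvariants (U : Subgroup G) => (x : X.X₂)) h
  have hP : Epi (finSC hX hsm U).g := by
    rw [Rep.epi_iff_surjective]
    exact imProj_surjective X.g (sesSurjective hX) hsm U
  have hE : (finSC hX hsm U).Exact := by
    rw [← ShortComplex.exact_map_iff_of_faithful _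
      (forget₂ (Rep.{u} k (G ⧸ (U : Subgroup G))) (ModuleCat.{u} k)),
      ShortComplex.moduleCat_exact_iff]
    intro j hj
    change X.X₂.quotientToInvariants (U : Subgroup G) at j
    have hj0 : X.g.hom (j : X.X₂) = 0 :=
      congrArg (Subtype.val (p := fun c => c ∈ (sesSubLevels hX hsm).B U)) hj
    obtain ⟨e, he⟩ := exists_of_shortExact_of_g_eq_zero hX _ hj0
    have heU : ∀ u : ↥(U : Subgroup G), (X.X₁.ρ.comp (U : Subgroup G).subtype) u e = e := by
      intro u
      apply hinj
      change X.f.hom (X.X₁.ρ u.1 e) = X.f.hom e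
      rw [Rep.hom_comm_apply, he]
      exact j.2 u
    refine ⟨(⟨e, heU⟩ : X.X₁.quotientToInvariants (U : Subgroup G)), ?_⟩
    apply Subtype.ext
    exact he
  exact { exact := hE, mono_f := hM, epi_g := hP }

end SES

section SESTrans

variable {X : ShortComplex (Rep.{u} k G)} (hX : X.ShortExact) (hsm : IsSmooth 𝔉 X.X₂)
  {U V : ↥𝔉.sets} (hVU : (V : Subgroup G) ≤ U)

theorem finSC_comm₁₂ :
    (resFunctor (quotMap hVU)).map (finSC hX hsm U).f ≫ invIncl X.X₂ hVU =
      invIncl X.X₁ hVU ≫ (finSC hX hsm V).f := by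
  apply Rep.hom_ext
  ext e
  rfl

theorem finSC_comm₂₃ :
    (resFunctor (quotMap hVU)).map (finSC hX hsm U).g ≫ (sesSubLevels hX hsm).trans hVU =
      invIncl X.X₂ hVU ≫ (finSC hX hsm V).g := by
  apply Rep.hom_ext
  ext j
  rfl

/-- **naturality of the finite-level connecting maps** under the transition maps. -/
theorem finSC_δ_naturality (i j : ℕ) (hij : i + 1 = j) :
    groupCohomology.δ (finSC_shortExact hX hsm U) i j hij ≫ inflUV X.X₁ hVU j =
      (sesSubLevels hX hsm).subTrans hVU i ≫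
        groupCohomology.δ (finSC_shortExact hX hsm V) i j hij :=
  Fermat.Agent.CFT.δ_naturality_map (quotMap hVU) (finSC_shortExact hX hsm U)
    (finSC_shortExact hX hsm V) (invIncl X.X₁ hVU) (invIncl X.X₂ hVU)
    ((sesSubLevels hX hsm).trans hVU) (finSC_comm₁₂ hX hsm hVU) (finSC_comm₂₃ hX hsm hVU) i j hij

/-- the transition maps commute with `H^n(X₁^U) → H^n(X₂^U)`. -/
theorem finSC_f_naturality (n : ℕ) :
    groupCohomology.map (MonoidHom.id (G ⧸ (U : Subgroup G))) (finF (X := X) U) n ≫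
        inflUV X.X₂ hVU n =
      inflUV X.X₁ hVU n ≫
        groupCohomology.map (MonoidHom.id (G ⧸ (V : Subgroup G))) (finF (X := X) V) n := by
  have h : cochainsMap (MonoidHom.id (G ⧸ (U : Subgroup G))) (finF (X := X) U) ≫
      cochainsMap (quotMap hVU) (invIncl X.X₂ hVU) =
      cochainsMap (quotMap hVU) (invIncl X.X₁ hVU) ≫
        cochainsMap (MonoidHom.id (G ⧸ (V : Subgroup G))) (finF (X := X) V) := by
    ext n f : 3
    rfl
  exact (HomologicalComplex.homologyMap_comp _ _ n).symm.trans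
    ((congrArg (fun f => HomologicalComplex.homologyMap f n) h).trans
      (HomologicalComplex.homologyMap_comp _ _ n))

/-- the transition maps commute with `H^n(X₂^U) → H^n(g(X₂^U))`. -/
theorem finSC_g_naturality (n : ℕ) :
    groupCohomology.map (MonoidHom.id (G ⧸ (U : Subgroup G))) (finG hX hsm U) n ≫
        (sesSubLevels hX hsm).subTrans hVU n =
      inflUV X.X₂ hVU n ≫
        groupCohomology.map (MonoidHom.id (G ⧸ (V : Subgroup G))) (finG hX hsm V) n := by
  have h : cochainsMap (MonoidHom.id (G ⧸ (U : Subgroup G))) (finG hX hsm U) ≫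
      cochainsMap (quotMap hVU) ((sesSubLevels hX hsm).trans hVU) =
      cochainsMap (quotMap hVU) (invIncl X.X₂ hVU) ≫
        cochainsMap (MonoidHom.id (G ⧸ (V : Subgroup G))) (finG hX hsm V) := by
    ext n f : 3
    rfl
  exact (HomologicalComplex.homologyMap_comp _ _ n).symm.trans
    ((congrArg (fun f => HomologicalComplex.homologyMap f n) h).trans
      (HomologicalComplex.homologyMap_comp _ _ n))

end SESTrans

end Fermat.Agent.PT
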