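/-
S55 engine (GT5): from finite sub-levels to `Hlc`, for a quotient `C = J / E`.

* compatibility of the finite-level sequence `0 → E^U → J^U → π(J^U) → 0` (`finSC`) with the long
  exact sequence of `Hlc` (`HlcInfl_lcH₁₂_apply`, `HlcInfl_lcH₂₃_apply`, `subInfl_lcδ_apply`);
* the three reductions consumed by the global top chase:
  `SubLevels.eq_zero_of_levels` (A1), `exists_lcH₂₃_eq_of_levels` (A5),
  `SubLevels.card_le_of_levels` (C), with natural number forms.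
-/
import Fermat.Agent.CFT.PT.SubLevelsImage
import Fermat.Agent.CFT.PT.SmoothDelta

set_option autoImplicit false

namespace Fermat.Agent.PT

open CategoryTheory groupCohomology Rep

universe u

variable {k G : Type u} [CommRing k] [Group G] {𝔉 : LevelFamily G}

namespace SubLevels

variable {A : Rep.{u} k G} (𝔅 : SubLevels 𝔉 A) (hfin : 𝔉.FiniteIndex)

include hfin in
/-- **(A1)-shape**: if every `r`-torsion class of every sub-level dies at a smaller sub-level, then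
`Hlc` has no `r`-torsion (degree `n + 1`). -/
theorem eq_zero_of_levels (r : k) (n : ℕ)
    (h : ∀ (U : ↥𝔉.sets) (b : groupCohomology (𝔅.rep U) (n + 1)), r • b = 0 →
      ∃ (W : ↥𝔉.sets) (hWU : (W : Subgroup G) ≤ U), (𝔅.subTrans hWU (n + 1)).hom b = 0)
    (x : Hlc 𝔉 A (n + 1)) (hx : r • x = 0) : x = 0 := by
  obtain ⟨U, b, hb, rfl⟩ := 𝔅.exists_subInfl_eq_of_smul_eq_zero hfin r n x hx
  obtain ⟨W, hWU, hW⟩ := h U b hb
  rw [← 𝔅.subInfl_subTrans_apply hWU, hW, map_zero]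

include hfin in
/-- finitely many classes of `Hlc` come from one common sub-level, keeping `r`-torsion. -/
theorem exists_common_level (r : k) (n : ℕ) {ι : Type*} [Finite ι] (c : ι → Hlc 𝔉 A (n + 1))
    (hc : ∀ i, r • c i = 0) :
    ∃ (U : ↥𝔉.sets) (b : ι → groupCohomology (𝔅.rep U) (n + 1)),
      (∀ i, r • b i = 0) ∧ ∀ i, (𝔅.subInfl U (n + 1)).hom (b i) = c i := by
  classical
  haveI := Fintype.ofFinite ι
  choose Ui bi hbi hci using fun i => 𝔅.exists_subInfl_eq_of_smul_eq_zero hfin r n (c i) (hc i)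
  obtain ⟨W, hW, hWle⟩ := exists_le_of_finset 𝔉.nonempty 𝔉.directed (Finset.univ : Finset ι)
    (fun i => ((Ui i : ↥𝔉.sets) : Subgroup G)) (fun i _ => (Ui i).2)
  refine ⟨⟨W, hW⟩, fun i => (𝔅.subTrans (U := Ui i) (V := ⟨W, hW⟩)
    (hWle i (Finset.mem_univ i)) (n + 1)).hom (bi i), fun i => ?_, fun i => ?_⟩
  · rw [← map_smul, hbi i, map_zero]
  · rw [𝔅.subInfl_subTrans_apply, hci i]

include hfin in
/-- **(C)-shape**: if among any `m + 1` `r`-torsion classes of a sub-level two agree at a smaller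
sub-level, then `Hlc` has at most `m` classes killed by `r` (degree `n + 1`). -/
theorem card_le_of_levels (r : k) (n m : ℕ)
    (h : ∀ (U : ↥𝔉.sets) (b : Fin (m + 1) → groupCohomology (𝔅.rep U) (n + 1)),
      (∀ i, r • b i = 0) → ∃ (W : ↥𝔉.sets) (hWU : (W : Subgroup G) ≤ U) (i j : Fin (m + 1)),
        i ≠ j ∧ (𝔅.subTrans hWU (n + 1)).hom (b i) = (𝔅.subTrans hWU (n + 1)).hom (b j))
    (s : Finset (Hlc 𝔉 A (n + 1))) (hs : ∀ c ∈ s, r • c = 0) : s.card ≤ m := by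
  by_contra hcon
  have hle : m + 1 ≤ s.card := by omega
  let c : Fin (m + 1) → Hlc 𝔉 A (n + 1) := fun i => (s.equivFin.symm (Fin.castLE hle i)).1
  have hcinj : Function.Injective c := by
    intro i j hij
    have h1 : s.equivFin.symm (Fin.castLE hle i) = s.equivFin.symm (Fin.castLE hle j) :=
      Subtype.ext hij
    exact Fin.castLE_injective hle (s.equivFin.symm.injective h1)
  have hc : ∀ i, r • c i = 0 := fun i => hs _ (s.equivFin.symm (Fin.castLE hle i)).2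
  obtain ⟨U, b, hb, hbc⟩ := 𝔅.exists_common_level hfin r n c hc
  obtain ⟨W, hWU, i, j, hij, hW⟩ := h U b hb
  apply hij
  apply hcinj
  rw [← hbc i, ← hbc j, ← 𝔅.subInfl_subTrans_apply hWU, ← 𝔅.subInfl_subTrans_apply hWU (n + 1) (b j),
    hW]

include hfin in
/-- natural number form of `eq_zero_of_levels`. -/
theorem eq_zero_of_levels_nat (p n : ℕ)
    (h : ∀ (U : ↥𝔉.sets) (b : groupCohomology (𝔅.rep U) (n + 1)), p • b = 0 →
      ∃ (W : ↥𝔉.sets) (hWU : (W : Subgroup G) ≤ U), (𝔅.subTrans hWU (n + 1)).hom b = 0)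
    (x : Hlc 𝔉 A (n + 1)) (hx : p • x = 0) : x = 0 := by
  refine 𝔅.eq_zero_of_levels hfin (p : k) n (fun U b hb => h U b ?_) x ?_
  · rw [Nat.cast_smul_eq_nsmul k] at hb
    exact hb
  · rw [Nat.cast_smul_eq_nsmul k]
    exact hx

include hfin in
/-- natural number form of `card_le_of_levels`. -/
theorem card_le_of_levels_nat (p n m : ℕ)
    (h : ∀ (U : ↥𝔉.sets) (b : Fin (m + 1) → groupCohomology (𝔅.rep U) (n + 1)),
      (∀ i, p • b i = 0) → ∃ (W : ↥𝔉.sets) (hWU : (W : Subgroup G) ≤ U) (i j : Fin (m + 1)),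
        i ≠ j ∧ (𝔅.subTrans hWU (n + 1)).hom (b i) = (𝔅.subTrans hWU (n + 1)).hom (b j))
    (s : Finset (Hlc 𝔉 A (n + 1))) (hs : ∀ c ∈ s, p • c = 0) : s.card ≤ m := by
  refine 𝔅.card_le_of_levels hfin (p : k) n m (fun U b hb => h U b fun i => ?_) s fun c hc => ?_
  · have := hb i
    rw [Nat.cast_smul_eq_nsmul k] at this
    exact this
  · rw [Nat.cast_smul_eq_nsmul k]
    exact hs c hc

end SubLevels

section SES

variable {X : ShortComplex (Rep.{u} k G)} (hfin : 𝔉.FiniteIndex) (hX : X.ShortExact)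
  (hsm : IsSmooth 𝔉 X.X₂)

theorem lcInfl_comp_lcMap_f (U : ↥𝔉.sets) :
    lcInfl 𝔉 X.X₁ U ≫ lcMap (MonoidHom.id G) X.f 𝔉.compat_id =
      cochainsMap (MonoidHom.id (G ⧸ (U : Subgroup G))) (finF (X := X) U) ≫
        lcInfl 𝔉 X.X₂ U := by
  ext n f : 3
  apply lcX_ext
  funext g
  rfl

theorem lcInfl_comp_lcMap_g (U : ↥𝔉.sets) :
    lcInfl 𝔉 X.X₂ U ≫ lcMap (MonoidHom.id G) X.g 𝔉.compat_id =
      cochainsMap (MonoidHom.id (G ⧸ (U : Subgroup G))) (finG hX hsm U) ≫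
        (cochainsMap (MonoidHom.id (G ⧸ (U : Subgroup G))) ((sesSubLevels hX hsm).incl U) ≫
          lcInfl 𝔉 X.X₃ U) := by
  ext n f : 3
  apply lcX_ext
  funext g
  rfl

/-- `Hlc^n(X₁) → Hlc^n(X₂)` on classes of a finite level. -/
theorem HlcInfl_lcH₁₂_apply (U : ↥𝔉.sets) (n : ℕ) (e : Hfin 𝔉 X.X₁ U n) :
    (lcH₁₂ 𝔉 X n).hom ((HlcInfl 𝔉 X.X₁ U n).hom e) =
      (HlcInfl 𝔉 X.X₂ U n).hom ((groupCohomology.map (MonoidHom.id (G ⧸ (U : Subgroup G)))
        (finF (X := X) U) n).hom e) := by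
  have h : HlcInfl 𝔉 X.X₁ U n ≫ lcH₁₂ 𝔉 X n =
      groupCohomology.map (MonoidHom.id (G ⧸ (U : Subgroup G))) (finF (X := X) U) n ≫
        HlcInfl 𝔉 X.X₂ U n :=
    (HomologicalComplex.homologyMap_comp _ _ n).symm.trans
      ((congrArg (fun f => HomologicalComplex.homologyMap f n)
        (lcInfl_comp_lcMap_f (X := X) U)).trans (HomologicalComplex.homologyMap_comp _ _ n))
  exact congr($h e)

theorem HlcInfl_comp_lcH₂₃_aux (U : ↥𝔉.sets) (n : ℕ)
    (a : inhomogeneousCochains (X.X₂.quotientToInvariants (U : Subgroup G)) ⟶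
      inhomogeneousCochains ((sesSubLevels hX hsm).rep U))
    (hc : lcInfl 𝔉 X.X₂ U ≫ lcMap (MonoidHom.id G) X.g 𝔉.compat_id =
      a ≫ (cochainsMap (MonoidHom.id (G ⧸ (U : Subgroup G))) ((sesSubLevels hX hsm).incl U) ≫
        lcInfl 𝔉 X.X₃ U)) :
    HlcInfl 𝔉 X.X₂ U n ≫ lcH₂₃ 𝔉 X n =
      HomologicalComplex.homologyMap a n ≫ (sesSubLevels hX hsm).subInfl U n := by
  have e1 : HlcInfl 𝔉 X.X₂ U n ≫ lcH₂₃ 𝔉 X n =
      HomologicalComplex.homologyMap
        (lcInfl 𝔉 X.X₂ U ≫ lcMap (MonoidHom.id G) X.g 𝔉.compat_id) n :=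
    (HomologicalComplex.homologyMap_comp _ _ n).symm
  rw [e1, hc, HomologicalComplex.homologyMap_comp, HomologicalComplex.homologyMap_comp]
  rfl

/-- `Hlc^n(X₂) → Hlc^n(X₃)` on classes of a finite level. -/
theorem HlcInfl_lcH₂₃_apply (U : ↥𝔉.sets) (n : ℕ) (y : Hfin 𝔉 X.X₂ U n) :
    (lcH₂₃ 𝔉 X n).hom ((HlcInfl 𝔉 X.X₂ U n).hom y) =
      ((sesSubLevels hX hsm).subInfl U n).hom
        ((groupCohomology.map (MonoidHom.id (G ⧸ (U : Subgroup G)))
          (finG hX hsm U) n).hom y) := by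
  have h := HlcInfl_comp_lcH₂₃_aux hX hsm U n _ (lcInfl_comp_lcMap_g hX hsm U)
  exact congr($h y)

/-- the morphism from the finite-level short exact sequence of complexes to the level-constant
one. -/
noncomputable def finSCToLc (U : ↥𝔉.sets) :
    (finSC hX hsm U).map (cochainsFunctor k (G ⧸ (U : Subgroup G))) ⟶ lcShortComplex 𝔉 X where
  τ₁ := lcInfl 𝔉 X.X₁ U
  τ₂ := lcInfl 𝔉 X.X₂ U
  τ₃ := cochainsMap (MonoidHom.id (G ⧸ (U : Subgroup G))) ((sesSubLevels hX hsm).incl U) ≫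
    lcInfl 𝔉 X.X₃ U
  comm₁₂ := (lcInfl_comp_lcMap_f (X := X) U).symm
  comm₂₃ := (lcInfl_comp_lcMap_g hX hsm U).symm

/-- **the connecting maps** of the finite level and of `Hlc` are compatible. -/
theorem δ_comp_HlcInfl (U : ↥𝔉.sets) (i j : ℕ) (hij : i + 1 = j) :
    groupCohomology.δ (finSC_shortExact hX hsm U) i j hij ≫ HlcInfl 𝔉 X.X₁ U j =
      (sesSubLevels hX hsm).subInfl U i ≫ lcδ hfin hX hsm i j hij := by
  have h := HomologicalComplex.HomologySequence.δ_naturality (finSCToLc hX hsm U)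
    (map_cochainsFunctor_shortExact (finSC_shortExact hX hsm U))
    (lcShortComplex_shortExact hfin hX hsm) i j hij
  have h3 : HomologicalComplex.homologyMap (finSCToLc hX hsm U).τ₃ i =
      (sesSubLevels hX hsm).subInfl U i := HomologicalComplex.homologyMap_comp _ _ i
  exact h.trans (congrArg (fun f => f ≫ lcδ hfin hX hsm i j hij) h3)

theorem subInfl_lcδ_apply (U : ↥𝔉.sets) (i j : ℕ) (hij : i + 1 = j)
    (b : groupCohomology ((sesSubLevels hX hsm).rep U) i) :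
    (lcδ hfin hX hsm i j hij).hom (((sesSubLevels hX hsm).subInfl U i).hom b) =
      (HlcInfl 𝔉 X.X₁ U j).hom
        ((groupCohomology.δ (finSC_shortExact hX hsm U) i j hij).hom b) :=
  congr($(δ_comp_HlcInfl hfin hX hsm U i j hij) b).symm

include hfin in
/-- **(A5)-shape**: if every `r`-torsion class of every sub-level `g(X₂^U)` lifts, at a smaller
level, to an `r`-torsion class of `X₂^W`, then every `r`-torsion class of `Hlc(X₃)` lifts to an
`r`-torsion class of `Hlc(X₂)` (degree `n + 1`). -/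
theorem exists_lcH₂₃_eq_of_levels (r : k) (n : ℕ)
    (h : ∀ (U : ↥𝔉.sets) (b : groupCohomology ((sesSubLevels hX hsm).rep U) (n + 1)), r • b = 0 →
      ∃ (W : ↥𝔉.sets) (hWU : (W : Subgroup G) ≤ U) (y : Hfin 𝔉 X.X₂ W (n + 1)), r • y = 0 ∧
        (groupCohomology.map (MonoidHom.id (G ⧸ (W : Subgroup G)))
          (finG hX hsm W) (n + 1)).hom y = ((sesSubLevels hX hsm).subTrans hWU (n + 1)).hom b)
    (c : Hlc 𝔉 X.X₃ (n + 1)) (hc : r • c = 0) :
    ∃ y : Hlc 𝔉 X.X₂ (n + 1), r • y = 0 ∧ (lcH₂₃ 𝔉 X (n + 1)).hom y = c := by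
  obtain ⟨U, b, hb, rfl⟩ :=
    (sesSubLevels hX hsm).exists_subInfl_eq_of_smul_eq_zero hfin r n c hc
  obtain ⟨W, hWU, y, hy, hyb⟩ := h U b hb
  refine ⟨(HlcInfl 𝔉 X.X₂ W (n + 1)).hom y, ?_, ?_⟩
  · rw [← map_smul, hy, map_zero]
  · rw [HlcInfl_lcH₂₃_apply hX hsm, hyb, (sesSubLevels hX hsm).subInfl_subTrans_apply]

include hfin in
/-- natural number form of `exists_lcH₂₃_eq_of_levels`. -/
theorem exists_lcH₂₃_eq_of_levels_nat (p n : ℕ)
    (h : ∀ (U : ↥𝔉.sets) (b : groupCohomology ((sesSubLevels hX hsm).rep U) (n + 1)), p • b = 0 →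
      ∃ (W : ↥𝔉.sets) (hWU : (W : Subgroup G) ≤ U) (y : Hfin 𝔉 X.X₂ W (n + 1)), p • y = 0 ∧
        (groupCohomology.map (MonoidHom.id (G ⧸ (W : Subgroup G)))
          (finG hX hsm W) (n + 1)).hom y = ((sesSubLevels hX hsm).subTrans hWU (n + 1)).hom b)
    (c : Hlc 𝔉 X.X₃ (n + 1)) (hc : p • c = 0) :
    ∃ y : Hlc 𝔉 X.X₂ (n + 1), p • y = 0 ∧ (lcH₂₃ 𝔉 X (n + 1)).hom y = c := by
  obtain ⟨y, hy, hyc⟩ := exists_lcH₂₃_eq_of_levels hfin hX hsm (p : k) n (fun U b hb => by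
    rw [Nat.cast_smul_eq_nsmul k] at hb
    obtain ⟨W, hWU, y, hy, hyb⟩ := h U b hb
    refine ⟨W, hWU, y, ?_, hyb⟩
    rw [Nat.cast_smul_eq_nsmul k]
    exact hy) c (by
      rw [Nat.cast_smul_eq_nsmul k]
      exact hc)
  refine ⟨y, ?_, hyc⟩
  rw [Nat.cast_smul_eq_nsmul k] at hy
  exact hy

end SES

end Fermat.Agent.PT
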