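/-
S55 bridge (K8), model-free Rep-level half: from "theta maps" on the local factors of an idele-like
product to the jointly bijective family `θ v : J ⟶ smCoind (𝔏.ψ v) 𝔉 (B v)` consumed by
`PT/SmoothCoindTop.lean` / `PT/SmoothCoindAssembly.lean`.

INPUT (abstract): a local system `𝔏` over `(G, 𝔉)`, local modules `B v : Rep ℤ (𝔏.Gv v)`, for every
place `v` a commutative group `X v` with an action of `G` by automorphisms and a map
`Θ v : X v → G → B v` which is multiplicative-to-additive, injective, turns the action into right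
translation, is `ψ_v`-equivariant, and hits every smooth equivariant function.
OUTPUT: `thA_J` = the `𝔉`-smooth vectors of `∏ v, X v` as a `Rep ℤ G`, `thA_theta v`, and
`thA_theta_bijective`.
-/
import Fermat.Agent.CFT.PT.SmoothCoindTop
import Fermat.Agent.CFT.PT.Cone

set_option autoImplicit false

namespace Fermat.Agent.PT

open CategoryTheory groupCohomology Rep

section Family

variable {G : Type} [Group G] (𝔉 : LevelFamily G)

/-- finitely many members of a level family contain a common member. -/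
theorem thA_exists_le_of_finite {ι : Type} [Finite ι] (U : ι → Subgroup G)
    (hU : ∀ v, U v ∈ 𝔉.sets) : ∃ W ∈ 𝔉.sets, ∀ v, W ≤ U v := by
  induction ι using Finite.induction_empty_option with
  | of_equiv e ih =>
    obtain ⟨W, hW, hle⟩ := ih (fun a => U (e a)) (fun a => hU (e a))
    exact ⟨W, hW, fun v => by simpa using hle (e.symm v)⟩
  | h_empty =>
    obtain ⟨W, hW⟩ := 𝔉.nonempty
    exact ⟨W, hW, fun v => v.elim⟩
  | h_option ih =>
    obtain ⟨W, hW, hle⟩ := ih (fun a => U (some a)) (fun a => hU (some a))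
    obtain ⟨W', hW', hle'⟩ := 𝔉.directed W hW (U none) (hU none)
    refine ⟨W', hW', fun v => ?_⟩
    cases v with
    | none => exact hle'.trans inf_le_right
    | some a => exact (hle'.trans inf_le_left).trans (hle a)

end Family

section Generic

universe u

variable {k G H : Type u} [CommRing k] [Group G] [Group H] (ψ : H →* G) (𝔉 : LevelFamily G)
  (J : Rep.{u} k G) (B : Rep.{u} k H)

/-- a morphism to a smooth coinduction from a function `J → G → B` with the expected properties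
(stated without any linear-map structure, so that it can be used over `k = ℤ` without instance
clashes). -/
noncomputable def thA_mkHom (L : J.V → G → B.V)
    (hadd : ∀ a b g, L (a + b) g = L a g + L b g)
    (hsmul : ∀ (c : k) a g, L (c • a) g = c • L a g)
    (hmem : ∀ a, L a ∈ smCoindV ψ 𝔉 B)
    (hρ : ∀ g₀ a g, L (J.ρ g₀ a) g = L a (g * g₀)) : J ⟶ smCoind ψ 𝔉 B :=
  Rep.ofHom (ρ := J.ρ) (σ := smCoindRepresentation ψ 𝔉 B)
    ⟨{ toFun := fun a => ⟨L a, hmem a⟩
       map_add' := fun a b => Subtype.ext (funext fun g => hadd a b g)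
       map_smul' := fun c a => Subtype.ext (funext fun g => hsmul c a g) },
      fun g₀ => LinearMap.ext fun a => Subtype.ext (funext fun g => hρ g₀ a g)⟩

theorem thA_mkHom_apply (L : J.V → G → B.V)
    (hadd : ∀ a b g, L (a + b) g = L a g + L b g)
    (hsmul : ∀ (c : k) a g, L (c • a) g = c • L a g)
    (hmem : ∀ a, L a ∈ smCoindV ψ 𝔉 B)
    (hρ : ∀ g₀ a g, L (J.ρ g₀ a) g = L a (g * g₀)) (a : J.V) (g : G) :
    ((thA_mkHom ψ 𝔉 J B L hadd hsmul hmem hρ).hom a : smCoindV ψ 𝔉 B).1 g = L a g := rfl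

end Generic

section Theta

variable {G : Type} [Group G] {𝔉 : LevelFamily G} (𝔏 : LocSystem 𝔉)
  (B : ∀ v : 𝔏.ι, Rep.{0} ℤ (𝔏.Gv v))
  (X : 𝔏.ι → Type) [∀ v, CommGroup (X v)] [∀ v, MulDistribMulAction G (X v)]

/-- the abstract data of the theta maps. -/
structure ThetaData : Type where
  /-- the theta map of the place `v` -/
  Θ : ∀ v, X v → G → (B v).V
  map_mul : ∀ v (s t : X v) (g : G), Θ v (s * t) g = Θ v s g + Θ v t g
  injective : ∀ v, Function.Injective (Θ v)
  map_smul : ∀ v (g₀ : G) (t : X v) (g : G), Θ v (g₀ • t) g = Θ v t (g * g₀)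
  equivariant : ∀ v (t : X v) (h : 𝔏.Gv v) (g : G),
    Θ v t (𝔏.ψ v h * g) = (B v).ρ h (Θ v t g)
  surjective : ∀ v (f : smCoindV (𝔏.ψ v) 𝔉 (B v)), ∃ t : X v, ∀ g, Θ v t g = f.1 g

variable {𝔏 B X} (T : ThetaData 𝔏 B X)

/-- the product of the local factors, as a `ℤ`-linear representation of `G`. -/
noncomputable abbrev thA_P : Rep.{0} ℤ G := Rep.ofMulDistribMulAction G (∀ v, X v)

/-- **the abstract `S`-idele module**: the `𝔉`-smooth vectors of the product. -/
noncomputable abbrev thA_J : Rep.{0} ℤ G := smPart 𝔉 (thA_P (G := G) (X := X))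

theorem thA_isSmooth : IsSmooth 𝔉 (thA_J (𝔉 := 𝔉) (X := X)) := isSmooth_smPart 𝔉 _

include T in
theorem thA_map_one (v : 𝔏.ι) (g : G) : T.Θ v 1 g = 0 := by
  have h := T.map_mul v 1 1 g
  rw [mul_one] at h
  exact (add_eq_left.1 h.symm)

/-- the components of an element of the product. -/
def thA_comp (a : (thA_P (G := G) (X := X)).V) (v : 𝔏.ι) : X v :=
  (Additive.toMul a : ∀ v, X v) v

theorem thA_comp_add (a b : (thA_P (G := G) (X := X)).V) (v : 𝔏.ι) :
    thA_comp (a + b) v = thA_comp a v * thA_comp b v := rfl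

theorem thA_comp_ρ (g : G) (a : (thA_P (G := G) (X := X)).V) (v : 𝔏.ι) :
    thA_comp ((thA_P (G := G) (X := X)).ρ g a) v = g • thA_comp a v := rfl

theorem thA_comp_zsmul (c : ℤ) (a : (thA_P (G := G) (X := X)).V) (v : 𝔏.ι) :
    thA_comp (c • a) v = thA_comp a v ^ c := rfl

include T in
theorem thA_map_zpow (v : 𝔏.ι) (t : X v) (c : ℤ) (g : G) :
    T.Θ v (t ^ c) g = c • T.Θ v t g := by
  let φ : X v →* Multiplicative (B v).V :=
    { toFun := fun s => Multiplicative.ofAdd (T.Θ v s g)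
      map_one' := by rw [thA_map_one T v g]; rfl
      map_mul' := fun s s' => by rw [T.map_mul]; rfl }
  have h := map_zpow φ t c
  exact congrArg Multiplicative.toAdd h

include T in
theorem thA_mem_smCoindV (a : (thA_J (𝔉 := 𝔉) (X := X)).V) (v : 𝔏.ι) :
    (fun g => T.Θ v (thA_comp a.1 v) g) ∈ smCoindV (𝔏.ψ v) 𝔉 (B v) := by
  obtain ⟨U, hU, hUa⟩ := a.2
  refine ⟨fun h g => T.equivariant v _ h g, U, hU, fun g u hu => ?_⟩
  show T.Θ v (thA_comp a.1 v) (g * u) = T.Θ v (thA_comp a.1 v) g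
  rw [← T.map_smul, ← thA_comp_ρ, hUa u hu]

/-- **the theta morphisms** `J ⟶ smCoind ψ_v 𝔉 (B v)`. -/
noncomputable def thA_theta (v : 𝔏.ι) :
    thA_J (𝔉 := 𝔉) (X := X) ⟶ smCoind (𝔏.ψ v) 𝔉 (B v) :=
  thA_mkHom (𝔏.ψ v) 𝔉 (thA_J (𝔉 := 𝔉) (X := X)) (B v)
    (fun a g => T.Θ v (thA_comp a.1 v) g)
    (fun a b g => by
      show T.Θ v (thA_comp (a.1 + b.1) v) g = _
      rw [thA_comp_add, T.map_mul])
    (fun c a g => by
      refine Eq.trans ?_ ((thA_map_zpow T v (thA_comp a.1 v) c g).trans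
        (int_smul_eq_zsmul _ c _).symm)
      rfl)
    (fun a => thA_mem_smCoindV T a v)
    (fun g₀ a g => by
      show T.Θ v (thA_comp ((thA_P (G := G) (X := X)).ρ g₀ a.1) v) g =
        T.Θ v (thA_comp a.1 v) (g * g₀)
      rw [thA_comp_ρ, T.map_smul])

theorem thA_theta_apply (v : 𝔏.ι) (a : (thA_J (𝔉 := 𝔉) (X := X)).V) (g : G) :
    ((thA_theta T v).hom a : smCoindV (𝔏.ψ v) 𝔉 (B v)).1 g = T.Θ v (thA_comp a.1 v) g := rfl

/-- **joint bijectivity of the theta morphisms.** -/
theorem thA_theta_bijective [Finite 𝔏.ι] :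
    Function.Bijective (fun (a : (thA_J (𝔉 := 𝔉) (X := X)).V) (v : 𝔏.ι) =>
      (thA_theta T v).hom a) := by
  constructor
  · intro a a' h
    apply Subtype.ext
    have h1 : ∀ v, thA_comp a.1 v = thA_comp a'.1 v := fun v => by
      apply T.injective v
      funext g
      have h2 := congrFun h v
      exact congrFun (congrArg Subtype.val h2) g
    exact congrArg Additive.ofMul (funext h1 : (Additive.toMul a.1 : ∀ v, X v) = Additive.toMul a'.1)
  · intro f
    choose t ht using fun v => T.surjective v (f v)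
    choose U hU hfU using fun v => (f v).2.2
    obtain ⟨W, hW, hWle⟩ := thA_exists_le_of_finite 𝔉 U hU
    have hsm : (Additive.ofMul (fun v => t v) : (thA_P (G := G) (X := X)).V) ∈
        smPartV 𝔉 (thA_P (G := G) (X := X)) := by
      refine ⟨W, hW, fun u hu => ?_⟩
      refine congrArg Additive.ofMul (funext fun v => ?_)
      apply T.injective v
      funext g
      show T.Θ v (u • t v) g = T.Θ v (t v) g
      rw [T.map_smul, ht, ht]
      exact hfU v g u (hWle v hu)
    refine ⟨⟨_, hsm⟩, funext fun v => smCoind_ext fun g => ?_⟩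
    rw [thA_theta_apply]
    exact ht v g

/-- the localisation maps: evaluation of `Θ` at `1`. -/
noncomputable def thA_lam (v : 𝔏.ι) : res (𝔏.ψ v) (thA_J (𝔉 := 𝔉) (X := X)) ⟶ B v :=
  smTopLam (𝔏.ψ v) (thA_theta T v)

theorem thA_lam_apply (v : 𝔏.ι) (a : (thA_J (𝔉 := 𝔉) (X := X)).V) :
    (thA_lam T v).hom a = T.Θ v (thA_comp a.1 v) 1 := rfl

theorem thA_lam_eq (v : 𝔏.ι) (a : (thA_J (𝔉 := 𝔉) (X := X)).V) :
    (thA_lam T v).hom a = ((thA_theta T v).hom a : smCoindV (𝔏.ψ v) 𝔉 (B v)).1 1 := rfl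

/-! ### transport to any model of the `S`-idele module -/

variable {J : Rep.{0} ℤ G} (e : J ⟶ thA_J (𝔉 := 𝔉) (X := X))

/-- the theta morphisms of a model `J` of the abstract `S`-idele module. -/
noncomputable def thA_thetaOf (v : 𝔏.ι) : J ⟶ smCoind (𝔏.ψ v) 𝔉 (B v) := e ≫ thA_theta T v

theorem thA_thetaOf_apply (v : 𝔏.ι) (a : J.V) (g : G) :
    ((thA_thetaOf T e v).hom a : smCoindV (𝔏.ψ v) 𝔉 (B v)).1 g =
      T.Θ v (thA_comp (e.hom a).1 v) g := rfl

theorem thA_thetaOf_bijective [Finite 𝔏.ι] (he : Function.Bijective e.hom) :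
    Function.Bijective (fun (a : J.V) (v : 𝔏.ι) => (thA_thetaOf T e v).hom a) :=
  (thA_theta_bijective T).comp he

/-- the localisation maps of a model `J`: `a ↦ Θ_v ((e a)_v) 1`. -/
noncomputable def thA_lamOf (v : 𝔏.ι) : res (𝔏.ψ v) J ⟶ B v :=
  smTopLam (𝔏.ψ v) (thA_thetaOf T e v)

theorem thA_lamOf_apply (v : 𝔏.ι) (a : J.V) :
    (thA_lamOf T e v).hom a = T.Θ v (thA_comp (e.hom a).1 v) 1 := rfl

theorem thA_lamOf_eq (v : 𝔏.ι) (a : J.V) :
    (thA_lamOf T e v).hom a =
      ((thA_thetaOf T e v).hom a : smCoindV (𝔏.ψ v) 𝔉 (B v)).1 1 := rfl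

/-- a model `J` with a bijective morphism to the abstract module is smooth. -/
theorem thA_isSmooth_of (he : Function.Injective e.hom) : IsSmooth 𝔉 J := by
  intro a
  obtain ⟨U, hU, hUa⟩ := thA_isSmooth (𝔉 := 𝔉) (X := X) (e.hom a)
  refine ⟨U, hU, fun u hu => he ?_⟩
  rw [Rep.hom_comm_apply e u a]
  exact hUa u hu

end Theta

end Fermat.Agent.PT
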