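/-
S55 bridge (K8) (helper16): the concrete dictionary `θ_q : idJSRep S ⟶ smCoind ψ_q (famS S) Q̄_qˣ`
against the (K0) names of `PT/IdeleRep.lean`, from `Bridge/ThetaInst.lean`.
-/
import Fermat.Agent.CFT.PT.IdeleRep
import Fermat.Agent.CFT.Bridge.ThetaInst
import Fermat.Agent.CFT.PT.SmoothCoindLocal
import Fermat.Agent.CFT.Bridge.LevelQuot

set_option autoImplicit false
set_option linter.style.haveILetI false

namespace Fermat.Agent.PT

open CategoryTheory Fermat.Agent.CFT IntermediateField NumberField IsDedekindDomain ExtCitation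
open scoped TensorProduct Fermat.Agent.CFT.TensorGal

local notation "Qb" => AlgebraicClosure ℚ
local notation "Γℚ" => (AlgebraicClosure ℚ ≃ₐ[ℚ] AlgebraicClosure ℚ)

attribute [local instance] Units.mulDistribMulActionRight slQbUnitsAction

noncomputable section

/-- the action of `Γℚ` on `ℚ_v ⊗ Qb` is `1 ⊗ g`. -/
theorem thCo_smul_eq_map (v : HeightOneSpectrum (𝓞 ℚ)) (g : Γℚ) (x : slQb v) :
    g • x = Algebra.TensorProduct.map (AlgHom.id (v.adicCompletion ℚ) (v.adicCompletion ℚ))
      (g : Qb →ₐ[ℚ] Qb) x := by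
  induction x using TensorProduct.induction_on with
  | zero => rw [smul_zero, map_zero]
  | tmul a y => rw [slQb_smul_tmul, Algebra.TensorProduct.map_tmul]; rfl
  | add a b ha hb => rw [smul_add, ha, hb, map_add]

local instance thCo_fact (q : Nat.Primes) : Fact ((q : ℕ).Prime) := ⟨q.2⟩

section At

variable (w : HeightOneSpectrum (𝓞 ℚ)) (q : Nat.Primes)
  (e : Rat.HeightOneSpectrum.primesEquiv w = q)

include e in
theorem thCo_coe_eq : ((Rat.HeightOneSpectrum.primesEquiv w : Nat.Primes) : ℕ) = (q : ℕ) := by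
  rw [e]

/-- the dictionary `Θ : (ℚ_w ⊗ Qb)ˣ → (Γℚ → Q̄_qˣ)` for the place `w` of the prime `q`. -/
def thCo_ThetaAt : (slQb w)ˣ →* (Γℚ → (PadicAlgCl (q : ℕ))ˣ) :=
  thI_unitThetaAdic w (q : ℕ) (thCo_coe_eq w q e)

theorem thCo_ThetaAt_smul (g₀ g : Γℚ) (t : (slQb w)ˣ) :
    thCo_ThetaAt w q e (g₀ • t) g = thCo_ThetaAt w q e t (g * g₀) := by
  rw [thCo_ThetaAt, ← thI_unitThetaAdic_map]
  congr 1

theorem thCo_ThetaAt_injective : Function.Injective (thCo_ThetaAt w q e) :=
  thI_unitThetaAdic_injective w (q : ℕ) (thCo_coe_eq w q e)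

theorem thCo_ThetaAt_local_mul (h : primeLocalGaloisGroup q) (g : Γℚ) (t : (slQb w)ˣ) :
    thCo_ThetaAt w q e t (primeLocalToGlobal q h * g) =
      (show PadicAlgCl (q : ℕ) ≃ₐ[ℚ_[(q : ℕ)]] PadicAlgCl (q : ℕ) from h) •
        thCo_ThetaAt w q e t g :=
  thI_unitThetaAdic_local_mul w (q : ℕ) (thCo_coe_eq w q e) h g t

theorem thCo_ThetaAt_slIncl (y : Qbˣ) (g : Γℚ) :
    thCo_ThetaAt w q e (slIncl w y) g = Units.map (padicEmbedding (q : ℕ) : Qb →* _) (g • y) := by
  apply Units.ext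
  rw [thCo_ThetaAt, thI_unitThetaAdic_of_eq_tmul w (q : ℕ) (thCo_coe_eq w q e) (slIncl w y) 1
    (y : Qb) (slIncl_val w y) g, map_one, map_one, one_mul]
  rfl

include e in
/-- **surjectivity of `Θ`**: every left-equivariant function which is right invariant under a
level of `famS S` is the function of a (unique) unit. -/
theorem thCo_exists_ThetaAt_eq (S : Finset Nat.Primes) (f : Γℚ → (PadicAlgCl (q : ℕ))ˣ)
    (hf1 : ∀ (h : primeLocalGaloisGroup q) (g : Γℚ), f (primeLocalToGlobal q h * g) =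
      (show PadicAlgCl (q : ℕ) ≃ₐ[ℚ_[(q : ℕ)]] PadicAlgCl (q : ℕ) from h) • f g)
    (U : Subgroup Γℚ) (hU : U ∈ (famS S).sets) (hf2 : ∀ g, ∀ u ∈ U, f (g * u) = f g) :
    ∃ t : (slQb w)ˣ, thCo_ThetaAt w q e t = f := by
  have hfix := lvq_fixingSubgroup_fixedField S (lvq_isOpenFor_of_mem S hU)
  obtain ⟨t, ht, -⟩ := thI_existsUnique_unitThetaAdic w (q : ℕ) (thCo_coe_eq w q e)
    (IntermediateField.fixedField U)
    (lvq_finiteDimensional_fixedField S (lvq_isOpenFor_of_mem S hU))
    (lvq_isGalois_of_mem S hU) f hf1 (fun g u hu => hf2 g u (hfix ▸ hu))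
  exact ⟨t, ht⟩

end At

section Lift

variable {G : Type} [Group G] {X : Type} [CommGroup X] [MulDistribMulAction G X]
  {A B : Subgroup X} (hA : IsStableSub G A) (hB : IsStableSub G B) (T : Rep.{0} ℤ G)
  (φ : ↥A → T) (hmul : ∀ x y : ↥A, φ (x * y) = φ x + φ y)
  (hker : ∀ x : ↥A, (x : X) ∈ B → φ x = 0)
  (hρ : ∀ (g : G) (x : ↥A), φ ⟨g • (x : X), hA g x x.2⟩ = T.ρ g (φ x))

/-- the monoid homomorphism underlying `thCo_sqLift`. -/
def thCo_sqLiftHom : (↥A ⧸ B.subgroupOf A) →* Multiplicative T :=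
  QuotientGroup.lift (B.subgroupOf A)
    ({ toFun := fun x => Multiplicative.ofAdd (φ x)
       map_one' := by
        have h := hmul 1 1
        rw [mul_one] at h
        have h0 : φ 1 = 0 := by simpa using h
        rw [h0]; rfl
       map_mul' := fun x y => by rw [hmul]; rfl } : ↥A →* Multiplicative T)
    (fun x hx => by
      rw [Subgroup.mem_subgroupOf] at hx
      change Multiplicative.ofAdd (φ x) = 1
      rw [hker x hx]; rfl)

/-- the additive homomorphism underlying `thCo_sqLift`. -/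
def thCo_sqLiftAdd : Additive (↥A ⧸ B.subgroupOf A) →+ T :=
  (AddEquiv.additiveMultiplicative T).toAddMonoidHom.comp
    (MonoidHom.toAdditive (thCo_sqLiftHom T φ hmul hker))

theorem thCo_sqLiftAdd_sqMk (x : ↥A) :
    thCo_sqLiftAdd T φ hmul hker (sqMk A B hA hB x) = φ x := rfl

end Lift

section Lift2

/-- an additive map between `ℤ`-modules (with arbitrary module structures) is linear. -/
def thCo_intLin {M N : Type} [AddCommGroup M] [AddCommGroup N] [hM : Module ℤ M]
    [hN : Module ℤ N] (f : M →+ N) : M →ₗ[ℤ] N :=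
  { toFun := f
    map_add' := map_add f
    map_smul' := fun n a =>
      (congrArg f (int_smul_eq_zsmul hM n a)).trans
        ((map_zsmul f n a).trans (int_smul_eq_zsmul hN n (f a)).symm) }

attribute [-instance] AddCommGroup.toIntModule

variable {G : Type} [Group G] {X : Type} [CommGroup X] [MulDistribMulAction G X]
  {A B : Subgroup X} (hA : IsStableSub G A) (hB : IsStableSub G B) (T : Rep.{0} ℤ G)
  (φ : ↥A → T) (hmul : ∀ x y : ↥A, φ (x * y) = φ x + φ y)
  (hker : ∀ x : ↥A, (x : X) ∈ B → φ x = 0)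
  (hρ : ∀ (g : G) (x : ↥A), φ ⟨g • (x : X), hA g x x.2⟩ = T.ρ g (φ x))

/-- **morphisms out of a subquotient**: an additive, equivariant map `A → T` killing `A ⊓ B`
induces a morphism `A / (A ⊓ B) ⟶ T`. -/
def thCo_sqLift : sqRep A B hA hB ⟶ T :=
  ConcreteCategory.ofHom (C := Rep.{0} ℤ G) (X := sqRep A B hA hB) (Y := T)
    { toLinearMap := thCo_intLin (M := sqRep A B hA hB) (N := T) (thCo_sqLiftAdd T φ hmul hker)
      isIntertwining' := fun g => by
        refine LinearMap.ext fun a => ?_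
        obtain ⟨x, rfl⟩ := sqMk_surjective A B hA hB a
        exact hρ g x }

theorem thCo_sqLift_sqMk (x : ↥A) :
    (thCo_sqLift hA hB T φ hmul hker hρ).hom (sqMk A B hA hB x) = φ x := rfl

end Lift2


section Coind

variable (S : Finset Nat.Primes) (q : Nat.Primes)

/-- the place of `ℚ` at the prime `q`. -/
def thCo_place : HeightOneSpectrum (𝓞 ℚ) := Rat.HeightOneSpectrum.primesEquiv.symm q

theorem thCo_place_spec : Rat.HeightOneSpectrum.primesEquiv (thCo_place q) = q := by
  rw [thCo_place, Equiv.apply_symm_apply]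

theorem thCo_place_mem : thCo_place q ∈ placesS S ↔ q ∈ S := by
  change Rat.HeightOneSpectrum.primesEquiv (thCo_place q) ∈ S ↔ q ∈ S
  rw [thCo_place_spec]

theorem thCo_eq_place {w : HeightOneSpectrum (𝓞 ℚ)}
    (e : Rat.HeightOneSpectrum.primesEquiv w = q) : w = thCo_place q := by
  rw [thCo_place, ← e, Equiv.symm_apply_apply]

/-- the dictionary `Θ_q : (ℚ_q ⊗ Qb)ˣ → (Γℚ → Q̄_qˣ)`. -/
def thCo_Theta : (slQb (thCo_place q))ˣ →* (Γℚ → (PadicAlgCl (q : ℕ))ˣ) :=
  thCo_ThetaAt (thCo_place q) q (thCo_place_spec q)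

/-- the function `Γℚ → Q̄_qˣ` (additively) attached to `x ∈ ∏_v (ℚ_v ⊗ Qb)ˣ`. -/
def thCo_fun (x : slProd) : Γℚ → smLoc_units q :=
  fun g => (show smLoc_units q from Additive.ofMul (thCo_Theta q (x (thCo_place q)) g))

theorem thCo_fun_apply (x : slProd) (g : Γℚ) :
    thCo_fun q x g = (show smLoc_units q from
      Additive.ofMul (thCo_Theta q (x (thCo_place q)) g)) := rfl

theorem thCo_fun_mul (x y : slProd) : thCo_fun q (x * y) = thCo_fun q x + thCo_fun q y := by
  funext g
  rw [thCo_fun_apply, slProd_mul_apply, map_mul]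
  rfl

theorem thCo_fun_smul (g₀ : Γℚ) (x : slProd) (g : Γℚ) :
    thCo_fun q (g₀ • x) g = thCo_fun q x (g * g₀) := by
  rw [thCo_fun_apply, thCo_fun_apply, slProd_smul_apply, thCo_Theta, thCo_ThetaAt_smul]

theorem thCo_fun_mem (x : slProd) (hx : ∃ U ∈ (famS S).sets, ∀ g ∈ U, g • x = x) :
    thCo_fun q x ∈ smCoindV (primeLocalToGlobal q) (famS S) (smLoc_units q) := by
  obtain ⟨U, hU, hx⟩ := hx
  refine ⟨fun h g => ?_, U, hU, fun g u hu => ?_⟩
  · rw [thCo_fun_apply, thCo_fun_apply, thCo_Theta, thCo_ThetaAt_local_mul]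
    rfl
  · rw [← thCo_fun_smul, hx u hu]

end Coind

section Theta

variable (S : Finset Nat.Primes) (q : Nat.Primes)

theorem thCo_fun_one : thCo_fun q (1 : slProd) = 0 := by
  funext g
  rw [thCo_fun_apply, slProd_one_apply, map_one]
  rfl

/-- the smooth coinduced function attached to an `S`-idele. -/
def thCo_coindFun (x : ↥(idJS S)) : smCoind (primeLocalToGlobal q) (famS S) (smLoc_units q) :=
  (⟨thCo_fun q (x : slProd), thCo_fun_mem S q (x : slProd) x.2.1.1⟩ :
    smCoindV (primeLocalToGlobal q) (famS S) (smLoc_units q))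

theorem thCo_coindFun_apply (x : ↥(idJS S)) (g : Γℚ) :
    (thCo_coindFun S q x : smCoindV (primeLocalToGlobal q) (famS S) (smLoc_units q)).1 g =
      thCo_fun q (x : slProd) g := rfl

/-- **the dictionary `θ_q : J_S ⟶ smCoind ψ_q (famS S) Q̄_qˣ`**. -/
def thCo_theta : idJSRep S ⟶ smCoind (primeLocalToGlobal q) (famS S) (smLoc_units q) :=
  thCo_sqLift (isStableSub_idJS S) IsStableSub.bot
    (smCoind (primeLocalToGlobal q) (famS S) (smLoc_units q)) (thCo_coindFun S q)
    (fun x y => Subtype.ext (thCo_fun_mul q (x : slProd) (y : slProd)))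
    (fun x hx => by
      have h1 : (x : slProd) = 1 := Subgroup.mem_bot.1 hx
      apply Subtype.ext
      change thCo_fun q (x : slProd) = 0
      rw [h1, thCo_fun_one])
    (fun g x => by
      apply Subtype.ext
      funext g'
      exact thCo_fun_smul q g (x : slProd) g')

theorem thCo_theta_sqMk (x : ↥(idJS S)) :
    (thCo_theta S q).hom (sqMk (idJS S) ⊥ (isStableSub_idJS S) IsStableSub.bot x) =
      thCo_coindFun S q x := rfl

theorem thCo_theta_sqMk_apply (x : ↥(idJS S)) (g : Γℚ) :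
    ((thCo_theta S q).hom (sqMk (idJS S) ⊥ (isStableSub_idJS S) IsStableSub.bot x) :
      smCoindV (primeLocalToGlobal q) (famS S) (smLoc_units q)).1 g =
      (show smLoc_units q from
        Additive.ofMul (thCo_Theta q ((x : slProd) (thCo_place q)) g)) := rfl

end Theta

end

end Fermat.Agent.PT
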