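/-
S55 bridge (K8) (helper16): `hθ` = joint bijectivity of the dictionary
`idJSRep S → ∏_{q ∈ S} smCoind ψ_q (famS S) Q̄_qˣ` (`thCoB_bijective`).
-/
import Fermat.Agent.CFT.PT.ThetaCoind
import Fermat.Agent.CFT.PT.ThetaAbs

set_option autoImplicit false
set_option linter.style.haveILetI false

namespace Fermat.Agent.PT

open CategoryTheory Fermat.Agent.CFT IntermediateField NumberField IsDedekindDomain ExtCitation
open scoped TensorProduct Fermat.Agent.CFT.TensorGal

local notation "Qb" => AlgebraicClosure ℚ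
local notation "Γℚ" => (AlgebraicClosure ℚ ≃ₐ[ℚ] AlgebraicClosure ℚ)

attribute [local instance] Units.mulDistribMulActionRight slQbUnitsAction

noncomputable section

local instance thCoB_fact (q : Nat.Primes) : Fact ((q : ℕ).Prime) := ⟨q.2⟩

variable (S : Finset Nat.Primes)

theorem thCoB_finite_placesS : (placesS S).Finite := by
  have h : placesS S = Rat.HeightOneSpectrum.primesEquiv ⁻¹' (S : Set Nat.Primes) := rfl
  rw [h]
  exact S.finite_toSet.preimage (Rat.HeightOneSpectrum.primesEquiv.injective.injOn)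

/-- **injectivity**: an `S`-idele is determined by its functions at the primes of `S`. -/
theorem thCoB_injective : Function.Injective
    (fun (a : idJSRep S) (v : ↥S) => (thCo_theta S v.1).hom a) := by
  intro a a' h
  obtain ⟨x, rfl⟩ := sqMk_surjective (idJS S) ⊥ (isStableSub_idJS S) IsStableSub.bot a
  obtain ⟨x', rfl⟩ := sqMk_surjective (idJS S) ⊥ (isStableSub_idJS S) IsStableSub.bot a'
  refine congrArg (sqMk (idJS S) ⊥ (isStableSub_idJS S) IsStableSub.bot) ?_
  apply Subtype.ext
  apply slProd_ext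
  intro w
  by_cases hw : w ∈ placesS S
  · have e : w = thCo_place (Rat.HeightOneSpectrum.primesEquiv w) := thCo_eq_place _ rfl
    generalize Rat.HeightOneSpectrum.primesEquiv w = q at e hw
    subst e
    have hq : q ∈ S := (thCo_place_mem S q).1 hw
    apply thCo_ThetaAt_injective (thCo_place q) q (thCo_place_spec q)
    funext g
    have h1 : (thCo_theta S q).hom (sqMk (idJS S) ⊥ (isStableSub_idJS S) IsStableSub.bot x) =
        (thCo_theta S q).hom (sqMk (idJS S) ⊥ (isStableSub_idJS S) IsStableSub.bot x') :=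
      congrFun h ⟨q, hq⟩
    rw [thCo_theta_sqMk, thCo_theta_sqMk] at h1
    have h2 : thCo_fun q (x : slProd) g = thCo_fun q (x' : slProd) g := by
      rw [← thCo_coindFun_apply, ← thCo_coindFun_apply, h1]
    rw [thCo_fun_apply, thCo_fun_apply] at h2
    exact Additive.ofMul.injective h2
  · rw [x.2.2 w hw, x'.2.2 w hw]

section Surj

variable (F : ∀ v : ↥S, smCoindV (primeLocalToGlobal v.1) (famS S) (smLoc_units v.1))

/-- the unit of `ℚ_w ⊗ Qb` with prescribed function. -/
theorem thCoB_exists_unit (w : HeightOneSpectrum (𝓞 ℚ)) (q : Nat.Primes) (hq : q ∈ S)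
    (e : Rat.HeightOneSpectrum.primesEquiv w = q) :
    ∃ t : (slQb w)ˣ, ∀ g : Γℚ,
      (show smLoc_units q from Additive.ofMul (thCo_ThetaAt w q e t g)) = (F ⟨q, hq⟩).1 g := by
  obtain ⟨U, hU, hfU⟩ := (F ⟨q, hq⟩).2.2
  obtain ⟨t, ht⟩ := thCo_exists_ThetaAt_eq w q e S
    (fun g => Additive.toMul (show Additive (PadicAlgCl (q : ℕ))ˣ from (F ⟨q, hq⟩).1 g))
    (fun h g => congrArg Additive.toMul ((F ⟨q, hq⟩).2.1 h g))
    U hU (fun g u hu => congrArg Additive.toMul (hfU g u hu))
  exact ⟨t, fun g => by rw [ht]; rfl⟩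

open scoped Classical in
/-- the `S`-idele with prescribed functions. -/
def thCoB_x : slProd := fun w =>
  if hw : w ∈ placesS S then
    Classical.choose (thCoB_exists_unit S F w (Rat.HeightOneSpectrum.primesEquiv w) hw rfl)
  else 1

theorem thCoB_x_of_notMem {w : HeightOneSpectrum (𝓞 ℚ)} (hw : w ∉ placesS S) :
    thCoB_x S F w = 1 := dif_neg hw

theorem thCoB_x_spec (w : HeightOneSpectrum (𝓞 ℚ)) (q : Nat.Primes) (hq : q ∈ S)
    (e : Rat.HeightOneSpectrum.primesEquiv w = q) (g : Γℚ) :
    (show smLoc_units q from Additive.ofMul (thCo_ThetaAt w q e (thCoB_x S F w) g)) =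
      (F ⟨q, hq⟩).1 g := by
  subst e
  have hw : w ∈ placesS S := hq
  have hx : thCoB_x S F w =
      Classical.choose (thCoB_exists_unit S F w (Rat.HeightOneSpectrum.primesEquiv w) hw rfl) :=
    dif_pos hw
  rw [hx]
  exact Classical.choose_spec
    (thCoB_exists_unit S F w (Rat.HeightOneSpectrum.primesEquiv w) hw rfl) g

theorem thCoB_x_fixed : ∃ U ∈ (famS S).sets, ∀ g ∈ U, g • thCoB_x S F = thCoB_x S F := by
  choose U hU hfU using fun v : ↥S => (F v).2.2
  obtain ⟨W, hW, hWle⟩ := thA_exists_le_of_finite (famS S) U hU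
  refine ⟨W, hW, fun g hg => ?_⟩
  apply slProd_ext
  intro w
  rw [slProd_smul_apply]
  by_cases hw : w ∈ placesS S
  · apply thCo_ThetaAt_injective w (Rat.HeightOneSpectrum.primesEquiv w) rfl
    funext g'
    rw [thCo_ThetaAt_smul]
    apply Additive.ofMul.injective
    have h1 := thCoB_x_spec S F w (Rat.HeightOneSpectrum.primesEquiv w) hw rfl (g' * g)
    have h2 := thCoB_x_spec S F w (Rat.HeightOneSpectrum.primesEquiv w) hw rfl g'
    exact h1.trans ((hfU ⟨_, hw⟩ g' g (hWle ⟨_, hw⟩ hg)).trans h2.symm)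
  · rw [thCoB_x_of_notMem S F hw, smul_one]

theorem thCoB_x_mem : thCoB_x S F ∈ idJS S := by
  refine ⟨⟨thCoB_x_fixed S F, ?_⟩, fun w hw => thCoB_x_of_notMem S F hw⟩
  rw [Filter.eventually_cofinite]
  refine (thCoB_finite_placesS S).subset fun w hw => ?_
  by_contra hw'
  apply hw
  rw [thCoB_x_of_notMem S F hw']
  exact one_mem _

end Surj

/-- **surjectivity**: every family of smooth coinduced functions comes from an `S`-idele. -/
theorem thCoB_surjective : Function.Surjective
    (fun (a : idJSRep S) (v : ↥S) => (thCo_theta S v.1).hom a) := by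
  intro F
  refine ⟨sqMk (idJS S) ⊥ (isStableSub_idJS S) IsStableSub.bot ⟨thCoB_x S F, thCoB_x_mem S F⟩, ?_⟩
  funext v
  obtain ⟨q, hq⟩ := v
  change (thCo_theta S q).hom _ = F ⟨q, hq⟩
  rw [thCo_theta_sqMk]
  apply Subtype.ext
  funext g
  rw [thCo_coindFun_apply, thCo_fun_apply]
  exact thCoB_x_spec S F (thCo_place q) q hq (thCo_place_spec q) g

/-- **(K8) `hθ`: joint bijectivity of the dictionary** `J_S ≅ ∏_{q ∈ S} smCoind ψ_q (famS S) Q̄_qˣ`. -/
theorem thCoB_bijective : Function.Bijective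
    (fun (a : idJSRep S) (v : ↥S) => (thCo_theta S v.1).hom a) :=
  ⟨thCoB_injective S, thCoB_surjective S⟩

end

end Fermat.Agent.PT
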