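import Mathlib
import Fermat.Agent.CFT.PT.ThetaCoind
import Fermat.Agent.CFT.PT.IdeleESid
import Fermat.Agent.CFT.PT.S55OfTheta

set_option autoImplicit false
set_option linter.unusedSectionVars false
set_option linter.style.haveILetI false

/-!
# S55 GLOBAL, (K8) last link: the diagonal formula `hdiag` for `θ := thCo_theta`

(helper7)  For helper16's `thCo_theta S q : idJSRep S ⟶ smCoind ψ_q (famS S) Q̄_qˣ` and helper11's
`idES_toJS S : ESRep S ⟶ idJSRep S`: the value at `1` of `θ_q (ιE e)` is `ι_q(e)`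
(`thD_hdiag`), in the shape of the `hdiag` hypothesis of helper22's `s55Side_main_theta` VERBATIM;
more generally the value at `g` is `ι_q(g e)` (`thD_theta_toJS_apply`).
-/

namespace Fermat.Agent.PT

open CategoryTheory Fermat.Agent.CFT IntermediateField NumberField IsDedekindDomain ExtCitation
open scoped TensorProduct Fermat.Agent.CFT.TensorGal

local notation "Qb" => AlgebraicClosure ℚ
local notation "Γℚ" => (AlgebraicClosure ℚ ≃ₐ[ℚ] AlgebraicClosure ℚ)

attribute [local instance] Units.mulDistribMulActionRight slQbUnitsAction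

variable (S : Finset Nat.Primes)

/-- the value of `θ_q ∘ ιE` at `g`: `e ↦ ι_q (g e)`. -/
theorem thD_theta_toJS_apply (q : Nat.Primes) (hq : q ∈ S) (e : ES S) (g : Γℚ) :
    (((thCo_theta S q).hom ((idES_toJS S).hom (Additive.ofMul e)) :
        smCoindV (primeLocalToGlobal q) (famS S) (smLoc_units q)).1 g : smLoc_units q) =
      letI : Fact ((q : ℕ)).Prime := ⟨q.2⟩
      Additive.ofMul (Units.map (padicEmbedding (q : ℕ) : Qb →* PadicAlgCl (q : ℕ))
        (g • ((e : ES S) : Qbˣ))) := by
  letI : Fact ((q : ℕ)).Prime := ⟨q.2⟩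
  rw [idES_toJS_apply, thCo_theta_sqMk_apply]
  have h1 : slDiagS S ((Additive.toMul (Additive.ofMul e) : ES S) : Qbˣ) (thCo_place q) =
      slIncl (thCo_place q) ((e : ES S) : Qbˣ) :=
    slDiagS_apply_of_mem S _ ((thCo_place_mem S q).2 hq)
  change Additive.ofMul (thCo_Theta q
    (slDiagS S ((Additive.toMul (Additive.ofMul e) : ES S) : Qbˣ) (thCo_place q)) g) = _
  rw [h1, thCo_Theta, thCo_ThetaAt_slIncl]

/-- **`hdiag` of `s55Side_main_theta`, VERBATIM**, for `θ := fun v => thCo_theta S v.1` and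
`ιE := idES_toJS S`. -/
theorem thD_hdiag (v : ↥S) (e : ES S) :
    ((thCo_theta S v.1).hom ((idES_toJS S).hom (Additive.ofMul e)) :
        smCoindV ((locS S).ψ v) (famS S) (smLoc_units v.1)).1 1 =
      letI : Fact ((v.1 : ℕ)).Prime := ⟨v.1.2⟩
      Additive.ofMul (Units.map (padicEmbedding (v.1 : ℕ) : Qb →* PadicAlgCl (v.1 : ℕ))
        ((e : ES S) : Qbˣ)) := by
  have h := thD_theta_toJS_apply S v.1 v.2 e 1
  rw [one_smul] at h
  exact h

end Fermat.Agent.PT
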