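import Fermat.Agent.CFT.PT.SUnitsTop
import Fermat.Agent.CFT.PT.TopRestrict

/-!
# S55 GLOBAL TOP, chain D (1): the `ℚ`-level Kummer half and the `ℚ`-level `TopDatum`

* `topQ_kappa p S hpS : intRep (cycloRep p) ⟶ ESRep S`, `topQ_wK`, `topQ_hK` : the Kummer sequence
  `0 → μ_p → E_S → E_S → 0` over `Γℚ` with `μ_p = cycloRep p` (the `V`-free twin of helper21's
  `sUT_kappaCyclo`).
* `TopSideQ p S` : what the `J`-side and the local Kummer side deliver at the `ℚ`-level;
  `TopSideQ.datum : TopDatum p (locS S) (cycloRep p)` with `C := cokernel ιE`.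
-/

set_option autoImplicit false

namespace Fermat.Agent.PT

open CategoryTheory Fermat.Agent.CFT IntermediateField ExtCitation Rep groupCohomology

local notation "Qb" => AlgebraicClosure ℚ
local notation "Γℚ" => (AlgebraicClosure ℚ ≃ₐ[ℚ] AlgebraicClosure ℚ)

section Kummer

variable (p : ℕ) [Fact p.Prime] (S : Finset Nat.Primes) (hpS : pPrime p ∈ S)

attribute [local instance] sUR_mulDistribMulAction muMulDistribMulAction

/-- the additive map `𝔽_p → E_S`, `m ↦ ζ^m`. -/
noncomputable def topQ_kappaAdd : (cycloRep p).V →+ Additive (ES S) :=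
  (MonoidHom.toAdditive (sUR_muInclHom p S hpS)).comp (sUT_jBase p).toAddMonoidHom

theorem topQ_kappaAdd_apply (m : ZMod p) :
    topQ_kappaAdd p S hpS m = Additive.ofMul (sUR_muInclHom p S hpS (sUT_jBase p m).toMul) := rfl

theorem topQ_kappaAdd_equivariant (g : Γℚ) (m : (cycloRep p).V) :
    topQ_kappaAdd p S hpS ((cycloRep p).ρ g m) = (ESRep S).ρ g (topQ_kappaAdd p S hpS m) := by
  have h : (cycloRep p).ρ g m = (cycloChar p g : ZMod p) * m := ofChar_ρ_apply _ g m
  rw [h]
  change Additive.ofMul (sUR_muInclHom p S hpS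
      (sUT_jBase p ((cycloChar p g : ZMod p) * m)).toMul) =
    Additive.ofMul (g • (sUR_muInclHom p S hpS (sUT_jBase p m).toMul))
  rw [sUT_jBase_cyclo p g m]
  rfl

/-- **`κ : μ_p → E_S`** over `Γℚ`. -/
noncomputable def topQ_kappa : intRep (cycloRep p) ⟶ ESRep S :=
  intRepHomToAddHom (ESRep S).ρ (cycloRep p) (topQ_kappaAdd p S hpS)
    (topQ_kappaAdd_equivariant p S hpS)

theorem topQ_kappa_apply (m : ZMod p) :
    (topQ_kappa p S hpS).hom m =
      Additive.ofMul (sUR_muInclHom p S hpS (sUT_jBase p m).toMul) := rfl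

theorem topQ_wK : topQ_kappa p S hpS ≫ sUR_powHom p S = 0 := by
  ext m
  change (sUR_powHom p S).hom ((topQ_kappa p S hpS).hom m) = 0
  rw [sUR_powHom_apply, topQ_kappa_apply]
  have h := (mem_rootsOfUnity _ _).mp ((sUT_jBase p m).toMul : rootsOfUnity p Qb).2
  change Additive.ofMul ((sUR_muInclHom p S hpS (sUT_jBase p m).toMul) ^ p) =
    Additive.ofMul (1 : ES S)
  refine congrArg Additive.ofMul (Subtype.ext ?_)
  rw [Subgroup.coe_pow, coe_sUR_muInclHom, h]
  rfl

/-- **the Kummer sequence `0 → μ_p → E_S → E_S → 0` over `Γℚ`** in the shape of `TopDatum.hK`. -/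
theorem topQ_hK :
    (ShortComplex.mk (topQ_kappa p S hpS) (sUR_powHom p S) (topQ_wK p S hpS)).ShortExact := by
  have hS := kummerSeqS_shortExact p S hpS
  have hM : Mono (topQ_kappa p S hpS) := by
    rw [Rep.mono_iff_injective]
    intro a b hab
    have h : ((sUR_muInclHom p S hpS (sUT_jBase p a).toMul : ES S) : Qbˣ) =
        ((sUR_muInclHom p S hpS (sUT_jBase p b).toMul : ES S) : Qbˣ) :=
      congrArg (fun t : Additive (ES S) => ((t.toMul : ES S) : Qbˣ)) hab
    rw [coe_sUR_muInclHom, coe_sUR_muInclHom] at h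
    have h2 : (sUT_jBase p a).toMul = (sUT_jBase p b).toMul := Subtype.ext h
    exact (sUT_jBase p).injective (congrArg Additive.ofMul h2)
  have hP : Epi (sUR_powHom p S) := hS.epi_g
  have hE : (ShortComplex.mk (topQ_kappa p S hpS) (sUR_powHom p S) (topQ_wK p S hpS)).Exact := by
    rw [rep_shortComplex_exact_iff]
    intro x hx
    have h1 := (rep_shortComplex_exact_iff (kummerSeqS p S hpS)).1 hS.exact x hx
    obtain ⟨z, hz⟩ := h1
    change Additive (rootsOfUnity p Qb) at z
    refine ⟨(sUT_jBase p).symm z, ?_⟩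
    change (topQ_kappa p S hpS).hom ((sUT_jBase p).symm z) = x
    rw [topQ_kappa_apply, (sUT_jBase p).apply_symm_apply]
    exact hz
  exact { exact := hE, mono_f := hM, epi_g := hP }

theorem topQ_powHom_apply (e : Additive (ES S)) : (sUR_powHom p S).hom e = p • e := rfl

end Kummer

end Fermat.Agent.PT
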