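/-
S55 GLOBAL TOP, chain D (helper15): the (G1) clause END-TO-END from ONE `ℚ`-level datum.

For `D : TopDatum p (locS S) (cycloRep p)` with `Lv v = smLoc_units v.1` and `J` the product of the
smooth coinductions (`θ`, `hθ`: helper13 / helper2), the class (C-W) `y₀` and the `C`-side inputs
(C-A1), (C-A5a) at the open subgroups with trivial cyclotomic character (and index prime to `p`):

* `topG1_levelInputs` : `TopLevelInputsP p D V'`;
* `topG1_globalOut1P`, `topG1_cdTwoS`, `topG1_globalOut1`;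
* `topG1_globalTopH3P : GlobalTopH3P p S` (witness: `D.restrictOpen V'` over the empty local system,
  transported along `res V'.subtype (cycloRep p) = trivRep p ↥V'`).
-/
import Fermat.Agent.CFT.PT.GlobalOut1OfDatum
import Fermat.Agent.CFT.PT.SmoothCoindLocalInst
import Fermat.Agent.CFT.PT.GlobalOutOfTopP

set_option autoImplicit false

namespace Fermat.Agent.PT

open CategoryTheory groupCohomology Rep Fermat.Agent.CFT ExtCitation Module

local notation "Γℚ" => (AlgebraicClosure ℚ ≃ₐ[ℚ] AlgebraicClosure ℚ)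

section Transport

variable {p : ℕ} {G : Type} [Group G] {𝔉 : LevelFamily G} {𝔏 : LocSystem 𝔉}

/-- transport of the (G1)-inputs of a datum along an equality of coefficient modules. -/
theorem topG1_exists_of_eq {μ μ' : Rep.{0} (ZMod p) G} (e : μ = μ') (D₀ : TopDatum p 𝔏 μ)
    (h1 : ∀ c : Hlc 𝔉 D₀.C 1, p • c = 0 → c = 0)
    (h2 : ∀ y : Hlc 𝔉 D₀.J 2, ∃ y', p • y' = y)
    (h3 : ∀ y : Hlc 𝔉 D₀.J 3, p • y = 0 → y = 0)
    (h5 : ∀ c : Hlc 𝔉 D₀.C 2, p • c = 0 → ∃ y : Hlc 𝔉 D₀.J 2, p • y = 0 ∧ D₀.πI 2 y = c) :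
    ∃ D : TopDatum p 𝔏 μ',
      (∀ c : Hlc 𝔉 D.C 1, p • c = 0 → c = 0) ∧
      (∀ y : Hlc 𝔉 D.J 2, ∃ y', p • y' = y) ∧
      (∀ y : Hlc 𝔉 D.J 3, p • y = 0 → y = 0) ∧
      (∀ c : Hlc 𝔉 D.C 2, p • c = 0 → ∃ y : Hlc 𝔉 D.J 2, p • y = 0 ∧ D.πI 2 y = c) := by
  subst e
  exact ⟨D₀, h1, h2, h3, h5⟩

end Transport

section Final

variable {p : ℕ} [Fact p.Prime] {S : Finset Nat.Primes}
  (D : TopDatum p (locS S) (cycloRep p))
  (hLv : ∀ v, D.Lv v = smLoc_units v.1)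
  (θ : ∀ v, D.J ⟶ smCoind ((locS S).ψ v) (famS S) (D.Lv v))
  (hθ : Function.Bijective (fun (a : D.J.V) (v : (locS S).ι) => (θ v).hom a))
  (hpS : pPrime p ∈ S)
  (y₀ : Hlc (famS S) D.J 2) (hy₀ : p • y₀ = 0) (hπ : D.πI 2 y₀ ≠ 0)
  (hCA1 : ∀ V' : Subgroup Γℚ, IsOpenFor (famS S) V' → (∀ s ∈ V', cycloChar p s = 1) →
    Nat.Coprime p V'.index →
    ∀ c : Hlc ((famS S).restrict V') (res V'.subtype D.C) 1, p • c = 0 → c = 0)
  (hCA5 : ∀ V' : Subgroup Γℚ, IsOpenFor (famS S) V' → (∀ s ∈ V', cycloChar p s = 1) →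
    Nat.Coprime p V'.index →
    ∀ s : Finset (Hlc ((famS S).restrict V') (res V'.subtype D.C) 2),
      (∀ c ∈ s, p • c = 0) → s.card ≤ p)

include hLv hθ hpS hCA1 hCA5 in
/-- the level-wise inputs of (G1) at an open subgroup with trivial cyclotomic character and index
prime to `p`. -/
theorem topG1_levelInputs (V' : Subgroup Γℚ) (hV' : IsOpenFor (famS S) V')
    (hcyc : ∀ s ∈ V', cycloChar p s = 1) (hcop : Nat.Coprime p V'.index) :
    TopLevelInputsP p D V' where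
  hA1p := hCA1 V' hV' hcyc hcop
  hA2 := smLocI_res_hA2 D hLv θ hθ V' hV' hpS
  hA3 := smLocI_res_hA3 D hLv θ hθ V' hV'
  hC := hCA5 V' hV' hcyc hcop

include hLv hθ hpS hy₀ hπ hCA1 hCA5 in
/-- **(G1P) end-to-end.** -/
theorem topG1_globalOut1P : GlobalOut1P p S :=
  globalOut1P_of_datum D y₀ hy₀ hπ (topG1_levelInputs D hLv θ hθ hpS hCA1 hCA5)

include hLv hθ hpS hy₀ hπ hCA1 hCA5 in
/-- **`cd_p(G_S) ≤ 2` end-to-end.** -/
theorem topG1_cdTwoS : CdTwoS p S :=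
  cdTwoS_of_globalOut1P hpS (topG1_globalOut1P D hLv θ hθ hpS y₀ hy₀ hπ hCA1 hCA5)

include hLv hθ hpS hy₀ hπ hCA1 hCA5 in
/-- **(G1) end-to-end.** -/
theorem topG1_globalOut1 : GlobalOut1 p S :=
  globalOut1_of_cdTwoS (topG1_cdTwoS D hLv θ hθ hpS y₀ hy₀ hπ hCA1 hCA5)

include hLv hθ hpS hy₀ hπ hCA1 hCA5 in
/-- **`GlobalTopH3P` end-to-end** (helper24's package, for `S55_of_globalTop`). -/
theorem topG1_globalTopH3P : GlobalTopH3P p S := by
  intro V' hV' hcyc hcop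
  have e : res V'.subtype (cycloRep p) = trivRep p ↥V' :=
    baseCount_res_cycloRep_eq p V'.subtype (fun u => hcyc u u.2)
  have hlev := topG1_levelInputs D hLv θ hθ hpS hCA1 hCA5 V' hV' hcyc hcop
  exact ⟨LocSystem.emptyP ((famS S).restrict V'),
    topG1_exists_of_eq e (D.restrictOpen V') hlev.hA1p hlev.hA2 hlev.hA3
      (D.hA5_restrictOpen (baseCount_famS_finiteIndex S) V' hV' hcop y₀ hy₀ hπ hlev.hC)⟩

end Final

end Fermat.Agent.PT
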