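import Fermat.Agent.CFT.PT.SmoothTowerP
import Fermat.Agent.CFT.PT.ShaOneTop
import Fermat.Agent.CFT.PT.GlobalOutOfTopP
import Fermat.Agent.CFT.PT.TopRestrict

/-!
# S55 GLOBAL TOP, chain D (3): the clause (T5) `|Ш¹| ≤ |Hlc¹(E)/p|` at a cyclo-level

* `towerP_restrict_restrict` : a `p`-torsion-freeness statement for `Hlc^n(V', A)` at all open
  subgroups `V'` of `G` gives the same statement for the open subgroups `U` of an open `V ≤ G`,
  in the doubly restricted form `Hlc ((𝔉.restrict V).restrict U) (res U.subtype (res V.subtype A))`.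
* `TopDatum.n3_restrictNormal` : the third numeric clause of `GlobalTopAtC` for `D.restrictNormal V`
  from (C-A1) at all open subgroups, the first inequality (C-FI) and the `J`-side inputs.
-/

set_option autoImplicit false

namespace Fermat.Agent.PT

open CategoryTheory groupCohomology Rep Fermat.Agent.CFT ExtCitation

universe u

section Engine

variable {k G : Type u} [CommRing k] [Group G] (𝔉 : LevelFamily G)

/-- an open subgroup of an open subgroup is open (as a subgroup of `G`). -/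
theorem IsOpenFor.map_subtype {V : Subgroup G} (hV : IsOpenFor 𝔉 V) {U : Subgroup ↥V}
    (hU : IsOpenFor (𝔉.restrict V) U) : IsOpenFor 𝔉 (U.map V.subtype) := by
  obtain ⟨V₀, hV₀, hV₀V⟩ := hV
  obtain ⟨W, ⟨W₀, hW₀, rfl⟩, hWU⟩ := hU
  obtain ⟨W', hW', hle⟩ := 𝔉.directed W₀ hW₀ V₀ hV₀
  refine ⟨W', hW', fun w hw => ?_⟩
  have hwV : w ∈ V := hV₀V (hle hw).2
  exact ⟨⟨w, hwV⟩, hWU (show (⟨w, hwV⟩ : ↥V).1 ∈ W₀ from (hle hw).1), rfl⟩

/-- **the doubly restricted form** of a `p`-torsion-freeness statement. -/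
theorem towerP_restrict_restrict (A : Rep.{u} k G) (n p : ℕ)
    (h : ∀ V' : Subgroup G, IsOpenFor 𝔉 V' →
      ∀ c : Hlc (𝔉.restrict V') (res V'.subtype A) n, p • c = 0 → c = 0)
    {V : Subgroup G} (hV : IsOpenFor 𝔉 V) (U : Subgroup ↥V) (hU : IsOpenFor (𝔉.restrict V) U) :
    ∀ y : Hlc ((𝔉.restrict V).restrict U) (res U.subtype (res V.subtype A)) n,
      p • y = 0 → y = 0 := by
  have hle : U.map V.subtype ≤ V := by
    rintro _ ⟨u, -, rfl⟩
    exact u.2
  have e : (U.map V.subtype).subgroupOf V = U :=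
    Subgroup.comap_map_eq_self_of_injective V.subtype_injective U
  have hP : ∀ y : Hlc ((𝔉.restrict V).restrict ((U.map V.subtype).subgroupOf V))
      (res ((U.map V.subtype).subgroupOf V).subtype (res V.subtype A)) n, p • y = 0 → y = 0 := by
    intro y hy
    have hp0 : p • (towerEquiv 𝔉 hle (res V.subtype A) n).symm y = 0 := by
      rw [← map_nsmul, hy, map_zero]
    have h0 : (towerEquiv 𝔉 hle (res V.subtype A) n).symm y = 0 :=
      h (U.map V.subtype) (IsOpenFor.map_subtype 𝔉 hV hU) _ hp0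
    exact (towerEquiv 𝔉 hle (res V.subtype A) n).symm.map_eq_zero_iff.1 h0
  exact e ▸ hP

end Engine

namespace TopDatum

variable {p : ℕ} [Fact p.Prime] {G : Type} [Group G] {𝔉 : LevelFamily G} {𝔏 : LocSystem 𝔉}
  {μ : Rep.{0} (ZMod p) G} (D : TopDatum p 𝔏 μ)

/-- **(T5) at a level `V`**: `|Ш¹(V, 𝔽_p)| ≤ |Hlc¹(V, E)/p|` for `D.restrictNormal V`, from (C-A1) at
all open subgroups of `G`, the `J`-side inputs at `V`, (C-A5a) at `V` and the first inequality in
helper26's shape. -/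
theorem n3_restrictNormal (hfin : 𝔉.FiniteIndex) (V : Subgroup G) [V.Normal]
    (hV : IsOpenFor 𝔉 V)
    (hCA1 : ∀ V' : Subgroup G, IsOpenFor 𝔉 V' →
      ∀ c : Hlc (𝔉.restrict V') (res V'.subtype D.C) 1, p • c = 0 → c = 0)
    (hJ1p : ∀ y : Hlc (𝔉.restrict V) (D.restrictNormal V).J 1, p • y = 0 → y = 0)
    (hA4inj : ∀ y : Hlc (𝔉.restrict V) (D.restrictNormal V).J 2, p • y = 0 →
      (D.restrictNormal V).lamH 2 y = 0 → y = 0)
    (hC : ∀ s : Finset (Hlc (𝔉.restrict V) (D.restrictNormal V).C 2),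
      (∀ c ∈ s, p • c = 0) → s.card ≤ p)
    (hFI : ∀ U : Subgroup ↥V, U.Normal → IsOpenFor (𝔉.restrict V) U → U.index = p →
      ∀ σ : ↥V, σ ∉ U → ∃ x : D.C, (∀ g : ↥V, D.C.ρ (g : G) x = x) ∧
        ∀ b : D.C, (∀ u ∈ U, D.C.ρ ((u : ↥V) : G) b = b) →
          x ≠ ∑ i ∈ Finset.range p, D.C.ρ ((σ ^ i : ↥V) : G) b)
    [Finite (Hlc (𝔉.restrict V) (D.restrictNormal V).E 1 ⧸
      (topChase_mulP p (Hlc (𝔉.restrict V) (D.restrictNormal V).E 1)).range)] :
    Nat.card (LinearMap.ker (locRes (𝔏.restrictNormal V) (Rep.trivial (ZMod p) ↥V (ZMod p)) 1)) ≤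
      Nat.card (Hlc (𝔉.restrict V) (D.restrictNormal V).E 1 ⧸
        (topChase_mulP p (Hlc (𝔉.restrict V) (D.restrictNormal V).E 1)).range) := by
  refine (D.restrictNormal V).card_ker_locRes_one_le (hfin.restrict V) hJ1p hA4inj hC ?_
  intro U hUn hUo hUi
  exact ⟨towerP_restrict_restrict 𝔉 D.C 1 p hCA1 hV U hUo, hFI U hUn hUo hUi⟩

end TopDatum

end Fermat.Agent.PT
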